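import Mathlib
import Fermat.Prelude.Def_FLTPrelim_Modularity

/-!
# The trivial bound on point counts (helper1790, board row S58-TRIVBOUND)

For a Weierstrass curve `W` over a finite field `F` with `q` elements (any characteristic, general
`a₁, …, a₆`, no hypothesis on the discriminant) the Prelude point count satisfies
`1 ≤ W.card ≤ 2 q + 1`, hence `|W.traceOfFrobenius| ≤ q`.  For an integral model this gives
`|W.apOfModel l| ≤ l`, so `W.apOfModel l ≠ ± (l + 1)`, and a congruence
`t ≡ ± (q + 1) (mod m)` for infinitely many `m` is impossible when `|t| ≤ q`.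
-/

set_option autoImplicit false

namespace Fermat.Agent.S58.helper1790

open WeierstrassCurve Polynomial

section Finite

variable {F : Type*} [Field F] [Fintype F]

/-- For a fixed abscissa there are at most two ordinates on a Weierstrass cubic. -/
theorem card_filter_equation_le (W : WeierstrassCurve F) (x : F)
    [DecidablePred fun y : F => W.toAffine.Equation x y] :
    (Finset.univ.filter fun y : F => W.toAffine.Equation x y).card ≤ 2 := by
  classical
  set p : F[X] :=
    X ^ 2 + C (W.a₁ * x + W.a₃) * X - C (x ^ 3 + W.a₂ * x ^ 2 + W.a₄ * x + W.a₆) with hp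
  have hdeg : p.natDegree = 2 := by
    rw [hp]
    compute_degree!
  have hp0 : p ≠ 0 := by
    intro h
    rw [h] at hdeg
    simp at hdeg
  calc (Finset.univ.filter fun y : F => W.toAffine.Equation x y).card
      ≤ p.roots.toFinset.card := by
        refine Finset.card_le_card ?_
        intro y hy
        simp only [Finset.mem_filter, Finset.mem_univ, true_and] at hy
        rw [Multiset.mem_toFinset, mem_roots hp0, IsRoot.def]
        rw [WeierstrassCurve.Affine.equation_iff] at hy
        simp only [hp, eval_sub, eval_add, eval_pow, eval_X, eval_mul, eval_C]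
        linear_combination hy
    _ ≤ Multiset.card p.roots := Multiset.toFinset_card_le _
    _ ≤ p.natDegree := Polynomial.card_roots' p
    _ = 2 := hdeg

/-- The number of affine solutions of a Weierstrass equation is at most `2 q`. -/
theorem card_filter_equation_prod_le (W : WeierstrassCurve F)
    [DecidablePred fun p : F × F => W.toAffine.Equation p.1 p.2] :
    (Finset.univ.filter fun p : F × F => W.toAffine.Equation p.1 p.2).card ≤
      2 * Fintype.card F := by
  classical
  set s : Finset (F × F) := Finset.univ.filter fun p : F × F => W.toAffine.Equation p.1 p.2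
    with hs
  have h1 : s.card ≤ 2 * (s.image Prod.fst).card := by
    refine Finset.card_le_mul_card_image s 2 ?_
    intro x _
    refine le_trans ?_ (card_filter_equation_le W x)
    refine Finset.card_le_card_of_injOn Prod.snd ?_ ?_
    · intro p hp
      simp only [Finset.coe_filter, Set.mem_ofPred_eq, hs, Finset.mem_filter, Finset.mem_univ,
        true_and] at hp
      simp only [Finset.coe_filter, Finset.mem_univ, true_and, Set.mem_ofPred_eq]
      rw [← hp.2]
      exact hp.1
    · intro p hp p' hp' h
      simp only [Finset.coe_filter, Set.mem_ofPred_eq] at hp hp'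
      exact Prod.ext (hp.2.trans hp'.2.symm) h
  have h2 : (s.image Prod.fst).card ≤ Fintype.card F := Finset.card_le_univ _
  omega

/-- The Prelude point count of a Weierstrass curve over a finite field with `q` elements is at
most `2 q + 1`. -/
theorem card_le (W : WeierstrassCurve F) : W.card ≤ 2 * Fintype.card F + 1 := by
  classical
  let T := {p : F × F // W.toAffine.Equation p.1 p.2}
  let f : W.toAffine.Point → Option T := fun P =>
    match P with
    | .zero => none
    | .some x y h => some ⟨(x, y), h.1⟩
  have hf : Function.Injective f := by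
    rintro (_ | ⟨x₁, y₁, h₁⟩) (_ | ⟨x₂, y₂, h₂⟩) h
    · rfl
    · simp [f] at h
    · simp [f] at h
    · simp only [f, Option.some.injEq, Subtype.mk.injEq, Prod.mk.injEq] at h
      obtain ⟨rfl, rfl⟩ := h
      rfl
  have h1 : Nat.card W.toAffine.Point ≤ Nat.card (Option T) :=
    Nat.card_le_card_of_injective f hf
  have h2 : Nat.card (Option T) = Fintype.card T + 1 := by
    rw [Nat.card_eq_fintype_card, Fintype.card_option]
  have h3 : Fintype.card T ≤ 2 * Fintype.card F := by
    rw [Fintype.card_subtype]
    exact card_filter_equation_prod_le W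
  unfold WeierstrassCurve.card
  omega

/-- The Prelude point count is positive (the point at infinity). -/
theorem one_le_card (W : WeierstrassCurve F) : 1 ≤ W.card := by
  unfold WeierstrassCurve.card
  have : Nonempty W.toAffine.Point := ⟨0⟩
  exact Nat.card_pos

/-- **Trivial bound**: `|q + 1 - #W(F)| ≤ q`. -/
theorem abs_traceOfFrobenius_le (W : WeierstrassCurve F) :
    |W.traceOfFrobenius| ≤ (Fintype.card F : ℤ) := by
  have h1 := card_le W
  have h2 := one_le_card W
  unfold WeierstrassCurve.traceOfFrobenius
  rw [Nat.card_eq_fintype_card, abs_le]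
  constructor <;> omega

theorem traceOfFrobenius_ne_add_one (W : WeierstrassCurve F) :
    W.traceOfFrobenius ≠ (Fintype.card F : ℤ) + 1 := by
  have h := abs_le.mp (abs_traceOfFrobenius_le W)
  omega

theorem traceOfFrobenius_ne_neg_add_one (W : WeierstrassCurve F) :
    W.traceOfFrobenius ≠ -((Fintype.card F : ℤ) + 1) := by
  have h := abs_le.mp (abs_traceOfFrobenius_le W)
  have h0 : (0 : ℤ) ≤ (Fintype.card F : ℤ) := Int.natCast_nonneg _
  omega

end Finite

/-- **Trivial bound** for an integral model: `|a_l(W)| ≤ l`. -/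
theorem abs_apOfModel_le (W : WeierstrassCurve ℤ) (l : ℕ) [Fact l.Prime] :
    |W.apOfModel l| ≤ (l : ℤ) := by
  have h := abs_traceOfFrobenius_le (W.reductionMod l)
  rwa [ZMod.card] at h

theorem apOfModel_ne_add_one (W : WeierstrassCurve ℤ) (l : ℕ) [Fact l.Prime] :
    W.apOfModel l ≠ (l : ℤ) + 1 := by
  have h := abs_le.mp (abs_apOfModel_le W l)
  omega

theorem apOfModel_ne_neg_add_one (W : WeierstrassCurve ℤ) (l : ℕ) [Fact l.Prime] :
    W.apOfModel l ≠ -((l : ℤ) + 1) := by
  have h := abs_le.mp (abs_apOfModel_le W l)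
  omega

/-- Sign form: `a_l(W) ≠ ε (l + 1)` for `ε = ± 1`. -/
theorem apOfModel_ne_sign_mul (W : WeierstrassCurve ℤ) (l : ℕ) [Fact l.Prime] {ε : ℤ}
    (hε : ε = 1 ∨ ε = -1) : W.apOfModel l ≠ ε * ((l : ℤ) + 1) := by
  rcases hε with rfl | rfl
  · simpa using apOfModel_ne_add_one W l
  · simpa using apOfModel_ne_neg_add_one W l

/-- Abstract consumer form: an integer `t` with `|t| ≤ q` cannot be congruent to `± (q + 1)`
modulo the members of an infinite set of natural numbers (the sign may depend on the modulus). -/
theorem false_of_infinite_dvd {t q : ℤ} (ht : |t| ≤ q) (S : Set ℕ) (hS : S.Infinite)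
    (h : ∀ m ∈ S, (m : ℤ) ∣ t - (q + 1) ∨ (m : ℤ) ∣ t + (q + 1)) : False := by
  have hq : 0 ≤ q := le_trans (abs_nonneg t) ht
  obtain ⟨m, hmS, hm⟩ := hS.exists_gt (2 * q + 1).toNat
  have hm' : 2 * q + 1 < (m : ℤ) := by
    have := Int.toNat_lt (by omega : 0 ≤ 2 * q + 1) |>.mp hm
    exact this
  have ht' := abs_le.mp ht
  rcases h m hmS with h1 | h1
  · have h0 : t - (q + 1) ≠ 0 := by omega
    have habs : |t - (q + 1)| ≤ 2 * q + 1 := by rw [abs_le]; constructor <;> omega
    have hpos : 0 < |t - (q + 1)| := abs_pos.mpr h0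
    have hle : (m : ℤ) ≤ |t - (q + 1)| := Int.le_of_dvd hpos ((dvd_abs _ _).mpr h1)
    omega
  · have h0 : t + (q + 1) ≠ 0 := by omega
    have habs : |t + (q + 1)| ≤ 2 * q + 1 := by rw [abs_le]; constructor <;> omega
    have hpos : 0 < |t + (q + 1)| := abs_pos.mpr h0
    have hle : (m : ℤ) ≤ |t + (q + 1)| := Int.le_of_dvd hpos ((dvd_abs _ _).mpr h1)
    omega

/-- Consumer form for integral models: `a_l(W) ≡ ± (l + 1) (mod m)` cannot hold for all `m` in an
infinite set. -/
theorem apOfModel_false_of_infinite_dvd (W : WeierstrassCurve ℤ) (l : ℕ) [Fact l.Prime]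
    (S : Set ℕ) (hS : S.Infinite)
    (h : ∀ m ∈ S, (m : ℤ) ∣ W.apOfModel l - ((l : ℤ) + 1) ∨
      (m : ℤ) ∣ W.apOfModel l + ((l : ℤ) + 1)) : False :=
  false_of_infinite_dvd (abs_apOfModel_le W l) S hS h

/-- Consumer form over a finite field (e.g. `F_{r^f}`): `t ≡ ± (q + 1) (mod m)` cannot hold for all
`m` in an infinite set, `t` the Prelude trace of Frobenius. -/
theorem traceOfFrobenius_false_of_infinite_dvd {F : Type*} [Field F] [Fintype F]
    (W : WeierstrassCurve F) (S : Set ℕ) (hS : S.Infinite)
    (h : ∀ m ∈ S, (m : ℤ) ∣ W.traceOfFrobenius - ((Fintype.card F : ℤ) + 1) ∨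
      (m : ℤ) ∣ W.traceOfFrobenius + ((Fintype.card F : ℤ) + 1)) : False :=
  false_of_infinite_dvd (abs_traceOfFrobenius_le W) S hS h

end Fermat.Agent.S58.helper1790
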