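/-
S58, route #1886, step 6 input (board #1176, helper5765): S58-CHTORS.

FROBENIUS RELATION ON PRIME-TO-`ℓ` TORSION OF `W(ℚ̄)` FROM CAYLEY–HAMILTON ON THE REDUCTION.

Let `W` be an integral Weierstrass model with good reduction at a prime `ℓ`, `A` a valuation
subring of `ℚ̄` over `ℓ`, `σ ∈ Gal(ℚ̄/ℚ)` a Frobenius element at `A` (acting as `x ↦ x ^ q` on the
residue field of `A`).  If the `q`-power Frobenius `φ` of the reduced curve satisfies a relation
`φ² - t φ + d = 0` on the points of `W mod ℓ` over the residue field of `A`, then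
`σ² - t σ + d = 0` on every torsion point of `W(ℚ̄)` of order prime to `ℓ`.

Also: the action of a Frobenius element on roots of unity of order prime to `ℓ`, the inertia
group acts trivially on prime-to-`ℓ` torsion (good reduction), and transport of all relations
along variable changes defined over `ℚ`.

Everything here is hypothesis-passing on the Cayley–Hamilton relation of the reduced curve.
-/
import Mathlib
import Fermat.Prelude.Def_FLTPrelim_Modularity
import Fermat.Prelude.Def_EllipticCurve_FrobeniusTrace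
import Fermat.Agent.S52.helper130_Bridge
import Fermat.Agent.Lib.helper872_QbarPlaces
import Fermat.Agent.S05.helper725_Transfer

set_option autoImplicit false

namespace Fermat.Agent.S58.helper5765

open WeierstrassCurve WeierstrassCurve.Affine

local notation "Qb" => AlgebraicClosure ℚ

/-! ## Abstract transfer of a quadratic relation along an injective equivariant map -/

/-- If `r : G →+ H` is injective and intertwines `s` with `F`, a relation `F² - t F + d = 0`
on the image of `r` pulls back to `s² - t s + d = 0`. -/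
theorem quad_rel_of_injective {G H : Type*} [AddCommGroup G] [AddCommGroup H]
    (r : G →+ H) (hr : Function.Injective r) (s : G →+ G) (F : H →+ H)
    (hrs : ∀ P, r (s P) = F (r P)) (t d : ℤ)
    (hF : ∀ P : G, F (F (r P)) - t • F (r P) + d • r P = 0) (P : G) :
    s (s P) - t • s P + d • P = 0 := by
  apply hr
  rw [map_zero, map_add, map_sub, map_zsmul, map_zsmul, hrs, hrs]
  exact hF P

/-! ## Residue action of Frobenius and inertia elements -/

section Residue

variable {A : ValuationSubring Qb} {σ : Qb ≃ₐ[ℚ] Qb}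

/-- A Frobenius element at `A` maps `A` into itself. -/
theorem isFrobeniusAt_map_mem {q : ℕ} (hσ : A.IsFrobeniusAt σ q) {a : Qb} (ha : a ∈ A) :
    σ a ∈ A := by
  have h := hσ.mem_decompositionSubgroup
  have h2 : (⟨σ, h⟩ : A.decompositionSubgroup ℚ) • (⟨a, ha⟩ : A) ∈ (Set.univ : Set A) :=
    Set.mem_univ _
  exact ((⟨σ, h⟩ : A.decompositionSubgroup ℚ) • (⟨a, ha⟩ : A)).2

/-- A Frobenius element at `A` acts as `x ↦ x ^ q` on residues. -/
theorem isFrobeniusAt_residue {q : ℕ} (hσ : A.IsFrobeniusAt σ q) {a : Qb} (ha : a ∈ A)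
    (ha' : σ a ∈ A) :
    IsLocalRing.residue A ⟨σ a, ha'⟩ = (IsLocalRing.residue A ⟨a, ha⟩) ^ q := by
  have h1 := hσ.smul_residue_eq (IsLocalRing.residue A ⟨a, ha⟩)
  rw [← IsLocalRing.ResidueField.residue_smul] at h1
  rw [← h1]
  rfl

/-- An inertia element at `A` maps `A` into itself. -/
theorem inertia_map_mem (hσ : σ ∈ A.inertiaSubgroupIn ℚ) {a : Qb} (ha : a ∈ A) : σ a ∈ A :=
  (((Fermat.Agent.Lib.helper872.mem_inertiaSubgroupIn_iff A σ).1 hσ).1 a).2 ha

/-- An inertia element at `A` acts trivially on residues. -/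
theorem inertia_residue (hσ : σ ∈ A.inertiaSubgroupIn ℚ) {a : Qb} (ha : a ∈ A)
    (ha' : σ a ∈ A) :
    IsLocalRing.residue A ⟨σ a, ha'⟩ = IsLocalRing.residue A ⟨a, ha⟩ := by
  have h := ((Fermat.Agent.Lib.helper872.mem_inertiaSubgroupIn_iff A σ).1 hσ).2 a ha
  rw [← sub_eq_zero, ← map_sub, IsLocalRing.residue_eq_zero_iff]
  exact (ValuationSubring.coe_mem_nonunits_iff (A := A)).1 h

end Residue

/-! ## The reduction map on prime-to-`ℓ` torsion and its equivariance -/

section Torsion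

open Fermat.Agent.S52.helper130

variable (W : WeierstrassCurve ℤ) (ℓ : ℕ) [hℓ : Fact ℓ.Prime]

/-- The curve over `ℚ̄` attached to an integral model (Prelude shape). -/
noncomputable abbrev curveQb : Affine Qb := ((W.map (Int.castRingHom ℚ)).toAffine⁄Qb)

/-- The `n`-torsion of `W(ℚ̄)` (Prelude shape). -/
abbrev Tors (n : ℕ) : Type := Submodule.torsionBy ℤ (curveQb W).Point n

/-- The reduced curve over the residue field of `A`. -/
noncomputable abbrev curveRes (A : ValuationSubring Qb) [Algebra (ZMod ℓ) (IsLocalRing.ResidueField A)] :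
    Affine (IsLocalRing.ResidueField A) :=
  ((W.reductionMod ℓ).toAffine⁄(IsLocalRing.ResidueField A))

/-- **Reduction on prime-to-`ℓ` torsion.**  For an integral model `W` with good reduction at
`ℓ`, a valuation subring `A` of `ℚ̄` over `ℓ` and `n` prime to `ℓ`, there is an injective additive
map from `W(ℚ̄)[n]` to the points of `W mod ℓ` over the residue field of `A`, given on
coordinates by the residue map. -/
theorem exists_redTors (hgood : W.IsGoodPrimeFor ℓ) (A : ValuationSubring Qb)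
    (hA : A.LiesOverPrime ℓ) [Algebra (ZMod ℓ) (IsLocalRing.ResidueField A)]
    [DecidableEq (IsLocalRing.ResidueField A)] (n : ℕ) (hn : Nat.Coprime n ℓ) :
    ∃ r : Tors W n →+ (curveRes W ℓ A).Point, Function.Injective r ∧
      ∀ (x y : Qb) (h : (curveQb W).Nonsingular x y)
        (hP : Point.some x y h ∈ Submodule.torsionBy ℤ (curveQb W).Point n),
        ∃ (hx : x ∈ A) (hy : y ∈ A)
          (h' : (curveRes W ℓ A).Nonsingular (IsLocalRing.residue A ⟨x, hx⟩)
            (IsLocalRing.residue A ⟨y, hy⟩)),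
          r ⟨Point.some x y h, hP⟩ =
            Point.some (IsLocalRing.residue A ⟨x, hx⟩) (IsLocalRing.residue A ⟨y, hy⟩) h' := by
  have hπ : ∀ a : A, ¬ IsUnit a → IsLocalRing.residue A a = 0 := fun a ha =>
    (IsLocalRing.residue_eq_zero_iff a).mpr ((IsLocalRing.mem_maximalIdeal a).mpr ha)
  have hnu : IsUnit (n : A) := isUnit_natCast_of_liesOverPrime A hA hn
  have hΔ : (curveRes W ℓ A).Δ ≠ 0 := by
    show ((W.map (Int.castRingHom (ZMod ℓ))).map
      (algebraMap (ZMod ℓ) (IsLocalRing.ResidueField A))).Δ ≠ 0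
    rw [WeierstrassCurve.map_Δ, WeierstrassCurve.map_Δ]
    rw [Ne, map_eq_zero_iff _ (algebraMap (ZMod ℓ) (IsLocalRing.ResidueField A)).injective]
    show ((W.Δ : ℤ) : ZMod ℓ) ≠ 0
    rw [Ne, ZMod.intCast_zmod_eq_zero_iff_dvd]
    exact hgood
  exact exists_redHom_torsion (WA := W.map (algebraMap ℤ A)) hπ
    (map_subtype_eq W A) (map_residue_eq W ℓ A) hΔ hnu

/-- **Equivariance of reduction**: if `σ ∈ Gal(ℚ̄/ℚ)` preserves `A` and induces the
`ZMod ℓ`-algebra endomorphism `φ` on the residue field, then a coordinatewise reduction map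
`ρ` on `n`-torsion intertwines `σ` and the map on points induced by `φ`. -/
theorem red_smul (A : ValuationSubring Qb) [Algebra (ZMod ℓ) (IsLocalRing.ResidueField A)]
    [DecidableEq (IsLocalRing.ResidueField A)] (n : ℕ)
    (ρ : Tors W n →+ (curveRes W ℓ A).Point)
    (hρ : ∀ (x y : Qb) (h : (curveQb W).Nonsingular x y)
        (hP : Point.some x y h ∈ Submodule.torsionBy ℤ (curveQb W).Point n),
        ∃ (hx : x ∈ A) (hy : y ∈ A)
          (h' : (curveRes W ℓ A).Nonsingular (IsLocalRing.residue A ⟨x, hx⟩)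
            (IsLocalRing.residue A ⟨y, hy⟩)),
          ρ ⟨Point.some x y h, hP⟩ =
            Point.some (IsLocalRing.residue A ⟨x, hx⟩) (IsLocalRing.residue A ⟨y, hy⟩) h')
    (σ : Qb ≃ₐ[ℚ] Qb)
    (φ : IsLocalRing.ResidueField A →ₐ[ZMod ℓ] IsLocalRing.ResidueField A)
    (hφ : ∀ (a : Qb) (ha : a ∈ A) (ha' : σ a ∈ A),
      IsLocalRing.residue A ⟨σ a, ha'⟩ = φ (IsLocalRing.residue A ⟨a, ha⟩))
    (P : Tors W n) :
    ρ (σ • P) = Point.map (W' := (W.reductionMod ℓ).toAffine) φ (ρ P) := by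
  obtain ⟨P, hP⟩ := P
  rcases P with _ | ⟨x, y, h⟩
  · have h0 : (⟨Point.zero, hP⟩ : Tors W n) = 0 := rfl
    rw [h0, smul_zero, map_zero, map_zero]
  · obtain ⟨hx, hy, h', e⟩ := hρ x y h hP
    have hmem := (σ • (⟨Point.some x y h, hP⟩ : Tors W n)).2
    have hσP : (σ • (⟨Point.some x y h, hP⟩ : Tors W n)) =
        ⟨Point.some (σ x) (σ y)
          ((Affine.baseChange_nonsingular _ σ.toAlgHom.injective x y).mpr h), hmem⟩ := rfl
    obtain ⟨hx', hy', h'', e'⟩ := hρ (σ x) (σ y) _ hmem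
    rw [hσP, e', e, Point.map_some]
    exact some_congr (hφ x hx hx') (hφ y hy hy')

/-- **Frobenius relation on torsion, general form.**  `σ` a Frobenius element at `A` with
residue action `x ↦ x ^ q`, `φ` the `q`-power map of the residue field as a `ZMod ℓ`-algebra map.
A relation `φ² - t φ + d = 0` on the points of `W mod ℓ` over the residue field of `A` gives
`σ² - t σ + d = 0` on `W(ℚ̄)[n]` for every `n` prime to `ℓ`. -/
theorem frob_relation_torsion (hgood : W.IsGoodPrimeFor ℓ) (A : ValuationSubring Qb)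
    (hA : A.LiesOverPrime ℓ) [Algebra (ZMod ℓ) (IsLocalRing.ResidueField A)]
    [DecidableEq (IsLocalRing.ResidueField A)]
    (σ : Qb ≃ₐ[ℚ] Qb) (q : ℕ) (hσ : A.IsFrobeniusAt σ q)
    (φ : IsLocalRing.ResidueField A →ₐ[ZMod ℓ] IsLocalRing.ResidueField A)
    (hφ : ∀ x, φ x = x ^ q) (t d : ℤ)
    (hCH : ∀ P : (curveRes W ℓ A).Point,
      Point.map (W' := (W.reductionMod ℓ).toAffine) φ
          (Point.map (W' := (W.reductionMod ℓ).toAffine) φ P)
        - t • Point.map (W' := (W.reductionMod ℓ).toAffine) φ P + d • P = 0)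
    (n : ℕ) (hn : Nat.Coprime n ℓ) (P : Tors W n) :
    σ • σ • P - t • σ • P + d • P = 0 := by
  obtain ⟨r, hr, hrs⟩ := exists_redTors W ℓ hgood A hA n hn
  have key := red_smul W ℓ A n r hrs σ φ
    (fun a ha ha' => by rw [isFrobeniusAt_residue hσ ha ha', hφ])
  exact quad_rel_of_injective r hr (DistribSMul.toAddMonoidHom _ σ)
    (Point.map (W' := (W.reductionMod ℓ).toAffine) φ) key t d (fun P => hCH (r P)) P

/-- Pointwise form of `frob_relation_torsion`. -/
theorem frob_relation_point (hgood : W.IsGoodPrimeFor ℓ) (A : ValuationSubring Qb)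
    (hA : A.LiesOverPrime ℓ) [Algebra (ZMod ℓ) (IsLocalRing.ResidueField A)]
    [DecidableEq (IsLocalRing.ResidueField A)]
    (σ : Qb ≃ₐ[ℚ] Qb) (q : ℕ) (hσ : A.IsFrobeniusAt σ q)
    (φ : IsLocalRing.ResidueField A →ₐ[ZMod ℓ] IsLocalRing.ResidueField A)
    (hφ : ∀ x, φ x = x ^ q) (t d : ℤ)
    (hCH : ∀ P : (curveRes W ℓ A).Point,
      Point.map (W' := (W.reductionMod ℓ).toAffine) φ
          (Point.map (W' := (W.reductionMod ℓ).toAffine) φ P)
        - t • Point.map (W' := (W.reductionMod ℓ).toAffine) φ P + d • P = 0)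
    (n : ℕ) (hn : Nat.Coprime n ℓ) (P : (curveQb W).Point) (hP : n • P = 0) :
    σ • σ • P - t • σ • P + d • P = 0 := by
  have hmem : P ∈ Submodule.torsionBy ℤ (curveQb W).Point n := by
    rw [Submodule.mem_torsionBy_iff, natCast_zsmul]
    exact hP
  have h := frob_relation_torsion W ℓ hgood A hA σ q hσ φ hφ t d hCH n hn ⟨P, hmem⟩
  exact congrArg Subtype.val h

/-- The residue field of a valuation subring of `ℚ̄` over `ℓ` has characteristic `ℓ`. -/
theorem charP_residueField (A : ValuationSubring Qb) (hA : A.LiesOverPrime ℓ) :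
    CharP (IsLocalRing.ResidueField A) ℓ := by
  have h1 : ¬ IsUnit ((ℓ : ℕ) : A) := by
    intro h
    have h2 : (((ℓ : ℕ) : A) : Qb) ∈ A.nonunits := by
      have : (((ℓ : ℕ) : A) : Qb) = (ℓ : Qb) := by push_cast; rfl
      rw [this]; exact hA
    rw [ValuationSubring.coe_mem_nonunits_iff] at h2
    exact h2 h
  have h3 : IsLocalRing.residue A ((ℓ : ℕ) : A) = 0 :=
    (IsLocalRing.residue_eq_zero_iff _).mpr ((IsLocalRing.mem_maximalIdeal _).mpr h1)
  rw [map_natCast] at h3
  exact (CharP.charP_iff_prime_eq_zero hℓ.out).mpr h3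

/-- **Frobenius relation on torsion from Cayley–Hamilton (`q = ℓ`, S52 `FrobCH` shape).**
If the `ℓ`-power Frobenius of `W mod ℓ` satisfies `φ² - a_ℓ φ + ℓ = 0` (`a_ℓ = W.apOfModel ℓ`)
over every algebraically closed field of characteristic `ℓ`, then every Frobenius element `σ` at
a place of `ℚ̄` over `ℓ` satisfies `σ² - a_ℓ σ + ℓ = 0` on `W(ℚ̄)[n]`, `n` prime to `ℓ`. -/
theorem frob_relation_of_frobCH (hgood : W.IsGoodPrimeFor ℓ)
    (hCH : ∀ (K : Type) [Field K] [DecidableEq K] [Algebra (ZMod ℓ) K],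
      IsAlgClosed K → FrobCH ℓ W K)
    (A : ValuationSubring Qb) (hA : A.LiesOverPrime ℓ) (σ : Qb ≃ₐ[ℚ] Qb)
    (hσ : A.IsFrobeniusAt σ ℓ) (n : ℕ) (hn : Nat.Coprime n ℓ) (P : Tors W n) :
    σ • σ • P - W.apOfModel ℓ • σ • P + (ℓ : ℤ) • P = 0 := by
  have hchar : CharP (IsLocalRing.ResidueField A) ℓ := charP_residueField ℓ A hA
  let _ : Algebra (ZMod ℓ) (IsLocalRing.ResidueField A) := ZMod.algebra _ ℓ
  let _ : DecidableEq (IsLocalRing.ResidueField A) := Classical.decEq _
  have hclosed : IsAlgClosed (IsLocalRing.ResidueField A) := isAlgClosed_residueField A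
  refine frob_relation_torsion W ℓ hgood A hA σ ℓ hσ
    (FiniteField.frobeniusAlgHom (ZMod ℓ) (IsLocalRing.ResidueField A)) ?_ _ _
    (hCH _ hclosed) n hn P
  intro x
  rw [FiniteField.frobeniusAlgHom_apply, ZMod.card]

/-- Pointwise form of `frob_relation_of_frobCH`. -/
theorem frob_relation_point_of_frobCH (hgood : W.IsGoodPrimeFor ℓ)
    (hCH : ∀ (K : Type) [Field K] [DecidableEq K] [Algebra (ZMod ℓ) K],
      IsAlgClosed K → FrobCH ℓ W K)
    (A : ValuationSubring Qb) (hA : A.LiesOverPrime ℓ) (σ : Qb ≃ₐ[ℚ] Qb)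
    (hσ : A.IsFrobeniusAt σ ℓ) (n : ℕ) (hn : Nat.Coprime n ℓ) (P : (curveQb W).Point)
    (hP : n • P = 0) :
    σ • σ • P - W.apOfModel ℓ • σ • P + (ℓ : ℤ) • P = 0 := by
  have hmem : P ∈ Submodule.torsionBy ℤ (curveQb W).Point n := by
    rw [Submodule.mem_torsionBy_iff, natCast_zsmul]
    exact hP
  have h := frob_relation_of_frobCH W ℓ hgood hCH A hA σ hσ n hn ⟨P, hmem⟩
  exact congrArg Subtype.val h

/-- **Good reduction: inertia acts trivially on prime-to-`ℓ` torsion.** -/
theorem inertia_smul_tors (hgood : W.IsGoodPrimeFor ℓ) (A : ValuationSubring Qb)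
    (hA : A.LiesOverPrime ℓ) (σ : Qb ≃ₐ[ℚ] Qb) (hσ : σ ∈ A.inertiaSubgroupIn ℚ)
    (n : ℕ) (hn : Nat.Coprime n ℓ) (P : Tors W n) : σ • P = P := by
  have hchar : CharP (IsLocalRing.ResidueField A) ℓ := charP_residueField ℓ A hA
  let _ : Algebra (ZMod ℓ) (IsLocalRing.ResidueField A) := ZMod.algebra _ ℓ
  let _ : DecidableEq (IsLocalRing.ResidueField A) := Classical.decEq _
  obtain ⟨r, hr, hrs⟩ := exists_redTors W ℓ hgood A hA n hn
  have key := red_smul W ℓ A n r hrs σ (AlgHom.id _ _)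
    (fun a ha ha' => by rw [inertia_residue hσ ha ha']; rfl) P
  apply hr
  rw [key]
  exact Point.map_id (W' := (W.reductionMod ℓ).toAffine) (r P)

/-- Pointwise form of `inertia_smul_tors`. -/
theorem inertia_smul_point (hgood : W.IsGoodPrimeFor ℓ) (A : ValuationSubring Qb)
    (hA : A.LiesOverPrime ℓ) (σ : Qb ≃ₐ[ℚ] Qb) (hσ : σ ∈ A.inertiaSubgroupIn ℚ)
    (n : ℕ) (hn : Nat.Coprime n ℓ) (P : (curveQb W).Point) (hP : n • P = 0) : σ • P = P := by
  have hmem : P ∈ Submodule.torsionBy ℤ (curveQb W).Point n := by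
    rw [Submodule.mem_torsionBy_iff, natCast_zsmul]
    exact hP
  have h := inertia_smul_tors W ℓ hgood A hA σ hσ n hn ⟨P, hmem⟩
  exact congrArg Subtype.val h

end Torsion

/-! ## Frobenius elements on roots of unity -/

section RootsOfUnity

/-- Roots of unity lie in every valuation subring. -/
theorem mem_of_pow_eq_one {K : Type*} [Field K] (A : ValuationSubring K) {ζ : K} {n : ℕ}
    (hn : n ≠ 0) (hζ : ζ ^ n = 1) : ζ ∈ A := by
  rcases A.mem_or_inv_mem ζ with h | h
  · exact h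
  · have h1 : ζ = ζ⁻¹ ^ (n - 1) := by
      have hζ0 : ζ ≠ 0 := by
        rintro rfl
        rw [zero_pow hn] at hζ
        exact zero_ne_one hζ
      have h2 : ζ * ζ ^ (n - 1) = 1 := by
        rw [← pow_succ', Nat.sub_add_cancel (Nat.pos_of_ne_zero hn), hζ]
      rw [inv_pow]
      exact eq_inv_of_mul_eq_one_left h2
    rw [h1]
    exact pow_mem h _

/-- Two `n`-th roots of unity with the same residue are equal, when `n` is a unit of `A`. -/
theorem eq_of_pow_eq_one_of_residue_eq {K : Type*} [Field K] (A : ValuationSubring K) {n : ℕ}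
    (hn : IsUnit (n : A)) (a b : A) (ha : a ^ n = 1) (hb : b ^ n = 1)
    (hab : IsLocalRing.residue A a = IsLocalRing.residue A b) : a = b := by
  by_contra hne
  have hn0 : n ≠ 0 := by
    rintro rfl
    simp at hn
  have hb_unit : IsUnit b := IsUnit.of_pow_eq_one hb hn0
  obtain ⟨c, hc⟩ := hb_unit.exists_right_inv
  -- `u = a * c` is an `n`-th root of unity different from `1` with residue `1`
  set u : A := a * c with hu
  have hcn : c ^ n = 1 := by
    have : (b * c) ^ n = 1 := by rw [hc, one_pow]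
    rwa [mul_pow, hb, one_mul] at this
  have hun : u ^ n = 1 := by rw [hu, mul_pow, ha, hcn, one_mul]
  have hu1 : u ≠ 1 := by
    intro h
    apply hne
    have : a = a * (b * c) := by rw [hc, mul_one]
    rw [this, mul_comm b c, ← mul_assoc, ← hu, h, one_mul]
  have hsum : ∑ i ∈ Finset.range n, u ^ i = 0 := by
    have h := mul_geom_sum u n
    rw [hun, sub_self] at h
    rcases mul_eq_zero.mp h with h | h
    · exact absurd (sub_eq_zero.mp h) hu1
    · exact h
  have hres : IsLocalRing.residue A u = 1 := by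
    rw [hu, map_mul, hab, ← map_mul, hc, map_one]
  have h0 : IsLocalRing.residue A ((n : ℕ) : A) = 0 := by
    have h := congrArg (IsLocalRing.residue A) hsum
    rw [map_sum, map_zero] at h
    simp only [map_pow, hres, one_pow, Finset.sum_const, Finset.card_range, nsmul_eq_mul,
      mul_one] at h
    rw [map_natCast]
    exact h
  rw [IsLocalRing.residue_eq_zero_iff] at h0
  exact (IsLocalRing.mem_maximalIdeal _).mp h0 hn

/-- **Frobenius on roots of unity**: a Frobenius element `σ` at a valuation subring `A` of `ℚ̄`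
over `ℓ`, with residue action `x ↦ x ^ q`, raises every root of unity of order prime to `ℓ` to the
`q`-th power. -/
theorem isFrobeniusAt_apply_of_pow_eq_one {ℓ : ℕ} (A : ValuationSubring Qb)
    (hA : A.LiesOverPrime ℓ) (σ : Qb ≃ₐ[ℚ] Qb) (q : ℕ) (hσ : A.IsFrobeniusAt σ q)
    (n : ℕ) (hn0 : n ≠ 0) (hn : Nat.Coprime n ℓ) (ζ : Qb) (hζ : ζ ^ n = 1) : σ ζ = ζ ^ q := by
  have hnu : IsUnit (n : A) :=
    Fermat.Agent.S52.helper130.isUnit_natCast_of_liesOverPrime A hA hn
  have hζA : ζ ∈ A := mem_of_pow_eq_one A hn0 hζ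
  have hσζA : σ ζ ∈ A := isFrobeniusAt_map_mem hσ hζA
  have h := eq_of_pow_eq_one_of_residue_eq A hnu ⟨σ ζ, hσζA⟩ (⟨ζ, hζA⟩ ^ q)
    (by
      apply Subtype.ext
      show (σ ζ) ^ n = 1
      rw [← map_pow, hζ, map_one])
    (by
      rw [← pow_mul, mul_comm, pow_mul]
      have : (⟨ζ, hζA⟩ : A) ^ n = 1 := Subtype.ext hζ
      rw [this, one_pow])
    (by rw [isFrobeniusAt_residue hσ hζA hσζA, map_pow])
  exact congrArg Subtype.val h

/-- Inertia elements fix roots of unity of order prime to `ℓ`. -/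
theorem inertia_apply_of_pow_eq_one {ℓ : ℕ} (A : ValuationSubring Qb)
    (hA : A.LiesOverPrime ℓ) (σ : Qb ≃ₐ[ℚ] Qb) (hσ : σ ∈ A.inertiaSubgroupIn ℚ)
    (n : ℕ) (hn0 : n ≠ 0) (hn : Nat.Coprime n ℓ) (ζ : Qb) (hζ : ζ ^ n = 1) : σ ζ = ζ := by
  have hnu : IsUnit (n : A) :=
    Fermat.Agent.S52.helper130.isUnit_natCast_of_liesOverPrime A hA hn
  have hζA : ζ ∈ A := mem_of_pow_eq_one A hn0 hζ
  have hσζA : σ ζ ∈ A := inertia_map_mem hσ hζA
  have h := eq_of_pow_eq_one_of_residue_eq A hnu ⟨σ ζ, hσζA⟩ ⟨ζ, hζA⟩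
    (by
      apply Subtype.ext
      show (σ ζ) ^ n = 1
      rw [← map_pow, hζ, map_one])
    (Subtype.ext hζ)
    (inertia_residue hσ hζA hσζA)
  exact congrArg Subtype.val h

end RootsOfUnity

/-! ## Transport along variable changes defined over `ℚ` -/

section VarChange

open Fermat.Agent.S05.helper725

/-- The isomorphism `E(ℚ̄) → (C • E)(ℚ̄)` induced by a variable change over `ℚ`, as an injective
Galois-equivariant additive map. -/
theorem exists_vcHom (E : WeierstrassCurve ℚ) (C : VariableChange ℚ) :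
    ∃ v : (E.toAffine⁄Qb).Point →+ ((C • E).toAffine⁄Qb).Point, Function.Injective v ∧
      ∀ (σ : Qb ≃ₐ[ℚ] Qb) (P : (E.toAffine⁄Qb).Point), v (σ • P) = σ • v P := by
  have hvc0 := isVarChange_smul C⁻¹ (C • E)
  rw [inv_smul_smul] at hvc0
  have hK : IsVarChange (E⁄Qb) ((C • E)⁄Qb) (algebraMap ℚ Qb (C⁻¹.u : ℚ))
      (algebraMap ℚ Qb C⁻¹.r) (algebraMap ℚ Qb C⁻¹.s) (algebraMap ℚ Qb C⁻¹.t) :=
    hvc0.map (algebraMap ℚ Qb)
  exact ⟨vcHom hK, vcHom_injective hK, fun σ P => vcHom_smul (S := ℚ) hK σ P⟩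

/-- Transport of a quadratic Galois relation on `n`-torsion points from `C • E` to `E`. -/
theorem quad_rel_of_variableChange (E : WeierstrassCurve ℚ) (C : VariableChange ℚ)
    (σ : Qb ≃ₐ[ℚ] Qb) (t d : ℤ) (n : ℕ)
    (h : ∀ Q : ((C • E).toAffine⁄Qb).Point, n • Q = 0 → σ • σ • Q - t • σ • Q + d • Q = 0)
    (P : (E.toAffine⁄Qb).Point) (hP : n • P = 0) :
    σ • σ • P - t • σ • P + d • P = 0 := by
  obtain ⟨v, hv, hvσ⟩ := exists_vcHom E C
  have key := h (v P) (by rw [← map_nsmul, hP, map_zero])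
  apply hv
  rw [map_zero, map_add, map_sub, map_zsmul, map_zsmul, hvσ, hvσ]
  exact key

/-- Transport of "`σ` fixes the `n`-torsion points" from `C • E` to `E`. -/
theorem fixed_of_variableChange (E : WeierstrassCurve ℚ) (C : VariableChange ℚ)
    (σ : Qb ≃ₐ[ℚ] Qb) (n : ℕ)
    (h : ∀ Q : ((C • E).toAffine⁄Qb).Point, n • Q = 0 → σ • Q = Q)
    (P : (E.toAffine⁄Qb).Point) (hP : n • P = 0) : σ • P = P := by
  obtain ⟨v, hv, hvσ⟩ := exists_vcHom E C
  have key := h (v P) (by rw [← map_nsmul, hP, map_zero])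
  apply hv
  rw [hvσ]
  exact key

open Fermat.Agent.S52.helper130 in
/-- **Frobenius relation on the torsion of a curve over `ℚ` with an integral model of good
reduction at `ℓ`.** -/
theorem frob_relation_of_isIntegralModelOf (E : WeierstrassCurve ℚ) (W : WeierstrassCurve ℤ)
    (hWE : W.IsIntegralModelOf E) (ℓ : ℕ) [Fact ℓ.Prime] (hgood : W.IsGoodPrimeFor ℓ)
    (hCH : ∀ (K : Type) [Field K] [DecidableEq K] [Algebra (ZMod ℓ) K],
      IsAlgClosed K → FrobCH ℓ W K)
    (A : ValuationSubring Qb) (hA : A.LiesOverPrime ℓ) (σ : Qb ≃ₐ[ℚ] Qb)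
    (hσ : A.IsFrobeniusAt σ ℓ) (n : ℕ) (hn : Nat.Coprime n ℓ) (P : (E.toAffine⁄Qb).Point)
    (hP : n • P = 0) :
    σ • σ • P - W.apOfModel ℓ • σ • P + (ℓ : ℤ) • P = 0 := by
  obtain ⟨C, hC⟩ := hWE
  refine quad_rel_of_variableChange E C σ _ _ n ?_ P hP
  have key : ∀ E' : WeierstrassCurve ℚ, E' = W.map (Int.castRingHom ℚ) →
      ∀ Q : (E'.toAffine⁄Qb).Point, n • Q = 0 →
        σ • σ • Q - W.apOfModel ℓ • σ • Q + (ℓ : ℤ) • Q = 0 := by
    rintro _ rfl Q hQ
    exact frob_relation_point_of_frobCH W ℓ hgood hCH A hA σ hσ n hn Q hQ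
  exact key _ hC

/-- **Inertia acts trivially on the prime-to-`ℓ` torsion of a curve over `ℚ` with an integral
model of good reduction at `ℓ`.** -/
theorem inertia_smul_of_isIntegralModelOf (E : WeierstrassCurve ℚ) (W : WeierstrassCurve ℤ)
    (hWE : W.IsIntegralModelOf E) (ℓ : ℕ) [Fact ℓ.Prime] (hgood : W.IsGoodPrimeFor ℓ)
    (A : ValuationSubring Qb) (hA : A.LiesOverPrime ℓ) (σ : Qb ≃ₐ[ℚ] Qb)
    (hσ : σ ∈ A.inertiaSubgroupIn ℚ) (n : ℕ) (hn : Nat.Coprime n ℓ)
    (P : (E.toAffine⁄Qb).Point) (hP : n • P = 0) : σ • P = P := by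
  obtain ⟨C, hC⟩ := hWE
  refine fixed_of_variableChange E C σ n ?_ P hP
  have key : ∀ E' : WeierstrassCurve ℚ, E' = W.map (Int.castRingHom ℚ) →
      ∀ Q : (E'.toAffine⁄Qb).Point, n • Q = 0 → σ • Q = Q := by
    rintro _ rfl Q hQ
    exact inertia_smul_point W ℓ hgood A hA σ hσ n hn Q hQ
  exact key _ hC

end VarChange

end Fermat.Agent.S58.helper5765
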