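import Mathlib
import Fermat.Prelude.Def_FLTPrelim_Ramification
import Fermat.Agent.Lib.helper2489_Unramified
import Fermat.Agent.Lib.helper872_QbarPlaces

/-!
# The inertia field is unramified (helper6024)

`Qb := AlgebraicClosure ℚ`.  For a valuation subring `A` of `Qb` lying over a prime `l`, every
element `x` of `Qb` fixed by the inertia group `A.inertiaSubgroupIn ℚ` and lying in the maximal
ideal of `A` is divisible by `l` in `A`:

* `unram` : `A.valuation x < 1 → A.valuation (x / l) ≤ 1`.

The proof goes through a finite Galois level `F ∋ x`: the inertia field `E` of the prime `P` of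
`𝓞 F` cut out by `A` has `e(P ∩ 𝓞 E | l) = 1` (`ramificationIdx_under_inertiaField`, from
Mathlib's `card_inertia_eq_ramificationIdxIn` applied to `F/ℚ` and to `F/E`), inertia elements of
`Gal(F/ℚ)` lift to inertia elements of `Gal(ℚ̄/ℚ)` (`Lib/helper2489`), and elements of `E ∩ A` are
fractions of elements of `𝓞 E` with denominator prime to `P` (Seidenberg lemma of `Lib/helper54`).
-/

set_option autoImplicit false

namespace Fermat.Agent.S58.helper6024

open NumberField Ideal Polynomial
open scoped Pointwise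
open Fermat.Agent.Lib.helper54 Fermat.Agent.Lib.helper2489

/-! ## Finite level: the inertia field of a Galois number field -/

section finite

variable (F : Type*) [Field F] [NumberField F] [IsGalois ℚ F]
variable (P : Ideal (𝓞 F)) [P.IsPrime]

/-- The inertia field of the prime `P` of `𝓞 F` in `F/ℚ`. -/
noncomputable abbrev inertiaField : IntermediateField ℚ F :=
  FixedPoints.intermediateField (P.inertia Gal(F/ℚ))

/-- The prime of the inertia field below `P` is unramified over `ℤ`. -/
theorem ramificationIdx_under_inertiaField :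
    (P.under (𝓞 (inertiaField F P))).ramificationIdx ℤ = 1 := by
  have hGal : IsGaloisGroup (P.inertia Gal(F/ℚ)) (𝓞 (inertiaField F P)) (𝓞 F) :=
    IsGaloisGroup.of_isFractionRing _ _ _ (inertiaField F P) F
  have h1 : Nat.card (P.inertia (P.inertia Gal(F/ℚ))) =
      (P.under (𝓞 (inertiaField F P))).ramificationIdxIn (𝓞 F) :=
    card_inertia_eq_ramificationIdxIn (P.under (𝓞 (inertiaField F P))) P
  have h2 : Nat.card (P.inertia Gal(F/ℚ)) = (P.under ℤ).ramificationIdxIn (𝓞 F) :=
    card_inertia_eq_ramificationIdxIn (P.under ℤ) P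
  have h3 : Nat.card (P.inertia (P.inertia Gal(F/ℚ))) = Nat.card (P.inertia Gal(F/ℚ)) := by
    have : P.inertia (P.inertia Gal(F/ℚ)) = ⊤ := by
      ext σ
      simp only [Subgroup.mem_top, iff_true]
      exact σ.2
    rw [this, Subgroup.card_top]
  have h4 := ramificationIdx_tower (R := ℤ) (P.under (𝓞 (inertiaField F P))) P
  rw [← ramificationIdxIn_eq_ramificationIdx (P.under (𝓞 (inertiaField F P))) P
      (P.inertia Gal(F/ℚ)), ← h1, h3, h2,
    ramificationIdxIn_eq_ramificationIdx (P.under ℤ) P Gal(F/ℚ)] at h4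
  have hpos : 0 < P.ramificationIdx ℤ := ramificationIdx_pos P ℤ
  have h5 : (P.under (𝓞 (inertiaField F P))).ramificationIdx ℤ * P.ramificationIdx ℤ
      = 1 * P.ramificationIdx ℤ := by rw [one_mul]; exact h4.symm
  exact Nat.eq_of_mul_eq_mul_right hpos h5

/-- Element form of `ramificationIdx_under_inertiaField`: an integer of the inertia field lying in
`P` is, up to a factor prime to `P`, divisible by `l`. -/
theorem exists_mul_eq_natCast_mul (l : ℕ) (hl : l.Prime) (hlP : (l : 𝓞 F) ∈ P)
    (a : 𝓞 (inertiaField F P)) (ha : a ∈ P.under (𝓞 (inertiaField F P))) :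
    ∃ c d : 𝓞 (inertiaField F P), c ∉ P.under (𝓞 (inertiaField F P)) ∧
      c * a = (l : 𝓞 (inertiaField F P)) * d := by
  set q : Ideal (𝓞 (inertiaField F P)) := P.under (𝓞 (inertiaField F P)) with hq
  have hlq : (l : 𝓞 (inertiaField F P)) ∈ q := by
    rw [hq, Ideal.mem_comap, map_natCast]
    exact hlP
  have hp : q.under ℤ = Ideal.span {(l : ℤ)} := by
    have hmax : (Ideal.span {(l : ℤ)}).IsMaximal :=
      PrincipalIdealRing.isMaximal_of_irreducible (Nat.prime_iff_prime_int.mp hl).irreducible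
    have hle : Ideal.span {(l : ℤ)} ≤ q.under ℤ := by
      rw [Ideal.span_singleton_le_iff_mem, Ideal.mem_comap]
      simpa using hlq
    have hne : q.under ℤ ≠ ⊤ := Ideal.IsPrime.ne_top inferInstance
    exact (hmax.eq_of_le hne hle).symm
  have hp0 : q.under ℤ ≠ ⊥ := by
    rw [hp, Ne, Ideal.span_singleton_eq_bot]
    exact_mod_cast hl.ne_zero
  have he : (q.under ℤ).ramificationIdx' q = 1 := by
    rw [ramificationIdx'_eq_ramificationIdx (q.under ℤ) q hp0]
    exact ramificationIdx_under_inertiaField F P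
  have hmap : (q.under ℤ).map (algebraMap ℤ (𝓞 (inertiaField F P))) =
      Ideal.span {(l : 𝓞 (inertiaField F P))} := by
    rw [hp, Ideal.map_span, Set.image_singleton]
    simp
  have hle : (q.under ℤ).map (algebraMap ℤ (𝓞 (inertiaField F P))) ≤ q := by
    rw [hmap, Ideal.span_singleton_le_iff_mem]
    exact hlq
  have hnot : ¬ (q.under ℤ).map (algebraMap ℤ (𝓞 (inertiaField F P))) ≤ q ^ 2 := by
    intro h
    exact (ramificationIdx'_ne_one_iff hle).mpr h he
  rw [hmap] at hle hnot
  obtain ⟨J, hJ⟩ := Ideal.dvd_iff_le.mpr hle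
  have hJq : ¬ J ≤ q := by
    intro h
    apply hnot
    rw [hJ, sq]
    exact Ideal.mul_mono_right h
  obtain ⟨c, hcJ, hcq⟩ := SetLike.not_le_iff_exists.mp hJq
  have hca : c * a ∈ Ideal.span {(l : 𝓞 (inertiaField F P))} := by
    rw [hJ, mul_comm c a]
    exact Ideal.mul_mem_mul ha hcJ
  obtain ⟨d, hd⟩ := Ideal.mem_span_singleton'.mp hca
  exact ⟨c, d, hcq, by rw [← hd, mul_comm]⟩

end finite

/-! ## From `ℚ̄` to a finite level -/

attribute [local instance] isAlgebraic_Qbar isAlgClosure_Qbar isGalois_Qbar isIntegral_Qbar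

local notation "Qb" => AlgebraicClosure ℚ
local notation "GQ" => (AlgebraicClosure ℚ ≃ₐ[ℚ] AlgebraicClosure ℚ)
local notation "Zb" => integralClosure ℤ (AlgebraicClosure ℚ)

section level

variable (A : ValuationSubring Qb) (F0 : IntermediateField ℚ Qb) [FiniteDimensional ℚ F0]

/-- A finite-dimensional intermediate field of `ℚ̄/ℚ` is a number field. -/
theorem numberField_level : NumberField F0 where
  to_charZero := inferInstance
  to_finiteDimensional := inferInstance

attribute [local instance] numberField_level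

omit [FiniteDimensional ℚ F0] in
/-- A normal intermediate field of `ℚ̄/ℚ` is Galois over `ℚ`. -/
theorem isGalois_level [Normal ℚ F0] : IsGalois ℚ F0 := ⟨⟩

attribute [local instance] isGalois_level

/-- The value in `ℚ̄` of an integer of the finite level `F0`. -/
noncomputable def levelVal : 𝓞 F0 →+* Qb :=
  (algebraMap F0 Qb).comp (algebraMap (𝓞 F0) F0)

omit [FiniteDimensional ℚ F0] in
theorem isIntegral_levelVal (z : 𝓞 F0) : IsIntegral ℤ (levelVal F0 z) := by
  have h1 : IsIntegral ℤ (algebraMap (𝓞 F0) F0 z) := RingOfIntegers.isIntegral_coe z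
  exact h1.algebraMap

omit [FiniteDimensional ℚ F0] in
theorem levelVal_mem (z : 𝓞 F0) : levelVal F0 z ∈ A :=
  mem_valuationSubring_of_isIntegral A _ (isIntegral_levelVal F0 z)

/-- The integers of `F0` map into the valuation subring. -/
noncomputable def levelToValuationSubring : 𝓞 F0 →+* A where
  toFun z := ⟨levelVal F0 z, levelVal_mem A F0 z⟩
  map_one' := Subtype.ext (map_one _)
  map_mul' _ _ := Subtype.ext (map_mul _ _ _)
  map_zero' := Subtype.ext (map_zero _)
  map_add' _ _ := Subtype.ext (map_add _ _ _)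

/-- The prime of `𝓞 F0` cut out by the valuation subring `A`. -/
noncomputable def levelPrime : Ideal (𝓞 F0) :=
  (IsLocalRing.maximalIdeal A).comap (levelToValuationSubring A F0)

instance levelPrime_isPrime : (levelPrime A F0).IsPrime :=
  Ideal.comap_isPrime _ _

omit [FiniteDimensional ℚ F0] in
theorem mem_levelPrime (z : 𝓞 F0) : z ∈ levelPrime A F0 ↔ levelVal F0 z ∈ A.nonunits := by
  rw [levelPrime, Ideal.mem_comap, ← ValuationSubring.coe_mem_nonunits_iff]
  rfl

omit [FiniteDimensional ℚ F0] in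
theorem natCast_mem_levelPrime {l : ℕ} (hA : A.LiesOverPrime l) :
    (l : 𝓞 F0) ∈ levelPrime A F0 := by
  rw [mem_levelPrime, map_natCast]
  exact hA

variable [Normal ℚ F0]

omit [FiniteDimensional ℚ F0] in
/-- An element of the finite Galois level `F0` fixed by the inertia group of `A` in `Gal(ℚ̄/ℚ)`
is fixed by the inertia group of the prime of `𝓞 F0` cut out by `A`. -/
theorem fixed_of_inertia_level {l : ℕ} (hl : l.Prime) (hA : A.LiesOverPrime l)
    (x : F0) (hx : ∀ σ ∈ A.inertiaSubgroupIn ℚ, σ (x : Qb) = (x : Qb))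
    (σ : Gal(F0/ℚ)) (hσ : σ ∈ (levelPrime A F0).inertia Gal(F0/ℚ)) : σ x = x := by
  set σ₀ : GQ := σ.liftNormal Qb with hσ₀
  have hcomm : ∀ y : F0, σ₀ (y : Qb) = ((σ y : F0) : Qb) := fun y =>
    AlgEquiv.liftNormal_commutes σ Qb y
  have h₀ : ∀ z : Zb, (z : Qb) ∈ F0 → σ₀ • z - z ∈ primeOfValuationSubring A := by
    intro z hz
    rw [mem_primeOfValuationSubring]
    have hint : IsIntegral ℤ (⟨(z : Qb), hz⟩ : F0) := by
      have h1 : IsIntegral ℤ (algebraMap F0 Qb ⟨(z : Qb), hz⟩) := z.2
      exact (isIntegral_algebraMap_iff (algebraMap F0 Qb).injective).mp h1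
    let z' : 𝓞 F0 := ⟨⟨(z : Qb), hz⟩, hint⟩
    have h2 := (mem_levelPrime A F0 _).mp (hσ z')
    have h3 : levelVal F0 (σ • z' - z') = σ₀ (z : Qb) - (z : Qb) := by
      rw [map_sub]
      have e1 : levelVal F0 z' = (z : Qb) := rfl
      have e2 : levelVal F0 (σ • z') = σ₀ (z : Qb) := by
        have := hcomm ⟨(z : Qb), hz⟩
        rw [this]
        rfl
      rw [e1, e2]
    rw [h3] at h2
    simpa using h2
  obtain ⟨ρ, hρ, hQ, hall⟩ := exists_inertia_lift F0 (primeOfValuationSubring A) σ₀ h₀
  have hin : ρ * σ₀ ∈ A.inertiaSubgroupIn ℚ := mem_inertiaSubgroupIn_of_zbar hl A hA _ hQ hall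
  have h4 := hx _ hin
  have h5 : (ρ * σ₀) (x : Qb) = ((σ x : F0) : Qb) := by
    rw [AlgEquiv.mul_apply, hcomm x]
    exact (IntermediateField.mem_fixingSubgroup_iff F0 ρ).mp hρ _ (σ x).2
  exact Subtype.ext (h5.symm.trans h4)

/-- `unram` at a finite Galois level containing `x`. -/
theorem unram_level {l : ℕ} (hl : l.Prime) (hA : A.LiesOverPrime l)
    (x : Qb) (hxF : x ∈ F0) (hx : ∀ σ ∈ A.inertiaSubgroupIn ℚ, σ x = x)
    (hv : A.valuation x < 1) : A.valuation (x / (l : Qb)) ≤ 1 := by
  set P := levelPrime A F0 with hP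
  have hxE : (⟨x, hxF⟩ : F0) ∈ inertiaField F0 P := by
    intro σ
    exact fixed_of_inertia_level A F0 hl hA ⟨x, hxF⟩ hx σ.1 σ.2
  let xE : inertiaField F0 P := ⟨⟨x, hxF⟩, hxE⟩
  let ι : 𝓞 (inertiaField F0 P) →+* Qb :=
    (levelVal F0).comp (algebraMap (𝓞 (inertiaField F0 P)) (𝓞 F0))
  have hι : ∀ a : 𝓞 (inertiaField F0 P),
      ι a = (((a : inertiaField F0 P) : F0) : Qb) := fun a => rfl
  have hιA : ∀ a : 𝓞 (inertiaField F0 P), A.valuation (ι a) ≤ 1 := fun a =>
    (ValuationSubring.valuation_le_one_iff A _).mpr (levelVal_mem A F0 _)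
  have hmem : ∀ a : 𝓞 (inertiaField F0 P),
      a ∈ P.under (𝓞 (inertiaField F0 P)) ↔ ι a ∈ A.nonunits := fun a => by
    rw [Ideal.under_def, Ideal.mem_comap]
    exact mem_levelPrime A F0 _
  have hunit : ∀ a : 𝓞 (inertiaField F0 P),
      a ∉ P.under (𝓞 (inertiaField F0 P)) → A.valuation (ι a) = 1 := fun a ha => by
    rw [hmem, ValuationSubring.mem_nonunits_iff, not_lt] at ha
    exact le_antisymm (hιA a) ha
  -- a primitive integer polynomial killing `x`
  have halg : IsAlgebraic ℤ xE := by
    have h1 : IsAlgebraic ℚ xE := Algebra.IsAlgebraic.isAlgebraic xE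
    exact (IsFractionRing.isAlgebraic_iff ℤ ℚ (inertiaField F0 P)).mpr h1
  obtain ⟨p, hp0, hpx⟩ := halg
  have hprim : p.primPart.IsPrimitive := p.isPrimitive_primPart
  have hpx' : aeval xE p.primPart = 0 := by
    have h1 := p.eq_C_content_mul_primPart
    rw [h1, map_mul, aeval_C] at hpx
    rcases mul_eq_zero.mp hpx with h | h
    · exfalso
      have hc : p.content ≠ 0 := by rwa [Ne, content_eq_zero_iff]
      apply hc
      have hinj : Function.Injective (algebraMap ℤ (inertiaField F0 P)) :=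
        (algebraMap ℤ (inertiaField F0 P)).injective_int
      exact hinj (by rw [h, map_zero])
    · exact h
  have hcoeff : ∃ i, ¬ (l : ℤ) ∣ p.primPart.coeff i := by
    by_contra hall
    push Not at hall
    have h1 : C (l : ℤ) ∣ p.primPart := (C_dvd_iff_dvd_coeff _ _).mpr hall
    have h2 := hprim _ h1
    exact (Nat.prime_iff_prime_int.mp hl).not_isUnit h2
  obtain ⟨i, hi⟩ := hcoeff
  set Pp : (𝓞 (inertiaField F0 P))[X] :=
    p.primPart.map (algebraMap ℤ (𝓞 (inertiaField F0 P))) with hPp
  have hPx : aeval xE Pp = 0 := by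
    rw [hPp, aeval_map_algebraMap]
    exact hpx'
  have hPi : Pp.coeff i ∉ P.under (𝓞 (inertiaField F0 P)) := by
    rw [hPp, coeff_map, hmem]
    have h1 := intCast_not_mem_primeOfValuationSubring hl A hA _ hi
    rw [mem_primeOfValuationSubring] at h1
    have h2 : ι (algebraMap ℤ (𝓞 (inertiaField F0 P)) (p.primPart.coeff i)) =
        ((p.primPart.coeff i : ℤ) : Qb) := by simp
    rw [h2]
    simpa using h1
  have hcl : ∀ y : inertiaField F0 P, IsIntegral (𝓞 (inertiaField F0 P)) y →
      ∃ r : 𝓞 (inertiaField F0 P), algebraMap (𝓞 (inertiaField F0 P)) (inertiaField F0 P) r = y :=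
    fun y hy => IsIntegrallyClosed.isIntegral_iff.mp hy
  have hxval : ((xE : F0) : Qb) = x := rfl
  have key : ∃ a b : 𝓞 (inertiaField F0 P), b ∉ P.under (𝓞 (inertiaField F0 P)) ∧
      x * ι b = ι a := by
    obtain ⟨a, b, hb, h | h⟩ := exists_frac_of_aeval_eq_zero hcl (P.under (𝓞 (inertiaField F0 P)))
      xE Pp.natDegree Pp le_rfl hPx ⟨i, hPi⟩
    · refine ⟨a, b, hb, ?_⟩
      have h1 := congrArg (fun y : inertiaField F0 P => ((y : F0) : Qb)) h
      simpa [hι] using h1
    · exfalso
      apply hb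
      rw [hmem, ValuationSubring.mem_nonunits_iff]
      have h1 := congrArg (fun y : inertiaField F0 P => ((y : F0) : Qb)) h
      have h2 : x * ι a = ι b := by simpa [hι] using h1
      rw [← h2, map_mul]
      calc A.valuation x * A.valuation (ι a) ≤ A.valuation x * 1 := by gcongr; exact hιA a
        _ < 1 := by rw [mul_one]; exact hv
  obtain ⟨a, b, hb, hab⟩ := key
  have ha : a ∈ P.under (𝓞 (inertiaField F0 P)) := by
    rw [hmem, ValuationSubring.mem_nonunits_iff, ← hab, map_mul, hunit b hb, mul_one]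
    exact hv
  obtain ⟨c, d, hc, hcd⟩ := exists_mul_eq_natCast_mul F0 P l hl (natCast_mem_levelPrime A F0 hA) a ha
  have hcd' : ι c * ι a = (l : Qb) * ι d := by
    rw [← map_mul, hcd, map_mul, map_natCast]
  have hl0 : (l : Qb) ≠ 0 := by exact_mod_cast hl.ne_zero
  have hfin : x / (l : Qb) * (ι b * ι c) = ι d := by
    have h1 : x * (ι b * ι c) = ι d * (l : Qb) := by
      calc x * (ι b * ι c) = ι c * (x * ι b) := by ring
        _ = ι c * ι a := by rw [hab]
        _ = (l : Qb) * ι d := hcd'
        _ = ι d * (l : Qb) := by ring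
    rw [div_mul_eq_mul_div, div_eq_iff hl0]
    exact h1
  have hval := congrArg A.valuation hfin
  rw [map_mul, map_mul, hunit b hb, hunit c hc, mul_one, mul_one] at hval
  rw [hval]
  exact hιA d

end level

/-- **The inertia field is unramified.**  If `x : ℚ̄` is fixed by the inertia group of a valuation
subring `A` of `ℚ̄` over the prime `l` and `x` lies in the maximal ideal of `A`, then `x / l ∈ A`. -/
theorem unram {l : ℕ} (hl : l.Prime) (A : ValuationSubring Qb) (hA : A.LiesOverPrime l)
    (x : Qb) (hx : ∀ σ ∈ A.inertiaSubgroupIn ℚ, σ x = x) (hv : A.valuation x < 1) :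
    A.valuation (x / (l : Qb)) ≤ 1 := by
  have hfd : FiniteDimensional ℚ (IntermediateField.adjoin ℚ {x}) :=
    IntermediateField.adjoin.finiteDimensional (Algebra.IsIntegral.isIntegral x)
  have hnormal : Normal ℚ
      (IntermediateField.normalClosure ℚ (IntermediateField.adjoin ℚ {x}) Qb) :=
    normalClosure.normal ℚ _ Qb
  exact unram_level A (IntermediateField.normalClosure ℚ (IntermediateField.adjoin ℚ {x}) Qb)
    hl hA x
    (IntermediateField.le_normalClosure _ (IntermediateField.mem_adjoin_simple_self ℚ x)) hx hv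

/-! ## The ring of inertia-fixed elements -/

section fixedRing

variable (A : ValuationSubring Qb)

/-- The subring `R₀ = A^I` of elements of `A` fixed by the inertia group of `A`. -/
def inertiaFixedRing : Subring Qb where
  carrier := {x | x ∈ A ∧ ∀ σ ∈ A.inertiaSubgroupIn ℚ, σ x = x}
  mul_mem' := fun ⟨ha, ha'⟩ ⟨hb, hb'⟩ =>
    ⟨A.mul_mem _ _ ha hb, fun σ hσ => by rw [map_mul, ha' σ hσ, hb' σ hσ]⟩
  one_mem' := ⟨A.one_mem, fun σ _ => map_one σ⟩
  add_mem' := fun ⟨ha, ha'⟩ ⟨hb, hb'⟩ =>
    ⟨A.add_mem _ _ ha hb, fun σ hσ => by rw [map_add, ha' σ hσ, hb' σ hσ]⟩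
  zero_mem' := ⟨A.zero_mem, fun σ _ => map_zero σ⟩
  neg_mem' := fun ⟨ha, ha'⟩ => ⟨A.neg_mem _ ha, fun σ hσ => by rw [map_neg, ha' σ hσ]⟩

theorem mem_inertiaFixedRing {x : Qb} :
    x ∈ inertiaFixedRing A ↔ x ∈ A ∧ ∀ σ ∈ A.inertiaSubgroupIn ℚ, σ x = x := Iff.rfl

theorem natCast_mem_inertiaFixedRing (n : ℕ) : (n : Qb) ∈ inertiaFixedRing A :=
  natCast_mem _ n

/-- **(B1), uniformiser.**  An inertia-fixed element of the maximal ideal of `A` is `l` times an
inertia-fixed element of `A`. -/
theorem exists_eq_natCast_mul {l : ℕ} (hl : l.Prime) (hA : A.LiesOverPrime l) {x : Qb}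
    (hx : x ∈ inertiaFixedRing A) (hxn : x ∈ A.nonunits) :
    ∃ y ∈ inertiaFixedRing A, x = (l : Qb) * y := by
  have hl0 : (l : Qb) ≠ 0 := by exact_mod_cast hl.ne_zero
  refine ⟨x / (l : Qb), ⟨?_, fun σ hσ => ?_⟩, (mul_div_cancel₀ x hl0).symm⟩
  · exact (ValuationSubring.valuation_le_one_iff A _).mp
      (unram hl A hA x hx.2 ((ValuationSubring.mem_nonunits_iff A).mp hxn))
  · rw [map_div₀, hx.2 σ hσ, map_natCast]

/-- The valuation of `l` at a valuation subring over `l` is positive and `< 1`. -/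
theorem valuation_natCast_pos {l : ℕ} (hl : l.Prime) : 0 < A.valuation (l : Qb) := by
  have hl0 : (l : Qb) ≠ 0 := by exact_mod_cast hl.ne_zero
  exact zero_lt_iff.mpr ((Valuation.ne_zero_iff _).mpr hl0)

/-- A nonzero element of `A` is not divisible by arbitrarily high powers of `l`. -/
theorem exists_not_valuation_le_pow {l : ℕ} (hl : l.Prime) (hA : A.LiesOverPrime l) {x : Qb}
    (hx0 : x ≠ 0) : ∃ k : ℕ, ¬ A.valuation x ≤ A.valuation (l : Qb) ^ (k + 1) := by
  have halg : IsAlgebraic ℤ x⁻¹ := by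
    have h1 : IsAlgebraic ℚ x⁻¹ := Algebra.IsAlgebraic.isAlgebraic x⁻¹
    exact (IsFractionRing.isAlgebraic_iff ℤ ℚ Qb).mpr h1
  obtain ⟨m, hm0, hm⟩ := halg.exists_integral_multiple
  have hw : m • x⁻¹ ∈ A := mem_valuationSubring_of_isIntegral A _ hm
  have hmx : (m : Qb) = x * (m • x⁻¹) := by
    rw [zsmul_eq_mul]
    field_simp
  have hle : A.valuation (m : Qb) ≤ A.valuation x := by
    rw [hmx, map_mul]
    calc A.valuation x * A.valuation (m • x⁻¹) ≤ A.valuation x * 1 := by
          gcongr
          exact (ValuationSubring.valuation_le_one_iff A _).mpr hw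
      _ = A.valuation x := mul_one _
  have hm' := Fermat.Agent.Lib.helper872.valuation_intCast hl A hA m hm0
  refine ⟨padicValInt l m, fun h => ?_⟩
  have hlt : A.valuation (l : Qb) < 1 := (ValuationSubring.mem_nonunits_iff A).mp hA
  have hpos : 0 < A.valuation (l : Qb) ^ padicValInt l m := pow_pos (valuation_natCast_pos A hl) _
  have h1 : A.valuation (l : Qb) ^ padicValInt l m ≤ A.valuation (l : Qb) ^ (padicValInt l m + 1) := by
    rw [← hm']
    exact hle.trans h
  rw [pow_succ] at h1
  have h2 : A.valuation (l : Qb) ^ padicValInt l m * A.valuation (l : Qb)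
      < A.valuation (l : Qb) ^ padicValInt l m * 1 := by
    exact mul_lt_mul_of_pos_left hlt hpos
  rw [mul_one] at h2
  exact absurd h1 (not_le.mpr h2)

/-- **Discreteness.**  Every nonzero inertia-fixed element of `A` is a power of `l` times an
inertia-fixed unit of `A`. -/
theorem exists_eq_pow_mul_unit {l : ℕ} (hl : l.Prime) (hA : A.LiesOverPrime l) {x : Qb}
    (hx : x ∈ inertiaFixedRing A) (hx0 : x ≠ 0) :
    ∃ (n : ℕ) (u : Qb), u ∈ inertiaFixedRing A ∧ A.valuation u = 1 ∧ x = (l : Qb) ^ n * u := by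
  have hl0 : (l : Qb) ≠ 0 := by exact_mod_cast hl.ne_zero
  have key : ∀ k : ℕ, ∀ x : Qb, x ∈ inertiaFixedRing A → x ≠ 0 →
      ¬ A.valuation x ≤ A.valuation (l : Qb) ^ (k + 1) →
      ∃ (n : ℕ) (u : Qb), u ∈ inertiaFixedRing A ∧ A.valuation u = 1 ∧ x = (l : Qb) ^ n * u := by
    intro k
    induction k with
    | zero =>
      intro x hx _ hk
      refine ⟨0, x, hx, ?_, by simp⟩
      by_contra hne
      have hlt : A.valuation x < 1 :=
        lt_of_le_of_ne ((ValuationSubring.valuation_le_one_iff A _).mpr hx.1) hne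
      obtain ⟨y, hy, rfl⟩ := exists_eq_natCast_mul A hl hA hx
        ((ValuationSubring.mem_nonunits_iff A).mpr hlt)
      apply hk
      rw [map_mul, zero_add, pow_one]
      calc A.valuation (l : Qb) * A.valuation y ≤ A.valuation (l : Qb) * 1 := by
            gcongr
            exact (ValuationSubring.valuation_le_one_iff A _).mpr hy.1
        _ = A.valuation (l : Qb) := mul_one _
    | succ k ih =>
      intro x hx hx0 hk
      by_cases hu : A.valuation x = 1
      · exact ⟨0, x, hx, hu, by simp⟩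
      have hlt : A.valuation x < 1 :=
        lt_of_le_of_ne ((ValuationSubring.valuation_le_one_iff A _).mpr hx.1) hu
      obtain ⟨y, hy, rfl⟩ := exists_eq_natCast_mul A hl hA hx
        ((ValuationSubring.mem_nonunits_iff A).mpr hlt)
      have hy0 : y ≠ 0 := right_ne_zero_of_mul hx0
      have hky : ¬ A.valuation y ≤ A.valuation (l : Qb) ^ (k + 1) := by
        intro h
        apply hk
        rw [map_mul, pow_succ (A.valuation (l : Qb)) (k + 1), mul_comm]
        gcongr
      obtain ⟨n, u, hu1, hu2, rfl⟩ := ih y hy hy0 hky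
      exact ⟨n + 1, u, hu1, hu2, by rw [pow_succ]; ring⟩
  obtain ⟨k, hk⟩ := exists_not_valuation_le_pow A hl hA hx0
  exact key k x hx hx0 hk

/-- **Value group of the inertia field.**  A nonzero inertia-fixed element of `ℚ̄` has valuation
an integral power of the valuation of `l`. -/
theorem exists_zpow_valuation_eq {l : ℕ} (hl : l.Prime) (hA : A.LiesOverPrime l) (x : Qb)
    (hx : ∀ σ ∈ A.inertiaSubgroupIn ℚ, σ x = x) (hx0 : x ≠ 0) :
    ∃ n : ℤ, A.valuation x = A.valuation (l : Qb) ^ n := by
  rcases A.mem_or_inv_mem x with h | h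
  · obtain ⟨n, u, -, hu, rfl⟩ := exists_eq_pow_mul_unit A hl hA (x := x) ⟨h, hx⟩ hx0
    exact ⟨n, by rw [map_mul, map_pow, hu, mul_one, zpow_natCast]⟩
  · have hx' : ∀ σ ∈ A.inertiaSubgroupIn ℚ, σ x⁻¹ = x⁻¹ := fun σ hσ => by
      rw [map_inv₀, hx σ hσ]
    obtain ⟨n, u, -, hu, he⟩ := exists_eq_pow_mul_unit A hl hA (x := x⁻¹) ⟨h, hx'⟩
      (inv_ne_zero hx0)
    refine ⟨-(n : ℤ), ?_⟩
    have h1 : A.valuation x⁻¹ = A.valuation (l : Qb) ^ n := by
      rw [he, map_mul, map_pow, hu, mul_one]
    rw [map_inv₀] at h1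
    rw [zpow_neg, zpow_natCast, ← h1, inv_inv]

end fixedRing

/-! ## The inertia field as a valued field (adapter for the descent) -/

section fixedField

variable (A : ValuationSubring Qb)

/-- The inertia field of `A`: the subfield of `ℚ̄` fixed by `A.inertiaSubgroupIn ℚ`. -/
noncomputable abbrev inertiaFixedField : IntermediateField ℚ Qb :=
  IntermediateField.fixedField (A.inertiaSubgroupIn ℚ)

/-- The valuation subring of the inertia field cut out by `A`. -/
noncomputable abbrev inertiaValuationSubring : ValuationSubring (inertiaFixedField A) :=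
  A.comap (algebraMap (inertiaFixedField A) Qb)

theorem mem_inertiaValuationSubring (x : inertiaFixedField A) :
    x ∈ inertiaValuationSubring A ↔ (x : Qb) ∈ A := Iff.rfl

theorem valuation_inertia_le_one_iff (x : inertiaFixedField A) :
    (inertiaValuationSubring A).valuation x ≤ 1 ↔ A.valuation (x : Qb) ≤ 1 := by
  rw [ValuationSubring.valuation_le_one_iff, ValuationSubring.valuation_le_one_iff]
  exact Iff.rfl

theorem valuation_inertia_lt_one_iff (x : inertiaFixedField A) :
    (inertiaValuationSubring A).valuation x < 1 ↔ A.valuation (x : Qb) < 1 := by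
  by_cases hx : x = 0
  · subst hx
    simp
  have hx' : (x : Qb) ≠ 0 := fun h => hx (Subtype.ext h)
  rw [← not_le, ← not_le, not_iff_not]
  have h1 : (1 : _) ≤ (inertiaValuationSubring A).valuation x ↔
      (inertiaValuationSubring A).valuation x⁻¹ ≤ 1 := by
    rw [map_inv₀, inv_le_one₀ (zero_lt_iff.mpr ((Valuation.ne_zero_iff _).mpr hx))]
  have h2 : (1 : _) ≤ A.valuation (x : Qb) ↔ A.valuation ((x⁻¹ : inertiaFixedField A) : Qb) ≤ 1 := by
    push_cast
    rw [map_inv₀, inv_le_one₀ (zero_lt_iff.mpr ((Valuation.ne_zero_iff _).mpr hx'))]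
  rw [h1, h2]
  exact valuation_inertia_le_one_iff A x⁻¹

/-- **Adapter for the descent (`Unram` shape).**  In the inertia field `K` of `A` (with the
valuation subring `AK = A ∩ K`), `l` is a uniformiser: `v(l) < 1` and every `x` with `v(x) < 1`
is divisible by `l`. -/
theorem unram_fixedField {l : ℕ} (hl : l.Prime) (hA : A.LiesOverPrime l) :
    (inertiaValuationSubring A).valuation (l : inertiaFixedField A) < 1 ∧
    ∀ x : inertiaFixedField A, (inertiaValuationSubring A).valuation x < 1 →
      (inertiaValuationSubring A).valuation (x / (l : inertiaFixedField A)) ≤ 1 := by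
  refine ⟨?_, fun x hx => ?_⟩
  · rw [valuation_inertia_lt_one_iff]
    push_cast
    exact (ValuationSubring.mem_nonunits_iff A).mp hA
  · rw [valuation_inertia_le_one_iff]
    push_cast
    exact unram hl A hA (x : Qb) (fun σ hσ => x.2 ⟨σ, hσ⟩)
      ((valuation_inertia_lt_one_iff A x).mp hx)

end fixedField

end Fermat.Agent.S58.helper6024
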