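import Mathlib

/-!
# Analytic bricks for the Weierstrass `℘`-function (helper4170, board row 929)

Mathlib-only, statement-agnostic.

* (A1) `wpTail L z = ℘[L] z - (z ^ 2)⁻¹` is Mathlib's `℘[L - 0]`, it is analytic at `0` and its
  iterated derivatives at `0` are `0` (order `0`) and `(n + 1)! * L.G (n + 2)` (order `n ≥ 1`).
* (A2) the Eisenstein sums `L.G (2 * n + 2)`, `n ≥ 1`, determine the lattice
  (`lattice_eq_of_G_eq`), together with the intermediate steps (same germ at `0`, identity theorem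
  on the complement of the two lattices, comparison of poles).
-/

set_option autoImplicit false

namespace Fermat.Agent.S58.helper4170

open scoped Nat Topology
open Filter PeriodPair

/-- Two functions analytic at a point with the same iterated derivatives there agree near it. -/
theorem eventuallyEq_of_iteratedDeriv_eq {f g : ℂ → ℂ} {z₀ : ℂ} (hf : AnalyticAt ℂ f z₀)
    (hg : AnalyticAt ℂ g z₀) (h : ∀ n, iteratedDeriv n f z₀ = iteratedDeriv n g z₀) :
    f =ᶠ[𝓝 z₀] g := by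
  have hfg : AnalyticAt ℂ (f - g) z₀ := hf.sub hg
  have htop : analyticOrderAt (f - g) z₀ = ⊤ := by
    rw [ENat.eq_top_iff_forall_ge]
    intro m
    rw [natCast_le_analyticOrderAt_iff_iteratedDeriv_eq_zero hfg]
    intro i _
    rw [iteratedDeriv_sub hf.contDiffAt hg.contDiffAt, h i, sub_self]
  rw [analyticOrderAt_eq_top] at htop
  filter_upwards [htop] with z hz
  exact sub_eq_zero.mp hz

/-- The Weierstrass `℘`-function with its double pole at `0` removed. -/
noncomputable def wpTail (L : PeriodPair) (z : ℂ) : ℂ := ℘[L] z - (z ^ 2)⁻¹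

/-- `wpTail L` is Mathlib's `℘[L - 0]`. -/
theorem wpTail_eq (L : PeriodPair) : wpTail L = ℘[L - (0 : ℂ)] := by
  funext z
  have h := L.weierstrassPExcept_def (0 : L.lattice) z
  simp only [ZeroMemClass.coe_zero, sub_zero] at h
  rw [h, wpTail]
  simp [sub_eq_add_neg]

theorem weierstrassP_eq_wpTail_add (L : PeriodPair) (z : ℂ) :
    ℘[L] z = wpTail L z + (z ^ 2)⁻¹ := by
  simp [wpTail]

theorem analyticAt_wpTail (L : PeriodPair) : AnalyticAt ℂ (wpTail L) 0 := by
  rw [wpTail_eq]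
  exact L.analyticAt_weierstrassPExcept 0

@[simp] theorem wpTail_zero (L : PeriodPair) : wpTail L 0 = 0 := by
  rw [wpTail_eq]
  exact L.weierstrassPExcept_zero 0

/-- All iterated derivatives of the tail at `0`. -/
theorem iteratedDeriv_wpTail_zero (L : PeriodPair) (n : ℕ) :
    iteratedDeriv n (wpTail L) 0 = if n = 0 then 0 else ((n + 1)! : ℂ) * L.G (n + 2) := by
  rw [wpTail_eq, L.iteratedDeriv_weierstrassPExcept_self 0]
  simp

theorem iteratedDeriv_wpTail_zero_of_pos (L : PeriodPair) {n : ℕ} (hn : 1 ≤ n) :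
    iteratedDeriv n (wpTail L) 0 = ((n + 1)! : ℂ) * L.G (n + 2) := by
  rw [iteratedDeriv_wpTail_zero, if_neg (by omega)]

theorem iteratedDeriv_wpTail_zero_odd (L : PeriodPair) (k : ℕ) :
    iteratedDeriv (2 * k + 1) (wpTail L) 0 = 0 := by
  rw [iteratedDeriv_wpTail_zero_of_pos L (by omega),
    L.G_eq_zero_of_odd (2 * k + 1 + 2) ⟨k + 1, by ring⟩, mul_zero]

theorem iteratedDeriv_wpTail_zero_even (L : PeriodPair) {k : ℕ} (hk : 1 ≤ k) :
    iteratedDeriv (2 * k) (wpTail L) 0 =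
      ((2 * k)! : ℂ) * (((2 * k + 1 : ℕ) : ℂ) * L.G (2 * k + 2)) := by
  rw [iteratedDeriv_wpTail_zero_of_pos L (by omega), Nat.factorial_succ]
  push_cast
  ring

/-- Taylor coefficients of the tail: `iteratedDeriv n / n!` is `(n + 1) * G (n + 2)`. -/
theorem iteratedDeriv_wpTail_zero_div_factorial (L : PeriodPair) {n : ℕ} (hn : 1 ≤ n) :
    iteratedDeriv n (wpTail L) 0 / (n ! : ℂ) = ((n + 1 : ℕ) : ℂ) * L.G (n + 2) := by
  have hn0 : (n ! : ℂ) ≠ 0 := Nat.cast_ne_zero.mpr (Nat.factorial_ne_zero n)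
  rw [iteratedDeriv_wpTail_zero_of_pos L hn, Nat.factorial_succ]
  push_cast
  field_simp

/-- If the Eisenstein sums agree then the tails agree near `0`. -/
theorem wpTail_eventuallyEq {L L' : PeriodPair}
    (h : ∀ n, 1 ≤ n → L.G (2 * n + 2) = L'.G (2 * n + 2)) :
    wpTail L =ᶠ[𝓝 0] wpTail L' := by
  refine eventuallyEq_of_iteratedDeriv_eq (analyticAt_wpTail L) (analyticAt_wpTail L') fun n => ?_
  rw [iteratedDeriv_wpTail_zero, iteratedDeriv_wpTail_zero]
  by_cases hn : n = 0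
  · simp [hn]
  · rw [if_neg hn, if_neg hn]
    rcases Nat.even_or_odd n with ⟨m, hm⟩ | hodd
    · have hm1 : 1 ≤ m := by omega
      have e : n + 2 = 2 * m + 2 := by omega
      rw [e, h m hm1]
    · have hodd' : Odd (n + 2) := by
        obtain ⟨m, hm⟩ := hodd
        exact ⟨m + 1, by omega⟩
      rw [L.G_eq_zero_of_odd _ hodd', L'.G_eq_zero_of_odd _ hodd']

/-- If the tails agree near `0` then the `℘`-functions agree off the two lattices. -/
theorem weierstrassP_eqOn_of_eventuallyEq {L L' : PeriodPair}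
    (h : wpTail L =ᶠ[𝓝 0] wpTail L') :
    Set.EqOn ℘[L] ℘[L'] ((L.lattice : Set ℂ) ∪ (L'.lattice : Set ℂ))ᶜ := by
  have hconn : IsPreconnected ((L.lattice : Set ℂ) ∪ (L'.lattice : Set ℂ))ᶜ := by
    refine (Set.Countable.isConnected_compl_of_one_lt_rank (by simp) ?_).isPreconnected
    exact Set.Countable.union (s := (L.lattice : Set ℂ)) (t := (L'.lattice : Set ℂ))
      (countable_of_Lindelof_of_discrete (X := L.lattice))
      (countable_of_Lindelof_of_discrete (X := L'.lattice))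
  have hfL : AnalyticOnNhd ℂ ℘[L] ((L.lattice : Set ℂ) ∪ (L'.lattice : Set ℂ))ᶜ :=
    L.analyticOnNhd_weierstrassP.mono fun z hz hz' => hz (Or.inl hz')
  have hfL' : AnalyticOnNhd ℂ ℘[L'] ((L.lattice : Set ℂ) ∪ (L'.lattice : Set ℂ))ᶜ :=
    L'.analyticOnNhd_weierstrassP.mono fun z hz hz' => hz (Or.inr hz')
  have hev : ∀ᶠ z in 𝓝 (0 : ℂ), ∀ᶠ w in 𝓝 z, wpTail L w = wpTail L' w :=
    eventually_eventually_nhds.mpr h
  have hL0 := L.compl_lattice_sdiff_singleton_mem_nhds 0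
  have hL'0 := L'.compl_lattice_sdiff_singleton_mem_nhds 0
  have hex : ∃ z₀ : ℂ, z₀ ≠ 0 ∧ (∀ᶠ w in 𝓝 z₀, wpTail L w = wpTail L' w) ∧
      z₀ ∈ ((L.lattice : Set ℂ) \ {0})ᶜ ∧ z₀ ∈ ((L'.lattice : Set ℂ) \ {0})ᶜ := by
    have hall : ∀ᶠ z in 𝓝[≠] (0 : ℂ), z ≠ 0 ∧ (∀ᶠ w in 𝓝 z, wpTail L w = wpTail L' w) ∧
        z ∈ ((L.lattice : Set ℂ) \ {0})ᶜ ∧ z ∈ ((L'.lattice : Set ℂ) \ {0})ᶜ := by
      filter_upwards [self_mem_nhdsWithin, mem_nhdsWithin_of_mem_nhds hev,
        mem_nhdsWithin_of_mem_nhds hL0, mem_nhdsWithin_of_mem_nhds hL'0] with z h1 h2 h3 h4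
      exact ⟨h1, h2, h3, h4⟩
    exact hall.exists
  obtain ⟨z₀, hz0, hzev, hzL, hzL'⟩ := hex
  have hz₀U : z₀ ∈ ((L.lattice : Set ℂ) ∪ (L'.lattice : Set ℂ))ᶜ := by
    rintro (hz | hz)
    · exact hzL ⟨hz, hz0⟩
    · exact hzL' ⟨hz, hz0⟩
  have hfg : ℘[L] =ᶠ[𝓝 z₀] ℘[L'] := by
    filter_upwards [hzev] with w hw
    rw [weierstrassP_eq_wpTail_add, hw, ← weierstrassP_eq_wpTail_add]
  exact hfL.eqOn_of_preconnected_of_eventuallyEq hfL' hconn hz₀U hfg

/-- If the `℘`-functions agree off the two lattices, every pole of the first is a pole of the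
second. -/
theorem lattice_le_of_eqOn {L L' : PeriodPair}
    (h : Set.EqOn ℘[L] ℘[L'] ((L.lattice : Set ℂ) ∪ (L'.lattice : Set ℂ))ᶜ) :
    L.lattice ≤ L'.lattice := by
  intro l hl
  by_contra hl'
  have h1 : meromorphicOrderAt ℘[L] l = -2 := L.order_weierstrassP l hl
  have h2 : 0 ≤ meromorphicOrderAt ℘[L'] l :=
    (L'.analyticOnNhd_weierstrassP l hl').meromorphicOrderAt_nonneg
  have h3 : ℘[L] =ᶠ[𝓝[≠] l] ℘[L'] := by
    have hA : ((L.lattice : Set ℂ) \ {l})ᶜ ∈ 𝓝 l := L.compl_lattice_sdiff_singleton_mem_nhds l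
    have hB : (L'.lattice : Set ℂ)ᶜ ∈ 𝓝 l := L'.isClosed_lattice.isOpen_compl.mem_nhds hl'
    filter_upwards [mem_nhdsWithin_of_mem_nhds hA, mem_nhdsWithin_of_mem_nhds hB,
      self_mem_nhdsWithin] with z hzA hzB hzne
    apply h
    rintro (hz | hz)
    · exact hzA ⟨hz, hzne⟩
    · exact hzB hz
  rw [← meromorphicOrderAt_congr h3, h1] at h2
  exact absurd h2 (by decide)

/-- The `℘`-function only depends on the lattice. -/
theorem weierstrassP_congr {L L' : PeriodPair} (h : L.lattice = L'.lattice) : ℘[L] = ℘[L'] := by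
  funext z
  unfold PeriodPair.weierstrassP
  rw [h]

/-- **(A2)** The Eisenstein sums `G (2 n + 2)`, `n ≥ 1`, determine the lattice. -/
theorem lattice_eq_of_G_eq {L L' : PeriodPair}
    (h : ∀ n, 1 ≤ n → L.G (2 * n + 2) = L'.G (2 * n + 2)) : L.lattice = L'.lattice := by
  have h1 := weierstrassP_eqOn_of_eventuallyEq (wpTail_eventuallyEq h)
  refine le_antisymm (lattice_le_of_eqOn h1) (lattice_le_of_eqOn ?_)
  rw [Set.union_comm]
  exact h1.symm

/-- The lattice is determined by the germ of `℘` at the origin. -/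
theorem lattice_eq_of_wpTail_eventuallyEq {L L' : PeriodPair}
    (h : wpTail L =ᶠ[𝓝 0] wpTail L') : L.lattice = L'.lattice := by
  have h1 := weierstrassP_eqOn_of_eventuallyEq h
  refine le_antisymm (lattice_le_of_eqOn h1) (lattice_le_of_eqOn ?_)
  rw [Set.union_comm]
  exact h1.symm

end Fermat.Agent.S58.helper4170
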