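import Mathlib

/-!
# Weierstrass-℘ toolkit and lattice-inclusion transport (S58 step 2c, helper6859)

Mathlib-only.  Everything is stated for Mathlib's `PeriodPair`.

Main results (namespace `Fermat.Agent.S58.helper6859`):

* `tendsto_cube_mul_derivWP` : `z ^ 3 * ℘'(z) → -2` as `z → 0`.
* `mem_lattice_of_frequently_derivWP_eq` : a frequent period of `℘'` near `0` is a lattice point.
* `deriv_derivWP` : the second order equation `℘'' = 6 ℘² - g₂ / 2` off the lattice.
* `iteratedDeriv_add_two_WP` : the resulting recursion for all higher derivatives of `℘`.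
* `map_iteratedDeriv_WP` : higher derivatives of `℘` are compatible with an arbitrary
  ring homomorphism `σ : ℂ →+* ℂ` applied to the data `(℘ u, ℘' u, g₂)`.
* `exists_WP_eq`, `exists_WP_eq_and_derivWP_eq` : surjectivity of `℘`, parametrisation of the
  cubic `y² = 4x³ - g₂ x - g₃` by `(℘, ℘')`.
* `exists_finset_derivWP_eq_sum` : trace formula `℘'_{L'}(z) = ∑_{w ∈ R} ℘'_L(z + w)` for
  `L ⊆ L'`.
* `lattice_le_of_map` : MAIN. Lattice inclusions are transported by ring homomorphisms of `ℂ`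
  acting on `(g₂, g₃)`.
* `lattice_eq_of_g_eq` : the lattice is determined by `(g₂, g₃)`.
* `g_fixed_of_forall_exists_lattice_le` : descent corollary.
-/

namespace Fermat.Agent.S58.helper6859

open scoped Topology
open PeriodPair Filter

/-- `z ^ 3 * ℘'(z) → -2` as `z → 0`, `z ≠ 0`. -/
theorem tendsto_cube_mul_derivWP (L : PeriodPair) :
    Tendsto (fun z : ℂ ↦ z ^ 3 * ℘'[L] z) (𝓝[≠] 0) (𝓝 (-2)) := by
  have hc : ContinuousAt (fun z : ℂ ↦ z ^ 3 * ℘'[L - (0 : ℂ)] z - 2) 0 := by
    have := (L.analyticAt_derivWeierstrassPExcept 0).continuousAt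
    fun_prop
  have h0 : Tendsto (fun z : ℂ ↦ z ^ 3 * ℘'[L - (0 : ℂ)] z - 2) (𝓝[≠] 0) (𝓝 (-2)) := by
    have := hc.tendsto
    simp only [ne_eq, OfNat.ofNat_ne_zero, not_false_eq_true, zero_pow, zero_mul, zero_sub]
      at this
    exact this.mono_left nhdsWithin_le_nhds
  refine h0.congr' ?_
  filter_upwards [self_mem_nhdsWithin] with z hz
  have hz0 : z ≠ 0 := hz
  have h := L.derivWeierstrassPExcept_def (0 : L.lattice) z
  simp only [ZeroMemClass.coe_zero, sub_zero] at h
  rw [h]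
  field_simp
  ring

/-- If `w` is a period of `℘'` at points accumulating at `0`, then `w` is a lattice point. -/
theorem mem_lattice_of_frequently_derivWP_eq (L : PeriodPair) (w : ℂ)
    (h : ∃ᶠ z in 𝓝[≠] (0 : ℂ), ℘'[L] (z + w) = ℘'[L] z) : w ∈ L.lattice := by
  by_contra hw
  have hc : ContinuousAt (fun z : ℂ ↦ z ^ 3 * ℘'[L] (z + w)) 0 := by
    have h1 : ContinuousAt ℘'[L] (0 + w) := by
      rw [zero_add]
      exact (L.analyticOnNhd_derivWeierstrassP w hw).continuousAt
    have h2 : ContinuousAt (fun z : ℂ ↦ ℘'[L] (z + w)) 0 :=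
      ContinuousAt.comp (f := fun z : ℂ ↦ z + w) h1 (by fun_prop)
    fun_prop
  have h0 : Tendsto (fun z : ℂ ↦ z ^ 3 * ℘'[L] (z + w)) (𝓝[≠] 0) (𝓝 0) := by
    have := hc.tendsto
    simp only [ne_eq, OfNat.ofNat_ne_zero, not_false_eq_true, zero_pow, zero_mul] at this
    exact this.mono_left nhdsWithin_le_nhds
  have := tendsto_nhds_unique_of_frequently_eq h0 (tendsto_cube_mul_derivWP L)
    (h.mono fun z hz ↦ by rw [hz])
  norm_num at this

/-- Near any point `a`, the punctured neighbourhood of `0` translated by `a` avoids the lattice. -/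
theorem eventually_add_notMem_lattice (L : PeriodPair) (a : ℂ) :
    ∀ᶠ z in 𝓝[≠] (0 : ℂ), z + a ∉ L.lattice := by
  have h1 : ∀ᶠ y in 𝓝 a, y ∈ ((L.lattice : Set ℂ) \ {a})ᶜ :=
    L.compl_lattice_sdiff_singleton_mem_nhds a
  have h2 : Tendsto (fun z : ℂ ↦ z + a) (𝓝 0) (𝓝 a) := by
    have : ContinuousAt (fun z : ℂ ↦ z + a) 0 := by fun_prop
    simpa using this.tendsto
  have h3 := (h2.eventually h1).filter_mono (nhdsWithin_le_nhds (s := {0}ᶜ))
  filter_upwards [h3, self_mem_nhdsWithin] with z hz hz0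
  intro hmem
  exact hz ⟨hmem, by simpa using hz0⟩

/-- The complement of the lattice is preconnected. -/
theorem isPreconnected_compl_lattice (L : PeriodPair) :
    IsPreconnected ((L.lattice : Set ℂ)ᶜ) := by
  refine (Set.Countable.isConnected_compl_of_one_lt_rank (by simp) ?_).isPreconnected
  exact countable_of_Lindelof_of_discrete (X := L.lattice)

/-- `℘'` does not vanish identically off the lattice. -/
theorem not_eqOn_derivWP_zero (L : PeriodPair) :
    ¬ Set.EqOn ℘'[L] 0 ((L.lattice : Set ℂ)ᶜ) := by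
  intro h
  have h1 : ∀ᶠ z in 𝓝[≠] (0 : ℂ), z ^ 3 * ℘'[L] z = 0 := by
    filter_upwards [eventually_add_notMem_lattice L 0] with z hz
    rw [add_zero] at hz
    rw [h hz]
    simp
  have h2 : Tendsto (fun z : ℂ ↦ z ^ 3 * ℘'[L] z) (𝓝[≠] 0) (𝓝 0) :=
    tendsto_const_nhds.congr' (h1.mono fun z hz ↦ hz.symm)
  have := tendsto_nhds_unique h2 (tendsto_cube_mul_derivWP L)
  norm_num at this

/-- The second-order equation `℘'' = 6 ℘² - g₂ / 2` away from the lattice. -/
theorem deriv_derivWP (L : PeriodPair) (z : ℂ) (hz : z ∉ L.lattice) :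
    deriv ℘'[L] z = 6 * ℘[L] z ^ 2 - L.g₂ / 2 := by
  have hUo : IsOpen ((L.lattice : Set ℂ)ᶜ) := L.isClosed_lattice.isOpen_compl
  have hprod : ∀ w, w ∉ L.lattice →
      ℘'[L] w * (2 * deriv ℘'[L] w - 12 * ℘[L] w ^ 2 + L.g₂) = 0 := by
    intro w hw
    have hP : HasDerivAt ℘[L] (℘'[L] w) w := by
      have := (L.analyticOnNhd_weierstrassP w hw).differentiableAt.hasDerivAt
      rwa [L.deriv_weierstrassP] at this
    have hP' : HasDerivAt ℘'[L] (deriv ℘'[L] w) w :=
      (L.analyticOnNhd_derivWeierstrassP w hw).differentiableAt.hasDerivAt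
    have h1 := (hP'.fun_pow 2).fun_sub
      ((((hP.fun_pow 3).const_mul 4).fun_sub (hP.const_mul L.g₂)).sub_const L.g₃)
    have h2 : (fun t ↦ ℘'[L] t ^ 2 - (4 * ℘[L] t ^ 3 - L.g₂ * ℘[L] t - L.g₃))
        =ᶠ[𝓝 w] fun _ ↦ 0 := by
      filter_upwards [hUo.mem_nhds hw] with t ht
      rw [L.derivWeierstrassP_sq t ht]; ring
    have h3 := h1.unique (h2.hasDerivAt_iff.mpr (hasDerivAt_const w 0))
    simp only [Nat.cast_ofNat, Nat.add_one_sub_one, pow_one] at h3
    linear_combination h3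
  have hA : AnalyticAt ℂ (fun w ↦ 2 * deriv ℘'[L] w - 12 * ℘[L] w ^ 2 + L.g₂) z := by
    have a1 := (L.analyticOnNhd_derivWeierstrassP z hz).deriv
    have a2 := L.analyticOnNhd_weierstrassP z hz
    fun_prop
  rcases (L.analyticOnNhd_derivWeierstrassP z hz).eventually_eq_zero_or_eventually_ne_zero
    with h0 | hne
  · exact absurd (L.analyticOnNhd_derivWeierstrassP.eqOn_zero_of_preconnected_of_eventuallyEq_zero
      (isPreconnected_compl_lattice L) hz h0) (not_eqOn_derivWP_zero L)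
  · have hev : ∀ᶠ w in 𝓝[≠] z, 2 * deriv ℘'[L] w - 12 * ℘[L] w ^ 2 + L.g₂ = 0 := by
      filter_upwards [hne, mem_nhdsWithin_of_mem_nhds (hUo.mem_nhds hz)] with w hw hwU
      exact (mul_eq_zero.mp (hprod w hwU)).resolve_left hw
    have := (hA.frequently_zero_iff_eventually_zero.mp hev.frequently).self_of_nhds
    linear_combination this / 2

/-- Recursion for the higher derivatives of `℘`, obtained from `℘'' = 6 ℘² - g₂ / 2`. -/
theorem iteratedDeriv_add_two_WP (L : PeriodPair) (n : ℕ) (z : ℂ) (hz : z ∉ L.lattice) :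
    iteratedDeriv (n + 2) ℘[L] z =
      6 * ∑ i ∈ Finset.range (n + 1),
        (n.choose i : ℂ) * iteratedDeriv i ℘[L] z * iteratedDeriv (n - i) ℘[L] z
      - if n = 0 then L.g₂ / 2 else 0 := by
  have hUo : IsOpen ((L.lattice : Set ℂ)ᶜ) := L.isClosed_lattice.isOpen_compl
  have hcd : ContDiffAt ℂ n ℘[L] z := (L.analyticOnNhd_weierstrassP z hz).contDiffAt
  rw [iteratedDeriv_succ', iteratedDeriv_succ', L.deriv_weierstrassP]
  have hev : deriv ℘'[L] =ᶠ[𝓝 z] fun w ↦ 6 * (℘[L] w * ℘[L] w) - L.g₂ / 2 := by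
    filter_upwards [hUo.mem_nhds hz] with w hw
    rw [deriv_derivWP L w hw]; ring
  rw [hev.iteratedDeriv_eq n]
  rw [iteratedDeriv_fun_sub (by fun_prop) (by fun_prop), iteratedDeriv_const_mul_field,
    iteratedDeriv_fun_mul hcd hcd, iteratedDeriv_const]

/-- Higher derivatives of `℘` are compatible with an arbitrary ring homomorphism `σ` of `ℂ`
applied to the initial data `(℘ u, ℘' u)` and the invariant `g₂`. -/
theorem map_iteratedDeriv_WP (σ : ℂ →+* ℂ) (L M : PeriodPair) (hg : M.g₂ = σ L.g₂)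
    (u u' : ℂ) (hu : u ∉ L.lattice) (hu' : u' ∉ M.lattice)
    (h0 : ℘[M] u' = σ (℘[L] u)) (h1 : ℘'[M] u' = σ (℘'[L] u)) (n : ℕ) :
    iteratedDeriv n ℘[M] u' = σ (iteratedDeriv n ℘[L] u) := by
  induction n using Nat.strong_induction_on with
  | _ n ih =>
    match n, ih with
    | 0, _ => simpa using h0
    | 1, _ => simpa [iteratedDeriv_one] using h1
    | (k + 2), ih =>
      rw [iteratedDeriv_add_two_WP M k u' hu', iteratedDeriv_add_two_WP L k u hu, map_sub,
        map_mul, map_sum]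
      rw [map_ofNat σ 6]
      congr 1
      · congr 1
        refine Finset.sum_congr rfl fun i hi ↦ ?_
        have hi' : i < k + 1 := Finset.mem_range.mp hi
        rw [map_mul, map_mul, map_natCast, ih i (by omega), ih (k - i) (by omega)]
      · split_ifs
        · rw [hg, map_div₀, map_ofNat σ 2]
        · simp

/-- Higher derivatives of `℘'`, same compatibility. -/
theorem map_iteratedDeriv_derivWP (σ : ℂ →+* ℂ) (L M : PeriodPair) (hg : M.g₂ = σ L.g₂)
    (u u' : ℂ) (hu : u ∉ L.lattice) (hu' : u' ∉ M.lattice)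
    (h0 : ℘[M] u' = σ (℘[L] u)) (h1 : ℘'[M] u' = σ (℘'[L] u)) (n : ℕ) :
    iteratedDeriv n ℘'[M] u' = σ (iteratedDeriv n ℘'[L] u) := by
  have := map_iteratedDeriv_WP σ L M hg u u' hu hu' h0 h1 (n + 1)
  rwa [iteratedDeriv_succ', iteratedDeriv_succ', M.deriv_weierstrassP, L.deriv_weierstrassP]
    at this

/-- `℘` attains every complex value off the lattice. -/
theorem exists_WP_eq (L : PeriodPair) (c : ℂ) : ∃ z, z ∉ L.lattice ∧ ℘[L] z = c := by
  classical
  by_contra hcon
  push Not at hcon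
  let g : ℂ → ℂ := fun z ↦ if z ∈ L.lattice then 0 else (℘[L] z - c)⁻¹
  have hUo : IsOpen ((L.lattice : Set ℂ)ᶜ) := L.isClosed_lattice.isOpen_compl
  have hdiff : Differentiable ℂ g := by
    intro z
    by_cases hz : z ∈ L.lattice
    · let E : ℂ → ℂ := fun w ↦ (w - z) ^ 2 * ℘[L - z] w + 1 - (w - z) ^ 2 / z ^ 2
      have hE : DifferentiableAt ℂ E z := by
        have h1 := (L.analyticAt_weierstrassPExcept z).differentiableAt
        have h2 : DifferentiableAt ℂ (fun w : ℂ ↦ (w - z) ^ 2 / z ^ 2) z :=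
          DifferentiableAt.div_const (by fun_prop) _
        exact ((DifferentiableAt.mul (by fun_prop) h1).add_const 1).sub h2
      have hEz : E z = 1 := by simp [E]
      have hev : g =ᶠ[𝓝 z] fun w ↦ (w - z) ^ 2 / (E w - c * (w - z) ^ 2) := by
        filter_upwards [L.compl_lattice_sdiff_singleton_mem_nhds z] with w hw
        by_cases hwz : w = z
        · subst hwz; simp [g, hz]
        · have hwL : w ∉ L.lattice := fun h ↦ hw ⟨h, hwz⟩
          have hE' : E w = (w - z) ^ 2 * ℘[L] w := by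
            have := L.ite_eq_one_sub_sq_mul_weierstrassP z hz w
            rw [if_neg hwz] at this
            exact this.symm
          have h1 : (w - z) ^ 2 ≠ 0 := pow_ne_zero 2 (sub_ne_zero.mpr hwz)
          have h2 : ℘[L] w - c ≠ 0 := sub_ne_zero.mpr (hcon w hwL)
          simp only [g, if_neg hwL]
          rw [hE', mul_comm c, ← mul_sub, div_mul_eq_div_div, div_self h1, one_div]
      refine DifferentiableAt.congr_of_eventuallyEq ?_ hev
      refine DifferentiableAt.div (by fun_prop) ?_ ?_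
      · exact hE.sub (by fun_prop)
      · simp [hEz]
    · have hev : g =ᶠ[𝓝 z] fun w ↦ (℘[L] w - c)⁻¹ := by
        filter_upwards [hUo.mem_nhds hz] with w hw
        simp [g, show w ∉ L.lattice from hw]
      refine DifferentiableAt.congr_of_eventuallyEq ?_ hev
      have := (L.analyticOnNhd_weierstrassP z hz).differentiableAt
      exact (this.sub_const c).inv (sub_ne_zero.mpr (hcon z hz))
  have hper : ∀ z w, w ∈ L.lattice → g (z + w) = g z := by
    intro z w hw
    have hiff : z + w ∈ L.lattice ↔ z ∈ L.lattice := L.lattice.add_mem_iff_left hw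
    simp only [g, hiff]
    rw [L.weierstrassP_add_coe z ⟨w, hw⟩]
  have hconst := hdiff.apply_eq_apply_of_bounded
    (IsZLattice.isCompact_range_of_periodic L.lattice g hdiff.continuous hper).isBounded
    (L.ω₁ / 2) 0
  have h0 : g 0 = 0 := by simp [g]
  have h1 : g (L.ω₁ / 2) = (℘[L] (L.ω₁ / 2) - c)⁻¹ := by
    simp [g, L.ω₁_div_two_notMem_lattice]
  rw [h0, h1] at hconst
  exact (inv_ne_zero (sub_ne_zero.mpr (hcon _ L.ω₁_div_two_notMem_lattice))) hconst

/-- Every point of the affine cubic `y² = 4x³ - g₂ x - g₃` is `(℘ z, ℘' z)` for some `z` off the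
lattice. -/
theorem exists_WP_eq_and_derivWP_eq (L : PeriodPair) (x y : ℂ)
    (h : y ^ 2 = 4 * x ^ 3 - L.g₂ * x - L.g₃) :
    ∃ z, z ∉ L.lattice ∧ ℘[L] z = x ∧ ℘'[L] z = y := by
  obtain ⟨z, hz, hx⟩ := exists_WP_eq L x
  have h2 : ℘'[L] z ^ 2 = y ^ 2 := by rw [L.derivWeierstrassP_sq z hz, hx, h]
  rcases sq_eq_sq_iff_eq_or_eq_neg.mp h2 with h3 | h3
  · exact ⟨z, hz, hx, h3⟩
  · refine ⟨-z, fun hm ↦ hz (by simpa using neg_mem hm), by simp [hx], by simp [h3]⟩

/-- Trace formula for `℘'` along a lattice inclusion `L ⊆ L'`: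
`℘'_{L'}(z) = ∑_{w ∈ R} ℘'_L(z + w)` for a finite set `R ⊆ L'` (coset representatives). -/
theorem exists_finset_derivWP_eq_sum (L L' : PeriodPair) (h : L.lattice ≤ L'.lattice) :
    ∃ R : Finset ℂ, (∀ w ∈ R, w ∈ L'.lattice) ∧
      ∀ z, ℘'[L'] z = ∑ w ∈ R, ℘'[L] (z + w) := by
  classical
  let H : Submodule ℤ L'.lattice := L.lattice.comap L'.lattice.subtype
  have hfree : Module.Free ℤ L'.lattice := Module.Free.of_basis L'.latticeBasis
  have hfin : Module.Finite ℤ L'.lattice := Module.Finite.of_basis L'.latticeBasis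
  have hrank : Module.finrank ℤ H = Module.finrank ℤ L'.lattice := by
    rw [(Submodule.comapSubtypeEquivOfLe h).finrank_eq, L.finrank_lattice, L'.finrank_lattice]
  have : Finite (L'.lattice ⧸ H) := Submodule.finiteQuotientOfFreeOfRankEq H hrank
  let _ : Fintype (L'.lattice ⧸ H) := Fintype.ofFinite _
  let r : L'.lattice ⧸ H → L'.lattice := Function.surjInv H.mkQ_surjective
  have hr : ∀ q, H.mkQ (r q) = q := Function.surjInv_eq H.mkQ_surjective
  have hmemL : ∀ l' : L'.lattice, ((l' - r (H.mkQ l') : L'.lattice) : ℂ) ∈ L.lattice := by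
    intro l'
    have : l' - r (H.mkQ l') ∈ H := by
      rw [← Submodule.Quotient.mk_eq_zero H]
      have := hr (H.mkQ l')
      simp only [Submodule.mkQ_apply] at this
      rw [Submodule.Quotient.mk_sub]
      simp only [Submodule.mkQ_apply]
      rw [this, sub_self]
    exact this
  let e : (L'.lattice ⧸ H) × L.lattice ≃ L'.lattice :=
    { toFun := fun p ↦ r p.1 + ⟨p.2.1, h p.2.2⟩
      invFun := fun l' ↦ (H.mkQ l', ⟨_, hmemL l'⟩)
      left_inv := by
        rintro ⟨q, l⟩
        have hl : H.mkQ ⟨l.1, h l.2⟩ = 0 :=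
          (Submodule.Quotient.mk_eq_zero H).mpr (show (⟨l.1, h l.2⟩ : L'.lattice) ∈ H from l.2)
        have hq : H.mkQ (r q + ⟨l.1, h l.2⟩) = q := by
          rw [map_add, hr, hl, add_zero]
        refine Prod.ext hq (Subtype.ext ?_)
        simp only [hq]
        simp
      right_inv := by
        intro l'
        refine Subtype.ext ?_
        simp }
  refine ⟨Finset.univ.image (fun q ↦ -(r q : ℂ)), ?_, ?_⟩
  · intro w hw
    obtain ⟨q, -, rfl⟩ := Finset.mem_image.mp hw
    exact neg_mem (r q).2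
  · intro z
    rw [Finset.sum_image]
    · have h1 : HasSum (fun p : (L'.lattice ⧸ H) × L.lattice ↦ -2 / (z - (e p : ℂ)) ^ 3)
          (℘'[L'] z) :=
        (e.hasSum_iff (f := fun l' : L'.lattice ↦ -2 / (z - (l' : ℂ)) ^ 3)).mpr
          (L'.hasSum_derivWeierstrassP z)
      have h2 : ∀ q, HasSum (fun l : L.lattice ↦ -2 / (z - (e (q, l) : ℂ)) ^ 3)
          (℘'[L] (z + -(r q : ℂ))) := by
        intro q
        convert L.hasSum_derivWeierstrassP (z + -(r q : ℂ)) using 3 with l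
        simp only [e, Equiv.coe_fn_mk, Submodule.coe_add]
        ring
      exact (h1.prod_fiberwise h2).unique (hasSum_fintype _)
    · intro q₁ _ q₂ _ hq
      have : r q₁ = r q₂ := Subtype.ext (neg_injective hq)
      rw [← hr q₁, this, hr]

/-- **Transport of lattice inclusions.**  Let `L ⊆ L'` be lattices and `σ` an arbitrary ring
homomorphism of `ℂ`.  If `M`, `M'` are lattices whose invariants `(g₂, g₃)` are the `σ`-images of
those of `L`, `L'`, then `M ⊆ M'`. -/
theorem lattice_le_of_map (σ : ℂ →+* ℂ) (L L' M M' : PeriodPair)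
    (h : L.lattice ≤ L'.lattice)
    (h2 : M.g₂ = σ L.g₂) (h3 : M.g₃ = σ L.g₃)
    (h2' : M'.g₂ = σ L'.g₂) (h3' : M'.g₃ = σ L'.g₃) :
    M.lattice ≤ M'.lattice := by
  classical
  obtain ⟨R, hR, htr⟩ := exists_finset_derivWP_eq_sum L L' h
  set z₀ : ℂ := L'.ω₁ / 2 with hz₀def
  have hz₀ : z₀ ∉ L'.lattice := L'.ω₁_div_two_notMem_lattice
  have hz₀w : ∀ w ∈ R, z₀ + w ∉ L.lattice := by
    intro w hw hmem
    exact hz₀ (by simpa using sub_mem (h hmem) (hR w hw))
  -- the conjugate base point on `M'`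
  obtain ⟨u', hu', hu'0, hu'1⟩ :=
    exists_WP_eq_and_derivWP_eq M' (σ (℘[L'] z₀)) (σ (℘'[L'] z₀)) (by
      rw [h2', h3', ← map_pow, L'.derivWeierstrassP_sq z₀ hz₀]
      simp [map_ofNat])
  -- the conjugate points on `M`
  have hex : ∀ w ∈ R, ∃ u, u ∉ M.lattice ∧ ℘[M] u = σ (℘[L] (z₀ + w)) ∧
      ℘'[M] u = σ (℘'[L] (z₀ + w)) := by
    intro w hw
    exact exists_WP_eq_and_derivWP_eq M _ _ (by
      rw [h2, h3, ← map_pow, L.derivWeierstrassP_sq _ (hz₀w w hw)]
      simp [map_ofNat])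
  choose! u hu hu0 hu1 using hex
  set Φ : ℂ → ℂ := fun z ↦ ∑ w ∈ R, ℘'[M] (z + (u w - u')) with hΦ
  have hΦan : ∀ z, (∀ w ∈ R, z + (u w - u') ∉ M.lattice) → AnalyticAt ℂ Φ z := by
    intro z hz
    refine Finset.analyticAt_fun_sum _ fun w hw ↦ ?_
    exact (M.analyticOnNhd_derivWeierstrassP _ (hz w hw)).comp_of_eq
      (f := fun z ↦ z + (u w - u')) (by fun_prop) rfl
  -- all iterated derivatives at `u'` agree
  have hder : ∀ n, iteratedDeriv n ℘'[M'] u' = iteratedDeriv n Φ u' := by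
    intro n
    have e1 : iteratedDeriv n ℘'[M'] u' = σ (iteratedDeriv n ℘'[L'] z₀) :=
      map_iteratedDeriv_derivWP σ L' M' h2' z₀ u' hz₀ hu' hu'0 hu'1 n
    have e2 : iteratedDeriv n ℘'[L'] z₀ = ∑ w ∈ R, iteratedDeriv n ℘'[L] (z₀ + w) := by
      have hfun : ℘'[L'] = fun z ↦ ∑ w ∈ R, ℘'[L] (z + w) := funext htr
      rw [hfun, iteratedDeriv_fun_sum]
      · refine Finset.sum_congr rfl fun w hw ↦ ?_
        rw [iteratedDeriv_comp_add_const]
      · intro w hw
        have han : AnalyticAt ℂ ℘'[L] (z₀ + w) :=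
          L.analyticOnNhd_derivWeierstrassP _ (hz₀w w hw)
        exact (han.comp_of_eq (f := fun z ↦ z + w) (by fun_prop) rfl).contDiffAt
    have e3 : iteratedDeriv n Φ u' = ∑ w ∈ R, iteratedDeriv n ℘'[M] (u w) := by
      rw [hΦ, iteratedDeriv_fun_sum]
      · refine Finset.sum_congr rfl fun w hw ↦ ?_
        rw [iteratedDeriv_comp_add_const]
        simp
      · intro w hw
        have han : AnalyticAt ℂ ℘'[M] (u' + (u w - u')) :=
          M.analyticOnNhd_derivWeierstrassP _ (by simpa using hu w hw)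
        exact (han.comp_of_eq (f := fun z ↦ z + (u w - u')) (by fun_prop) rfl).contDiffAt
    rw [e1, e2, e3, map_sum]
    refine Finset.sum_congr rfl fun w hw ↦ ?_
    exact (map_iteratedDeriv_derivWP σ L M h2 (z₀ + w) (u w) (hz₀w w hw) (hu w hw)
      (hu0 w hw) (hu1 w hw) n).symm
  -- hence the two functions agree near `u'`
  have hΨan' : AnalyticAt ℂ ℘'[M'] u' := M'.analyticOnNhd_derivWeierstrassP u' hu'
  have hΦan' : AnalyticAt ℂ Φ u' := hΦan u' (fun w hw ↦ by simpa using hu w hw)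
  have hloc : ℘'[M'] =ᶠ[𝓝 u'] Φ := by
    have p1 := hΨan'.hasFPowerSeriesAt
    have p2 := hΦan'.hasFPowerSeriesAt
    have hco : (fun n ↦ iteratedDeriv n ℘'[M'] u' / (n.factorial : ℂ)) =
        fun n ↦ iteratedDeriv n Φ u' / (n.factorial : ℂ) := funext fun n ↦ by rw [hder n]
    rw [hco] at p1
    have p3 := p1.sub p2
    rw [sub_self] at p3
    filter_upwards [p3.eventually_eq_zero] with z hz
    exact sub_eq_zero.mp hz
  -- the common domain of analyticity
  set U : Set ℂ := {z | z ∉ M'.lattice ∧ ∀ w ∈ R, z + (u w - u') ∉ M.lattice} with hU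
  have hUc : IsPreconnected U := by
    have hcount : (Uᶜ).Countable := by
      have hsub : Uᶜ ⊆ (M'.lattice : Set ℂ) ∪
          ⋃ w ∈ R, (fun z : ℂ ↦ z + (u w - u')) ⁻¹' (M.lattice : Set ℂ) := by
        intro z hz
        simp only [hU, Set.mem_compl_iff, Set.mem_ofPred_eq, not_and, not_forall, not_not] at hz
        by_cases h1 : z ∈ M'.lattice
        · exact Or.inl h1
        · obtain ⟨w, hw, hmem⟩ := hz h1
          exact Or.inr (Set.mem_biUnion hw hmem)
      refine Set.Countable.mono hsub ?_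
      refine Set.Countable.union (countable_of_Lindelof_of_discrete (X := M'.lattice)) ?_
      refine Set.Countable.biUnion R.countable_toSet fun w _ ↦ ?_
      exact Set.Countable.preimage_of_injOn
        (countable_of_Lindelof_of_discrete (X := M.lattice)) (add_left_injective _).injOn
    have hconn := Set.Countable.isConnected_compl_of_one_lt_rank (E := ℂ) (by simp) hcount
    rw [compl_compl] at hconn
    exact hconn.isPreconnected
  have hEq : Set.EqOn ℘'[M'] Φ U := by
    refine AnalyticOnNhd.eqOn_of_preconnected_of_eventuallyEq (𝕜 := ℂ) ?_ ?_ hUc (?_ : u' ∈ U) hloc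
    · intro z hz
      exact M'.analyticOnNhd_derivWeierstrassP z hz.1
    · intro z hz
      exact hΦan z hz.2
    · exact ⟨hu', fun w hw ↦ by simpa using hu w hw⟩
  -- `Φ` is `M`-periodic, hence so is `℘'_{M'}`
  intro m hm
  refine mem_lattice_of_frequently_derivWP_eq M' m (Eventually.frequently ?_)
  have ev1 := eventually_add_notMem_lattice M' 0
  have ev2 := eventually_add_notMem_lattice M' m
  have ev3 : ∀ᶠ z in 𝓝[≠] (0 : ℂ), ∀ w ∈ R, z + (u w - u') ∉ M.lattice :=
    (Filter.eventually_all_finset R).mpr fun w _ ↦ eventually_add_notMem_lattice M (u w - u')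
  filter_upwards [ev1, ev2, ev3] with z k1 k2 k3
  have hzU : z ∈ U := ⟨by simpa using k1, k3⟩
  have hzmU : z + m ∈ U := ⟨k2, fun w hw hmem ↦ k3 w hw (by
    have := sub_mem hmem hm
    convert this using 1
    ring)⟩
  rw [hEq hzmU, hEq hzU]
  simp only [hΦ]
  refine Finset.sum_congr rfl fun w hw ↦ ?_
  rw [show z + m + (u w - u') = z + (u w - u') + m by ring]
  exact M.derivWeierstrassP_add_coe _ ⟨m, hm⟩

/-- The lattice of a period pair is determined by the invariants `(g₂, g₃)`. -/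
theorem lattice_eq_of_g_eq (L M : PeriodPair) (h2 : L.g₂ = M.g₂) (h3 : L.g₃ = M.g₃) :
    L.lattice = M.lattice :=
  le_antisymm
    (lattice_le_of_map (RingHom.id ℂ) M M L M le_rfl h2 h3 rfl rfl)
    (lattice_le_of_map (RingHom.id ℂ) L L M L le_rfl h2.symm h3.symm rfl rfl)

/-- The Eisenstein sums only depend on the lattice. -/
theorem G_eq_of_lattice_eq (L M : PeriodPair) (h : L.lattice = M.lattice) (n : ℕ) :
    L.G n = M.G n := by
  have key : ∀ S T : Submodule ℤ ℂ, S = T →
      (∑' l : S, ((l : ℂ) ^ n)⁻¹) = ∑' l : T, ((l : ℂ) ^ n)⁻¹ := by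
    rintro S T rfl
    rfl
  exact key _ _ h

theorem g₂_eq_of_lattice_eq (L M : PeriodPair) (h : L.lattice = M.lattice) : L.g₂ = M.g₂ := by
  simp only [PeriodPair.g₂, G_eq_of_lattice_eq L M h]

theorem g₃_eq_of_lattice_eq (L M : PeriodPair) (h : L.lattice = M.lattice) : L.g₃ = M.g₃ := by
  simp only [PeriodPair.g₃, G_eq_of_lattice_eq L M h]

/-- `℘` only depends on the lattice. -/
theorem WP_eq_of_lattice_eq (L M : PeriodPair) (h : L.lattice = M.lattice) : ℘[L] = ℘[M] := by
  have key : ∀ S T : Submodule ℤ ℂ, S = T →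
      (fun z : ℂ ↦ ∑' l : S, (1 / (z - (l : ℂ)) ^ 2 - 1 / (l : ℂ) ^ 2)) =
        fun z : ℂ ↦ ∑' l : T, (1 / (z - (l : ℂ)) ^ 2 - 1 / (l : ℂ) ^ 2) := by
    rintro S T rfl
    rfl
  exact key _ _ h

/-- `℘'` only depends on the lattice. -/
theorem derivWP_eq_of_lattice_eq (L M : PeriodPair) (h : L.lattice = M.lattice) :
    ℘'[L] = ℘'[M] := by
  rw [← L.deriv_weierstrassP, ← M.deriv_weierstrassP, WP_eq_of_lattice_eq L M h]

/-- The invariants `(g₂, g₃)` determine the lattice and conversely. -/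
theorem lattice_eq_iff_g_eq (L M : PeriodPair) :
    L.lattice = M.lattice ↔ L.g₂ = M.g₂ ∧ L.g₃ = M.g₃ :=
  ⟨fun h ↦ ⟨g₂_eq_of_lattice_eq L M h, g₃_eq_of_lattice_eq L M h⟩,
    fun h ↦ lattice_eq_of_g_eq L M h.1 h.2⟩

/-- **Descent.**  Suppose that for every ring automorphism `σ` of `ℂ` the conjugate invariants
`(σ g₂, σ g₃)` are the invariants of a lattice `M_σ ⊇ L`.  Then `g₂(L)` and `g₃(L)` are fixed by
every ring automorphism of `ℂ`. -/
theorem g_fixed_of_forall_exists_lattice_le (L : PeriodPair)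
    (H : ∀ σ : ℂ ≃+* ℂ, ∃ M : PeriodPair,
      M.g₂ = σ L.g₂ ∧ M.g₃ = σ L.g₃ ∧ L.lattice ≤ M.lattice)
    (σ : ℂ ≃+* ℂ) : σ L.g₂ = L.g₂ ∧ σ L.g₃ = L.g₃ := by
  obtain ⟨M, hM2, hM3, hLM⟩ := H σ
  obtain ⟨N, hN2, hN3, hLN⟩ := H σ.symm
  have hML : M.lattice ≤ L.lattice :=
    lattice_le_of_map (σ : ℂ →+* ℂ) L N M L hLN hM2 hM3
      (by rw [hN2]; simp) (by rw [hN3]; simp)
  have heq : L.lattice = M.lattice := le_antisymm hLM hML
  exact ⟨by rw [← hM2, g₂_eq_of_lattice_eq L M heq], by rw [← hM3, g₃_eq_of_lattice_eq L M heq]⟩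

end Fermat.Agent.S58.helper6859
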