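import Mathlib

/-!
# S58, step 2 (descent of `g₂, g₃`): Weierstrass `℘` of a superlattice

For Mathlib `PeriodPair`s `L`, `L'` with `L.lattice ≤ L'.lattice`:

* `exists_rational_of_le` (K1): `℘[L']` is a rational function of `℘[L]`.
* `mem_lattice_of_eqOn` (K2): a local period of `℘[L]` belongs to `L.lattice`.
* `le_of_rational` (K3): converse of K1, from an identity on a nonempty open set.

The proof of K1 is a single Liouville argument.
-/

set_option autoImplicit false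

open Complex Filter Topology Polynomial
open scoped PeriodPair

namespace Fermat.Agent.S58.helper701

noncomputable section

/-! ## Local factorisations -/

/-- An analytic function vanishing at `w` is `(z - w)` times an analytic function. -/
lemma exists_eq_sub_mul {h : ℂ → ℂ} {w : ℂ} (hh : AnalyticAt ℂ h w) (h0 : h w = 0) :
    ∃ k : ℂ → ℂ, AnalyticAt ℂ k w ∧ k w = deriv h w ∧ ∀ z, h z = (z - w) * k z := by
  obtain ⟨p, hp⟩ := hh
  refine ⟨dslope h w, ⟨_, hp.has_fpower_series_dslope_fslope⟩, dslope_same h w, fun z => ?_⟩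
  have := sub_smul_dslope h w z
  rw [h0, sub_zero, smul_eq_mul] at this
  exact this.symm

/-- An even analytic function vanishing at `0` is `z ^ 2` times an even analytic function. -/
lemma exists_even_div_sq {G : ℂ → ℂ} (hG : AnalyticAt ℂ G 0)
    (heven : ∀ᶠ z in 𝓝 (0 : ℂ), G (-z) = G z) (h0 : G 0 = 0) :
    ∃ F : ℂ → ℂ, AnalyticAt ℂ F 0 ∧ (∀ᶠ z in 𝓝 (0 : ℂ), F (-z) = F z) ∧
      ∀ z, G z = z ^ 2 * F z := by
  obtain ⟨G₁, hG₁, hG₁0, hG₁eq⟩ := exists_eq_sub_mul hG h0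
  have hd : deriv G 0 = 0 := by
    have h1 : deriv (fun z => G (-z)) 0 = deriv G 0 := Filter.EventuallyEq.deriv_eq heven
    rw [deriv_comp_neg, neg_zero] at h1
    have h2 : (2 : ℂ) * deriv G 0 = 0 := by linear_combination -h1
    simpa using h2
  rw [hd] at hG₁0
  obtain ⟨F, hF, -, hFeq⟩ := exists_eq_sub_mul hG₁ hG₁0
  have hGF : ∀ z, G z = z ^ 2 * F z := by
    intro z
    rw [hG₁eq z, hFeq z]
    ring
  refine ⟨F, hF, ?_, hGF⟩
  filter_upwards [heven] with z hz
  by_cases hz0 : z = 0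
  · simp [hz0]
  · have h3 : z ^ 2 * F (-z) = z ^ 2 * F z := by
      have := hGF (-z)
      rw [hz, hGF z] at this
      rw [this]; ring
    exact mul_left_cancel₀ (pow_ne_zero 2 hz0) h3

/-! ## Even poles at the origin -/

/-- `h` is, near `0`, `z ^ (-2N)` times an even analytic function. -/
def EvenPole (N : ℕ) (h : ℂ → ℂ) : Prop :=
  ∃ F : ℂ → ℂ, AnalyticAt ℂ F 0 ∧ (∀ᶠ z in 𝓝 (0 : ℂ), F (-z) = F z) ∧
    ∀ᶠ z in 𝓝[≠] (0 : ℂ), z ^ (2 * N) * h z = F z

lemma evenPole_const (c : ℂ) : EvenPole 0 (fun _ => c) :=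
  ⟨fun _ => c, analyticAt_const, .of_forall fun _ => rfl, .of_forall fun z => by simp⟩

lemma EvenPole.mul {N₁ N₂ : ℕ} {h₁ h₂ : ℂ → ℂ} (H₁ : EvenPole N₁ h₁) (H₂ : EvenPole N₂ h₂) :
    EvenPole (N₁ + N₂) (fun z => h₁ z * h₂ z) := by
  obtain ⟨F₁, a₁, e₁, q₁⟩ := H₁
  obtain ⟨F₂, a₂, e₂, q₂⟩ := H₂
  refine ⟨fun z => F₁ z * F₂ z, a₁.mul a₂, ?_, ?_⟩
  · filter_upwards [e₁, e₂] with z h1 h2
    rw [h1, h2]
  · filter_upwards [q₁, q₂] with z h1 h2
    rw [← h1, ← h2]
    ring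

lemma EvenPole.mono {N N' : ℕ} {h : ℂ → ℂ} (H : EvenPole N h) (hN : N ≤ N') :
    EvenPole N' h := by
  obtain ⟨F, a, e, q⟩ := H
  obtain ⟨k, rfl⟩ := Nat.exists_eq_add_of_le hN
  refine ⟨fun z => z ^ (2 * k) * F z, ?_, ?_, ?_⟩
  · fun_prop
  · filter_upwards [e] with z hz
    rw [hz, Even.neg_pow (even_two_mul k)]
  · filter_upwards [q] with z hz
    rw [← hz]
    ring

lemma EvenPole.sub {N₁ N₂ : ℕ} {h₁ h₂ : ℂ → ℂ} (H₁ : EvenPole N₁ h₁) (H₂ : EvenPole N₂ h₂) :
    EvenPole (max N₁ N₂) (fun z => h₁ z - h₂ z) := by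
  obtain ⟨F₁, a₁, e₁, q₁⟩ := H₁.mono (le_max_left N₁ N₂)
  obtain ⟨F₂, a₂, e₂, q₂⟩ := H₂.mono (le_max_right N₁ N₂)
  refine ⟨fun z => F₁ z - F₂ z, a₁.sub a₂, ?_, ?_⟩
  · filter_upwards [e₁, e₂] with z h1 h2
    rw [h1, h2]
  · filter_upwards [q₁, q₂] with z h1 h2
    rw [← h1, ← h2]
    ring

/-- The even analytic function equal to `z ^ 2 * ℘[L] z` away from `0`. -/
def sqMulP (L : PeriodPair) (z : ℂ) : ℂ := z ^ 2 * ℘[L - (0 : ℂ)] z + 1

lemma analyticAt_sqMulP (L : PeriodPair) : AnalyticAt ℂ (sqMulP L) 0 := by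
  have h : AnalyticAt ℂ ℘[L - (0 : ℂ)] 0 := L.analyticAt_weierstrassPExcept 0
  unfold sqMulP
  fun_prop

lemma sqMulP_neg (L : PeriodPair) (z : ℂ) : sqMulP L (-z) = sqMulP L z := by
  simp [sqMulP, L.weierstrassPExcept_neg]

lemma sqMulP_zero (L : PeriodPair) : sqMulP L 0 = 1 := by simp [sqMulP]

lemma sq_mul_weierstrassP (L : PeriodPair) {z : ℂ} (hz : z ≠ 0) :
    z ^ 2 * ℘[L] z = sqMulP L z := by
  have := L.ite_eq_one_sub_sq_mul_weierstrassP 0 (zero_mem _) z
  simpa [hz, sqMulP] using this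

lemma evenPole_weierstrassP (L : PeriodPair) : EvenPole 1 ℘[L] :=
  ⟨sqMulP L, analyticAt_sqMulP L, .of_forall (sqMulP_neg L), by
    filter_upwards [self_mem_nhdsWithin] with z hz
    simpa using sq_mul_weierstrassP L hz⟩

/-- Parity lemma: an even pole at `0` is cancelled by a polynomial in `℘[L]`. -/
lemma EvenPole.exists_poly (L : PeriodPair) : ∀ (N : ℕ) (h : ℂ → ℂ), EvenPole N h →
    ∃ (A : ℂ[X]) (R : ℂ → ℂ), AnalyticAt ℂ R 0 ∧ R 0 = 0 ∧
      ∀ᶠ z in 𝓝[≠] (0 : ℂ), h z - A.eval (℘[L] z) = R z := by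
  intro N
  induction N with
  | zero =>
    rintro h ⟨F, hF, -, hq⟩
    refine ⟨C (F 0), fun z => F z - F 0, hF.sub analyticAt_const, by simp, ?_⟩
    filter_upwards [hq] with z hz
    simp only [mul_zero, pow_zero, one_mul] at hz
    simp [hz]
  | succ N ih =>
    rintro h ⟨F, hF, he, hq⟩
    have hGan : AnalyticAt ℂ (fun z => F z - F 0 * sqMulP L z ^ (N + 1)) 0 := by
      have := analyticAt_sqMulP L
      fun_prop
    have hGev : ∀ᶠ z in 𝓝 (0 : ℂ), (fun z => F z - F 0 * sqMulP L z ^ (N + 1)) (-z)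
        = (fun z => F z - F 0 * sqMulP L z ^ (N + 1)) z := by
      filter_upwards [he] with z hz
      simp only [hz, sqMulP_neg]
    have hG0 : (fun z => F z - F 0 * sqMulP L z ^ (N + 1)) 0 = 0 := by
      simp [sqMulP_zero]
    obtain ⟨F₁, hF₁, he₁, hF₁eq⟩ := exists_even_div_sq hGan hGev hG0
    have H₁ : EvenPole N (fun z => h z - F 0 * ℘[L] z ^ (N + 1)) := by
      refine ⟨F₁, hF₁, he₁, ?_⟩
      filter_upwards [hq, self_mem_nhdsWithin] with z hz hz0
      have hz0' : z ≠ 0 := hz0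
      have h1 := hF₁eq z
      rw [← sq_mul_weierstrassP L hz0', ← hz] at h1
      have h2 : z ^ 2 * (z ^ (2 * N) * (h z - F 0 * ℘[L] z ^ (N + 1))) = z ^ 2 * F₁ z := by
        rw [← h1]
        ring
      exact mul_left_cancel₀ (pow_ne_zero 2 hz0') h2
    obtain ⟨A₁, R, hR, hR0, hRq⟩ := ih _ H₁
    refine ⟨C (F 0) * X ^ (N + 1) + A₁, R, hR, hR0, ?_⟩
    filter_upwards [hRq] with z hz
    rw [← hz]
    simp only [eval_add, eval_mul, eval_C, eval_pow, eval_X]
    ring

/-! ## Removable singularities at the new lattice points -/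

lemma analyticAt_eval {f : ℂ → ℂ} {x : ℂ} (hf : AnalyticAt ℂ f x) (p : ℂ[X]) :
    AnalyticAt ℂ (fun z => p.eval (f z)) x := by
  simpa [Polynomial.coe_aeval_eq_eval] using hf.aeval_polynomial p

/-- At a pole `w` of `℘[L']`, the product `℘[L'] * h ^ 3` is analytic as soon as `h` is analytic
and vanishes at `w`. -/
lemma analyticAt_weierstrassP_mul_cube (L' : PeriodPair) {w : ℂ} (hw : w ∈ L'.lattice)
    {h : ℂ → ℂ} (hh : AnalyticAt ℂ h w) (h0 : h w = 0) :
    AnalyticAt ℂ (fun z => ℘[L'] z * h z ^ 3) w := by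
  obtain ⟨k, hk, -, hkeq⟩ := exists_eq_sub_mul hh h0
  have hV : AnalyticAt ℂ
      (fun z => (z - w) ^ 2 * ℘[L' - w] z + 1 - (z - w) ^ 2 / w ^ 2) w := by
    have h1 : AnalyticAt ℂ ℘[L' - w] w := L'.analyticAt_weierstrassPExcept w
    have h2 : AnalyticAt ℂ (fun z => (z - w) ^ 2 / w ^ 2) w := by
      by_cases hw0 : w = 0
      · simpa [hw0] using analyticAt_const
      · fun_prop (disch := simpa)
    fun_prop
  have hEq : (fun z => ℘[L'] z * h z ^ 3)
      = fun z => ((z - w) ^ 2 * ℘[L' - w] z + 1 - (z - w) ^ 2 / w ^ 2)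
          * ((z - w) * k z ^ 3) := by
    funext z
    by_cases hz : z = w
    · subst hz
      simp [h0]
    · have h3 := L'.ite_eq_one_sub_sq_mul_weierstrassP w hw z
      rw [if_neg hz] at h3
      rw [← h3, hkeq z]
      ring
  rw [hEq]
  fun_prop

/-! ## Coset representatives -/

/-- A finite set meeting every class of `L'.lattice` modulo `L.lattice`. -/
lemma exists_finset_reps (L L' : PeriodPair) (h : L.lattice ≤ L'.lattice) :
    ∃ S : Finset ℂ, ∀ w ∈ L'.lattice, ∃ c ∈ S, ℘[L] w = ℘[L] c := by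
  classical
  set R : ℝ := ∑ i, ‖L.basis i‖
  have hfin : (Metric.closedBall (0 : L'.lattice) R).Finite :=
    isCompact_iff_finite.mp (isCompact_closedBall (0 : L'.lattice) R)
  refine ⟨(hfin.image (fun x : L'.lattice => (x : ℂ))).toFinset, fun w hw => ?_⟩
  have hfl : ((ZSpan.floor L.basis w : Submodule.span ℤ (Set.range L.basis)) : ℂ)
      ∈ L.lattice := by
    rw [L.lattice_eq_span_range_basis]
    exact (ZSpan.floor L.basis w).2
  have hcw : ZSpan.fract L.basis w = w - (ZSpan.floor L.basis w : ℂ) :=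
    ZSpan.fract_apply L.basis w
  have hcL' : ZSpan.fract L.basis w ∈ L'.lattice := by
    rw [hcw]
    exact sub_mem hw (h hfl)
  refine ⟨ZSpan.fract L.basis w, ?_, ?_⟩
  · simp only [Set.Finite.mem_toFinset, Set.mem_image]
    refine ⟨⟨_, hcL'⟩, ?_, rfl⟩
    simp only [Metric.mem_closedBall, dist_zero_right]
    exact ZSpan.norm_fract_le L.basis w
  · have h1 : w = ZSpan.fract L.basis w + ((⟨_, hfl⟩ : L.lattice) : ℂ) := by
      rw [hcw]
      ring
    calc ℘[L] w = ℘[L] (ZSpan.fract L.basis w + ((⟨_, hfl⟩ : L.lattice) : ℂ)) := by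
          rw [← h1]
      _ = ℘[L] (ZSpan.fract L.basis w) := L.weierstrassP_add_coe _ _

lemma evenPole_eval_prod (L : PeriodPair) (S : Finset ℂ) :
    ∃ N, EvenPole N (fun z => (∏ c ∈ S, (X - C (℘[L] c))).eval (℘[L] z)) := by
  classical
  induction S using Finset.induction_on with
  | empty => exact ⟨0, by simpa using evenPole_const 1⟩
  | insert c S hc ih =>
    obtain ⟨N, hN⟩ := ih
    refine ⟨max 1 0 + N, ?_⟩
    have := ((evenPole_weierstrassP L).sub (evenPole_const (℘[L] c))).mul hN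
    simpa [Finset.prod_insert hc, eval_mul] using this

/-! ## K1: `℘[L']` is a rational function of `℘[L]` -/

/-- **K1.** If `L.lattice ≤ L'.lattice` then `℘[L']` is a rational function of `℘[L]`. -/
theorem exists_rational_of_le (L L' : PeriodPair) (h : L.lattice ≤ L'.lattice) :
    ∃ A B : ℂ[X], B ≠ 0 ∧
      ∀ z : ℂ, z ∉ L'.lattice → ℘[L'] z * B.eval (℘[L] z) = A.eval (℘[L] z) := by
  classical
  obtain ⟨S, hS⟩ := exists_finset_reps L L' h
  have hB₀ne : (∏ c ∈ S, (X - C (℘[L] c)) : ℂ[X]) ≠ 0 :=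
    Finset.prod_ne_zero_iff.mpr fun c _ => X_sub_C_ne_zero _
  obtain ⟨N, hN⟩ := evenPole_eval_prod L S
  set g : ℂ → ℂ := fun z => (∏ c ∈ S, (X - C (℘[L] c))).eval (℘[L] z) with hg
  have hfP : EvenPole (1 + (N + N + N)) (fun z => ℘[L'] z * g z ^ 3) := by
    have h1 := (evenPole_weierstrassP L').mul ((hN.mul hN).mul hN)
    have h2 : (fun z => ℘[L'] z * g z ^ 3) = fun z => ℘[L'] z * (g z * g z * g z) := by
      funext z
      ring
    rw [h2]
    exact h1
  obtain ⟨A, R, hR, hR0, hRq⟩ := EvenPole.exists_poly L _ _ hfP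
  set D : ℂ → ℂ := fun z => if z ∈ L.lattice then 0
    else ℘[L'] z * g z ^ 3 - A.eval (℘[L] z) with hD
  have hper : ∀ z w : ℂ, w ∈ L.lattice → D (z + w) = D z := by
    intro z w hw
    have h1 : z + w ∈ L.lattice ↔ z ∈ L.lattice := L.lattice.add_mem_iff_left hw
    have h2 : ℘[L] (z + w) = ℘[L] z := L.weierstrassP_add_coe z ⟨w, hw⟩
    have h3 : ℘[L'] (z + w) = ℘[L'] z := L'.weierstrassP_add_coe z ⟨w, h hw⟩
    simp only [hD, hg, h1, h2, h3]
  have han0 : AnalyticAt ℂ D 0 := by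
    refine hR.congr ?_
    have h1 : ∀ᶠ z in 𝓝 (0 : ℂ), z ≠ 0 → ℘[L'] z * g z ^ 3 - A.eval (℘[L] z) = R z :=
      eventually_nhdsWithin_iff.mp hRq
    filter_upwards [h1, L.compl_lattice_sdiff_singleton_mem_nhds 0] with z hz hzL
    by_cases hz0 : z = 0
    · subst hz0
      simp [hD, hR0]
    · have hzn : z ∉ L.lattice := fun hmem => hzL ⟨hmem, hz0⟩
      simp only [hD, if_neg hzn]
      exact (hz hz0).symm
  have han : ∀ x, AnalyticAt ℂ D x := by
    intro x
    by_cases hx : x ∈ L.lattice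
    · have hDx : D = fun z => D (z - x) := by
        funext z
        have := hper (z - x) x hx
        rw [sub_add_cancel] at this
        exact this
      rw [hDx]
      have h0 : AnalyticAt ℂ D (x - x) := by
        rw [sub_self]
        exact han0
      exact h0.comp (f := fun z => z - x) (by fun_prop)
    · have hPx : AnalyticAt ℂ ℘[L] x := L.analyticOnNhd_weierstrassP x hx
      have hgx : AnalyticAt ℂ g x := analyticAt_eval hPx _
      have hfx : AnalyticAt ℂ (fun z => ℘[L'] z * g z ^ 3) x := by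
        by_cases hx' : x ∈ L'.lattice
        · obtain ⟨c, hc, hc'⟩ := hS x hx'
          have hg0 : g x = 0 := by
            simp only [hg, eval_prod, eval_sub, eval_X, eval_C]
            exact Finset.prod_eq_zero hc (by rw [hc', sub_self])
          exact analyticAt_weierstrassP_mul_cube L' hx' hgx hg0
        · exact (L'.analyticOnNhd_weierstrassP x hx').mul (hgx.pow 3)
      have hAx : AnalyticAt ℂ (fun z => A.eval (℘[L] z)) x := analyticAt_eval hPx _
      refine (hfx.sub hAx).congr ?_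
      filter_upwards [L.isClosed_lattice.isOpen_compl.mem_nhds hx] with z hz
      have hzn : z ∉ L.lattice := hz
      simp only [hD, if_neg hzn, Pi.sub_apply]
  have hdiff : Differentiable ℂ D := fun x => (han x).differentiableAt
  have hconst : ∀ z, D z = 0 := by
    intro z
    have hb := (IsZLattice.isCompact_range_of_periodic L.lattice D hdiff.continuous
      hper).isBounded
    have h1 := hdiff.apply_eq_apply_of_bounded hb z 0
    rw [h1]
    simp [hD]
  refine ⟨A, (∏ c ∈ S, (X - C (℘[L] c))) ^ 3, pow_ne_zero 3 hB₀ne, fun z hz => ?_⟩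
  have hzL : z ∉ L.lattice := fun hmem => hz (h hmem)
  have h1 := hconst z
  simp only [hD, if_neg hzL] at h1
  rw [eval_pow]
  exact sub_eq_zero.mp h1

/-! ## K2 and K3: periods of `℘[L]` and the converse of K1 -/

/-- The pole of `℘[L]` at `0` cannot be matched by an analytic function. -/
lemma not_eventuallyEq_analytic (L : PeriodPair) {φ : ℂ → ℂ} (hφ : AnalyticAt ℂ φ 0)
    (h : ∀ᶠ z in 𝓝[≠] (0 : ℂ), ℘[L] z = φ z) : False := by
  have h1 : meromorphicOrderAt ℘[L] 0 = meromorphicOrderAt φ 0 := meromorphicOrderAt_congr h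
  rw [L.order_weierstrassP 0 (zero_mem _)] at h1
  have h2 := hφ.meromorphicOrderAt_nonneg
  rw [← h1] at h2
  have h3 : ((-2 : ℤ) : WithTop ℤ) < 0 := by exact_mod_cast (by norm_num : (-2 : ℤ) < 0)
  have h4 : (-2 : WithTop ℤ) = ((-2 : ℤ) : WithTop ℤ) := by norm_num
  rw [h4] at h2
  exact absurd h2 (not_le.mpr h3)

lemma countable_lattice (L : PeriodPair) : (L.lattice : Set ℂ).Countable := by
  have : Countable L.lattice := L.latticeEquivProd.toEquiv.injective.countable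
  exact Set.countable_coe_iff.mp this

lemma eventually_notMem_lattice (L : PeriodPair) :
    ∀ᶠ z in 𝓝[≠] (0 : ℂ), z ∉ L.lattice := by
  filter_upwards [mem_nhdsWithin_of_mem_nhds (L.compl_lattice_sdiff_singleton_mem_nhds 0),
    self_mem_nhdsWithin] with z hz hz0
  exact fun hm => hz ⟨hm, hz0⟩

lemma eventually_add_notMem_lattice (L : PeriodPair) {ω : ℂ} (hω : ω ∉ L.lattice) :
    ∀ᶠ z in 𝓝[≠] (0 : ℂ), z + ω ∉ L.lattice := by
  have hc : ContinuousAt (fun z : ℂ => z + ω) 0 := by fun_prop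
  have h0 : (0 : ℂ) + ω ∈ (L.lattice : Set ℂ)ᶜ := by simpa using hω
  have h1 : ∀ᶠ z in 𝓝 (0 : ℂ), z + ω ∈ (L.lattice : Set ℂ)ᶜ :=
    hc.eventually (L.isClosed_lattice.isOpen_compl.mem_nhds h0)
  exact h1.filter_mono nhdsWithin_le_nhds

lemma analyticAt_weierstrassP_add (L : PeriodPair) {z ω : ℂ} (h : z + ω ∉ L.lattice) :
    AnalyticAt ℂ (fun z => ℘[L] (z + ω)) z := by
  have a2 : AnalyticAt ℂ ℘[L] (z + ω) := L.analyticOnNhd_weierstrassP _ h
  exact a2.comp (f := fun z => z + ω) (by fun_prop)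

/-- **K2.** If `℘[L] (u + ω) = ℘[L] u` on a nonempty open set, then `ω ∈ L.lattice`. -/
theorem mem_lattice_of_eqOn (L : PeriodPair) (ω : ℂ) (U : Set ℂ) (hU : IsOpen U)
    (hne : U.Nonempty) (h : ∀ u ∈ U, ℘[L] (u + ω) = ℘[L] u) : ω ∈ L.lattice := by
  by_contra hω
  set Z : Set ℂ := (L.lattice : Set ℂ) ∪ (fun z => z + ω) ⁻¹' (L.lattice : Set ℂ) with hZ
  have hZc : Z.Countable := (countable_lattice L).union
    ((countable_lattice L).preimage (add_left_injective ω))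
  have hconn : IsPreconnected Zᶜ :=
    (hZc.isConnected_compl_of_one_lt_rank (by rw [Complex.rank_real_complex]; norm_num)).isPreconnected
  have hdense : Dense Zᶜ := hZc.dense_compl ℝ
  obtain ⟨z₀, hz₀U, hz₀Z⟩ : (U ∩ Zᶜ).Nonempty := hdense.inter_open_nonempty U hU hne
  set Φ : ℂ → ℂ := fun z => ℘[L] (z + ω) - ℘[L] z with hΦdef
  have hΦ : AnalyticOnNhd ℂ Φ Zᶜ := by
    intro z hz
    have hz1 : z ∉ L.lattice := fun hm => hz (Or.inl hm)
    have hz2 : z + ω ∉ L.lattice := fun hm => hz (Or.inr hm)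
    exact (analyticAt_weierstrassP_add L hz2).sub (L.analyticOnNhd_weierstrassP z hz1)
  have hΦ0 : Φ =ᶠ[𝓝 z₀] 0 := by
    filter_upwards [hU.mem_nhds hz₀U] with u hu
    simp [hΦdef, h u hu]
  have hzero := hΦ.eqOn_zero_of_preconnected_of_eventuallyEq_zero hconn hz₀Z hΦ0
  have hω' : AnalyticAt ℂ (fun z => ℘[L] (z + ω)) 0 :=
    analyticAt_weierstrassP_add L (by simpa using hω)
  refine not_eventuallyEq_analytic L hω' ?_
  filter_upwards [eventually_notMem_lattice L, eventually_add_notMem_lattice L hω]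
    with z hz1 hz2
  have h1 := hzero (show z ∈ Zᶜ from fun hz => hz.elim hz1 hz2)
  simp only [hΦdef, Pi.zero_apply] at h1
  exact (sub_eq_zero.mp h1).symm

/-- **K3.** Converse of K1: a rational expression of `℘[L₂]` in `℘[L₁]` valid on a nonempty open
set forces `L₁.lattice ≤ L₂.lattice`. -/
theorem le_of_rational (L₁ L₂ : PeriodPair) (A B : ℂ[X]) (hB : B ≠ 0) (U : Set ℂ)
    (hU : IsOpen U) (hne : U.Nonempty)
    (h : ∀ u ∈ U, ℘[L₂] u * B.eval (℘[L₁] u) = A.eval (℘[L₁] u)) :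
    L₁.lattice ≤ L₂.lattice := by
  intro ω hω
  by_contra hω2
  set Z : Set ℂ := (L₁.lattice : Set ℂ) ∪ (L₂.lattice : Set ℂ) with hZ
  have hZc : Z.Countable := (countable_lattice L₁).union (countable_lattice L₂)
  have hconn : IsPreconnected Zᶜ :=
    (hZc.isConnected_compl_of_one_lt_rank (by rw [Complex.rank_real_complex]; norm_num)).isPreconnected
  have hdense : Dense Zᶜ := hZc.dense_compl ℝ
  obtain ⟨z₀, hz₀U, hz₀Z⟩ : (U ∩ Zᶜ).Nonempty := hdense.inter_open_nonempty U hU hne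
  set Φ : ℂ → ℂ := fun z => ℘[L₂] z * B.eval (℘[L₁] z) - A.eval (℘[L₁] z) with hΦdef
  have hΦ : AnalyticOnNhd ℂ Φ Zᶜ := by
    intro z hz
    have hz1 : z ∉ L₁.lattice := fun hm => hz (Or.inl hm)
    have hz2 : z ∉ L₂.lattice := fun hm => hz (Or.inr hm)
    have a1 : AnalyticAt ℂ ℘[L₁] z := L₁.analyticOnNhd_weierstrassP z hz1
    have a2 : AnalyticAt ℂ ℘[L₂] z := L₂.analyticOnNhd_weierstrassP z hz2
    exact (a2.mul (analyticAt_eval a1 B)).sub (analyticAt_eval a1 A)
  have hΦ0 : Φ =ᶠ[𝓝 z₀] 0 := by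
    filter_upwards [hU.mem_nhds hz₀U] with u hu
    simp [hΦdef, h u hu]
  have hzero := hΦ.eqOn_zero_of_preconnected_of_eventuallyEq_zero hconn hz₀Z hΦ0
  have hω' : AnalyticAt ℂ (fun z => ℘[L₂] (z + ω)) 0 :=
    analyticAt_weierstrassP_add L₂ (by simpa using hω2)
  -- `B (℘[L₁] z) ≠ 0` near `0`
  have hBne : ∀ᶠ z in 𝓝[≠] (0 : ℂ), B.eval (℘[L₁] z) ≠ 0 := by
    have ht : Tendsto ℘[L₁] (𝓝[≠] (0 : ℂ)) (Bornology.cobounded ℂ) := by
      refine tendsto_cobounded_of_meromorphicOrderAt_neg ?_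
      rw [L₁.order_weierstrassP 0 (zero_mem _)]
      have h4 : (-2 : WithTop ℤ) = ((-2 : ℤ) : WithTop ℤ) := by norm_num
      rw [h4]
      exact_mod_cast (by norm_num : (-2 : ℤ) < 0)
    have hb : Bornology.IsBounded {x : ℂ | B.IsRoot x} :=
      (Polynomial.finite_setOfPred_isRoot hB).isBounded
    exact ht.eventually hb.compl
  refine not_eventuallyEq_analytic L₂ hω' ?_
  filter_upwards [eventually_notMem_lattice L₁, eventually_notMem_lattice L₂,
    eventually_add_notMem_lattice L₂ hω2, hBne] with z hz1 hz2 hz3 hz4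
  have hz1' : z + ω ∉ L₁.lattice := fun hm => hz1 ((L₁.lattice.add_mem_iff_left hω).mp hm)
  have h1 := hzero (show z ∈ Zᶜ from fun hz => hz.elim hz1 hz2)
  have h2 := hzero (show z + ω ∈ Zᶜ from fun hz => hz.elim hz1' hz3)
  simp only [hΦdef, Pi.zero_apply] at h1 h2
  rw [L₁.weierstrassP_add_coe z ⟨ω, hω⟩] at h2
  have h3 : (℘[L₂] z - ℘[L₂] (z + ω)) * B.eval (℘[L₁] z) = 0 := by
    linear_combination h1 - h2
  rcases mul_eq_zero.mp h3 with h5 | h5
  · exact sub_eq_zero.mp h5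
  · exact absurd h5 hz4

end

end Fermat.Agent.S58.helper701
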