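import Mathlib
import Fermat.Agent.S24.helper454_JSurj

/-!
# S58: uniformization of `(g₂, g₃)` by lattices

Every pair `(a, b) ∈ ℂ²` with `a³ - 27 b² ≠ 0` is `(g₂(L), g₃(L))` for a Mathlib `PeriodPair`.
-/

set_option autoImplicit false

namespace Fermat.Agent.S58.helper9384

open UpperHalfPlane ModularForm EisensteinSeries Complex

open scoped Real

local notation "Δ" => ModularForm.discriminant

/-! ### `G` as a sum over `ℤ × ℤ` -/

/-- The lattice Eisenstein sum as a sum over `ℤ × ℤ`. -/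
theorem G_eq_tsum_prod (L : PeriodPair) (n : ℕ) :
    L.G n = ∑' x : ℤ × ℤ, (((x.1 : ℂ) * L.ω₁ + (x.2 : ℂ) * L.ω₂) ^ n)⁻¹ := by
  unfold PeriodPair.G
  rw [← L.latticeEquivProd.symm.toEquiv.tsum_eq]
  refine tsum_congr fun x => ?_
  simp [PeriodPair.latticeEquiv_symm_apply]

/-- `G` only depends on the lattice. -/
theorem G_congr {L L' : PeriodPair} (h : L.lattice = L'.lattice) (n : ℕ) : L.G n = L'.G n := by
  unfold PeriodPair.G
  rw [h]

theorem g₂_congr {L L' : PeriodPair} (h : L.lattice = L'.lattice) : L.g₂ = L'.g₂ := by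
  unfold PeriodPair.g₂; rw [G_congr h]

theorem g₃_congr {L L' : PeriodPair} (h : L.lattice = L'.lattice) : L.g₃ = L'.g₃ := by
  unfold PeriodPair.g₃; rw [G_congr h]

/-! ### Scaling -/

/-- The period pair `c • L`. -/
noncomputable def scale (c : ℂ) (hc : c ≠ 0) (L : PeriodPair) : PeriodPair where
  ω₁ := c * L.ω₁
  ω₂ := c * L.ω₂
  indep := by
    have h := L.indep
    rw [LinearIndependent.pair_iff] at h ⊢
    intro s t hst
    apply h s t
    have : c * (s • L.ω₁ + t • L.ω₂) = 0 := by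
      rw [← hst]
      simp only [Complex.real_smul]
      ring
    rcases mul_eq_zero.mp this with h0 | h0
    · exact absurd h0 hc
    · exact h0

@[simp] theorem scale_ω₁ (c : ℂ) (hc : c ≠ 0) (L : PeriodPair) : (scale c hc L).ω₁ = c * L.ω₁ := rfl
@[simp] theorem scale_ω₂ (c : ℂ) (hc : c ≠ 0) (L : PeriodPair) : (scale c hc L).ω₂ = c * L.ω₂ := rfl

theorem mem_lattice_scale (c : ℂ) (hc : c ≠ 0) (L : PeriodPair) (x : ℂ) :
    x ∈ (scale c hc L).lattice ↔ ∃ l ∈ L.lattice, x = c * l := by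
  simp only [PeriodPair.mem_lattice, scale_ω₁, scale_ω₂]
  constructor
  · rintro ⟨m, n, rfl⟩
    exact ⟨m * L.ω₁ + n * L.ω₂, ⟨m, n, rfl⟩, by ring⟩
  · rintro ⟨l, ⟨m, n, rfl⟩, rfl⟩
    exact ⟨m, n, by ring⟩

theorem G_scale (c : ℂ) (hc : c ≠ 0) (L : PeriodPair) (n : ℕ) :
    (scale c hc L).G n = (c ^ n)⁻¹ * L.G n := by
  rw [G_eq_tsum_prod, G_eq_tsum_prod, ← tsum_mul_left]
  refine tsum_congr fun x => ?_
  rw [scale_ω₁, scale_ω₂, ← mul_inv, ← mul_pow]
  congr 2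
  ring

theorem g₂_scale (c : ℂ) (hc : c ≠ 0) (L : PeriodPair) :
    (scale c hc L).g₂ = (c ^ 4)⁻¹ * L.g₂ := by
  unfold PeriodPair.g₂; rw [G_scale]; ring

theorem g₃_scale (c : ℂ) (hc : c ≠ 0) (L : PeriodPair) :
    (scale c hc L).g₃ = (c ^ 6)⁻¹ * L.g₃ := by
  unfold PeriodPair.g₃; rw [G_scale]; ring

/-! ### The lattice `ℤ + ℤ τ` -/

/-- The period pair `(1, τ)`. -/
noncomputable def tauPair (τ : ℍ) : PeriodPair where
  ω₁ := 1
  ω₂ := (τ : ℂ)
  indep := by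
    rw [LinearIndependent.pair_iff]
    intro s t hst
    have him := congrArg Complex.im hst
    have hre := congrArg Complex.re hst
    simp at him hre
    have ht : t = 0 := by
      rcases him with h | h
      · exact h
      · exact absurd h τ.im_ne_zero
    subst ht
    simp at hre
    exact ⟨hre, rfl⟩

@[simp] theorem tauPair_ω₁ (τ : ℍ) : (tauPair τ).ω₁ = 1 := rfl
@[simp] theorem tauPair_ω₂ (τ : ℍ) : (tauPair τ).ω₂ = (τ : ℂ) := rfl

/-- The lattice Eisenstein sum of `ℤ + ℤ τ` is `2 ζ(k) E_k(τ)`. -/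
theorem G_tauPair {k : ℕ} (hk : 3 ≤ k) (τ : ℍ) :
    (tauPair τ).G k = 2 * riemannZeta k * E hk τ := by
  have hE : E hk τ = (1 / 2 : ℂ) • eisensteinSeriesSIF (N := 1) 0 k τ := rfl
  rw [hE, eisensteinSeriesSIF_apply, smul_eq_mul]
  have h1 := tsum_eisSummand_eq_riemannZeta_mul_eisensteinSeries hk τ
  have h2 : (tauPair τ).G k = ∑' v : Fin 2 → ℤ, eisSummand k v τ := by
    rw [G_eq_tsum_prod, ← (finTwoArrowEquiv ℤ).symm.tsum_eq,
      ← (Equiv.prodComm ℤ ℤ).tsum_eq]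
    refine tsum_congr fun x => ?_
    simp [eisSummand, add_comm]
  rw [h2, h1]
  ring

theorem bernoulli_six : bernoulli 6 = 1 / 42 := by
  have h5 : bernoulli' 5 = 0 := bernoulli'_eq_zero_of_odd (by decide) (by norm_num)
  have h6 : bernoulli' 6 = 1 / 42 := by
    have c2 : Nat.choose 6 2 = 15 := by decide
    have c3 : Nat.choose 6 3 = 20 := by decide
    have c4 : Nat.choose 6 4 = 15 := by decide
    rw [bernoulli'_def]
    norm_num [Finset.sum_range_succ, c2, c3, c4, h5]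
  rw [bernoulli_eq_bernoulli'_of_ne_one (by decide), h6]

theorem riemannZeta_six : riemannZeta 6 = (π : ℂ) ^ 6 / 945 := by
  have h := riemannZeta_two_mul_nat (k := 3) (by norm_num)
  have h6 : (2 * ((3 : ℕ) : ℂ)) = 6 := by norm_num
  rw [h6] at h
  rw [h, bernoulli_six]
  simp [Nat.factorial]
  ring

/-- `g₂(ℤ + ℤτ) = (4π⁴/3) E₄(τ)`. -/
theorem g₂_tauPair (τ : ℍ) : (tauPair τ).g₂ = (4 * (π : ℂ) ^ 4 / 3) * E₄ τ := by
  unfold PeriodPair.g₂
  rw [G_tauPair (by norm_num : 3 ≤ 4) τ]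
  have : riemannZeta ((4 : ℕ) : ℂ) = (π : ℂ) ^ 4 / 90 := by
    have := riemannZeta_four
    simpa using this
  rw [this]
  ring

/-- `g₃(ℤ + ℤτ) = (8π⁶/27) E₆(τ)`. -/
theorem g₃_tauPair (τ : ℍ) : (tauPair τ).g₃ = (8 * (π : ℂ) ^ 6 / 27) * E₆ τ := by
  unfold PeriodPair.g₃
  rw [G_tauPair (by norm_num : 3 ≤ 6) τ]
  have : riemannZeta ((6 : ℕ) : ℂ) = (π : ℂ) ^ 6 / 945 := by
    have := riemannZeta_six
    simpa using this
  rw [this]
  ring

/-- The discriminant of `ℤ + ℤτ` is `(2π)¹² Δ(τ)`. -/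
theorem disc_tauPair (τ : ℍ) :
    (tauPair τ).g₂ ^ 3 - 27 * (tauPair τ).g₃ ^ 2 = (2 * (π : ℂ)) ^ 12 * Δ τ := by
  rw [g₂_tauPair, g₃_tauPair, discriminant_eq_E₄_cube_sub_E₆_sq]
  ring

/-! ### Every lattice is homothetic to some `ℤ + ℤτ` -/

theorem ω₁_ne_zero (L : PeriodPair) : L.ω₁ ≠ 0 := by
  intro h0
  have h := L.indep
  rw [LinearIndependent.pair_iff] at h
  have := h 1 0 (by simp [h0])
  exact one_ne_zero this.1

theorem im_div_ne_zero (L : PeriodPair) : (L.ω₂ / L.ω₁).im ≠ 0 := by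
  intro h0
  have h := L.indep
  rw [LinearIndependent.pair_iff] at h
  have hω := ω₁_ne_zero L
  -- `ω₂ = r ω₁` with `r` real
  have hr : L.ω₂ / L.ω₁ = (((L.ω₂ / L.ω₁).re : ℝ) : ℂ) := by
    apply Complex.ext <;> simp [h0]
  have := h (-(L.ω₂ / L.ω₁).re) 1 (by
    simp only [Complex.real_smul, one_smul]
    push_cast
    rw [← hr]
    field_simp
    ring)
  exact one_ne_zero this.2

/-- Every lattice is `c • (ℤ + ℤτ)` for some `c ≠ 0`, `τ ∈ ℍ`. -/
theorem exists_scale_tauPair (L : PeriodPair) :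
    ∃ (c : ℂ) (hc : c ≠ 0) (τ : ℍ), L.lattice = (scale c hc (tauPair τ)).lattice := by
  have hω := ω₁_ne_zero L
  have him := im_div_ne_zero L
  rcases lt_or_gt_of_ne him with hneg | hpos
  · refine ⟨L.ω₁, hω, ⟨-(L.ω₂ / L.ω₁), by simpa using hneg⟩, ?_⟩
    ext x
    simp only [PeriodPair.mem_lattice, scale_ω₁, scale_ω₂, tauPair_ω₁, tauPair_ω₂]
    constructor
    · rintro ⟨m, n, rfl⟩
      refine ⟨m, -n, ?_⟩
      push_cast
      field_simp
    · rintro ⟨m, n, rfl⟩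
      refine ⟨m, -n, ?_⟩
      push_cast
      field_simp
  · refine ⟨L.ω₁, hω, ⟨L.ω₂ / L.ω₁, hpos⟩, ?_⟩
    ext x
    simp only [PeriodPair.mem_lattice, scale_ω₁, scale_ω₂, tauPair_ω₁, tauPair_ω₂]
    constructor
    · rintro ⟨m, n, rfl⟩
      refine ⟨m, n, ?_⟩
      field_simp
    · rintro ⟨m, n, rfl⟩
      refine ⟨m, n, ?_⟩
      field_simp

/-- **Non-vanishing of the discriminant** of a lattice. -/
theorem disc_ne_zero (L : PeriodPair) : L.g₂ ^ 3 - 27 * L.g₃ ^ 2 ≠ 0 := by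
  obtain ⟨c, hc, τ, h⟩ := exists_scale_tauPair L
  rw [g₂_congr h, g₃_congr h, g₂_scale, g₃_scale]
  have hΔ : Δ τ ≠ 0 := discriminant_ne_zero τ
  have hπ : (π : ℂ) ≠ 0 := by exact_mod_cast Real.pi_ne_zero
  have key : ((c ^ 4)⁻¹ * (tauPair τ).g₂) ^ 3 - 27 * ((c ^ 6)⁻¹ * (tauPair τ).g₃) ^ 2
      = (c ^ 12)⁻¹ * ((2 * (π : ℂ)) ^ 12 * Δ τ) := by
    rw [← disc_tauPair]
    field_simp
  rw [key]
  exact mul_ne_zero (inv_ne_zero (pow_ne_zero _ hc))
    (mul_ne_zero (pow_ne_zero _ (mul_ne_zero two_ne_zero hπ)) hΔ)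

/-! ### Uniformization -/

/-- `n`-th roots in `ℂ`. -/
theorem exists_pow_eq (n : ℕ) (hn : n ≠ 0) (x : ℂ) (hx : x ≠ 0) : ∃ c : ℂ, c ≠ 0 ∧ c ^ n = x := by
  refine ⟨x ^ ((n : ℂ)⁻¹), ?_, Complex.cpow_nat_inv_pow x hn⟩
  intro h0
  have := Complex.cpow_nat_inv_pow x hn
  rw [h0, zero_pow hn] at this
  exact hx this.symm

/-- **Uniformization**: every `(a, b)` with `a³ - 27 b² ≠ 0` is `(g₂(L), g₃(L))` for a lattice. -/
theorem exists_periodPair (a b : ℂ) (h : a ^ 3 - 27 * b ^ 2 ≠ 0) :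
    ∃ L : PeriodPair, L.g₂ = a ∧ L.g₃ = b := by
  obtain ⟨τ, hτ⟩ := Fermat.Agent.S24.helper454.jSurjective (1728 * a ^ 3 / (a ^ 3 - 27 * b ^ 2))
  simp only at hτ
  set A := (tauPair τ).g₂ with hA
  set B := (tauPair τ).g₃ with hB
  have hD : A ^ 3 - 27 * B ^ 2 ≠ 0 := disc_ne_zero (tauPair τ)
  have hΔ : Δ τ ≠ 0 := discriminant_ne_zero τ
  have hπ : (π : ℂ) ≠ 0 := by exact_mod_cast Real.pi_ne_zero
  -- the key relation `A³ b² = a³ B²`
  have hrel : A ^ 3 * b ^ 2 = a ^ 3 * B ^ 2 := by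
    have hA' : A = (4 * (π : ℂ) ^ 4 / 3) * E₄ τ := g₂_tauPair τ
    have hDisc : A ^ 3 - 27 * B ^ 2 = (2 * (π : ℂ)) ^ 12 * Δ τ := disc_tauPair τ
    have h1 : E₄ τ ^ 3 * (a ^ 3 - 27 * b ^ 2) = 1728 * a ^ 3 * Δ τ := by
      field_simp at hτ
      linear_combination hτ
    have h2 : A ^ 3 * (a ^ 3 - 27 * b ^ 2) = a ^ 3 * (A ^ 3 - 27 * B ^ 2) := by
      rw [hDisc, hA']
      have : (4 * (π : ℂ) ^ 4 / 3 * E₄ τ) ^ 3 * (a ^ 3 - 27 * b ^ 2)
          = (4 * (π : ℂ) ^ 4 / 3) ^ 3 * (E₄ τ ^ 3 * (a ^ 3 - 27 * b ^ 2)) := by ring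
      rw [this, h1]
      ring
    linear_combination (-1 / 27 : ℂ) * h2
  by_cases ha : a = 0
  · -- `a = 0`: then `A = 0`, `B ≠ 0`, `b ≠ 0`
    subst ha
    have hb : b ≠ 0 := by
      rintro rfl
      simp at h
    have hA0 : A = 0 := by
      have : A ^ 3 * b ^ 2 = 0 := by rw [hrel]; ring
      rcases mul_eq_zero.mp this with h0 | h0
      · exact pow_eq_zero_iff (by norm_num) |>.mp h0
      · exact absurd (pow_eq_zero_iff (by norm_num) |>.mp h0) hb
    have hB0 : B ≠ 0 := by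
      rintro hB0
      apply hD
      rw [hA0, hB0]
      ring
    obtain ⟨c, hc, hc6⟩ := exists_pow_eq 6 (by norm_num) (B / b) (div_ne_zero hB0 hb)
    refine ⟨scale c hc (tauPair τ), ?_, ?_⟩
    · rw [g₂_scale, ← hA, hA0, mul_zero]
    · rw [g₃_scale, ← hB, hc6]
      field_simp
  · -- `a ≠ 0`: then `A ≠ 0`
    have hA0 : A ≠ 0 := by
      rintro hA0
      have hB0 : B = 0 := by
        have : a ^ 3 * B ^ 2 = 0 := by rw [← hrel, hA0]; ring
        rcases mul_eq_zero.mp this with h0 | h0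
        · exact absurd (pow_eq_zero_iff (by norm_num) |>.mp h0) ha
        · exact pow_eq_zero_iff (by norm_num) |>.mp h0
      apply hD
      rw [hA0, hB0]
      ring
    obtain ⟨d, hd, hd4⟩ := exists_pow_eq 4 (by norm_num) (A / a) (div_ne_zero hA0 ha)
    have hAd : A = a * d ^ 4 := by rw [hd4]; field_simp
    -- `(B / d⁶)² = b²`
    have hsq : (B / d ^ 6) ^ 2 = b ^ 2 := by
      have h3 : a ^ 3 * (d ^ 12 * b ^ 2 - B ^ 2) = 0 := by
        have := hrel
        rw [hAd] at this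
        linear_combination this
      have h4 : d ^ 12 * b ^ 2 - B ^ 2 = 0 := by
        rcases mul_eq_zero.mp h3 with h0 | h0
        · exact absurd (pow_eq_zero_iff (by norm_num) |>.mp h0) ha
        · exact h0
      field_simp
      linear_combination -h4
    rcases sq_eq_sq_iff_eq_or_eq_neg.mp hsq with hb | hb
    · refine ⟨scale d hd (tauPair τ), ?_, ?_⟩
      · rw [g₂_scale, ← hA, hAd]
        field_simp
      · rw [g₃_scale, ← hB, ← hb]
        field_simp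
    · have hI : Complex.I * d ≠ 0 := mul_ne_zero Complex.I_ne_zero hd
      have hI4 : (Complex.I * d) ^ 4 = d ^ 4 := by
        rw [mul_pow, Complex.I_pow_four, one_mul]
      have hI6 : (Complex.I * d) ^ 6 = -d ^ 6 := by
        rw [mul_pow]
        have : Complex.I ^ 6 = -1 := by
          calc Complex.I ^ 6 = Complex.I ^ 4 * Complex.I ^ 2 := by ring
            _ = -1 := by rw [Complex.I_pow_four, Complex.I_sq]; ring
        rw [this]
        ring
      refine ⟨scale (Complex.I * d) hI (tauPair τ), ?_, ?_⟩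
      · rw [g₂_scale, ← hA, hI4, hAd]
        field_simp
      · rw [g₃_scale, ← hB, hI6]
        have hb' : b = -(B / d ^ 6) := by rw [hb]; ring
        rw [hb']
        field_simp

end Fermat.Agent.S58.helper9384
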