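import Mathlib
import Fermat.Prelude.Def_CuspForm_Newforms
import Fermat.Prelude.Def_ModularForm_HeckeOperatorForms
import Fermat.Prelude.Thm_ModularFormClass_qCoeff_heckeU
import Fermat.Prelude.Thm_CongruenceSubgroup_one_mem_strictPeriods_Gamma0

/-!
# S58 step 0c (helper706): the level-lowering operator `U_l` and `a_l = 0` for `l ^ 2 ∣ M`

Hypothesis-free, Prelude + Mathlib only.

* `descend`   : a cusp form of level `Γ₀(M)` whose function is slash-invariant under `Γ₀(M')`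
                is a cusp form of level `Γ₀(M')` (same function, same q-coefficients).
* `lowerU`    : for `l ^ 2 ∣ M`, the operator `U_l` as a linear map
                `S_k(Γ₀(M)) → S_k(Γ₀(M / l))`; `qCoeff (lowerU k h2 f) n = qCoeff f (l * n)`.
* `qCoeff_eq_zero_of_isNewform_of_sq_dvd` : a newform `g` of level `M` (Prelude sense) has
                `a_l(g) = 0` for every prime `l` with `l ^ 2 ∣ M`.
-/

set_option autoImplicit false

noncomputable section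

namespace Fermat.Agent.S58.helper706

open Matrix.SpecialLinearGroup UpperHalfPlane
open scoped MatrixGroups ModularForm
open ModularFormClass

/-! ### Cusps of `Γ₀(M)` do not depend on `M` -/

theorem isCusp_Gamma0_of_isCusp_Gamma0 {M M' : ℕ} [NeZero M] [NeZero M'] {c : OnePoint ℝ}
    (hc : IsCusp c (CongruenceSubgroup.Gamma0 M' : Subgroup (GL (Fin 2) ℝ))) :
    IsCusp c (CongruenceSubgroup.Gamma0 M : Subgroup (GL (Fin 2) ℝ)) :=
  (Subgroup.IsArithmetic.isCusp_iff_isCusp_SL2Z _).mpr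
    ((Subgroup.IsArithmetic.isCusp_iff_isCusp_SL2Z _).mp hc)

/-! ### Generic descent -/

/-- A cusp form of level `Γ₀(M)` whose underlying function is slash-invariant under `Γ₀(M')`
is a cusp form of level `Γ₀(M')`. -/
def descend {M M' : ℕ} [NeZero M] [NeZero M'] {k : ℤ}
    (f : CuspForm (CongruenceSubgroup.Gamma0 M) k)
    (hf : ∀ γ ∈ (CongruenceSubgroup.Gamma0 M' : Subgroup (GL (Fin 2) ℝ)), ⇑f ∣[k] γ = ⇑f) :
    CuspForm (CongruenceSubgroup.Gamma0 M') k where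
  toFun := ⇑f
  slash_action_eq' := hf
  holo' := CuspFormClass.holo f
  zero_at_cusps' := fun hc => CuspFormClass.zero_at_cusps f (isCusp_Gamma0_of_isCusp_Gamma0 hc)

@[simp] theorem coe_descend {M M' : ℕ} [NeZero M] [NeZero M'] {k : ℤ}
    (f : CuspForm (CongruenceSubgroup.Gamma0 M) k)
    (hf : ∀ γ ∈ (CongruenceSubgroup.Gamma0 M' : Subgroup (GL (Fin 2) ℝ)), ⇑f ∣[k] γ = ⇑f) :
    ⇑(descend f hf) = ⇑f := rfl

theorem qCoeff_descend {M M' : ℕ} [NeZero M] [NeZero M'] {k : ℤ}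
    (f : CuspForm (CongruenceSubgroup.Gamma0 M) k)
    (hf : ∀ γ ∈ (CongruenceSubgroup.Gamma0 M' : Subgroup (GL (Fin 2) ℝ)), ⇑f ∣[k] γ = ⇑f)
    (n : ℕ) : qCoeff (descend f hf) n = qCoeff f n := rfl

/-! ### `U_l` lowers the level when `l ^ 2 ∣ M` -/

theorem dvd_div_of_sq_dvd {M l : ℕ} (h2 : l ^ 2 ∣ M) : l ∣ M / l := by
  rcases Nat.eq_zero_or_pos l with rfl | hl
  · simp
  · obtain ⟨t, rfl⟩ := h2
    exact ⟨t, by rw [pow_two, mul_assoc, Nat.mul_div_cancel_left _ hl]⟩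

theorem dvd_of_sq_dvd {M l : ℕ} (h2 : l ^ 2 ∣ M) : l ∣ M :=
  dvd_trans (dvd_pow_self l two_ne_zero) h2

theorem ne_zero_of_sq_dvd {M l : ℕ} [NeZero M] (h2 : l ^ 2 ∣ M) : l ≠ 0 := by
  rintro rfl
  exact NeZero.ne M (by simpa using h2)

theorem div_ne_zero_of_sq_dvd {M l : ℕ} [NeZero M] (h2 : l ^ 2 ∣ M) : M / l ≠ 0 := by
  have hl : 0 < l := Nat.pos_of_ne_zero (ne_zero_of_sq_dvd h2)
  have hM : 0 < M := Nat.pos_of_ne_zero (NeZero.ne M)
  exact (Nat.div_pos (Nat.le_of_dvd hM (dvd_of_sq_dvd h2)) hl).ne'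

/-- The slash-invariance of `U_l f` under the *larger* group `Γ₀(M / l)` when `l ^ 2 ∣ M`. -/
theorem heckeU_slash_mapGL_of_sq_dvd {M l : ℕ} [NeZero l] (k : ℤ) (h2 : l ^ 2 ∣ M) (f : ℍ → ℂ)
    (hf : ∀ γ ∈ (CongruenceSubgroup.Gamma0 M : Subgroup (GL (Fin 2) ℝ)), f ∣[k] γ = f)
    (g : SL(2, ℤ)) (hg : g ∈ CongruenceSubgroup.Gamma0 (M / l)) :
    ModularForm.heckeU k l f ∣[k] (mapGL ℝ g) = ModularForm.heckeU k l f := by
  have hcN : ((M / l : ℕ) : ℤ) ∣ g 1 0 :=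
    (ZMod.intCast_zmod_eq_zero_iff_dvd _ _).mp (CongruenceSubgroup.Gamma0_mem.mp hg)
  have hc : (l : ℤ) ∣ g 1 0 := (Int.natCast_dvd_natCast.mpr (dvd_div_of_sq_dvd h2)).trans hcN
  have hMl : l * (M / l) = M := Nat.mul_div_cancel' (dvd_of_sq_dvd h2)
  rw [P2MW.S_ModularForm_heckeU_slash_eq_self_of_mem_Gamma0.ModularForm.HeckeSlashInvariance.heckeU_eq_sum_zmod
    k f, SlashAction.sum_slash]
  calc ∑ x : ZMod l, (f ∣[k] ModularForm.heckeMatrix l x.val) ∣[k] mapGL ℝ g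
      = ∑ x : ZMod l, f ∣[k] ModularForm.heckeMatrix l
          (P2MW.S_ModularForm_heckeU_slash_eq_self_of_mem_Gamma0.ModularForm.HeckeSlashInvariance.affinePerm
            g ((ZMod.intCast_zmod_eq_zero_iff_dvd _ _).mpr hc) x).val := by
        refine Finset.sum_congr rfl fun x _ ↦ ?_
        obtain ⟨g', hg', hmul⟩ :=
          P2MW.S_ModularForm_heckeU_slash_eq_self_of_mem_Gamma0.ModularForm.HeckeSlashInvariance.heckeMatrix_mul_of_dvd
            g hc x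
        have hg'N : g' ∈ CongruenceSubgroup.Gamma0 M := by
          rw [CongruenceSubgroup.Gamma0_mem, hg', ZMod.intCast_zmod_eq_zero_iff_dvd]
          obtain ⟨t, ht⟩ := hcN
          have hM' : (M : ℤ) = (l : ℤ) * ((M / l : ℕ) : ℤ) := by exact_mod_cast hMl.symm
          exact ⟨t, by rw [ht, hM']; ring⟩
        rw [← SlashAction.slash_mul, hmul, SlashAction.slash_mul,
          hf _ (Subgroup.mem_map_of_mem (mapGL ℝ) hg'N)]
    _ = ∑ x : ZMod l, f ∣[k] ModularForm.heckeMatrix l x.val :=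
        Equiv.sum_comp
          (P2MW.S_ModularForm_heckeU_slash_eq_self_of_mem_Gamma0.ModularForm.HeckeSlashInvariance.affinePerm
            g _) (fun x ↦ f ∣[k] ModularForm.heckeMatrix l x.val)

theorem heckeU_slash_eq_self_of_mem_Gamma0_div {M l : ℕ} [NeZero M] (k : ℤ) (h2 : l ^ 2 ∣ M)
    {f : ℍ → ℂ}
    (hf : ∀ γ ∈ (CongruenceSubgroup.Gamma0 M : Subgroup (GL (Fin 2) ℝ)), f ∣[k] γ = f)
    (γ : GL (Fin 2) ℝ)
    (hγ : γ ∈ (CongruenceSubgroup.Gamma0 (M / l) : Subgroup (GL (Fin 2) ℝ))) :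
    ModularForm.heckeU k l f ∣[k] γ = ModularForm.heckeU k l f := by
  have : NeZero l := ⟨ne_zero_of_sq_dvd h2⟩
  obtain ⟨g, hg, rfl⟩ := hγ
  exact heckeU_slash_mapGL_of_sq_dvd k h2 f hf g hg

/-- **Level-lowering `U_l`.** If `l ^ 2 ∣ M` then `U_l` maps `S_k(Γ₀(M))` into `S_k(Γ₀(M / l))`.
The underlying function is the Prelude's `ModularForm.heckeU k l ⇑f`. -/
def lowerU {M l : ℕ} [NeZero M] (k : ℤ) (h2 : l ^ 2 ∣ M) :
    CuspForm (CongruenceSubgroup.Gamma0 M) k →ₗ[ℂ] CuspForm (CongruenceSubgroup.Gamma0 (M / l)) k :=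
  haveI : NeZero (M / l) := ⟨div_ne_zero_of_sq_dvd h2⟩
  { toFun := fun f =>
      { toFun := ModularForm.heckeU k l ⇑f
        slash_action_eq' := fun γ hγ => heckeU_slash_eq_self_of_mem_Gamma0_div k h2
          (fun γ hγ => SlashInvariantFormClass.slash_action_eq f γ hγ) γ hγ
        holo' := ModularForm.mdifferentiable_heckeU (CuspFormClass.holo f) k l
        zero_at_cusps' := fun hc =>
          CuspFormClass.isZeroAt_heckeU f l (isCusp_Gamma0_of_isCusp_Gamma0 hc) }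
    map_add' := fun f g => DFunLike.coe_injective <|
      show ModularForm.heckeU k l ⇑(f + g) = ModularForm.heckeU k l ⇑f + ModularForm.heckeU k l ⇑g by
        rw [FunLike.coe_add, ModularForm.heckeU_add]
    map_smul' := fun c f => DFunLike.coe_injective <|
      show ModularForm.heckeU k l ⇑(c • f) = c • ModularForm.heckeU k l ⇑f by
        rw [FunLike.coe_smul, ModularForm.heckeU_smul] }

@[simp] theorem coe_lowerU {M l : ℕ} [NeZero M] (k : ℤ) (h2 : l ^ 2 ∣ M)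
    (f : CuspForm (CongruenceSubgroup.Gamma0 M) k) :
    ⇑(lowerU k h2 f) = ModularForm.heckeU k l ⇑f := rfl

theorem qCoeff_lowerU' {M l : ℕ} [NeZero M] (k : ℤ) (h2 : l ^ 2 ∣ M)
    (f : CuspForm (CongruenceSubgroup.Gamma0 M) k) (n : ℕ) :
    qCoeff (lowerU k h2 f) n = qCoeff f (n * l) := by
  rw [coe_lowerU, ModularFormClass.qCoeff_heckeU f
    (CongruenceSubgroup.one_mem_strictPeriods_Gamma0 M) (ne_zero_of_sq_dvd h2) n,
    ModularForm.coeffHeckeU_apply]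

theorem qCoeff_lowerU {M l : ℕ} [NeZero M] (k : ℤ) (h2 : l ^ 2 ∣ M)
    (f : CuspForm (CongruenceSubgroup.Gamma0 M) k) (n : ℕ) :
    qCoeff (lowerU k h2 f) n = qCoeff f (l * n) := by
  rw [qCoeff_lowerU', mul_comm]

/-! ### q-coefficients of scalar multiples -/

theorem qCoeff_smul_cuspForm {M : ℕ} {k : ℤ} (c : ℂ)
    (f : CuspForm (CongruenceSubgroup.Gamma0 M) k) (n : ℕ) :
    qCoeff (⇑(c • f) : ℍ → ℂ) n = c * qCoeff (⇑f : ℍ → ℂ) n := by
  have h := ModularForm.qExpansion_smul (k := k) one_pos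
    (CongruenceSubgroup.one_mem_strictPeriods_Gamma0 M) c f
  rw [qCoeff, FunLike.coe_smul, h, PowerSeries.coeff_smul, smul_eq_mul]
  rfl

/-! ### Eigenforms: `a_{l n} = a_l a_n` for `l ∣ N` -/

theorem qCoeff_prime_mul_of_dvd {N : ℕ} {f : CuspForm (CongruenceSubgroup.Gamma0 N) 2}
    (hf : f.IsNormalizedEigenform) {l : ℕ} (hl : l.Prime) (hlN : l ∣ N) {n : ℕ} (hn : n ≠ 0) :
    qCoeff f (l * n) = qCoeff f l * qCoeff f n := by
  obtain ⟨e, m, hm, rfl⟩ := Nat.exists_eq_pow_mul_and_not_dvd hn l hl.ne_one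
  have hcop : ∀ r, (l ^ r).Coprime m := fun r =>
    Nat.Coprime.pow_left r ((Nat.Prime.coprime_iff_not_dvd hl).mpr hm)
  have hrec : ∀ r, qCoeff f (l ^ (r + 1)) = qCoeff f l * qCoeff f (l ^ r) := by
    intro r
    cases r with
    | zero => simp [hf.qCoeff_one]
    | succ r => exact hf.qCoeff_prime_pow_of_dvd l r hl hlN
  rw [← mul_assoc, ← pow_succ', hf.qCoeff_mul_of_coprime _ _ (hcop _),
    hf.qCoeff_mul_of_coprime _ _ (hcop _), hrec, mul_assoc]

/-! ### The main consequence: `a_l = 0` for newforms when `l ^ 2 ∣ M` -/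

/-- If `l ^ 2 ∣ M`, `g` is a normalised eigenform of level `M` and `a_l(g) ≠ 0`, then the
eigensystem of `g` already occurs at level `M / l` (realised by `a_l⁻¹ • U_l g`, which has the
same q-coefficients `a_n`, `n ≥ 1`, as `g`). -/
theorem goodEigensystemOccursAt_div_of_qCoeff_ne_zero {M l : ℕ} [NeZero M] (hl : l.Prime)
    (h2 : l ^ 2 ∣ M) {g : CuspForm (CongruenceSubgroup.Gamma0 M) 2}
    (hg : g.IsNormalizedEigenform) (ha : qCoeff g l ≠ 0) :
    ∃ h : CuspForm (CongruenceSubgroup.Gamma0 (M / l)) 2, h.IsNormalizedEigenform ∧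
      ∀ n : ℕ, n ≠ 0 → qCoeff h n = qCoeff g n := by
  have hlM : l ∣ M := dvd_of_sq_dvd h2
  have hq : ∀ n : ℕ, n ≠ 0 →
      qCoeff (⇑((qCoeff g l)⁻¹ • lowerU 2 h2 g) : ℍ → ℂ) n = qCoeff g n := by
    intro n hn
    rw [qCoeff_smul_cuspForm, qCoeff_lowerU, qCoeff_prime_mul_of_dvd hg hl hlM hn,
      inv_mul_cancel_left₀ ha]
  have hdvd : ∀ p : ℕ, p.Prime → (p ∣ M / l ↔ p ∣ M) := by
    intro p hp
    constructor
    · intro h
      exact h.trans (Nat.div_dvd_of_dvd hlM)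
    · intro h
      rw [← Nat.mul_div_cancel' hlM] at h
      rcases (Nat.Prime.dvd_mul hp).mp h with h | h
      · rw [(Nat.prime_dvd_prime_iff_eq hp hl).mp h]
        exact dvd_div_of_sq_dvd h2
      · exact h
  refine ⟨(qCoeff g l)⁻¹ • lowerU 2 h2 g, ⟨?_, ?_, ?_, ?_⟩, hq⟩
  · rw [hq 1 one_ne_zero, hg.qCoeff_one]
  · intro m n hmn
    rcases Nat.eq_zero_or_pos m with rfl | hm
    · rw [Nat.coprime_zero_left] at hmn
      subst hmn
      rw [hq 1 one_ne_zero, hg.qCoeff_one, mul_one, mul_one]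
    rcases Nat.eq_zero_or_pos n with rfl | hn
    · rw [Nat.coprime_zero_right] at hmn
      subst hmn
      rw [hq 1 one_ne_zero, hg.qCoeff_one, one_mul, one_mul]
    rw [hq _ (Nat.mul_ne_zero hm.ne' hn.ne'), hq _ hm.ne', hq _ hn.ne',
      hg.qCoeff_mul_of_coprime m n hmn]
  · intro p r hp hpN
    rw [hq _ (pow_ne_zero _ hp.ne_zero), hq _ hp.ne_zero, hq _ (pow_ne_zero _ hp.ne_zero),
      hq _ (pow_ne_zero _ hp.ne_zero)]
    exact hg.qCoeff_prime_pow_of_not_dvd p r hp (fun h => hpN ((hdvd p hp).mpr h))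
  · intro p r hp hpN
    rw [hq _ (pow_ne_zero _ hp.ne_zero), hq _ hp.ne_zero, hq _ (pow_ne_zero _ hp.ne_zero)]
    exact hg.qCoeff_prime_pow_of_dvd p r hp ((hdvd p hp).mp hpN)

/-- **A newform of level `M` has `a_l = 0` for every prime `l` with `l ^ 2 ∣ M`.** -/
theorem qCoeff_eq_zero_of_isNewform_of_sq_dvd {M l : ℕ} [NeZero M] (hl : l.Prime)
    (h2 : l ^ 2 ∣ M) {g : CuspForm (CongruenceSubgroup.Gamma0 M) 2} (hg : g.IsNewform) :
    qCoeff g l = 0 := by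
  by_contra ha
  have hlM : l ∣ M := dvd_of_sq_dvd h2
  have hne : M / l ≠ M :=
    (Nat.div_lt_self (Nat.pos_of_ne_zero (NeZero.ne M)) hl.one_lt).ne
  obtain ⟨h, hh, hq⟩ := goodEigensystemOccursAt_div_of_qCoeff_ne_zero hl h2 hg.1 ha
  exact hg.2 (M / l) (Nat.div_dvd_of_dvd hlM) hne
    ⟨h, hh, fun ℓ hℓ _ => hq ℓ hℓ.ne_zero⟩

/-- The `q ^ 2 ∣ N` half of the Prelude's `CuspForm.NewformBadPrimeCoeff N`, for `N ≠ 0`. -/
theorem newformBadPrimeCoeff_sq_dvd {N : ℕ} [NeZero N]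
    (f : CuspForm (CongruenceSubgroup.Gamma0 N) 2) (hf : f.IsNewform) (q : ℕ) (hq : q.Prime)
    (h2 : q ^ 2 ∣ N) : qCoeff f q = 0 :=
  qCoeff_eq_zero_of_isNewform_of_sq_dvd hq h2 hf

end Fermat.Agent.S58.helper706

end
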