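/-
S58, route #1886 step 6 (comparison of the mod-`m` Galois modules of two elliptic curves),
ABSTRACT ALGEBRA CORE — helper8967.

Point of the file: the comparison needs NO characteristic polynomial of Frobenius on torsion
(no Weil pairing, no determinant).  The Cayley–Hamilton *relation* `φ² - a φ + r = 0` on both
modules suffices, as soon as one also knows how the group acts on the `m`-th roots of unity
(`φ ζ = ζ ^ r`), because then the constant term `r ^ j` of the relation satisfied by `σ = φ ^ j`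
is known modulo `m`.

* `lucasTr a r j`              : the Lucas trace sequence `τ₀ = 2, τ₁ = a, τ_{j+2} = a τ_{j+1} - r τ_j`.
* `pow_relation`               : `φ² - a φ + r = 0` in a ring gives `(φ^j)² - τ_j φ^j + r^j = 0`.
* `smul_pow_relation`          : the same for a group element acting on an additive group.
* `dvd_sub_lucasTr`            : a second relation `σ² - b σ + d = 0` for `σ = φ^j` on a faithful
                                 `m`-torsion module, with `d ≡ r^j`, forces `b ≡ τ_j (mod m)`.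
* `relation_transfer`          : TRANSFER of such a relation from `V₁` to `V₂`.
* `exists_fixed_of_unipotent`  : a group acting by unipotent maps on a nontrivial finite
                                 `m`-torsion group (`m` prime) has a nonzero common fixed point.
* `FrobDense`, `unipotent_transfer`, `trace_congr`, `exists_fixed_of_frobDense` : consumer forms.
* `dvd_sub_pow_of_primitiveRoot` : the `μ_m` bookkeeping.
-/
import Mathlib

set_option autoImplicit false

namespace Fermat.Agent.S58.helper8967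

/-- Lucas trace sequence `τ_j = λ^j + μ^j` for `X² - aX + r = (X - λ)(X - μ)`. -/
def lucasTr (a r : ℤ) : ℕ → ℤ
  | 0 => 2
  | 1 => a
  | (j + 2) => a * lucasTr a r (j + 1) - r * lucasTr a r j

@[simp] theorem lucasTr_zero (a r : ℤ) : lucasTr a r 0 = 2 := rfl

@[simp] theorem lucasTr_one (a r : ℤ) : lucasTr a r 1 = a := rfl

theorem lucasTr_add_two (a r : ℤ) (j : ℕ) :
    lucasTr a r (j + 2) = a * lucasTr a r (j + 1) - r * lucasTr a r j := rfl

/-- In a commutative ring, `x + y = a` and `x y = r` give `x^j + y^j = τ_j`. -/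
theorem pow_add_pow_eq_lucasTr {R : Type*} [CommRing R] (x y : R) (a r : ℤ)
    (hs : x + y = (a : R)) (hp : x * y = (r : R)) (j : ℕ) :
    x ^ j + y ^ j = (lucasTr a r j : R) := by
  induction j using Nat.twoStepInduction with
  | zero => simp [lucasTr]; norm_num
  | one => simpa using hs
  | more j h0 h1 =>
    rw [lucasTr_add_two]
    push_cast
    rw [← h0, ← h1, ← hs, ← hp]
    ring

/-- Commutative form of the relation for powers. -/
theorem pow_relation_comm {R : Type*} [CommRing R] (x : R) (a r : ℤ)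
    (h : x * x - (a : R) * x + (r : R) = 0) (j : ℕ) :
    x ^ j * x ^ j - (lucasTr a r j : R) * x ^ j + ((r ^ j : ℤ) : R) = 0 := by
  have hs : x + ((a : R) - x) = (a : R) := by ring
  have hp : x * ((a : R) - x) = (r : R) := by linear_combination -h
  have h1 := pow_add_pow_eq_lucasTr x ((a : R) - x) a r hs hp j
  have h2 : ((r ^ j : ℤ) : R) = x ^ j * ((a : R) - x) ^ j := by
    push_cast
    rw [← hp, mul_pow]
  rw [← h1, h2]
  ring

open Polynomial in
/-- **Lucas relation** in an arbitrary (not necessarily commutative) ring: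
`φ² - a φ + r = 0` implies `(φ^j)² - τ_j φ^j + r^j = 0`. -/
theorem pow_relation {E : Type*} [Ring E] (φ : E) (a r : ℤ)
    (h : φ * φ - (a : E) * φ + (r : E) = 0) (j : ℕ) :
    φ ^ j * φ ^ j - (lucasTr a r j : E) * φ ^ j + ((r ^ j : ℤ) : E) = 0 := by
  -- the polynomial identity modulo `f = X² - aX + r`
  set f : ℤ[X] := X * X - C a * X + C r with hf
  set P : ℤ[X] := X ^ j * X ^ j - C (lucasTr a r j) * X ^ j + C (r ^ j) with hP
  have hdvd : f ∣ P := by
    rw [← Ideal.mem_span_singleton, ← Ideal.Quotient.eq_zero_iff_mem]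
    have hx : (Ideal.Quotient.mk (Ideal.span {f}) X) * (Ideal.Quotient.mk (Ideal.span {f}) X)
        - ((a : ℤ) : ℤ[X] ⧸ Ideal.span {f}) * (Ideal.Quotient.mk (Ideal.span {f}) X)
        + ((r : ℤ) : ℤ[X] ⧸ Ideal.span {f}) = 0 := by
      have : Ideal.Quotient.mk (Ideal.span {f}) f = 0 :=
        Ideal.Quotient.eq_zero_iff_mem.mpr (Ideal.mem_span_singleton_self f)
      rw [hf] at this
      simpa [map_sub, map_add, map_mul] using this
    have := pow_relation_comm (Ideal.Quotient.mk (Ideal.span {f}) X) a r hx j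
    rw [hP]
    simpa [map_sub, map_add, map_mul, map_pow] using this
  obtain ⟨Q, hQ⟩ := hdvd
  have hfφ : aeval φ f = 0 := by
    rw [hf]
    simpa [map_sub, map_add, map_mul, pow_two] using h
  have hPφ : aeval φ P = 0 := by rw [hQ, map_mul, hfφ, zero_mul]
  rw [hP] at hPφ
  simpa [map_sub, map_add, map_mul, map_pow] using hPφ

section Action

variable {G : Type*} [Group G] {V : Type*} [AddCommGroup V] [DistribMulAction G V]

/-- The relation `φ² - a φ + r = 0` for a group element acting on an additive group. -/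
def Rel (φ : G) (a r : ℤ) (V : Type*) [AddCommGroup V] [DistribMulAction G V] : Prop :=
  ∀ v : V, φ • φ • v - a • φ • v + r • v = 0

theorem rel_iff_end (φ : G) (a r : ℤ) :
    Rel φ a r V ↔
      DistribMulAction.toAddMonoidEnd G V φ * DistribMulAction.toAddMonoidEnd G V φ
        - (a : AddMonoid.End V) * DistribMulAction.toAddMonoidEnd G V φ
        + (r : AddMonoid.End V) = 0 := by
  have key : ∀ v : V,
      (DistribMulAction.toAddMonoidEnd G V φ * DistribMulAction.toAddMonoidEnd G V φ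
        - (a : AddMonoid.End V) * DistribMulAction.toAddMonoidEnd G V φ
        + (r : AddMonoid.End V)) v = φ • φ • v - a • φ • v + r • v := by
    intro v
    have e : (DistribMulAction.toAddMonoidEnd G V φ * DistribMulAction.toAddMonoidEnd G V φ
        - (a : AddMonoid.End V) * DistribMulAction.toAddMonoidEnd G V φ
        + (r : AddMonoid.End V)) v
        = φ • φ • v - (a : AddMonoid.End V) (φ • v) + (r : AddMonoid.End V) v := rfl
    rw [e, AddMonoid.End.intCast_apply, AddMonoid.End.intCast_apply]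
  constructor
  · intro h
    ext v
    rw [key v]
    exact h v
  · intro h v
    rw [← key v, h]
    rfl

/-- **Lucas relation for actions**: if `φ` satisfies `φ² - a φ + r = 0` on `V`, then
`φ ^ j` satisfies `X² - τ_j X + r^j = 0` on `V`. -/
theorem smul_pow_relation (φ : G) (a r : ℤ) (h : Rel φ a r V) (j : ℕ) :
    Rel (φ ^ j) (lucasTr a r j) (r ^ j) V := by
  rw [rel_iff_end] at h ⊢
  have := pow_relation (DistribMulAction.toAddMonoidEnd G V φ) a r h j
  simpa [map_pow] using this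

/-- If `m` kills `V`, relations only depend on the coefficients modulo `m`. -/
theorem Rel.congr_mod {φ : G} {a r a' r' : ℤ} {m : ℕ} (hm : ∀ v : V, m • v = 0)
    (h : Rel φ a r V) (ha : (m : ℤ) ∣ a' - a) (hr : (m : ℤ) ∣ r' - r) : Rel φ a' r' V := by
  have key : ∀ (c : ℤ), (m : ℤ) ∣ c → ∀ v : V, c • v = 0 := by
    rintro c ⟨k, rfl⟩ v
    rw [mul_comm, mul_smul, natCast_zsmul, hm, smul_zero]
  intro v
  have h1 := key _ ha (φ • v)
  have h2 := key _ hr v
  have h0 := h v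
  rw [sub_smul] at h1 h2
  rw [sub_eq_zero] at h1 h2
  rw [h1, h2]
  exact h0

/-- A second relation `σ² - b σ + d = 0` satisfied by `σ = φ ^ j` on a module killed by `m` and
containing an element of order `m`, with `d ≡ r ^ j (mod m)`, has `b ≡ τ_j (mod m)`. -/
theorem dvd_sub_lucasTr (φ : G) (a r : ℤ) (h : Rel φ a r V) (j : ℕ) (b d : ℤ) {m : ℕ}
    (hm : ∀ v : V, m • v = 0) (v₀ : V) (hv₀ : addOrderOf v₀ = m)
    (hd : (m : ℤ) ∣ d - r ^ j) (hσ : Rel (φ ^ j) b d V) :
    (m : ℤ) ∣ b - lucasTr a r j := by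
  have h1 := smul_pow_relation φ a r h j
  have h2 : Rel (φ ^ j) b (r ^ j) V :=
    Rel.congr_mod hm hσ (by simp) (by simpa [dvd_sub_comm] using hd)
  -- subtract the two relations at `v = (φ^j)⁻¹ • v₀`
  have h3 := h1 ((φ ^ j)⁻¹ • v₀)
  have h4 := h2 ((φ ^ j)⁻¹ • v₀)
  rw [smul_inv_smul] at h3 h4
  have h5 : (b - lucasTr a r j) • v₀ = 0 := by
    rw [sub_smul]
    have e : b • v₀ - lucasTr a r j • v₀
        = (φ ^ j • v₀ - lucasTr a r j • v₀ + r ^ j • (φ ^ j)⁻¹ • v₀)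
          - (φ ^ j • v₀ - b • v₀ + r ^ j • (φ ^ j)⁻¹ • v₀) := by abel
    rw [e, h3, h4, sub_zero]
  have := (addOrderOf_dvd_iff_zsmul_eq_zero (x := v₀)).mpr h5
  rwa [hv₀] at this

/-- **TRANSFER LEMMA.**  `V₁`, `V₂` killed by `m`, `V₁` with an element of order `m`; `φ`
satisfies `φ² - a φ + r = 0` on both.  If `σ = φ ^ j` satisfies `σ² - b σ + d = 0` on `V₁` with
`d ≡ r ^ j (mod m)`, then it satisfies the same relation on `V₂`. -/
theorem relation_transfer {V₁ V₂ : Type*} [AddCommGroup V₁] [AddCommGroup V₂]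
    [DistribMulAction G V₁] [DistribMulAction G V₂] (φ : G) (a r : ℤ)
    (h₁ : Rel φ a r V₁) (h₂ : Rel φ a r V₂) (j : ℕ) (b d : ℤ) {m : ℕ}
    (hm₁ : ∀ v : V₁, m • v = 0) (hm₂ : ∀ v : V₂, m • v = 0)
    (v₀ : V₁) (hv₀ : addOrderOf v₀ = m)
    (hd : (m : ℤ) ∣ d - r ^ j) (hσ : Rel (φ ^ j) b d V₁) :
    Rel (φ ^ j) b d V₂ := by
  have hb := dvd_sub_lucasTr φ a r h₁ j b d hm₁ v₀ hv₀ hd hσ
  exact Rel.congr_mod hm₂ (smul_pow_relation φ a r h₂ j) hb hd

/-- Two relations with the same constant term (mod `m`) for `σ = φ ^ j` on two faithful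
`m`-torsion modules have the same trace modulo `m`. -/
theorem trace_congr_of_pow {V₁ V₂ : Type*} [AddCommGroup V₁] [AddCommGroup V₂]
    [DistribMulAction G V₁] [DistribMulAction G V₂] (φ : G) (a r : ℤ)
    (h₁ : Rel φ a r V₁) (h₂ : Rel φ a r V₂) (j : ℕ) (b₁ b₂ d₁ d₂ : ℤ) {m : ℕ}
    (hm₁ : ∀ v : V₁, m • v = 0) (hm₂ : ∀ v : V₂, m • v = 0)
    (v₁ : V₁) (hv₁ : addOrderOf v₁ = m) (v₂ : V₂) (hv₂ : addOrderOf v₂ = m)
    (hd₁ : (m : ℤ) ∣ d₁ - r ^ j) (hd₂ : (m : ℤ) ∣ d₂ - r ^ j)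
    (hσ₁ : Rel (φ ^ j) b₁ d₁ V₁) (hσ₂ : Rel (φ ^ j) b₂ d₂ V₂) :
    (m : ℤ) ∣ b₁ - b₂ := by
  have e₁ := dvd_sub_lucasTr φ a r h₁ j b₁ d₁ hm₁ v₁ hv₁ hd₁ hσ₁
  have e₂ := dvd_sub_lucasTr φ a r h₂ j b₂ d₂ hm₂ v₂ hv₂ hd₂ hσ₂
  have := dvd_sub e₁ e₂
  simpa using this

/-- A nontrivial additive group killed by a prime `m` has an element of order `m`. -/
theorem exists_addOrderOf_eq_prime (V : Type*) [AddCommGroup V] [Nontrivial V] {m : ℕ}
    (hmp : m.Prime) (hm : ∀ v : V, m • v = 0) : ∃ v : V, addOrderOf v = m := by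
  obtain ⟨v, hv⟩ := exists_ne (0 : V)
  refine ⟨v, ?_⟩
  have h1 : addOrderOf v ∣ m := addOrderOf_dvd_of_nsmul_eq_zero (hm v)
  rcases (Nat.dvd_prime hmp).mp h1 with h | h
  · exact absurd (AddMonoid.addOrderOf_eq_one_iff.mp h) hv
  · exact h

/-- Powers of a unipotent element: `(σ - 1)² = 0` gives `σ^k = 1 + k (σ - 1)`. -/
theorem smul_pow_of_unipotent (σ : G) (h : Rel σ 2 1 V) (k : ℕ) (v : V) :
    σ ^ k • v = v + k • (σ • v - v) := by
  have e : ∀ w : V, σ • σ • w - σ • w = σ • w - w := by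
    intro w
    have hw := h w
    rw [two_smul, one_smul] at hw
    have e' : σ • σ • w - σ • w - (σ • w - w) = σ • σ • w - (σ • w + σ • w) + w := by abel
    exact sub_eq_zero.mp (e'.trans hw)
  induction k generalizing v with
  | zero => simp
  | succ k ih =>
    rw [pow_succ, mul_smul, ih (σ • v), e v, add_smul, one_smul]
    abel

/-- **FIXED POINT.**  A group acting on a nontrivial finite additive group killed by a prime `m`
through maps with `(σ - 1)² = 0` has a nonzero common fixed point. -/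
theorem exists_fixed_of_unipotent {H : Type*} [Group H] {V : Type*} [AddCommGroup V] [Finite V]
    [Nontrivial V] [DistribMulAction H V] {m : ℕ} (hmp : m.Prime) (hm : ∀ v : V, m • v = 0)
    (hu : ∀ σ : H, Rel σ 2 1 V) : ∃ v : V, v ≠ 0 ∧ ∀ σ : H, σ • v = v := by
  have : Fact m.Prime := ⟨hmp⟩
  have hpow : ∀ (σ : H) (v : V), σ ^ m • v = v := by
    intro σ v
    rw [smul_pow_of_unipotent σ (hu σ) m v, hm, add_zero]
  have hP : IsPGroup m (MulAction.toPermHom H V).range := by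
    rintro ⟨g, σ, rfl⟩
    refine ⟨1, ?_⟩
    apply Subtype.ext
    rw [pow_one]
    show (MulAction.toPermHom H V σ) ^ m = 1
    rw [← map_pow]
    ext v
    simpa using hpow σ v
  have hcard : m ∣ Nat.card V := by
    obtain ⟨v, hv⟩ := exists_addOrderOf_eq_prime V hmp hm
    rw [← hv]
    exact addOrderOf_dvd_natCard v
  have h0 : (0 : V) ∈ MulAction.fixedPoints (MulAction.toPermHom H V).range V := by
    rintro ⟨g, σ, rfl⟩
    show MulAction.toPermHom H V σ (0 : V) = 0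
    simp
  obtain ⟨b, hb, hne⟩ := hP.exists_fixed_point_of_prime_dvd_card_of_fixed_point V hcard h0
  refine ⟨b, fun h => hne h.symm, fun σ => ?_⟩
  have := hb ⟨MulAction.toPermHom H V σ, σ, rfl⟩
  exact this

end Action

/-! ### Consumer forms -/

section Consumer

variable (G : Type*) [Group G] (V₁ V₂ : Type*) [AddCommGroup V₁] [AddCommGroup V₂]
  [DistribMulAction G V₁] [DistribMulAction G V₂]

/-- **Frobenius density** (what weak Chebotarev + Cayley–Hamilton on torsion + the action on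
`μ_m` provide).  `χ σ` is the exponent by which `σ` acts on the `m`-th roots of unity.
Every `σ` acts on `V₁`, `V₂` as a power `φ ^ j` of an element `φ` ("Frobenius at `r`") that
satisfies `φ² - a φ + r = 0` on both modules, and `χ σ = r ^ j`. -/
def FrobDense (m : ℕ) (χ : G → ZMod m) : Prop :=
  ∀ σ : G, ∃ (φ : G) (j : ℕ) (a r : ℤ),
    (∀ v : V₁, σ • v = φ ^ j • v) ∧ (∀ v : V₂, σ • v = φ ^ j • v) ∧
    χ σ = (r : ZMod m) ^ j ∧ Rel φ a r V₁ ∧ Rel φ a r V₂

variable {G V₁ V₂}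

theorem Rel.of_smul_eq {V : Type*} [AddCommGroup V] [DistribMulAction G V] {σ τ : G}
    (h : ∀ v : V, σ • v = τ • v) {b d : ℤ} (hτ : Rel τ b d V) : Rel σ b d V := by
  intro v
  rw [h v, h (τ • v)]
  exact hτ v

theorem dvd_of_chi_eq {m : ℕ} {x : ZMod m} {d r : ℤ} {j : ℕ} (h1 : x = (d : ZMod m))
    (h2 : x = (r : ZMod m) ^ j) : (m : ℤ) ∣ d - r ^ j := by
  rw [← ZMod.intCast_zmod_eq_zero_iff_dvd]
  push_cast
  rw [← h1, ← h2, sub_self]

/-- **Relation transfer under Frobenius density**: a relation `σ² - b σ + d = 0` on `V₁`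
with `d = χ σ` holds on `V₂` as well. -/
theorem FrobDense.rel_transfer {m : ℕ} {χ : G → ZMod m} (hFD : FrobDense G V₁ V₂ m χ)
    (hm₁ : ∀ v : V₁, m • v = 0) (hm₂ : ∀ v : V₂, m • v = 0)
    (v₀ : V₁) (hv₀ : addOrderOf v₀ = m)
    (σ : G) (b d : ℤ) (hχ : χ σ = (d : ZMod m)) (h₁ : Rel σ b d V₁) : Rel σ b d V₂ := by
  obtain ⟨φ, j, a, r, e₁, e₂, hr, r₁, r₂⟩ := hFD σ
  have hd := dvd_of_chi_eq hχ hr
  have h₁' : Rel (φ ^ j) b d V₁ := Rel.of_smul_eq (fun v => (e₁ v).symm) h₁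
  exact Rel.of_smul_eq e₂ (relation_transfer φ a r r₁ r₂ j b d hm₁ hm₂ v₀ hv₀ hd h₁')

/-- **Inertia form**: if `σ` is trivial on `μ_m` and unipotent on `V₁`, it is unipotent on
`V₂`. -/
theorem FrobDense.unipotent_transfer {m : ℕ} {χ : G → ZMod m} (hFD : FrobDense G V₁ V₂ m χ)
    (hm₁ : ∀ v : V₁, m • v = 0) (hm₂ : ∀ v : V₂, m • v = 0)
    (v₀ : V₁) (hv₀ : addOrderOf v₀ = m)
    (σ : G) (hχ : χ σ = 1) (h₁ : Rel σ 2 1 V₁) : Rel σ 2 1 V₂ :=
  hFD.rel_transfer hm₁ hm₂ v₀ hv₀ σ 2 1 (by simpa using hχ) h₁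

/-- **Frobenius-lift form**: two relations with constant term `d = χ σ` satisfied by the same
`σ` on `V₁` and on `V₂` have congruent traces. -/
theorem FrobDense.trace_congr {m : ℕ} {χ : G → ZMod m} (hFD : FrobDense G V₁ V₂ m χ)
    (hm₁ : ∀ v : V₁, m • v = 0) (hm₂ : ∀ v : V₂, m • v = 0)
    (v₁ : V₁) (hv₁ : addOrderOf v₁ = m) (v₂ : V₂) (hv₂ : addOrderOf v₂ = m)
    (σ : G) (b₁ b₂ d : ℤ) (hχ : χ σ = (d : ZMod m))
    (h₁ : Rel σ b₁ d V₁) (h₂ : Rel σ b₂ d V₂) : (m : ℤ) ∣ b₁ - b₂ := by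
  obtain ⟨φ, j, a, r, e₁, e₂, hr, r₁, r₂⟩ := hFD σ
  have hd := dvd_of_chi_eq hχ hr
  have h₁' : Rel (φ ^ j) b₁ d V₁ := Rel.of_smul_eq (fun v => (e₁ v).symm) h₁
  have h₂' : Rel (φ ^ j) b₂ d V₂ := Rel.of_smul_eq (fun v => (e₂ v).symm) h₂
  exact trace_congr_of_pow φ a r r₁ r₂ j b₁ b₂ d d hm₁ hm₂ v₁ hv₁ v₂ hv₂ hd hd h₁' h₂'

/-- **Inertia fixed point**: a subgroup `I` (inertia) acting trivially on `μ_m` and
unipotently on `V₁` fixes a nonzero element of `V₂` (`m` prime, `V₂` finite nontrivial). -/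
theorem FrobDense.exists_fixed {m : ℕ} {χ : G → ZMod m} (hFD : FrobDense G V₁ V₂ m χ)
    (hmp : m.Prime) (hm₁ : ∀ v : V₁, m • v = 0) (hm₂ : ∀ v : V₂, m • v = 0)
    [Nontrivial V₁] [Nontrivial V₂] [Finite V₂]
    (I : Subgroup G) (hI : ∀ σ ∈ I, χ σ = 1 ∧ Rel σ 2 1 V₁) :
    ∃ v : V₂, v ≠ 0 ∧ ∀ σ ∈ I, σ • v = v := by
  obtain ⟨v₀, hv₀⟩ := exists_addOrderOf_eq_prime V₁ hmp hm₁
  have hu : ∀ σ : I, Rel σ 2 1 V₂ := by
    intro σ v
    exact hFD.unipotent_transfer hm₁ hm₂ v₀ hv₀ σ.1 (hI σ.1 σ.2).1 (hI σ.1 σ.2).2 v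
  obtain ⟨v, hv, hfix⟩ := exists_fixed_of_unipotent (H := I) hmp hm₂ hu
  exact ⟨v, hv, fun σ hσ => hfix ⟨σ, hσ⟩⟩

end Consumer

/-! ### Bookkeeping for the action on roots of unity -/

/-- If `φ ζ = ζ ^ r` then `φ ^ j ζ = ζ ^ (r ^ j)`. -/
theorem pow_smul_eq_pow_pow {G M : Type*} [Group G] [Monoid M] [MulDistribMulAction G M]
    (φ : G) (ζ : M) (r : ℕ) (h : φ • ζ = ζ ^ r) (j : ℕ) : φ ^ j • ζ = ζ ^ (r ^ j) := by
  induction j with
  | zero => simp
  | succ j ih => rw [pow_succ, mul_smul, h, smul_pow', ih, ← pow_mul, ← pow_succ]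

/-- `μ_m` bookkeeping: if `σ` acts on a primitive `m`-th root of unity `ζ` as `φ ^ j`, where
`φ ζ = ζ ^ r`, and `σ ζ = ζ ^ d`, then `d ≡ r ^ j (mod m)`. -/
theorem natCast_eq_pow_of_primitiveRoot {G M : Type*} [Group G] [CommMonoid M]
    [MulDistribMulAction G M] {ζ : M} {m : ℕ} (hm0 : m ≠ 0) (hζ : IsPrimitiveRoot ζ m)
    (σ φ : G) (j r d : ℕ) (hφ : φ • ζ = ζ ^ r) (hσ : σ • ζ = ζ ^ d)
    (hσφ : σ • ζ = φ ^ j • ζ) : (d : ZMod m) = (r : ZMod m) ^ j := by
  have h : ζ ^ d = ζ ^ (r ^ j) := by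
    rw [← hσ, hσφ, pow_smul_eq_pow_pow φ ζ r hφ j]
  have hfin : IsOfFinOrder ζ := isOfFinOrder_iff_pow_eq_one.mpr ⟨m, Nat.pos_of_ne_zero hm0, hζ.pow_eq_one⟩
  have h2 := hfin.pow_eq_pow_iff_modEq.mp h
  rw [← hζ.eq_orderOf] at h2
  have h3 := (ZMod.natCast_eq_natCast_iff d (r ^ j) m).mpr h2
  simpa using h3

end Fermat.Agent.S58.helper8967
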