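/-
S58 via the frozen statements S35 + S36 (helper1646), part 1: ALGEBRA (Mathlib only,
plus the landed Lucas-relation file `S58/helper8967_Transfer`).

* `charpoly_eq_of_finrank_two`, `trace_det_of_charpoly` : rank two, `charpoly = X² - tr X + det`;
* `trace_pow_eq_lucasTr` : `tr (f ^ j) = τ_j (tr f, det f)`;
* `trace_det_congr` : `u ≡ 1 mod I` gives `tr (f u) ≡ tr f`, `det (f u) ≡ det f mod I`;
* `tri_of_split` : a 2×2 matrix representation containing `diag(1,-1)` whose traces and
  determinants are those of `ψ₁ ⊕ ψ₂` is triangular;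
* `involution_inv_of_pow_eq_one` : an involution `c ≠ 1` of an algebraically closed field of
  characteristic `≠ 2` inverts the roots of unity of odd order (no Artin–Schreier theory);
* `int_dvd_of_mem_span_pow`, `eq_zero_of_forall_mem_span_pow`, `exists_pow_le_span_pow` :
  `ℓ`-adic bookkeeping in a local domain.
-/
import Mathlib
import Fermat.Agent.S58.helper8967_Transfer

set_option autoImplicit false

namespace Fermat.Agent.S58.helper1646

open Polynomial Fermat.Agent.S58.helper8967

section RankTwo

variable {R : Type*} [CommRing R] [Nontrivial R] {V : Type*} [AddCommGroup V] [Module R V]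
  [Module.Free R V] [Module.Finite R V]

/-- In rank two, `charpoly f = X² - tr f X + det f`. -/
theorem charpoly_eq_of_finrank_two (h : Module.finrank R V = 2) (f : Module.End R V) :
    f.charpoly = X ^ 2 - C (LinearMap.trace R V f) * X + C (LinearMap.det f) := by
  classical
  let b : Module.Basis (Fin 2) R V := Module.finBasisOfFinrankEq R V h
  rw [← LinearMap.charpoly_toMatrix f b, Matrix.charpoly_fin_two,
    LinearMap.trace_eq_matrix_trace R b f, LinearMap.det_toMatrix b f]

/-- Trace and determinant from the characteristic polynomial in rank two. -/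
theorem trace_det_of_charpoly (h : Module.finrank R V = 2) (f : Module.End R V) (a d : R)
    (hf : f.charpoly = X ^ 2 - C a * X + C d) :
    LinearMap.trace R V f = a ∧ LinearMap.det f = d := by
  rw [charpoly_eq_of_finrank_two h f] at hf
  have h1 := congrArg (fun p : R[X] => p.coeff 1) hf
  have h0 := congrArg (fun p : R[X] => p.coeff 0) hf
  simp only [coeff_add, coeff_sub, coeff_X_pow, coeff_C_mul, coeff_X, coeff_C] at h1 h0
  norm_num at h1 h0
  exact ⟨h1, h0⟩

/-- Cayley–Hamilton in rank two. -/
theorem sq_eq_of_finrank_two (h : Module.finrank R V = 2) (f : Module.End R V) :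
    f * f = LinearMap.trace R V f • f - LinearMap.det f • (1 : Module.End R V) := by
  have hCH := LinearMap.aeval_self_charpoly f
  rw [charpoly_eq_of_finrank_two h f] at hCH
  simp only [map_add, map_sub, map_mul, map_pow, aeval_X, aeval_C] at hCH
  rw [pow_two] at hCH
  rw [Algebra.algebraMap_eq_smul_one, Algebra.algebraMap_eq_smul_one, smul_mul_assoc,
    one_mul] at hCH
  rw [eq_sub_iff_add_eq, ← sub_eq_zero]
  rw [← hCH]
  abel

/-- `tr (f ^ j)` is the Lucas trace sequence of `(tr f, det f)` (integers). -/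
theorem trace_pow_eq_lucasTr (h : Module.finrank R V = 2) (f : Module.End R V) (a r : ℤ)
    (htr : LinearMap.trace R V f = (a : R)) (hdet : LinearMap.det f = (r : R)) (j : ℕ) :
    LinearMap.trace R V (f ^ j) = (lucasTr a r j : R) := by
  induction j using Nat.twoStepInduction with
  | zero =>
    rw [pow_zero, LinearMap.trace_one, h, lucasTr_zero]
    norm_num
  | one => rw [pow_one, htr, lucasTr_one]
  | more j h0 h1 =>
    have e : f ^ (j + 2) = (a : R) • f ^ (j + 1) - (r : R) • f ^ j := by
      rw [pow_add, pow_two, sq_eq_of_finrank_two h f, htr, hdet, mul_sub, mul_smul_comm,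
        mul_smul_comm, mul_one, ← pow_succ]
    rw [e, map_sub, map_smul, map_smul, h0, h1, lucasTr_add_two]
    push_cast
    simp only [smul_eq_mul]

end RankTwo

section Congr

variable {R : Type*} [CommRing R] {V : Type*} [AddCommGroup V] [Module R V]
  [Module.Free R V] [Module.Finite R V]

open scoped TensorProduct

omit [Module.Free R V] [Module.Finite R V] in
/-- An endomorphism congruent to the identity modulo `I` becomes the identity over `R ⧸ I`. -/
theorem baseChange_eq_one_of_congr (I : Ideal R) (u : Module.End R V)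
    (hu : ∀ v, u v - v ∈ I • (⊤ : Submodule R V)) :
    u.baseChange (R ⧸ I) = 1 := by
  have hkill : ∀ x ∈ I • (⊤ : Submodule R V), ∀ c : R ⧸ I, c ⊗ₜ[R] x = 0 := by
    intro x hx c
    refine Submodule.smul_induction_on (p := fun x => c ⊗ₜ[R] x = (0 : (R ⧸ I) ⊗[R] V)) hx ?_ ?_
    · intro a ha w _
      rw [TensorProduct.tmul_smul, TensorProduct.smul_tmul', Algebra.smul_def,
        Ideal.Quotient.algebraMap_eq, Ideal.Quotient.eq_zero_iff_mem.mpr ha, zero_mul,
        TensorProduct.zero_tmul]
    · intro x y hx hy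
      rw [TensorProduct.tmul_add, hx, hy, add_zero]
  refine LinearMap.ext fun w => ?_
  induction w using TensorProduct.induction_on with
  | zero => rw [map_zero, map_zero]
  | tmul c v =>
    rw [LinearMap.baseChange_tmul, Module.End.one_apply, ← sub_eq_zero, ← TensorProduct.tmul_sub]
    exact hkill _ (hu v) c
  | add x y hx hy => rw [map_add, map_add, hx, hy]

/-- Multiplying by an endomorphism congruent to `1` modulo `I` does not change trace and
determinant modulo `I`. -/
theorem trace_det_congr (I : Ideal R) (f u : Module.End R V)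
    (hu : ∀ v, u v - v ∈ I • (⊤ : Submodule R V)) :
    LinearMap.trace R V (f * u) - LinearMap.trace R V f ∈ I ∧
      LinearMap.det (f * u) - LinearMap.det f ∈ I := by
  have h1 := baseChange_eq_one_of_congr I u hu
  have hmul : (f * u).baseChange (R ⧸ I) = f.baseChange (R ⧸ I) := by
    rw [LinearMap.baseChange_mul, h1, mul_one]
  constructor
  · rw [← Ideal.Quotient.eq_zero_iff_mem, map_sub, sub_eq_zero, ← Ideal.Quotient.algebraMap_eq,
      ← LinearMap.trace_baseChange, ← LinearMap.trace_baseChange, hmul]
  · rw [← Ideal.Quotient.eq_zero_iff_mem, map_sub, sub_eq_zero, ← Ideal.Quotient.algebraMap_eq,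
      ← LinearMap.det_baseChange, ← LinearMap.det_baseChange, hmul]

end Congr

section Split

/-- A multiplicative family of `2 × 2` matrices over a field of characteristic `≠ 2` which
contains `diag(1, -1)` and has the traces and determinants of `ψ₁ ⊕ ψ₂` for two multiplicative
maps `ψ₁, ψ₂` is triangular: all lower-left entries vanish, or all upper-right entries vanish. -/
theorem tri_of_split {G K : Type*} [Monoid G] [Field K] (h2 : (2 : K) ≠ 0)
    (M : G →* Matrix (Fin 2) (Fin 2) K) (ψ₁ ψ₂ : G →* K) (c : G)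
    (hc : M c = !![1, 0; 0, -1])
    (htr : ∀ g, (M g).trace = ψ₁ g + ψ₂ g) (hdet : ∀ g, (M g).det = ψ₁ g * ψ₂ g) :
    (∀ g, M g 1 0 = 0) ∨ (∀ g, M g 0 1 = 0) := by
  -- the values at `c`
  have htc := htr c
  have hdc := hdet c
  rw [hc, Matrix.trace_fin_two_of] at htc
  rw [hc, Matrix.det_fin_two_of] at hdc
  -- entries of a product with `M c`
  have hprod : ∀ g, (M (c * g)).trace = M g 0 0 - M g 1 1 := by
    intro g
    rw [map_mul, hc, Matrix.trace_fin_two]
    simp [Matrix.mul_apply, Fin.sum_univ_two]
    ring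
  have hsq : ψ₁ c * ψ₁ c = 1 := by
    have e : ψ₂ c = -ψ₁ c := by linear_combination -htc
    rw [e] at hdc
    linear_combination hdc
  -- which of the two cases holds depends only on `c`
  have hcase : (∀ g, M g 0 0 = ψ₁ g ∧ M g 1 1 = ψ₂ g) ∨ (∀ g, M g 0 0 = ψ₂ g ∧ M g 1 1 = ψ₁ g) := by
    rcases mul_self_eq_one_iff.mp hsq with hp | hp
    · left
      intro g
      have h1 := htr g
      rw [Matrix.trace_fin_two] at h1
      have h3 := hprod g
      rw [htr (c * g), map_mul, map_mul] at h3
      have e : ψ₂ c = -ψ₁ c := by linear_combination -htc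
      rw [e, hp] at h3
      constructor
      · have : (2 : K) * (M g 0 0 - ψ₁ g) = 0 := by linear_combination h1 - h3
        exact sub_eq_zero.mp ((mul_eq_zero.mp this).resolve_left h2)
      · have : (2 : K) * (M g 1 1 - ψ₂ g) = 0 := by linear_combination h1 + h3
        exact sub_eq_zero.mp ((mul_eq_zero.mp this).resolve_left h2)
    · right
      intro g
      have h1 := htr g
      rw [Matrix.trace_fin_two] at h1
      have h3 := hprod g
      rw [htr (c * g), map_mul, map_mul] at h3
      have e : ψ₂ c = -ψ₁ c := by linear_combination -htc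
      rw [e, hp] at h3
      constructor
      · have : (2 : K) * (M g 0 0 - ψ₂ g) = 0 := by linear_combination h1 - h3
        exact sub_eq_zero.mp ((mul_eq_zero.mp this).resolve_left h2)
      · have : (2 : K) * (M g 1 1 - ψ₁ g) = 0 := by linear_combination h1 + h3
        exact sub_eq_zero.mp ((mul_eq_zero.mp this).resolve_left h2)
  -- off-diagonal products vanish
  have hoff : ∀ g, M g 0 1 * M g 1 0 = 0 := by
    intro g
    have h := hdet g
    rw [Matrix.det_fin_two] at h
    rcases hcase with hd | hd
    · rw [(hd g).1, (hd g).2] at h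
      linear_combination -h
    · rw [(hd g).1, (hd g).2] at h
      linear_combination -h
  -- the (1,1) entry of a product
  have hmul11 : ∀ g h, M g 1 0 * M h 0 1 = 0 := by
    intro g h
    have e : M (g * h) 1 1 = M g 1 0 * M h 0 1 + M g 1 1 * M h 1 1 := by
      rw [map_mul, Matrix.mul_apply, Fin.sum_univ_two]
    rcases hcase with hd | hd
    · rw [(hd (g * h)).2, (hd g).2, (hd h).2, map_mul] at e
      linear_combination -e
    · rw [(hd (g * h)).2, (hd g).2, (hd h).2, map_mul] at e
      linear_combination -e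
  by_contra hcon
  push Not at hcon
  obtain ⟨⟨g, hg⟩, ⟨h, hh⟩⟩ := hcon
  exact (mul_ne_zero hg hh) (hmul11 g h)

end Split

section Involution

variable {K : Type*} [Field K] [IsAlgClosed K]

/-- **Involutions invert odd roots of unity.**  Let `c` be a ring endomorphism of an
algebraically closed field of characteristic `≠ 2` with `c ∘ c = id`, `c ≠ id`.  Then
`c ζ = ζ⁻¹` for every `ζ` with `ζ ^ n = 1`, `n` odd.  (Elementary part of Artin–Schreier: the
fixed field does not contain `√-1`, and sums of squares of fixed elements are squares of fixed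
elements.) -/
theorem involution_inv_of_pow_eq_one (h2 : (2 : K) ≠ 0) (c : K →+* K)
    (hc2 : ∀ x, c (c x) = x) (hc1 : ∃ x, c x ≠ x) {n : ℕ} (hn : Odd n) {ζ : K}
    (hζ : ζ ^ n = 1) : c ζ = ζ⁻¹ := by
  -- an anti-invariant element
  obtain ⟨θ, hθ⟩ := hc1
  set δ : K := θ - c θ with hδ
  have hδ0 : δ ≠ 0 := sub_ne_zero.mpr (Ne.symm hθ)
  have hcδ : c δ = -δ := by rw [hδ, map_sub, hc2]; ring
  -- a square root of `-1` is not fixed
  obtain ⟨i, hi⟩ := IsAlgClosed.exists_pow_nat_eq (-1 : K) (n := 2) (by norm_num)
  have hci : c i ≠ i := by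
    intro hfix
    obtain ⟨γ, hγ⟩ := IsAlgClosed.exists_pow_nat_eq δ (n := 2) (by norm_num)
    set N : K := γ * c γ with hN
    have hcN : c N = N := by rw [hN, map_mul, hc2, mul_comm]
    have hN2 : N ^ 2 = -δ ^ 2 := by
      rw [hN, mul_pow, ← map_pow, hγ, hcδ]
      ring
    have h1 : (i * N) ^ 2 = δ ^ 2 := by
      rw [mul_pow, hi, hN2]
      ring
    have h3 : c (i * N) = i * N := by rw [map_mul, hfix, hcN]
    rcases sq_eq_sq_iff_eq_or_eq_neg.mp h1 with h | h
    · have : c δ = δ := by rw [← h]; exact h3
      rw [hcδ] at this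
      have : (2 : K) * δ = 0 := by linear_combination -this
      exact hδ0 ((mul_eq_zero.mp this).resolve_left h2)
    · have h4 : c δ = δ := by
        have : δ = -(i * N) := by rw [h, neg_neg]
        rw [this, map_neg, h3]
      rw [hcδ] at h4
      have : (2 : K) * δ = 0 := by linear_combination -h4
      exact hδ0 ((mul_eq_zero.mp this).resolve_left h2)
  have hci' : c i = -i := by
    have h1 : (c i) ^ 2 = i ^ 2 := by rw [← map_pow, hi, map_neg, map_one]
    rcases sq_eq_sq_iff_eq_or_eq_neg.mp h1 with h | h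
    · exact absurd h hci
    · exact h
  -- sums of two fixed squares are fixed squares
  have hsum : ∀ z₁ z₂ : K, (∃ s, c s = s ∧ s ^ 2 = z₁) → (∃ s, c s = s ∧ s ^ 2 = z₂) →
      ∃ s, c s = s ∧ s ^ 2 = z₁ + z₂ := by
    rintro z₁ z₂ ⟨a, ha, rfl⟩ ⟨b, hb, rfl⟩
    obtain ⟨w, hw⟩ := IsAlgClosed.exists_pow_nat_eq (a + b * i) (n := 2) (by norm_num)
    refine ⟨w * c w, by rw [map_mul, hc2, mul_comm], ?_⟩
    rw [mul_pow, ← map_pow, hw, map_add, map_mul, ha, hb, hci']
    have : i ^ 2 = -1 := hi
    linear_combination (-b ^ 2) * this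
  -- a fixed root of unity of odd order is `1`
  have hfix1 : ∀ x : K, c x = x → x ^ n = 1 → x = 1 := by
    intro x hx hxn
    by_contra hx1
    obtain ⟨m, hm⟩ := hn
    set y : K := x ^ (m + 1) with hy
    have hcy : c y = y := by rw [hy, map_pow, hx]
    have hy2 : y ^ 2 = x := by
      rw [hy, ← pow_mul]
      have : (m + 1) * 2 = n + 1 := by omega
      rw [this, pow_succ, hxn, one_mul]
    have hgeom : ∑ k ∈ Finset.range n, x ^ k = 0 := by
      have h := mul_neg_geom_sum x n
      rw [hxn, sub_self] at h
      have hx1' : (1 - x) ≠ 0 := sub_ne_zero.mpr (Ne.symm hx1)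
      exact (mul_eq_zero.mp h).resolve_left hx1'
    have hn0 : n ≠ 0 := by omega
    obtain ⟨n', rfl⟩ := Nat.exists_eq_succ_of_ne_zero hn0
    rw [Finset.sum_range_succ', pow_zero] at hgeom
    have hneg : (-1 : K) = ∑ k ∈ Finset.range n', x ^ (k + 1) := by linear_combination -hgeom
    have hP : ∃ s, c s = s ∧ s ^ 2 = ∑ k ∈ Finset.range n', x ^ (k + 1) := by
      refine Finset.sum_induction (fun k => x ^ (k + 1)) (fun z => ∃ s, c s = s ∧ s ^ 2 = z)
        hsum ⟨0, map_zero c, by norm_num⟩ ?_
      intro k _
      refine ⟨y ^ (k + 1), by rw [map_pow, hcy], ?_⟩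
      rw [← pow_mul, mul_comm, pow_mul, hy2]
    rw [← hneg] at hP
    obtain ⟨s, hcs, hs⟩ := hP
    have h1 : s ^ 2 = i ^ 2 := by rw [hs, hi]
    rcases sq_eq_sq_iff_eq_or_eq_neg.mp h1 with h | h
    · exact hci (by rw [← h]; exact hcs)
    · have : c i = i := by
        have hi' : i = -s := by rw [h, neg_neg]
        rw [hi', map_neg, hcs]
      exact hci this
  -- conclusion
  have hζ0 : ζ ≠ 0 := by
    rintro rfl
    rw [zero_pow (by rintro rfl; simp at hn)] at hζ
    exact zero_ne_one hζ
  have h1 := hfix1 (ζ * c ζ) (by rw [map_mul, hc2, mul_comm])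
    (by rw [mul_pow, ← map_pow, hζ, map_one, mul_one])
  exact eq_inv_of_mul_eq_one_right h1

end Involution

section Adic

variable {O : Type*} [CommRing O] [IsDomain O] [IsLocalRing O]

/-- An integer which is divisible by `lam ^ k` in a local domain `O` with `lam` in the maximal
ideal and `lam ≠ 0` is divisible by `lam ^ k` in `ℤ`. -/
theorem int_dvd_of_mem_span_pow {lam : ℕ} (hlam : lam.Prime)
    (hm : (lam : O) ∈ IsLocalRing.maximalIdeal O) (h0 : (lam : O) ≠ 0) :
    ∀ (k : ℕ) (x : ℤ), (x : O) ∈ Ideal.span {(lam : O) ^ k} → ((lam : ℤ) ^ k) ∣ x := by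
  intro k
  induction k with
  | zero => intro x _; simp
  | succ k ih =>
    intro x hx
    obtain ⟨y, hy⟩ := Ideal.mem_span_singleton.mp hx
    have hdvd : (lam : ℤ) ∣ x := by
      by_contra hnd
      have hcop : IsCoprime x (lam : ℤ) :=
        ((Nat.prime_iff_prime_int.mp hlam).coprime_iff_not_dvd.mpr hnd).symm
      obtain ⟨a, b, hab⟩ := hcop
      have h1 : (a : O) * (x : O) + (b : O) * (lam : O) = 1 := by
        have := congrArg (fun z : ℤ => (z : O)) hab
        push_cast at this
        exact this
      have h2 : (1 : O) ∈ IsLocalRing.maximalIdeal O := by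
        rw [← h1, hy]
        refine Ideal.add_mem _ ?_ (Ideal.mul_mem_left _ _ hm)
        rw [pow_succ]
        have : (a : O) * ((lam : O) ^ k * (lam : O) * y) = ((a : O) * (lam : O) ^ k * y) * (lam : O) := by
          ring
        rw [this]
        exact Ideal.mul_mem_left _ _ hm
      exact (Ideal.ne_top_iff_one _).mp (IsLocalRing.maximalIdeal.isMaximal O).ne_top h2
    obtain ⟨x₁, rfl⟩ := hdvd
    have h3 : (x₁ : O) = (lam : O) ^ k * y := by
      have : (lam : O) * (x₁ : O) = (lam : O) * ((lam : O) ^ k * y) := by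
        have e : (((lam : ℤ) * x₁ : ℤ) : O) = (lam : O) * (x₁ : O) := by push_cast; ring
        rw [← e, hy, pow_succ]
        ring
      exact mul_left_cancel₀ h0 this
    have h4 := ih x₁ (Ideal.mem_span_singleton.mpr ⟨y, h3⟩)
    rw [pow_succ, mul_comm]
    exact mul_dvd_mul_left _ h4

omit [IsDomain O] in
/-- `lam`-adic separatedness of a noetherian local ring. -/
theorem eq_zero_of_forall_mem_span_pow [IsNoetherianRing O] {lam : ℕ}
    (hm : (lam : O) ∈ IsLocalRing.maximalIdeal O) (z : O)
    (hz : ∀ k : ℕ, z ∈ Ideal.span {(lam : O) ^ k}) : z = 0 := by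
  have hne : Ideal.span {(lam : O)} ≠ ⊤ := by
    intro htop
    have : (1 : O) ∈ Ideal.span {(lam : O)} := by rw [htop]; trivial
    have h1 : (1 : O) ∈ IsLocalRing.maximalIdeal O :=
      (Ideal.span_singleton_le_iff_mem (I := IsLocalRing.maximalIdeal O)).mpr hm this
    exact (Ideal.ne_top_iff_one _).mp (IsLocalRing.maximalIdeal.isMaximal O).ne_top h1
  have h := Ideal.iInf_pow_eq_bot_of_isLocalRing (Ideal.span {(lam : O)}) hne
  have hmem : z ∈ ⨅ i : ℕ, Ideal.span {(lam : O)} ^ i := by
    rw [Ideal.mem_iInf]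
    intro k
    rw [Ideal.span_singleton_pow]
    exact hz k
  rw [h] at hmem
  exact hmem

set_option linter.overlappingInstances false in
/-- In a discrete valuation ring every power of a nonzero element of the maximal ideal
contains a power of the maximal ideal. -/
theorem exists_pow_le_span_pow [IsDiscreteValuationRing O] {lam : ℕ} (h0 : (lam : O) ≠ 0)
    (k : ℕ) : ∃ N : ℕ, IsLocalRing.maximalIdeal O ^ N ≤ Ideal.span {(lam : O) ^ k} := by
  obtain ⟨ϖ, hϖ⟩ := IsDiscreteValuationRing.exists_irreducible O
  have hne : Ideal.span {(lam : O) ^ k} ≠ ⊥ := by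
    rw [Ne, Ideal.span_singleton_eq_bot]
    exact pow_ne_zero k h0
  obtain ⟨N, hN⟩ := IsDiscreteValuationRing.ideal_eq_span_pow_irreducible hne hϖ
  refine ⟨N, ?_⟩
  rw [hN, hϖ.maximalIdeal_eq, Ideal.span_singleton_pow]

end Adic

end Fermat.Agent.S58.helper1646
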