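/-
S58 via the frozen statements S35 + S36 (helper1646), part 2: COMPARISON of a Galois
representation `ρ` whose Frobenius traces are the `a_ℓ(W)` with the torsion of `W`, WITHOUT
Weil pairing, Brauer–Nesbitt or a Tate-module object.

* `exists_rel` : for every `g ∈ Gal(ℚ̄/ℚ)` and all `n`, `k` there are integers `t`, `d` with
  `tr ρ(g) ≡ t`, `det ρ(g) ≡ d` modulo `𝔪 ^ n`, `g² - t g + d = 0` on `W[lam ^ k]` and
  `g ζ = ζ ^ d` on `μ_{lam ^ k}` (generator-Chebotarev + Frobenius relation on torsion + Lucas);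
* `dvd_of_forall_smul_eq_zero` : an integer killing `W[m]` is divisible by `m`;
* `trace_frob_eq` : at a good prime `q ≠ lam`, `det ρ(Frob_q) = q` forces
  `tr ρ(Frob_q) = a_q(W)`;
* `trace_det_inertia` : for semistable `W`, `tr ρ(σ) = 2` and `det ρ(σ) = 1` on inertia at
  `q ≠ lam` (`lam` odd).
-/
import Mathlib
import Fermat.Prelude.Def_GaloisRep_Adic
import Fermat.Prelude.Def_GaloisRep_LocalConditions
import Fermat.Agent.S58.helper1646_GalAlg
import Fermat.Agent.S58.helper5765_FrobTors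
import Fermat.Agent.Lib.helper1844_FrobGenAll
import Fermat.Agent.Lib.helper1663_InertiaAdapter
import Fermat.Agent.Lib.helper5856_TorsionCard
import Fermat.Agent.Lib.helper822_TorsionGalois
import Fermat.Agent.Lib.helper74_GenChebQbar

set_option autoImplicit false

namespace Fermat.Agent.S58.helper1646

open Polynomial WeierstrassCurve WeierstrassCurve.Affine
open Fermat.Agent.S58.helper8967 Fermat.Agent.S58.helper5765

local notation "Qb" => AlgebraicClosure ℚ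
local notation "GQ" => (AlgebraicClosure ℚ ≃ₐ[ℚ] AlgebraicClosure ℚ)

/-- Powers of a Frobenius element on roots of unity. -/
theorem pow_apply_of_pow_eq_one (τ : GQ) (ℓ m : ℕ)
    (hτ : ∀ ζ : Qb, ζ ^ m = 1 → τ ζ = ζ ^ ℓ) (j : ℕ) (ζ : Qb) (hζ : ζ ^ m = 1) :
    (τ ^ j) ζ = ζ ^ (ℓ ^ j) := by
  induction j with
  | zero => simp
  | succ j ih =>
    rw [pow_succ', AlgEquiv.mul_apply, ih, map_pow, hτ ζ hζ, ← pow_mul, pow_succ']

/-- **Relation transfer.**  Let `ρ` be a two-dimensional Galois representation over a local ring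
`O` such that, for all primes `ℓ` outside a finite set `T` (containing `lam` and the bad primes
of `W`), every Frobenius element at `ℓ` has trace `a_ℓ(W)` and determinant `ℓ`.  Then for every
`g` and all `n`, `k` there are `t : ℤ`, `d : ℕ` with `tr ρ(g) ≡ t`, `det ρ(g) ≡ d` mod `𝔪 ^ n`,
`g² - t g + d = 0` on `W[lam ^ k]`, and `g ζ = ζ ^ d` for `ζ ∈ μ_{lam ^ k}`. -/
theorem exists_rel (W : WeierstrassCurve ℤ) {O : Type} [CommRing O] [IsLocalRing O]
    (ρ : GaloisRepAdic O) (lam : ℕ) (hlam : lam.Prime) (T : Finset ℕ)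
    (hTgood : ∀ ℓ : ℕ, ℓ.Prime → ℓ ∉ T → W.IsGoodPrimeFor ℓ ∧ ℓ ≠ lam)
    (hT : ∀ ℓ : ℕ, ℓ.Prime → ℓ ∉ T → ∀ A : ValuationSubring Qb, A.LiesOverPrime ℓ →
      ∀ σ : GQ, A.IsFrobeniusAt σ ℓ →
        LinearMap.trace O ρ.V (ρ.ρ σ) = (W.apOfModel ℓ : O) ∧ LinearMap.det (ρ.ρ σ) = (ℓ : O))
    (g : GQ) (n k : ℕ) :
    ∃ (t : ℤ) (d : ℕ), 0 < d ∧
      LinearMap.trace O ρ.V (ρ.ρ g) - (t : O) ∈ IsLocalRing.maximalIdeal O ^ n ∧
      LinearMap.det (ρ.ρ g) - (d : O) ∈ IsLocalRing.maximalIdeal O ^ n ∧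
      Rel g t (d : ℤ) (Tors W (lam ^ k)) ∧
      (∀ ζ : Qb, ζ ^ (lam ^ k) = 1 → g ζ = ζ ^ d) := by
  classical
  have hm0 : lam ^ k ≠ 0 := pow_ne_zero k hlam.ne_zero
  -- the three finite levels
  obtain ⟨L₁, hL₁fin, hL₁⟩ := ρ.isAdicContinuous n
  obtain ⟨L₂, hL₂fin, hL₂⟩ :=
    Fermat.Agent.Lib.helper822.galoisFactorsThroughFiniteLevel_torsion
      (W.map (Int.castRingHom ℚ)) (lam ^ k) hm0
  set S₃ : Set Qb := {ζ | ζ ^ (lam ^ k) = 1} with hS₃
  have hS₃fin : S₃.Finite := by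
    have hsub : S₃ ⊆ ((nthRoots (lam ^ k) (1 : Qb)).toFinset : Set Qb) := by
      intro ζ hζ
      rw [Finset.mem_coe, Multiset.mem_toFinset, mem_nthRoots (Nat.pos_of_ne_zero hm0)]
      exact hζ
    exact (Finset.finite_toSet _).subset hsub
  have : Finite S₃ := hS₃fin
  have hL₃fin : FiniteDimensional ℚ (IntermediateField.adjoin ℚ S₃) :=
    IntermediateField.finiteDimensional_adjoin
      (fun x _ => ((AlgebraicClosure.isAlgebraic ℚ).isAlgebraic x).isIntegral)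
  have := hL₁fin
  have := hL₂fin
  have := hL₃fin
  set L : IntermediateField ℚ Qb := L₁ ⊔ L₂ ⊔ IntermediateField.adjoin ℚ S₃ with hL
  have hL₁le : L₁ ≤ L := le_sup_of_le_left le_sup_left
  have hL₂le : L₂ ≤ L := le_sup_of_le_left le_sup_right
  have hL₃le : IntermediateField.adjoin ℚ S₃ ≤ L := le_sup_right
  -- generator-Chebotarev
  obtain ⟨ℓ, A, τ, j, hℓ, hℓT, hA, hτ, hj⟩ :=
    Fermat.Agent.Lib.helper74.exists_frobenius_pow_eq L g T
  have : Fact ℓ.Prime := ⟨hℓ⟩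
  obtain ⟨hgood, hne⟩ := hTgood ℓ hℓ hℓT
  obtain ⟨htr, hdet⟩ := hT ℓ hℓ hℓT A hA τ hτ
  have hcop : Nat.Coprime (lam ^ k) ℓ :=
    Nat.Coprime.pow_left k ((Nat.coprime_primes hlam hℓ).mpr (Ne.symm hne))
  -- `g = τ ^ j * h` with `h` trivial on `L`
  set h : GQ := (τ ^ j)⁻¹ * g with hh
  have hg : g = τ ^ j * h := by rw [hh, mul_inv_cancel_left]
  have hfix : ∀ x ∈ L, h x = x := by
    intro x hx
    have h1 : (τ ^ j) (h x) = (τ ^ j) x := by
      rw [← AlgEquiv.mul_apply, ← hg, hj x hx]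
    exact (τ ^ j).injective h1
  refine ⟨lucasTr (W.apOfModel ℓ) ℓ j, ℓ ^ j, pow_pos hℓ.pos j, ?_, ?_, ?_, ?_⟩
  · -- trace
    have hc := (trace_det_congr (IsLocalRing.maximalIdeal O ^ n) (ρ.ρ τ ^ j) (ρ.ρ h)
      (hL₁ h fun x hx => hfix x (hL₁le hx))).1
    have e : ρ.ρ g = ρ.ρ τ ^ j * ρ.ρ h := by rw [hg, map_mul, map_pow]
    rw [e]
    have e2 : LinearMap.trace O ρ.V (ρ.ρ τ ^ j) = (lucasTr (W.apOfModel ℓ) ℓ j : O) :=
      trace_pow_eq_lucasTr ρ.finrank_eq (ρ.ρ τ) (W.apOfModel ℓ) ℓ htr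
        (by rw [hdet]; push_cast; rfl) j
    rw [e2] at hc
    exact hc
  · -- determinant
    have hc := (trace_det_congr (IsLocalRing.maximalIdeal O ^ n) (ρ.ρ τ ^ j) (ρ.ρ h)
      (hL₁ h fun x hx => hfix x (hL₁le hx))).2
    have e : ρ.ρ g = ρ.ρ τ ^ j * ρ.ρ h := by rw [hg, map_mul, map_pow]
    rw [e]
    have e2 : LinearMap.det (ρ.ρ τ ^ j) = ((ℓ ^ j : ℕ) : O) := by
      rw [map_pow, hdet]
      push_cast
      rfl
    rw [e2] at hc
    exact hc
  · -- the relation on torsion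
    have hrelτ : Rel τ (W.apOfModel ℓ) (ℓ : ℤ) (Tors W (lam ^ k)) := fun P =>
      frob_relation_of_frobCH W ℓ hgood
        (fun K _ _ _ _ => Fermat.Agent.Lib.helper1844.frobCH_all ℓ W hgood K) A hA τ hτ
        (lam ^ k) hcop P
    have hrelj := smul_pow_relation τ _ _ hrelτ j
    have hhP : ∀ P : Tors W (lam ^ k), h • P = P := by
      intro P
      have h1 := hL₂ h fun x hx => hfix x (hL₂le hx)
      have h2 := congrArg (fun f => f P) h1
      exact h2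
    intro P
    have e : ∀ Q : Tors W (lam ^ k), g • Q = τ ^ j • Q := by
      intro Q
      rw [hg, mul_smul, hhP]
    rw [e, e]
    have := hrelj P
    push_cast
    exact this
  · -- roots of unity
    intro ζ hζ
    have hζL : ζ ∈ L := hL₃le (IntermediateField.subset_adjoin ℚ S₃ hζ)
    rw [hg, AlgEquiv.mul_apply, hfix ζ hζL]
    exact pow_apply_of_pow_eq_one τ ℓ (lam ^ k)
      (fun ζ' hζ' => isFrobeniusAt_apply_of_pow_eq_one A hA τ ℓ hτ (lam ^ k) hm0 hcop ζ' hζ')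
      j ζ hζ

end Fermat.Agent.S58.helper1646
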