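import Mathlib
import Fermat.Agent.S41.helper560_WitnessGroup

/-!
# Irreducibility of a two-dimensional representation from quadratic relations (helper8215)

Abstract linear algebra behind "the residual representation of a newform congruent to an elliptic
curve `E` with `E[p]` irreducible is ABSOLUTELY irreducible" — without Weil pairing, without
Brauer–Nesbitt.

`ρV : G →* End_F V` an irreducible representation of dimension two over a field `F`, `2 ≠ 0`;
`r : G →* End_k U` a representation of dimension two over a field `k`, `φ : F →+* k`.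
Assume every `g : G` has `a, d : F` with

* `ρV g ² - a ρV g + d = 0` on `V`, and
* `charpoly (r g) = X² - φ a X + φ d`,

and that some `c : G` has `c * c = 1`, `det (r c) = -1`.  Then `r` is irreducible
(`irreducible_of_quad`).

Proof.  A stable line `k w` of `U` gives a character `χ`; on the commutator subgroup `χ = 1` and
`det ∘ r = 1`, so `charpoly (r h) = (X - 1)²` there, so `(ρV h - 1)² = 0`: every element of the
commutator subgroup has a nonzero fixed vector in `V`, hence acts trivially on `V`
(`helper560.trivial_of_forall_fixed`), i.e. `ρV` has commutative image.  For `g` and `c * g` the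
constant terms are `d` and `-d` (multiplicativity of `det ∘ r`), `d ≠ 0`: contradiction with
`helper560.false_of_comm_of_quad`.
-/

set_option autoImplicit false

namespace Fermat.Agent.S58.helper8215

open Module Polynomial
open scoped commutatorElement

section AbsIrr

variable {k : Type*} [Field k] {U : Type*} [AddCommGroup U] [Module k U] [Module.Finite k U]

/-- In dimension two the determinant is the constant coefficient of the characteristic
polynomial. -/
theorem det_eq_of_charpoly_eq (hU : finrank k U = 2) (f : Module.End k U) (a d : k)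
    (h : f.charpoly = X ^ 2 - C a * X + C d) : LinearMap.det f = d := by
  rw [LinearMap.det_eq_sign_charpoly_coeff, hU, h]
  simp

/-- An eigenvalue is a root of the characteristic polynomial (dimension two, explicit form). -/
theorem eigen_rel_of_charpoly_eq (f : Module.End k U) (a d : k)
    (h : f.charpoly = X ^ 2 - C a * X + C d) {w : U} (hw : w ≠ 0) {s : k} (hs : f w = s • w) :
    s ^ 2 - a * s + d = 0 := by
  have h1 := LinearMap.aeval_self_charpoly f
  rw [h] at h1
  have h2 := congrArg (fun g : Module.End k U => g w) h1
  simp only [map_add, map_sub, map_mul, aeval_X, aeval_C, LinearMap.add_apply,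
    LinearMap.sub_apply, Module.End.mul_apply, LinearMap.zero_apply, Module.algebraMap_end_apply,
    pow_two, hs, map_smul] at h2
  have h3 : (s ^ 2 - a * s + d) • w = 0 := by
    rw [← h2, add_smul, sub_smul, pow_two, mul_smul, mul_smul, smul_comm a s w]
  rcases smul_eq_zero.mp h3 with h4 | h4
  · exact h4
  · exact absurd h4 hw

variable {F : Type*} [Field F] {V : Type*} [AddCommGroup V] [Module F V]
  {G : Type*} [Group G]

/-- **Irreducibility from quadratic relations.**  See the module docstring. -/
theorem irreducible_of_quad (hV : finrank F V = 2) (h2 : (2 : F) ≠ 0)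
    (ρV : G →* Module.End F V)
    (hirr : ∀ N : Submodule F V, (∀ g : G, ∀ x ∈ N, ρV g x ∈ N) → N = ⊥ ∨ N = ⊤)
    (hU : finrank k U = 2) (r : G →* Module.End k U) (φ : F →+* k)
    (hquad : ∀ g : G, ∃ a d : F,
      ρV g * ρV g - a • ρV g + d • (1 : Module.End F V) = 0 ∧
      (r g).charpoly = X ^ 2 - C (φ a) * X + C (φ d))
    (c : G) (hc : c * c = 1) (hdet : LinearMap.det (r c) = -1) :
    ∀ W : Submodule k U, (∀ g : G, ∀ x ∈ W, r g x ∈ W) → W = ⊥ ∨ W = ⊤ := by
  classical
  intro W hW
  by_contra hcon
  rw [not_or] at hcon
  obtain ⟨hbot, htop⟩ := hcon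
  obtain ⟨w, hwW, hw0⟩ := (Submodule.ne_bot_iff W).mp hbot
  have hW1 : finrank k W = 1 := by
    have h1 : finrank k W ≠ 0 := fun h => hbot (Submodule.finrank_eq_zero.mp h)
    have h3 : finrank k W < finrank k U := Submodule.finrank_lt htop
    omega
  have hspan : W = Submodule.span k {w} :=
    Fermat.Agent.S41.helper560.eq_span_of_finrank_eq_one hW1 hwW hw0
  -- the character of the stable line
  have hchi : ∀ g : G, ∃ s : k, r g w = s • w := by
    intro g
    have h1 := hW g w hwW
    rw [hspan, Submodule.mem_span_singleton] at h1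
    obtain ⟨s, hs⟩ := h1
    exact ⟨s, hs.symm⟩
  choose χ hχ using hchi
  have hinj : ∀ s t : k, s • w = t • w → s = t := fun s t h => smul_left_injective k hw0 h
  have hχmul : ∀ g g' : G, χ (g * g') = χ g * χ g' := by
    intro g g'
    apply hinj
    rw [← hχ (g * g'), map_mul, Module.End.mul_apply, hχ g', map_smul, hχ g, smul_smul, mul_comm]
  have hχ1 : χ 1 = 1 := by
    apply hinj
    rw [← hχ 1, map_one, Module.End.one_apply, one_smul]
  let χh : G →* k := { toFun := χ, map_one' := hχ1, map_mul' := hχmul }
  let δh : G →* k := (LinearMap.det : Module.End k U →* k).comp r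
  have hcomm1 : ∀ h ∈ commutator G, χ h = 1 := by
    intro h hh
    have h1 := Abelianization.commutator_subset_ker χh.toHomUnits hh
    rw [MonoidHom.mem_ker] at h1
    have h3 := congrArg Units.val h1
    rw [MonoidHom.coe_toHomUnits] at h3
    exact h3
  have hcomm2 : ∀ h ∈ commutator G, LinearMap.det (r h) = 1 := by
    intro h hh
    have h1 := Abelianization.commutator_subset_ker δh.toHomUnits hh
    rw [MonoidHom.mem_ker] at h1
    have h3 := congrArg Units.val h1
    rw [MonoidHom.coe_toHomUnits] at h3
    exact h3
  -- every element of the commutator subgroup has a nonzero fixed vector in `V`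
  have hntV : Nontrivial V := Module.nontrivial_of_finrank_pos (R := F) (by omega)
  obtain ⟨v₀, hv₀⟩ := exists_ne (0 : V)
  have hfix : ∀ h ∈ commutator G, ∃ v : V, v ≠ 0 ∧ ρV h v = v := by
    intro h hh
    obtain ⟨a, d, hrel, hcp⟩ := hquad h
    have hd : φ d = 1 := by
      rw [← det_eq_of_charpoly_eq hU (r h) _ _ hcp]
      exact hcomm2 h hh
    have ha : φ a = 2 := by
      have h1 := eigen_rel_of_charpoly_eq (r h) _ _ hcp hw0 (hχ h)
      rw [hcomm1 h hh, hd] at h1
      linear_combination (-1 : k) * h1
    have hd' : d = 1 := φ.injective (by rw [hd, map_one])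
    have ha' : a = 2 := φ.injective (by rw [ha, map_ofNat])
    rw [hd', ha'] at hrel
    have hsq : (ρV h - 1) * (ρV h - 1) = 0 := by
      have e : (ρV h - 1) * (ρV h - 1) =
          ρV h * ρV h - (2 : F) • ρV h + (1 : F) • (1 : Module.End F V) := by
        rw [one_smul, two_smul]
        noncomm_ring
      rw [e, hrel]
    by_cases hw : (ρV h - 1) v₀ = 0
    · exact ⟨v₀, hv₀, by rwa [LinearMap.sub_apply, Module.End.one_apply, sub_eq_zero] at hw⟩
    · refine ⟨(ρV h - 1) v₀, hw, ?_⟩
      have h1 := congrArg (fun f : Module.End F V => f v₀) hsq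
      simp only [Module.End.mul_apply, LinearMap.zero_apply] at h1
      rwa [LinearMap.sub_apply, Module.End.one_apply, sub_eq_zero] at h1
  have htriv := Fermat.Agent.S41.helper560.trivial_of_forall_fixed ρV hV hirr (commutator G) hfix
  -- hence `ρV` has commutative image
  have hcommV : ∀ g g' : G, ρV g * ρV g' = ρV g' * ρV g := by
    intro g g'
    have h1 : ⁅g, g'⁆ ∈ commutator G := by
      rw [commutator_def]
      exact Subgroup.commutator_mem_commutator (Subgroup.mem_top g) (Subgroup.mem_top g')
    have h3 : g * g' = ⁅g, g'⁆ * (g' * g) := by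
      rw [commutatorElement_def]
      group
    rw [← map_mul, ← map_mul, h3, map_mul, htriv _ h1, one_mul]
  refine Fermat.Agent.S41.helper560.false_of_comm_of_quad ρV hV h2 hirr hcommV c
    (by rw [← map_mul, hc, map_one]) ?_
  intro g
  obtain ⟨a, d, hrel, hcp⟩ := hquad g
  obtain ⟨a', d', hrel', hcp'⟩ := hquad (c * g)
  have hd : LinearMap.det (r g) = φ d := det_eq_of_charpoly_eq hU (r g) _ _ hcp
  have hd' : LinearMap.det (r (c * g)) = φ d' := det_eq_of_charpoly_eq hU (r (c * g)) _ _ hcp'
  have hdd : d' = -d := by
    apply φ.injective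
    rw [← hd', map_mul, map_mul, hdet, hd, map_neg]
    ring
  have hd0 : d ≠ 0 := by
    intro h0
    have h1 : LinearMap.det (r g) * LinearMap.det (r g⁻¹) = 1 := by
      rw [← map_mul, ← map_mul, mul_inv_cancel, map_one, map_one]
    rw [hd, h0, map_zero, zero_mul] at h1
    exact zero_ne_one h1
  refine ⟨a, a', d, hd0, hrel, ?_⟩
  rw [hdd, neg_smul, ← sub_eq_add_neg] at hrel'
  exact hrel'

end AbsIrr

end Fermat.Agent.S58.helper8215
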