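import Fermat.Agent.S58.helper8215_Involution
import Fermat.Agent.S58.helper8215_AbsIrr
import Fermat.Agent.Lib.helper5856_TorsionCard
import Fermat.Prelude.Def_GaloisRep_Residual
import Fermat.Prelude.Def_GaloisRep_Adic
import Fermat.Prelude.Def_GaloisRep_ComplexConjugation
import Fermat.Prelude.Def_FLTPrelim_ModularRep

/-!
# S58-HRES: the `hres` hypothesis of the frozen S36 from irreducibility of `E[p]` (helper8215)

`W` an integral Weierstrass model with `Δ ≠ 0`, `E = W_ℚ`, `p` an odd prime with `E[p]`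
irreducible (`W.ModRepIsIrreducible p`).  `r` a Prelude residual representation over a field `k`
of characteristic `p`, `ζ` a primitive `p`-th root of unity of `ℚ̄`.

`TransferAt W p r ζ σ` is the LEVEL-ONE TRANSFER at `σ`: there are `t : ℤ`, `d : ℕ` with
`σ² - t σ + d = 0` on `E[p]`, `σ ζ = ζ ^ d`, and `charpoly (r.ρ σ) = X² - t X + d`.
(For `r` the residual representation of a `λ`-adic representation whose Frobenius
characteristic polynomials are `X² - a_ℓ(W) X + ℓ` off a finite set, this is what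
generator-Chebotarev + the Frobenius Cayley–Hamilton relation on torsion give: `σ = Frob_ℓ ^ n`
on the level-one field, `t = V_n(a_ℓ, ℓ)`, `d = ℓ ^ n`.)

* `isOdd_of_transfer` : `r.IsOdd` (for EVERY involution `c ≠ 1`, via `involution_apply_root`);
* `isAbsolutelyIrreducible_of_transfer` : `r.IsAbsolutelyIrreducible` (via `irreducible_of_quad`
  with `c` = the Prelude complex conjugation);
* `hres_of_transfer` : both.

No Weil pairing, no Brauer–Nesbitt.
-/

set_option autoImplicit false

namespace Fermat.Agent.S58.helper8215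

open WeierstrassCurve WeierstrassCurve.Affine WeierstrassCurve.Affine.Point Polynomial
open scoped TensorProduct

local notation "Qb" => AlgebraicClosure ℚ
local notation "GQ" => (AlgebraicClosure ℚ ≃ₐ[ℚ] AlgebraicClosure ℚ)

/-- The Prelude complex conjugation is not the identity. -/
theorem complexConjugation_ne_one : complexConjugation ≠ 1 := by
  intro h
  obtain ⟨i, hi⟩ := IsAlgClosed.exists_pow_nat_eq (-1 : Qb) (n := 2) (by norm_num)
  have h1 := complexEmbedding_complexConjugation i
  rw [h] at h1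
  have h2 : (complexEmbedding i) ^ 2 = -1 := by rw [← map_pow, hi, map_neg, map_one]
  obtain ⟨x, hx⟩ := Complex.conj_eq_iff_real.mp h1.symm
  have hx' : complexEmbedding i = (x : ℂ) := hx
  rw [hx'] at h2
  have h3 : x ^ 2 = -1 := by exact_mod_cast h2
  nlinarith [sq_nonneg x]

section Transfer

variable (W : WeierstrassCurve ℤ) (p : ℕ)

/-- The `p`-torsion of `W_ℚ(ℚ̄)` (Prelude shape). -/
abbrev TorQ : Type := Submodule.torsionBy ℤ ((W.map (Int.castRingHom ℚ))⁄Qb).Point p

/-- The mod `p` representation on `TorQ W p` (Prelude shape). -/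
noncomputable abbrev rhoQ : GQ →* Module.End (ZMod p) (TorQ W p) :=
  galoisRepModuleEnd (S := ℚ) (K := AlgebraicClosure ℚ) (W.map (Int.castRingHom ℚ)) p

/-- **The level-one transfer at `σ`**: integers `t`, `d` such that `σ² - t σ + d = 0` on `E[p]`,
`σ ζ = ζ ^ d`, and `charpoly (r.ρ σ) = X² - t X + d`. -/
def TransferAt {k : Type} [Field k] (r : ResidualGaloisRep k) (ζ : Qb) (σ : GQ) : Prop :=
  ∃ (t : ℤ) (d : ℕ),
    rhoQ W p σ * rhoQ W p σ - (t : ZMod p) • rhoQ W p σ
        + (d : ZMod p) • (1 : Module.End (ZMod p) (TorQ W p)) = 0 ∧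
    σ ζ = ζ ^ d ∧
    LinearMap.charpoly (r.ρ σ) = X ^ 2 - C (t : k) * X + C (d : k)

variable {W p}

/-- `TransferAt` from the relation on points (the shape of `helper5765.frob_relation_*`). -/
theorem transferAt_of_points {k : Type} [Field k] (r : ResidualGaloisRep k) (ζ : Qb) (σ : GQ)
    (t : ℤ) (d : ℕ)
    (hrel : ∀ P : ((W.map (Int.castRingHom ℚ))⁄Qb).Point, p • P = 0 →
      σ • σ • P - t • σ • P + (d : ℤ) • P = 0)
    (hζ : σ ζ = ζ ^ d)
    (hcp : LinearMap.charpoly (r.ρ σ) = X ^ 2 - C (t : k) * X + C (d : k)) :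
    TransferAt W p r ζ σ := by
  refine ⟨t, d, ?_, hζ, hcp⟩
  apply LinearMap.ext
  intro P
  have hP : p • (P : ((W.map (Int.castRingHom ℚ))⁄Qb).Point) = 0 := by
    have h := (Submodule.mem_torsionBy_iff _ _).mp P.2
    rwa [natCast_zsmul] at h
  have key := hrel P.1 hP
  apply Subtype.ext
  simp only [LinearMap.add_apply, LinearMap.sub_apply, LinearMap.smul_apply, Module.End.mul_apply,
    Module.End.one_apply, galoisRepModuleEnd_apply, LinearMap.zero_apply]
  rw [Int.cast_smul_eq_zsmul, Nat.cast_smul_eq_nsmul]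
  rw [natCast_zsmul] at key
  exact key

variable [hpF : Fact p.Prime]

/-- **Oddness from the transfer.** -/
theorem isOdd_of_transfer (hp2 : p ≠ 2) {k : Type} [Field k] [CharP k p]
    (r : ResidualGaloisRep k) (ζ : Qb) (hζ : IsPrimitiveRoot ζ p)
    (htr : ∀ σ : GQ, TransferAt W p r ζ σ) : r.IsOdd := by
  intro c hc hc1
  obtain ⟨t, d, -, hcζ, hcp⟩ := htr c
  have hinv : c ζ = ζ⁻¹ := involution_apply_root c hc hc1 hpF.out hp2 ζ hζ.pow_eq_one
  have hζ0 : ζ ≠ 0 := hζ.ne_zero hpF.out.ne_zero
  have h1 : ζ ^ (d + 1) = 1 := by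
    rw [pow_succ, ← hcζ, hinv, inv_mul_cancel₀ hζ0]
  have hdvd : p ∣ d + 1 := (hζ.pow_eq_one_iff_dvd (d + 1)).mp h1
  have hd : ((d : ℕ) : k) = -1 := by
    have h3 : (((d + 1 : ℕ)) : k) = 0 := (CharP.cast_eq_zero_iff k p (d + 1)).mpr hdvd
    push_cast at h3
    linear_combination h3
  rw [det_eq_of_charpoly_eq r.finrank_eq (r.ρ c) _ _ hcp, hd]

/-- `E[p]` is a plane over `𝔽_p`. -/
theorem finrank_torQ (hΔ : W.Δ ≠ 0) : Module.finrank (ZMod p) (TorQ W p) = 2 := by
  have hE0 : (W.map (Int.castRingHom ℚ)).IsElliptic := by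
    refine ⟨?_⟩
    rw [WeierstrassCurve.map_Δ]
    apply IsUnit.mk0
    intro h0
    apply hΔ
    have h1 : ((W.Δ : ℤ) : ℚ) = 0 := h0
    exact_mod_cast h1
  have hE : ((W.map (Int.castRingHom ℚ))⁄Qb).IsElliptic :=
    inferInstanceAs ((W.map (Int.castRingHom ℚ)).map (algebraMap ℚ Qb)).IsElliptic
  have hcard : Nat.card (TorQ W p) = p ^ 2 :=
    Fermat.Agent.Lib.helper5856.card_torsionBy (W := (W.map (Int.castRingHom ℚ))⁄Qb) p
      (by exact_mod_cast hpF.out.ne_zero)
  have hfin : Finite (TorQ W p) :=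
    Nat.finite_of_card_ne_zero (by rw [hcard]; exact pow_ne_zero _ hpF.out.ne_zero)
  have h1 := Module.natCard_eq_pow_finrank (K := ZMod p) (V := TorQ W p)
  rw [hcard, Nat.card_zmod] at h1
  exact (Nat.pow_right_injective hpF.out.two_le h1).symm

/-- **Absolute irreducibility from the transfer.** -/
theorem isAbsolutelyIrreducible_of_transfer (hΔ : W.Δ ≠ 0) (hp2 : p ≠ 2)
    (hirr : W.ModRepIsIrreducible p) {k : Type} [Field k] [CharP k p]
    (r : ResidualGaloisRep k) (ζ : Qb) (hζ : IsPrimitiveRoot ζ p)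
    (htr : ∀ σ : GQ, TransferAt W p r ζ σ) : r.IsAbsolutelyIrreducible := by
  have hodd := isOdd_of_transfer hp2 r ζ hζ htr
  have h2 : (2 : ZMod p) ≠ 0 := by
    intro h
    have h1 : p ∣ 2 := (ZMod.natCast_eq_zero_iff 2 p).mp (by exact_mod_cast h)
    have h3 := Nat.le_of_dvd (by norm_num) h1
    have h4 := hpF.out.two_le
    omega
  let φ : ZMod p →+* AlgebraicClosure k :=
    (algebraMap k (AlgebraicClosure k)).comp (ZMod.castHom (dvd_refl p) k)
  have hφint : ∀ n : ℤ, φ (n : ZMod p) = algebraMap k (AlgebraicClosure k) (n : k) := by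
    intro n
    simp [φ]
  have hφnat : ∀ n : ℕ, φ (n : ZMod p) = algebraMap k (AlgebraicClosure k) (n : k) := by
    intro n
    simp [φ]
  show (r.baseChange (AlgebraicClosure k)).IsIrreducible
  refine irreducible_of_quad (finrank_torQ hΔ) h2 (rhoQ W p) (fun N hN => hirr.2 N hN)
    (r.baseChange (AlgebraicClosure k)).finrank_eq (r.baseChange (AlgebraicClosure k)).ρ φ ?_
    complexConjugation complexConjugation_mul_self ?_
  · intro g
    obtain ⟨t, d, hrel, -, hcp⟩ := htr g
    refine ⟨(t : ZMod p), (d : ZMod p), hrel, ?_⟩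
    show LinearMap.charpoly ((r.ρ g).baseChange (AlgebraicClosure k)) = _
    rw [LinearMap.charpoly_baseChange, hcp, hφint, hφnat]
    simp
  · show LinearMap.det ((r.ρ complexConjugation).baseChange (AlgebraicClosure k)) = -1
    rw [LinearMap.det_baseChange, hodd complexConjugation complexConjugation_mul_self
      complexConjugation_ne_one, map_neg, map_one]

/-- **S58-HRES.**  The conclusion of the `hres` hypothesis of the frozen S36, from the level-one
transfer. -/
theorem hres_of_transfer (hΔ : W.Δ ≠ 0) (hp2 : p ≠ 2)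
    (hirr : W.ModRepIsIrreducible p) {k : Type} [Field k] [CharP k p]
    (r : ResidualGaloisRep k) (ζ : Qb) (hζ : IsPrimitiveRoot ζ p)
    (htr : ∀ σ : GQ, TransferAt W p r ζ σ) :
    r.IsAbsolutelyIrreducible ∧ r.IsOdd :=
  ⟨isAbsolutelyIrreducible_of_transfer hΔ hp2 hirr r ζ hζ htr,
    isOdd_of_transfer hp2 r ζ hζ htr⟩

end Transfer

/-! ### The adic shape (the binder of `hres` in the frozen S36) -/

section Adic

variable {A : Type} [CommRing A] [IsLocalRing A]

/-- The residue field of a local ring whose maximal ideal contains the prime `p` has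
characteristic `p`. -/
theorem charP_residueField_of_mem {p : ℕ} (hp : p.Prime)
    (hpA : (p : A) ∈ IsLocalRing.maximalIdeal A) : CharP (IsLocalRing.ResidueField A) p := by
  rw [CharP.charP_iff_prime_eq_zero hp]
  have h1 : IsLocalRing.residue A (p : A) = 0 := (IsLocalRing.residue_eq_zero_iff _).mpr hpA
  rwa [map_natCast] at h1

/-- The characteristic polynomial of the residual representation is the reduction of the
characteristic polynomial. -/
theorem residual_charpoly (ρ : GaloisRepAdic A) (σ : GQ) :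
    LinearMap.charpoly (ρ.residual.ρ σ) =
      (LinearMap.charpoly (ρ.ρ σ)).map (algebraMap A (IsLocalRing.ResidueField A)) :=
  LinearMap.charpoly_baseChange (f := ρ.ρ σ) (IsLocalRing.ResidueField A)

/-- **S58-HRES, adic shape.**  `ρ` an adic representation over a local ring `A` whose maximal
ideal contains `p`; if the level-one transfer holds for the residual representation at every
`σ`, the residual representation is absolutely irreducible and odd. -/
theorem hres_adic {W : WeierstrassCurve ℤ} {p : ℕ} [hpF : Fact p.Prime] (hΔ : W.Δ ≠ 0)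
    (hp2 : p ≠ 2) (hirr : W.ModRepIsIrreducible p)
    (hpA : (p : A) ∈ IsLocalRing.maximalIdeal A) (ρ : GaloisRepAdic A)
    (ζ : Qb) (hζ : IsPrimitiveRoot ζ p)
    (htr : ∀ σ : GQ, TransferAt W p ρ.residual ζ σ) :
    ρ.residual.IsAbsolutelyIrreducible ∧ ρ.residual.IsOdd :=
  haveI := charP_residueField_of_mem hpF.out hpA
  hres_of_transfer hΔ hp2 hirr ρ.residual ζ hζ htr

end Adic

end Fermat.Agent.S58.helper8215
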