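/-
Frobenius Cayley–Hamilton for elliptic curves over finite fields, GENERAL Weierstrass form,
ALL characteristics (module FROB-GW of S58 route #1886): DEFINITIONS and basic API.

Model: `W : y² + a₁xy + a₃y = x³ + a₂x² + a₄x + a₆` over a (finite) field `F`, `k` a field
over `F`.  `FF W k` is the function field `k(t)[s]/(s² + (a₁t + a₃)s - (t³ + a₂t² + a₄t + a₆))`
of `W` over `k`; the generic point is `gen = (tt, ss) ∈ W(FF)`; `conj` is the hyperelliptic
involution `s ↦ -s - a₁t - a₃`; `Odd` is the subgroup of points `P` with `conj P = -P`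
(rational self-maps of the curve commuting with `-1`); for odd `P` the `x`-coordinate lies in
`k(t)` and `ht P` is its degree.  Everything happens inside Mathlib's group `W(FF)`.

This is the general-Weierstrass analogue of `Lib/helper8135_FrobDefs` (short form, char ≠ 2).
-/
import Mathlib

set_option autoImplicit false

namespace Fermat.Agent.S58.helper1490

open Polynomial WeierstrassCurve

noncomputable section

universe u v w

section field

variable {F : Type u} [Field F] (W : WeierstrassCurve F) (k : Type v) [Field k] [Algebra F k]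

/-- The polynomial `a₁ t + a₃`. -/
def cpol : k[X] := C (algebraMap F k W.a₁) * X + C (algebraMap F k W.a₃)

/-- The cubic `t³ + a₂ t² + a₄ t + a₆`. -/
def fpol : k[X] :=
  X ^ 3 + C (algebraMap F k W.a₂) * X ^ 2 + C (algebraMap F k W.a₄) * X + C (algebraMap F k W.a₆)

lemma fpol_natDegree : (fpol W k).natDegree = 3 := by
  unfold fpol
  compute_degree!

lemma fpol_monic : (fpol W k).Monic := by
  unfold fpol
  monicity!

lemma fpol_ne_zero : fpol W k ≠ 0 := (fpol_monic W k).ne_zero

lemma cpol_natDegree_le : (cpol W k).natDegree ≤ 1 := by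
  unfold cpol
  compute_degree

/-- `a₁ t + a₃` as a rational function. -/
def cK : RatFunc k := algebraMap k[X] (RatFunc k) (cpol W k)

/-- `t³ + a₂ t² + a₄ t + a₆` as a rational function. -/
def fK : RatFunc k := algebraMap k[X] (RatFunc k) (fpol W k)

lemma cK_eq : cK W k = RatFunc.C (algebraMap F k W.a₁) * RatFunc.X + RatFunc.C (algebraMap F k W.a₃) := by
  simp [cK, cpol, RatFunc.algebraMap_X, RatFunc.algebraMap_C]

lemma fK_eq : fK W k = RatFunc.X ^ 3 + RatFunc.C (algebraMap F k W.a₂) * RatFunc.X ^ 2
    + RatFunc.C (algebraMap F k W.a₄) * RatFunc.X + RatFunc.C (algebraMap F k W.a₆) := by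
  simp [fK, fpol, RatFunc.algebraMap_X, RatFunc.algebraMap_C]

/-- The Weierstrass polynomial `Y² + (a₁ t + a₃) Y - (t³ + a₂ t² + a₄ t + a₆)` over `k(t)`. -/
def quad : (RatFunc k)[X] := X ^ 2 + C (cK W k) * X - C (fK W k)

lemma quad_eq_map :
    quad W k = ((W.baseChange k).toAffine.polynomial).map (algebraMap k[X] (RatFunc k)) := by
  simp [quad, Affine.polynomial, cK, fK, cpol, fpol, WeierstrassCurve.baseChange,
    Polynomial.map_sub, Polynomial.map_add, Polynomial.map_mul, Polynomial.map_pow]

lemma quad_monic : (quad W k).Monic := by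
  unfold quad
  monicity!

lemma quad_natDegree : (quad W k).natDegree = 2 := by
  unfold quad
  compute_degree!

lemma quad_irreducible : Irreducible (quad W k) := by
  rw [quad_eq_map]
  exact (Polynomial.Monic.irreducible_iff_irreducible_map_fraction_map
    (Affine.monic_polynomial (W := (W.baseChange k).toAffine))).mp
    (Affine.irreducible_polynomial (W := (W.baseChange k).toAffine))

instance quad_fact : Fact (Irreducible (quad W k)) := ⟨quad_irreducible W k⟩

/-- The function field of `W` over `k`. -/
abbrev FF : Type v := AdjoinRoot (quad W k)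

instance : DecidableEq (FF W k) := Classical.decEq _

/-- The inclusion `k(t) → FF`. -/
abbrev ofK : RatFunc k →+* FF W k := AdjoinRoot.of (quad W k)

lemma ofK_injective : Function.Injective (ofK W k) := AdjoinRoot.coe_injective'

/-- The coordinate function `t` on the generic point. -/
def tt : FF W k := ofK W k RatFunc.X

/-- The coordinate function `s`. -/
def ss : FF W k := AdjoinRoot.root (quad W k)

lemma ss_sq : ss W k ^ 2 + ofK W k (cK W k) * ss W k = ofK W k (fK W k) := by
  have h2 : eval₂ (AdjoinRoot.of (quad W k)) (AdjoinRoot.root (quad W k))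
      (X ^ 2 + C (cK W k) * X - C (fK W k)) = 0 := AdjoinRoot.eval₂_root (quad W k)
  rw [eval₂_sub, eval₂_add, eval₂_mul, eval₂_pow, eval₂_X, eval₂_C, eval₂_C] at h2
  exact sub_eq_zero.mp h2

lemma algebraMap_F_FF (a : F) :
    algebraMap F (FF W k) a = ofK W k (RatFunc.C (algebraMap F k a)) := by
  rw [IsScalarTower.algebraMap_apply F (RatFunc k) (FF W k),
    IsScalarTower.algebraMap_apply F k (RatFunc k)]
  rfl

lemma algebraMap_k_FF (a : k) : algebraMap k (FF W k) a = ofK W k (RatFunc.C a) := by
  rw [IsScalarTower.algebraMap_apply k (RatFunc k) (FF W k)]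
  rfl

lemma ss_sq' : ss W k ^ 2 + algebraMap F (FF W k) W.a₁ * tt W k * ss W k
      + algebraMap F (FF W k) W.a₃ * ss W k
    = tt W k ^ 3 + algebraMap F (FF W k) W.a₂ * tt W k ^ 2 + algebraMap F (FF W k) W.a₄ * tt W k
      + algebraMap F (FF W k) W.a₆ := by
  have h := ss_sq W k
  rw [cK_eq, fK_eq] at h
  simp only [map_add, map_mul, map_pow] at h
  simp only [algebraMap_F_FF, tt]
  linear_combination h

/-- Every element of `FF` is `p + q s` with `p, q ∈ k(t)`. -/
lemma exists_repr (z : FF W k) : ∃ p q : RatFunc k, z = ofK W k p + ofK W k q * ss W k := by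
  obtain ⟨f, rfl⟩ := AdjoinRoot.mk_surjective z
  have hm : (quad W k).Monic := quad_monic W k
  have hdeg : (f %ₘ quad W k).degree < 2 := by
    have := degree_modByMonic_lt f hm
    have h2 : (quad W k).degree = 2 := by unfold quad; compute_degree!
    rwa [h2] at this
  have hf : AdjoinRoot.mk (quad W k) f = AdjoinRoot.mk (quad W k) (f %ₘ quad W k) := by
    conv_lhs => rw [← modByMonic_add_div f (quad W k)]
    rw [map_add, map_mul, AdjoinRoot.mk_self, zero_mul, add_zero]
  obtain ⟨a, b, hab⟩ := exists_eq_X_add_C_of_natDegree_le_one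
    (natDegree_le_of_degree_le (Order.lt_succ_iff.mp (by exact_mod_cast hdeg)) :
      (f %ₘ quad W k).natDegree ≤ 1)
  refine ⟨b, a, ?_⟩
  rw [hf, hab]
  simp only [map_add, map_mul, AdjoinRoot.mk_C, AdjoinRoot.mk_X]
  rw [add_comm]
  rfl

lemma conjK_aux : eval₂ (algebraMap (RatFunc k) (FF W k)) (- ss W k - ofK W k (cK W k))
    (quad W k) = 0 := by
  have h : eval₂ (algebraMap (RatFunc k) (FF W k)) (- ss W k - ofK W k (cK W k))
      (X ^ 2 + C (cK W k) * X - C (fK W k)) = 0 := by
    rw [eval₂_sub, eval₂_add, eval₂_mul, eval₂_pow, eval₂_X, eval₂_C, eval₂_C]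
    have h := ss_sq W k
    change (- ss W k - ofK W k (cK W k)) ^ 2
      + ofK W k (cK W k) * (- ss W k - ofK W k (cK W k)) - ofK W k (fK W k) = 0
    linear_combination h
  exact h

/-- The hyperelliptic involution `s ↦ -s - (a₁ t + a₃)` of `FF` over `k(t)`. -/
def conjK : FF W k →ₐ[RatFunc k] FF W k :=
  AdjoinRoot.liftAlgHom (quad W k) (Algebra.ofId (RatFunc k) (FF W k))
    (- ss W k - ofK W k (cK W k)) (conjK_aux W k)

@[simp] lemma conjK_ss : conjK W k (ss W k) = - ss W k - ofK W k (cK W k) :=
  AdjoinRoot.liftAlgHom_root _ _ _ _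

@[simp] lemma conjK_ofK (p : RatFunc k) : conjK W k (ofK W k p) = ofK W k p :=
  AdjoinRoot.liftAlgHom_of _ _ _ _ p

/-- The hyperelliptic involution of `FF`, as an `F`-algebra map. -/
def conj : FF W k →ₐ[F] FF W k := (conjK W k).restrictScalars F

@[simp] lemma conj_ss : conj W k (ss W k) = - ss W k - ofK W k (cK W k) := conjK_ss W k

@[simp] lemma conj_ofK (p : RatFunc k) : conj W k (ofK W k p) = ofK W k p := conjK_ofK W k p

@[simp] lemma conj_tt : conj W k (tt W k) = tt W k := conjK_ofK W k _

lemma conj_conj (z : FF W k) : conj W k (conj W k z) = z := by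
  obtain ⟨p, q, rfl⟩ := exists_repr W k z
  simp only [map_add, map_mul, map_sub, map_neg, conj_ofK, conj_ss]
  ring

/-- The polynomial `4 t³ + b₂ t² + 2 b₄ t + b₆ = 4 f + c²` (the `2`-division polynomial). -/
def dpol : k[X] := 4 * fpol W k + cpol W k ^ 2

lemma dpol_eq : dpol W k = C 4 * X ^ 3 + C (algebraMap F k W.b₂) * X ^ 2
    + C (2 * algebraMap F k W.b₄) * X + C (algebraMap F k W.b₆) := by
  simp only [dpol, fpol, cpol, WeierstrassCurve.b₂, WeierstrassCurve.b₄, WeierstrassCurve.b₆,
    map_add, map_mul, map_pow, map_ofNat]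
  ring

lemma dpol_ne_zero (hΔ : W.Δ ≠ 0) : dpol W k ≠ 0 := by
  intro h
  rw [dpol_eq] at h
  have h3 : (4 : k) = 0 := by
    have := congrArg (fun p : k[X] => p.coeff 3) h
    simpa [coeff_X_pow, coeff_X, coeff_C] using this
  have h2 : algebraMap F k W.b₂ = 0 := by
    have := congrArg (fun p : k[X] => p.coeff 2) h
    simpa [coeff_X_pow, coeff_X, coeff_C] using this
  have h1 : 2 * algebraMap F k W.b₄ = 0 := by
    have := congrArg (fun p : k[X] => p.coeff 1) h
    simpa [coeff_X_pow, coeff_X, coeff_C] using this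
  have h0 : algebraMap F k W.b₆ = 0 := by
    have := congrArg (fun p : k[X] => p.coeff 0) h
    simpa [coeff_X_pow, coeff_X, coeff_C] using this
  apply hΔ
  apply (algebraMap F k).injective
  rw [map_zero, WeierstrassCurve.Δ]
  simp only [map_add, map_sub, map_mul, map_neg, map_pow, map_ofNat]
  rw [h2, h0]
  linear_combination (-(algebraMap F k W.b₄) ^ 2 * 4) * h1

/-- The element `2 s + a₁ t + a₃` of `FF` (the `y`-derivative of the Weierstrass equation). -/
def eta : FF W k := 2 * ss W k + ofK W k (cK W k)

lemma eta_sq : eta W k ^ 2 = ofK W k (algebraMap k[X] (RatFunc k) (dpol W k)) := by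
  have h := ss_sq W k
  simp only [eta, dpol, map_add, map_mul, map_pow, map_ofNat]
  change _ = 4 * ofK W k (fK W k) + ofK W k (cK W k) ^ 2
  linear_combination 4 * h

lemma eta_ne_zero (hΔ : W.Δ ≠ 0) : eta W k ≠ 0 := by
  intro h
  have h2 := eta_sq W k
  rw [h, zero_pow two_ne_zero] at h2
  have h3 : algebraMap k[X] (RatFunc k) (dpol W k) = 0 :=
    (map_eq_zero_iff _ (ofK_injective W k)).mp h2.symm
  exact dpol_ne_zero W k hΔ ((map_eq_zero_iff _ (IsFractionRing.injective k[X] (RatFunc k))).mp h3)

/-- Elements fixed by the hyperelliptic involution lie in `k(t)` (all characteristics). -/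
lemma exists_ofK_of_conj_eq (hΔ : W.Δ ≠ 0) {z : FF W k} (hz : conj W k z = z) :
    ∃ p : RatFunc k, ofK W k p = z := by
  obtain ⟨p, q, rfl⟩ := exists_repr W k z
  refine ⟨p, ?_⟩
  simp only [map_add, map_mul, conj_ofK, conj_ss] at hz
  have hq : ofK W k q * eta W k = 0 := by
    rw [eta]
    linear_combination -hz
  rcases mul_eq_zero.mp hq with hq | hq
  · rw [hq, zero_mul, add_zero]
  · exact absurd hq (eta_ne_zero W k hΔ)

end field

section points

open WeierstrassCurve.Affine

variable {F : Type u} [Field F] (W : WeierstrassCurve F) (k : Type v) [Field k] [Algebra F k]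

/-- Base change of an elliptic curve to a field is elliptic. -/
lemma isElliptic_baseChange' [W.IsElliptic] (A : Type w) [Field A] [Algebra F A] :
    (W⁄A).IsElliptic :=
  inferInstanceAs (W.map (algebraMap F A)).IsElliptic

lemma gen_equation : (W⁄(FF W k)).Equation (tt W k) (ss W k) := by
  rw [Affine.equation_iff]
  simp only [WeierstrassCurve.baseChange, WeierstrassCurve.map_a₁, WeierstrassCurve.map_a₂,
    WeierstrassCurve.map_a₃, WeierstrassCurve.map_a₄, WeierstrassCurve.map_a₆]
  linear_combination ss_sq' W k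

/-- The generic point `(t, s)`. -/
def gen [W.IsElliptic] : (W⁄(FF W k)).Point :=
  haveI := isElliptic_baseChange' W (FF W k)
  Point.some _ _ (equation_iff_nonsingular.mp (gen_equation W k))

variable {W} in
/-- The `x`-coordinate of a point (`0` for the point at infinity). -/
def xL {M : Type w} [Field M] [Algebra F M] : (W⁄M).Point → M
  | .zero => 0
  | .some x _ _ => x

variable {W} in
/-- The `y`-coordinate of a point (`0` for the point at infinity). -/
def yL {M : Type w} [Field M] [Algebra F M] : (W⁄M).Point → M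
  | .zero => 0
  | .some _ y _ => y

/-- The hyperelliptic involution acting on points over the function field. -/
def iota : (W⁄(FF W k)).Point →+ (W⁄(FF W k)).Point := Point.map (W' := W) (conj W k)

/-- The "odd" points: `ι P = -P`, i.e. the rational self-maps of the curve commuting with `-1`.
A subgroup of `W(FF)`, containing the generic point and stable under Frobenius. -/
def Odd : AddSubgroup (W⁄(FF W k)).Point := (iota W k + AddMonoidHom.id _).ker

lemma mem_Odd {P : (W⁄(FF W k)).Point} : P ∈ Odd W k ↔ iota W k P = -P := by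
  simp [Odd, AddMonoidHom.mem_ker, add_eq_zero_iff_eq_neg]

open scoped Classical in
/-- The `k(t)`-part of an element of `k(t) ⊆ FF` (junk `0` outside `k(t)`). -/
def reK (z : FF W k) : RatFunc k :=
  if h : ∃ r, ofK W k r = z then h.choose else 0

@[simp] lemma reK_ofK (r : RatFunc k) : reK W k (ofK W k r) = r := by
  have h : ∃ r', ofK W k r' = ofK W k r := ⟨r, rfl⟩
  rw [reK, dif_pos h]
  exact ofK_injective W k h.choose_spec

/-- The `x`-coordinate of an odd point, as an element of `k(t)` (junk `0` if not in `k(t)`). -/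
def xK (P : (W⁄(FF W k)).Point) : RatFunc k := reK W k (xL P)

lemma xK_eq {P : (W⁄(FF W k)).Point} {r : RatFunc k} (h : ofK W k r = xL P) : xK W k P = r := by
  rw [xK, ← h, reK_ofK]

variable {k} in
/-- The degree of a rational function: `max (deg num) (deg denom)`. -/
def rdeg (r : RatFunc k) : ℕ := max r.num.natDegree r.denom.natDegree

/-- The height of a point over the function field: the degree of its `x`-coordinate. -/
def ht (P : (W⁄(FF W k)).Point) : ℕ := rdeg (xK W k P)

/-- The `q`-power Frobenius on points over any extension `M` of the finite field `F`. -/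
def phi [Fintype F] (M : Type w) [Field M] [Algebra F M] [DecidableEq M] :
    (W⁄M).Point →+ (W⁄M).Point :=
  Point.map (W' := W) (FiniteField.frobeniusAlgHom F M)

/-- The trace of Frobenius `q + 1 - #W(F)`. -/
def trF [Fintype F] : ℤ := (Fintype.card F : ℤ) + 1 - (Nat.card W.toAffine.Point : ℤ)

/-- `Ψ = φ² - a φ + q` on points over `M`. -/
def Psi [Fintype F] (M : Type w) [Field M] [Algebra F M] [DecidableEq M] (P : (W⁄M).Point) :
    (W⁄M).Point :=
  phi W M (phi W M P) - trF W • phi W M P + (Fintype.card F : ℤ) • P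

end points

end

end Fermat.Agent.S58.helper1490
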