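/-
Frobenius Cayley–Hamilton, general Weierstrass form, all characteristics (FROB-GW):
basic API on top of `helper1490_FrobDefs` (structure of odd points, heights of special points,
Frobenius on coordinates, substitution homomorphisms).
-/
import Fermat.Agent.S58.helper1490_FrobDefs
import Fermat.Agent.S52.helper5875_RatFuncHeight

set_option autoImplicit false

namespace Fermat.Agent.S58.helper1490

open Polynomial WeierstrassCurve WeierstrassCurve.Affine

noncomputable section

universe u v w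

section rdeg

variable {k : Type v} [Field k]

lemma rdeg_eq_ht (r : RatFunc k) : rdeg r = Fermat.Agent.S52.helper5875.ht r := rfl

lemma rdeg_zero : rdeg (0 : RatFunc k) = 0 := by
  simp [rdeg]

lemma rdeg_C (c : k) : rdeg (RatFunc.C c) = 0 := by
  simp [rdeg]

lemma rdeg_X : rdeg (RatFunc.X : RatFunc k) = 1 := by
  simp [rdeg]

lemma rdeg_eq_zero_iff (r : RatFunc k) : rdeg r = 0 ↔ ∃ c, r = RatFunc.C c :=
  Fermat.Agent.S52.helper5875.ht_eq_zero_iff

lemma rdeg_pow (r : RatFunc k) (n : ℕ) : rdeg (r ^ n) = n * rdeg r :=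
  Fermat.Agent.S52.helper5875.ht_pow r n

end rdeg

section odd

variable {F : Type u} [Field F] (W : WeierstrassCurve F) (k : Type v) [Field k] [Algebra F k]

@[simp] lemma xL_zero {M : Type w} [Field M] [Algebra F M] : xL (0 : (W⁄M).Point) = 0 := rfl

@[simp] lemma xL_some {M : Type w} [Field M] [Algebra F M] {x y : M}
    (h : (W⁄M).Nonsingular x y) : xL (Point.some x y h : (W⁄M).Point) = x := rfl

@[simp] lemma yL_zero {M : Type w} [Field M] [Algebra F M] : yL (0 : (W⁄M).Point) = 0 := rfl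

@[simp] lemma yL_some {M : Type w} [Field M] [Algebra F M] {x y : M}
    (h : (W⁄M).Nonsingular x y) : yL (Point.some x y h : (W⁄M).Point) = y := rfl

lemma negY_eq' {M : Type w} [Field M] [Algebra F M] (x y : M) :
    (W⁄M).negY x y = -y - algebraMap F M W.a₁ * x - algebraMap F M W.a₃ := by
  simp [Affine.negY, WeierstrassCurve.baseChange]

lemma xL_neg {M : Type w} [Field M] [Algebra F M] [DecidableEq M] (P : (W⁄M).Point) :
    xL (-P) = xL P := by
  rcases P with _ | ⟨x, y, h⟩
  · rfl
  · rw [Point.neg_some]; rfl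

lemma xK_zero : xK W k 0 = 0 := xK_eq W k (by simp)

lemma ht_zero : ht W k 0 = 0 := by rw [ht, xK_zero, rdeg_zero]

lemma xK_neg (P : (W⁄(FF W k)).Point) : xK W k (-P) = xK W k P := by
  rw [xK, xK, xL_neg]

lemma ht_neg (P : (W⁄(FF W k)).Point) : ht W k (-P) = ht W k P := by
  rw [ht, xK_neg, ht]

lemma xK_some_ofK (r : RatFunc k) {y : FF W k}
    (h : (W⁄(FF W k)).Nonsingular (ofK W k r) y) :
    xK W k (Point.some (ofK W k r) y h) = r := xK_eq W k rfl

lemma ofK_cK : ofK W k (cK W k)
    = algebraMap F (FF W k) W.a₁ * tt W k + algebraMap F (FF W k) W.a₃ := by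
  rw [cK_eq, algebraMap_F_FF, algebraMap_F_FF, tt]
  simp only [map_add, map_mul]

lemma iota_some {x y : FF W k} (h : (W⁄(FF W k)).Nonsingular x y) :
    ∃ h', iota W k (Point.some x y h) = Point.some (conj W k x) (conj W k y) h' :=
  ⟨_, Point.map_some (W' := W) (conj W k) h⟩

lemma some_mem_Odd_iff {x y : FF W k} (h : (W⁄(FF W k)).Nonsingular x y) :
    (Point.some x y h : (W⁄(FF W k)).Point) ∈ Odd W k ↔
      conj W k x = x ∧ conj W k y = (W⁄(FF W k)).negY x y := by
  obtain ⟨h1, e1⟩ := iota_some W k h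
  rw [mem_Odd, e1, Point.neg_some]
  simp

lemma zero_mem_Odd : (0 : (W⁄(FF W k)).Point) ∈ Odd W k := (Odd W k).zero_mem

/-- Structure of odd points: the `x`-coordinate lies in `k(t)` (all characteristics). -/
lemma Odd_cases (hΔ : W.Δ ≠ 0) {P : (W⁄(FF W k)).Point} (hP : P ∈ Odd W k) :
    P = 0 ∨ ∃ (r : RatFunc k) (y : FF W k) (h : (W⁄(FF W k)).Nonsingular (ofK W k r) y),
      P = Point.some (ofK W k r) y h := by
  rcases P with _ | ⟨x, y, h⟩
  · exact Or.inl rfl
  · right
    obtain ⟨hx, -⟩ := (some_mem_Odd_iff W k h).mp hP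
    obtain ⟨r, rfl⟩ := exists_ofK_of_conj_eq W k hΔ hx
    exact ⟨r, y, h, rfl⟩

variable [W.IsElliptic]

lemma gen_mem_Odd : gen W k ∈ Odd W k := by
  unfold gen
  rw [some_mem_Odd_iff, negY_eq']
  refine ⟨conj_tt W k, ?_⟩
  rw [conj_ss, ofK_cK]
  ring

lemma xK_gen : xK W k (gen W k) = RatFunc.X := xK_eq W k rfl

lemma ht_gen : ht W k (gen W k) = 1 := by
  rw [ht, xK_gen, rdeg_X]

end odd

section frob

variable {F : Type u} [Field F] [Fintype F] (W : WeierstrassCurve F) (k : Type v) [Field k]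
  [Algebra F k]

lemma phi_zero (M : Type w) [Field M] [Algebra F M] [DecidableEq M] : phi W M 0 = 0 :=
  map_zero _

lemma phi_some (M : Type w) [Field M] [Algebra F M] [DecidableEq M] {x y : M}
    (h : (W⁄M).Nonsingular x y) :
    ∃ h', phi W M (Point.some x y h) =
      Point.some (x ^ Fintype.card F) (y ^ Fintype.card F) h' := by
  have := Point.map_some (W' := W) (FiniteField.frobeniusAlgHom F M) h
  simp only [FiniteField.frobeniusAlgHom_apply] at this
  exact ⟨_, this⟩

/-- Frobenius commutes with every `F`-algebra map. -/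
lemma phi_map {M : Type v} {N : Type w} [Field M] [Algebra F M] [DecidableEq M] [Field N]
    [Algebra F N] [DecidableEq N] (f : M →ₐ[F] N) (P : (W⁄M).Point) :
    Point.map (W' := W) f (phi W M P) = phi W N (Point.map (W' := W) f P) := by
  have hcomm : f.comp (FiniteField.frobeniusAlgHom F M)
      = (FiniteField.frobeniusAlgHom F N).comp f := by
    ext x
    simp only [AlgHom.comp_apply, FiniteField.frobeniusAlgHom_apply, map_pow]
  unfold phi
  rw [Point.map_map, Point.map_map, hcomm]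

lemma phi_mem_Odd {P : (W⁄(FF W k)).Point} (hP : P ∈ Odd W k) :
    phi W (FF W k) P ∈ Odd W k := by
  rw [mem_Odd] at hP ⊢
  unfold iota at hP ⊢
  rw [phi_map, hP, map_neg]

lemma xK_phi (hΔ : W.Δ ≠ 0) {P : (W⁄(FF W k)).Point} (hP : P ∈ Odd W k) :
    xK W k (phi W (FF W k) P) = xK W k P ^ Fintype.card F := by
  rcases Odd_cases W k hΔ hP with rfl | ⟨r, y, h, rfl⟩
  · rw [phi_zero, xK_zero, zero_pow Fintype.card_ne_zero]
  · obtain ⟨h', e⟩ := phi_some W (FF W k) h
    rw [e, xK_some_ofK]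
    apply xK_eq
    rw [map_pow]
    rfl

lemma ht_phi (hΔ : W.Δ ≠ 0) {P : (W⁄(FF W k)).Point} (hP : P ∈ Odd W k) :
    ht W k (phi W (FF W k) P) = Fintype.card F * ht W k P := by
  rw [ht, xK_phi W k hΔ hP, rdeg_pow, ht]

end frob

section subst

open Fermat.Agent.S52.helper5875 (substHom substHom_X substHom_C ht_substHom)

variable {F : Type u} [Field F] (W : WeierstrassCurve F) (k : Type v) [Field k] [Algebra F k]

variable {k} in
/-- The base map `k(t) → FF`, `p ↦ p ∘ r`, of a substitution. -/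
def subK (r : RatFunc k) (hr : ¬ ∃ c, r = RatFunc.C c) : RatFunc k →ₐ[k] FF W k :=
  (IsScalarTower.toAlgHom k (RatFunc k) (FF W k)).comp (substHom r hr)

variable {k} in
lemma subK_apply (r : RatFunc k) (hr : ¬ ∃ c, r = RatFunc.C c) (p : RatFunc k) :
    subK W r hr p = ofK W k (substHom r hr p) := rfl

variable {k} in
lemma subK_cK (r : RatFunc k) (hr : ¬ ∃ c, r = RatFunc.C c) :
    subK W r hr (cK W k) = algebraMap F (FF W k) W.a₁ * ofK W k r + algebraMap F (FF W k) W.a₃ := by
  rw [subK_apply, cK_eq, algebraMap_F_FF, algebraMap_F_FF]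
  simp only [map_add, map_mul, substHom_X, substHom_C]

variable {k} in
lemma subK_fK (r : RatFunc k) (hr : ¬ ∃ c, r = RatFunc.C c) :
    subK W r hr (fK W k) = ofK W k r ^ 3 + algebraMap F (FF W k) W.a₂ * ofK W k r ^ 2
      + algebraMap F (FF W k) W.a₄ * ofK W k r + algebraMap F (FF W k) W.a₆ := by
  rw [subK_apply, fK_eq, algebraMap_F_FF, algebraMap_F_FF, algebraMap_F_FF]
  simp only [map_add, map_mul, map_pow, substHom_X, substHom_C]

variable {k} in
lemma sub_aux (r : RatFunc k) (hr : ¬ ∃ c, r = RatFunc.C c) (y : FF W k)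
    (h : (W⁄(FF W k)).Equation (ofK W k r) y) :
    eval₂ (subK W r hr : RatFunc k →+* FF W k) y (quad W k) = 0 := by
  have h' := (Affine.equation_iff _ _).mp h
  simp only [WeierstrassCurve.baseChange, WeierstrassCurve.map_a₁, WeierstrassCurve.map_a₂,
    WeierstrassCurve.map_a₃, WeierstrassCurve.map_a₄, WeierstrassCurve.map_a₆] at h'
  have e : eval₂ (subK W r hr : RatFunc k →+* FF W k) y (X ^ 2 + C (cK W k) * X - C (fK W k))
      = 0 := by
    rw [eval₂_sub, eval₂_add, eval₂_mul, eval₂_pow, eval₂_X, eval₂_C, eval₂_C]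
    change y ^ 2 + subK W r hr (cK W k) * y - subK W r hr (fK W k) = 0
    rw [subK_cK, subK_fK]
    linear_combination h'
  exact e

variable {k} in
/-- The substitution `t ↦ r, s ↦ y` of `FF`, for a solution `(r, y)` of the Weierstrass equation
with non-constant `r ∈ k(t)`: the pull-back of functions along the rational self-map
`(t, s) ↦ (r, y)` of the curve. -/
def sub (r : RatFunc k) (hr : ¬ ∃ c, r = RatFunc.C c) (y : FF W k)
    (h : (W⁄(FF W k)).Equation (ofK W k r) y) : FF W k →ₐ[F] FF W k :=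
  (AdjoinRoot.liftAlgHom (quad W k) (subK W r hr) y (sub_aux W r hr y h)).restrictScalars F

variable {k}

variable (r : RatFunc k) (hr : ¬ ∃ c, r = RatFunc.C c) (y : FF W k)
    (h : (W⁄(FF W k)).Equation (ofK W k r) y)

@[simp] lemma sub_ofK (p : RatFunc k) :
    sub W r hr y h (ofK W k p) = ofK W k (substHom r hr p) := by
  unfold sub
  rw [AlgHom.restrictScalars_apply, AdjoinRoot.liftAlgHom_of]
  rfl

@[simp] lemma sub_ss : sub W r hr y h (ss W k) = y := by
  unfold sub
  rw [AlgHom.restrictScalars_apply]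
  exact AdjoinRoot.liftAlgHom_root _ _ _ _

@[simp] lemma sub_tt : sub W r hr y h (tt W k) = ofK W k r := by
  rw [tt, sub_ofK, substHom_X]

lemma sub_ofK_cK : sub W r hr y h (ofK W k (cK W k))
    = algebraMap F (FF W k) W.a₁ * ofK W k r + algebraMap F (FF W k) W.a₃ := by
  rw [sub_ofK, ← subK_apply, subK_cK]

/-- The substitution commutes with the hyperelliptic involution when `(r, y)` is odd. -/
lemma conj_sub (hy : conj W k y = (W⁄(FF W k)).negY (ofK W k r) y) (z : FF W k) :
    conj W k (sub W r hr y h z) = sub W r hr y h (conj W k z) := by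
  obtain ⟨p, q, rfl⟩ := exists_repr W k z
  simp only [map_add, map_mul, map_sub, map_neg, conj_ofK, conj_ss, sub_ofK, sub_ss, hy]
  rw [← sub_ofK W r hr y h (cK W k), sub_ofK_cK, negY_eq']
  ring

lemma conj_comp_sub (hy : conj W k y = (W⁄(FF W k)).negY (ofK W k r) y) :
    (conj W k).comp (sub W r hr y h) = (sub W r hr y h).comp (conj W k) :=
  AlgHom.ext fun z => conj_sub W r hr y h hy z

/-- The substitution, on points. -/
def subPt : (W⁄(FF W k)).Point →+ (W⁄(FF W k)).Point := Point.map (W' := W) (sub W r hr y h)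

lemma subPt_gen [W.IsElliptic] (hns : (W⁄(FF W k)).Nonsingular (ofK W k r) y) :
    subPt W r hr y h (gen W k) = Point.some (ofK W k r) y hns := by
  unfold subPt gen
  rw [Point.map_some]
  simp

lemma subPt_mem_Odd (hy : conj W k y = (W⁄(FF W k)).negY (ofK W k r) y)
    {P : (W⁄(FF W k)).Point} (hP : P ∈ Odd W k) : subPt W r hr y h P ∈ Odd W k := by
  rw [mem_Odd] at hP ⊢
  unfold iota at hP ⊢
  unfold subPt
  rw [Point.map_map, conj_comp_sub W r hr y h hy, ← Point.map_map, hP, map_neg]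

lemma xK_subPt (hΔ : W.Δ ≠ 0) {P : (W⁄(FF W k)).Point} (hP : P ∈ Odd W k) :
    xK W k (subPt W r hr y h P) = substHom r hr (xK W k P) := by
  rcases Odd_cases W k hΔ hP with rfl | ⟨p, y', h', rfl⟩
  · rw [map_zero, xK_zero, map_zero]
  · rw [xK_some_ofK]
    apply xK_eq
    unfold subPt
    rw [Point.map_some, xL_some, sub_ofK]

lemma ht_subPt (hΔ : W.Δ ≠ 0) {P : (W⁄(FF W k)).Point} (hP : P ∈ Odd W k) :
    ht W k (subPt W r hr y h P) = ht W k P * rdeg r := by
  rw [ht, xK_subPt W r hr y h hΔ hP, rdeg_eq_ht, ht_substHom]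
  rfl

lemma subPt_phi [Fintype F] (P : (W⁄(FF W k)).Point) :
    subPt W r hr y h (phi W (FF W k) P) = phi W (FF W k) (subPt W r hr y h P) :=
  phi_map W (sub W r hr y h) P

variable (k) in
/-- **Substitution principle.**  Every odd point `Q` of positive height is the image of the
generic point under an additive self-map `R` of `W(FF)` which preserves odd points, multiplies
heights by `ht Q`, and commutes with Frobenius. -/
theorem exists_subst [Fintype F] [W.IsElliptic] (hΔ : W.Δ ≠ 0) {Q : (W⁄(FF W k)).Point}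
    (hQ : Q ∈ Odd W k) (hht : ht W k Q ≠ 0) :
    ∃ R : (W⁄(FF W k)).Point →+ (W⁄(FF W k)).Point, R (gen W k) = Q ∧
      (∀ P ∈ Odd W k, R P ∈ Odd W k) ∧
      (∀ P ∈ Odd W k, ht W k (R P) = ht W k Q * ht W k P) ∧
      (∀ P, R (phi W (FF W k) P) = phi W (FF W k) (R P)) := by
  rcases Odd_cases W k hΔ hQ with rfl | ⟨r, y, hns, rfl⟩
  · exact absurd (ht_zero W k) hht
  have hr : ¬ ∃ c, r = RatFunc.C c := by
    rw [← rdeg_eq_zero_iff]
    rwa [ht, xK_some_ofK] at hht
  have hy := ((some_mem_Odd_iff W k hns).mp hQ).2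
  refine ⟨subPt W r hr y hns.1, subPt_gen W r hr y hns.1 hns,
    fun P hP => subPt_mem_Odd W r hr y hns.1 hy hP, fun P hP => ?_,
    fun P => subPt_phi W r hr y hns.1 P⟩
  have hQr : ht W k (Point.some (ofK W k r) y hns) = rdeg r := by rw [ht, xK_some_ofK]
  rw [ht_subPt W r hr y hns.1 hΔ hP, hQr, mul_comm]

end subst

end

end Fermat.Agent.S58.helper1490
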