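/-
Frobenius Cayley–Hamilton for a GENERAL Weierstrass curve over ANY finite field, in ALL
characteristics (FROB-GW = board #797 of S58; also serves S52-L1 at `ℓ = 2, 3`).

Assembly on the model of `helper1490_FrobDefs` (function field `FF W k`, odd points, heights):

* `ht_parallelogram` : the parallelogram law for heights on odd points
  (from `Lib/helper8821_HeightPar` + `Lib/helper853_TorsionLadder.addSubRel`);
* `ht_count_of_poly` : Manin's count `ht (φ G - G) = #W(F)` from a polynomial count statement;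
* `ht_Psi_gen` : `ht (φ² G - a φ G + q G) = 0` (quadratic-form algebra, `S52/helper1617`);
* `frob_relation_of_count` : the relation at every point over every field
  (generic-point principle, `S52/helper1104`).
-/
import Fermat.Agent.S58.helper1490_FrobBasic
import Fermat.Agent.Lib.helper8821_HeightPar
import Fermat.Agent.S52.helper1617_QuadForm
import Fermat.Agent.S52.helper1104_GenericPoint
import Fermat.Prelude.Def_FLTPrelim_Modularity
import Fermat.Agent.Lib.helper1844_FrobGenSpec
import Fermat.Agent.Lib.helper1346_FrobGenCount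

set_option autoImplicit false

namespace Fermat.Agent.S58.helper1490

open Polynomial WeierstrassCurve WeierstrassCurve.Affine

noncomputable section

universe u v w

/-! ### The parallelogram law on odd points -/

section par

open Fermat.Agent.Lib.helper853 (px pz symS symT symU addSubRel px_zero pz_zero px_some pz_some)
open Fermat.Agent.Lib.helper8821 (pht pht_one_right pht_zero_right parallelogram_ratFunc)

variable {F : Type u} [Field F] (W : WeierstrassCurve F) (k : Type v) [Field k] [Algebra F k]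

lemma algebraMap_RatFunc_FF (r : RatFunc k) : algebraMap (RatFunc k) (FF W k) r = ofK W k r := rfl

/-- Projective coordinates in `k(t)` of an odd point. -/
lemma exists_proj (hΔ : W.Δ ≠ 0) {P : (W⁄(FF W k)).Point} (hP : P ∈ Odd W k) :
    ∃ X Z : RatFunc k, (Z = 1 ∨ (X = 1 ∧ Z = 0)) ∧
      px P = algebraMap (RatFunc k) (FF W k) X ∧
      pz P = algebraMap (RatFunc k) (FF W k) Z ∧ ht W k P = pht X Z := by
  rcases Odd_cases W k hΔ hP with rfl | ⟨r, y, h, rfl⟩
  · refine ⟨1, 0, Or.inr ⟨rfl, rfl⟩, ?_, ?_, ?_⟩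
    · rw [px_zero, map_one]
    · rw [pz_zero, map_zero]
    · rw [ht_zero, pht_zero_right]
  · refine ⟨r, 1, Or.inl rfl, ?_, ?_, ?_⟩
    · rw [px_some]; rfl
    · rw [pz_some, map_one]
    · rw [ht, xK_some_ofK, pht_one_right]; rfl

/-- **Parallelogram law** for the height on odd points (general Weierstrass equation, every
characteristic, all degenerate cases). -/
theorem ht_parallelogram [W.IsElliptic] {P Q : (W⁄(FF W k)).Point}
    (hP : P ∈ Odd W k) (hQ : Q ∈ Odd W k) :
    ht W k (P + Q) + ht W k (P - Q) = 2 * ht W k P + 2 * ht W k Q := by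
  have hΔ : W.Δ ≠ 0 := W.isUnit_Δ.ne_zero
  obtain ⟨X₁, Z₁, s₁, x₁, z₁, e₁⟩ := exists_proj W k hΔ hP
  obtain ⟨X₂, Z₂, s₂, x₂, z₂, e₂⟩ := exists_proj W k hΔ hQ
  obtain ⟨X₃, Z₃, s₃, x₃, z₃, e₃⟩ := exists_proj W k hΔ ((Odd W k).add_mem hP hQ)
  obtain ⟨X₄, Z₄, s₄, x₄, z₄, e₄⟩ := exists_proj W k hΔ ((Odd W k).sub_mem hP hQ)
  obtain ⟨c, -, r1, r2, r3⟩ := addSubRel (W⁄(FF W k)) P Q
  have hb : ∀ b : F, algebraMap F (FF W k) b
      = algebraMap (RatFunc k) (FF W k) (RatFunc.C (algebraMap F k b)) :=
    fun b => algebraMap_F_FF W k b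
  have b2 : (W⁄(FF W k)).b₂ = algebraMap (RatFunc k) (FF W k) (RatFunc.C (W.baseChange k).b₂) := by
    rw [show (W.baseChange k).b₂ = algebraMap F k W.b₂ from WeierstrassCurve.map_b₂ W _, ← hb]
    exact WeierstrassCurve.map_b₂ W _
  have b4 : (W⁄(FF W k)).b₄ = algebraMap (RatFunc k) (FF W k) (RatFunc.C (W.baseChange k).b₄) := by
    rw [show (W.baseChange k).b₄ = algebraMap F k W.b₄ from WeierstrassCurve.map_b₄ W _, ← hb]
    exact WeierstrassCurve.map_b₄ W _
  have b6 : (W⁄(FF W k)).b₆ = algebraMap (RatFunc k) (FF W k) (RatFunc.C (W.baseChange k).b₆) := by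
    rw [show (W.baseChange k).b₆ = algebraMap F k W.b₆ from WeierstrassCurve.map_b₆ W _, ← hb]
    exact WeierstrassCurve.map_b₆ W _
  have b8 : (W⁄(FF W k)).b₈ = algebraMap (RatFunc k) (FF W k) (RatFunc.C (W.baseChange k).b₈) := by
    rw [show (W.baseChange k).b₈ = algebraMap F k W.b₈ from WeierstrassCurve.map_b₈ W _, ← hb]
    exact WeierstrassCurve.map_b₈ W _
  rw [x₁, z₁, x₂, z₂, x₃, x₄, b4, b6, b8] at r1
  rw [x₁, z₁, x₂, z₂, x₃, z₃, x₄, z₄, b2, b4, b6] at r2
  rw [x₁, z₁, x₂, z₂, z₃, z₄] at r3
  rw [e₁, e₂, e₃, e₄]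
  have : (W.baseChange k).IsElliptic := inferInstanceAs (W.map (algebraMap F k)).IsElliptic
  exact parallelogram_ratFunc (W.baseChange k) s₁ s₂ s₃ s₄ c r1 r2 r3

end par

/-! ### Manin's count, from its polynomial form -/

section count

variable {F : Type u} [Field F] [Fintype F] (W : WeierstrassCurve F) (k : Type v) [Field k]
  [Algebra F k]

/-- **Manin's count, polynomial form**, at one `F`-algebra `B` (this is the statement of
`Lib/helper6751_ManinCount.manin_count`): the `x`-coordinate `numerator / (x^q - x)²` of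
`φ G - G` is a reduced fraction `n / d` of polynomials over `F` with
`deg n = deg d + 1 = #W(F)`. -/
def CountAt (B : Type v) [CommRing B] [Algebra F B] : Prop :=
  ∃ n d : F[X], IsCoprime n d ∧ n.natDegree = d.natDegree + 1 ∧
    d.natDegree + 1 = Nat.card W.toAffine.Point ∧
    ∀ x y : B, y ^ 2 + algebraMap F B W.a₁ * x * y + algebraMap F B W.a₃ * y
        = x ^ 3 + algebraMap F B W.a₂ * x ^ 2 + algebraMap F B W.a₄ * x + algebraMap F B W.a₆ →
      aeval x n * (x ^ Fintype.card F - x) ^ 2 = aeval x d *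
        ((y ^ Fintype.card F + y + algebraMap F B W.a₁ * x + algebraMap F B W.a₃) ^ 2
          + algebraMap F B W.a₁ * (y ^ Fintype.card F + y + algebraMap F B W.a₁ * x
              + algebraMap F B W.a₃) * (x ^ Fintype.card F - x)
          - (algebraMap F B W.a₂ + x ^ Fintype.card F + x) * (x ^ Fintype.card F - x) ^ 2)

lemma tt_pow_ne : tt W k ^ Fintype.card F ≠ tt W k := by
  intro h
  have h1 : ofK W k (RatFunc.X ^ Fintype.card F) = ofK W k RatFunc.X := by
    rw [map_pow]; exact h
  have h3 := congrArg rdeg (ofK_injective W k h1)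
  rw [rdeg_pow, rdeg_X, mul_one] at h3
  exact absurd h3 (Fintype.one_lt_card).ne'

omit [Fintype F] in
lemma aeval_tt (p : F[X]) : aeval (tt W k) p
    = ofK W k (algebraMap k[X] (RatFunc k) (p.map (algebraMap F k))) := by
  have h : (aeval (tt W k) : F[X] →ₐ[F] FF W k).toRingHom
      = ((ofK W k).comp (algebraMap k[X] (RatFunc k))).comp (mapRingHom (algebraMap F k)) := by
    apply Polynomial.ringHom_ext
    · intro a
      simp only [AlgHom.toRingHom_eq_coe, RingHom.coe_coe, aeval_C, RingHom.comp_apply,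
        coe_mapRingHom, map_C, algebraMap_F_FF]
      rw [RatFunc.algebraMap_C]
    · simp only [AlgHom.toRingHom_eq_coe, RingHom.coe_coe, aeval_X, RingHom.comp_apply,
        coe_mapRingHom, map_X, RatFunc.algebraMap_X]
      rfl
  exact congrArg (fun g : F[X] →+* FF W k => g p) h

/-- The `x`-coordinate of `φ G - G`, cleared of denominators. -/
lemma xL_phi_gen_sub_gen [W.IsElliptic] :
    xL (phi W (FF W k) (gen W k) - gen W k) * (tt W k ^ Fintype.card F - tt W k) ^ 2 =
      (ss W k ^ Fintype.card F + ss W k + algebraMap F (FF W k) W.a₁ * tt W k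
          + algebraMap F (FF W k) W.a₃) ^ 2
        + algebraMap F (FF W k) W.a₁ * (ss W k ^ Fintype.card F + ss W k
            + algebraMap F (FF W k) W.a₁ * tt W k + algebraMap F (FF W k) W.a₃)
          * (tt W k ^ Fintype.card F - tt W k)
        - (algebraMap F (FF W k) W.a₂ + tt W k ^ Fintype.card F + tt W k)
          * (tt W k ^ Fintype.card F - tt W k) ^ 2 := by
  have hne := tt_pow_ne W k
  have hne' : tt W k ^ Fintype.card F - tt W k ≠ 0 := sub_ne_zero.mpr hne
  unfold gen
  have := isElliptic_baseChange' W (FF W k)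
  obtain ⟨h', e⟩ := phi_some W (FF W k)
    (equation_iff_nonsingular.mp (gen_equation W k) :
      (W⁄(FF W k)).Nonsingular (tt W k) (ss W k))
  rw [e, sub_eq_add_neg, Point.neg_some, Point.add_of_X_ne hne, xL_some,
    Affine.slope_of_X_ne hne, negY_eq']
  simp only [Affine.addX, WeierstrassCurve.baseChange, WeierstrassCurve.map_a₁,
    WeierstrassCurve.map_a₂]
  field_simp
  ring

/-- **Manin's count on the model**, from its polynomial form. -/
theorem ht_count_of_poly [W.IsElliptic] (h : CountAt W (FF W k)) :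
    ht W k (phi W (FF W k) (gen W k) - gen W k) = Nat.card W.toAffine.Point := by
  obtain ⟨n, d, hcop, hdeg, hcard, hrel⟩ := h
  have hrel' := hrel (tt W k) (ss W k) (ss_sq' W k)
  rw [← xL_phi_gen_sub_gen W k] at hrel'
  have hne' : tt W k ^ Fintype.card F - tt W k ≠ 0 := sub_ne_zero.mpr (tt_pow_ne W k)
  have hd : d ≠ 0 := by
    rintro rfl
    have hu : IsUnit n := isCoprime_zero_right.mp hcop
    have := natDegree_eq_zero_of_isUnit hu
    rw [this] at hdeg
    simp at hdeg
  have hinj : Function.Injective (algebraMap F k) := (algebraMap F k).injective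
  have hd' : d.map (algebraMap F k) ≠ 0 := (Polynomial.map_ne_zero_iff hinj).mpr hd
  have hD : algebraMap k[X] (RatFunc k) (d.map (algebraMap F k)) ≠ 0 :=
    RatFunc.algebraMap_ne_zero hd'
  have hx : ofK W k (algebraMap k[X] (RatFunc k) (n.map (algebraMap F k))
      / algebraMap k[X] (RatFunc k) (d.map (algebraMap F k)))
      = xL (phi W (FF W k) (gen W k) - gen W k) := by
    rw [map_div₀, ← aeval_tt, ← aeval_tt]
    have hD' : aeval (tt W k) d ≠ 0 := by
      rw [aeval_tt]
      exact (map_ne_zero_iff _ (ofK_injective W k)).mpr hD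
    rw [div_eq_iff hD']
    have := mul_right_cancel₀ (pow_ne_zero 2 hne') (hrel'.trans (mul_assoc _ _ _).symm)
    rw [this, mul_comm]
  have hcop' : IsCoprime (n.map (algebraMap F k)) (d.map (algebraMap F k)) :=
    IsCoprime.map hcop (mapRingHom (algebraMap F k))
  rw [ht, xK_eq W k hx, rdeg_eq_ht,
    Fermat.Agent.S52.helper5875.ht_div_of_isCoprime hd' hcop',
    natDegree_map_eq_of_injective hinj, natDegree_map_eq_of_injective hinj, hdeg, ← hcard]
  exact max_eq_left (Nat.le_succ _)

end count

/-! ### The quadratic-form algebra -/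

section algebra

/-- Manin's ending on a subgroup `S` of an abelian group: a height `h` satisfying the
parallelogram law on `S`, an endomorphism `Φ` of `S` multiplying `h` by `q`, and a substitution
`R` with `R G = G - Φ G` commuting with `Φ` and multiplying `h` by `h (G - Φ G)`. -/
theorem quad_algebra {A : Type*} [AddCommGroup A] (S : AddSubgroup A) (h : A → ℕ)
    (Φ R : A →+ A) (G : A) (q : ℕ) (hG : G ∈ S)
    (hpar : ∀ x ∈ S, ∀ y ∈ S, h (x + y) + h (x - y) = 2 * h x + 2 * h y)
    (hneg : ∀ x, h (-x) = h x)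
    (hΦS : ∀ x ∈ S, Φ x ∈ S) (hΦ : ∀ x ∈ S, h (Φ x) = q * h x)
    (hRS : ∀ x ∈ S, R x ∈ S) (hR : ∀ x ∈ S, h (R x) = h (G - Φ G) * h x)
    (hRG : R G = G - Φ G) (hRΦ : ∀ x, R (Φ x) = Φ (R x)) (hG1 : h G = 1) :
    h (Φ (Φ G) - ((q : ℤ) + 1 - (h (Φ G - G) : ℤ)) • Φ G + (q : ℤ) • G) = 0 := by
  let ΦS : S →+ S := (Φ.comp S.subtype).codRestrict S (fun x => hΦS _ x.2)
  let RS : S →+ S := (R.comp S.subtype).codRestrict S (fun x => hRS _ x.2)
  let P0 : S := ⟨G, hG⟩
  have key := Fermat.Agent.S52.helper1617.frobenius_quadratic_nat (G := S)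
    (hN := fun x => h x.1)
    (fun x y => hpar _ x.2 _ y.2) (-ΦS) RS P0 (P0 + (-ΦS) P0) q
    (fun x => by
      show h (-(Φ x.1)) = q * h x.1
      rw [hneg, hΦ _ x.2])
    (fun x => by
      show h (R x.1) = h (G + -(Φ G)) * h x.1
      rw [← sub_eq_add_neg]
      exact hR _ x.2)
    (Subtype.ext (by
      show R G = G + -(Φ G)
      rw [hRG, sub_eq_add_neg])) rfl
    (fun x => Subtype.ext (by
      show R (-(Φ x.1)) = -(Φ (R x.1))
      rw [map_neg, hRΦ]))
    hG1
  have hplus : h (Φ G + G) + h (Φ G - G) = 2 * q + 2 := by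
    rw [hpar _ (hΦS _ hG) _ hG, hΦ _ hG, hG1]
    ring
  have e1 : (((-ΦS) P0 - P0 : S) : A) = -(Φ G + G) := by
    show -(Φ G) - G = -(Φ G + G)
    abel
  have hcast : (h (Φ G + G) : ℤ) = 2 * q + 2 - h (Φ G - G) := by
    have h' : (h (Φ G + G) : ℤ) + (h (Φ G - G) : ℤ) = 2 * q + 2 := by exact_mod_cast hplus
    linarith
  have e2 : (((-ΦS) ((-ΦS) P0) - ((q : ℤ) + 1 - (h (((-ΦS) P0 - P0 : S) : A) : ℤ)) • (-ΦS) P0
      + (q : ℤ) • P0 : S) : A)
      = Φ (Φ G) - ((q : ℤ) + 1 - (h (Φ G - G) : ℤ)) • Φ G + (q : ℤ) • G := by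
    rw [e1, hneg, hcast]
    show -(Φ (-(Φ G))) - ((q : ℤ) + 1 - (2 * (q : ℤ) + 2 - (h (Φ G - G) : ℤ))) • (-(Φ G))
      + (q : ℤ) • G = _
    have e3 : ((q : ℤ) + 1 - (2 * (q : ℤ) + 2 - (h (Φ G - G) : ℤ)))
        = -((q : ℤ) + 1 - (h (Φ G - G) : ℤ)) := by ring
    rw [e3, map_neg, neg_neg, neg_smul, smul_neg, neg_neg]
  rw [← e2]
  exact key

variable {F : Type u} [Field F] [Fintype F] (W : WeierstrassCurve F) (k : Type v) [Field k]
  [Algebra F k]

lemma card_point_ne_zero : Nat.card W.toAffine.Point ≠ 0 := Nat.card_pos.ne'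

lemma Psi_mem_Odd {P : (W⁄(FF W k)).Point} (hP : P ∈ Odd W k) :
    Psi W (FF W k) P ∈ Odd W k :=
  (Odd W k).add_mem ((Odd W k).sub_mem (phi_mem_Odd W k (phi_mem_Odd W k hP))
    ((Odd W k).zsmul_mem (phi_mem_Odd W k hP) _)) ((Odd W k).zsmul_mem hP _)

/-- **The Frobenius relation at the generic point, up to height**: `ht (φ² G - a φ G + q G) = 0`
with `a = q + 1 - #W(F)`, from the count `ht (φ G - G) = #W(F)`. -/
theorem ht_Psi_gen [W.IsElliptic]
    (hcnt : ht W k (phi W (FF W k) (gen W k) - gen W k) = Nat.card W.toAffine.Point) :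
    ht W k (Psi W (FF W k) (gen W k)) = 0 := by
  have hΔ : W.Δ ≠ 0 := W.isUnit_Δ.ne_zero
  have hGodd : gen W k ∈ Odd W k := gen_mem_Odd W k
  have hQodd : gen W k - phi W (FF W k) (gen W k) ∈ Odd W k :=
    (Odd W k).sub_mem hGodd (phi_mem_Odd W k hGodd)
  have hQht : ht W k (gen W k - phi W (FF W k) (gen W k)) ≠ 0 := by
    rw [← neg_sub, ht_neg, hcnt]
    exact card_point_ne_zero W
  obtain ⟨R, hRG, hRodd, hRht, hRphi⟩ := exists_subst W k hΔ hQodd hQht
  have key := quad_algebra (Odd W k) (ht W k) (phi W (FF W k)) R (gen W k) (Fintype.card F) hGodd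
    (fun x hx y hy => ht_parallelogram W k hx hy) (ht_neg W k)
    (fun x hx => phi_mem_Odd W k hx) (fun x hx => ht_phi W k hΔ hx)
    hRodd hRht hRG hRphi (ht_gen W k)
  rw [hcnt] at key
  exact key

end algebra

/-! ### The ending: from the generic point to every point -/

section ending

variable {F : Type u} [Field F] [Fintype F] (W : WeierstrassCurve F)

/-- The inclusion of the constants `k → FF`. -/
def constHom (k : Type v) [Field k] [Algebra F k] : k →ₐ[F] FF W k :=
  IsScalarTower.toAlgHom F k (FF W k)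

omit [Fintype F] in
lemma constHom_apply (k : Type v) [Field k] [Algebra F k] (c : k) :
    constHom W k c = ofK W k (RatFunc.C c) := algebraMap_k_FF W k c

omit [Fintype F] in
lemma gen_not_const [W.IsElliptic] (k : Type v) [Field k] [Algebra F k] [DecidableEq k] :
    gen W k ∉ Set.range (Point.map (W' := W) (constHom W k)) := by
  rintro ⟨T, hT⟩
  rcases T with _ | ⟨x, y, h⟩
  · have h0 : (0 : (W⁄(FF W k)).Point) = gen W k := hT
    have := congrArg (ht W k) h0
    rw [ht_zero, ht_gen] at this
    exact absurd this (by norm_num)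
  · rw [Point.map_some] at hT
    have hx : constHom W k x = tt W k := by
      have := congrArg xL hT
      rwa [xL_some] at this
    rw [constHom_apply, tt] at hx
    have := congrArg rdeg (ofK_injective W k hx)
    rw [rdeg_C, rdeg_X] at this
    exact absurd this (by norm_num)

omit [Fintype F] in
lemma const_of_ht_zero (k : Type v) [Field k] [Algebra F k] [IsAlgClosed k] [DecidableEq k]
    (hΔ : W.Δ ≠ 0) {Z : (W⁄(FF W k)).Point} (hZ : Z ∈ Odd W k) (h0 : ht W k Z = 0) :
    Z ∈ Set.range (Point.map (W' := W) (constHom W k)) := by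
  rcases Odd_cases W k hΔ hZ with rfl | ⟨r, y, h, rfl⟩
  · exact ⟨0, map_zero _⟩
  · rw [ht, xK_some_ofK, rdeg_eq_zero_iff] at h0
    obtain ⟨c, rfl⟩ := h0
    exact Fermat.Agent.S52.helper1104.some_mem_range_map_of_x_mem W (constHom W k) h
      ⟨c, constHom_apply W k c⟩

variable [W.IsElliptic]

/-- The Frobenius relation over an algebraically closed field. -/
theorem frob_relation_algClosed (k : Type v) [Field k] [Algebra F k] [IsAlgClosed k]
    [DecidableEq k] (hcnt : CountAt W (FF W k)) (P : (W⁄k).Point) :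
    phi W k (phi W k P) - trF W • phi W k P + (Fintype.card F : ℤ) • P = 0 := by
  have hΔ : W.Δ ≠ 0 := W.isUnit_Δ.ne_zero
  have h0 := ht_Psi_gen W k (ht_count_of_poly W k hcnt)
  obtain ⟨T, hT⟩ := const_of_ht_zero W k hΔ (Psi_mem_Odd W k (gen_mem_Odd W k)) h0
  exact Fermat.Agent.S52.helper1104.frob_trace_relation_of_generic W (constHom W k)
    (FiniteField.frobeniusAlgHom F k) (fun x => rfl)
    (FiniteField.frobeniusAlgHom F (FF W k)) (fun x => rfl)
    (gen W k) (gen_not_const W k) (trF W) T hT.symm P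

/-- The Frobenius relation over every field, from Manin's count over the function field of the
curve over an algebraic closure. -/
theorem frob_relation (K : Type v) [Field K] [Algebra F K] [DecidableEq K]
    (hcnt : CountAt W (FF W (AlgebraicClosure K))) (P : (W⁄K).Point) :
    phi W K (phi W K P) - trF W • phi W K P + (Fintype.card F : ℤ) • P = 0 := by
  classical
  let j : K →ₐ[F] AlgebraicClosure K := IsScalarTower.toAlgHom F K (AlgebraicClosure K)
  apply Point.map_injective (W' := W) j
  rw [map_zero, map_add, map_sub, map_zsmul, map_zsmul, phi_map, phi_map]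
  exact frob_relation_algClosed W (AlgebraicClosure K) hcnt (Point.map (W' := W) j P)

omit [W.IsElliptic] in
lemma trF_eq : trF W = W.traceOfFrobenius := by
  rw [trF, WeierstrassCurve.traceOfFrobenius, WeierstrassCurve.card,
    Nat.card_eq_fintype_card (α := F)]

/-- **Frobenius Cayley–Hamilton** for a general Weierstrass curve over a finite field, in every
characteristic, with the Prelude trace of Frobenius `q + 1 - #W(F)` — from Manin's count in
polynomial form. -/
theorem frob_cayley_hamilton_of_count (K : Type v) [Field K] [Algebra F K] [DecidableEq K]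
    (hcnt : CountAt W (FF W (AlgebraicClosure K))) (P : (W⁄K).Point) :
    Point.map (W' := W) (FiniteField.frobeniusAlgHom F K)
        (Point.map (W' := W) (FiniteField.frobeniusAlgHom F K) P)
      - W.traceOfFrobenius • Point.map (W' := W) (FiniteField.frobeniusAlgHom F K) P
      + (Fintype.card F : ℤ) • P = 0 := by
  rw [← trF_eq]
  exact frob_relation W K hcnt P

end ending

/-! ### Adapter: the count in Mathlib's coordinate ring (`Lib/helper1844.CountStmt`) -/

section adapter

open scoped Polynomial.Bivariate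

variable {F : Type u} [Field F] (W : WeierstrassCurve F)

/-- Evaluation of the coordinate ring of `W` at a solution `(x, y)` of the Weierstrass equation
in an `F`-algebra `B`. -/
def evCR {B : Type v} [CommRing B] [Algebra F B] (x y : B)
    (h : y ^ 2 + algebraMap F B W.a₁ * x * y + algebraMap F B W.a₃ * y
      = x ^ 3 + algebraMap F B W.a₂ * x ^ 2 + algebraMap F B W.a₄ * x + algebraMap F B W.a₆) :
    W.toAffine.CoordinateRing →+* B :=
  AdjoinRoot.lift ((aeval x : F[X] →ₐ[F] B) : F[X] →+* B) y (by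
    simp only [Affine.polynomial, eval₂_add, eval₂_sub, eval₂_mul, eval₂_pow, eval₂_C, eval₂_X,
      RingHom.coe_coe, map_add, map_mul, map_pow, aeval_C, aeval_X]
    linear_combination h)

variable {B : Type v} [CommRing B] [Algebra F B] (x y : B)
    (h : y ^ 2 + algebraMap F B W.a₁ * x * y + algebraMap F B W.a₃ * y
      = x ^ 3 + algebraMap F B W.a₂ * x ^ 2 + algebraMap F B W.a₄ * x + algebraMap F B W.a₆)

lemma evCR_mk (p : F[X][Y]) :
    evCR W x y h (CoordinateRing.mk W.toAffine p)
      = p.eval₂ ((aeval x : F[X] →ₐ[F] B) : F[X] →+* B) y := by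
  simp [evCR, CoordinateRing.mk]

lemma evCR_xc : evCR W x y h (Fermat.Agent.Lib.helper1844.xc W) = x := by
  rw [Fermat.Agent.Lib.helper1844.xc, evCR_mk]; simp

lemma evCR_yc : evCR W x y h (Fermat.Agent.Lib.helper1844.yc W) = y := by
  rw [Fermat.Agent.Lib.helper1844.yc, evCR_mk]; simp

lemma evCR_algebraMap_poly (p : F[X]) :
    evCR W x y h (algebraMap F[X] W.toAffine.CoordinateRing p) = aeval x p := by
  have : algebraMap F[X] W.toAffine.CoordinateRing p = CoordinateRing.mk W.toAffine (C p) := rfl
  rw [this, evCR_mk]; simp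

lemma evCR_algebraMap (a : F) :
    evCR W x y h (algebraMap F W.toAffine.CoordinateRing a) = algebraMap F B a := by
  have : algebraMap F W.toAffine.CoordinateRing a = CoordinateRing.mk W.toAffine (C (C a)) := rfl
  rw [this, evCR_mk]; simp

/-- The coordinate-ring form of Manin's count (`Lib/helper1844.CountStmt`) gives the polynomial
form at every `F`-algebra. -/
theorem countAt_of_countStmt [Fintype F] (hc : Fermat.Agent.Lib.helper1844.CountStmt W)
    (B : Type v) [CommRing B] [Algebra F B] : CountAt W B := by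
  obtain ⟨n, d, hcop, hdeg, hcard, hrel⟩ := hc
  refine ⟨n, d, hcop, hdeg, hcard, fun x y h => ?_⟩
  have := congrArg (evCR W x y h) hrel
  simpa only [map_mul, map_pow, map_add, map_sub, evCR_algebraMap_poly,
    Fermat.Agent.Lib.helper1844.dc, Fermat.Agent.Lib.helper1844.numc,
    Fermat.Agent.Lib.helper1844.uc, evCR_xc, evCR_yc, evCR_algebraMap, add_assoc] using this

end adapter

/-! ### The theorem -/

section final

variable {F : Type u} [Field F] [Fintype F] (W : WeierstrassCurve F) [W.IsElliptic]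

/-- **Frobenius Cayley–Hamilton** for a general Weierstrass curve `W` (`a₁, …, a₆` arbitrary,
`Δ ≠ 0`) over ANY finite field `F`, in EVERY characteristic, on the points of `W` over ANY field
`K ⊇ F`: `φ² - a φ + q = 0` with `φ` the `q`-power Frobenius, `q = #F` and
`a = q + 1 - #W(F)` the Prelude trace of Frobenius.  (Manin's count: `Lib/helper1346`.) -/
theorem frob_cayley_hamilton (K : Type v) [Field K] [Algebra F K] [DecidableEq K]
    (P : (W⁄K).Point) :
    Point.map (W' := W) (FiniteField.frobeniusAlgHom F K)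
        (Point.map (W' := W) (FiniteField.frobeniusAlgHom F K) P)
      - W.traceOfFrobenius • Point.map (W' := W) (FiniteField.frobeniusAlgHom F K) P
      + (Fintype.card F : ℤ) • P = 0 :=
  frob_cayley_hamilton_of_count W K
    (countAt_of_countStmt W (Fermat.Agent.Lib.helper1346.countStmt W) _) P

/-- The same with an arbitrary `F`-algebra endomorphism acting as the `q`-th power. -/
theorem frob_cayley_hamilton' (K : Type v) [Field K] [Algebra F K] [DecidableEq K]
    (frob : K →ₐ[F] K) (hfrob : ∀ z, frob z = z ^ Fintype.card F) (P : (W⁄K).Point) :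
    Point.map (W' := W) frob (Point.map (W' := W) frob P)
      - W.traceOfFrobenius • Point.map (W' := W) frob P + (Fintype.card F : ℤ) • P = 0 := by
  have h : frob = FiniteField.frobeniusAlgHom F K := AlgHom.ext fun z => hfrob z
  rw [h]
  exact frob_cayley_hamilton W K P

end final

end

end Fermat.Agent.S58.helper1490
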