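import Mathlib
import Fermat.Prelude.Def_CuspForm_HeckeGaloisRepDatum
import Fermat.Prelude.Def_CuspForm_Newforms
import Fermat.Prelude.Def_GaloisRep_LocalConditions
import Fermat.Prelude.Def_GaloisRep_Residual
import Fermat.Prelude.Def_WeierstrassCurve_ConductorLevel
import Fermat.Prelude.Def_FLTPrelim_ModularRep

/-!
# S58, Route G: definitions (helper7532)

Route G proves the frozen statement S58 from the three frozen statements S30, S35, S36 (taken as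
hypotheses of exactly the frozen types: `Stmt_S30`, `Stmt_S35`, `Stmt_S36`) and a comparison
between a `λ`-adic Galois representation `ρ` with the Frobenius characteristic polynomials of an
integral Weierstrass model `W` and the torsion of `W` over `ℚ̄`.

This file only contains definitions:

* `Stmt_S30`, `Stmt_S35`, `Stmt_S36` : the frozen statements, verbatim, as `Prop`s;
* `FrobCond W ρ T` : `ρ` has the Frobenius characteristic polynomials of `W` outside `T`;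
* `Tors W n` : the Prelude `n`-torsion module of `W` over `ℚ̄`;
* `Stmt_Transfer` : the transfer of annihilating quadratics from `ρ` to the torsion of `W`;
* `Stmt_Conj` : involutions of `Gal(ℚ̄/ℚ)` invert the `p`-th roots of unity, `p` odd;
* `Stmt_Eigen`, `Stmt_Res`, `Stmt_Unip`, `Stmt_TrGood` : the four leaves consumed by the final
  theorem of `helper7532_SpecG`.
-/

set_option autoImplicit false

open Polynomial
open scoped WeierstrassCurve.Affine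

namespace Fermat.Agent.S58.helper7532

/-- The frozen statement S30 (verbatim). -/
def Stmt_S30 : Prop :=
    ∀ (p : ℕ) [Fact p.Prime] (N : ℕ) [NeZero N] (S : Finset ℕ)
      (_hpS : p ∈ S) (_hNS : ∀ q : ℕ, q.Prime → q ∣ N → q ∈ S)
      (𝒪' : Type) [CommRing 𝒪'] [IsDomain 𝒪'] [IsDiscreteValuationRing 𝒪']
      [IsAdicComplete (IsLocalRing.maximalIdeal 𝒪') 𝒪'] [Finite (IsLocalRing.ResidueField 𝒪')]
      [CharZero 𝒪'] (_hp𝒪' : (p : 𝒪') ∈ IsLocalRing.maximalIdeal 𝒪')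
      (χ : CuspForm.heckeAlgebra N 2 (↑S : Set ℕ) →+* 𝒪'),
      ∃ (𝒪'' : Type) (_ : CommRing 𝒪'') (_ : IsDomain 𝒪'') (_ : IsDiscreteValuationRing 𝒪'')
        (_ : IsAdicComplete (IsLocalRing.maximalIdeal 𝒪'') 𝒪'')
        (_ : Finite (IsLocalRing.ResidueField 𝒪'')) (_ : CharZero 𝒪'')
        (_ : Algebra 𝒪' 𝒪'') (_ : Module.Finite 𝒪' 𝒪'') (_ : IsLocalHom (algebraMap 𝒪' 𝒪'')),
      Function.Injective (algebraMap 𝒪' 𝒪'') ∧
      ∃ ρ : GaloisRepAdic 𝒪'',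
        (∀ (ℓ : ℕ) (hℓ : ℓ.Prime) (hℓN : ¬ ℓ ∣ N) (hℓS : ℓ ∉ (↑S : Set ℕ)),
          ∀ A : ValuationSubring (AlgebraicClosure ℚ), A.LiesOverPrime ℓ →
            ∀ σ : AlgebraicClosure ℚ ≃ₐ[ℚ] AlgebraicClosure ℚ, A.IsFrobeniusAt σ ℓ →
              LinearMap.charpoly (ρ.ρ σ) =
                X ^ 2 - C (algebraMap 𝒪' 𝒪'' (χ (CuspForm.heckeAlgebra.T hℓ hℓN hℓS))) * X
                  + C ((ℓ : 𝒪''))) ∧
        (∀ q : ℕ, q.Prime → ¬ q ∣ N → q ≠ p → ρ.IsUnramifiedAt q)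

/-- The frozen statement S35 (verbatim). -/
def Stmt_S35 : Prop :=
    ∀ {M : ℕ} [NeZero M] {g : CuspForm (CongruenceSubgroup.Gamma0 M) 2} (_hg : g.IsNewform)
    (lam : ℕ) [Fact lam.Prime]
    (S : Finset ℕ)
    (O' : Type) [CommRing O'] [IsDomain O'] [IsDiscreteValuationRing O']
    [IsAdicComplete (IsLocalRing.maximalIdeal O') O'] [Finite (IsLocalRing.ResidueField O')]
    [CharZero O'] (_hlamO' : (lam : O') ∈ IsLocalRing.maximalIdeal O')
    (chig : CuspForm.heckeAlgebra M 2 (↑S : Set ℕ) →+* ℂ)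
    (_hchig : ∀ (ℓ : ℕ) (hℓ : ℓ.Prime) (hℓM : ¬ ℓ ∣ M) (hℓS : ℓ ∉ (↑S : Set ℕ)),
      chig (CuspForm.heckeAlgebra.T hℓ hℓM hℓS) = ModularFormClass.qCoeff g ℓ)
    (iota : chig.range →+* O')
    (_hlamS : lam ∈ S) (_hMS : ∀ q : ℕ, q.Prime → q ∣ M → q ∈ S),
    ∃ (O'' : Type) (_ : CommRing O'') (_ : IsDomain O'') (_ : IsDiscreteValuationRing O'')
      (_ : IsAdicComplete (IsLocalRing.maximalIdeal O'') O'') (_ : Finite (IsLocalRing.ResidueField O''))
      (_ : CharZero O'') (_ : Algebra O' O'') (_ : Module.Finite O' O'') (_ : IsLocalHom (algebraMap O' O'')),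
      Function.Injective (algebraMap O' O'') ∧
      ∃ ρ : GaloisRepAdic O'',
        (∀ (ℓ : ℕ) (hℓ : ℓ.Prime) (hℓM : ¬ ℓ ∣ M) (hℓS : ℓ ∉ (↑S : Set ℕ)),
          ∀ A : ValuationSubring (AlgebraicClosure ℚ), A.LiesOverPrime ℓ →
            ∀ σ : AlgebraicClosure ℚ ≃ₐ[ℚ] AlgebraicClosure ℚ, A.IsFrobeniusAt σ ℓ →
              LinearMap.charpoly (ρ.ρ σ) =
                X ^ 2 - C (algebraMap O' O'' ((iota.comp chig.rangeRestrict) (CuspForm.heckeAlgebra.T hℓ hℓM hℓS))) * X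
                  + C ((ℓ : O''))) ∧
        (∀ q : ℕ, q.Prime → q ≠ lam → q ∣ M → ¬ q ^ 2 ∣ M →
          ∀ A : ValuationSubring (AlgebraicClosure ℚ), A.LiesOverPrime q →
            ∀ σ : AlgebraicClosure ℚ ≃ₐ[ℚ] AlgebraicClosure ℚ, A.IsFrobeniusAt σ q →
              LinearMap.charpoly (ρ.ρ σ) = X ^ 2 - C ((q : O'') + 1) * X + C ((q : O'')) ∨
              LinearMap.charpoly (ρ.ρ σ) = X ^ 2 + C ((q : O'') + 1) * X + C ((q : O'')))

/-- The frozen statement S36 (verbatim). -/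
def Stmt_S36 : Prop :=
    ∀ {M : ℕ} [NeZero M] {g : CuspForm (CongruenceSubgroup.Gamma0 M) 2} (_hg : g.IsNewform)
    (lam : ℕ) [Fact lam.Prime]
    (S : Finset ℕ)
    (O' : Type) [CommRing O'] [IsDomain O'] [IsDiscreteValuationRing O']
    [IsAdicComplete (IsLocalRing.maximalIdeal O') O'] [Finite (IsLocalRing.ResidueField O')]
    [CharZero O'] (_hlamO' : (lam : O') ∈ IsLocalRing.maximalIdeal O')
    (_hlam2 : lam ≠ 2)
    (chig : CuspForm.heckeAlgebra M 2 (↑S : Set ℕ) →+* ℂ)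
    (_hchig : ∀ (ℓ : ℕ) (hℓ : ℓ.Prime) (hℓM : ¬ ℓ ∣ M) (hℓS : ℓ ∉ (↑S : Set ℕ)),
      chig (CuspForm.heckeAlgebra.T hℓ hℓM hℓS) = ModularFormClass.qCoeff g ℓ)
    (iota : chig.range →+* O')
    (_hlamS : lam ∈ S) (_hMS : ∀ q : ℕ, q.Prime → q ∣ M → q ∈ S)
    (_hres : ∀ (O'' : Type) [CommRing O''] [IsDomain O''] [IsDiscreteValuationRing O'']
      [IsAdicComplete (IsLocalRing.maximalIdeal O'') O''] [Finite (IsLocalRing.ResidueField O'')] [CharZero O'']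
      [Algebra O' O''] [Module.Finite O' O''] [IsLocalHom (algebraMap O' O'')],
      Function.Injective (algebraMap O' O'') → ∀ (ρ : GaloisRepAdic O''),
      (∀ (ℓ : ℕ) (hℓ : ℓ.Prime) (_hℓlam : ℓ ≠ lam) (hℓM : ¬ ℓ ∣ M) (hℓS : ℓ ∉ (↑S : Set ℕ)),
        ∀ A : ValuationSubring (AlgebraicClosure ℚ), A.LiesOverPrime ℓ →
          ∀ σ : AlgebraicClosure ℚ ≃ₐ[ℚ] AlgebraicClosure ℚ, A.IsFrobeniusAt σ ℓ →
            LinearMap.charpoly (ρ.ρ σ) =
              X ^ 2 - C (algebraMap O' O'' ((iota.comp chig.rangeRestrict) (CuspForm.heckeAlgebra.T hℓ hℓM hℓS))) * X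
                + C ((ℓ : O'')))
      → ρ.residual.IsAbsolutelyIrreducible ∧ ρ.residual.IsOdd),
    ∃ (O'' : Type) (_ : CommRing O'') (_ : IsDomain O'') (_ : IsDiscreteValuationRing O'')
      (_ : IsAdicComplete (IsLocalRing.maximalIdeal O'') O'') (_ : Finite (IsLocalRing.ResidueField O''))
      (_ : CharZero O'') (_ : Algebra O' O'') (_ : Module.Finite O' O'') (_ : IsLocalHom (algebraMap O' O'')),
      Function.Injective (algebraMap O' O'') ∧
      ∃ ρ : GaloisRepAdic O'',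
        (∀ (ℓ : ℕ) (hℓ : ℓ.Prime) (hℓM : ¬ ℓ ∣ M) (hℓS : ℓ ∉ (↑S : Set ℕ)),
          ∀ A : ValuationSubring (AlgebraicClosure ℚ), A.LiesOverPrime ℓ →
            ∀ σ : AlgebraicClosure ℚ ≃ₐ[ℚ] AlgebraicClosure ℚ, A.IsFrobeniusAt σ ℓ →
              LinearMap.charpoly (ρ.ρ σ) =
                X ^ 2 - C (algebraMap O' O'' ((iota.comp chig.rangeRestrict) (CuspForm.heckeAlgebra.T hℓ hℓM hℓS))) * X
                  + C ((ℓ : O''))) ∧
        (∀ q : ℕ, q.Prime → q ≠ lam → M.factorization q = 2 → ¬ ρ.IsUnipotentOnInertiaAt q)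

/-- `ρ` has the Frobenius characteristic polynomials of the integral model `W` at all primes
outside the finite set `T`. -/
def FrobCond (W : WeierstrassCurve ℤ) {O : Type} [CommRing O] [IsLocalRing O]
    (ρ : GaloisRepAdic O) (T : Finset ℕ) : Prop :=
  ∀ ℓ : ℕ, ℓ.Prime → ℓ ∉ T →
    ∀ A : ValuationSubring (AlgebraicClosure ℚ), A.LiesOverPrime ℓ →
      ∀ σ : AlgebraicClosure ℚ ≃ₐ[ℚ] AlgebraicClosure ℚ, A.IsFrobeniusAt σ ℓ →
        LinearMap.charpoly (ρ.ρ σ) =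
          X ^ 2 - C (((W.apOfModel ℓ : ℤ) : O)) * X + C ((ℓ : O))

/-- The `n`-torsion of `W(ℚ̄)` (Prelude shape: the module of `ModRepIsIrreducible`). -/
abbrev Tors (W : WeierstrassCurve ℤ) (n : ℕ) : Type :=
  Submodule.torsionBy ℤ
    (((W.map (Int.castRingHom ℚ)).toAffine)⁄(AlgebraicClosure ℚ)).Point n

/-- **(T) Transfer of annihilating quadratics.**  If `ρ` has the Frobenius characteristic
polynomials of `W` outside a finite set, then for every `σ ∈ Gal(ℚ̄/ℚ)` and all `m`, `n` there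
are integers `t`, `d` congruent to the trace and the determinant of `ρ(σ)` modulo `𝔪 ^ m`
such that `σ² - t σ + d = 0` on `W[lam ^ n]` and `σ ζ = ζ ^ d` on the `lam ^ n`-th roots of
unity. -/
def Stmt_Transfer : Prop :=
  ∀ (W : WeierstrassCurve ℤ), W.Δ ≠ 0 → ∀ (lam : ℕ), lam.Prime →
    ∀ (O : Type) [CommRing O] [IsLocalRing O] (ρ : GaloisRepAdic O) (T : Finset ℕ),
      FrobCond W ρ T →
      ∀ (m n : ℕ) (σ : AlgebraicClosure ℚ ≃ₐ[ℚ] AlgebraicClosure ℚ),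
        ∃ (t : ℤ) (d : ℕ),
          LinearMap.trace O ρ.V (ρ.ρ σ) - (t : O) ∈ IsLocalRing.maximalIdeal O ^ m ∧
          LinearMap.det (ρ.ρ σ) - (d : O) ∈ IsLocalRing.maximalIdeal O ^ m ∧
          (∀ P : Tors W (lam ^ n), σ • σ • P - t • σ • P + (d : ℤ) • P = 0) ∧
          (∀ ζ : AlgebraicClosure ℚ, ζ ^ (lam ^ n) = 1 → σ ζ = ζ ^ d)

/-- **Involutions invert roots of unity of odd prime order** (Artin–Schreier for `μ_p`). -/
def Stmt_Conj : Prop :=
  ∀ c : AlgebraicClosure ℚ ≃ₐ[ℚ] AlgebraicClosure ℚ, c * c = 1 → c ≠ 1 →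
    ∀ p : ℕ, p.Prime → p ≠ 2 → ∀ ζ : AlgebraicClosure ℚ, ζ ^ p = 1 → c ζ = ζ⁻¹

/-- **(EIGEN)** integrality of the newform `g` attached to `W` and its integer-valued
eigen-character on the Hecke algebras away from the level. -/
def Stmt_Eigen : Prop :=
  ∀ (W : WeierstrassCurve ℤ) (N : ℕ), N ≠ 0 →
    (∀ ℓ : ℕ, ℓ.Prime → (ℓ : ℤ) ∣ W.Δ → ℓ ∣ N) →
    ∀ (M : ℕ) [NeZero M] (g : CuspForm (CongruenceSubgroup.Gamma0 M) 2), M ∣ N → g.IsNewform →
      (∀ ℓ : ℕ, ℓ.Prime → W.IsGoodPrimeFor ℓ → ¬ ℓ ∣ N →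
        ModularFormClass.qCoeff g ℓ = (W.apOfModel ℓ : ℂ)) →
      ∃ a : ℕ → ℤ, (∀ n : ℕ, ModularFormClass.qCoeff g n = (a n : ℂ)) ∧
        ∀ S : Finset ℕ, (∀ q : ℕ, q.Prime → q ∣ M → q ∈ S) →
          ∃ chi : CuspForm.heckeAlgebra M 2 (↑S : Set ℕ) →+* ℤ,
            ∀ (ℓ : ℕ) (hℓ : ℓ.Prime) (hℓM : ¬ ℓ ∣ M) (hℓS : ℓ ∉ (↑S : Set ℕ)),
              chi (CuspForm.heckeAlgebra.T hℓ hℓM hℓS) = a ℓ

/-- **(RES)** the residual representation of every `ρ` with the Frobenius characteristic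
polynomials of `W` is absolutely irreducible and odd, when `W[p]` is irreducible and `p` is odd. -/
def Stmt_Res : Prop :=
  ∀ (W : WeierstrassCurve ℤ), W.Δ ≠ 0 → ∀ (p : ℕ) [Fact p.Prime], p ≠ 2 →
    W.ModRepIsIrreducible p →
    ∀ (O : Type) [CommRing O] [IsLocalRing O], (p : O) ∈ IsLocalRing.maximalIdeal O →
      ∀ (ρ : GaloisRepAdic O) (T : Finset ℕ), FrobCond W ρ T →
        ρ.residual.IsAbsolutelyIrreducible ∧ ρ.residual.IsOdd

/-- **(UNIP)** every `ρ` with the Frobenius characteristic polynomials of a semistable `W` is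
unipotent on inertia at every prime `q ≠ p` (`p` odd, the residue characteristic). -/
def Stmt_Unip : Prop :=
  ∀ (W : WeierstrassCurve ℤ), W.Δ ≠ 0 → W.IsSemistableModel → ∀ (p : ℕ), p.Prime → p ≠ 2 →
    ∀ (O : Type) [CommRing O] [IsDomain O] [IsDiscreteValuationRing O],
      (p : O) ∈ IsLocalRing.maximalIdeal O →
      ∀ (ρ : GaloisRepAdic O) (T : Finset ℕ), FrobCond W ρ T →
        ∀ q : ℕ, q.Prime → q ≠ p → ρ.IsUnipotentOnInertiaAt q

/-- **(TRGOOD)** the trace of `ρ` at a Frobenius element of a good prime `ℓ ≠ lam` of `W` is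
`a_ℓ(W)`, for every `ρ` with the Frobenius characteristic polynomials of `W` outside a finite
set. -/
def Stmt_TrGood : Prop :=
  ∀ (W : WeierstrassCurve ℤ), W.Δ ≠ 0 → ∀ (lam : ℕ), lam.Prime →
    ∀ (O : Type) [CommRing O] [IsDomain O] [IsDiscreteValuationRing O] [CharZero O],
      (lam : O) ∈ IsLocalRing.maximalIdeal O →
      ∀ (ρ : GaloisRepAdic O) (T : Finset ℕ), FrobCond W ρ T →
        ∀ ℓ : ℕ, ℓ.Prime → W.IsGoodPrimeFor ℓ → ℓ ≠ lam →
          ∀ A : ValuationSubring (AlgebraicClosure ℚ), A.LiesOverPrime ℓ →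
            ∀ σ : AlgebraicClosure ℚ ≃ₐ[ℚ] AlgebraicClosure ℚ, A.IsFrobeniusAt σ ℓ →
              ∀ b : ℤ, LinearMap.charpoly (ρ.ρ σ) = X ^ 2 - C ((b : O)) * X + C ((ℓ : O)) →
                b = W.apOfModel ℓ

end Fermat.Agent.S58.helper7532
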