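/-
S58 via the frozen statements S35 + S36 (helper1646), part 3: the transfer leaf
`helper7532.Stmt_Transfer` of the landed top wiring `helper7532.frozen_of_leaves`
(route G), proved from `helper1646.exists_rel`.
-/
import Fermat.Agent.S58.helper1646_GalRel
import Fermat.Agent.S58.helper7532_GDefs

set_option autoImplicit false

namespace Fermat.Agent.S58.helper1646

open Polynomial

/-- **The transfer leaf of route G** (`helper7532.Stmt_Transfer`), unconditionally. -/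
theorem stmt_Transfer : Fermat.Agent.S58.helper7532.Stmt_Transfer := by
  classical
  intro W hΔ lam hlam O _ _ ρ T hFC m n σ
  -- enlarge the exceptional set by `lam` and the bad primes
  set T' : Finset ℕ := T ∪ insert lam W.Δ.natAbs.primeFactors with hT'
  have hTgood : ∀ ℓ : ℕ, ℓ.Prime → ℓ ∉ T' → W.IsGoodPrimeFor ℓ ∧ ℓ ≠ lam := by
    intro ℓ hℓ hℓT'
    have h1 : ℓ ∉ insert lam W.Δ.natAbs.primeFactors := fun h => hℓT' (Finset.mem_union_right _ h)
    refine ⟨fun hdvd => h1 (Finset.mem_insert_of_mem ?_), fun h => h1 (h ▸ Finset.mem_insert_self _ _)⟩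
    rw [Nat.mem_primeFactors]
    exact ⟨hℓ, Int.natCast_dvd.mp hdvd, Int.natAbs_ne_zero.mpr hΔ⟩
  have hT : ∀ ℓ : ℕ, ℓ.Prime → ℓ ∉ T' → ∀ A : ValuationSubring (AlgebraicClosure ℚ),
      A.LiesOverPrime ℓ → ∀ τ : AlgebraicClosure ℚ ≃ₐ[ℚ] AlgebraicClosure ℚ,
        A.IsFrobeniusAt τ ℓ →
        LinearMap.trace O ρ.V (ρ.ρ τ) = (W.apOfModel ℓ : O) ∧
          LinearMap.det (ρ.ρ τ) = (ℓ : O) := by
    intro ℓ hℓ hℓT' A hA τ hτ
    have hℓT : ℓ ∉ T := fun h => hℓT' (Finset.mem_union_left _ h)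
    exact trace_det_of_charpoly ρ.finrank_eq (ρ.ρ τ) _ _ (hFC ℓ hℓ hℓT A hA τ hτ)
  obtain ⟨t, d, -, htr, hdet, hrel, hζ⟩ := exists_rel W ρ lam hlam T' hTgood hT σ m n
  exact ⟨t, d, htr, hdet, fun P => hrel P, hζ⟩

end Fermat.Agent.S58.helper1646
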