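/-
S58 via the frozen statements S35 + S36 (helper1646), part 4: the two consumers of the transfer
in route G (top wiring `helper7532.frozen_of_leaves`):

* `dvd_of_forall_smul_eq_zero` : an integer killing `W[m](ℚ̄)` is divisible by `m`;
* `stmt_TrGood` : `helper7532.Stmt_TrGood`, unconditionally;
* `stmt_Unip`   : `helper7532.Stmt_Unip`, unconditionally.
-/
import Fermat.Agent.S58.helper1646_TransferG
import Fermat.Agent.Lib.helper5856_TorsionCard
import Fermat.Agent.Lib.helper1663_InertiaAdapter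

set_option autoImplicit false

namespace Fermat.Agent.S58.helper1646

open Polynomial WeierstrassCurve WeierstrassCurve.Affine
open Fermat.Agent.S58.helper8967 Fermat.Agent.S58.helper5765

local notation "Qb" => AlgebraicClosure ℚ
local notation "GQ" => (AlgebraicClosure ℚ ≃ₐ[ℚ] AlgebraicClosure ℚ)

/-- `W_{ℚ̄}` is an elliptic curve when `Δ ≠ 0`. -/
theorem isElliptic_curveQb (W : WeierstrassCurve ℤ) (hΔ : W.Δ ≠ 0) :
    (curveQb W).IsElliptic := by
  have hE0 : (W.map (Int.castRingHom ℚ)).IsElliptic := by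
    refine ⟨?_⟩
    rw [WeierstrassCurve.map_Δ]
    apply IsUnit.mk0
    intro h0
    apply hΔ
    have h1 : ((W.Δ : ℤ) : ℚ) = 0 := h0
    exact_mod_cast h1
  exact inferInstanceAs ((W.map (Int.castRingHom ℚ)).map (algebraMap ℚ Qb)).IsElliptic

/-- **An integer killing `W[m](ℚ̄)` is divisible by `m`.** -/
theorem dvd_of_forall_smul_eq_zero (W : WeierstrassCurve ℤ) (hΔ : W.Δ ≠ 0) (m : ℕ) (hm : m ≠ 0)
    (z : ℤ) (hz : ∀ P : Tors W m, z • P = 0) : (m : ℤ) ∣ z := by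
  classical
  have hE := isElliptic_curveQb W hΔ
  set e : ℕ := Nat.gcd m z.natAbs with he
  have he0 : e ≠ 0 := Nat.gcd_ne_zero_left hm
  have hem : e ∣ m := Nat.gcd_dvd_left _ _
  have hsub : {P : (curveQb W).Point | m • P = 0} ⊆ {P : (curveQb W).Point | e • P = 0} := by
    intro P hP
    have hP' : (m : ℤ) • P = 0 := by rw [natCast_zsmul]; exact hP
    have hzP : z • P = 0 := by
      have h1 := hz ⟨P, by rw [Submodule.mem_torsionBy_iff]; exact hP'⟩
      exact congrArg Subtype.val h1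
    have hb : (e : ℤ) = (m : ℤ) * Int.gcdA m z + z * Int.gcdB m z := by
      rw [← Int.gcd_eq_gcd_ab (m : ℤ) z]
      rfl
    show e • P = 0
    have e1 : ((m : ℤ) * Int.gcdA m z) • P = 0 := by
      rw [mul_comm, mul_zsmul, hP', zsmul_zero]
    have e2 : (z * Int.gcdB m z) • P = 0 := by
      rw [mul_comm, mul_zsmul, hzP, zsmul_zero]
    rw [← natCast_zsmul, hb, add_zsmul, e1, e2, add_zero]
  have hcm := Fermat.Agent.Lib.helper5856.ncard_torsion (W := curveQb W) m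
    (by exact_mod_cast hm)
  have hce := Fermat.Agent.Lib.helper5856.ncard_torsion (W := curveQb W) e
    (by exact_mod_cast he0)
  have hfin : {P : (curveQb W).Point | e • P = 0}.Finite :=
    Set.finite_of_ncard_ne_zero (by rw [hce]; exact pow_ne_zero 2 he0)
  have hle := Set.ncard_le_ncard hsub hfin
  rw [hcm, hce] at hle
  have hme : m ≤ e := (Nat.pow_le_pow_iff_left two_ne_zero).mp hle
  have hem' : e = m := Nat.le_antisymm (Nat.le_of_dvd (Nat.pos_of_ne_zero hm) hem) hme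
  have h1 : e ∣ z.natAbs := Nat.gcd_dvd_right _ _
  rw [hem'] at h1
  exact Int.natCast_dvd.mpr h1

/-- Elements of `W[n]` are killed by `n` (integer form). -/
theorem tors_smul_eq_zero (W : WeierstrassCurve ℤ) (n : ℕ) (c : ℤ) (hc : (n : ℤ) ∣ c)
    (P : Tors W n) : c • P = 0 := by
  obtain ⟨c', rfl⟩ := hc
  rw [mul_comm, mul_smul]
  have h := Submodule.smul_torsionBy (R := ℤ) (n : ℤ) P
  rw [h, smul_zero]

/-- **The consumer (TRGOOD) of route G** (`helper7532.Stmt_TrGood`), unconditionally. -/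
theorem stmt_TrGood : Fermat.Agent.S58.helper7532.Stmt_TrGood := by
  intro W hΔ lam hlam O _ _ _ _ hlamO ρ T hFC ℓ hℓ hgood hℓlam A hA σ hσ b hb
  have hlam0 : (lam : O) ≠ 0 := Nat.cast_ne_zero.mpr hlam.ne_zero
  obtain ⟨htrb, hdetℓ⟩ := trace_det_of_charpoly ρ.finrank_eq (ρ.ρ σ) _ _ hb
  have : Fact ℓ.Prime := ⟨hℓ⟩
  have key : ∀ k : ℕ, ((lam : ℤ) ^ k) ∣ b - W.apOfModel ℓ := by
    intro k
    obtain ⟨N, hN⟩ := exists_pow_le_span_pow (O := O) hlam0 k
    obtain ⟨t, d, htr, hdet, hrel, -⟩ := stmt_Transfer W hΔ lam hlam O ρ T hFC N k σ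
    rw [htrb] at htr
    rw [hdetℓ] at hdet
    have h1 : ((lam : ℤ) ^ k) ∣ b - t :=
      int_dvd_of_mem_span_pow hlam hlamO hlam0 k (b - t) (by push_cast; exact hN htr)
    have h2 : ((lam : ℤ) ^ k) ∣ (ℓ : ℤ) - d :=
      int_dvd_of_mem_span_pow hlam hlamO hlam0 k ((ℓ : ℤ) - d) (by push_cast; exact hN hdet)
    have hcop : Nat.Coprime (lam ^ k) ℓ :=
      Nat.Coprime.pow_left k ((Nat.coprime_primes hlam hℓ).mpr (Ne.symm hℓlam))
    have hrelσ : ∀ P : Tors W (lam ^ k),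
        σ • σ • P - W.apOfModel ℓ • σ • P + (ℓ : ℤ) • P = 0 := fun P =>
      frob_relation_of_frobCH W ℓ hgood
        (fun K _ _ _ _ => Fermat.Agent.Lib.helper1844.frobCH_all ℓ W hgood K) A hA σ hσ
        (lam ^ k) hcop P
    have hkill : ∀ P : Tors W (lam ^ k), (W.apOfModel ℓ - t) • P = 0 := by
      intro P
      have e1 := hrel (σ⁻¹ • P)
      have e2 := hrelσ (σ⁻¹ • P)
      rw [smul_inv_smul] at e1 e2
      have hQ : ((ℓ : ℤ) - d) • (σ⁻¹ • P) = 0 :=
        tors_smul_eq_zero W (lam ^ k) _ (by push_cast; exact h2) _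
      have e3 : (W.apOfModel ℓ - t) • P =
          (σ • P - t • P + (d : ℤ) • σ⁻¹ • P)
            - (σ • P - W.apOfModel ℓ • P + (ℓ : ℤ) • σ⁻¹ • P)
            + ((ℓ : ℤ) - d) • (σ⁻¹ • P) := by
        simp only [sub_smul]
        abel
      rw [e3, e1, e2, hQ]
      simp
    have h3 : ((lam ^ k : ℕ) : ℤ) ∣ W.apOfModel ℓ - t :=
      dvd_of_forall_smul_eq_zero W hΔ (lam ^ k) (pow_ne_zero k hlam.ne_zero) _ hkill
    have e4 : b - W.apOfModel ℓ = (b - t) - (W.apOfModel ℓ - t) := by ring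
    rw [e4]
    exact dvd_sub h1 (by push_cast at h3; exact h3)
  by_contra hne
  have hne' : b - W.apOfModel ℓ ≠ 0 := sub_ne_zero.mpr hne
  have hK := key (b - W.apOfModel ℓ).natAbs
  have hK' : lam ^ (b - W.apOfModel ℓ).natAbs ∣ (b - W.apOfModel ℓ).natAbs := by
    have h5 := Int.natAbs_dvd_natAbs.mpr hK
    simpa [Int.natAbs_pow] using h5
  have hpos : 0 < (b - W.apOfModel ℓ).natAbs := Int.natAbs_pos.mpr hne'
  have h6 := Nat.le_of_dvd hpos hK'
  have h7 := Nat.lt_pow_self hlam.one_lt (n := (b - W.apOfModel ℓ).natAbs)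
  omega

/-- **The consumer (UNIP) of route G** (`helper7532.Stmt_Unip`), unconditionally. -/
theorem stmt_Unip : Fermat.Agent.S58.helper7532.Stmt_Unip := by
  intro W hΔ hss p hp hp2 O _ _ _ hpO ρ T hFC q hq hqp P hP σ hσ
  have key : ∀ n : ℕ,
      LinearMap.trace O ρ.V (ρ.ρ σ) - 2 ∈ IsLocalRing.maximalIdeal O ^ n ∧
        LinearMap.det (ρ.ρ σ) - 1 ∈ IsLocalRing.maximalIdeal O ^ n := by
    intro n
    obtain ⟨t, d, htr, hdet, hrel, hζ⟩ := stmt_Transfer W hΔ p hp O ρ T hFC n n σ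
    have hm0 : p ^ n ≠ 0 := pow_ne_zero n hp.ne_zero
    have hodd : Odd (p ^ n) := (hp.odd_of_ne_two hp2).pow
    have hnq : ¬ q ∣ p ^ n := fun h =>
      hqp ((Nat.prime_dvd_prime_iff_eq hq hp).mp (hq.dvd_of_dvd_pow h))
    have hcop : Nat.Coprime (p ^ n) q :=
      Nat.Coprime.pow_left n ((Nat.coprime_primes hp hq).mpr (Ne.symm hqp))
    -- `d ≡ 1` modulo `p ^ n`
    have : NeZero ((p ^ n : ℕ) : Qb) := ⟨by exact_mod_cast hm0⟩
    obtain ⟨ζ, hζprim⟩ := HasEnoughRootsOfUnity.exists_primitiveRoot Qb (p ^ n)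
    have hζ1 : ζ ^ (p ^ n) = 1 := hζprim.pow_eq_one
    have hσζ : σ ζ = ζ := inertia_apply_of_pow_eq_one P hP σ hσ (p ^ n) hm0 hcop ζ hζ1
    have hd : ζ ^ d = ζ ^ 1 := by rw [← hζ ζ hζ1, hσζ, pow_one]
    have hζ0 : ζ ≠ 0 := hζprim.ne_zero hm0
    have hdmod : d ≡ 1 [MOD p ^ n] := by
      have h1 : (Units.mk0 ζ hζ0) ^ d = (Units.mk0 ζ hζ0) ^ 1 := by
        apply Units.ext
        simpa using hd
      have h2 := pow_eq_pow_iff_modEq.mp h1
      have h3 : orderOf (Units.mk0 ζ hζ0) = p ^ n := by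
        rw [← orderOf_units (y := Units.mk0 ζ hζ0)]
        exact hζprim.eq_orderOf.symm
      rw [h3] at h2
      exact h2
    have hd1 : ((p ^ n : ℕ) : ℤ) ∣ (d : ℤ) - 1 := by
      have := (Nat.modEq_iff_dvd.mp hdmod.symm)
      simpa using this
    -- the unipotent relation on torsion
    have hrelσ : ∀ x : Tors W (p ^ n), σ • σ • x - (2 : ℤ) • σ • x + (1 : ℤ) • x = 0 := fun x =>
      Fermat.Agent.Lib.helper1663.rel_torsion W P hq hodd hnq (hss q hq) hP hσ x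
    have hkill : ∀ x : Tors W (p ^ n), ((2 : ℤ) - t) • x = 0 := by
      intro x
      have e1 := hrel (σ⁻¹ • x)
      have e2 := hrelσ (σ⁻¹ • x)
      rw [smul_inv_smul] at e1 e2
      have hQ : ((d : ℤ) - 1) • (σ⁻¹ • x) = 0 := tors_smul_eq_zero W (p ^ n) _ hd1 _
      have e3 : ((2 : ℤ) - t) • x =
          (σ • x - t • x + (d : ℤ) • σ⁻¹ • x)
            - (σ • x - (2 : ℤ) • x + (1 : ℤ) • σ⁻¹ • x)
            - ((d : ℤ) - 1) • (σ⁻¹ • x) := by
        simp only [sub_smul]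
        abel
      rw [e3, e1, e2, hQ]
      simp
    have h3 : ((p ^ n : ℕ) : ℤ) ∣ (2 : ℤ) - t :=
      dvd_of_forall_smul_eq_zero W hΔ (p ^ n) hm0 _ hkill
    have hpn : ∀ z : ℤ, ((p ^ n : ℕ) : ℤ) ∣ z → (z : O) ∈ IsLocalRing.maximalIdeal O ^ n := by
      rintro z ⟨c, rfl⟩
      push_cast
      exact Ideal.mul_mem_right _ _ (Ideal.pow_mem_pow hpO n)
    refine ⟨?_, ?_⟩
    · have e : LinearMap.trace O ρ.V (ρ.ρ σ) - 2 =
          (LinearMap.trace O ρ.V (ρ.ρ σ) - (t : O)) - (((2 : ℤ) - t : ℤ) : O) := by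
        push_cast; ring
      rw [e]
      exact Ideal.sub_mem _ htr (hpn _ h3)
    · have e : LinearMap.det (ρ.ρ σ) - 1 =
          (LinearMap.det (ρ.ρ σ) - (d : O)) + ((((d : ℤ) - 1 : ℤ)) : O) := by
        push_cast; ring
      rw [e]
      exact Ideal.add_mem _ hdet (hpn _ hd1)
  have hbot : ⨅ i, IsLocalRing.maximalIdeal O ^ i = ⊥ :=
    Ideal.iInf_pow_eq_bot_of_isLocalRing _ (IsLocalRing.maximalIdeal.isMaximal O).ne_top
  have htr2 : LinearMap.trace O ρ.V (ρ.ρ σ) = 2 := by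
    have h : LinearMap.trace O ρ.V (ρ.ρ σ) - 2 ∈ (⊥ : Ideal O) := by
      rw [← hbot, Ideal.mem_iInf]
      exact fun n => (key n).1
    exact sub_eq_zero.mp ((Ideal.mem_bot).mp h)
  have hdet1 : LinearMap.det (ρ.ρ σ) = 1 := by
    have h : LinearMap.det (ρ.ρ σ) - 1 ∈ (⊥ : Ideal O) := by
      rw [← hbot, Ideal.mem_iInf]
      exact fun n => (key n).2
    exact sub_eq_zero.mp ((Ideal.mem_bot).mp h)
  rw [charpoly_eq_of_finrank_two ρ.finrank_eq (ρ.ρ σ), htr2, hdet1]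
  simp only [map_ofNat, map_one]
  ring

end Fermat.Agent.S58.helper1646
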