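/-
S58, route #1886, step 0b (board #835, helper3055).

`U_p` lowers the level when `p ^ 2 ∣ M`:  for `f` invariant under `Γ₀(M)` and `p ^ 2 ∣ M`,
`heckeU k p f` is invariant under `Γ₀(M / p)`.  Consequently a Prelude-`IsNewform` of level `M`
has `qCoeff g p = 0` for every prime `p` with `p ^ 2 ∣ M`.

Mathlib + Prelude only.
-/
import Mathlib
import Fermat.Prelude.Def_ModularForm_HeckeOperatorForms
import Fermat.Prelude.Def_CuspForm_Newforms
import Fermat.Prelude.Thm_ModularFormClass_qCoeff_heckeU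
import Fermat.Prelude.Thm_CongruenceSubgroup_one_mem_strictPeriods_Gamma0

set_option autoImplicit false

noncomputable section

namespace Fermat.Agent.S58.helper3055

open CongruenceSubgroup UpperHalfPlane ModularForm Matrix.SpecialLinearGroup ModularFormClass
open scoped MatrixGroups ModularForm

open P2MW.S_ModularForm_heckeU_slash_eq_self_of_mem_Gamma0.ModularForm.HeckeSlashInvariance in
/-- `U_p` maps `Γ₀(M)`-invariant functions to `Γ₀(M / p)`-invariant functions when `p ^ 2 ∣ M`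
(`SL(2, ℤ)`-element form). -/
theorem heckeU_slash_mapGL_of_sq_dvd {M p : ℕ} [NeZero p] (k : ℤ) (hp2 : p ^ 2 ∣ M) (f : ℍ → ℂ)
    (hf : ∀ γ ∈ (Gamma0 M : Subgroup (GL (Fin 2) ℝ)), f ∣[k] γ = f)
    (g : SL(2, ℤ)) (hg : g ∈ Gamma0 (M / p)) :
    heckeU k p f ∣[k] (mapGL ℝ g) = heckeU k p f := by
  have hpM : p ∣ M := (dvd_pow_self p two_ne_zero).trans hp2
  have hMeq : M = p * (M / p) := (Nat.mul_div_cancel' hpM).symm
  have hpMp : p ∣ M / p := by
    obtain ⟨c, hc⟩ := hp2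
    have hp0 : 0 < p := Nat.pos_of_ne_zero (NeZero.ne p)
    refine ⟨c, ?_⟩
    rw [hc, pow_two, mul_assoc, Nat.mul_div_cancel_left _ hp0]
  have hcN : ((M / p : ℕ) : ℤ) ∣ g 1 0 :=
    (ZMod.intCast_zmod_eq_zero_iff_dvd _ _).mp (Gamma0_mem.mp hg)
  have hc : (p : ℤ) ∣ g 1 0 := (Int.natCast_dvd_natCast.mpr hpMp).trans hcN
  rw [heckeU_eq_sum_zmod k f, SlashAction.sum_slash]
  calc ∑ x : ZMod p, (f ∣[k] heckeMatrix p x.val) ∣[k] mapGL ℝ g
      = ∑ x : ZMod p, f ∣[k] heckeMatrix p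
          (affinePerm g ((ZMod.intCast_zmod_eq_zero_iff_dvd _ _).mpr hc) x).val := by
        refine Finset.sum_congr rfl fun x _ ↦ ?_
        obtain ⟨g', hg', hmul⟩ := heckeMatrix_mul_of_dvd g hc x
        have hg'N : g' ∈ Gamma0 M := by
          rw [Gamma0_mem, hg', ZMod.intCast_zmod_eq_zero_iff_dvd]
          obtain ⟨e, he⟩ := hcN
          refine ⟨e, ?_⟩
          rw [he]
          conv_rhs => rw [hMeq]
          push_cast
          ring
        rw [← SlashAction.slash_mul, hmul, SlashAction.slash_mul,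
          hf _ (Subgroup.mem_map_of_mem (mapGL ℝ) hg'N)]
    _ = ∑ x : ZMod p, f ∣[k] heckeMatrix p x.val :=
        Equiv.sum_comp (affinePerm g _) (fun x ↦ f ∣[k] heckeMatrix p x.val)

/-- `U_p` maps `Γ₀(M)`-invariant functions to `Γ₀(M / p)`-invariant functions when
`p ^ 2 ∣ M`. -/
theorem heckeU_slash_eq_self_of_sq_dvd {M p : ℕ} (k : ℤ) (hp2 : p ^ 2 ∣ M) {f : ℍ → ℂ}
    (hf : ∀ γ ∈ (Gamma0 M : Subgroup (GL (Fin 2) ℝ)), f ∣[k] γ = f)
    (γ : GL (Fin 2) ℝ) (hγ : γ ∈ (Gamma0 (M / p) : Subgroup (GL (Fin 2) ℝ))) :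
    heckeU k p f ∣[k] γ = heckeU k p f := by
  rcases Nat.eq_zero_or_pos p with rfl | hp
  · simp
  have : NeZero p := ⟨hp.ne'⟩
  obtain ⟨g, hg, rfl⟩ := hγ
  exact heckeU_slash_mapGL_of_sq_dvd k hp2 f hf g hg

theorem div_ne_zero_of_sq_dvd {M p : ℕ} (hM : M ≠ 0) (hp2 : p ^ 2 ∣ M) : M / p ≠ 0 := by
  have hp0 : p ≠ 0 := by
    rintro rfl
    simp at hp2
    exact hM hp2
  have hpM : p ∣ M := (dvd_pow_self p two_ne_zero).trans hp2
  exact (Nat.div_pos (Nat.le_of_dvd (Nat.pos_of_ne_zero hM) hpM) (Nat.pos_of_ne_zero hp0)).ne'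

/-- `U_p` as a linear map `S_k(Γ₀(M)) → S_k(Γ₀(M / p))` for `p ^ 2 ∣ M`. -/
def heckeULower (k : ℤ) {M p : ℕ} [NeZero M] (hp2 : p ^ 2 ∣ M) :
    CuspForm (Gamma0 M) k →ₗ[ℂ] CuspForm (Gamma0 (M / p)) k :=
  have : NeZero (M / p) := ⟨div_ne_zero_of_sq_dvd (NeZero.ne M) hp2⟩
  { toFun := fun f =>
      { toFun := heckeU k p ⇑f
        slash_action_eq' := fun γ hγ => heckeU_slash_eq_self_of_sq_dvd k hp2
          (fun γ hγ => SlashInvariantFormClass.slash_action_eq f γ hγ) γ hγ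
        holo' := mdifferentiable_heckeU (CuspFormClass.holo f) k p
        zero_at_cusps' := fun {c} hc => by
          refine CuspFormClass.isZeroAt_heckeU f p ?_
          rw [Subgroup.IsArithmetic.isCusp_iff_isCusp_SL2Z] at hc ⊢
          exact hc }
    map_add' := fun f g => DFunLike.coe_injective <|
      show heckeU k p ⇑(f + g) = heckeU k p ⇑f + heckeU k p ⇑g by
        rw [FunLike.coe_add, heckeU_add]
    map_smul' := fun c f => DFunLike.coe_injective <|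
      show heckeU k p ⇑(c • f) = c • heckeU k p ⇑f by
        rw [FunLike.coe_smul, heckeU_smul] }

@[simp] theorem coe_heckeULower_apply (k : ℤ) {M p : ℕ} [NeZero M] (hp2 : p ^ 2 ∣ M)
    (f : CuspForm (Gamma0 M) k) : ⇑(heckeULower k hp2 f) = heckeU k p ⇑f := rfl

theorem qCoeff_heckeULower (k : ℤ) {M p : ℕ} [NeZero M] (hp2 : p ^ 2 ∣ M)
    (f : CuspForm (Gamma0 M) k) (n : ℕ) :
    qCoeff (heckeULower k hp2 f) n = qCoeff f (p * n) := by
  have hp0 : p ≠ 0 := by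
    rintro rfl
    simp at hp2
    exact NeZero.ne M hp2
  rw [coe_heckeULower_apply, ModularFormClass.qCoeff_heckeU f (one_mem_strictPeriods_Gamma0 M) hp0,
    coeffHeckeU_apply, mul_comm]

/-! ### Consequence for Prelude newforms -/

theorem qCoeff_zero_cuspForm {M : ℕ} (g : CuspForm (Gamma0 M) 2) : qCoeff g 0 = 0 :=
  CuspFormClass.qExpansion_coeff_zero g one_pos (one_mem_strictPeriods_Gamma0 M)

/-- For a normalized eigenform `g` of level `M` and a prime `p ∣ M`, `a_{p n} = a_p a_n`. -/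
theorem qCoeff_prime_mul_of_dvd {M p : ℕ} (hp : p.Prime) (hpM : p ∣ M)
    {g : CuspForm (Gamma0 M) 2} (hg : g.IsNormalizedEigenform) (n : ℕ) :
    qCoeff g (p * n) = qCoeff g p * qCoeff g n := by
  rcases Nat.eq_zero_or_pos n with rfl | hn
  · simp [qCoeff_zero_cuspForm]
  obtain ⟨r, m, hpm, rfl⟩ := Nat.exists_eq_pow_mul_and_not_dvd hn.ne' p hp.ne_one
  have hcop : ∀ s : ℕ, (p ^ s).Coprime m := fun s =>
    Nat.Coprime.pow_left s ((Nat.Prime.coprime_iff_not_dvd hp).mpr hpm)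
  have hpow : qCoeff g (p ^ (r + 1)) = qCoeff g p * qCoeff g (p ^ r) := by
    rcases r with _ | s
    · simp [hg.qCoeff_one]
    · exact hg.qCoeff_prime_pow_of_dvd p s hp hpM
  rw [← mul_assoc, ← pow_succ', hg.qCoeff_mul_of_coprime _ _ (hcop (r + 1)),
    hg.qCoeff_mul_of_coprime _ _ (hcop r), hpow, mul_assoc]

/-- A normalized eigenform of level `M` is transported to level `M'` along an equality of all
`q`-coefficients, provided `M` and `M'` have the same prime divisors. -/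
theorem isNormalizedEigenform_of_qCoeff_eq {M M' : ℕ} (hdvd : ∀ ℓ : ℕ, ℓ.Prime → (ℓ ∣ M' ↔ ℓ ∣ M))
    {g : CuspForm (Gamma0 M) 2} (hg : g.IsNormalizedEigenform) {h : CuspForm (Gamma0 M') 2}
    (hh : ∀ n, qCoeff h n = qCoeff g n) : h.IsNormalizedEigenform where
  qCoeff_one := by rw [hh, hg.qCoeff_one]
  qCoeff_mul_of_coprime m n hmn := by
    rw [hh, hh, hh, hg.qCoeff_mul_of_coprime m n hmn]
  qCoeff_prime_pow_of_not_dvd ℓ r hℓ hℓM := by
    rw [hh, hh, hh, hh, hg.qCoeff_prime_pow_of_not_dvd ℓ r hℓ (fun hd => hℓM ((hdvd ℓ hℓ).mpr hd))]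
  qCoeff_prime_pow_of_dvd ℓ r hℓ hℓM := by
    rw [hh, hh, hh, hg.qCoeff_prime_pow_of_dvd ℓ r hℓ ((hdvd ℓ hℓ).mp hℓM)]

/-- If `p ^ 2 ∣ M` and the normalized eigenform `g` of level `M` has `a_p(g) ≠ 0`, then `g`
already lives in level `M / p`: there is a normalized eigenform of level `M / p` with the same
`q`-expansion coefficients. -/
theorem exists_lower_of_qCoeff_ne_zero {M p : ℕ} (hM : M ≠ 0) (hp : p.Prime) (hp2 : p ^ 2 ∣ M)
    {g : CuspForm (Gamma0 M) 2} (hg : g.IsNormalizedEigenform) (hap : qCoeff g p ≠ 0) :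
    ∃ h : CuspForm (Gamma0 (M / p)) 2, h.IsNormalizedEigenform ∧ ∀ n, qCoeff h n = qCoeff g n := by
  have : NeZero M := ⟨hM⟩
  have hpM : p ∣ M := (dvd_pow_self p two_ne_zero).trans hp2
  have hMeq : M = p * (M / p) := (Nat.mul_div_cancel' hpM).symm
  have hpMp : p ∣ M / p := by
    obtain ⟨c, hc⟩ := hp2
    refine ⟨c, ?_⟩
    rw [hc, pow_two, mul_assoc, Nat.mul_div_cancel_left _ hp.pos]
  set h : CuspForm (Gamma0 (M / p)) 2 := (qCoeff g p)⁻¹ • heckeULower 2 hp2 g with hh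
  have hcoeff : ∀ n, qCoeff h n = qCoeff g n := by
    intro n
    have h1 : qCoeff h n = (qCoeff g p)⁻¹ * qCoeff (heckeULower 2 hp2 g) n := by
      have h3 := ModularForm.qExpansion_smul one_pos (one_mem_strictPeriods_Gamma0 (M / p))
        (qCoeff g p)⁻¹ (heckeULower 2 hp2 g)
      have h2 : (⇑h : ℍ → ℂ) = (qCoeff g p)⁻¹ • ⇑(heckeULower 2 hp2 g) := rfl
      show (qExpansion 1 ⇑h).coeff n
        = (qCoeff g p)⁻¹ * (qExpansion 1 ⇑(heckeULower 2 hp2 g)).coeff n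
      rw [h2, h3, PowerSeries.coeff_smul, smul_eq_mul]
    rw [h1, qCoeff_heckeULower, qCoeff_prime_mul_of_dvd hp hpM hg, ← mul_assoc,
      inv_mul_cancel₀ hap, one_mul]
  refine ⟨h, isNormalizedEigenform_of_qCoeff_eq (fun ℓ hℓ => ?_) hg hcoeff, hcoeff⟩
  constructor
  · intro hd
    exact hd.trans (Nat.div_dvd_of_dvd hpM)
  · intro hd
    rw [hMeq] at hd
    rcases (Nat.Prime.dvd_mul hℓ).mp hd with h1 | h1
    · exact h1.trans hpMp
    · exact h1

/-- **Step 0b.** A Prelude newform of level `M` has `a_p = 0` at every prime `p` with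
`p ^ 2 ∣ M`. -/
theorem qCoeff_eq_zero_of_isNewform_of_sq_dvd {M p : ℕ} (hM : M ≠ 0) (hp : p.Prime)
    (hp2 : p ^ 2 ∣ M) {g : CuspForm (Gamma0 M) 2} (hg : g.IsNewform) : qCoeff g p = 0 := by
  by_contra hap
  obtain ⟨h, hh, hcoeff⟩ := exists_lower_of_qCoeff_ne_zero hM hp hp2 hg.1 hap
  have hpM : p ∣ M := (dvd_pow_self p two_ne_zero).trans hp2
  refine hg.2 (M / p) (Nat.div_dvd_of_dvd hpM)
    (Nat.div_lt_self (Nat.pos_of_ne_zero hM) hp.one_lt).ne ⟨h, hh, fun ℓ _ _ => hcoeff ℓ⟩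

/-- The second half of the Prelude property `CuspForm.NewformBadPrimeCoeff`, unconditionally. -/
theorem newformBadPrimeCoeff_sq {M : ℕ} (hM : M ≠ 0) (g : CuspForm (Gamma0 M) 2)
    (hg : g.IsNewform) (q : ℕ) (hq : q.Prime) (hq2 : q ^ 2 ∣ M) : qCoeff g q = 0 :=
  qCoeff_eq_zero_of_isNewform_of_sq_dvd hM hq hq2 hg

end Fermat.Agent.S58.helper3055
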