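import Mathlib
import Fermat.Prelude.Def_CuspForm_Newforms
import Fermat.Prelude.Def_WeierstrassCurve_ConductorLevel
import Fermat.Prelude.Def_FLTPrelim_ModularRep
import Fermat.Prelude.Thm_CongruenceSubgroup_one_mem_strictPeriods_Gamma0

/-!
# S58: the formal tail — `V_q`, `q`-stabilisation, level raising, newform descent

Author: helper1646.  Mathlib + Prelude definitions only, no hypotheses.

* `vOp M q g` : the cusp form `τ ↦ g (q τ)` of level `Γ₀(M * q)` attached to a weight 2 cusp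
  form `g` of level `Γ₀(M)`, with its `q`-expansion `qCoeff_vOp`;
* `incl M q g` : `g` seen at level `Γ₀(M * q)`;
* `exists_stabilization` : a Prelude normalised eigenform of level `M` and a prime `q ∤ M` give
  a normalised eigenform of level `M * q` with the same coefficients prime to `q`
  (`g(τ) - β g(qτ)`, `β` a root of `X² - a_q X + q`);
* `exists_raise` : raising from `M` to any squarefree multiple `R`;
* `exists_newform_level` : descent to a Prelude newform of minimal level;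
* `s58_of_core` : the frozen conclusion of S58 from the arithmetic core statement.
-/

set_option autoImplicit false

open UpperHalfPlane ModularForm Filter Topology CongruenceSubgroup ModularFormClass
open scoped MatrixGroups Manifold

namespace Fermat.Agent.S58.helper1646

/-- The image of `Γ₀(N)` in `GL(2, ℝ)` (the level group of the frozen statements). -/
abbrev G0 (N : ℕ) : Subgroup (GL (Fin 2) ℝ) :=
  Subgroup.map (Matrix.SpecialLinearGroup.mapGL ℝ) (CongruenceSubgroup.Gamma0 N)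

/-- `diag(d, 1)` in `GL(2, ℝ)`. -/
noncomputable def diagMat (d : ℕ) [NeZero d] : GL (Fin 2) ℝ :=
  Matrix.GeneralLinearGroup.mkOfDetNeZero !![(d : ℝ), 0; 0, 1]
    (by simpa [Matrix.det_fin_two] using NeZero.ne d)

@[simp] lemma diagMat_val (d : ℕ) [NeZero d] : (diagMat d).val = !![(d : ℝ), 0; 0, 1] := rfl

lemma diagMat_det (d : ℕ) [NeZero d] : (diagMat d).det.val = d := by
  simp [Matrix.GeneralLinearGroup.val_det_apply, Matrix.det_fin_two]

lemma diagMat_det_pos (d : ℕ) [NeZero d] : 0 < (diagMat d).det.val := by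
  rw [diagMat_det]
  exact_mod_cast Nat.pos_of_ne_zero (NeZero.ne d)

lemma diagMat_denom (d : ℕ) [NeZero d] (z : ℂ) : denom (diagMat d) z = 1 := by
  simp [denom]

lemma coe_diagMat_smul (d : ℕ) [NeZero d] (τ : ℍ) : ((diagMat d • τ : ℍ) : ℂ) = d * τ := by
  rw [coe_smul_of_det_pos (diagMat_det_pos d)]
  simp [num, denom]

lemma slash_diagMat (f : ℍ → ℂ) (k : ℤ) (d : ℕ) [NeZero d] (τ : ℍ) :
    (f ∣[k] diagMat d) τ = f (diagMat d • τ) * (d : ℂ) ^ (k - 1) := by
  rw [ModularForm.slash_apply, diagMat_det, diagMat_denom]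
  have : σ (diagMat d) = ContinuousAlgEquiv.refl ℝ ℂ := by
    simp only [σ, diagMat_det]
    rw [if_pos (by exact_mod_cast Nat.pos_of_ne_zero (NeZero.ne d))]
  rw [this]
  simp

lemma sl_det_expl (γ : SL(2, ℤ)) : γ 0 0 * γ 1 1 - γ 0 1 * γ 1 0 = 1 := by
  have := γ.det_coe
  rw [Matrix.det_fin_two] at this
  exact this

/-- For `γ ∈ Γ₀(M * q)`, `diag(q,1) * γ = γ' * diag(q,1)` with `γ' ∈ Γ₀(M)`. -/
lemma diagMat_mul_Gamma0 (M q : ℕ) [NeZero q] (γ : SL(2, ℤ))
    (hγ : γ ∈ CongruenceSubgroup.Gamma0 (M * q)) :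
    ∃ γ' : SL(2, ℤ), γ' ∈ CongruenceSubgroup.Gamma0 M ∧
      diagMat q * (Matrix.SpecialLinearGroup.mapGL ℝ γ)
        = (Matrix.SpecialLinearGroup.mapGL ℝ γ') * diagMat q := by
  rw [CongruenceSubgroup.Gamma0_mem, ZMod.intCast_zmod_eq_zero_iff_dvd] at hγ
  obtain ⟨c₀, hc₀⟩ := hγ
  have hdet := sl_det_expl γ
  obtain ⟨γ', h00, h01, h10, h11⟩ : ∃ γ' : SL(2, ℤ), γ' 0 0 = γ 0 0 ∧ γ' 0 1 = q * γ 0 1 ∧
      γ' 1 0 = M * c₀ ∧ γ' 1 1 = γ 1 1 :=
    ⟨⟨!![γ 0 0, q * γ 0 1; M * c₀, γ 1 1], by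
      rw [Matrix.det_fin_two_of]; rw [hc₀] at hdet; push_cast at hdet; linarith⟩,
      rfl, rfl, rfl, rfl⟩
  refine ⟨γ', ?_, ?_⟩
  · rw [CongruenceSubgroup.Gamma0_mem, ZMod.intCast_zmod_eq_zero_iff_dvd, h10]
    exact dvd_mul_right _ _
  · have hcR : ((γ 1 0 : ℤ) : ℝ) = q * (M * c₀) := by
      have : (γ 1 0 : ℤ) = q * (M * c₀) := by rw [hc₀]; push_cast; ring
      exact_mod_cast this
    apply Units.ext
    ext i j
    fin_cases i <;> fin_cases j <;>
      simp [Matrix.mul_apply, Fin.sum_univ_two, Matrix.SpecialLinearGroup.mapGL_coe_matrix,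
        h00, h01, h10, h11]
    · ring
    · rw [hcR]; ring

open ConjAct Pointwise in
lemma G0_mul_le_conj (M q : ℕ) [NeZero q] :
    G0 (M * q) ≤ toConjAct (diagMat q)⁻¹ • G0 M := by
  rintro g ⟨γ, hγ, rfl⟩
  obtain ⟨γ', hγ', h⟩ := diagMat_mul_Gamma0 M q γ hγ
  rw [map_inv, Subgroup.mem_inv_pointwise_smul_iff, toConjAct_smul]
  have : diagMat q * (Matrix.SpecialLinearGroup.mapGL ℝ γ) * (diagMat q)⁻¹
      = Matrix.SpecialLinearGroup.mapGL ℝ γ' := by
    rw [h, mul_inv_cancel_right]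
  rw [this]
  exact ⟨γ', hγ', rfl⟩

lemma Gamma0_mul_le (M q : ℕ) :
    CongruenceSubgroup.Gamma0 (M * q) ≤ CongruenceSubgroup.Gamma0 M := by
  intro γ hγ
  rw [CongruenceSubgroup.Gamma0_mem, ZMod.intCast_zmod_eq_zero_iff_dvd] at hγ ⊢
  exact (Int.natCast_dvd_natCast.mpr (Dvd.intro q rfl)).trans hγ

lemma G0_mul_le (M q : ℕ) : G0 (M * q) ≤ G0 M :=
  Subgroup.map_mono (Gamma0_mul_le M q)

/-- `τ ↦ q ^ (k - 1) g (q τ)` as a cusp form on `Γ₀(M * q)`. -/
noncomputable def vOp₀ (M q : ℕ) [NeZero q] (g : CuspForm (G0 M) 2) : CuspForm (G0 (M * q)) 2 where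
  toFun := ⇑g ∣[(2 : ℤ)] diagMat q
  slash_action_eq' := fun γ hγ =>
    (CuspForm.translate g (diagMat q)).slash_action_eq' γ (G0_mul_le_conj M q hγ)
  holo' := (ModularFormClass.holo g).slash 2 (diagMat q)
  zero_at_cusps' := fun hc =>
    (CuspForm.translate g (diagMat q)).zero_at_cusps' (hc.mono (G0_mul_le_conj M q))

/-- `V_q`: `τ ↦ g (q τ)` as a cusp form on `Γ₀(M * q)`. -/
noncomputable def vOp (M q : ℕ) [NeZero q] (g : CuspForm (G0 M) 2) : CuspForm (G0 (M * q)) 2 :=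
  ((q : ℂ) ^ ((2 : ℤ) - 1))⁻¹ • vOp₀ M q g

lemma vOp_apply (M q : ℕ) [NeZero q] (g : CuspForm (G0 M) 2) (τ : ℍ) :
    vOp M q g τ = g (diagMat q • τ) := by
  have hd0 : (q : ℂ) ^ ((2 : ℤ) - 1) ≠ 0 := zpow_ne_zero _ (by exact_mod_cast NeZero.ne q)
  show ((q : ℂ) ^ ((2 : ℤ) - 1))⁻¹ * (⇑g ∣[(2 : ℤ)] diagMat q) τ = _
  rw [slash_diagMat]
  field_simp

/-- A cusp form of level `Γ₀(M)` seen at level `Γ₀(M * q)`. -/
noncomputable def incl (M q : ℕ) (g : CuspForm (G0 M) 2) : CuspForm (G0 (M * q)) 2 where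
  toFun := ⇑g
  slash_action_eq' := fun γ hγ => g.slash_action_eq' γ (G0_mul_le M q hγ)
  holo' := g.holo'
  zero_at_cusps' := fun hc => g.zero_at_cusps' (hc.mono (G0_mul_le M q))

@[simp] lemma incl_apply (M q : ℕ) (g : CuspForm (G0 M) 2) (τ : ℍ) : incl M q g τ = g τ := rfl

lemma coe_incl (M q : ℕ) (g : CuspForm (G0 M) 2) : (⇑(incl M q g) : ℍ → ℂ) = ⇑g := rfl

lemma qCoeff_incl (M q : ℕ) (g : CuspForm (G0 M) 2) (n : ℕ) :
    qCoeff (incl M q g) n = qCoeff g n := rfl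

lemma qParam_diagMat_smul (d : ℕ) [NeZero d] (τ : ℍ) :
    Function.Periodic.qParam 1 ((diagMat d • τ : ℍ) : ℂ)
      = Function.Periodic.qParam 1 (τ : ℂ) ^ d := by
  rw [coe_diagMat_smul, Function.Periodic.qParam, Function.Periodic.qParam, ← Complex.exp_nat_mul]
  congr 1
  push_cast
  ring

/-- The `q`-expansion of a cusp form of level `Γ₀(M)` converges to it. -/
lemma hasSum_qCoeff (M : ℕ) [NeZero M] (g : CuspForm (G0 M) 2) (τ : ℍ) :
    HasSum (fun m : ℕ => qCoeff g m * Function.Periodic.qParam 1 (τ : ℂ) ^ m) (g τ) :=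
  ModularForm.hasSum_qExpansion (f := g) one_pos
    (CongruenceSubgroup.one_mem_strictPeriods_Gamma0 M) τ

/-- Uniqueness of `q`-expansion coefficients at level `Γ₀(M)`. -/
lemma qCoeff_unique (M : ℕ) [NeZero M] (g : CuspForm (G0 M) 2) {c : ℕ → ℂ}
    (hc : ∀ τ : ℍ, HasSum (fun m : ℕ => c m * Function.Periodic.qParam 1 (τ : ℂ) ^ m) (g τ))
    (n : ℕ) : qCoeff g n = c n :=
  (ModularFormClass.qExpansion_coeff_unique one_pos
    (CongruenceSubgroup.one_mem_strictPeriods_Gamma0 M) (f := g) (c := c)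
    (by simpa [smul_eq_mul] using hc) n).symm

/-- The coefficient sequence of `g (q τ)`. -/
noncomputable def vCoeff (q : ℕ) (a : ℕ → ℂ) (n : ℕ) : ℂ := if q ∣ n then a (n / q) else 0

lemma hasSum_vOp (M q : ℕ) [NeZero M] [NeZero q] (g : CuspForm (G0 M) 2) (τ : ℍ) :
    HasSum (fun m : ℕ => vCoeff q (qCoeff g) m * Function.Periodic.qParam 1 (τ : ℂ) ^ m)
      (vOp M q g τ) := by
  have hq0 : 0 < q := Nat.pos_of_ne_zero (NeZero.ne q)
  have h0 := hasSum_qCoeff M g (diagMat q • τ)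
  rw [qParam_diagMat_smul] at h0
  rw [vOp_apply]
  have hinj : Function.Injective (fun n : ℕ => q * n) := fun a b h =>
    Nat.eq_of_mul_eq_mul_left hq0 h
  rw [← hinj.hasSum_iff]
  · have hfun : ((fun m : ℕ => vCoeff q (qCoeff g) m * Function.Periodic.qParam 1 (τ : ℂ) ^ m) ∘
        fun n : ℕ => q * n) = fun n : ℕ =>
          qCoeff g n * (Function.Periodic.qParam 1 (τ : ℂ) ^ q) ^ n := by
      funext n
      simp only [Function.comp_apply, vCoeff, dvd_mul_right, if_true,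
        Nat.mul_div_cancel_left n hq0, pow_mul]
    rw [hfun]
    exact h0
  · intro x hx
    have hnd : ¬ q ∣ x := fun ⟨y, hy⟩ => hx ⟨y, hy.symm⟩
    simp [vCoeff, hnd]

/-- The `q`-expansion of `V_q g`. -/
theorem qCoeff_vOp (M q : ℕ) [NeZero M] [NeZero q] (g : CuspForm (G0 M) 2) (n : ℕ) :
    qCoeff (vOp M q g) n = if q ∣ n then qCoeff g (n / q) else 0 :=
  haveI : NeZero (M * q) := ⟨Nat.mul_ne_zero (NeZero.ne M) (NeZero.ne q)⟩
  qCoeff_unique (M * q) (vOp M q g) (hasSum_vOp M q g) n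

/-- The form `g - β • V_q g` of level `Γ₀(M * q)`. -/
noncomputable def stab (M q : ℕ) [NeZero q] (β : ℂ) (g : CuspForm (G0 M) 2) :
    CuspForm (G0 (M * q)) 2 :=
  incl M q g - β • vOp M q g

lemma stab_apply (M q : ℕ) [NeZero q] (β : ℂ) (g : CuspForm (G0 M) 2) (τ : ℍ) :
    stab M q β g τ = g τ - β * vOp M q g τ := rfl

/-- The `q`-expansion of `g - β • V_q g`. -/
theorem qCoeff_stab (M q : ℕ) [NeZero M] [NeZero q] (g : CuspForm (G0 M) 2)
    (β : ℂ) (n : ℕ) :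
    qCoeff (stab M q β g) n = qCoeff g n - β * vCoeff q (qCoeff g) n := by
  have : NeZero (M * q) := ⟨Nat.mul_ne_zero (NeZero.ne M) (NeZero.ne q)⟩
  refine qCoeff_unique (M * q) (stab M q β g)
    (c := fun n => qCoeff g n - β * vCoeff q (qCoeff g) n) (fun τ => ?_) n
  have h1 := hasSum_qCoeff M g τ
  have h2 := (hasSum_vOp M q g τ).mul_left β
  have h3 := h1.sub h2
  rw [stab_apply]
  have hfun : (fun m : ℕ => (qCoeff g m - β * vCoeff q (qCoeff g) m) *
      Function.Periodic.qParam 1 (τ : ℂ) ^ m) = fun m : ℕ =>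
        qCoeff g m * Function.Periodic.qParam 1 (τ : ℂ) ^ m -
          β * (vCoeff q (qCoeff g) m * Function.Periodic.qParam 1 (τ : ℂ) ^ m) := by
    funext m
    ring
  rw [hfun]
  exact h3

/-! ### `q`-stabilisation -/

lemma not_dvd_prime_pow {p q : ℕ} (hp : p.Prime) (hq : q.Prime) (hpq : p ≠ q) (k : ℕ) :
    ¬ q ∣ p ^ k := fun h =>
  hpq ((Nat.prime_dvd_prime_iff_eq hq hp).mp (hq.dvd_of_dvd_pow h)).symm

/-- **`q`-stabilisation.** A normalised eigenform `g` of level `M` (in the Prelude sense) and a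
prime `q ∤ M` give a normalised eigenform of level `M * q` with the same coefficients at all
indices prime to `q`. -/
theorem exists_stabilization {M q : ℕ} [NeZero M] (hq : q.Prime) (hqM : ¬ q ∣ M)
    (g : CuspForm (G0 M) 2) (hg : g.IsNormalizedEigenform) :
    ∃ h : CuspForm (G0 (M * q)) 2, h.IsNormalizedEigenform ∧
      ∀ n : ℕ, ¬ q ∣ n → qCoeff h n = qCoeff g n := by
  have : NeZero q := ⟨hq.ne_zero⟩
  obtain ⟨s, hs⟩ := IsAlgClosed.exists_eq_mul_self (discrim (1 : ℂ) (-(qCoeff g q)) q)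
  obtain ⟨β, hβ⟩ := exists_quadratic_eq_zero (one_ne_zero (α := ℂ)) ⟨s, hs⟩
  have hb : ∀ n, qCoeff (stab M q β g) n
      = qCoeff g n - β * vCoeff q (qCoeff g) n := qCoeff_stab M q g β
  have hb_not : ∀ n, ¬ q ∣ n → qCoeff (stab M q β g) n = qCoeff g n := by
    intro n hn
    rw [hb, vCoeff, if_neg hn, mul_zero, sub_zero]
  have hb_dvd : ∀ n, q ∣ n → qCoeff (stab M q β g) n
      = qCoeff g n - β * qCoeff g (n / q) := by
    intro n hn
    rw [hb, vCoeff, if_pos hn]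
  refine ⟨stab M q β g, ⟨?_, ?_, ?_, ?_⟩, hb_not⟩
  · rw [hb_not 1 hq.not_dvd_one]
    exact hg.qCoeff_one
  · intro m n hcop
    by_cases hm : q ∣ m
    · have hn : ¬ q ∣ n := fun hn => hq.not_dvd_one (hcop ▸ Nat.dvd_gcd hm hn)
      have hdiv : m * n / q = m / q * n := (Nat.div_mul_right_comm hm n).symm
      rw [hb_dvd (m * n) (Dvd.dvd.mul_right hm n), hb_dvd m hm, hb_not n hn, hdiv,
        hg.qCoeff_mul_of_coprime m n hcop,
        hg.qCoeff_mul_of_coprime (m / q) n (hcop.coprime_div_left hm)]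
      ring
    · by_cases hn : q ∣ n
      · have hdiv : m * n / q = m * (n / q) := Nat.mul_div_assoc m hn
        rw [hb_dvd (m * n) (Dvd.dvd.mul_left hn m), hb_not m hm, hb_dvd n hn, hdiv,
          hg.qCoeff_mul_of_coprime m n hcop,
          hg.qCoeff_mul_of_coprime m (n / q) (hcop.coprime_div_right hn)]
        ring
      · have hmn : ¬ q ∣ m * n := fun h => (hq.dvd_mul.mp h).elim hm hn
        rw [hb_not _ hmn, hb_not m hm, hb_not n hn]
        exact hg.qCoeff_mul_of_coprime m n hcop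
  · intro p r hp hpMq
    have hpq : p ≠ q := fun h => hpMq (h ▸ Dvd.intro_left M rfl)
    have hpM : ¬ p ∣ M := fun h => hpMq (Dvd.dvd.mul_right h q)
    rw [hb_not _ (not_dvd_prime_pow hp hq hpq _), hb_not _ (not_dvd_prime_pow hp hq hpq _),
      hb_not _ (not_dvd_prime_pow hp hq hpq _),
      hb_not p (fun h => hpq ((Nat.prime_dvd_prime_iff_eq hq hp).mp h).symm)]
    exact hg.qCoeff_prime_pow_of_not_dvd p r hp hpM
  · intro p r hp hpMq
    by_cases hpq : p = q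
    · subst hpq
      have h2 : p ^ (r + 2) / p = p ^ (r + 1) := by
        rw [pow_succ p (r + 1)]
        exact Nat.mul_div_cancel _ hp.pos
      have h1 : p ^ (r + 1) / p = p ^ r := by
        rw [pow_succ p r]
        exact Nat.mul_div_cancel _ hp.pos
      rw [hb_dvd _ (Dvd.intro_left _ (pow_succ p (r + 1)).symm),
        hb_dvd _ (Dvd.intro_left _ (pow_succ p r).symm), hb_dvd p dvd_rfl, h2, h1,
        Nat.div_self hp.pos, hg.qCoeff_one, hg.qCoeff_prime_pow_of_not_dvd p r hp hqM]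
      linear_combination (-(qCoeff g (p ^ r))) * hβ
    · have hpM : p ∣ M := (hp.dvd_mul.mp hpMq).resolve_right
        (fun h => hpq ((Nat.prime_dvd_prime_iff_eq hp hq).mp h))
      rw [hb_not _ (not_dvd_prime_pow hp hq hpq _), hb_not _ (not_dvd_prime_pow hp hq hpq _),
        hb_not p (fun h => hpq ((Nat.prime_dvd_prime_iff_eq hq hp).mp h).symm)]
      exact hg.qCoeff_prime_pow_of_dvd p r hp hpM

/-! ### Raising the level to a squarefree multiple -/

/-- **Level raising.** A normalised eigenform of level `M` gives, for every squarefree multiple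
`R` of `M`, a normalised eigenform of level `R` with the same coefficients at the primes not
dividing `R`. -/
theorem exists_raise {R : ℕ} (hR : Squarefree R) (M : ℕ) (hMR : M ∣ R)
    (g : CuspForm (G0 M) 2) (hg : g.IsNormalizedEigenform) :
    ∃ h : CuspForm (G0 R) 2, h.IsNormalizedEigenform ∧
      ∀ ℓ : ℕ, ℓ.Prime → ¬ ℓ ∣ R → qCoeff h ℓ = qCoeff g ℓ := by
  have hR0 : R ≠ 0 := hR.ne_zero
  induction hk : R / M using Nat.strong_induction_on generalizing M with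
  | _ k ih =>
    have hM0 : M ≠ 0 := ne_zero_of_dvd_ne_zero hR0 hMR
    have hMpos : 0 < M := Nat.pos_of_ne_zero hM0
    by_cases hMeq : M = R
    · subst hMeq
      exact ⟨g, hg, fun _ _ _ => rfl⟩
    · have hmul : M * (R / M) = R := Nat.mul_div_cancel' hMR
      have hne1 : R / M ≠ 1 := fun h => hMeq (by rw [h, mul_one] at hmul; exact hmul)
      have hpos : 0 < R / M := Nat.div_pos (Nat.le_of_dvd (Nat.pos_of_ne_zero hR0) hMR) hMpos
      obtain ⟨q, hq, hqd⟩ := Nat.exists_prime_and_dvd hne1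
      have hMq : M * q ∣ R := by
        rw [← hmul]
        exact Nat.mul_dvd_mul_left M hqd
      have hqM : ¬ q ∣ M := by
        intro hqM
        have hqq : q * q ∣ R := by
          rw [← hmul]
          exact Nat.mul_dvd_mul hqM hqd
        exact hq.not_isUnit (hR q hqq)
      have hqR : q ∣ R := (Dvd.intro_left M rfl).trans hMq
      have : NeZero M := ⟨hM0⟩
      obtain ⟨h, hh, hcoef⟩ := exists_stabilization hq hqM g hg
      have hlt : R / (M * q) < k := by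
        rw [← hk, ← Nat.div_div_eq_div_mul]
        exact Nat.div_lt_self hpos hq.one_lt
      obtain ⟨h', hh', hcoef'⟩ := ih (R / (M * q)) hlt (M * q) hMq h hh rfl
      refine ⟨h', hh', fun ℓ hℓ hℓR => ?_⟩
      rw [hcoef' ℓ hℓ hℓR]
      refine hcoef ℓ fun hqℓ => hℓR ?_
      rw [← (Nat.prime_dvd_prime_iff_eq hq hℓ).mp hqℓ]
      exact hqR

/-! ### Descent to a newform of minimal level -/

/-- **Minimal level.** A normalised eigenform `f` of level `N ≠ 0` has a companion Prelude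
newform `g` of some level `M ∣ N` with the same coefficients at the primes not dividing `N`. -/
theorem exists_newform_level {N : ℕ} (hN : N ≠ 0) (f : CuspForm (G0 N) 2)
    (hf : f.IsNormalizedEigenform) :
    ∃ M : ℕ, M ∣ N ∧ ∃ g : CuspForm (G0 M) 2, g.IsNewform ∧
      ∀ ℓ : ℕ, ℓ.Prime → ¬ ℓ ∣ N → qCoeff g ℓ = qCoeff f ℓ := by
  classical
  have hex : ∃ M : ℕ, M ∣ N ∧ CuspForm.GoodEigensystemOccursAt f M :=
    ⟨N, dvd_rfl, CuspForm.GoodEigensystemOccursAt.refl hf⟩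
  obtain ⟨hMN, g, hg, hgf⟩ := Nat.find_spec hex
  refine ⟨Nat.find hex, hMN, g, ⟨hg, fun M' hM'M hne hocc => ?_⟩, hgf⟩
  obtain ⟨g', hg', hg'g⟩ := hocc
  have hP : M' ∣ N ∧ CuspForm.GoodEigensystemOccursAt f M' :=
    ⟨hM'M.trans hMN, g', hg', fun ℓ hℓ hℓN =>
      (hg'g ℓ hℓ (fun h => hℓN (h.trans hMN))).trans (hgf ℓ hℓ hℓN)⟩
  have hle : Nat.find hex ≤ M' := Nat.find_min' hex hP
  have hM0 : Nat.find hex ≠ 0 := ne_zero_of_dvd_ne_zero hN hMN
  exact hne (le_antisymm (Nat.le_of_dvd (Nat.pos_of_ne_zero hM0) hM'M) hle)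

/-! ### The statement-facing reduction -/

/-- The arithmetic core of S58 for a curve `W` and a level `N`: for a Prelude newform `g` of
level `M ∣ N` whose coefficients at the good primes not dividing `N` are those of `W`, the level
`M` divides the conductor level of `W` and the coefficients of `g` at ALL good primes are those
of `W`. -/
def Stmt_Core (W : WeierstrassCurve ℤ) (N : ℕ) : Prop :=
  ∀ (M : ℕ) (g : CuspForm (G0 M) 2), M ∣ N → g.IsNewform →
    (∀ ℓ : ℕ, ℓ.Prime → W.IsGoodPrimeFor ℓ → ¬ ℓ ∣ N →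
      qCoeff g ℓ = (W.apOfModel ℓ : ℂ)) →
    M ∣ W.conductorLevel ∧
      ∀ ℓ : ℕ, ℓ.Prime → W.IsGoodPrimeFor ℓ → qCoeff g ℓ = (W.apOfModel ℓ : ℂ)

/-- The hypotheses `hbad`, `hN3` of S58 force `N ≠ 0` and `Δ ≠ 0`. -/
theorem ne_zero_of_hyps (W : WeierstrassCurve ℤ) (N : ℕ)
    (hbad : ∀ ℓ : ℕ, ℓ.Prime → (ℓ : ℤ) ∣ W.Δ → ℓ ∣ N)
    (hN3 : ∀ q : ℕ, q.Prime → ¬ q ^ 3 ∣ N) : N ≠ 0 ∧ W.Δ ≠ 0 := by
  have hN0 : N ≠ 0 := by
    rintro rfl
    exact hN3 2 Nat.prime_two (dvd_zero _)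
  refine ⟨hN0, fun hΔ => ?_⟩
  obtain ⟨ℓ, hℓN, hℓ⟩ := Nat.exists_infinite_primes (N + 1)
  have hdvd : ℓ ∣ N := hbad ℓ hℓ (by rw [hΔ]; exact dvd_zero _)
  have := Nat.le_of_dvd (Nat.pos_of_ne_zero hN0) hdvd
  omega

/-- **S58 from its arithmetic core.** The frozen conclusion of S58 follows from the hypotheses
`hN`, `hbad`, `hN3` of the frozen statement and the core statement `Stmt_Core W N` (which may
be proved assuming `Δ ≠ 0` and `N ≠ 0`). -/
theorem s58_of_core (W : WeierstrassCurve ℤ) (N : ℕ)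
    (hN : W.IsModularModelOfLevel N)
    (hbad : ∀ ℓ : ℕ, ℓ.Prime → (ℓ : ℤ) ∣ W.Δ → ℓ ∣ N)
    (hN3 : ∀ q : ℕ, q.Prime → ¬ q ^ 3 ∣ N)
    (core : W.Δ ≠ 0 → N ≠ 0 → Stmt_Core W N) :
    W.IsModularModelOfLevel W.conductorLevel := by
  obtain ⟨hN0, hΔ⟩ := ne_zero_of_hyps W N hbad hN3
  obtain ⟨f, hf, hfW⟩ := hN
  obtain ⟨M, hMN, g, hg, hgf⟩ := exists_newform_level hN0 f hf
  obtain ⟨hMR, hgW⟩ := core hΔ hN0 M g hMN hg
    (fun ℓ hℓ hgood hℓN => (hgf ℓ hℓ hℓN).trans (hfW ℓ hℓ hgood hℓN))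
  obtain ⟨h, hh, hcoef⟩ := exists_raise W.squarefree_conductorLevel M hMR g hg.1
  exact ⟨h, hh, fun ℓ hℓ hgood hℓR => (hcoef ℓ hℓ hℓR).trans (hgW ℓ hℓ hgood)⟩

/-- **The frozen statement S58 from the core**, in the exact shape of the template: it suffices
to prove `Stmt_Core W N` for every semistable `W` with `Δ ≠ 0`, every cube-free `N ≠ 0`
divisible by the bad primes of `W` at which `W` is modular, and every odd prime `p` with
`W[p]` irreducible and `p² ∤ N`. -/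
theorem frozen_of_core
    (H : ∀ (W : WeierstrassCurve ℤ), W.IsSemistableModel → ∀ (N p : ℕ), p.Prime → p ≠ 2 →
      W.ModRepIsIrreducible p → ¬ p ^ 2 ∣ N → W.IsModularModelOfLevel N →
      (∀ ℓ : ℕ, ℓ.Prime → (ℓ : ℤ) ∣ W.Δ → ℓ ∣ N) → (∀ q : ℕ, q.Prime → ¬ q ^ 3 ∣ N) →
      W.Δ ≠ 0 → N ≠ 0 → Stmt_Core W N)
    (W : WeierstrassCurve ℤ) (hss : W.IsSemistableModel) (N : ℕ)
    (p : ℕ) [Fact p.Prime] (hp2 : p ≠ 2) (hirr : W.ModRepIsIrreducible p)
    (hp2N : ¬ p ^ 2 ∣ N)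
    (hN : W.IsModularModelOfLevel N) (hbad : ∀ ℓ : ℕ, ℓ.Prime → (ℓ : ℤ) ∣ W.Δ → ℓ ∣ N)
    (hN3 : ∀ q : ℕ, q.Prime → ¬ q ^ 3 ∣ N) :
    W.IsModularModelOfLevel W.conductorLevel :=
  s58_of_core W N hN hbad hN3 fun hΔ hN0 =>
    H W hss N p Fact.out hp2 hirr hp2N hN hbad hN3 hΔ hN0

end Fermat.Agent.S58.helper1646
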