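import Mathlib
import Fermat.Prelude.Def_CuspForm_Newforms
import Fermat.Prelude.Def_ModularForm_HeckeOperatorForms
import Fermat.Prelude.Thm_ModularFormClass_qCoeff_heckeU
import Fermat.Prelude.Thm_CongruenceSubgroup_one_mem_strictPeriods_Gamma0
import Fermat.Agent.S58.helper1646_Raise

/-!
# S58, step 0a: level operators on weight 2 cusp forms of level `Γ₀(N)` (function level)

Author: helper6078.

All levels live in ONE ambient space `ℍ → ℂ`: `S N` is the `ℂ`-submodule of functions that are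
weight 2 cusp forms on `Γ₀(N)`.  This removes every dependent-type cast between levels.

* `sum_slash_eq_of_transversal`, `sum_slash_transversal_unique` : sums over coset transversals;
* `CF` : holomorphic functions vanishing at all cusps of `SL(2, ℤ)` (weight 2), stable under slash
  by rational matrices; `mem_S_iff : F ∈ S N ↔ F ∈ CF ∧ F is Γ₀(N)-invariant`;
* `Vf p` (`F(τ) ↦ F(pτ)`), `Uf p` (the Prelude `heckeU 2 p`) with levels and `q`-expansions.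
-/

set_option autoImplicit false

open UpperHalfPlane ModularForm Filter Topology CongruenceSubgroup ModularFormClass OnePoint
open scoped MatrixGroups Manifold

namespace Fermat.Agent.S58.helper6078

open Fermat.Agent.S58.helper1646 (G0)

/-! ## 1. Transversal lemmas for slash actions -/

section Transversal

variable {G : Type*} [Group G] {α : Type*} [AddCommGroup α] {β : Type*} [SlashAction β G α]

/-- If `θ` is `K`-invariant and `r` is a complete irredundant system of representatives of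
`K \ H`, then `∑ i, θ ∣ r i` is `H`-invariant. -/
theorem sum_slash_eq_of_transversal (k : β) (H K : Subgroup G) (θ : α)
    (hθ : ∀ κ ∈ K, θ ∣[k] κ = θ) {ι : Type*} [Fintype ι] (r : ι → G)
    (hr : ∀ i, r i ∈ H)
    (hinj : ∀ i j, r i * (r j)⁻¹ ∈ K → i = j)
    (hsurj : ∀ h ∈ H, ∃ i, h * (r i)⁻¹ ∈ K) {h : G} (hh : h ∈ H) :
    (∑ i, θ ∣[k] r i) ∣[k] h = ∑ i, θ ∣[k] r i := by
  classical
  choose σ hσ using fun i => hsurj (r i * h) (H.mul_mem (hr i) hh)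
  have hσinj : Function.Injective σ := by
    intro i i' hii
    apply hinj
    have h1 := hσ i
    have h2 := hσ i'
    rw [hii] at h1
    have : r i * (r i')⁻¹ = (r i * h * (r (σ i'))⁻¹) * (r i' * h * (r (σ i'))⁻¹)⁻¹ := by group
    rw [this]
    exact K.mul_mem h1 (K.inv_mem h2)
  have hσbij : Function.Bijective σ := Finite.injective_iff_bijective.mp hσinj
  rw [SlashAction.sum_slash]
  rw [← Equiv.sum_comp (Equiv.ofBijective σ hσbij) (fun i => θ ∣[k] r i)]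
  refine Finset.sum_congr rfl fun i _ => ?_
  rw [← SlashAction.slash_mul]
  have : r i * h = (r i * h * (r (σ i))⁻¹) * r (σ i) := by group
  rw [this, SlashAction.slash_mul, hθ _ (hσ i)]
  rfl

/-- Two complete irredundant systems of representatives of `K \ H` give the same sum. -/
theorem sum_slash_transversal_unique (k : β) (H K : Subgroup G) (θ : α)
    (hθ : ∀ κ ∈ K, θ ∣[k] κ = θ) {ι ι' : Type*} [Fintype ι] [Fintype ι']
    (r : ι → G) (r' : ι' → G)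
    (hr : ∀ i, r i ∈ H) (hr' : ∀ i, r' i ∈ H)
    (hinj : ∀ i j, r i * (r j)⁻¹ ∈ K → i = j)
    (hinj' : ∀ i j, r' i * (r' j)⁻¹ ∈ K → i = j)
    (hsurj : ∀ h ∈ H, ∃ i, h * (r i)⁻¹ ∈ K)
    (hsurj' : ∀ h ∈ H, ∃ i, h * (r' i)⁻¹ ∈ K) :
    ∑ i, θ ∣[k] r i = ∑ i, θ ∣[k] r' i := by
  classical
  choose σ hσ using fun i => hsurj' (r i) (hr i)
  choose τ hτ using fun i => hsurj (r' i) (hr' i)
  have h1 : ∀ i, τ (σ i) = i := by
    intro i
    symm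
    apply hinj
    have : r i * (r (τ (σ i)))⁻¹ = (r i * (r' (σ i))⁻¹) * (r' (σ i) * (r (τ (σ i)))⁻¹) := by group
    rw [this]
    exact K.mul_mem (hσ i) (hτ (σ i))
  have h2 : ∀ i, σ (τ i) = i := by
    intro i
    symm
    apply hinj'
    have : r' i * (r' (σ (τ i)))⁻¹ = (r' i * (r (τ i))⁻¹) * (r (τ i) * (r' (σ (τ i)))⁻¹) := by
      group
    rw [this]
    exact K.mul_mem (hτ i) (hσ (τ i))
  let e : ι ≃ ι' := ⟨σ, τ, h1, h2⟩
  rw [← Equiv.sum_comp e (fun i => θ ∣[k] r' i)]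
  refine Finset.sum_congr rfl fun i _ => ?_
  have : r i = (r i * (r' (σ i))⁻¹) * r' (σ i) := by group
  conv_lhs => rw [this]
  rw [SlashAction.slash_mul, hθ _ (hσ i)]
  rfl

end Transversal

/-! ## 2. Cuspidal holomorphic functions, without a level -/

/-- Holomorphic functions on `ℍ` vanishing (in weight 2) at every cusp of `SL(2, ℤ)`. -/
def CF : Submodule ℂ (ℍ → ℂ) where
  carrier := {F | MDifferentiable 𝓘(ℂ) 𝓘(ℂ) F ∧ ∀ c : OnePoint ℝ, IsCusp c 𝒮ℒ → c.IsZeroAt F 2}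
  add_mem' := by
    rintro F G ⟨hF, hF'⟩ ⟨hG, hG'⟩
    exact ⟨hF.add hG, fun c hc => (hF' c hc).add (hG' c hc)⟩
  zero_mem' := by
    refine ⟨fun _ => mdifferentiableAt_const, fun c _ g _ => ?_⟩
    simpa using! Filter.zero_zeroAtFilter _
  smul_mem' := by
    rintro a F ⟨hF, hF'⟩
    refine ⟨by simpa using hF.const_smul (a • (1 : ℂ)), fun c hc g hg => ?_⟩
    simp_rw [IsZeroAtImInfty, Filter.ZeroAtFilter, ModularForm.smul_slash]
    exact (hF' c hc g hg).smul _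

lemma mem_CF_iff {F : ℍ → ℂ} :
    F ∈ CF ↔ MDifferentiable 𝓘(ℂ) 𝓘(ℂ) F ∧ ∀ c : OnePoint ℝ, IsCusp c 𝒮ℒ → c.IsZeroAt F 2 :=
  Iff.rfl

lemma coe_mem_CF {N : ℕ} [NeZero N] (f : CuspForm (G0 N) 2) : (⇑f : ℍ → ℂ) ∈ CF :=
  ⟨f.holo', fun _ hc =>
    f.zero_at_cusps' ((Subgroup.IsArithmetic.isCusp_iff_isCusp_SL2Z (G0 N)).mpr hc)⟩

/-- Slash by a rational matrix preserves `CF`. -/
lemma slash_rat_mem_CF {F : ℍ → ℂ} (hF : F ∈ CF) (g : GL (Fin 2) ℚ) :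
    F ∣[(2 : ℤ)] (g.map (Rat.castHom ℝ)) ∈ CF := by
  refine ⟨hF.1.slash 2 _, fun c hc => ?_⟩
  rw [← OnePoint.IsZeroAt.smul_iff]
  apply hF.2
  rw [isCusp_SL2Z_iff] at hc ⊢
  obtain ⟨c₀, rfl⟩ := hc
  exact ⟨g • c₀, by rw [← Rat.coe_castHom, OnePoint.map_smul]⟩

lemma slash_SL_mem_CF {F : ℍ → ℂ} (hF : F ∈ CF) (γ : SL(2, ℤ)) :
    F ∣[(2 : ℤ)] γ ∈ CF := by
  refine ⟨hF.1.slash 2 _, fun c hc => ?_⟩
  rw [ModularForm.SL_slash, ← OnePoint.IsZeroAt.smul_iff]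
  apply hF.2
  exact hc.smul_of_mem ⟨γ, rfl⟩

/-! ## 3. The spaces `S N` -/

/-- Weight 2 cusp forms of level `Γ₀(N)`, as a submodule of `ℍ → ℂ`. -/
def S (N : ℕ) : Submodule ℂ (ℍ → ℂ) where
  carrier := {F | ∃ f : CuspForm (G0 N) 2, (⇑f : ℍ → ℂ) = F}
  add_mem' := by
    rintro _ _ ⟨f, rfl⟩ ⟨g, rfl⟩
    exact ⟨f + g, rfl⟩
  zero_mem' := ⟨0, rfl⟩
  smul_mem' := by
    rintro c _ ⟨f, rfl⟩
    exact ⟨c • f, rfl⟩

lemma coe_mem_S {N : ℕ} (f : CuspForm (G0 N) 2) : (⇑f : ℍ → ℂ) ∈ S N := ⟨f, rfl⟩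

lemma mem_S_iff {N : ℕ} [NeZero N] {F : ℍ → ℂ} :
    F ∈ S N ↔ F ∈ CF ∧ ∀ γ ∈ Gamma0 N, F ∣[(2 : ℤ)] γ = F := by
  constructor
  · rintro ⟨f, rfl⟩
    exact ⟨coe_mem_CF f, fun γ hγ => f.slash_action_eq' _ ⟨γ, hγ, rfl⟩⟩
  · rintro ⟨hF, hinv⟩
    refine ⟨{ toFun := F
              slash_action_eq' := ?_
              holo' := hF.1
              zero_at_cusps' := fun hc =>
                hF.2 _ ((Subgroup.IsArithmetic.isCusp_iff_isCusp_SL2Z (G0 N)).mp hc) }, rfl⟩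
    rintro _ ⟨γ, hγ, rfl⟩
    exact hinv γ hγ

lemma mem_CF_of_mem_S {N : ℕ} [NeZero N] {F : ℍ → ℂ} (hF : F ∈ S N) : F ∈ CF :=
  (mem_S_iff.mp hF).1

lemma slash_eq_of_mem_S {N : ℕ} [NeZero N] {F : ℍ → ℂ} (hF : F ∈ S N) {γ : SL(2, ℤ)}
    (hγ : γ ∈ Gamma0 N) : F ∣[(2 : ℤ)] γ = F :=
  (mem_S_iff.mp hF).2 γ hγ

lemma Gamma0_le_of_dvd {M N : ℕ} (h : M ∣ N) : Gamma0 N ≤ Gamma0 M := by
  intro γ hγ
  rw [Gamma0_mem, ZMod.intCast_zmod_eq_zero_iff_dvd] at hγ ⊢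
  exact (Int.natCast_dvd_natCast.mpr h).trans hγ

lemma S_mono {M N : ℕ} [NeZero N] (h : M ∣ N) : S M ≤ S N := by
  have : NeZero M := ⟨fun h0 => NeZero.ne N (by simpa [h0] using h)⟩
  intro F hF
  rw [mem_S_iff] at hF ⊢
  exact ⟨hF.1, fun γ hγ => hF.2 γ (Gamma0_le_of_dvd h hγ)⟩

/-! ## 4. `q`-expansions -/

local notation "𝕢" => Function.Periodic.qParam 1

lemma hasSum_of_mem_S {N : ℕ} [NeZero N] {F : ℍ → ℂ} (hF : F ∈ S N) (τ : ℍ) :
    HasSum (fun m : ℕ => qCoeff F m * 𝕢 (τ : ℂ) ^ m) (F τ) := by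
  obtain ⟨f, rfl⟩ := hF
  exact helper1646.hasSum_qCoeff N f τ

lemma qCoeff_unique_of_mem_S {N : ℕ} [NeZero N] {F : ℍ → ℂ} (hF : F ∈ S N) {c : ℕ → ℂ}
    (hc : ∀ τ : ℍ, HasSum (fun m : ℕ => c m * 𝕢 (τ : ℂ) ^ m) (F τ)) (n : ℕ) :
    qCoeff F n = c n := by
  obtain ⟨f, rfl⟩ := hF
  exact helper1646.qCoeff_unique N f hc n

lemma qCoeff_add_of_mem_S {N : ℕ} [NeZero N] {F G : ℍ → ℂ} (hF : F ∈ S N) (hG : G ∈ S N)
    (n : ℕ) : qCoeff (F + G) n = qCoeff F n + qCoeff G n := by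
  refine qCoeff_unique_of_mem_S ((S N).add_mem hF hG)
    (c := fun n => qCoeff F n + qCoeff G n) (fun τ => ?_) n
  have := (hasSum_of_mem_S hF τ).add (hasSum_of_mem_S hG τ)
  simpa [add_mul] using this

lemma qCoeff_smul_of_mem_S {N : ℕ} [NeZero N] {F : ℍ → ℂ} (hF : F ∈ S N) (a : ℂ)
    (n : ℕ) : qCoeff (a • F) n = a * qCoeff F n := by
  refine qCoeff_unique_of_mem_S ((S N).smul_mem a hF)
    (c := fun n => a * qCoeff F n) (fun τ => ?_) n
  have := (hasSum_of_mem_S hF τ).mul_left a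
  simpa [mul_assoc] using this

lemma qCoeff_sub_of_mem_S {N : ℕ} [NeZero N] {F G : ℍ → ℂ} (hF : F ∈ S N) (hG : G ∈ S N)
    (n : ℕ) : qCoeff (F - G) n = qCoeff F n - qCoeff G n := by
  refine qCoeff_unique_of_mem_S ((S N).sub_mem hF hG)
    (c := fun n => qCoeff F n - qCoeff G n) (fun τ => ?_) n
  have := (hasSum_of_mem_S hF τ).sub (hasSum_of_mem_S hG τ)
  simpa [sub_mul] using this

/-- The `q`-expansion principle across levels. -/
lemma eq_of_qCoeff_eq {N M : ℕ} [NeZero N] [NeZero M] {F G : ℍ → ℂ} (hF : F ∈ S N)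
    (hG : G ∈ S M) (h : ∀ n, qCoeff F n = qCoeff G n) : F = G := by
  funext τ
  have h1 := hasSum_of_mem_S hF τ
  have h2 := hasSum_of_mem_S hG τ
  simp_rw [h] at h1
  exact h1.unique h2

lemma eq_zero_of_qCoeff_eq_zero {N : ℕ} [NeZero N] {F : ℍ → ℂ} (hF : F ∈ S N)
    (h : ∀ n, qCoeff F n = 0) : F = 0 := by
  funext τ
  have h1 := hasSum_of_mem_S hF τ
  simp_rw [h, zero_mul] at h1
  exact h1.unique hasSum_zero

/-! ## 5. The operators `V_p` and `U_p` -/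

/-- `V_p : F(τ) ↦ F(p τ)`. -/
noncomputable def Vf (p : ℕ) [NeZero p] : (ℍ → ℂ) →ₗ[ℂ] (ℍ → ℂ) where
  toFun F := fun τ => F (helper1646.diagMat p • τ)
  map_add' _ _ := rfl
  map_smul' _ _ := rfl

lemma Vf_apply (p : ℕ) [NeZero p] (F : ℍ → ℂ) (τ : ℍ) :
    Vf p F τ = F (helper1646.diagMat p • τ) := rfl

lemma Vf_mem_S {M p : ℕ} [NeZero p] {F : ℍ → ℂ} (hF : F ∈ S M) : Vf p F ∈ S (M * p) := by
  obtain ⟨f, rfl⟩ := hF
  exact ⟨helper1646.vOp M p f, funext (helper1646.vOp_apply M p f)⟩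

lemma qCoeff_Vf {M p : ℕ} [NeZero M] [NeZero p] {F : ℍ → ℂ} (hF : F ∈ S M) (n : ℕ) :
    qCoeff (Vf p F) n = if p ∣ n then qCoeff F (n / p) else 0 := by
  obtain ⟨f, rfl⟩ := hF
  have : Vf p ⇑f = ⇑(helper1646.vOp M p f) := (funext (helper1646.vOp_apply M p f)).symm
  rw [this]
  exact helper1646.qCoeff_vOp M p f n

/-- `U_p`: the Prelude operator `heckeU 2 p`. -/
noncomputable def Uf (p : ℕ) : (ℍ → ℂ) →ₗ[ℂ] (ℍ → ℂ) where
  toFun F := ModularForm.heckeU 2 p F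
  map_add' F G := ModularForm.heckeU_add 2 p F G
  map_smul' c F := ModularForm.heckeU_smul 2 p c F

lemma Uf_apply (p : ℕ) (F : ℍ → ℂ) : Uf p F = ModularForm.heckeU 2 p F := rfl

lemma Uf_mem_S {N p : ℕ} [NeZero N] (hpN : p ∣ N) {F : ℍ → ℂ} (hF : F ∈ S N) :
    Uf p F ∈ S N := by
  obtain ⟨f, rfl⟩ := hF
  exact ⟨CuspForm.heckeULin 2 hpN f, rfl⟩

lemma qCoeff_Uf {N p : ℕ} [NeZero N] (hp : p ≠ 0) {F : ℍ → ℂ} (hF : F ∈ S N) (n : ℕ) :
    qCoeff (Uf p F) n = qCoeff F (n * p) := by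
  obtain ⟨f, rfl⟩ := hF
  exact ModularFormClass.qCoeff_heckeU f (CongruenceSubgroup.one_mem_strictPeriods_Gamma0 N) hp n

end Fermat.Agent.S58.helper6078
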