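import Mathlib
import Fermat.Agent.S58.helper6078_LevelOps
import Fermat.Agent.S58.helper3055_ULower

/-!
# S58, step 0a: the Atkin–Lehner main lemma for `Γ₀(N)`, weight 2

Author: helper6078.

If `F ∈ S₂(Γ₀(N))` has `a_n(F) = 0` whenever `n` is divisible by no prime of a finite set `P`,
then `F = ∑_{p ∈ P, p ∣ N} V_p φ_p` with `φ_p ∈ S₂(Γ₀(N / p))`.

The proof is elementary (coset transversals and `q`-expansions only): induction on `P`, with the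
three cases `q ∤ N`, `q² ∣ N`, `q ∥ N` for the prime `q` removed from `P`.
-/

set_option autoImplicit false

open UpperHalfPlane ModularForm Filter Topology CongruenceSubgroup ModularFormClass OnePoint
open scoped MatrixGroups Manifold

namespace Fermat.Agent.S58.helper6078

open Fermat.Agent.S58.helper1646 (G0)

/-! ## 1. A small `SL(2, ℤ)` toolkit -/

/-- The element `!![a, b; c, d]` of `SL(2, ℤ)`. -/
def mk2 (a b c d : ℤ) (h : a * d - b * c = 1) : SL(2, ℤ) :=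
  ⟨!![a, b; c, d], by rw [Matrix.det_fin_two_of]; exact h⟩

@[simp] lemma mk2_00 (a b c d : ℤ) (h : a * d - b * c = 1) : mk2 a b c d h 0 0 = a := rfl
@[simp] lemma mk2_01 (a b c d : ℤ) (h : a * d - b * c = 1) : mk2 a b c d h 0 1 = b := rfl
@[simp] lemma mk2_10 (a b c d : ℤ) (h : a * d - b * c = 1) : mk2 a b c d h 1 0 = c := rfl
@[simp] lemma mk2_11 (a b c d : ℤ) (h : a * d - b * c = 1) : mk2 a b c d h 1 1 = d := rfl

lemma sl_mul_00 (x y : SL(2, ℤ)) : (x * y) 0 0 = x 0 0 * y 0 0 + x 0 1 * y 1 0 := by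
  simp [Matrix.SpecialLinearGroup.coe_mul, Matrix.mul_apply, Fin.sum_univ_two]
lemma sl_mul_01 (x y : SL(2, ℤ)) : (x * y) 0 1 = x 0 0 * y 0 1 + x 0 1 * y 1 1 := by
  simp [Matrix.SpecialLinearGroup.coe_mul, Matrix.mul_apply, Fin.sum_univ_two]
lemma sl_mul_10 (x y : SL(2, ℤ)) : (x * y) 1 0 = x 1 0 * y 0 0 + x 1 1 * y 1 0 := by
  simp [Matrix.SpecialLinearGroup.coe_mul, Matrix.mul_apply, Fin.sum_univ_two]
lemma sl_mul_11 (x y : SL(2, ℤ)) : (x * y) 1 1 = x 1 0 * y 0 1 + x 1 1 * y 1 1 := by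
  simp [Matrix.SpecialLinearGroup.coe_mul, Matrix.mul_apply, Fin.sum_univ_two]

lemma sl_inv_00 (x : SL(2, ℤ)) : x⁻¹ 0 0 = x 1 1 := by
  simp [Matrix.SpecialLinearGroup.SL2_inv_expl]
lemma sl_inv_01 (x : SL(2, ℤ)) : x⁻¹ 0 1 = - x 0 1 := by
  simp [Matrix.SpecialLinearGroup.SL2_inv_expl]
lemma sl_inv_10 (x : SL(2, ℤ)) : x⁻¹ 1 0 = - x 1 0 := by
  simp [Matrix.SpecialLinearGroup.SL2_inv_expl]
lemma sl_inv_11 (x : SL(2, ℤ)) : x⁻¹ 1 1 = x 0 0 := by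
  simp [Matrix.SpecialLinearGroup.SL2_inv_expl]

lemma sl_det (x : SL(2, ℤ)) : x 0 0 * x 1 1 - x 0 1 * x 1 0 = 1 := helper1646.sl_det_expl x

lemma sl_ext {x y : SL(2, ℤ)} (h00 : x 0 0 = y 0 0) (h01 : x 0 1 = y 0 1) (h10 : x 1 0 = y 1 0)
    (h11 : x 1 1 = y 1 1) : x = y := by
  ext i j
  fin_cases i <;> fin_cases j <;> assumption

lemma GL_ext {A B : GL (Fin 2) ℝ} (h00 : A.val 0 0 = B.val 0 0) (h01 : A.val 0 1 = B.val 0 1)
    (h10 : A.val 1 0 = B.val 1 0) (h11 : A.val 1 1 = B.val 1 1) : A = B := by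
  apply Units.ext
  ext i j
  fin_cases i <;> fin_cases j <;> assumption

@[simp] lemma mapGL_val (γ : SL(2, ℤ)) (i j : Fin 2) :
    (Matrix.SpecialLinearGroup.mapGL ℝ γ).val i j = (γ i j : ℝ) := by
  simp [Matrix.SpecialLinearGroup.mapGL_coe_matrix]

lemma GL_mul_val (A B : GL (Fin 2) ℝ) (i j : Fin 2) :
    (A * B).val i j = A.val i 0 * B.val 0 j + A.val i 1 * B.val 1 j := by
  simp [Matrix.mul_apply, Fin.sum_univ_two]

/-- (I1) `B_j = B_0 * T^j`. -/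
lemma heckeMatrix_eq {p : ℕ} (hp : p ≠ 0) (j : ℕ) (t : SL(2, ℤ)) (h00 : t 0 0 = 1)
    (h01 : t 0 1 = j) (h10 : t 1 0 = 0) (h11 : t 1 1 = 1) :
    heckeMatrix p j = heckeMatrix p 0 * Matrix.SpecialLinearGroup.mapGL ℝ t := by
  apply GL_ext <;>
    simp [GL_mul_val, val_heckeMatrix hp, h00, h01, h10, h11]

/-- (I2) `B_0 * κ = κ' * B_0`. -/
lemma heckeMatrix_mul_mapGL {p : ℕ} (hp : p ≠ 0) (κ κ' : SL(2, ℤ)) (h00 : κ' 0 0 = κ 0 0)
    (h01 : κ 0 1 = p * κ' 0 1) (h10 : κ' 1 0 = p * κ 1 0) (h11 : κ' 1 1 = κ 1 1) :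
    heckeMatrix p 0 * Matrix.SpecialLinearGroup.mapGL ℝ κ
      = Matrix.SpecialLinearGroup.mapGL ℝ κ' * heckeMatrix p 0 := by
  apply GL_ext <;>
    simp [GL_mul_val, val_heckeMatrix hp, h00, h01, h10, h11] <;> ring

/-- (I3) `diag(p, 1) * γ = γ' * diag(p, 1)`. -/
lemma diagMat_mul_mapGL {p : ℕ} [NeZero p] (γ γ' : SL(2, ℤ)) (h00 : γ' 0 0 = γ 0 0)
    (h01 : γ' 0 1 = p * γ 0 1) (h10 : γ 1 0 = p * γ' 1 0) (h11 : γ' 1 1 = γ 1 1) :
    helper1646.diagMat p * Matrix.SpecialLinearGroup.mapGL ℝ γ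
      = Matrix.SpecialLinearGroup.mapGL ℝ γ' * helper1646.diagMat p := by
  apply GL_ext <;>
    simp [GL_mul_val, h00, h01, h10, h11] <;> ring

/-- (I4) `diag(p, 1) * γ = γ' * B_0`. -/
lemma diagMat_mul_mapGL' {p : ℕ} [NeZero p] (γ γ' : SL(2, ℤ)) (h00 : γ' 0 0 = p * γ 0 0)
    (h01 : γ' 0 1 = γ 0 1) (h10 : γ' 1 0 = γ 1 0) (h11 : γ 1 1 = p * γ' 1 1) :
    helper1646.diagMat p * Matrix.SpecialLinearGroup.mapGL ℝ γ
      = Matrix.SpecialLinearGroup.mapGL ℝ γ' * heckeMatrix p 0 := by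
  have hp : p ≠ 0 := NeZero.ne p
  apply GL_ext <;>
    simp [GL_mul_val, val_heckeMatrix hp, h00, h01, h10, h11] <;> ring

lemma heckeMatrix_rat {p : ℕ} (hp : p ≠ 0) (j : ℕ) :
    ∃ g : GL (Fin 2) ℚ, heckeMatrix p j = g.map (Rat.castHom ℝ) := by
  refine ⟨Matrix.GeneralLinearGroup.mkOfDetNeZero !![(1 : ℚ), j; 0, p]
    (by simpa [Matrix.det_fin_two_of] using hp), ?_⟩
  apply GL_ext <;> simp [val_heckeMatrix hp]

/-! ## 2. Stabilisers and the groups `Γ₀(M) ∩ Γ⁰(p)` -/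

/-- The stabiliser of a function under the weight 2 slash action of `SL(2, ℤ)`. -/
def slashStab (θ : ℍ → ℂ) : Subgroup SL(2, ℤ) where
  carrier := {γ | θ ∣[(2 : ℤ)] γ = θ}
  mul_mem' := by
    intro a b ha hb
    change θ ∣[(2 : ℤ)] a = θ at ha
    change θ ∣[(2 : ℤ)] b = θ at hb
    change θ ∣[(2 : ℤ)] (a * b) = θ
    rw [SlashAction.slash_mul, ha, hb]
  one_mem' := by
    change θ ∣[(2 : ℤ)] (1 : SL(2, ℤ)) = θ
    exact SlashAction.slash_one _ _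
  inv_mem' := by
    intro a ha
    change θ ∣[(2 : ℤ)] a = θ at ha
    change θ ∣[(2 : ℤ)] a⁻¹ = θ
    conv_lhs => rw [← ha]
    rw [← SlashAction.slash_mul, mul_inv_cancel]
    exact SlashAction.slash_one _ _

lemma mem_slashStab {θ : ℍ → ℂ} {γ : SL(2, ℤ)} : γ ∈ slashStab θ ↔ θ ∣[(2 : ℤ)] γ = θ := Iff.rfl

/-- `Γ₀(M) ∩ Γ⁰(p)`. -/
def Kgrp (M p : ℕ) : Subgroup SL(2, ℤ) where
  carrier := {γ | (M : ℤ) ∣ γ 1 0 ∧ (p : ℤ) ∣ γ 0 1}
  mul_mem' := by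
    rintro a b ⟨ha1, ha2⟩ ⟨hb1, hb2⟩
    refine ⟨?_, ?_⟩
    · rw [sl_mul_10]
      exact dvd_add (Dvd.dvd.mul_right ha1 _) (Dvd.dvd.mul_left hb1 _)
    · rw [sl_mul_01]
      exact dvd_add (Dvd.dvd.mul_left hb2 _) (Dvd.dvd.mul_right ha2 _)
  one_mem' := by
    refine ⟨?_, ?_⟩ <;> simp
  inv_mem' := by
    rintro a ⟨ha1, ha2⟩
    refine ⟨?_, ?_⟩
    · rw [sl_inv_10]; exact (dvd_neg).mpr ha1
    · rw [sl_inv_01]; exact (dvd_neg).mpr ha2

lemma mem_Kgrp {M p : ℕ} {γ : SL(2, ℤ)} :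
    γ ∈ Kgrp M p ↔ (M : ℤ) ∣ γ 1 0 ∧ (p : ℤ) ∣ γ 0 1 := Iff.rfl

lemma mem_Gamma0_iff {N : ℕ} {γ : SL(2, ℤ)} : γ ∈ Gamma0 N ↔ (N : ℤ) ∣ γ 1 0 := by
  rw [Gamma0_mem, ZMod.intCast_zmod_eq_zero_iff_dvd]

/-- `T^j`. -/
def Tn (j : ℤ) : SL(2, ℤ) := mk2 1 j 0 1 (by ring)

@[simp] lemma Tn_00 (j : ℤ) : Tn j 0 0 = 1 := rfl
@[simp] lemma Tn_01 (j : ℤ) : Tn j 0 1 = j := rfl
@[simp] lemma Tn_10 (j : ℤ) : Tn j 1 0 = 0 := rfl
@[simp] lemma Tn_11 (j : ℤ) : Tn j 1 1 = 1 := rfl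

lemma Tn_eq_zpow (j : ℤ) : Tn j = Tn 1 ^ j := by
  have h1 : Tn 1 = ModularGroup.T := by
    apply sl_ext <;> simp [ModularGroup.T]
  rw [h1]
  apply sl_ext <;> simp [ModularGroup.coe_T_zpow]

lemma Tn_mem_Gamma0 (N : ℕ) (j : ℤ) : Tn j ∈ Gamma0 N := by
  rw [mem_Gamma0_iff]; simp

lemma exists_int_dvd_mul_add {p : ℕ} (hp : p.Prime) (a b : ℤ) (ha : ¬ (p : ℤ) ∣ a) :
    ∃ j : ℤ, (p : ℤ) ∣ a * j + b := by
  have hp' : Prime (p : ℤ) := Nat.prime_iff_prime_int.mp hp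
  have hcop : IsCoprime (p : ℤ) a := (hp'.irreducible.coprime_iff_not_dvd).mpr ha
  obtain ⟨u, v, huv⟩ := hcop
  refine ⟨-b * v, ⟨b * u, ?_⟩⟩
  linear_combination (-b) * huv

/-- `Γ₀(M)` is generated by `Γ₀(M) ∩ Γ⁰(p)` and `T`. -/
lemma Gamma0_le_of_Kgrp_le {M p : ℕ} (hp : p.Prime) {H : Subgroup SL(2, ℤ)}
    (hK : Kgrp M p ≤ H) (hT : Tn 1 ∈ H) : Gamma0 M ≤ H := by
  intro γ hγ
  rw [mem_Gamma0_iff] at hγ
  have hTn : ∀ j : ℤ, Tn j ∈ H := fun j => by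
    rw [Tn_eq_zpow]; exact H.zpow_mem hT j
  have hp' : Prime (p : ℤ) := Nat.prime_iff_prime_int.mp hp
  obtain ⟨i, hi⟩ : ∃ i : ℤ, ¬ (p : ℤ) ∣ γ 0 0 + i * γ 1 0 := by
    by_cases h : (p : ℤ) ∣ γ 0 0
    · refine ⟨1, fun h' => ?_⟩
      have h10 : (p : ℤ) ∣ γ 1 0 := by
        have := dvd_sub h' h
        simpa using this
      have hdet := sl_det γ
      have : (p : ℤ) ∣ 1 := by
        rw [← hdet]
        exact dvd_sub (Dvd.dvd.mul_right h _) (Dvd.dvd.mul_left h10 _)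
      exact hp'.not_dvd_one this
    · exact ⟨0, by simpa using h⟩
  obtain ⟨j, hj⟩ := exists_int_dvd_mul_add hp (γ 0 0 + i * γ 1 0) (γ 0 1 + i * γ 1 1) hi
  have hX : Tn i * γ * Tn j ∈ Kgrp M p := by
    refine ⟨?_, ?_⟩
    · simp only [sl_mul_10, Tn_00, Tn_10, Tn_11]
      simpa using hγ
    · simp only [sl_mul_01, sl_mul_00, Tn_00, Tn_01, Tn_11]
      convert hj using 1
      ring
  have : γ = (Tn i)⁻¹ * (Tn i * γ * Tn j) * (Tn j)⁻¹ := by group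
  rw [this]
  exact H.mul_mem (H.mul_mem (H.inv_mem (hTn i)) (hK hX)) (H.inv_mem (hTn j))

/-! ## 3. Lemma A: forms supported on multiples of `p` -/

local notation "𝕢" => Function.Periodic.qParam 1

/-- If `a_n(F) = 0` for `p ∤ n` then all the `F ∣ B_j` coincide. -/
lemma slash_heckeMatrix_eq_of_qCoeff {N p : ℕ} [NeZero N] (hp : p ≠ 0) {F : ℍ → ℂ}
    (hF : F ∈ S N) (h0 : ∀ n, ¬ p ∣ n → qCoeff F n = 0) (j : ℕ) :
    F ∣[(2 : ℤ)] heckeMatrix p j = F ∣[(2 : ℤ)] heckeMatrix p 0 := by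
  funext τ
  rw [slash_heckeMatrix_apply 2 hp, slash_heckeMatrix_apply 2 hp]
  congr 1
  have h1 := hasSum_of_mem_S hF (heckeMatrix p j • τ)
  have h2 := hasSum_of_mem_S hF (heckeMatrix p 0 • τ)
  have hp' : (p : ℂ) ≠ 0 := by exact_mod_cast hp
  have : (fun m : ℕ => qCoeff F m * 𝕢 ((heckeMatrix p j • τ : ℍ) : ℂ) ^ m)
      = (fun m : ℕ => qCoeff F m * 𝕢 ((heckeMatrix p 0 • τ : ℍ) : ℂ) ^ m) := by
    funext m
    by_cases hm : p ∣ m
    · obtain ⟨c, rfl⟩ := hm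
      congr 1
      rw [coe_heckeMatrix_smul hp, coe_heckeMatrix_smul hp]
      simp only [Function.Periodic.qParam]
      rw [← Complex.exp_nat_mul, ← Complex.exp_nat_mul, Complex.exp_eq_exp_iff_exists_int]
      refine ⟨c * j, ?_⟩
      push_cast
      field_simp
      ring
    · rw [h0 m hm]; simp
  rw [this] at h1
  exact h1.unique h2

lemma Uf_eq_smul_of_qCoeff {N p : ℕ} [NeZero N] (hp : p ≠ 0) {F : ℍ → ℂ}
    (hF : F ∈ S N) (h0 : ∀ n, ¬ p ∣ n → qCoeff F n = 0) :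
    Uf p F = (p : ℂ) • (F ∣[(2 : ℤ)] heckeMatrix p 0) := by
  rw [Uf_apply, ModularForm.heckeU_def,
    Finset.sum_congr rfl (fun j _ => slash_heckeMatrix_eq_of_qCoeff hp hF h0 j)]
  rw [Finset.sum_const, Finset.card_range, Nat.cast_smul_eq_nsmul]

/-- `F ∣ B_0` is invariant under `Γ₀(N / p) ∩ Γ⁰(p)` for `F` of level `N`. -/
lemma Kgrp_le_slashStab {N p : ℕ} [NeZero N] (hp : p ≠ 0) (hpN : p ∣ N) {F : ℍ → ℂ}
    (hF : F ∈ S N) : Kgrp (N / p) p ≤ slashStab (F ∣[(2 : ℤ)] heckeMatrix p 0) := by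
  rintro κ ⟨h1, h2⟩
  rw [mem_slashStab]
  obtain ⟨b', hb'⟩ := h2
  have hdet : κ 0 0 * κ 1 1 - b' * (p * κ 1 0) = 1 := by
    have := sl_det κ
    rw [hb'] at this
    linear_combination this
  have hκ' : mk2 (κ 0 0) b' (p * κ 1 0) (κ 1 1) hdet ∈ Gamma0 N := by
    rw [mem_Gamma0_iff]
    obtain ⟨c, hc⟩ := h1
    refine ⟨c, ?_⟩
    have hN : ((N : ℕ) : ℤ) = p * ((N / p : ℕ) : ℤ) := by
      exact_mod_cast (Nat.mul_div_cancel' hpN).symm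
    rw [mk2_10, hc, hN]
    ring
  change (F ∣[(2 : ℤ)] heckeMatrix p 0) ∣[(2 : ℤ)] (Matrix.SpecialLinearGroup.mapGL ℝ κ) = _
  rw [← SlashAction.slash_mul,
    heckeMatrix_mul_mapGL hp κ (mk2 (κ 0 0) b' (p * κ 1 0) (κ 1 1) hdet) rfl hb' rfl rfl,
    SlashAction.slash_mul]
  congr 1
  exact slash_eq_of_mem_S hF hκ'

/-- **Lemma A(a)**: if `p ∣ N` and `a_n(F) = 0` for `p ∤ n`, then `U_p F` has level `N / p` and
`F = V_p (U_p F)`. -/
theorem Uf_mem_S_div_of_qCoeff {N p : ℕ} [NeZero N] (hp : p.Prime) (hpN : p ∣ N) {F : ℍ → ℂ}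
    (hF : F ∈ S N) (h0 : ∀ n, ¬ p ∣ n → qCoeff F n = 0) : Uf p F ∈ S (N / p) := by
  have hp0 : p ≠ 0 := hp.ne_zero
  have : NeZero (N / p) := ⟨(Nat.div_pos (Nat.le_of_dvd (Nat.pos_of_ne_zero (NeZero.ne N)) hpN)
    hp.pos).ne'⟩
  rw [mem_S_iff]
  refine ⟨mem_CF_of_mem_S (Uf_mem_S hpN hF), fun γ hγ => ?_⟩
  rw [Uf_eq_smul_of_qCoeff hp0 hF h0, ModularForm.SL_smul_slash]
  congr 1
  have hT : Tn 1 ∈ slashStab (F ∣[(2 : ℤ)] heckeMatrix p 0) := by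
    rw [mem_slashStab]
    change (F ∣[(2 : ℤ)] heckeMatrix p 0) ∣[(2 : ℤ)] (Matrix.SpecialLinearGroup.mapGL ℝ (Tn 1)) = _
    rw [← SlashAction.slash_mul, ← heckeMatrix_eq hp0 1 (Tn 1) rfl (by simp) rfl rfl]
    exact slash_heckeMatrix_eq_of_qCoeff hp0 hF h0 1
  exact Gamma0_le_of_Kgrp_le hp (Kgrp_le_slashStab hp0 hpN hF) hT hγ

/-- `V_p` with an unbundled nonvanishing hypothesis (`V_0 = 0` by convention). -/
noncomputable def Vg (p : ℕ) : (ℍ → ℂ) →ₗ[ℂ] (ℍ → ℂ) :=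
  if h : p = 0 then 0 else @Vf p ⟨h⟩

lemma Vg_eq (p : ℕ) [NeZero p] : Vg p = Vf p := by
  unfold Vg
  rw [dif_neg (NeZero.ne p)]

lemma Vg_mem_S {M p : ℕ} (hp : p ≠ 0) {F : ℍ → ℂ} (hF : F ∈ S M) : Vg p F ∈ S (M * p) := by
  have : NeZero p := ⟨hp⟩
  rw [Vg_eq]
  exact Vf_mem_S hF

lemma qCoeff_Vg {M p : ℕ} [NeZero M] (hp : p ≠ 0) {F : ℍ → ℂ} (hF : F ∈ S M) (n : ℕ) :
    qCoeff (Vg p F) n = if p ∣ n then qCoeff F (n / p) else 0 := by
  have : NeZero p := ⟨hp⟩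
  rw [Vg_eq]
  exact qCoeff_Vf hF n

lemma Vg_mem_S_of_dvd {N p : ℕ} (hp : p ≠ 0) (hpN : p ∣ N) {F : ℍ → ℂ} (hF : F ∈ S (N / p)) :
    Vg p F ∈ S N := by
  have := Vg_mem_S hp hF
  rwa [Nat.div_mul_cancel hpN] at this

lemma div_neZero {N p : ℕ} [NeZero N] (hpN : p ∣ N) : NeZero (N / p) := by
  refine ⟨fun h => ?_⟩
  obtain ⟨c, rfl⟩ := hpN
  have hN := NeZero.ne (p * c)
  rcases Nat.eq_zero_or_pos p with rfl | hp
  · simp at hN
  · rw [Nat.mul_div_cancel_left _ hp] at h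
    subst h
    simp at hN

theorem eq_Vg_Uf_of_qCoeff {N p : ℕ} [NeZero N] (hp : p.Prime) (hpN : p ∣ N) {F : ℍ → ℂ}
    (hF : F ∈ S N) (h0 : ∀ n, ¬ p ∣ n → qCoeff F n = 0) : F = Vg p (Uf p F) := by
  have hp0 : p ≠ 0 := hp.ne_zero
  have := div_neZero (N := N) hpN
  have hU := Uf_mem_S_div_of_qCoeff hp hpN hF h0
  refine eq_of_qCoeff_eq hF (Vg_mem_S_of_dvd hp0 hpN hU) fun n => ?_
  rw [qCoeff_Vg hp0 hU, qCoeff_Uf hp0 hF]
  split_ifs with h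
  · rw [Nat.div_mul_cancel h]
  · exact h0 n h

lemma heckeMatrix_zero_smul_diagMat_smul (p : ℕ) [NeZero p] (σ : ℍ) :
    heckeMatrix p 0 • (helper1646.diagMat p • σ) = σ := by
  apply UpperHalfPlane.ext
  have hp : (p : ℂ) ≠ 0 := by exact_mod_cast NeZero.ne p
  rw [coe_heckeMatrix_smul (NeZero.ne p), helper1646.coe_diagMat_smul]
  field_simp
  simp

lemma slash_diagMat_eq (p : ℕ) [NeZero p] (G : ℍ → ℂ) :
    G ∣[(2 : ℤ)] helper1646.diagMat p = (p : ℂ) • Vf p G := by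
  funext τ
  rw [helper1646.slash_diagMat]
  simp [Vf_apply, mul_comm]

/-- **Lemma A(b)**: if `p ∤ N` and `a_n(F) = 0` for `p ∤ n`, then `F = 0`. -/
theorem eq_zero_of_qCoeff_of_not_dvd {N p : ℕ} [NeZero N] (hp : p.Prime) (hpN : ¬ p ∣ N)
    {F : ℍ → ℂ} (hF : F ∈ S N) (h0 : ∀ n, ¬ p ∣ n → qCoeff F n = 0) : F = 0 := by
  have hp0 : p ≠ 0 := hp.ne_zero
  have : NeZero p := ⟨hp0⟩
  have : NeZero (N * p) := ⟨mul_ne_zero (NeZero.ne N) hp0⟩
  have hF' : F ∈ S (N * p) := S_mono (Dvd.intro _ rfl) hF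
  have hG : Uf p F ∈ S N := by
    have := Uf_mem_S_div_of_qCoeff hp (Dvd.intro_left N rfl) hF' h0
    rwa [Nat.mul_div_cancel _ hp.pos] at this
  have hFG : F = Vf p (Uf p F) := by
    have := eq_Vg_Uf_of_qCoeff hp (Dvd.intro_left N rfl) hF' h0
    rwa [Vg_eq] at this
  set G := Uf p F with hGdef
  -- Bezout
  have hp' : Prime (p : ℤ) := Nat.prime_iff_prime_int.mp hp
  have hcop : IsCoprime (p : ℤ) (N : ℤ) :=
    (hp'.irreducible.coprime_iff_not_dvd).mpr (by exact_mod_cast hpN)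
  obtain ⟨u, v, huv⟩ := hcop
  have hdet : u * (p : ℤ) - (-v) * (N : ℤ) = 1 := by linear_combination huv
  have hdet' : (p : ℤ) * u * 1 - (-v) * (N : ℤ) = 1 := by linear_combination huv
  have hγ : mk2 u (-v) N p hdet ∈ Gamma0 N := by rw [mem_Gamma0_iff]; simp
  have hγ' : mk2 (p * u) (-v) N 1 hdet' ∈ Gamma0 N := by rw [mem_Gamma0_iff]; simp
  have key : G ∣[(2 : ℤ)] heckeMatrix p 0 = (p : ℂ) • F := by
    have h1 : (G ∣[(2 : ℤ)] helper1646.diagMat p) ∣[(2 : ℤ)]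
        (Matrix.SpecialLinearGroup.mapGL ℝ (mk2 u (-v) N p hdet))
        = (G ∣[(2 : ℤ)] (Matrix.SpecialLinearGroup.mapGL ℝ (mk2 (p * u) (-v) N 1 hdet')))
          ∣[(2 : ℤ)] heckeMatrix p 0 := by
      rw [← SlashAction.slash_mul, ← SlashAction.slash_mul,
        diagMat_mul_mapGL' (mk2 u (-v) N p hdet) (mk2 (p * u) (-v) N 1 hdet') rfl rfl rfl (by simp)]
    have h2 : G ∣[(2 : ℤ)] (Matrix.SpecialLinearGroup.mapGL ℝ (mk2 (p * u) (-v) N 1 hdet')) = G :=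
      slash_eq_of_mem_S hG hγ'
    rw [h2, slash_diagMat_eq, ← hFG] at h1
    rw [← h1]
    change ((p : ℂ) • F) ∣[(2 : ℤ)] (mk2 u (-v) N p hdet) = _
    rw [ModularForm.SL_smul_slash, slash_eq_of_mem_S hF hγ]
  have hpc : (p : ℂ) ≠ 0 := by exact_mod_cast hp0
  have hGeq : G = ((p : ℂ) ^ 2) • Vf p (Vf p G) := by
    funext σ
    have := congrFun key (helper1646.diagMat p • σ)
    rw [slash_heckeMatrix_apply 2 hp0, heckeMatrix_zero_smul_diagMat_smul] at this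
    rw [Pi.smul_apply, smul_eq_mul, hFG] at this
    simp only [Pi.smul_apply, smul_eq_mul]
    field_simp at this
    rw [this]
    simp only [Vf_apply]
  have hVV : Vf p (Vf p G) ∈ S (N * p * p) := Vf_mem_S (Vf_mem_S hG)
  have hcoef : ∀ n, qCoeff G n = 0 := by
    intro n
    induction n using Nat.strong_induction_on with
    | _ n ih =>
      have h1 : qCoeff G n = (p : ℂ) ^ 2 * qCoeff (Vf p (Vf p G)) n := by
        conv_lhs => rw [hGeq]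
        have : NeZero (N * p * p) := ⟨mul_ne_zero (NeZero.ne _) hp0⟩
        exact qCoeff_smul_of_mem_S hVV _ n
      rw [qCoeff_Vf (Vf_mem_S hG), ] at h1
      by_cases hpn : p ∣ n
      · rw [if_pos hpn, qCoeff_Vf hG] at h1
        by_cases hpn' : p ∣ n / p
        · rw [if_pos hpn'] at h1
          rcases Nat.eq_zero_or_pos n with rfl | hn
          · simp only [Nat.zero_div] at h1
            have h2 : ((p : ℂ) ^ 2 - 1) * qCoeff G 0 = 0 := by linear_combination -h1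
            rcases mul_eq_zero.mp h2 with h3 | h3
            · exfalso
              have h4 : ((p ^ 2 : ℕ) : ℂ) = ((1 : ℕ) : ℂ) := by
                push_cast; linear_combination h3
              have h5 : p ^ 2 = 1 := by exact_mod_cast h4
              have := hp.one_lt
              nlinarith
            · exact h3
          · have hlt : n / p / p < n := by
              calc n / p / p ≤ n / p := Nat.div_le_self _ _
                _ < n := Nat.div_lt_self hn hp.one_lt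
            rw [ih _ hlt] at h1
            simpa using h1
        · rw [if_neg hpn'] at h1
          simpa using h1
      · rw [if_neg hpn] at h1
        simpa using h1
  have hG0 : G = 0 := eq_zero_of_qCoeff_eq_zero hG hcoef
  rw [hFG, hG0]
  simp

/-! ## 4. Traces along lower unipotent matrices -/

lemma exists_fin_dvd {q : ℕ} (hq : q.Prime) (a x : ℤ) (ha : ¬ (q : ℤ) ∣ a) :
    ∃ j : Fin q, (q : ℤ) ∣ x - a * ((j : ℕ) : ℤ) := by
  obtain ⟨j₀, hj₀⟩ := exists_int_dvd_mul_add hq a (-x) ha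
  have hq0 : (0 : ℤ) < q := by exact_mod_cast hq.pos
  have h1 := Int.emod_lt_of_pos j₀ hq0
  have h2 := Int.emod_nonneg j₀ hq0.ne'
  refine ⟨⟨(j₀ % q).toNat, by omega⟩, ?_⟩
  simp only [Int.toNat_of_nonneg h2]
  have h3 : (q : ℤ) ∣ j₀ - j₀ % q := (Int.mod_modEq j₀ q).dvd
  have h4 : x - a * (j₀ % q) = -(a * j₀ + -x) + a * (j₀ - j₀ % q) := by ring
  rw [h4]
  exact dvd_add (dvd_neg.mpr hj₀) (Dvd.dvd.mul_left h3 _)

lemma fin_eq_of_dvd {q : ℕ} {i j : Fin q} (h : (q : ℤ) ∣ ((i : ℕ) : ℤ) - ((j : ℕ) : ℤ)) :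
    i = j := by
  have hi := i.2
  have hj := j.2
  have h0 : ((i : ℕ) : ℤ) - ((j : ℕ) : ℤ) = 0 := by
    apply Int.eq_zero_of_abs_lt_dvd h
    rw [abs_lt]
    constructor <;> omega
  apply Fin.ext
  omega

/-- The lower unipotent matrix `!![1, 0; c, 1]`. -/
def Lmat (c : ℤ) : SL(2, ℤ) := mk2 1 0 c 1 (by ring)

@[simp] lemma Lmat_00 (c : ℤ) : Lmat c 0 0 = 1 := rfl
@[simp] lemma Lmat_01 (c : ℤ) : Lmat c 0 1 = 0 := rfl
@[simp] lemma Lmat_10 (c : ℤ) : Lmat c 1 0 = c := rfl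
@[simp] lemma Lmat_11 (c : ℤ) : Lmat c 1 1 = 1 := rfl

lemma Lmat_mem_Gamma0 {M : ℕ} {c : ℤ} (h : (M : ℤ) ∣ c) : Lmat c ∈ Gamma0 M := by
  rw [mem_Gamma0_iff]; simpa using h

/-- The trace-like sum `∑_{j < q} G ∣ !![1, 0; M j, 1]`. -/
noncomputable def trL (M q : ℕ) : (ℍ → ℂ) →ₗ[ℂ] (ℍ → ℂ) where
  toFun G := ∑ j : Fin q, G ∣[(2 : ℤ)] Lmat ((M : ℤ) * ((j : ℕ) : ℤ))
  map_add' F G := by
    simp only [SlashAction.add_slash, Finset.sum_add_distrib]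
  map_smul' c F := by
    simp only [ModularForm.SL_smul_slash, Finset.smul_sum, RingHom.id_apply]

lemma trL_apply (M q : ℕ) (G : ℍ → ℂ) :
    trL M q G = ∑ j : Fin q, G ∣[(2 : ℤ)] Lmat ((M : ℤ) * ((j : ℕ) : ℤ)) := rfl

/-- For `q ∣ M`, the matrices `!![1, 0; M j, 1]` (`j < q`) represent `Γ₀(M q) \ Γ₀(M)`. -/
lemma trL_mem_S {M q : ℕ} [NeZero M] (hq : q.Prime) (hqM : q ∣ M) {G : ℍ → ℂ}
    (hG : G ∈ S (M * q)) : trL M q G ∈ S M := by
  have : NeZero (M * q) := ⟨mul_ne_zero (NeZero.ne M) hq.ne_zero⟩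
  have hq' : Prime (q : ℤ) := Nat.prime_iff_prime_int.mp hq
  have hM0 : (M : ℤ) ≠ 0 := by exact_mod_cast NeZero.ne M
  rw [mem_S_iff]
  refine ⟨?_, fun γ hγ => ?_⟩
  · rw [trL_apply]
    exact Submodule.sum_mem _ fun j _ => slash_SL_mem_CF (mem_CF_of_mem_S hG) _
  · rw [trL_apply]
    refine sum_slash_eq_of_transversal (2 : ℤ) (Gamma0 M) (Gamma0 (M * q)) G
      (fun κ hκ => slash_eq_of_mem_S hG hκ) _ (fun j => Lmat_mem_Gamma0 (Dvd.intro _ rfl))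
      ?_ ?_ hγ
    · intro i j hij
      rw [mem_Gamma0_iff, sl_mul_10, sl_inv_00, sl_inv_10] at hij
      simp only [Lmat_10, Lmat_11] at hij
      have h1 : ((M * q : ℕ) : ℤ) ∣ (M : ℤ) * (((i : ℕ) : ℤ) - ((j : ℕ) : ℤ)) := by
        convert hij using 1; ring
      push_cast at h1
      exact fin_eq_of_dvd ((mul_dvd_mul_iff_left hM0).mp h1)
    · intro h hh
      rw [mem_Gamma0_iff] at hh
      obtain ⟨c, hc⟩ := hh
      have h11 : ¬ (q : ℤ) ∣ h 1 1 := by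
        intro h'
        have hdet := sl_det h
        have h10 : (q : ℤ) ∣ h 1 0 := by
          rw [hc]; exact Dvd.dvd.mul_right (Int.natCast_dvd_natCast.mpr hqM) _
        exact hq'.not_dvd_one (by
          rw [← hdet]; exact dvd_sub (Dvd.dvd.mul_left h' _) (Dvd.dvd.mul_left h10 _))
      obtain ⟨j, hj⟩ := exists_fin_dvd hq (h 1 1) c h11
      refine ⟨j, ?_⟩
      rw [mem_Gamma0_iff, sl_mul_10, sl_inv_00, sl_inv_10]
      simp only [Lmat_10, Lmat_11]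
      obtain ⟨e, he⟩ := hj
      refine ⟨e, ?_⟩
      push_cast
      rw [hc]
      linear_combination (M : ℤ) * he

lemma trL_of_mem_S {M q : ℕ} [NeZero M] {F : ℍ → ℂ} (hF : F ∈ S M) :
    trL M q F = (q : ℂ) • F := by
  rw [trL_apply, Finset.sum_congr rfl
    (fun j _ => slash_eq_of_mem_S hF (Lmat_mem_Gamma0 (Dvd.intro _ rfl)))]
  rw [Finset.sum_const, Finset.card_univ, Fintype.card_fin, Nat.cast_smul_eq_nsmul]

/-- `V_p` intertwines the slashes by `!![1, 0; p c, 1]` and `!![1, 0; c, 1]`. -/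
lemma Vf_slash_Lmat (p : ℕ) [NeZero p] (χ : ℍ → ℂ) (c : ℤ) :
    (Vf p χ) ∣[(2 : ℤ)] Lmat ((p : ℤ) * c) = Vf p (χ ∣[(2 : ℤ)] Lmat c) := by
  have hpc : (p : ℂ) ≠ 0 := by exact_mod_cast NeZero.ne p
  have h1 : ∀ G : ℍ → ℂ, Vf p G = (p : ℂ)⁻¹ • (G ∣[(2 : ℤ)] helper1646.diagMat p) := by
    intro G
    rw [slash_diagMat_eq, smul_smul, inv_mul_cancel₀ hpc, one_smul]
  rw [h1 χ, h1 (χ ∣[(2 : ℤ)] Lmat c), ModularForm.SL_smul_slash]
  congr 1
  change (χ ∣[(2 : ℤ)] helper1646.diagMat p) ∣[(2 : ℤ)]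
      (Matrix.SpecialLinearGroup.mapGL ℝ (Lmat ((p : ℤ) * c)))
    = (χ ∣[(2 : ℤ)] (Matrix.SpecialLinearGroup.mapGL ℝ (Lmat c))) ∣[(2 : ℤ)] helper1646.diagMat p
  rw [← SlashAction.slash_mul, ← SlashAction.slash_mul,
    diagMat_mul_mapGL (Lmat ((p : ℤ) * c)) (Lmat c) rfl (by simp) rfl rfl]

lemma trL_Vg {M p q : ℕ} (hp : p ≠ 0) (hpM : p ∣ M) (χ : ℍ → ℂ) :
    trL M q (Vg p χ) = Vg p (trL (M / p) q χ) := by
  have : NeZero p := ⟨hp⟩
  rw [Vg_eq, trL_apply, trL_apply, map_sum]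
  refine Finset.sum_congr rfl fun j _ => ?_
  rw [← Vf_slash_Lmat]
  congr 2
  have : (M : ℤ) = (p : ℤ) * ((M / p : ℕ) : ℤ) := by
    exact_mod_cast (Nat.mul_div_cancel' hpM).symm
  rw [this]; ring

/-! ## 5. The case `q ∥ N` -/

lemma mul_inv_mem_Kgrp_iff {M p : ℕ} {X Y : SL(2, ℤ)} (hX : X ∈ Gamma0 M) (hY : Y ∈ Gamma0 M) :
    X * Y⁻¹ ∈ Kgrp M p ↔ (p : ℤ) ∣ X 0 1 * Y 0 0 - X 0 0 * Y 0 1 := by
  rw [mem_Kgrp]
  have h1 : (M : ℤ) ∣ (X * Y⁻¹) 1 0 :=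
    mem_Gamma0_iff.mp ((Gamma0 M).mul_mem hX ((Gamma0 M).inv_mem hY))
  rw [sl_mul_01, sl_inv_01, sl_inv_11]
  constructor
  · rintro ⟨_, h⟩
    convert h using 1
    ring
  · intro h
    exact ⟨h1, by convert h using 1; ring⟩

lemma mul_Lmat_00 (ω : SL(2, ℤ)) (c : ℤ) : (ω * Lmat c) 0 0 = ω 0 0 + ω 0 1 * c := by
  rw [sl_mul_00]; simp
lemma mul_Lmat_01 (ω : SL(2, ℤ)) (c : ℤ) : (ω * Lmat c) 0 1 = ω 0 1 := by
  rw [sl_mul_01]; simp

lemma Vg_slash_heckeMatrix_zero {q : ℕ} (hq : q ≠ 0) (F : ℍ → ℂ) :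
    Vg q (F ∣[(2 : ℤ)] heckeMatrix q 0) = (q : ℂ)⁻¹ • F := by
  have : NeZero q := ⟨hq⟩
  rw [Vg_eq]
  funext τ
  rw [Vf_apply, slash_heckeMatrix_apply 2 hq, heckeMatrix_zero_smul_diagMat_smul]
  rfl

lemma trL_aux {N' q : ℕ} [NeZero N'] (θ Z U W : ℍ → ℂ) (hZ : Z ∈ S N') (h1 : Z = W + U)
    (h2 : Z = θ + trL N' q W) : trL N' q U = ((q : ℂ) - 1) • Z + θ := by
  have hU : U = Z - W := by rw [h1]; abel
  have hW : trL N' q W = Z - θ := by rw [h2]; abel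
  rw [hU, map_sub, trL_of_mem_S hZ, hW, sub_smul, one_smul]
  abel

/-- The key identity in the case `q ∥ N`. -/
theorem trL_Vg_Uf {N q : ℕ} [NeZero N] (hq : q.Prime) (hqN : q ∣ N) (hq2 : ¬ q ∣ N / q)
    {F : ℍ → ℂ} (hF : F ∈ S N) :
    ∃ Z ∈ S (N / q), trL N q (Vg q (Uf q F)) = ((q : ℂ) - 1) • Vg q Z + (q : ℂ)⁻¹ • F := by
  have hq0 : q ≠ 0 := hq.ne_zero
  have : NeZero q := ⟨hq0⟩
  have := div_neZero (N := N) hqN
  have hq' : Prime (q : ℤ) := Nat.prime_iff_prime_int.mp hq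
  have hθ : ∀ κ ∈ Kgrp (N / q) q, (F ∣[(2 : ℤ)] heckeMatrix q 0) ∣[(2 : ℤ)] κ
      = F ∣[(2 : ℤ)] heckeMatrix q 0 := fun κ hκ => Kgrp_le_slashStab hq0 hqN hF hκ
  have hθCF : F ∣[(2 : ℤ)] heckeMatrix q 0 ∈ CF := by
    obtain ⟨g, hg⟩ := heckeMatrix_rat hq0 0
    rw [hg]
    exact slash_rat_mem_CF (mem_CF_of_mem_S hF) g
  -- `U_q F` as a sum over `T^i`
  have hU : Uf q F = ∑ i : Fin q, (F ∣[(2 : ℤ)] heckeMatrix q 0) ∣[(2 : ℤ)] Tn ((i : ℕ) : ℤ) := by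
    rw [Uf_apply, ModularForm.heckeU_def, Finset.sum_range]
    refine Finset.sum_congr rfl fun i _ => ?_
    change _ = (F ∣[(2 : ℤ)] heckeMatrix q 0) ∣[(2 : ℤ)]
      (Matrix.SpecialLinearGroup.mapGL ℝ (Tn ((i : ℕ) : ℤ)))
    rw [← SlashAction.slash_mul, ← heckeMatrix_eq hq0 i (Tn ((i : ℕ) : ℤ)) rfl rfl rfl rfl]
  -- Bezout
  have hN'q : ¬ (q : ℤ) ∣ ((N / q : ℕ) : ℤ) := by exact_mod_cast hq2
  have hcop : IsCoprime (q : ℤ) ((N / q : ℕ) : ℤ) :=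
    (hq'.irreducible.coprime_iff_not_dvd).mpr hN'q
  obtain ⟨u, v, huv⟩ := hcop
  have hdet : u * (q : ℤ) * 1 - (-v) * ((N / q : ℕ) : ℤ) = 1 := by linear_combination huv
  have hv : ¬ (q : ℤ) ∣ v := by
    intro h
    apply hq'.not_dvd_one
    rw [← huv]
    exact dvd_add (Dvd.intro_left _ rfl) (Dvd.dvd.mul_right h _)
  obtain ⟨ω, hω00, hω01, hωmem⟩ : ∃ ω : SL(2, ℤ), ω 0 0 = u * q ∧ ω 0 1 = -v ∧
      ω ∈ Gamma0 (N / q) :=
    ⟨mk2 (u * q) (-v) ((N / q : ℕ) : ℤ) 1 hdet, rfl, rfl, by rw [mem_Gamma0_iff]; simp⟩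
  let r₁ : Option (Fin q) → SL(2, ℤ) := fun o => o.elim ω (fun i => Tn ((i : ℕ) : ℤ))
  let r₂ : Option (Fin q) → SL(2, ℤ) :=
    fun o => o.elim 1 (fun j => ω * Lmat (((N / q : ℕ) : ℤ) * ((j : ℕ) : ℤ)))
  have hr₁ : ∀ o, r₁ o ∈ Gamma0 (N / q) := by
    rintro (_ | i)
    · exact hωmem
    · exact Tn_mem_Gamma0 _ _
  have hr₂ : ∀ o, r₂ o ∈ Gamma0 (N / q) := by
    rintro (_ | j)
    · exact (Gamma0 (N / q)).one_mem
    · exact (Gamma0 (N / q)).mul_mem hωmem (Lmat_mem_Gamma0 (Dvd.intro _ rfl))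
  have hinj₁ : ∀ o o', r₁ o * (r₁ o')⁻¹ ∈ Kgrp (N / q) q → o = o' := by
    intro o o' h
    rw [mul_inv_mem_Kgrp_iff (hr₁ o) (hr₁ o')] at h
    rcases o with _ | i <;> rcases o' with _ | j
    · rfl
    · exfalso
      have h2 : (q : ℤ) ∣ ω 0 1 * 1 - ω 0 0 * ((j : ℕ) : ℤ) := h
      rw [hω00, hω01] at h2
      obtain ⟨e, he⟩ := h2
      exact hv ⟨-e - u * ((j : ℕ) : ℤ), by linear_combination -he⟩
    · exfalso
      have h2 : (q : ℤ) ∣ ((i : ℕ) : ℤ) * ω 0 0 - 1 * ω 0 1 := h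
      rw [hω00, hω01] at h2
      obtain ⟨e, he⟩ := h2
      exact hv ⟨e - ((i : ℕ) : ℤ) * u, by linear_combination he⟩
    · have h2 : (q : ℤ) ∣ ((i : ℕ) : ℤ) * 1 - 1 * ((j : ℕ) : ℤ) := h
      have hij : i = j := fin_eq_of_dvd (by simpa using h2)
      rw [hij]
  have hsurj₁ : ∀ h ∈ Gamma0 (N / q), ∃ o, h * (r₁ o)⁻¹ ∈ Kgrp (N / q) q := by
    intro h hh
    by_cases h00 : (q : ℤ) ∣ h 0 0
    · refine ⟨none, ?_⟩
      rw [mul_inv_mem_Kgrp_iff hh (hr₁ none)]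
      change (q : ℤ) ∣ h 0 1 * ω 0 0 - h 0 0 * ω 0 1
      rw [hω00]
      exact dvd_sub (Dvd.intro_left _ (by rw [mul_assoc])) (Dvd.dvd.mul_right h00 _)
    · obtain ⟨i, hi⟩ := exists_fin_dvd hq (h 0 0) (h 0 1) h00
      refine ⟨Option.some i, ?_⟩
      rw [mul_inv_mem_Kgrp_iff hh (hr₁ (Option.some i))]
      change (q : ℤ) ∣ h 0 1 * 1 - h 0 0 * ((i : ℕ) : ℤ)
      simpa using hi
  have hinj₂ : ∀ o o', r₂ o * (r₂ o')⁻¹ ∈ Kgrp (N / q) q → o = o' := by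
    intro o o' h
    rw [mul_inv_mem_Kgrp_iff (hr₂ o) (hr₂ o')] at h
    rcases o with _ | i <;> rcases o' with _ | j
    · rfl
    · exfalso
      have h2 : (q : ℤ) ∣ (1 : SL(2, ℤ)) 0 1 *
          (ω * Lmat (((N / q : ℕ) : ℤ) * ((j : ℕ) : ℤ))) 0 0
          - (1 : SL(2, ℤ)) 0 0 * (ω * Lmat (((N / q : ℕ) : ℤ) * ((j : ℕ) : ℤ))) 0 1 := h
      rw [mul_Lmat_00, mul_Lmat_01, hω00, hω01] at h2
      obtain ⟨e, he⟩ := h2
      simp at he
      exact hv ⟨e, by linear_combination he⟩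
    · exfalso
      have h2 : (q : ℤ) ∣ (ω * Lmat (((N / q : ℕ) : ℤ) * ((i : ℕ) : ℤ))) 0 1 *
          (1 : SL(2, ℤ)) 0 0
          - (ω * Lmat (((N / q : ℕ) : ℤ) * ((i : ℕ) : ℤ))) 0 0 * (1 : SL(2, ℤ)) 0 1 := h
      rw [mul_Lmat_00, mul_Lmat_01, hω00, hω01] at h2
      obtain ⟨e, he⟩ := h2
      simp at he
      exact hv ⟨-e, by linear_combination -he⟩
    · have h2 : (q : ℤ) ∣ (ω * Lmat (((N / q : ℕ) : ℤ) * ((i : ℕ) : ℤ))) 0 1 *
          (ω * Lmat (((N / q : ℕ) : ℤ) * ((j : ℕ) : ℤ))) 0 0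
          - (ω * Lmat (((N / q : ℕ) : ℤ) * ((i : ℕ) : ℤ))) 0 0 *
            (ω * Lmat (((N / q : ℕ) : ℤ) * ((j : ℕ) : ℤ))) 0 1 := h
      rw [mul_Lmat_00, mul_Lmat_01, mul_Lmat_00, mul_Lmat_01, hω00, hω01] at h2
      have h3 : (q : ℤ) ∣ v * (v * (((N / q : ℕ) : ℤ) * (((j : ℕ) : ℤ) - ((i : ℕ) : ℤ)))) := by
        convert h2 using 1; ring
      have h4 := (hq'.dvd_or_dvd h3).resolve_left hv
      have h5 := (hq'.dvd_or_dvd h4).resolve_left hv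
      have h6 := (hq'.dvd_or_dvd h5).resolve_left hN'q
      have hij : j = i := fin_eq_of_dvd h6
      rw [hij]
  have hsurj₂ : ∀ h ∈ Gamma0 (N / q), ∃ o, h * (r₂ o)⁻¹ ∈ Kgrp (N / q) q := by
    intro h hh
    by_cases h01 : (q : ℤ) ∣ h 0 1
    · refine ⟨none, ?_⟩
      rw [mul_inv_mem_Kgrp_iff hh (hr₂ none)]
      change (q : ℤ) ∣ h 0 1 * (1 : SL(2, ℤ)) 0 0 - h 0 0 * (1 : SL(2, ℤ)) 0 1
      simpa using h01
    · have ha : ¬ (q : ℤ) ∣ h 0 1 * v * ((N / q : ℕ) : ℤ) := by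
        intro h'
        rcases hq'.dvd_or_dvd h' with h'' | h''
        · rcases hq'.dvd_or_dvd h'' with h3 | h3
          · exact h01 h3
          · exact hv h3
        · exact hN'q h''
      obtain ⟨j, hj⟩ := exists_fin_dvd hq (h 0 1 * v * ((N / q : ℕ) : ℤ)) (h 0 0 * v) ha
      refine ⟨Option.some j, ?_⟩
      rw [mul_inv_mem_Kgrp_iff hh (hr₂ (Option.some j))]
      change (q : ℤ) ∣ h 0 1 * (ω * Lmat (((N / q : ℕ) : ℤ) * ((j : ℕ) : ℤ))) 0 0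
          - h 0 0 * (ω * Lmat (((N / q : ℕ) : ℤ) * ((j : ℕ) : ℤ))) 0 1
      rw [mul_Lmat_00, mul_Lmat_01, hω00, hω01]
      obtain ⟨e, he⟩ := hj
      exact ⟨h 0 1 * u + e, by linear_combination he⟩
  -- the form `Z`
  have hZinv : ∀ γ ∈ Gamma0 (N / q),
      (∑ o, (F ∣[(2 : ℤ)] heckeMatrix q 0) ∣[(2 : ℤ)] r₁ o) ∣[(2 : ℤ)] γ
        = ∑ o, (F ∣[(2 : ℤ)] heckeMatrix q 0) ∣[(2 : ℤ)] r₁ o := fun γ hγ =>
    sum_slash_eq_of_transversal (2 : ℤ) (Gamma0 (N / q)) (Kgrp (N / q) q) _ hθ r₁ hr₁ hinj₁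
      hsurj₁ hγ
  have hZ : (∑ o, (F ∣[(2 : ℤ)] heckeMatrix q 0) ∣[(2 : ℤ)] r₁ o) ∈ S (N / q) := by
    rw [mem_S_iff]
    exact ⟨Submodule.sum_mem _ fun o _ => slash_SL_mem_CF hθCF _, hZinv⟩
  have hZ2 : (∑ o, (F ∣[(2 : ℤ)] heckeMatrix q 0) ∣[(2 : ℤ)] r₁ o)
      = ∑ o, (F ∣[(2 : ℤ)] heckeMatrix q 0) ∣[(2 : ℤ)] r₂ o :=
    sum_slash_transversal_unique (2 : ℤ) (Gamma0 (N / q)) (Kgrp (N / q) q) _ hθ r₁ r₂ hr₁ hr₂
      hinj₁ hinj₂ hsurj₁ hsurj₂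
  refine ⟨_, hZ, ?_⟩
  have hZ1 : (∑ o, (F ∣[(2 : ℤ)] heckeMatrix q 0) ∣[(2 : ℤ)] r₁ o)
      = (F ∣[(2 : ℤ)] heckeMatrix q 0) ∣[(2 : ℤ)] ω + Uf q F := by
    rw [Fintype.sum_option, hU]
    rfl
  have hZ3 : (∑ o, (F ∣[(2 : ℤ)] heckeMatrix q 0) ∣[(2 : ℤ)] r₁ o)
      = F ∣[(2 : ℤ)] heckeMatrix q 0
        + trL (N / q) q ((F ∣[(2 : ℤ)] heckeMatrix q 0) ∣[(2 : ℤ)] ω) := by
    rw [hZ2, Fintype.sum_option, trL_apply]
    congr 1
    · exact SlashAction.slash_one _ _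
    · refine Finset.sum_congr rfl fun j _ => ?_
      exact SlashAction.slash_mul _ _ _ _
  rw [trL_Vg hq0 hqN, trL_aux (F ∣[(2 : ℤ)] heckeMatrix q 0) _ (Uf q F)
    ((F ∣[(2 : ℤ)] heckeMatrix q 0) ∣[(2 : ℤ)] ω) hZ hZ1 hZ3, map_add, _root_.map_smul,
    Vg_slash_heckeMatrix_zero hq0]

/-! ## 6. Old spaces and the main lemma -/

/-- The space of `P`-old forms of level `N`: `∑_{p ∈ P, p ∣ N} V_p S₂(Γ₀(N / p))`. -/
noncomputable def Old (P : Finset ℕ) (N : ℕ) : Submodule ℂ (ℍ → ℂ) :=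
  ⨆ p ∈ P.filter (· ∣ N), (S (N / p)).map (Vg p)

lemma Vg_mem_Old {P : Finset ℕ} {N p : ℕ} (hp : p ∈ P) (hpN : p ∣ N) {G : ℍ → ℂ}
    (hG : G ∈ S (N / p)) : Vg p G ∈ Old P N :=
  Submodule.mem_iSup_of_mem p (Submodule.mem_iSup_of_mem (Finset.mem_filter.mpr ⟨hp, hpN⟩)
    (Submodule.mem_map_of_mem hG))

lemma Old_mono {P P' : Finset ℕ} (h : P ⊆ P') (N : ℕ) : Old P N ≤ Old P' N :=
  biSup_mono fun _ hp => Finset.filter_subset_filter _ h hp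

lemma qCoeff_zero_fun (n : ℕ) : qCoeff (0 : ℍ → ℂ) n = 0 := by
  have := qCoeff_smul_of_mem_S (N := 1) (S 1).zero_mem (0 : ℂ) n
  simpa using this

/-- `F - V_q U_q F` has the coefficients of `F` at `n` prime to `q` and `0` elsewhere. -/
lemma qCoeff_sub_Vg_Uf {N K q : ℕ} [NeZero N] [NeZero K] (hq : q ≠ 0) {F : ℍ → ℂ}
    (hF : F ∈ S N) (hF' : F ∈ S K) {M : ℕ} [NeZero M] (hU : Uf q F ∈ S M)
    (hV : Vg q (Uf q F) ∈ S K) (n : ℕ) :
    qCoeff (F - Vg q (Uf q F)) n = if q ∣ n then 0 else qCoeff F n := by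
  rw [qCoeff_sub_of_mem_S hF' hV, qCoeff_Vg hq hU, qCoeff_Uf hq hF]
  split_ifs with h
  · rw [Nat.div_mul_cancel h, sub_self]
  · rw [sub_zero]

/-- Depletion: kill all coefficients at indices divisible by some prime of `P`. -/
lemma exists_depletion (P : Finset ℕ) (hP : ∀ p ∈ P, p.Prime) {N : ℕ} [NeZero N] {F : ℍ → ℂ}
    (hF : F ∈ S N) :
    ∃ (N' : ℕ) (F' : ℍ → ℂ), N' ≠ 0 ∧ F' ∈ S N' ∧ (∀ q : ℕ, q.Prime → q ∣ N' → q ∣ N ∨ q ∈ P) ∧
      ∀ n, qCoeff F' n = if (∀ p ∈ P, ¬ p ∣ n) then qCoeff F n else 0 := by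
  classical
  induction P using Finset.induction_on with
  | empty =>
    exact ⟨N, F, NeZero.ne N, hF, fun q _ h => Or.inl h, fun n => by simp⟩
  | insert r P' hr ih =>
    obtain ⟨N₁, F₁, hN₁, hF₁, hdiv, hcoef⟩ := ih (fun p hp => hP p (Finset.mem_insert_of_mem hp))
    have hrp : r.Prime := hP r (Finset.mem_insert_self r P')
    have hr0 : r ≠ 0 := hrp.ne_zero
    have : NeZero N₁ := ⟨hN₁⟩
    have : NeZero (N₁ * r) := ⟨mul_ne_zero hN₁ hr0⟩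
    have : NeZero (N₁ * r * r) := ⟨mul_ne_zero (mul_ne_zero hN₁ hr0) hr0⟩
    have h1 : F₁ ∈ S (N₁ * r) := S_mono (Dvd.intro _ rfl) hF₁
    have h2 : Uf r F₁ ∈ S (N₁ * r) := Uf_mem_S (Dvd.intro_left _ rfl) h1
    have h3 : Vg r (Uf r F₁) ∈ S (N₁ * r * r) := Vg_mem_S hr0 h2
    have h4 : F₁ ∈ S (N₁ * r * r) := S_mono (Dvd.intro _ rfl) h1
    refine ⟨N₁ * r * r, F₁ - Vg r (Uf r F₁), NeZero.ne _, (S _).sub_mem h4 h3, ?_, fun n => ?_⟩
    · intro q hq hqd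
      rcases (Nat.Prime.dvd_mul hq).mp hqd with h | h
      · rcases (Nat.Prime.dvd_mul hq).mp h with h | h
        · rcases hdiv q hq h with h | h
          · exact Or.inl h
          · exact Or.inr (Finset.mem_insert_of_mem h)
        · rw [(Nat.prime_dvd_prime_iff_eq hq hrp).mp h]
          exact Or.inr (Finset.mem_insert_self r P')
      · rw [(Nat.prime_dvd_prime_iff_eq hq hrp).mp h]
        exact Or.inr (Finset.mem_insert_self r P')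
    · rw [qCoeff_sub_Vg_Uf hr0 hF₁ h4 h2 h3, hcoef]
      by_cases hrn : r ∣ n
      · rw [if_pos hrn, if_neg]
        intro h
        exact h r (Finset.mem_insert_self r P') hrn
      · rw [if_neg hrn]
        have : (∀ p ∈ insert r P', ¬ p ∣ n) ↔ (∀ p ∈ P', ¬ p ∣ n) := by
          constructor
          · intro h p hp
            exact h p (Finset.mem_insert_of_mem hp)
          · intro h p hp
            rcases Finset.mem_insert.mp hp with rfl | hp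
            · exact hrn
            · exact h p hp
        simp only [this]

lemma trL_mem_Old {P : Finset ℕ} {N q : ℕ} [NeZero N] (hP : ∀ p ∈ P, p.Prime) (hq : q.Prime)
    (hqP : q ∉ P) (hqN : q ∣ N) {D : ℍ → ℂ} (hD : D ∈ Old P (N * q)) :
    trL N q D ∈ Old P N := by
  have hle : Old P (N * q) ≤ (Old P N).comap (trL N q) := by
    refine iSup₂_le fun p hp => ?_
    rw [Finset.mem_filter] at hp
    obtain ⟨hpP, hpd⟩ := hp
    have hpp : p.Prime := hP p hpP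
    have hpq : p ≠ q := fun h => hqP (h ▸ hpP)
    have hpN : p ∣ N := by
      rcases (Nat.Prime.dvd_mul hpp).mp hpd with h | h
      · exact h
      · exact absurd ((Nat.prime_dvd_prime_iff_eq hpp hq).mp h) hpq
    rintro _ ⟨χ, hχ, rfl⟩
    rw [Submodule.mem_comap, trL_Vg hpp.ne_zero hpN]
    have := div_neZero (N := N) hpN
    have hqNp : q ∣ N / p := by
      obtain ⟨m, rfl⟩ := hpN
      rw [Nat.mul_div_cancel_left _ hpp.pos]
      rcases (Nat.Prime.dvd_mul hq).mp hqN with h | h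
      · exact absurd ((Nat.prime_dvd_prime_iff_eq hq hpp).mp h).symm hpq
      · exact h
    have hlev : N * q / p = N / p * q := by
      obtain ⟨m, rfl⟩ := hpN
      rw [Nat.mul_div_cancel_left _ hpp.pos, mul_assoc, Nat.mul_div_cancel_left _ hpp.pos]
    rw [SetLike.mem_coe, hlev] at hχ
    exact Vg_mem_Old hpP hpN (trL_mem_S hq hqNp hχ)
  exact hle hD

/-- `U_q` lowers the level from `N` to `N / q` when `q² ∣ N` (from `helper3055_ULower`). -/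
lemma Uf_mem_S_div_of_sq_dvd {N q : ℕ} [NeZero N] (hq : q ≠ 0) (hqN : q ∣ N) (hq2 : q ∣ N / q)
    {F : ℍ → ℂ} (hF : F ∈ S N) : Uf q F ∈ S (N / q) := by
  have : NeZero q := ⟨hq⟩
  have := div_neZero (N := N) hqN
  have hsq : q ^ 2 ∣ N := by
    obtain ⟨m, hm⟩ := hq2
    refine ⟨m, ?_⟩
    rw [← Nat.div_mul_cancel hqN, hm]
    ring
  rw [mem_S_iff]
  refine ⟨mem_CF_of_mem_S (Uf_mem_S hqN hF), fun γ hγ => ?_⟩
  obtain ⟨f, rfl⟩ := hF
  exact helper3055.heckeU_slash_mapGL_of_sq_dvd 2 hsq f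
    (fun γ' hγ' => f.slash_action_eq' γ' hγ') γ hγ

/-- **Atkin–Lehner main lemma**, function form: if `a_n(F) = 0` for all `n` divisible by no
prime of `P`, then `F` is `P`-old. -/
theorem mem_Old_of_qCoeff (P : Finset ℕ) (hP : ∀ p ∈ P, p.Prime) :
    ∀ (N : ℕ) [NeZero N] (F : ℍ → ℂ), F ∈ S N →
      (∀ n, (∀ p ∈ P, ¬ p ∣ n) → qCoeff F n = 0) → F ∈ Old P N := by
  classical
  induction P using Finset.induction_on with
  | empty =>
    intro N _ F hF h0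
    rw [eq_zero_of_qCoeff_eq_zero hF fun n => h0 n (by simp)]
    exact Submodule.zero_mem _
  | insert q P' hqP' ih =>
    intro N _ F hF h0
    have hP' : ∀ p ∈ P', p.Prime := fun p hp => hP p (Finset.mem_insert_of_mem hp)
    have ih' := ih hP'
    have hqp : q.Prime := hP q (Finset.mem_insert_self q P')
    have hq0 : q ≠ 0 := hqp.ne_zero
    have hqc : (q : ℂ) ≠ 0 := by exact_mod_cast hq0
    by_cases hqN : q ∣ N
    · -- the form `D = F - V_q U_q F`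
      have hUN : Uf q F ∈ S N := Uf_mem_S hqN hF
      have hD0 : ∀ {K : ℕ} [NeZero K], F ∈ S K → Vg q (Uf q F) ∈ S K →
          ∀ n, (∀ p ∈ P', ¬ p ∣ n) → qCoeff (F - Vg q (Uf q F)) n = 0 := by
        intro K _ hFK hVK n hn
        rw [qCoeff_sub_Vg_Uf hq0 hF hFK hUN hVK]
        split_ifs with h
        · rfl
        · refine h0 n fun p hp => ?_
          rcases Finset.mem_insert.mp hp with rfl | hp
          · exact h
          · exact hn p hp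
      by_cases hq2 : q ∣ N / q
      · -- `q² ∣ N`
        have hU : Uf q F ∈ S (N / q) := Uf_mem_S_div_of_sq_dvd hq0 hqN hq2 hF
        have hV : Vg q (Uf q F) ∈ S N := Vg_mem_S_of_dvd hq0 hqN hU
        have hD : F - Vg q (Uf q F) ∈ Old P' N :=
          ih' N _ ((S N).sub_mem hF hV) (hD0 hF hV)
        have : F = (F - Vg q (Uf q F)) + Vg q (Uf q F) := by abel
        rw [this]
        exact Submodule.add_mem _ (Old_mono (Finset.subset_insert q P') N hD)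
          (Vg_mem_Old (Finset.mem_insert_self q P') hqN hU)
      · -- `q ∥ N`
        have : NeZero (N * q) := ⟨mul_ne_zero (NeZero.ne N) hq0⟩
        have hFK : F ∈ S (N * q) := S_mono (Dvd.intro _ rfl) hF
        have hV : Vg q (Uf q F) ∈ S (N * q) := Vg_mem_S hq0 hUN
        have hD : F - Vg q (Uf q F) ∈ Old P' (N * q) :=
          ih' (N * q) _ ((S _).sub_mem hFK hV) (hD0 hFK hV)
        have hT := trL_mem_Old hP' hqp hqP' hqN hD
        obtain ⟨Z, hZ, hZeq⟩ := trL_Vg_Uf hqp hqN hq2 hF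
        rw [map_sub, trL_of_mem_S hF, hZeq] at hT
        have hVZ : Vg q Z ∈ Old (insert q P') N :=
          Vg_mem_Old (Finset.mem_insert_self q P') hqN hZ
        have hT' := Old_mono (Finset.subset_insert q P') N hT
        have hsum := Submodule.add_mem _ hT' (Submodule.smul_mem _ ((q : ℂ) - 1) hVZ)
        have hc : (q : ℂ) - (q : ℂ)⁻¹ ≠ 0 := by
          intro h
          have h1 : (q : ℂ) * (q : ℂ) = 1 := by
            field_simp at h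
            linear_combination h
          have h2 : ((q * q : ℕ) : ℂ) = ((1 : ℕ) : ℂ) := by push_cast; exact h1
          have h3 : q * q = 1 := by exact_mod_cast h2
          have := hqp.one_lt
          nlinarith
        have hF2 : F = ((q : ℂ) - (q : ℂ)⁻¹)⁻¹ •
            ((q : ℂ) • F - (((q : ℂ) - 1) • Vg q Z + (q : ℂ)⁻¹ • F) + ((q : ℂ) - 1) • Vg q Z) := by
          have : (q : ℂ) • F - (((q : ℂ) - 1) • Vg q Z + (q : ℂ)⁻¹ • F) + ((q : ℂ) - 1) • Vg q Z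
              = ((q : ℂ) - (q : ℂ)⁻¹) • F := by
            module
          rw [this, smul_smul, inv_mul_cancel₀ hc, one_smul]
        rw [hF2]
        exact Submodule.smul_mem _ _ hsum
    · -- `q ∤ N`
      obtain ⟨N', F', hN', hF', hdiv, hcoef⟩ := exists_depletion P' hP' hF
      have : NeZero N' := ⟨hN'⟩
      have hqN' : ¬ q ∣ N' := fun h => (hdiv q hqp h).elim hqN hqP'
      have hF'0 : F' = 0 := by
        refine eq_zero_of_qCoeff_of_not_dvd hqp hqN' hF' fun n hn => ?_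
        rw [hcoef]
        split_ifs with h
        · refine h0 n fun p hp => ?_
          rcases Finset.mem_insert.mp hp with rfl | hp
          · exact hn
          · exact h p hp
        · rfl
      have h0' : ∀ n, (∀ p ∈ P', ¬ p ∣ n) → qCoeff F n = 0 := by
        intro n hn
        have := hcoef n
        rw [if_pos hn, hF'0, qCoeff_zero_fun] at this
        exact this.symm
      exact Old_mono (Finset.subset_insert q P') N (ih' N F hF h0')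

/-! ## 7. Consequences and cusp form versions -/

lemma qCoeff_sum_of_mem_S {N : ℕ} [NeZero N] {ι : Type*} (s : Finset ι) (G : ι → ℍ → ℂ)
    (hG : ∀ i ∈ s, G i ∈ S N) (n : ℕ) :
    qCoeff (∑ i ∈ s, G i) n = ∑ i ∈ s, qCoeff (G i) n := by
  classical
  induction s using Finset.induction_on with
  | empty => simpa using qCoeff_zero_fun n
  | insert a s ha ih =>
    rw [Finset.sum_insert ha, Finset.sum_insert ha,
      qCoeff_add_of_mem_S (hG a (Finset.mem_insert_self a s))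
        (Submodule.sum_mem _ fun i hi => hG i (Finset.mem_insert_of_mem hi)),
      ih fun i hi => hG i (Finset.mem_insert_of_mem hi)]

lemma Old_le_S (P : Finset ℕ) (N : ℕ) [NeZero N] : Old P N ≤ S N := by
  refine iSup₂_le fun p hp => ?_
  rw [Finset.mem_filter] at hp
  rintro _ ⟨χ, hχ, rfl⟩
  have hp0 : p ≠ 0 := by
    rintro rfl
    exact NeZero.ne N (Nat.eq_zero_of_zero_dvd hp.2)
  exact Vg_mem_S_of_dvd hp0 hp.2 hχ

/-- Old forms have vanishing coefficients at all indices prime to the relevant primes. -/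
lemma qCoeff_eq_zero_of_mem_Old {P : Finset ℕ} {N : ℕ} [NeZero N] {F : ℍ → ℂ}
    (hF : F ∈ Old P N) {n : ℕ} (hn : ∀ p ∈ P, p ∣ N → ¬ p ∣ n) : qCoeff F n = 0 := by
  let Z : Submodule ℂ (ℍ → ℂ) :=
    { carrier := {G | G ∈ S N ∧ qCoeff G n = 0}
      add_mem' := by
        rintro G H ⟨hG, hG0⟩ ⟨hH, hH0⟩
        exact ⟨(S N).add_mem hG hH, by rw [qCoeff_add_of_mem_S hG hH, hG0, hH0, add_zero]⟩
      zero_mem' := ⟨(S N).zero_mem, qCoeff_zero_fun n⟩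
      smul_mem' := by
        rintro c G ⟨hG, hG0⟩
        exact ⟨(S N).smul_mem c hG, by rw [qCoeff_smul_of_mem_S hG, hG0, mul_zero]⟩ }
  have hle : Old P N ≤ Z := by
    refine iSup₂_le fun p hp => ?_
    rw [Finset.mem_filter] at hp
    rintro _ ⟨χ, hχ, rfl⟩
    have hp0 : p ≠ 0 := by
      rintro rfl
      exact NeZero.ne N (Nat.eq_zero_of_zero_dvd hp.2)
    have := div_neZero (N := N) hp.2
    refine ⟨Vg_mem_S_of_dvd hp0 hp.2 hχ, ?_⟩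
    rw [qCoeff_Vg hp0 hχ, if_neg (hn p hp.1 hp.2)]
  exact (hle hF).2

/-- **Strong vanishing**: if the coefficients `a_n(F)` of `F ∈ S₂(Γ₀(N))` vanish for all `n`
divisible by no prime of the finite set `P`, then they vanish for all `n` prime to `N`. -/
theorem qCoeff_eq_zero_of_coprime_level (P : Finset ℕ) (hP : ∀ p ∈ P, p.Prime) {N : ℕ} [NeZero N]
    {F : ℍ → ℂ} (hF : F ∈ S N) (h0 : ∀ n, (∀ p ∈ P, ¬ p ∣ n) → qCoeff F n = 0) {n : ℕ}
    (hn : n.Coprime N) : qCoeff F n = 0 := by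
  refine qCoeff_eq_zero_of_mem_Old (mem_Old_of_qCoeff P hP N F hF h0) fun p hp hpN hpn => ?_
  exact (hP p hp).one_lt.ne' (Nat.eq_one_of_dvd_coprimes hn hpn hpN)

/-- **Atkin–Lehner main lemma** for cusp forms: decomposition as a sum of `V_p`-images. -/
theorem atkinLehner_main (N : ℕ) [NeZero N] (P : Finset ℕ) (hP : ∀ p ∈ P, p.Prime)
    (f : CuspForm (G0 N) 2) (hf : ∀ n, (∀ p ∈ P, ¬ p ∣ n) → qCoeff f n = 0) :
    ∃ g : (p : ℕ) → CuspForm (G0 (N / p)) 2,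
      (⇑f : ℍ → ℂ) = ∑ p ∈ P.filter (· ∣ N), Vg p ⇑(g p) := by
  classical
  have h := mem_Old_of_qCoeff P hP N f (coe_mem_S f) hf
  rw [Old, Submodule.mem_iSup_finset_iff_exists_sum] at h
  obtain ⟨μ, hμ⟩ := h
  have h1 : ∀ p : ℕ, ∃ g : CuspForm (G0 (N / p)) 2, Vg p ⇑g = (μ p : ℍ → ℂ) := by
    intro p
    obtain ⟨χ, ⟨g, rfl⟩, hχ⟩ := (μ p).2
    exact ⟨g, hχ⟩
  choose g hg using h1
  refine ⟨g, ?_⟩
  rw [← hμ]
  exact Finset.sum_congr rfl fun p _ => (hg p).symm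

/-- **Atkin–Lehner main lemma**, coefficient form. -/
theorem atkinLehner_main_qCoeff (N : ℕ) [NeZero N] (P : Finset ℕ) (hP : ∀ p ∈ P, p.Prime)
    (f : CuspForm (G0 N) 2) (hf : ∀ n, (∀ p ∈ P, ¬ p ∣ n) → qCoeff f n = 0) :
    ∃ g : (p : ℕ) → CuspForm (G0 (N / p)) 2, ∀ n,
      qCoeff f n = ∑ p ∈ P.filter (· ∣ N), if p ∣ n then qCoeff (g p) (n / p) else 0 := by
  classical
  obtain ⟨g, hg⟩ := atkinLehner_main N P hP f hf
  refine ⟨g, fun n => ?_⟩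
  have hp0 : ∀ p ∈ P.filter (· ∣ N), p ≠ 0 := by
    intro p hp
    rw [Finset.mem_filter] at hp
    rintro rfl
    exact NeZero.ne N (Nat.eq_zero_of_zero_dvd hp.2)
  rw [hg, qCoeff_sum_of_mem_S _ _ (fun p hp =>
    Vg_mem_S_of_dvd (hp0 p hp) (Finset.mem_filter.mp hp).2 (coe_mem_S (g p)))]
  refine Finset.sum_congr rfl fun p hp => ?_
  have := div_neZero (N := N) (Finset.mem_filter.mp hp).2
  exact qCoeff_Vg (hp0 p hp) (coe_mem_S (g p)) n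

/-- **Atkin–Lehner main lemma**, classical formulation with an auxiliary integer `L`. -/
theorem atkinLehner_main_coprime (N : ℕ) [NeZero N] (L : ℕ) (hL : L ≠ 0)
    (f : CuspForm (G0 N) 2) (hf : ∀ n : ℕ, n.Coprime L → qCoeff f n = 0) :
    ∃ g : (p : ℕ) → CuspForm (G0 (N / p)) 2, ∀ n,
      qCoeff f n = ∑ p ∈ (Nat.gcd L N).primeFactors,
        if p ∣ n then qCoeff (g p) (n / p) else 0 := by
  classical
  obtain ⟨g, hg⟩ := atkinLehner_main_qCoeff N L.primeFactors (fun p hp => Nat.prime_of_mem_primeFactors hp)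
    f (fun n hn => hf n (Nat.coprime_of_dvd fun k hk hkn hkL =>
      hn k (Nat.mem_primeFactors.mpr ⟨hk, hkL, hL⟩) hkn))
  refine ⟨g, fun n => ?_⟩
  rw [hg n]
  refine Finset.sum_congr ?_ fun _ _ => rfl
  ext p
  simp only [Finset.mem_filter, Nat.mem_primeFactors, Nat.dvd_gcd_iff, ne_eq, Nat.gcd_eq_zero_iff]
  constructor
  · rintro ⟨⟨hp, hpL, -⟩, hpN⟩
    exact ⟨hp, ⟨hpL, hpN⟩, fun h => hL h.1⟩
  · rintro ⟨hp, ⟨hpL, hpN⟩, -⟩
    exact ⟨⟨hp, hpL, hL⟩, hpN⟩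

end Fermat.Agent.S58.helper6078
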