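import Mathlib
import Fermat.Prelude.Thm_CuspForm_heckeTLin_comm
import Fermat.Prelude.Thm_CuspForm_heckeTLin_heckeULin_comm
import Fermat.Prelude.Thm_CuspForm_heckeULin_comm
import Fermat.Prelude.Thm_ModularForm_sturm_bound_Gamma0
import Fermat.Prelude.Thm_ModularFormClass_qCoeff_heckeT
import Fermat.Agent.S58.helper6078_AtkinLehner
import Fermat.Agent.S49.helper589_Eigenform

/-!
# S58, step 0a: strong multiplicity one for Prelude newforms (weight 2, `Γ₀(M)`)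

Author: helper6078.

* linear algebra: common eigenvectors of commuting families, transfer of eigensystems along
  equivariant maps (`exists_common_eigenvector`, `iInf_maxGenEigenspace_ne_bot_of_map`);
* `finite_cuspForm` : `S₂(Γ₀(N))` is finite-dimensional (from the Prelude Sturm bound);
* `goodEigensystemOccursAt_of_eigenvector` (OCC): a nonzero common eigenvector of the `T_ℓ`
  (`ℓ ∤ M`, `ℓ ∉ S`, `S` finite) at a level `M' ∣ M` with the eigenvalues of a normalized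
  eigenform `g` of level `M` makes the good eigensystem of `g` occur at level `M'`;
* `eq_smul_of_isNewform` (M1): strong multiplicity one for a Prelude newform `g`.
-/

set_option autoImplicit false

open UpperHalfPlane ModularForm Filter Topology CongruenceSubgroup ModularFormClass
open scoped MatrixGroups Manifold

namespace Fermat.Agent.S58.helper6078

open Fermat.Agent.S58.helper1646 (G0)

/-! ## 1. Linear algebra -/

section LinearAlgebra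

variable {K W V J : Type*} [Field K] [AddCommGroup W] [Module K W]
  [AddCommGroup V] [Module K V]

/-- A commuting family of endomorphisms of a finite-dimensional space over an algebraically
closed field has a common eigenvector in every nonzero stable subspace. -/
theorem exists_common_eigenvector [IsAlgClosed K] [FiniteDimensional K W]
    (A : J → Module.End K W) (hA : ∀ i j, Commute (A i) (A j)) (E : Submodule K W) (hE : E ≠ ⊥)
    (hEA : ∀ j, ∀ w ∈ E, A j w ∈ E) :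
    ∃ w ∈ E, w ≠ 0 ∧ ∃ χ : J → K, ∀ j, A j w = χ j • w := by
  let 𝒰 : Set (Submodule K W) := {U | U ≠ ⊥ ∧ U ≤ E ∧ ∀ j, ∀ w ∈ U, A j w ∈ U}
  have hE𝒰 : E ∈ 𝒰 := ⟨hE, le_rfl, hEA⟩
  obtain ⟨U, ⟨hU0, hUE, hUA⟩, hmin⟩ := IsArtinian.set_has_minimal 𝒰 ⟨E, hE𝒰⟩
  have key : ∀ j, ∃ μ, U ≤ Module.End.eigenspace (A j) μ := by
    intro j
    have : Nontrivial U := Submodule.nontrivial_iff_ne_bot.mpr hU0
    obtain ⟨μ, hμ⟩ := Module.End.exists_eigenvalue ((A j).restrict (hUA j))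
    obtain ⟨u, hu⟩ := hμ.exists_hasEigenvector
    refine ⟨μ, ?_⟩
    have hu1 : A j (u : W) = μ • (u : W) := by
      have := congrArg Subtype.val hu.apply_eq_smul
      simpa using this
    have hu0 : (u : W) ≠ 0 := fun h => hu.2 (Subtype.ext h)
    have hU'mem : U ⊓ Module.End.eigenspace (A j) μ ∈ 𝒰 := by
      refine ⟨?_, inf_le_left.trans hUE, ?_⟩
      · intro hbot
        have : (u : W) ∈ U ⊓ Module.End.eigenspace (A j) μ :=
          ⟨u.2, Module.End.mem_eigenspace_iff.mpr hu1⟩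
        rw [hbot] at this
        exact hu0 ((Submodule.mem_bot K).mp this)
      · rintro i w ⟨hwU, hwe⟩
        refine ⟨hUA i w hwU, ?_⟩
        rw [SetLike.mem_coe, Module.End.mem_eigenspace_iff] at hwe ⊢
        have hc : A j (A i w) = A i (A j w) := by
          have := congrArg (fun f : Module.End K W => f w) (hA j i).eq
          simpa using this
        rw [hc, hwe, map_smul]
    have hnlt : ¬ U ⊓ Module.End.eigenspace (A j) μ < U := hmin _ hU'mem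
    have heq : U ⊓ Module.End.eigenspace (A j) μ = U :=
      (eq_or_lt_of_le inf_le_left).resolve_right hnlt
    rw [← heq]
    exact inf_le_right
  choose χ hχ using key
  obtain ⟨w, hwU, hw0⟩ := Submodule.exists_mem_ne_zero_of_ne_bot hU0
  exact ⟨w, hUE hwU, hw0, χ, fun j => Module.End.mem_eigenspace_iff.mp (hχ j hwU)⟩

/-- A nonzero simultaneous generalized eigenspace of a commuting family contains a genuine
simultaneous eigenvector. -/
theorem exists_eigenvector_of_iInf_maxGenEigenspace_ne_bot [IsAlgClosed K] [FiniteDimensional K W]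
    (A : J → Module.End K W) (hA : ∀ i j, Commute (A i) (A j)) (lam : J → K)
    (h : ⨅ j, (A j).maxGenEigenspace (lam j) ≠ ⊥) :
    ∃ w, w ≠ 0 ∧ ∀ j, A j w = lam j • w := by
  obtain ⟨w, hwE, hw0, χ, hχ⟩ := exists_common_eigenvector A hA _ h (by
    intro i w hw
    rw [Submodule.mem_iInf] at hw ⊢
    intro j
    exact Module.End.mapsTo_maxGenEigenspace_of_comm (hA j i) (lam j) (hw j))
  refine ⟨w, hw0, fun j => ?_⟩
  rw [Module.End.mem_iInf_maxGenEigenspace_iff] at hwE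
  obtain ⟨k, hk⟩ := hwE j
  have hpow : ∀ k : ℕ, ((A j - lam j • (1 : Module.End K W)) ^ k) w = (χ j - lam j) ^ k • w := by
    intro k
    induction k with
    | zero => simp
    | succ k ih =>
      rw [pow_succ', Module.End.mul_apply, ih, map_smul]
      simp only [LinearMap.sub_apply, LinearMap.smul_apply, Module.End.one_apply, hχ j]
      rw [← sub_smul, smul_smul, pow_succ]
  rw [hpow k] at hk
  have h0 : (χ j - lam j) ^ k = 0 := (smul_eq_zero.mp hk).resolve_right hw0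
  have h1 : χ j - lam j = 0 := by
    by_contra hne
    exact pow_ne_zero k hne h0
  rw [hχ j, sub_eq_zero.mp h1]

/-- Transfer of eigensystems along an equivariant map: if an eigenvector with eigensystem `lam`
lies in the image of `Φ`, then `lam` occurs (as a generalized eigensystem) in the source. -/
theorem iInf_maxGenEigenspace_ne_bot_of_map [IsAlgClosed K] [FiniteDimensional K W]
    (A : J → Module.End K W) (hA : ∀ i j, Commute (A i) (A j))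
    (B : J → Module.End K V) (hB : ∀ i j, Commute (B i) (B j))
    (Φ : W →ₗ[K] V) (hΦ : ∀ j w, Φ (A j w) = B j (Φ w)) (lam : J → K) (w₀ : W)
    (hw₀ : Φ w₀ ≠ 0) (hf : ∀ j, B j (Φ w₀) = lam j • Φ w₀) :
    ⨅ j, (A j).maxGenEigenspace (lam j) ≠ ⊥ := by
  intro hbot
  have hW := Module.End.iSup_iInf_maxGenEigenspace_eq_top_of_iSup_maxGenEigenspace_eq_top_of_commute
    A (fun i j _ => hA i j) (fun i => Module.End.iSup_maxGenEigenspace_eq_top (A i))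
  have hind := Module.End.independent_iInf_maxGenEigenspace_of_forall_mapsTo B
    (fun i j φ => Module.End.mapsTo_maxGenEigenspace_of_comm (hB j i) φ)
  have hmap : ∀ χ : J → K, (⨅ j, (A j).maxGenEigenspace (χ j)).map Φ
      ≤ ⨅ j, (B j).maxGenEigenspace (χ j) := by
    intro χ
    rintro _ ⟨w, hw, rfl⟩
    rw [SetLike.mem_coe, Module.End.mem_iInf_maxGenEigenspace_iff] at hw
    rw [Module.End.mem_iInf_maxGenEigenspace_iff]
    intro j
    obtain ⟨k, hk⟩ := hw j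
    refine ⟨k, ?_⟩
    have hpow : ∀ (k : ℕ) (w : W), ((B j - χ j • (1 : Module.End K V)) ^ k) (Φ w)
        = Φ (((A j - χ j • (1 : Module.End K W)) ^ k) w) := by
      intro k
      induction k with
      | zero => intro w; simp
      | succ k ih =>
        intro w
        rw [pow_succ, pow_succ, Module.End.mul_apply, Module.End.mul_apply, ← ih]
        congr 1
        simp [hΦ]
    rw [hpow, hk, map_zero]
  have h1 : Φ w₀ ∈ ⨆ χ ≠ lam, ⨅ j, (B j).maxGenEigenspace (χ j) := by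
    have h3 : w₀ ∈ ⨆ χ : J → K, ⨅ j, (A j).maxGenEigenspace (χ j) := by
      rw [hW]; trivial
    have h2 : Φ w₀ ∈ (⨆ χ : J → K, ⨅ j, (A j).maxGenEigenspace (χ j)).map Φ :=
      Submodule.mem_map_of_mem h3
    rw [Submodule.map_iSup] at h2
    have hle : (⨆ χ : J → K, (⨅ j, (A j).maxGenEigenspace (χ j)).map Φ)
        ≤ ⨆ χ ≠ lam, ⨅ j, (B j).maxGenEigenspace (χ j) := by
      refine iSup_le fun χ => ?_
      by_cases hχ : χ = lam
      · rw [hχ, hbot, Submodule.map_bot]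
        exact bot_le
      · exact (hmap χ).trans (le_iSup₂_of_le χ hχ le_rfl)
    exact hle h2
  have h2 : Φ w₀ ∈ ⨅ j, (B j).maxGenEigenspace (lam j) := by
    rw [Module.End.mem_iInf_maxGenEigenspace_iff]
    intro j
    exact ⟨1, by simp [hf j]⟩
  exact hw₀ ((Submodule.mem_bot K).mp ((hind lam).le_bot ⟨h2, h1⟩))

end LinearAlgebra

/-! ## 2. Finite-dimensionality and the operators at the level of cusp forms -/

lemma qCoeff_zero_of_mem_S {N : ℕ} {F : ℍ → ℂ} (hF : F ∈ S N) : qCoeff F 0 = 0 := by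
  obtain ⟨f, rfl⟩ := hF
  exact helper3055.qCoeff_zero_cuspForm f

/-- `S₂(Γ₀(N))` is finite-dimensional (Sturm bound). -/
theorem finite_cuspForm (N : ℕ) [NeZero N] : Module.Finite ℂ (CuspForm (G0 N) 2) := by
  let L : CuspForm (G0 N) 2 →ₗ[ℂ] (Fin (((2 : ℤ) * (Gamma0 N).index).toNat / 12 + 1) → ℂ) :=
    { toFun := fun f i => qCoeff f i
      map_add' := fun f g => by
        funext i
        exact qCoeff_add_of_mem_S (coe_mem_S f) (coe_mem_S g) i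
      map_smul' := fun c f => by
        funext i
        exact qCoeff_smul_of_mem_S (coe_mem_S f) c i }
  have hL : Function.Injective L := by
    rw [← LinearMap.ker_eq_bot, LinearMap.ker_eq_bot']
    intro f hf
    let F : ModularForm (Gamma0 N) 2 :=
      { toSlashInvariantForm := f.toSlashInvariantForm
        holo' := f.holo'
        bdd_at_cusps' := fun hc g hg => (f.zero_at_cusps' hc g hg).boundedAtFilter }
    have hF : F = 0 := ModularForm.sturm_bound_Gamma0 N F (fun n hn => by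
      have := congrFun hf ⟨n, by omega⟩
      exact this)
    apply DFunLike.coe_injective
    exact congrArg (fun G : ModularForm (Gamma0 N) 2 => (⇑G : ℍ → ℂ)) hF
  exact Module.Finite.of_injective L hL

/-- A cusp form with a given underlying function in `S N`. -/
noncomputable def ofMemS {N : ℕ} {F : ℍ → ℂ} (hF : F ∈ S N) : CuspForm (G0 N) 2 := hF.choose

lemma coe_ofMemS {N : ℕ} {F : ℍ → ℂ} (hF : F ∈ S N) : (⇑(ofMemS hF) : ℍ → ℂ) = F :=
  hF.choose_spec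

/-- `V_p` as a linear map `S₂(Γ₀(M / p)) → S₂(Γ₀(M))` for `p ∣ M`. -/
noncomputable def Vc {M p : ℕ} (hp : p ≠ 0) (hpM : p ∣ M) :
    CuspForm (G0 (M / p)) 2 →ₗ[ℂ] CuspForm (G0 M) 2 where
  toFun φ := ofMemS (Vg_mem_S_of_dvd hp hpM (coe_mem_S φ))
  map_add' φ ψ := DFunLike.coe_injective (by
    change (⇑(ofMemS _) : ℍ → ℂ) = ⇑(ofMemS _) + ⇑(ofMemS _)
    rw [coe_ofMemS, coe_ofMemS, coe_ofMemS]
    exact map_add (Vg p) ⇑φ ⇑ψ)
  map_smul' c φ := DFunLike.coe_injective (by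
    change (⇑(ofMemS _) : ℍ → ℂ) = c • ⇑(ofMemS _)
    rw [coe_ofMemS, coe_ofMemS]
    exact map_smul (Vg p) c ⇑φ)

lemma coe_Vc {M p : ℕ} (hp : p ≠ 0) (hpM : p ∣ M) (φ : CuspForm (G0 (M / p)) 2) :
    (⇑(Vc hp hpM φ) : ℍ → ℂ) = Vg p ⇑φ := coe_ofMemS _

/-- `T_ℓ` on functions. -/
noncomputable def Tf (ℓ : ℕ) : (ℍ → ℂ) →ₗ[ℂ] (ℍ → ℂ) where
  toFun F := ModularForm.heckeT 2 ℓ F
  map_add' F G := ModularForm.heckeT_add 2 ℓ F G
  map_smul' c F := ModularForm.heckeT_smul 2 ℓ c F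

lemma Tf_apply (ℓ : ℕ) (F : ℍ → ℂ) : Tf ℓ F = ModularForm.heckeT 2 ℓ F := rfl

lemma Tf_mem_S {N ℓ : ℕ} (hℓ : ℓ.Prime) (hℓN : ¬ ℓ ∣ N) {F : ℍ → ℂ} (hF : F ∈ S N) :
    Tf ℓ F ∈ S N := by
  obtain ⟨f, rfl⟩ := hF
  exact ⟨CuspForm.heckeTLin 2 hℓ hℓN f, rfl⟩

lemma qCoeff_Tf {N ℓ : ℕ} (hℓ : ℓ ≠ 0) {F : ℍ → ℂ} (hF : F ∈ S N) (n : ℕ) :
    qCoeff (Tf ℓ F) n
      = qCoeff F (n * ℓ) + if ℓ ∣ n then (ℓ : ℂ) * qCoeff F (n / ℓ) else 0 := by
  obtain ⟨f, rfl⟩ := hF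
  have h := ModularFormClass.qCoeff_heckeT (k := 2) f (one_mem_strictPeriods_Gamma0 N) hℓ n
  rw [ModularForm.coeffHeckeT_apply] at h
  simpa [Tf_apply] using h

/-! ## 3. Eigenvectors and `q`-coefficients -/

/-- A normalized eigenform (coefficient sense of the Prelude) is a `T_ℓ`-eigenvector, `ℓ ∤ M`. -/
theorem Tf_eq_smul_of_isNormalizedEigenform {M : ℕ} [NeZero M] {g : CuspForm (G0 M) 2}
    (hg : g.IsNormalizedEigenform) {ℓ : ℕ} (hℓ : ℓ.Prime) (hM : ¬ ℓ ∣ M) :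
    Tf ℓ ⇑g = qCoeff g ℓ • (⇑g : ℍ → ℂ) := by
  refine eq_of_qCoeff_eq (Tf_mem_S hℓ hM (coe_mem_S g)) ((S M).smul_mem _ (coe_mem_S g))
    fun n => ?_
  rw [qCoeff_Tf hℓ.ne_zero (coe_mem_S g), qCoeff_smul_of_mem_S (coe_mem_S g)]
  rcases Nat.eq_zero_or_pos n with rfl | hn
  · simp [qCoeff_zero_of_mem_S (coe_mem_S g)]
  obtain ⟨r, m, hm, rfl⟩ := Nat.exists_eq_pow_mul_and_not_dvd hn.ne' ℓ hℓ.ne_one
  have hcop : ∀ j, Nat.Coprime (ℓ ^ j) m := fun j =>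
    Nat.Coprime.pow_left j ((Nat.Prime.coprime_iff_not_dvd hℓ).2 hm)
  cases r with
  | zero =>
    simp only [pow_zero, one_mul]
    rw [if_neg hm, add_zero, hg.qCoeff_mul_of_coprime m ℓ (by simpa using (hcop 1).symm)]
    ring
  | succ k =>
    have h1 : ℓ ^ (k + 1) * m * ℓ = ℓ ^ (k + 2) * m := by ring
    have h2 : ℓ ^ (k + 1) * m / ℓ = ℓ ^ k * m := by
      rw [pow_succ, mul_right_comm, Nat.mul_div_cancel _ hℓ.pos]
    have hd : ℓ ∣ ℓ ^ (k + 1) * m :=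
      Dvd.dvd.mul_right (dvd_pow_self ℓ (Nat.succ_ne_zero k)) m
    rw [if_pos hd, h1, h2, hg.qCoeff_mul_of_coprime _ _ (hcop _),
      hg.qCoeff_mul_of_coprime _ _ (hcop _), hg.qCoeff_mul_of_coprime _ _ (hcop _),
      hg.qCoeff_prime_pow_of_not_dvd ℓ k hℓ hM]
    ring

/-- If `F` is a `T_ℓ`-eigenvector for all primes `ℓ` with `Q ℓ` and `a_1(F) = 0`, then
`a_n(F) = 0` for every `n ≥ 1` all of whose prime factors satisfy `Q`. -/
theorem qCoeff_eq_zero_of_Tf_eigen {N : ℕ} [NeZero N] {F : ℍ → ℂ} (hF : F ∈ S N) (Q : ℕ → Prop)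
    (lam : ℕ → ℂ) (hT : ∀ ℓ, ℓ.Prime → Q ℓ → Tf ℓ F = lam ℓ • F) (h1 : qCoeff F 1 = 0) :
    ∀ n, n ≠ 0 → (∀ ℓ, ℓ.Prime → ℓ ∣ n → Q ℓ) → qCoeff F n = 0 := by
  intro n
  induction n using Nat.strong_induction_on with
  | _ n ih =>
    intro hn hQ
    by_cases hn1 : n = 1
    · rw [hn1]; exact h1
    · have hℓ := Nat.minFac_prime hn1
      obtain ⟨m, hm⟩ := Nat.minFac_dvd n
      have hm0 : m ≠ 0 := by
        rintro rfl
        exact hn (by simpa using hm)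
      have hmn : m < n := by
        conv_rhs => rw [hm]
        exact lt_mul_of_one_lt_left (Nat.pos_of_ne_zero hm0) hℓ.one_lt
      have hℓQ : Q n.minFac := hQ _ hℓ (Nat.minFac_dvd n)
      have key : qCoeff (Tf n.minFac F) m = qCoeff (lam n.minFac • F) m :=
        congrArg (fun G => qCoeff G m) (hT _ hℓ hℓQ)
      rw [qCoeff_Tf hℓ.ne_zero hF, qCoeff_smul_of_mem_S hF] at key
      have hm' : qCoeff F m = 0 :=
        ih m hmn hm0 fun p hp hpm => hQ p hp (hm ▸ Dvd.dvd.mul_left hpm _)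
      rw [hm', mul_zero] at key
      have h2 : (if n.minFac ∣ m then (n.minFac : ℂ) * qCoeff F (m / n.minFac) else 0) = 0 := by
        split_ifs with hd
        · obtain ⟨c, hc⟩ := hd
          have hc0 : c ≠ 0 := by
            rintro rfl
            exact hm0 (by simpa using hc)
          have hdiv : m / n.minFac = c := by
            rw [hc, Nat.mul_div_cancel_left _ hℓ.pos]
          have hcm : c ≤ m := by
            rw [hc]
            exact Nat.le_mul_of_pos_left _ hℓ.pos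
          have : qCoeff F c = 0 := ih c (lt_of_le_of_lt hcm hmn) hc0 fun p hp hpc =>
            hQ p hp (hm ▸ Dvd.dvd.mul_left (hc ▸ Dvd.dvd.mul_left hpc _) _)
          rw [hdiv, this, mul_zero]
        · rfl
      rw [h2, add_zero] at key
      rw [hm, mul_comm]
      exact key

/-! ## 4. Occurrence of a good eigensystem at a lower level (OCC) -/

/-- The full family of Hecke operators at level `N`, indexed by the primes:
`U_ℓ` for `ℓ ∣ N`, `T_ℓ` for `ℓ ∤ N`. -/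
noncomputable def heckeFam (N : ℕ) [NeZero N] (ℓ : {ℓ : ℕ // ℓ.Prime}) :
    Module.End ℂ (CuspForm (G0 N) 2) :=
  if h : ℓ.1 ∣ N then CuspForm.heckeULin 2 h else CuspForm.heckeTLin 2 ℓ.2 h

lemma heckeFam_commute (N : ℕ) [NeZero N] (i j : {ℓ : ℕ // ℓ.Prime}) :
    Commute (heckeFam N i) (heckeFam N j) := by
  unfold heckeFam
  split_ifs with hi hj hj
  · exact CuspForm.heckeULin_comm 2 hi hj
  · exact (CuspForm.heckeTLin_heckeULin_comm 2 j.2 hj hi).symm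
  · exact CuspForm.heckeTLin_heckeULin_comm 2 i.2 hi hj
  · exact CuspForm.heckeTLin_comm 2 i.2 hi j.2 hj

/-- The common eigenspace of the `T_ℓ` (function form) over the primes `ℓ` with `Q ℓ`. -/
def eigSub (N : ℕ) (Q : ℕ → Prop) (lam : ℕ → ℂ) : Submodule ℂ (CuspForm (G0 N) 2) where
  carrier := {ψ | ∀ ℓ : ℕ, ℓ.Prime → Q ℓ → Tf ℓ ⇑ψ = lam ℓ • (⇑ψ : ℍ → ℂ)}
  add_mem' := by
    intro a b ha hb ℓ hℓ hQ
    change Tf ℓ (⇑a + ⇑b) = lam ℓ • ((⇑a : ℍ → ℂ) + ⇑b)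
    rw [map_add, ha ℓ hℓ hQ, hb ℓ hℓ hQ, smul_add]
  zero_mem' := by
    intro ℓ hℓ hQ
    change Tf ℓ 0 = lam ℓ • (0 : ℍ → ℂ)
    simp
  smul_mem' := by
    intro c a ha ℓ hℓ hQ
    change Tf ℓ (c • ⇑a) = lam ℓ • (c • (⇑a : ℍ → ℂ))
    rw [map_smul, ha ℓ hℓ hQ, smul_comm]

lemma mem_eigSub {N : ℕ} {Q : ℕ → Prop} {lam : ℕ → ℂ} {ψ : CuspForm (G0 N) 2} :
    ψ ∈ eigSub N Q lam ↔ ∀ ℓ : ℕ, ℓ.Prime → Q ℓ → Tf ℓ ⇑ψ = lam ℓ • (⇑ψ : ℍ → ℂ) := Iff.rfl

lemma heckeFam_mem_eigSub {N : ℕ} [NeZero N] {Q : ℕ → Prop} {lam : ℕ → ℂ}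
    (hQ : ∀ ℓ : ℕ, ℓ.Prime → Q ℓ → ¬ ℓ ∣ N) (j : {ℓ : ℕ // ℓ.Prime}) {ψ : CuspForm (G0 N) 2}
    (hψ : ψ ∈ eigSub N Q lam) : heckeFam N j ψ ∈ eigSub N Q lam := by
  intro ℓ hℓ hQℓ
  have hℓN := hQ ℓ hℓ hQℓ
  have h1 : CuspForm.heckeTLin 2 hℓ hℓN ψ = lam ℓ • ψ := DFunLike.coe_injective (hψ ℓ hℓ hQℓ)
  have hc : Commute (heckeFam N ⟨ℓ, hℓ⟩) (heckeFam N j) := heckeFam_commute N _ _
  have h2 : heckeFam N ⟨ℓ, hℓ⟩ = CuspForm.heckeTLin 2 hℓ hℓN := by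
    unfold heckeFam
    rw [dif_neg hℓN]
  have h3 : CuspForm.heckeTLin 2 hℓ hℓN (heckeFam N j ψ) = lam ℓ • heckeFam N j ψ := by
    rw [← h2]
    have := congrArg (fun f : Module.End ℂ (CuspForm (G0 N) 2) => f ψ) hc.eq
    simp only [Module.End.mul_apply] at this
    rw [this, h2, h1, map_smul]
  exact congrArg (fun f : CuspForm (G0 N) 2 => (⇑f : ℍ → ℂ)) h3

/-- **(OCC)** A nonzero common eigenvector of the `T_ℓ` (`ℓ ∤ M`, `ℓ ∉ X`) at a level `M' ∣ M`,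
with the eigenvalues `a_ℓ(g)` of a normalized eigenform `g` of level `M`, makes the good
eigensystem of `g` occur at level `M'`. -/
theorem goodEigensystemOccursAt_of_eigenvector {M M' : ℕ} [NeZero M] (hM' : M' ∣ M)
    {g : CuspForm (G0 M) 2} (hg : g.IsNormalizedEigenform) (X : Finset ℕ)
    (φ : CuspForm (G0 M') 2) (hφ : φ ≠ 0)
    (hT : ∀ ℓ : ℕ, ℓ.Prime → ¬ ℓ ∣ M → ℓ ∉ X → Tf ℓ ⇑φ = qCoeff g ℓ • (⇑φ : ℍ → ℂ)) :
    g.GoodEigensystemOccursAt M' := by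
  have : NeZero M' := ⟨fun h => NeZero.ne M (by
    rw [h] at hM'
    exact Nat.eq_zero_of_zero_dvd hM')⟩
  have := finite_cuspForm M'
  obtain ⟨Q, hQdef⟩ : ∃ Q : ℕ → Prop, ∀ ℓ, Q ℓ ↔ (¬ ℓ ∣ M ∧ ℓ ∉ X) := ⟨_, fun _ => Iff.rfl⟩
  obtain ⟨lam, hlam⟩ : ∃ lam : ℕ → ℂ, ∀ ℓ, lam ℓ = qCoeff g ℓ := ⟨_, fun _ => rfl⟩
  have hQ : ∀ ℓ : ℕ, ℓ.Prime → Q ℓ → ¬ ℓ ∣ M' := fun ℓ _ h hd => ((hQdef ℓ).mp h).1 (hd.trans hM')
  have hφE : φ ∈ eigSub M' Q lam := fun ℓ hℓ h => by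
    rw [hlam]
    exact hT ℓ hℓ ((hQdef ℓ).mp h).1 ((hQdef ℓ).mp h).2
  have hE : eigSub M' Q lam ≠ ⊥ := fun h => hφ (by
    rw [h] at hφE
    exact (Submodule.mem_bot ℂ).mp hφE)
  obtain ⟨w, hwE, hw0, χ, hχ⟩ := exists_common_eigenvector (heckeFam M') (heckeFam_commute M') _
    hE (fun j w hw => heckeFam_mem_eigSub hQ j hw)
  have hT' : ∀ (ℓ : ℕ) (hℓ : ℓ.Prime) (hℓN : ¬ ℓ ∣ M'),
      CuspForm.heckeTLin 2 hℓ hℓN w = (if h : ℓ.Prime then χ ⟨ℓ, h⟩ else 0) • w := by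
    intro ℓ hℓ hℓN
    have := hχ ⟨ℓ, hℓ⟩
    unfold heckeFam at this
    rw [dif_neg hℓN] at this
    rw [dif_pos hℓ]
    exact this
  have hU' : ∀ (q : ℕ) (_ : q.Prime) (hqN : q ∣ M'),
      CuspForm.heckeULin 2 hqN w = (if h : q.Prime then χ ⟨q, h⟩ else 0) • w := by
    intro q hq hqN
    have := hχ ⟨q, hq⟩
    unfold heckeFam at this
    rw [dif_pos hqN] at this
    rw [dif_pos hq]
    exact this
  obtain ⟨g', hg', -, c, -, hg'w⟩ :=
    Fermat.Agent.S49.helper589.exists_normalizedEigenform_of_eigenvector w hw0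
      (fun ℓ => if h : ℓ.Prime then χ ⟨ℓ, h⟩ else 0) hT' hU'
  have hg'E : g' ∈ eigSub M' Q lam := by
    rw [hg'w]
    exact Submodule.smul_mem _ c hwE
  refine ⟨g', hg', fun ℓ hℓ hℓM => ?_⟩
  have hg'S : (⇑g' : ℍ → ℂ) ∈ S M := S_mono hM' (coe_mem_S g')
  have hFS : ((⇑g' : ℍ → ℂ) - ⇑g) ∈ S M := (S M).sub_mem hg'S (coe_mem_S g)
  have hF1 : qCoeff ((⇑g' : ℍ → ℂ) - ⇑g) 1 = 0 := by
    rw [qCoeff_sub_of_mem_S hg'S (coe_mem_S g), hg'.qCoeff_one, hg.qCoeff_one, sub_self]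
  have hFT : ∀ ℓ : ℕ, ℓ.Prime → Q ℓ →
      Tf ℓ ((⇑g' : ℍ → ℂ) - ⇑g) = lam ℓ • ((⇑g' : ℍ → ℂ) - ⇑g) := by
    intro ℓ hℓ hQℓ
    rw [map_sub, hg'E ℓ hℓ hQℓ, Tf_eq_smul_of_isNormalizedEigenform hg hℓ ((hQdef ℓ).mp hQℓ).1,
      smul_sub, hlam]
  have hvan := qCoeff_eq_zero_of_Tf_eigen hFS Q lam hFT hF1
  have h0 : ∀ n, (∀ p ∈ M.primeFactors ∪ X.filter Nat.Prime, ¬ p ∣ n) →
      qCoeff ((⇑g' : ℍ → ℂ) - ⇑g) n = 0 := by
    intro n hn
    rcases Nat.eq_zero_or_pos n with rfl | hpos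
    · exact qCoeff_zero_of_mem_S hFS
    · refine hvan n hpos.ne' fun p hp hpn => (hQdef p).mpr ⟨fun hpM => ?_, fun hpS => ?_⟩
      · exact hn p (Finset.mem_union_left _
          (Nat.mem_primeFactors.mpr ⟨hp, hpM, NeZero.ne M⟩)) hpn
      · exact hn p (Finset.mem_union_right _ (Finset.mem_filter.mpr ⟨hpS, hp⟩)) hpn
  have hP : ∀ p ∈ M.primeFactors ∪ X.filter Nat.Prime, p.Prime := by
    intro p hp
    rcases Finset.mem_union.mp hp with h | h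
    · exact Nat.prime_of_mem_primeFactors h
    · exact (Finset.mem_filter.mp h).2
  have hfin := qCoeff_eq_zero_of_coprime_level _ hP hFS h0 (n := ℓ)
    ((Nat.Prime.coprime_iff_not_dvd hℓ).mpr hℓM)
  rw [qCoeff_sub_of_mem_S hg'S (coe_mem_S g)] at hfin
  exact sub_eq_zero.mp hfin

/-! ## 5. Strong multiplicity one -/

lemma coe_sum_cuspForm {N : ℕ} {ι : Type*} (s : Finset ι) (f : ι → CuspForm (G0 N) 2) :
    (⇑(∑ i ∈ s, f i) : ℍ → ℂ) = ∑ i ∈ s, (⇑(f i) : ℍ → ℂ) := by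
  classical
  induction s using Finset.induction_on with
  | empty => rfl
  | insert a s ha ih =>
    rw [Finset.sum_insert ha, Finset.sum_insert ha, ← ih]
    rfl

/-- `T_ℓ` commutes with `V_p` on `S₂(Γ₀(K))` (`ℓ` prime, `ℓ ∤ p K`). -/
lemma Tf_Vg {K p ℓ : ℕ} [NeZero K] (hp : p ≠ 0) (hℓ : ℓ.Prime) (hℓp : ¬ ℓ ∣ p) (hℓK : ¬ ℓ ∣ K)
    {F : ℍ → ℂ} (hF : F ∈ S K) : Tf ℓ (Vg p F) = Vg p (Tf ℓ F) := by
  have : NeZero (K * p) := ⟨mul_ne_zero (NeZero.ne K) hp⟩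
  have hℓKp : ¬ ℓ ∣ K * p := fun h => ((Nat.Prime.dvd_mul hℓ).mp h).elim hℓK hℓp
  have hcop : Nat.Coprime ℓ p := (Nat.Prime.coprime_iff_not_dvd hℓ).mpr hℓp
  have hV : Vg p F ∈ S (K * p) := Vg_mem_S hp hF
  have hTF : Tf ℓ F ∈ S K := Tf_mem_S hℓ hℓK hF
  refine eq_of_qCoeff_eq (Tf_mem_S hℓ hℓKp hV) (Vg_mem_S hp hTF) fun n => ?_
  rw [qCoeff_Tf hℓ.ne_zero hV, qCoeff_Vg hp hF, qCoeff_Vg hp hF, qCoeff_Vg hp hTF,
    qCoeff_Tf hℓ.ne_zero hF]
  by_cases hpn : p ∣ n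
  · obtain ⟨m, rfl⟩ := hpn
    have h1 : p ∣ p * m * ℓ := Dvd.dvd.mul_right (Dvd.intro m rfl) ℓ
    have h2 : p * m * ℓ / p = m * ℓ := by
      rw [mul_assoc, Nat.mul_div_cancel_left _ (Nat.pos_of_ne_zero hp)]
    have h3 : p * m / p = m := Nat.mul_div_cancel_left _ (Nat.pos_of_ne_zero hp)
    rw [if_pos h1, h2, if_pos (Dvd.intro m rfl), h3]
    congr 1
    by_cases hℓm : ℓ ∣ m
    · obtain ⟨c, rfl⟩ := hℓm
      have h4 : ℓ ∣ p * (ℓ * c) := Dvd.dvd.mul_left (Dvd.intro c rfl) p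
      have h5 : p * (ℓ * c) / ℓ = p * c := by
        rw [mul_left_comm, Nat.mul_div_cancel_left _ hℓ.pos]
      have h6 : ℓ * c / ℓ = c := Nat.mul_div_cancel_left _ hℓ.pos
      rw [if_pos h4, h5, if_pos (Dvd.intro c rfl), Nat.mul_div_cancel_left _ (Nat.pos_of_ne_zero hp),
        if_pos (Dvd.intro c rfl), h6]
    · have h4 : ¬ ℓ ∣ p * m := fun h => hℓm (hcop.dvd_of_dvd_mul_left h)
      rw [if_neg h4, if_neg hℓm]
  · have h1 : ¬ p ∣ n * ℓ := fun h => hpn (hcop.symm.dvd_of_dvd_mul_right h)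
    rw [if_neg h1, if_neg hpn, zero_add]
    split_ifs with hℓn hpd
    · exfalso
      obtain ⟨c, rfl⟩ := hℓn
      rw [Nat.mul_div_cancel_left _ hℓ.pos] at hpd
      exact hpn (Dvd.dvd.mul_left hpd ℓ)
    · rw [mul_zero]
    · rfl

/-- **(M1) Strong multiplicity one** for a Prelude newform `g` of level `M`: a cusp form `h` of
level `M` which is a `T_ℓ`-eigenvector with eigenvalue `a_ℓ(g)` for all primes `ℓ ∤ M` outside
a finite set `X` is `a_1(h) • g`. -/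
theorem eq_smul_of_isNewform {M : ℕ} [NeZero M] {g : CuspForm (G0 M) 2} (hg : g.IsNewform)
    (X : Finset ℕ) (h : CuspForm (G0 M) 2)
    (hT : ∀ ℓ : ℕ, ℓ.Prime → ¬ ℓ ∣ M → ℓ ∉ X → Tf ℓ ⇑h = qCoeff g ℓ • (⇑h : ℍ → ℂ)) :
    h = qCoeff h 1 • g := by
  classical
  by_contra hne
  obtain ⟨f, hfdef⟩ : ∃ f : CuspForm (G0 M) 2, f = h - qCoeff h 1 • g := ⟨_, rfl⟩
  have hf0 : f ≠ 0 := by
    rw [hfdef]
    exact fun h0 => hne (sub_eq_zero.mp h0)
  have hfcoe : (⇑f : ℍ → ℂ) = ⇑h - qCoeff h 1 • (⇑g : ℍ → ℂ) := by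
    rw [hfdef]
    rfl
  have hf1 : qCoeff f 1 = 0 := by
    rw [hfcoe, qCoeff_sub_of_mem_S (coe_mem_S h) ((S M).smul_mem _ (coe_mem_S g)),
      qCoeff_smul_of_mem_S (coe_mem_S g), hg.1.qCoeff_one, mul_one, sub_self]
  have hfT : ∀ ℓ : ℕ, ℓ.Prime → ¬ ℓ ∣ M → ℓ ∉ X →
      Tf ℓ ⇑f = qCoeff g ℓ • (⇑f : ℍ → ℂ) := by
    intro ℓ hℓ hℓM hℓX
    rw [hfcoe, map_sub, map_smul, hT ℓ hℓ hℓM hℓX,
      Tf_eq_smul_of_isNormalizedEigenform hg.1 hℓ hℓM, smul_sub, smul_comm]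
  have hP : ∀ p ∈ M.primeFactors ∪ X.filter Nat.Prime, p.Prime := by
    intro p hp
    rcases Finset.mem_union.mp hp with h | h
    · exact Nat.prime_of_mem_primeFactors h
    · exact (Finset.mem_filter.mp h).2
  have hvan : ∀ n, (∀ p ∈ M.primeFactors ∪ X.filter Nat.Prime, ¬ p ∣ n) → qCoeff f n = 0 := by
    intro n hn
    rcases Nat.eq_zero_or_pos n with rfl | hpos
    · exact qCoeff_zero_of_mem_S (coe_mem_S f)
    · exact qCoeff_eq_zero_of_Tf_eigen (coe_mem_S f) (fun ℓ => ¬ ℓ ∣ M ∧ ℓ ∉ X)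
        (fun ℓ => qCoeff g ℓ) (fun ℓ hℓ hQ => hfT ℓ hℓ hQ.1 hQ.2) hf1 n hpos.ne'
        (fun p hp hpn => ⟨fun hpM => hn p (Finset.mem_union_left _
            (Nat.mem_primeFactors.mpr ⟨hp, hpM, NeZero.ne M⟩)) hpn,
          fun hpX => hn p (Finset.mem_union_right _ (Finset.mem_filter.mpr ⟨hpX, hp⟩)) hpn⟩)
  obtain ⟨φ, hφ⟩ := atkinLehner_main M _ hP f hvan
  obtain ⟨P₀, hP₀⟩ : ∃ P₀ : Finset ℕ, P₀ = (M.primeFactors ∪ X.filter Nat.Prime).filter (· ∣ M) :=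
    ⟨_, rfl⟩
  rw [← hP₀] at hφ
  have hP₀' : ∀ x, x ∈ P₀ → x ∈ M.primeFactors ∪ X.filter Nat.Prime ∧ x ∣ M := by
    intro x hx
    rw [hP₀] at hx
    exact Finset.mem_filter.mp hx
  have hmem : ∀ p : ↥P₀, (p : ℕ) ∈ M.primeFactors ∪ X.filter Nat.Prime ∧ (p : ℕ) ∣ M :=
    fun p => hP₀' p p.2
  have hpp : ∀ p : ↥P₀, (p : ℕ).Prime := fun p => hP p (hmem p).1
  have hp0 : ∀ p : ↥P₀, (p : ℕ) ≠ 0 := fun p => (hpp p).ne_zero
  have hpM : ∀ p : ↥P₀, (p : ℕ) ∣ M := fun p => (hmem p).2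
  have hfin : ∀ p : ↥P₀, Module.Finite ℂ (CuspForm (G0 (M / (p : ℕ))) 2) := fun p => by
    have := div_neZero (N := M) (hpM p)
    exact finite_cuspForm _
  have hnd : ∀ (ℓ : {ℓ : ℕ // ℓ.Prime ∧ ¬ ℓ ∣ M ∧ ℓ ∉ X}) (p : ↥P₀), ¬ ℓ.1 ∣ M / (p : ℕ) :=
    fun ℓ p hd => ℓ.2.2.1 (hd.trans (Nat.div_dvd_of_dvd (hpM p)))
  let A : {ℓ : ℕ // ℓ.Prime ∧ ¬ ℓ ∣ M ∧ ℓ ∉ X} →
      Module.End ℂ ((p : ↥P₀) → CuspForm (G0 (M / (p : ℕ))) 2) := fun ℓ =>
    LinearMap.pi fun p => (CuspForm.heckeTLin 2 ℓ.2.1 (hnd ℓ p)).comp (LinearMap.proj p)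
  let B : {ℓ : ℕ // ℓ.Prime ∧ ¬ ℓ ∣ M ∧ ℓ ∉ X} → Module.End ℂ (CuspForm (G0 M) 2) := fun ℓ =>
    CuspForm.heckeTLin 2 ℓ.2.1 ℓ.2.2.1
  let Φ : ((p : ↥P₀) → CuspForm (G0 (M / (p : ℕ))) 2) →ₗ[ℂ] CuspForm (G0 M) 2 :=
    ∑ p : ↥P₀, (Vc (hp0 p) (hpM p)).comp (LinearMap.proj p)
  have hA : ∀ i j, Commute (A i) (A j) := by
    intro i j
    apply LinearMap.ext
    intro y
    funext p
    have := congrArg (fun f : Module.End ℂ (CuspForm (G0 (M / (p : ℕ))) 2) => f (y p))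
      (CuspForm.heckeTLin_comm 2 i.2.1 (hnd i p) j.2.1 (hnd j p)).eq
    simpa [A] using this
  have hB : ∀ i j, Commute (B i) (B j) := fun i j => CuspForm.heckeTLin_comm 2 _ _ _ _
  have hΦ : ∀ j y, Φ (A j y) = B j (Φ y) := by
    intro j y
    simp only [Φ, A, B, LinearMap.sum_apply, LinearMap.comp_apply, LinearMap.proj_apply,
      LinearMap.pi_apply, map_sum]
    refine Finset.sum_congr rfl fun p _ => ?_
    have := div_neZero (N := M) (hpM p)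
    apply DFunLike.coe_injective
    rw [coe_Vc]
    change Vg p (Tf j.1 ⇑(y p)) = Tf j.1 ⇑(Vc (hp0 p) (hpM p) (y p))
    rw [coe_Vc, Tf_Vg (hp0 p) j.2.1 (fun hd => j.2.2.1 (hd.trans (hpM p))) (hnd j p)
      (coe_mem_S (y p))]
  have hΦφ : Φ (fun p => φ p) = f := by
    apply DFunLike.coe_injective
    rw [hφ]
    simp only [Φ, LinearMap.sum_apply, LinearMap.comp_apply, LinearMap.proj_apply]
    rw [coe_sum_cuspForm]
    simp only [coe_Vc]
    exact Finset.sum_coe_sort P₀ (fun p => Vg p ⇑(φ p))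
  have hw₀ : Φ (fun p => φ p) ≠ 0 := by
    rw [hΦφ]
    exact hf0
  have hBf : ∀ j, B j (Φ (fun p => φ p)) = qCoeff g j.1 • Φ (fun p => φ p) := by
    intro j
    rw [hΦφ]
    exact DFunLike.coe_injective (hfT j.1 j.2.1 j.2.2.1 j.2.2.2)
  have hne' := iInf_maxGenEigenspace_ne_bot_of_map A hA B hB Φ hΦ (fun j => qCoeff g j.1) _ hw₀ hBf
  obtain ⟨y, hy0, hy⟩ := exists_eigenvector_of_iInf_maxGenEigenspace_ne_bot A hA _ hne'
  obtain ⟨p, hyp⟩ : ∃ p, y p ≠ 0 := by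
    by_contra hall
    exact hy0 (funext fun p => by_contra fun hp => hall ⟨p, hp⟩)
  have hocc : g.GoodEigensystemOccursAt (M / (p : ℕ)) :=
    goodEigensystemOccursAt_of_eigenvector (Nat.div_dvd_of_dvd (hpM p)) hg.1 X (y p) hyp
      (fun ℓ hℓ hℓM hℓX => by
        have := congrFun (hy ⟨ℓ, hℓ, hℓM, hℓX⟩) p
        exact congrArg (fun f : CuspForm (G0 (M / (p : ℕ))) 2 => (⇑f : ℍ → ℂ)) this)
  exact hg.2 (M / p) (Nat.div_dvd_of_dvd (hpM p))
    (Nat.div_lt_self (Nat.pos_of_ne_zero (NeZero.ne M)) (hpp p).one_lt).ne hocc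

/-- (M1) in the operator form used by `helper708_IntCoeff.exists_int_qCoeff` (hypothesis `hM1`),
for a finite exceptional set of primes. -/
theorem multiplicity_one {M : ℕ} [NeZero M] {g : CuspForm (G0 M) 2} (hg : g.IsNewform)
    (X : Set ℕ) (hX : X.Finite) (h : CuspForm (G0 M) 2)
    (hT : ∀ (ℓ : ℕ) (hℓ : ℓ.Prime) (hℓM : ¬ ℓ ∣ M), ℓ ∉ X →
      CuspForm.heckeTLin 2 hℓ hℓM h = qCoeff g ℓ • h) :
    h = qCoeff h 1 • g :=
  eq_smul_of_isNewform hg hX.toFinset h fun ℓ hℓ hℓM hℓX =>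
    congrArg (fun f : CuspForm (G0 M) 2 => (⇑f : ℍ → ℂ))
      (hT ℓ hℓ hℓM (fun hmem => hℓX (hX.mem_toFinset.mpr hmem)))

/-- A normalized eigenform of level `M` whose prime coefficients agree with those of a Prelude
newform `g` of the same level at almost all primes not dividing `M` is equal to `g`. -/
theorem eq_of_isNewform {M : ℕ} [NeZero M] {g h : CuspForm (G0 M) 2} (hg : g.IsNewform)
    (hh : h.IsNormalizedEigenform) (X : Finset ℕ)
    (hX : ∀ ℓ : ℕ, ℓ.Prime → ¬ ℓ ∣ M → ℓ ∉ X → qCoeff h ℓ = qCoeff g ℓ) : h = g := by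
  have := eq_smul_of_isNewform hg X h fun ℓ hℓ hℓM hℓX => by
    rw [Tf_eq_smul_of_isNormalizedEigenform hh hℓ hℓM, hX ℓ hℓ hℓM hℓX]
  rw [hh.qCoeff_one, one_smul] at this
  exact this

/-- Two Prelude newforms of the same level with the same prime coefficients at almost all primes
not dividing the level are equal. -/
theorem IsNewform_unique {M : ℕ} [NeZero M] {g h : CuspForm (G0 M) 2} (hg : g.IsNewform)
    (hh : h.IsNewform) (X : Finset ℕ)
    (hX : ∀ ℓ : ℕ, ℓ.Prime → ¬ ℓ ∣ M → ℓ ∉ X → qCoeff h ℓ = qCoeff g ℓ) : h = g :=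
  eq_of_isNewform hg hh.1 X hX

end Fermat.Agent.S58.helper6078
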