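import Mathlib
import Fermat.Prelude.Def_CuspForm_HeckeAlgebra
import Fermat.Prelude.Def_CuspForm_IntegralStructure
import Fermat.Prelude.Def_FLTPrelim_Modularity
import Fermat.Prelude.Def_FLTPrelim_ModularRep
import Fermat.Prelude.Thm_ModularFormClass_qCoeff_heckeT
import Fermat.Prelude.Thm_ModularFormClass_qCoeff_heckeU
import Fermat.Prelude.Thm_CongruenceSubgroup_one_mem_strictPeriods_Gamma0
import Fermat.Agent.S22
import Fermat.Agent.S23

/-!
# S58, step 0d: integrality of the `q`-coefficients of a newform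

Board row 897 (route of finding 1886, step 0: "`a_n ∈ ℤ`").

Let `g` be a normalized eigenform (in the coefficient sense of the Prelude) of weight `2` on
`Γ₀(M)`, and assume

* multiplicity one for `g` (hypothesis `hM1`): every cusp form `h` of level `M` which is a
  `T_ℓ`-eigenvector with eigenvalue `a_ℓ(g)` for all primes `ℓ ∤ M`, `ℓ ∉ S`, is `a_1(h) • g`;
* `a_ℓ(g) ∈ ℚ` for the primes `ℓ ∤ M`, `ℓ ∉ S`.

Then every `a_n(g)` is an integer (`exists_int_qCoeff`).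

No automorphisms of `ℂ` are used.  Rationality: by the integral structure (landed S23) `g` is a
complex combination of forms with integer coefficients; splitting the complex coefficients along
a `ℚ`-basis of their `ℚ`-span writes `g = ∑ e_k • h_k` with `e_k` linearly independent over `ℚ`
and `h_k` with rational coefficients; each `h_k` is again an eigenvector with the eigenvalues of
`g`, hence a multiple of `g`.  Integrality at primes: `T_ℓ`, `U_ℓ` are integral over `ℤ` by the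
finiteness of the Hecke algebra (landed S22).
-/

set_option autoImplicit false

open CuspForm CongruenceSubgroup ModularFormClass

namespace Fermat.Agent.S58.helper708

variable {M : ℕ}

/-! ### `q`-coefficient calculus on `S₂(Γ₀(M))` -/

/-- `q`-coefficients of a scalar multiple. -/
theorem qCoeff_smul (c : ℂ) (v : CuspForm (Gamma0 M) 2) (n : ℕ) :
    qCoeff (⇑(c • v)) n = c * qCoeff (⇑v) n := by
  have h := ModularForm.qExpansion_smul one_pos (one_mem_strictPeriods_Gamma0 M) c v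
  rw [show (⇑(c • v) : UpperHalfPlane → ℂ) = c • ⇑v from rfl]
  unfold qCoeff
  rw [h]
  simp

/-- `q`-coefficients of a sum. -/
theorem qCoeff_add (f g : CuspForm (Gamma0 M) 2) (n : ℕ) :
    qCoeff (⇑(f + g)) n = qCoeff (⇑f) n + qCoeff (⇑g) n := by
  have h := ModularForm.qExpansion_add one_pos (one_mem_strictPeriods_Gamma0 M) f g
  rw [show (⇑(f + g) : UpperHalfPlane → ℂ) = ⇑f + ⇑g from rfl]
  unfold qCoeff
  rw [h]
  simp

/-- The `n`-th `q`-coefficient as a linear functional. -/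
noncomputable def qCoeffLin (M : ℕ) (n : ℕ) : CuspForm (Gamma0 M) 2 →ₗ[ℂ] ℂ where
  toFun f := qCoeff (⇑f) n
  map_add' f g := qCoeff_add f g n
  map_smul' c f := by simpa using qCoeff_smul c f n

@[simp] theorem qCoeffLin_apply (n : ℕ) (f : CuspForm (Gamma0 M) 2) :
    qCoeffLin M n f = qCoeff (⇑f) n := rfl

/-- `q`-coefficients of a difference. -/
theorem qCoeff_sub (f g : CuspForm (Gamma0 M) 2) (n : ℕ) :
    qCoeff (⇑(f - g)) n = qCoeff (⇑f) n - qCoeff (⇑g) n := by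
  exact map_sub (qCoeffLin M n) f g

/-- `q`-coefficients of a finite sum. -/
theorem qCoeff_sum {ι : Type*} (s : Finset ι) (f : ι → CuspForm (Gamma0 M) 2) (n : ℕ) :
    qCoeff (⇑(∑ i ∈ s, f i)) n = ∑ i ∈ s, qCoeff (⇑(f i)) n := by
  exact map_sum (qCoeffLin M n) f s

/-- The zeroth `q`-coefficient of a cusp form vanishes. -/
theorem qCoeff_zero_idx (v : CuspForm (Gamma0 M) 2) : qCoeff (⇑v) 0 = 0 :=
  CuspFormClass.qExpansion_coeff_zero v one_pos (one_mem_strictPeriods_Gamma0 M)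

/-- A cusp form all of whose `q`-coefficients vanish is zero. -/
theorem eq_zero_of_qCoeff_eq_zero (v : CuspForm (Gamma0 M) 2)
    (h : ∀ n : ℕ, qCoeff (⇑v) n = 0) : v = 0 := by
  have hΓ := one_mem_strictPeriods_Gamma0 M
  have hq : UpperHalfPlane.qExpansion 1 v = 0 := by
    ext n
    simpa [qCoeff] using h n
  have : Fact (IsCusp OnePoint.infty
      (Subgroup.map (Matrix.SpecialLinearGroup.mapGL ℝ) (Gamma0 M))) :=
    ⟨Subgroup.isCusp_of_mem_strictPeriods one_pos hΓ⟩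
  have h0 : (⇑v : UpperHalfPlane → ℂ) = 0 :=
    (UpperHalfPlane.qExpansion_eq_zero_iff one_pos
      (SlashInvariantFormClass.periodic_comp_ofComplex v hΓ) (ModularFormClass.holo v)
      (ModularFormClass.bdd_at_infty v)).1 hq
  exact DFunLike.coe_injective h0

/-- Two cusp forms with the same `q`-coefficients are equal. -/
theorem eq_of_qCoeff_eq (f g : CuspForm (Gamma0 M) 2)
    (h : ∀ n : ℕ, qCoeff (⇑f) n = qCoeff (⇑g) n) : f = g := by
  have h0 : f - g = 0 := eq_zero_of_qCoeff_eq_zero _ fun n => by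
    rw [qCoeff_sub, h n, sub_self]
  exact sub_eq_zero.mp h0

/-- `q`-coefficients of `U_ℓ v`. -/
theorem qCoeff_heckeULin [NeZero M] {ℓ : ℕ} (hℓ : ℓ.Prime) (hM : ℓ ∣ M)
    (v : CuspForm (Gamma0 M) 2) (n : ℕ) :
    qCoeff (⇑(CuspForm.heckeULin 2 hM v)) n = qCoeff (⇑v) (n * ℓ) :=
  ModularFormClass.qCoeff_heckeU v (one_mem_strictPeriods_Gamma0 M) hℓ.ne_zero n

/-- `q`-coefficients of `T_ℓ v`. -/
theorem qCoeff_heckeTLin {ℓ : ℕ} (hℓ : ℓ.Prime) (hM : ¬ ℓ ∣ M)
    (v : CuspForm (Gamma0 M) 2) (n : ℕ) :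
    qCoeff (⇑(CuspForm.heckeTLin 2 hℓ hM v)) n =
      qCoeff (⇑v) (n * ℓ) + if ℓ ∣ n then (ℓ : ℂ) * qCoeff (⇑v) (n / ℓ) else 0 := by
  have h := ModularFormClass.qCoeff_heckeT (k := 2) v (one_mem_strictPeriods_Gamma0 M)
    hℓ.ne_zero n
  rw [ModularForm.coeffHeckeT_apply] at h
  simpa using h

/-! ### A normalized eigenform is a Hecke eigenvector -/

/-- A normalized eigenform (coefficient sense) is an eigenvector of `T_ℓ` for `ℓ ∤ M`. -/
theorem heckeTLin_eq_smul {g : CuspForm (Gamma0 M) 2} (hg : g.IsNormalizedEigenform)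
    {ℓ : ℕ} (hℓ : ℓ.Prime) (hM : ¬ ℓ ∣ M) :
    CuspForm.heckeTLin 2 hℓ hM g = qCoeff (⇑g) ℓ • g := by
  apply eq_of_qCoeff_eq
  intro n
  rw [qCoeff_heckeTLin, qCoeff_smul]
  rcases Nat.eq_zero_or_pos n with rfl | hn
  · simp [qCoeff_zero_idx]
  obtain ⟨r, m, hm, rfl⟩ := Nat.exists_eq_pow_mul_and_not_dvd hn.ne' ℓ hℓ.ne_one
  have hcop : ∀ j, Nat.Coprime (ℓ ^ j) m := fun j =>
    Nat.Coprime.pow_left j ((Nat.Prime.coprime_iff_not_dvd hℓ).2 hm)
  cases r with
  | zero =>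
    simp only [pow_zero, one_mul]
    rw [if_neg hm, add_zero, hg.qCoeff_mul_of_coprime m ℓ (by simpa using (hcop 1).symm)]
    ring
  | succ k =>
    have h1 : ℓ ^ (k + 1) * m * ℓ = ℓ ^ (k + 2) * m := by ring
    have h2 : ℓ ^ (k + 1) * m / ℓ = ℓ ^ k * m := by
      rw [pow_succ, mul_right_comm, Nat.mul_div_cancel _ hℓ.pos]
    have hd : ℓ ∣ ℓ ^ (k + 1) * m :=
      Dvd.dvd.mul_right (dvd_pow_self ℓ (Nat.succ_ne_zero k)) m
    rw [if_pos hd, h1, h2, hg.qCoeff_mul_of_coprime _ _ (hcop _),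
      hg.qCoeff_mul_of_coprime _ _ (hcop _), hg.qCoeff_mul_of_coprime _ _ (hcop _),
      hg.qCoeff_prime_pow_of_not_dvd ℓ k hℓ hM]
    ring

/-- A normalized eigenform (coefficient sense) is an eigenvector of `U_ℓ` for `ℓ ∣ M`. -/
theorem heckeULin_eq_smul [NeZero M] {g : CuspForm (Gamma0 M) 2} (hg : g.IsNormalizedEigenform)
    {ℓ : ℕ} (hℓ : ℓ.Prime) (hM : ℓ ∣ M) :
    CuspForm.heckeULin 2 hM g = qCoeff (⇑g) ℓ • g := by
  apply eq_of_qCoeff_eq
  intro n
  rw [qCoeff_heckeULin hℓ, qCoeff_smul]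
  rcases Nat.eq_zero_or_pos n with rfl | hn
  · simp [qCoeff_zero_idx]
  obtain ⟨r, m, hm, rfl⟩ := Nat.exists_eq_pow_mul_and_not_dvd hn.ne' ℓ hℓ.ne_one
  have hcop : ∀ j, Nat.Coprime (ℓ ^ j) m := fun j =>
    Nat.Coprime.pow_left j ((Nat.Prime.coprime_iff_not_dvd hℓ).2 hm)
  cases r with
  | zero =>
    simp only [pow_zero, one_mul]
    rw [hg.qCoeff_mul_of_coprime m ℓ (by simpa using (hcop 1).symm)]
    ring
  | succ k =>
    have h1 : ℓ ^ (k + 1) * m * ℓ = ℓ ^ (k + 2) * m := by ring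
    rw [h1, hg.qCoeff_mul_of_coprime _ _ (hcop _), hg.qCoeff_mul_of_coprime _ _ (hcop _),
      hg.qCoeff_prime_pow_of_dvd ℓ k hℓ hM]
    ring

/-! ### Integrality at primes (from the finiteness of the Hecke algebra, S22) -/

/-- (I) For a normalized eigenform `g` of level `M` and a prime `ℓ`, the coefficient `a_ℓ(g)` is
integral over `ℤ`. -/
theorem isIntegral_qCoeff_prime [NeZero M] {g : CuspForm (Gamma0 M) 2}
    (hg : g.IsNormalizedEigenform) {ℓ : ℕ} (hℓ : ℓ.Prime) :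
    IsIntegral ℤ (qCoeff (⇑g) ℓ) := by
  have : Module.Finite ℤ (CuspForm.heckeAlgebra M 2 (∅ : Set ℕ)) :=
    Fermat.Agent.S22.result M 2 ∅
  obtain ⟨t, ht⟩ : ∃ t : CuspForm.heckeAlgebra M 2 (∅ : Set ℕ),
      (t : Module.End ℂ (CuspForm (Gamma0 M) 2)) g = qCoeff (⇑g) ℓ • g := by
    by_cases hM : ℓ ∣ M
    · exact ⟨CuspForm.heckeAlgebra.U hℓ hM (Set.notMem_empty ℓ), heckeULin_eq_smul hg hℓ hM⟩
    · exact ⟨CuspForm.heckeAlgebra.T hℓ hM (Set.notMem_empty ℓ), heckeTLin_eq_smul hg hℓ hM⟩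
  obtain ⟨P, hPm, hP⟩ := IsIntegral.of_finite ℤ t
  refine ⟨P, hPm, ?_⟩
  have h1 : Polynomial.aeval (t : Module.End ℂ (CuspForm (Gamma0 M) 2)) P = 0 := by
    rw [← Polynomial.aeval_subalgebra_coe, Polynomial.aeval_def, hP]
    rfl
  have h2 : Polynomial.aeval (t : Module.End ℂ (CuspForm (Gamma0 M) 2))
      (P.map (algebraMap ℤ ℂ)) g = (P.map (algebraMap ℤ ℂ)).eval (qCoeff (⇑g) ℓ) • g :=
    Module.End.aeval_apply_of_mem_apply_eq_smul ht
  rw [Polynomial.aeval_map_algebraMap, h1, LinearMap.zero_apply] at h2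
  have h3 : (P.map (algebraMap ℤ ℂ)).eval (qCoeff (⇑g) ℓ) = 0 := by
    rcases smul_eq_zero.mp h2.symm with h | h
    · exact h
    · exact absurd h hg.ne_zero
  rwa [Polynomial.eval_map] at h3

/-- A rational number which is integral over `ℤ` (as a complex number) is an integer. -/
theorem exists_int_of_isIntegral_rat {a : ℚ} (h : IsIntegral ℤ (a : ℂ)) : ∃ z : ℤ, a = z := by
  have h' : IsIntegral ℤ a :=
    (isIntegral_algebraMap_iff (R := ℤ) (A := ℚ) (B := ℂ) (algebraMap ℚ ℂ).injective).1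
      (by simpa using h)
  obtain ⟨z, hz⟩ := IsIntegrallyClosed.isIntegral_iff.1 h'
  exact ⟨z, by simpa using hz.symm⟩

/-! ### Forms with rational `q`-coefficients -/

/-- A cusp form with rational `q`-coefficients. -/
def IsRat (f : CuspForm (Gamma0 M) 2) : Prop :=
  ∀ n : ℕ, ∃ a : ℚ, qCoeff (⇑f) n = (a : ℂ)

theorem IsRat.add {f g : CuspForm (Gamma0 M) 2} (hf : IsRat f) (hg : IsRat g) :
    IsRat (f + g) := fun n => by
  obtain ⟨a, ha⟩ := hf n
  obtain ⟨b, hb⟩ := hg n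
  exact ⟨a + b, by rw [qCoeff_add, ha, hb]; push_cast; ring⟩

theorem IsRat.sub {f g : CuspForm (Gamma0 M) 2} (hf : IsRat f) (hg : IsRat g) :
    IsRat (f - g) := fun n => by
  obtain ⟨a, ha⟩ := hf n
  obtain ⟨b, hb⟩ := hg n
  exact ⟨a - b, by rw [qCoeff_sub, ha, hb]; push_cast; ring⟩

theorem IsRat.smul_rat {f : CuspForm (Gamma0 M) 2} (hf : IsRat f) (c : ℚ) :
    IsRat ((c : ℂ) • f) := fun n => by
  obtain ⟨a, ha⟩ := hf n
  exact ⟨c * a, by rw [qCoeff_smul, ha]; push_cast; ring⟩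

theorem isRat_zero : IsRat (0 : CuspForm (Gamma0 M) 2) := fun n =>
  ⟨0, by simpa using map_zero (qCoeffLin M n)⟩

theorem IsRat.sum {ι : Type*} (s : Finset ι) (f : ι → CuspForm (Gamma0 M) 2)
    (h : ∀ i ∈ s, IsRat (f i)) : IsRat (∑ i ∈ s, f i) := by
  classical
  induction s using Finset.induction_on with
  | empty => simpa using isRat_zero
  | insert i s hi ih =>
    rw [Finset.sum_insert hi]
    exact (h i (Finset.mem_insert_self i s)).add
      (ih fun j hj => h j (Finset.mem_insert_of_mem hj))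

theorem IsRat.heckeTLin {f : CuspForm (Gamma0 M) 2} (hf : IsRat f) {ℓ : ℕ} (hℓ : ℓ.Prime)
    (hM : ¬ ℓ ∣ M) : IsRat (CuspForm.heckeTLin 2 hℓ hM f) := fun n => by
  obtain ⟨a, ha⟩ := hf (n * ℓ)
  obtain ⟨b, hb⟩ := hf (n / ℓ)
  rw [qCoeff_heckeTLin, ha, hb]
  by_cases hd : ℓ ∣ n
  · exact ⟨a + ℓ * b, by rw [if_pos hd]; push_cast; ring⟩
  · exact ⟨a, by rw [if_neg hd, add_zero]⟩

theorem IsRat.heckeULin [NeZero M] {f : CuspForm (Gamma0 M) 2} (hf : IsRat f) {ℓ : ℕ}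
    (hℓ : ℓ.Prime) (hM : ℓ ∣ M) : IsRat (CuspForm.heckeULin 2 hM f) := fun n => by
  obtain ⟨a, ha⟩ := hf (n * ℓ)
  exact ⟨a, by rw [qCoeff_heckeULin hℓ, ha]⟩

/-- Elements of the integral lattice have integer `q`-coefficients. -/
theorem int_qCoeff_of_mem_intLattice {f : CuspForm (Gamma0 M) 2}
    (hf : f ∈ CuspForm.intLattice M 2) : ∀ n : ℕ, ∃ z : ℤ, qCoeff (⇑f) n = (z : ℂ) := by
  unfold CuspForm.intLattice at hf
  induction hf using Submodule.span_induction with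
  | mem x hx => exact hx
  | zero => exact fun n => ⟨0, by simpa using map_zero (qCoeffLin M n)⟩
  | add x y _ _ hx hy =>
    intro n
    obtain ⟨a, ha⟩ := hx n
    obtain ⟨b, hb⟩ := hy n
    exact ⟨a + b, by rw [qCoeff_add, ha, hb]; push_cast; ring⟩
  | smul c x _ hx =>
    intro n
    obtain ⟨a, ha⟩ := hx n
    refine ⟨c * a, ?_⟩
    rw [← Int.cast_smul_eq_zsmul ℂ c x, qCoeff_smul, ha]
    push_cast
    ring

theorem isRat_of_mem_intLattice {f : CuspForm (Gamma0 M) 2}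
    (hf : f ∈ CuspForm.intLattice M 2) : IsRat f := fun n => by
  obtain ⟨z, hz⟩ := int_qCoeff_of_mem_intLattice hf n
  exact ⟨z, by rw [hz]; push_cast; rfl⟩

/-- If `e_k` are complex numbers linearly independent over `ℚ` and the `u_k` are cusp forms with
rational `q`-coefficients, then `∑ e_k • u_k = 0` forces every `u_k = 0`. -/
theorem eq_zero_of_sum_smul_eq_zero {m : ℕ} (e : Fin m → ℂ) (he : LinearIndependent ℚ e)
    (u : Fin m → CuspForm (Gamma0 M) 2) (hu : ∀ k, IsRat (u k))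
    (h : ∑ k, e k • u k = 0) : ∀ k, u k = 0 := by
  have key : ∀ n k, qCoeff (⇑(u k)) n = 0 := by
    intro n
    choose ρ hρ using fun k => hu k n
    have h1 : ∑ k, ρ k • e k = 0 := by
      have h2 := congrArg (fun f : CuspForm (Gamma0 M) 2 => qCoeff (⇑f) n) h
      simp only [qCoeff_sum, qCoeff_smul, hρ] at h2
      rw [show qCoeff (⇑(0 : CuspForm (Gamma0 M) 2)) n = 0 from map_zero (qCoeffLin M n)] at h2
      rw [← h2]
      refine Finset.sum_congr rfl fun k _ => ?_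
      rw [Rat.smul_def, mul_comm]
    have h3 := Fintype.linearIndependent_iff.1 he ρ h1
    intro k
    rw [hρ k, h3 k, Rat.cast_zero]
  intro k
  exact eq_zero_of_qCoeff_eq_zero _ fun n => key n k

/-! ### Rationality -/

/-- (R) Rationality of the `q`-coefficients of a normalized eigenform satisfying multiplicity
one, with rational eigenvalues at the primes `ℓ ∤ M`, `ℓ ∉ S`. -/
theorem exists_rat_qCoeff [NeZero M] (g : CuspForm (Gamma0 M) 2) (hg : g.IsNormalizedEigenform)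
    (S : Set ℕ)
    (hM1 : ∀ h : CuspForm (Gamma0 M) 2,
      (∀ (ℓ : ℕ) (hℓ : ℓ.Prime) (hℓM : ¬ ℓ ∣ M), ℓ ∉ S →
        CuspForm.heckeTLin 2 hℓ hℓM h = qCoeff (⇑g) ℓ • h) →
      h = qCoeff (⇑h) 1 • g)
    (hrat : ∀ ℓ : ℕ, ℓ.Prime → ¬ ℓ ∣ M → ℓ ∉ S → ∃ a : ℚ, qCoeff (⇑g) ℓ = (a : ℂ)) :
    ∀ n : ℕ, ∃ a : ℚ, qCoeff (⇑g) n = (a : ℂ) := by
  classical
  -- `g` is a complex combination of integral forms
  have hspan : g ∈ Submodule.span ℂ
      ((CuspForm.intLattice M 2 : Submodule ℤ (CuspForm (Gamma0 M) 2)) :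
        Set (CuspForm (Gamma0 M) 2)) := by
    have h23 : CuspForm.HasIntegralStructure M 2 := Fermat.Agent.S23.result M
    unfold CuspForm.HasIntegralStructure at h23
    rw [h23]
    exact Submodule.mem_top
  obtain ⟨d, x, b, hxb⟩ := Submodule.mem_span_set'.1 hspan
  -- a `ℚ`-basis of the `ℚ`-span of the coefficients
  let W : Submodule ℚ ℂ := Submodule.span ℚ (Set.range x)
  have hWfin : FiniteDimensional ℚ W := FiniteDimensional.span_of_finite ℚ (Set.finite_range x)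
  let B := Module.finBasis ℚ W
  let e : Fin (Module.finrank ℚ W) → ℂ := fun k => (B k : ℂ)
  have he : LinearIndependent ℚ e :=
    B.linearIndependent.map' W.subtype (Submodule.ker_subtype W)
  let xW : Fin d → W := fun i => ⟨x i, Submodule.subset_span (Set.mem_range_self i)⟩
  let r : Fin d → Fin (Module.finrank ℚ W) → ℚ := fun i k => B.repr (xW i) k
  have hx : ∀ i, x i = ∑ k, (r i k : ℂ) * e k := by
    intro i
    have h1 := congrArg (Subtype.val) (B.sum_repr (xW i))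
    rw [show ((xW i : W) : ℂ) = x i from rfl] at h1
    rw [← h1, AddSubmonoidClass.coe_finsetSum]
    refine Finset.sum_congr rfl fun k _ => ?_
    rw [Submodule.coe_smul, Rat.smul_def]
  let h : Fin (Module.finrank ℚ W) → CuspForm (Gamma0 M) 2 :=
    fun k => ∑ i, (r i k : ℂ) • (b i : CuspForm (Gamma0 M) 2)
  have hh : ∀ k, IsRat (h k) := fun k =>
    IsRat.sum _ _ fun i _ => (isRat_of_mem_intLattice (b i).2).smul_rat _
  have hg_eq : g = ∑ k, e k • h k := by
    rw [← hxb]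
    simp only [h, Finset.smul_sum, smul_smul]
    rw [Finset.sum_comm]
    refine Finset.sum_congr rfl fun i _ => ?_
    rw [hx i, Finset.sum_smul]
    refine Finset.sum_congr rfl fun k _ => ?_
    rw [mul_comm]
  -- each `h k` is an eigenvector with the eigenvalues of `g`
  have heig : ∀ (k : Fin (Module.finrank ℚ W)) (ℓ : ℕ) (hℓ : ℓ.Prime) (hℓM : ¬ ℓ ∣ M), ℓ ∉ S →
      CuspForm.heckeTLin 2 hℓ hℓM (h k) = qCoeff (⇑g) ℓ • h k := by
    intro k ℓ hℓ hℓM hℓS
    obtain ⟨a, ha⟩ := hrat ℓ hℓ hℓM hℓS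
    have hu : ∀ k, IsRat (CuspForm.heckeTLin 2 hℓ hℓM (h k) - (a : ℂ) • h k) := fun k =>
      ((hh k).heckeTLin hℓ hℓM).sub ((hh k).smul_rat a)
    have hsum : ∑ k, e k • (CuspForm.heckeTLin 2 hℓ hℓM (h k) - (a : ℂ) • h k) = 0 := by
      have h1 := heckeTLin_eq_smul hg hℓ hℓM
      rw [ha] at h1
      have h2 : CuspForm.heckeTLin 2 hℓ hℓM (∑ k, e k • h k) = (a : ℂ) • ∑ k, e k • h k := by
        rw [← hg_eq]
        exact h1
      rw [map_sum, Finset.smul_sum] at h2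
      simp only [smul_sub, Finset.sum_sub_distrib]
      rw [sub_eq_zero]
      calc ∑ k, e k • CuspForm.heckeTLin 2 hℓ hℓM (h k)
          = ∑ k, CuspForm.heckeTLin 2 hℓ hℓM (e k • h k) := by simp only [map_smul]
        _ = ∑ k, (a : ℂ) • e k • h k := h2
        _ = ∑ k, e k • (a : ℂ) • h k := Finset.sum_congr rfl fun k _ => smul_comm _ _ _
    have h0 := eq_zero_of_sum_smul_eq_zero e he _ hu hsum k
    rw [ha]
    exact sub_eq_zero.mp h0
  -- multiplicity one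
  have hmult : ∀ k, h k = qCoeff (⇑(h k)) 1 • g := fun k => hM1 (h k) (heig k)
  obtain ⟨k, hk⟩ : ∃ k, qCoeff (⇑(h k)) 1 ≠ 0 := by
    by_contra hcon
    have hcon : ∀ k, qCoeff (⇑(h k)) 1 = 0 := fun k => by_contra fun hk => hcon ⟨k, hk⟩
    have hg0 : g = 0 := by
      rw [hg_eq]
      refine Finset.sum_eq_zero fun k _ => ?_
      rw [hmult k, hcon k, zero_smul, smul_zero]
    exact hg.ne_zero hg0
  intro n
  obtain ⟨c, hc⟩ := hh k 1
  obtain ⟨a, ha⟩ := hh k n
  refine ⟨a / c, ?_⟩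
  have h1 := congrArg (fun f : CuspForm (Gamma0 M) 2 => qCoeff (⇑f) n) (hmult k)
  simp only [qCoeff_smul] at h1
  rw [ha, hc] at h1
  rw [hc] at hk
  rw [Rat.cast_div, h1]
  field_simp

/-! ### Integrality -/

/-- Integrality of all coefficients of a normalized eigenform follows from integrality at the
primes. -/
theorem exists_int_qCoeff_of_prime {g : CuspForm (Gamma0 M) 2} (hg : g.IsNormalizedEigenform)
    (hprime : ∀ ℓ : ℕ, ℓ.Prime → ∃ z : ℤ, qCoeff (⇑g) ℓ = (z : ℂ)) :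
    ∀ n : ℕ, ∃ z : ℤ, qCoeff (⇑g) n = (z : ℂ) := by
  have hpow : ∀ p : ℕ, p.Prime → ∀ r : ℕ,
      (∃ z : ℤ, qCoeff (⇑g) (p ^ r) = (z : ℂ)) ∧ (∃ z : ℤ, qCoeff (⇑g) (p ^ (r + 1)) = (z : ℂ)) := by
    intro p hp r
    induction r with
    | zero => exact ⟨⟨1, by simpa using hg.qCoeff_one⟩, by simpa using hprime p hp⟩
    | succ r ih =>
      refine ⟨ih.2, ?_⟩
      obtain ⟨z0, hz0⟩ := ih.1
      obtain ⟨z1, hz1⟩ := ih.2
      obtain ⟨zp, hzp⟩ := hprime p hp
      by_cases hpM : p ∣ M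
      · refine ⟨zp * z1, ?_⟩
        rw [hg.qCoeff_prime_pow_of_dvd p r hp hpM, hzp, hz1]
        push_cast
        ring
      · refine ⟨zp * z1 - p * z0, ?_⟩
        rw [hg.qCoeff_prime_pow_of_not_dvd p r hp hpM, hzp, hz1, hz0]
        push_cast
        ring
  intro n
  induction n using Nat.recOnPosPrimePosCoprime with
  | prime_pow p n hp _ => exact (hpow p hp n).1
  | zero => exact ⟨0, by simpa using qCoeff_zero_idx g⟩
  | one => exact ⟨1, by simpa using hg.qCoeff_one⟩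
  | coprime a b _ _ hab iha ihb =>
    obtain ⟨za, hza⟩ := iha
    obtain ⟨zb, hzb⟩ := ihb
    exact ⟨za * zb, by rw [hg.qCoeff_mul_of_coprime a b hab, hza, hzb]; push_cast; ring⟩

/-- **Step 0d of S58.**  The `q`-coefficients of a normalized eigenform `g` of level `M` which
satisfies multiplicity one (`hM1`) and has rational eigenvalues at the primes `ℓ ∤ M`, `ℓ ∉ S`,
are integers. -/
theorem exists_int_qCoeff [NeZero M] (g : CuspForm (Gamma0 M) 2) (hg : g.IsNormalizedEigenform)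
    (S : Set ℕ)
    (hM1 : ∀ h : CuspForm (Gamma0 M) 2,
      (∀ (ℓ : ℕ) (hℓ : ℓ.Prime) (hℓM : ¬ ℓ ∣ M), ℓ ∉ S →
        CuspForm.heckeTLin 2 hℓ hℓM h = qCoeff (⇑g) ℓ • h) →
      h = qCoeff (⇑h) 1 • g)
    (hrat : ∀ ℓ : ℕ, ℓ.Prime → ¬ ℓ ∣ M → ℓ ∉ S → ∃ a : ℚ, qCoeff (⇑g) ℓ = (a : ℂ)) :
    ∀ n : ℕ, ∃ a : ℤ, qCoeff (⇑g) n = (a : ℂ) := by
  have hR := exists_rat_qCoeff g hg S hM1 hrat
  refine exists_int_qCoeff_of_prime hg fun ℓ hℓ => ?_
  obtain ⟨a, ha⟩ := hR ℓ
  have hint := isIntegral_qCoeff_prime hg hℓ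
  rw [ha] at hint
  obtain ⟨z, hz⟩ := exists_int_of_isIntegral_rat hint
  exact ⟨z, by rw [ha, hz]; push_cast; rfl⟩

end Fermat.Agent.S58.helper708
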