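import Mathlib
import Fermat.Prelude.Def_CuspForm_Newforms
import Fermat.Agent.S58.helper708_IntCoeff
import Fermat.Agent.S58.helper6078_MultOne

/-!
# S58: integrality of the `q`-coefficients of a Prelude newform (unconditional form)

Author: helper708.

`helper708_IntCoeff.exists_int_qCoeff` needs multiplicity one as a hypothesis (`hM1`);
`helper6078_MultOne.multiplicity_one` proves exactly that hypothesis for a Prelude newform and a
finite exceptional set of primes.  This file plugs the two together: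

* `exists_int_qCoeff_of_isNewform` : a Prelude newform `g` of level `M` whose coefficients
  `a_ℓ(g)` are rational for all primes `ℓ ∤ M` outside a finite set `X` has all its
  `q`-coefficients in `ℤ`;
* `exists_int_qCoeff_of_isNewform_of_int` : the same with integer (e.g. `a_ℓ(W)`) prime
  coefficients as input, the shape of the `Stmt_Core` hypothesis of S58;
* `exists_intFun_qCoeff_of_isNewform` : one function `a : ℕ → ℤ` with `qCoeff g n = a n`.
-/

set_option autoImplicit false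

open CuspForm CongruenceSubgroup ModularFormClass

namespace Fermat.Agent.S58.helper708

/-- The `q`-coefficients of a Prelude newform `g` of level `M` are integers as soon as the prime
coefficients `a_ℓ(g)`, `ℓ ∤ M`, `ℓ ∉ X` (`X` finite) are rational. -/
theorem exists_int_qCoeff_of_isNewform {M : ℕ} [NeZero M] {g : CuspForm (Gamma0 M) 2}
    (hg : g.IsNewform) (X : Set ℕ) (hX : X.Finite)
    (hrat : ∀ ℓ : ℕ, ℓ.Prime → ¬ ℓ ∣ M → ℓ ∉ X → ∃ a : ℚ, qCoeff (⇑g) ℓ = (a : ℂ)) :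
    ∀ n : ℕ, ∃ a : ℤ, qCoeff (⇑g) n = (a : ℂ) :=
  exists_int_qCoeff g hg.isNormalizedEigenform X
    (fun h hT => Fermat.Agent.S58.helper6078.multiplicity_one hg X hX h hT) hrat

/-- Integer-input form: if `a_ℓ(g) = b ℓ` with `b ℓ : ℤ` for all primes `ℓ ∤ M`, `ℓ ∉ X`
(`X` finite), then all `q`-coefficients of the newform `g` are integers. -/
theorem exists_int_qCoeff_of_isNewform_of_int {M : ℕ} [NeZero M] {g : CuspForm (Gamma0 M) 2}
    (hg : g.IsNewform) (X : Set ℕ) (hX : X.Finite) (b : ℕ → ℤ)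
    (hb : ∀ ℓ : ℕ, ℓ.Prime → ¬ ℓ ∣ M → ℓ ∉ X → qCoeff (⇑g) ℓ = (b ℓ : ℂ)) :
    ∀ n : ℕ, ∃ a : ℤ, qCoeff (⇑g) n = (a : ℂ) :=
  exists_int_qCoeff_of_isNewform hg X hX fun ℓ hℓ hℓM hℓX =>
    ⟨(b ℓ : ℚ), by rw [hb ℓ hℓ hℓM hℓX]; push_cast; rfl⟩

/-- Function form: there is one `a : ℕ → ℤ` with `qCoeff g n = a n` for all `n`. -/
theorem exists_intFun_qCoeff_of_isNewform {M : ℕ} [NeZero M] {g : CuspForm (Gamma0 M) 2}
    (hg : g.IsNewform) (X : Set ℕ) (hX : X.Finite)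
    (hrat : ∀ ℓ : ℕ, ℓ.Prime → ¬ ℓ ∣ M → ℓ ∉ X → ∃ a : ℚ, qCoeff (⇑g) ℓ = (a : ℂ)) :
    ∃ a : ℕ → ℤ, ∀ n : ℕ, qCoeff (⇑g) n = (a n : ℂ) :=
  ⟨fun n => (exists_int_qCoeff_of_isNewform hg X hX hrat n).choose,
    fun n => (exists_int_qCoeff_of_isNewform hg X hX hrat n).choose_spec⟩

/-- Finset form of the exceptional set (the shape used with `S : Finset ℕ` in S35/S36). -/
theorem exists_intFun_qCoeff_of_isNewform_finset {M : ℕ} [NeZero M]
    {g : CuspForm (Gamma0 M) 2} (hg : g.IsNewform) (S : Finset ℕ) (b : ℕ → ℤ)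
    (hb : ∀ ℓ : ℕ, ℓ.Prime → ¬ ℓ ∣ M → ℓ ∉ S → qCoeff (⇑g) ℓ = (b ℓ : ℂ)) :
    ∃ a : ℕ → ℤ, ∀ n : ℕ, qCoeff (⇑g) n = (a n : ℂ) :=
  exists_intFun_qCoeff_of_isNewform hg (↑S : Set ℕ) S.finite_toSet fun ℓ hℓ hℓM hℓS =>
    ⟨(b ℓ : ℚ), by rw [hb ℓ hℓ hℓM (by simpa using hℓS)]; push_cast; rfl⟩

end Fermat.Agent.S58.helper708
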