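/-
S58 via the frozen statements S35 + S36 (helper1646), part 5: the leaf (EIGEN) of route G
(top wiring `helper7532.frozen_of_leaves`): integrality of the newform attached to `W` and its
integer-valued eigen-character.

* `intLift` : a ring homomorphism to `ℂ` with integer values lifts to `ℤ`;
* `stmt_Eigen` : `helper7532.Stmt_Eigen`, unconditionally.
-/
import Fermat.Agent.S58.helper7532_GDefs
import Fermat.Agent.S58.helper708_IntCoeffNewform
import Fermat.Agent.S29.helper7617_Integrality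

set_option autoImplicit false

namespace Fermat.Agent.S58.helper1646

open CuspForm ModularFormClass

/-- A ring homomorphism to `ℂ` with integer values, as a ring homomorphism to `ℤ`. -/
noncomputable def intLift {R : Type*} [Ring R] (φ : R →+* ℂ)
    (h : ∀ x : R, ∃ z : ℤ, φ x = (z : ℂ)) : R →+* ℤ where
  toFun x := (h x).choose
  map_one' := by
    apply Int.cast_injective (α := ℂ)
    rw [← (h 1).choose_spec]
    simp
  map_mul' x y := by
    apply Int.cast_injective (α := ℂ)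
    rw [← (h (x * y)).choose_spec, Int.cast_mul, ← (h x).choose_spec, ← (h y).choose_spec,
      map_mul]
  map_zero' := by
    apply Int.cast_injective (α := ℂ)
    rw [← (h 0).choose_spec]
    simp
  map_add' x y := by
    apply Int.cast_injective (α := ℂ)
    rw [← (h (x + y)).choose_spec, Int.cast_add, ← (h x).choose_spec, ← (h y).choose_spec,
      map_add]

theorem intLift_apply {R : Type*} [Ring R] (φ : R →+* ℂ)
    (h : ∀ x : R, ∃ z : ℤ, φ x = (z : ℂ)) (x : R) : ((intLift φ h x : ℤ) : ℂ) = φ x :=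
  ((h x).choose_spec).symm

/-- The eigenvalue of every element of the Hecke algebra on a normalised eigenform with integer
`q`-coefficients is an integer. -/
theorem eigVal_int {M : ℕ} [NeZero M] {g : CuspForm (CongruenceSubgroup.Gamma0 M) 2}
    (hg : g.IsNormalizedEigenform) (a : ℕ → ℤ)
    (ha : ∀ n : ℕ, ModularFormClass.qCoeff g n = (a n : ℂ)) (S : Set ℕ)
    {T : Module.End ℂ (CuspForm (CongruenceSubgroup.Gamma0 M) 2)}
    (hT : T ∈ CuspForm.heckeAlgebra M 2 S) :
    ∃ z : ℤ, T g = (z : ℂ) • g := by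
  unfold CuspForm.heckeAlgebra at hT
  induction hT using Algebra.adjoin_induction with
  | mem x hx =>
    rcases hx with ⟨ℓ, hℓ, hℓN, -, rfl⟩ | ⟨q, hqN, hq, -, rfl⟩
    · exact ⟨a ℓ, by
        rw [Fermat.Agent.S29.helper7617.heckeTLin_apply_eq_smul hg hℓ hℓN, ha ℓ]⟩
    · exact ⟨a q, by
        rw [Fermat.Agent.S29.helper7617.heckeULin_apply_eq_smul hg hq hqN, ha q]⟩
  | algebraMap r =>
    refine ⟨r, ?_⟩
    rw [Algebra.algebraMap_eq_smul_one, LinearMap.smul_apply, Module.End.one_apply]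
    exact (Int.cast_smul_eq_zsmul ℂ r g).symm
  | add x y _ _ hx hy =>
    obtain ⟨c, hc⟩ := hx
    obtain ⟨d, hd⟩ := hy
    exact ⟨c + d, by rw [LinearMap.add_apply, hc, hd, Int.cast_add, add_smul]⟩
  | mul x y _ _ hx hy =>
    obtain ⟨c, hc⟩ := hx
    obtain ⟨d, hd⟩ := hy
    exact ⟨d * c, by rw [Module.End.mul_apply, hd, map_smul, hc, smul_smul, Int.cast_mul]⟩

/-- **The leaf (EIGEN) of route G** (`helper7532.Stmt_Eigen`), unconditionally. -/
theorem stmt_Eigen : Fermat.Agent.S58.helper7532.Stmt_Eigen := by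
  intro W N hN0 hbad M _ g hMN hg hcoef
  have hb : ∀ ℓ : ℕ, ℓ.Prime → ¬ ℓ ∣ M → ℓ ∉ N.primeFactors →
      ModularFormClass.qCoeff g ℓ = ((W.apOfModel ℓ : ℤ) : ℂ) := by
    intro ℓ hℓ _ hℓN
    have hℓN' : ¬ ℓ ∣ N := fun h => hℓN (Nat.mem_primeFactors.mpr ⟨hℓ, h, hN0⟩)
    have hgood : W.IsGoodPrimeFor ℓ := fun h => hℓN' (hbad ℓ hℓ h)
    exact hcoef ℓ hℓ hgood hℓN'
  obtain ⟨a, ha⟩ := Fermat.Agent.S58.helper708.exists_intFun_qCoeff_of_isNewform_finset hg
    N.primeFactors (fun ℓ => W.apOfModel ℓ) hb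
  refine ⟨a, ha, ?_⟩
  intro S _
  have hgn : g.IsNormalizedEigenform := hg.isNormalizedEigenform
  have hint : ∀ T : CuspForm.heckeAlgebra M 2 (↑S : Set ℕ),
      ∃ z : ℤ, ((algebraMap (integralClosure ℤ ℂ) ℂ).comp
        (Fermat.Agent.S29.helper7617.eigenCharacter hgn (↑S : Set ℕ))) T = (z : ℂ) := by
    intro T
    obtain ⟨z, hz⟩ := eigVal_int hgn a ha (↑S : Set ℕ) T.2
    refine ⟨z, ?_⟩
    show Fermat.Agent.S29.helper7617.eigVal g
      (T : Module.End ℂ (CuspForm (CongruenceSubgroup.Gamma0 M) 2)) = (z : ℂ)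
    exact Fermat.Agent.S29.helper7617.eigVal_eq_of_apply_eq_smul hgn hz
  refine ⟨intLift _ hint, ?_⟩
  intro ℓ hℓ hℓM hℓS
  apply Int.cast_injective (α := ℂ)
  rw [intLift_apply, ← ha ℓ]
  exact Fermat.Agent.S29.helper7617.eigenCharacter_T hgn hℓ hℓM hℓS

end Fermat.Agent.S58.helper1646
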