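import Fermat.Agent.S58.helper7532_GDefs
import Fermat.Agent.S58.helper1646_Raise
import Fermat.Agent.S58.helper1790_TrivBound
import Fermat.Agent.Lib.helper54_Frobenius

/-!
# S58, Route G: the frozen statement from the frozen S30, S35, S36 (helper7532)

`frozen_of_leaves` : the frozen statement S58 from

* `Stmt_S30`, `Stmt_S35`, `Stmt_S36` : the frozen statements S30, S35, S36 (verbatim types);
* `Stmt_Eigen`  : integrality of the newform and its integer eigen-character;
* `Stmt_Res`    : residual absolute irreducibility and oddness (the hypothesis `hres` of S36);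
* `Stmt_Unip`   : unipotent inertia away from `p` (contradicting the conclusion of S36);
* `Stmt_TrGood` : the trace at a good prime is `a_ℓ(W)`.

Proof.  Let `g` be a newform of level `M ∣ N` with `a_ℓ(g) = a_ℓ(W)` for the good primes
`ℓ ∤ N`.  (C) no prime `q` has `v_q(M) = 2`: for `q = p` by `p² ∤ N`; for `q ≠ p`, S36 at
`lam = p` gives a representation which is not unipotent on inertia at `q`, against `Stmt_Unip`.
(B) if `q ∥ M` then `q ∣ Δ`: otherwise S35 at a prime `lam ≠ q` gives trace `± (q + 1)` at a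
Frobenius element of `q`, so `a_q(W) = ± (q + 1)` by `Stmt_TrGood`, against the trivial bound.
Since `N` is cube-free, `M` is squarefree and divides the radical of `Δ`.  (A) for a good prime
`ℓ` (so `ℓ ∤ M`), S30 at a prime `lam ≠ ℓ` gives trace `a_ℓ(g)` at a Frobenius element of `ℓ`,
so `a_ℓ(g) = a_ℓ(W)` by `Stmt_TrGood`.
-/

set_option autoImplicit false

open Polynomial CuspForm ModularFormClass

namespace Fermat.Agent.S58.helper7532

/-- The integer attached to an element of the range of an integer-valued character. -/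
theorem exists_int_of_mem_range {R : Type*} [Ring R] (f : R →+* ℤ)
    (y : ((Int.castRingHom ℂ).comp f).range) : ∃ n : ℤ, (n : ℂ) = (y : ℂ) := by
  obtain ⟨y, x, rfl⟩ := y
  exact ⟨f x, rfl⟩

/-- The range of an integer-valued character, mapped back to `ℤ`. -/
noncomputable def rangeToInt {R : Type*} [Ring R] (f : R →+* ℤ) :
    ((Int.castRingHom ℂ).comp f).range →+* ℤ where
  toFun y := Classical.choose (exists_int_of_mem_range f y)
  map_one' := by
    apply Int.cast_injective (α := ℂ)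
    rw [Classical.choose_spec (exists_int_of_mem_range f 1)]
    simp
  map_mul' x y := by
    apply Int.cast_injective (α := ℂ)
    rw [Classical.choose_spec (exists_int_of_mem_range f (x * y)), Int.cast_mul,
      Classical.choose_spec (exists_int_of_mem_range f x),
      Classical.choose_spec (exists_int_of_mem_range f y)]
    rfl
  map_zero' := by
    apply Int.cast_injective (α := ℂ)
    rw [Classical.choose_spec (exists_int_of_mem_range f 0)]
    simp
  map_add' x y := by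
    apply Int.cast_injective (α := ℂ)
    rw [Classical.choose_spec (exists_int_of_mem_range f (x + y)), Int.cast_add,
      Classical.choose_spec (exists_int_of_mem_range f x),
      Classical.choose_spec (exists_int_of_mem_range f y)]
    rfl

theorem rangeToInt_rangeRestrict {R : Type*} [Ring R] (f : R →+* ℤ) (x : R) :
    rangeToInt f (((Int.castRingHom ℂ).comp f).rangeRestrict x) = f x := by
  apply Int.cast_injective (α := ℂ)
  exact Classical.choose_spec
    (exists_int_of_mem_range f (((Int.castRingHom ℂ).comp f).rangeRestrict x))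

/-- A prime different from a given number. -/
theorem exists_prime_ne (q : ℕ) : ∃ lam : ℕ, lam.Prime ∧ q ≠ lam := by
  by_cases h : q = 2
  · exact ⟨3, Nat.prime_three, by omega⟩
  · exact ⟨2, Nat.prime_two, h⟩

theorem natCast_mem_maximalIdeal_padicInt (lam : ℕ) [Fact lam.Prime] :
    (lam : ℤ_[lam]) ∈ IsLocalRing.maximalIdeal ℤ_[lam] :=
  (IsLocalRing.mem_maximalIdeal _).mpr PadicInt.p_nonunit

section Setup

variable (W : WeierstrassCurve ℤ) (N M : ℕ) [NeZero M]
  (g : CuspForm (CongruenceSubgroup.Gamma0 M) 2) (a : ℕ → ℤ)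

/-- The set of primes `S` used at `lam`: `lam` and the primes of the level. -/
def setS (M lam : ℕ) : Finset ℕ := insert lam M.primeFactors

/-- The exceptional set `T`: `S` and the primes of `N`. -/
def setT (N M lam : ℕ) : Finset ℕ := setS M lam ∪ N.primeFactors

theorem lam_mem_setS (M lam : ℕ) : lam ∈ setS M lam := Finset.mem_insert_self _ _

theorem prime_mem_setS {M : ℕ} (hM : M ≠ 0) (lam : ℕ) (q : ℕ) (hq : q.Prime) (hqM : q ∣ M) :
    q ∈ setS M lam :=
  Finset.mem_insert_of_mem (Nat.mem_primeFactors.mpr ⟨hq, hqM, hM⟩)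

theorem not_mem_setS {M lam ℓ : ℕ} (hℓlam : ℓ ≠ lam) (hℓM : ¬ ℓ ∣ M) : ℓ ∉ setS M lam := by
  intro h
  rcases Finset.mem_insert.mp h with h | h
  · exact hℓlam h
  · exact hℓM (Nat.dvd_of_mem_primeFactors h)

theorem not_mem_setT {N M lam ℓ : ℕ} (hN : N ≠ 0) (hℓ : ℓ.Prime) (h : ℓ ∉ setT N M lam) :
    ℓ ∉ setS M lam ∧ ¬ ℓ ∣ N ∧ ℓ ≠ lam := by
  refine ⟨fun h' => h (Finset.mem_union_left _ h'), fun h' => h (Finset.mem_union_right _
    (Nat.mem_primeFactors.mpr ⟨hℓ, h', hN⟩)), fun h' => h (Finset.mem_union_left _ ?_)⟩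
  rw [h']
  exact lam_mem_setS M lam

end Setup

/-- **The arithmetic core of S58 from the frozen S30, S35, S36 and the four leaves.** -/
theorem core_of_leaves (h30 : Stmt_S30) (h35 : Stmt_S35) (h36 : Stmt_S36)
    (hE : Stmt_Eigen) (hRes : Stmt_Res) (hU : Stmt_Unip) (hTr : Stmt_TrGood)
    (W : WeierstrassCurve ℤ) (hss : W.IsSemistableModel) (N p : ℕ) (hp : p.Prime) (hp2 : p ≠ 2)
    (hirr : W.ModRepIsIrreducible p) (hp2N : ¬ p ^ 2 ∣ N)
    (hbad : ∀ ℓ : ℕ, ℓ.Prime → (ℓ : ℤ) ∣ W.Δ → ℓ ∣ N) (hN3 : ∀ q : ℕ, q.Prime → ¬ q ^ 3 ∣ N)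
    (hΔ : W.Δ ≠ 0) (hN0 : N ≠ 0) : helper1646.Stmt_Core W N := by
  intro M g hMN hg hcoef
  have hM0 : M ≠ 0 := ne_zero_of_dvd_ne_zero hN0 hMN
  have : NeZero M := ⟨hM0⟩
  obtain ⟨a, ha, hchi⟩ := hE W N hN0 hbad M g hMN hg hcoef
  -- `a ℓ = a_ℓ(W)` for the primes `ℓ ∤ N`
  have haW : ∀ ℓ : ℕ, ℓ.Prime → ¬ ℓ ∣ N → a ℓ = W.apOfModel ℓ := by
    intro ℓ hℓ hℓN
    have hgood : W.IsGoodPrimeFor ℓ := fun h => hℓN (hbad ℓ hℓ h)
    have h1 := hcoef ℓ hℓ hgood hℓN
    rw [ha ℓ] at h1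
    exact_mod_cast h1
  -- the data at a prime `lam`
  have hdata : ∀ (lam : ℕ) [Fact lam.Prime],
      ∃ (chig : CuspForm.heckeAlgebra M 2 (↑(setS M lam) : Set ℕ) →+* ℂ)
        (iota : chig.range →+* ℤ_[lam]),
        (∀ (ℓ : ℕ) (hℓ : ℓ.Prime) (hℓM : ¬ ℓ ∣ M) (hℓS : ℓ ∉ (↑(setS M lam) : Set ℕ)),
          chig (CuspForm.heckeAlgebra.T hℓ hℓM hℓS) = ModularFormClass.qCoeff g ℓ) ∧
        (∀ (ℓ : ℕ) (hℓ : ℓ.Prime) (hℓM : ¬ ℓ ∣ M) (hℓS : ℓ ∉ (↑(setS M lam) : Set ℕ)),
          (iota.comp chig.rangeRestrict) (CuspForm.heckeAlgebra.T hℓ hℓM hℓS) =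
            ((a ℓ : ℤ) : ℤ_[lam])) := by
    intro lam _
    obtain ⟨chi, hchi'⟩ := hchi (setS M lam) (prime_mem_setS hM0 lam)
    refine ⟨(Int.castRingHom ℂ).comp chi, (Int.castRingHom ℤ_[lam]).comp (rangeToInt chi),
      ?_, ?_⟩
    · intro ℓ hℓ hℓM hℓS
      rw [RingHom.comp_apply, hchi' ℓ hℓ hℓM hℓS, ha ℓ]
      rfl
    · intro ℓ hℓ hℓM hℓS
      rw [RingHom.comp_apply, RingHom.comp_apply, rangeToInt_rangeRestrict,
        hchi' ℓ hℓ hℓM hℓS]
      rfl
  -- (C) no prime has exponent two in `M`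
  have hC : ∀ q : ℕ, q.Prime → M.factorization q ≠ 2 := by
    intro q hq h2
    have hq2M : q ^ 2 ∣ M := (hq.pow_dvd_iff_le_factorization hM0).mpr (le_of_eq h2.symm)
    by_cases hqp : q = p
    · subst hqp
      exact hp2N (hq2M.trans hMN)
    · have : Fact p.Prime := ⟨hp⟩
      obtain ⟨chig, iota, hchig, hiota⟩ := hdata p
      have hres : ∀ (O'' : Type) [CommRing O''] [IsDomain O''] [IsDiscreteValuationRing O'']
          [IsAdicComplete (IsLocalRing.maximalIdeal O'') O'']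
          [Finite (IsLocalRing.ResidueField O'')] [CharZero O'']
          [Algebra ℤ_[p] O''] [Module.Finite ℤ_[p] O''] [IsLocalHom (algebraMap ℤ_[p] O'')],
          Function.Injective (algebraMap ℤ_[p] O'') → ∀ (ρ : GaloisRepAdic O''),
          (∀ (ℓ : ℕ) (hℓ : ℓ.Prime) (_hℓlam : ℓ ≠ p) (hℓM : ¬ ℓ ∣ M)
            (hℓS : ℓ ∉ (↑(setS M p) : Set ℕ)),
            ∀ A : ValuationSubring (AlgebraicClosure ℚ), A.LiesOverPrime ℓ →
              ∀ σ : AlgebraicClosure ℚ ≃ₐ[ℚ] AlgebraicClosure ℚ, A.IsFrobeniusAt σ ℓ →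
                LinearMap.charpoly (ρ.ρ σ) =
                  X ^ 2 - C (algebraMap ℤ_[p] O'' ((iota.comp chig.rangeRestrict)
                    (CuspForm.heckeAlgebra.T hℓ hℓM hℓS))) * X + C ((ℓ : O'')))
          → ρ.residual.IsAbsolutelyIrreducible ∧ ρ.residual.IsOdd := by
        intro O'' _ _ _ _ _ _ _ _ _ _ ρ hfrob
        have hpO'' : (p : O'') ∈ IsLocalRing.maximalIdeal O'' := by
          have h2 := map_nonunit (algebraMap ℤ_[p] O'') _ (natCast_mem_maximalIdeal_padicInt p)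
          simpa using h2
        refine hRes W hΔ p hp2 hirr O'' hpO'' ρ (setT N M p) ?_
        intro ℓ hℓ hℓT A hA σ hσ
        obtain ⟨hℓS, hℓN, hℓp⟩ := not_mem_setT hN0 hℓ hℓT
        have hℓM : ¬ ℓ ∣ M := fun h => hℓN (h.trans hMN)
        rw [hfrob ℓ hℓ hℓp hℓM (by simpa using hℓS) A hA σ hσ, hiota, map_intCast,
          haW ℓ hℓ hℓN]
      obtain ⟨O'', _, _, _, _, _, _, _, _, _, -, ρ, hfrob, hnot⟩ :=
        h36 hg p (setS M p) ℤ_[p] (natCast_mem_maximalIdeal_padicInt p) hp2 chig hchig iota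
          (lam_mem_setS M p) (prime_mem_setS hM0 p) hres
      have hpO'' : (p : O'') ∈ IsLocalRing.maximalIdeal O'' := by
        have h2 := map_nonunit (algebraMap ℤ_[p] O'') _ (natCast_mem_maximalIdeal_padicInt p)
        simpa using h2
      have hFC : FrobCond W ρ (setT N M p) := by
        intro ℓ hℓ hℓT A hA σ hσ
        obtain ⟨hℓS, hℓN, hℓp⟩ := not_mem_setT hN0 hℓ hℓT
        have hℓM : ¬ ℓ ∣ M := fun h => hℓN (h.trans hMN)
        rw [hfrob ℓ hℓ hℓM (by simpa using hℓS) A hA σ hσ, hiota, map_intCast,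
          haW ℓ hℓ hℓN]
      exact hnot q hq hqp h2 (hU W hΔ hss p hp hp2 O'' hpO'' ρ (setT N M p) hFC q hq hqp)
  -- (B) a prime exactly dividing `M` divides the discriminant
  have hB : ∀ q : ℕ, q.Prime → q ∣ M → ¬ q ^ 2 ∣ M → (q : ℤ) ∣ W.Δ := by
    intro q hq hqM hq2
    by_contra hgood
    obtain ⟨lam, hlam, hqlam⟩ := exists_prime_ne q
    have : Fact lam.Prime := ⟨hlam⟩
    have : Fact q.Prime := ⟨hq⟩
    obtain ⟨chig, iota, hchig, hiota⟩ := hdata lam
    obtain ⟨O'', _, _, _, _, _, _, _, _, _, -, ρ, hfrob, hqq⟩ :=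
      h35 hg lam (setS M lam) ℤ_[lam] (natCast_mem_maximalIdeal_padicInt lam) chig hchig iota
        (lam_mem_setS M lam) (prime_mem_setS hM0 lam)
    have hlamO'' : (lam : O'') ∈ IsLocalRing.maximalIdeal O'' := by
      have h2 := map_nonunit (algebraMap ℤ_[lam] O'') _ (natCast_mem_maximalIdeal_padicInt lam)
      simpa using h2
    have hFC : FrobCond W ρ (setT N M lam) := by
      intro ℓ hℓ hℓT A hA σ hσ
      obtain ⟨hℓS, hℓN, hℓp⟩ := not_mem_setT hN0 hℓ hℓT
      have hℓM : ¬ ℓ ∣ M := fun h => hℓN (h.trans hMN)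
      rw [hfrob ℓ hℓ hℓM (by simpa using hℓS) A hA σ hσ, hiota, map_intCast,
        haW ℓ hℓ hℓN]
    obtain ⟨A, σ, hA, hσ⟩ := Fermat.Agent.Lib.helper54.exists_liesOverPrime_isFrobeniusAt hq
    rcases hqq q hq hqlam hqM hq2 A hA σ hσ with h | h
    · have h1 := hTr W hΔ lam hlam O'' hlamO'' ρ (setT N M lam) hFC q hq hgood hqlam A hA σ hσ
        ((q : ℤ) + 1) (by rw [h]; push_cast; ring)
      exact helper1790.apOfModel_ne_add_one W q h1.symm
    · have h1 := hTr W hΔ lam hlam O'' hlamO'' ρ (setT N M lam) hFC q hq hgood hqlam A hA σ hσ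
        (-((q : ℤ) + 1)) (by rw [h]; push_cast; simp only [map_neg, map_add, map_one]; ring)
      exact helper1790.apOfModel_ne_neg_add_one W q h1.symm
  -- exponents of `M` are at most one
  have hle1 : ∀ q : ℕ, q.Prime → M.factorization q ≤ 1 := by
    intro q hq
    have h3 : ¬ 3 ≤ M.factorization q := fun h =>
      hN3 q hq (((hq.pow_dvd_iff_le_factorization hM0).mpr h).trans hMN)
    have h2 := hC q hq
    omega
  have hgoodM : ∀ ℓ : ℕ, ℓ.Prime → W.IsGoodPrimeFor ℓ → ¬ ℓ ∣ M := by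
    intro ℓ hℓ hgood hℓM
    refine hgood (hB ℓ hℓ hℓM fun h2 => ?_)
    have := (hℓ.pow_dvd_iff_le_factorization hM0).mp h2
    have := hle1 ℓ hℓ
    omega
  refine ⟨?_, ?_⟩
  · -- `M` divides the conductor level
    rw [← Nat.factorization_le_iff_dvd hM0 W.conductorLevel_pos.ne']
    intro q
    by_cases hq : q.Prime
    · rcases Nat.eq_zero_or_pos (M.factorization q) with h0 | hpos
      · rw [h0]; exact Nat.zero_le _
      · have hqM : q ∣ M := by
          have := (hq.pow_dvd_iff_le_factorization hM0).mpr hpos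
          simpa using this
        have hq2 : ¬ q ^ 2 ∣ M := fun h2 => by
          have := (hq.pow_dvd_iff_le_factorization hM0).mp h2
          have := hle1 q hq
          omega
        have hqΔ := hB q hq hqM hq2
        have hqc : q ∣ W.conductorLevel := (W.prime_dvd_conductorLevel_iff hΔ hq).mpr hqΔ
        have h1 : 1 ≤ W.conductorLevel.factorization q :=
          (hq.pow_dvd_iff_le_factorization (k := 1) W.conductorLevel_pos.ne').mp
            (by simpa using hqc)
        exact (hle1 q hq).trans h1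
    · rw [Nat.factorization_eq_zero_of_not_prime _ hq]
      exact Nat.zero_le _
  · -- (A) the coefficients at all good primes
    intro ℓ hℓ hgood
    have hℓM : ¬ ℓ ∣ M := hgoodM ℓ hℓ hgood
    obtain ⟨lam, hlam, hℓlam⟩ := exists_prime_ne ℓ
    have : Fact lam.Prime := ⟨hlam⟩
    obtain ⟨chi, hchi'⟩ := hchi (setS M lam) (prime_mem_setS hM0 lam)
    obtain ⟨O'', _, _, _, _, _, _, _, _, _, -, ρ, hfrob, -⟩ :=
      h30 lam M (setS M lam) (lam_mem_setS M lam) (prime_mem_setS hM0 lam) ℤ_[lam]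
        (natCast_mem_maximalIdeal_padicInt lam) ((Int.castRingHom ℤ_[lam]).comp chi)
    have hlamO'' : (lam : O'') ∈ IsLocalRing.maximalIdeal O'' := by
      have h2 := map_nonunit (algebraMap ℤ_[lam] O'') _ (natCast_mem_maximalIdeal_padicInt lam)
      simpa using h2
    have hval : ∀ (r : ℕ) (hr : r.Prime) (hrM : ¬ r ∣ M) (hrS : r ∉ (↑(setS M lam) : Set ℕ)),
        algebraMap ℤ_[lam] O'' (((Int.castRingHom ℤ_[lam]).comp chi)
          (CuspForm.heckeAlgebra.T hr hrM hrS)) = ((a r : ℤ) : O'') := by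
      intro r hr hrM hrS
      rw [RingHom.comp_apply, hchi' r hr hrM hrS]
      simp
    have hFC : FrobCond W ρ (setT N M lam) := by
      intro r hr hrT A hA σ hσ
      obtain ⟨hrS, hrN, hrp⟩ := not_mem_setT hN0 hr hrT
      have hrM : ¬ r ∣ M := fun h => hrN (h.trans hMN)
      rw [hfrob r hr hrM (by simpa using hrS) A hA σ hσ, hval, haW r hr hrN]
    obtain ⟨A, σ, hA, hσ⟩ := Fermat.Agent.Lib.helper54.exists_liesOverPrime_isFrobeniusAt hℓ
    have hℓS : ℓ ∉ (↑(setS M lam) : Set ℕ) := by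
      simpa using not_mem_setS hℓlam hℓM
    have h1 := hTr W hΔ lam hlam O'' hlamO'' ρ (setT N M lam) hFC ℓ hℓ hgood hℓlam A hA σ hσ
      (a ℓ) (by rw [hfrob ℓ hℓ hℓM hℓS A hA σ hσ, hval])
    rw [ha ℓ, h1]

/-- **The frozen statement S58 from the frozen S30, S35, S36 and the four leaves**, in the exact
shape of the template. -/
theorem frozen_of_leaves (h30 : Stmt_S30) (h35 : Stmt_S35) (h36 : Stmt_S36)
    (hE : Stmt_Eigen) (hRes : Stmt_Res) (hU : Stmt_Unip) (hTr : Stmt_TrGood)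
    (W : WeierstrassCurve ℤ) (hss : W.IsSemistableModel) (N : ℕ)
    (p : ℕ) [Fact p.Prime] (hp2 : p ≠ 2) (hirr : W.ModRepIsIrreducible p)
    (hp2N : ¬ p ^ 2 ∣ N)
    (hN : W.IsModularModelOfLevel N) (hbad : ∀ ℓ : ℕ, ℓ.Prime → (ℓ : ℤ) ∣ W.Δ → ℓ ∣ N)
    (hN3 : ∀ q : ℕ, q.Prime → ¬ q ^ 3 ∣ N) :
    W.IsModularModelOfLevel W.conductorLevel :=
  helper1646.frozen_of_core
    (fun W hss N p hp hp2 hirr hp2N _ hbad hN3 hΔ hN0 =>
      core_of_leaves h30 h35 h36 hE hRes hU hTr W hss N p hp hp2 hirr hp2N hbad hN3 hΔ hN0)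
    W hss N p hp2 hirr hp2N hN hbad hN3

end Fermat.Agent.S58.helper7532
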