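import Fermat.Agent.S58.helper8215_ResAdapter
import Fermat.Agent.S58.helper1646_TransferG

/-!
# S58 Route G: the leaf `Stmt_Res`, unconditional (helper8215)

`stmt_Res : helper7532.Stmt_Res` — the residual representation of every adic representation with
the Frobenius characteristic polynomials of `W` is absolutely irreducible and odd when `W[p]` is
irreducible and `p` is odd.  Proof: `stmt_Res_of_transfer` (helper8215_ResAdapter) applied to the
landed `helper1646.stmt_Transfer`.
-/

set_option autoImplicit false

namespace Fermat.Agent.S58.helper8215

/-- **`Stmt_Res` of Route G, unconditional.** -/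
theorem stmt_Res : Fermat.Agent.S58.helper7532.Stmt_Res :=
  stmt_Res_of_transfer Fermat.Agent.S58.helper1646.stmt_Transfer

end Fermat.Agent.S58.helper8215
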