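/-
S58 via the frozen statements S35 + S36 (helper1646), part 6: route G closed.  The frozen
statement S58 from the frozen statements S35 and S36 ALONE (as hypotheses of exactly the frozen
types); every other input of the top wiring `helper7532.frozen_of_leaves` is discharged:

* `Stmt_S30`    : `Fermat.Agent.S30.result` (on main);
* `Stmt_Eigen`  : `helper1646.stmt_Eigen`;
* `Stmt_Res`    : `helper8215.stmt_Res`;
* `Stmt_Unip`   : `helper1646.stmt_Unip`;
* `Stmt_TrGood` : `helper1646.stmt_TrGood`.
-/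
import Fermat.Agent.S58.helper7532_SpecG
import Fermat.Agent.S58.helper8215_Res
import Fermat.Agent.S58.helper1646_ConsumersG
import Fermat.Agent.S58.helper1646_EigenG
import Fermat.Agent.S30

set_option autoImplicit false

namespace Fermat.Agent.S58.helper1646

/-- The frozen statement S30, in the `Prop` shape of route G. -/
theorem stmt_S30 : Fermat.Agent.S58.helper7532.Stmt_S30 := @Fermat.Agent.S30.result

/-- **The frozen statement S58 from the frozen statements S35 and S36.** -/
theorem frozen_of_S35_S36 (h35 : Fermat.Agent.S58.helper7532.Stmt_S35)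
    (h36 : Fermat.Agent.S58.helper7532.Stmt_S36)
    (W : WeierstrassCurve ℤ) (hss : W.IsSemistableModel) (N : ℕ)
    (p : ℕ) [Fact p.Prime] (hp2 : p ≠ 2) (hirr : W.ModRepIsIrreducible p)
    (hp2N : ¬ p ^ 2 ∣ N)
    (hN : W.IsModularModelOfLevel N) (hbad : ∀ ℓ : ℕ, ℓ.Prime → (ℓ : ℤ) ∣ W.Δ → ℓ ∣ N)
    (hN3 : ∀ q : ℕ, q.Prime → ¬ q ^ 3 ∣ N) :
    W.IsModularModelOfLevel W.conductorLevel :=
  Fermat.Agent.S58.helper7532.frozen_of_leaves stmt_S30 h35 h36 stmt_Eigen
    Fermat.Agent.S58.helper8215.stmt_Res stmt_Unip stmt_TrGood W hss N p hp2 hirr hp2N hN hbad hN3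

end Fermat.Agent.S58.helper1646
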