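/-
S58, route #1886 step 2: the analytic-to-formal bridge (board #1064, helper1650).

Part G: germs at `0` whose pairs of Taylor data lie in a `ℚ`-subalgebra `T` of `ℂ × ℂ`
        (closed under `+`, `*`, `deriv`, composition, inverse, `dslope`).
Part W: `q ^ 2 * ℘[L] (φ q)` and `q ^ 3 * ℘'[L] (φ q)` as germs at `q = 0`.
Part Q: from a pointwise identity `A z = B z * W (𝕢 1 z)` near `i∞` to the power-series identity
        `X ^ m * qExpansion 1 A = taylorPS U * qExpansion 1 B`.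
Mathlib only.
-/
import Mathlib

set_option autoImplicit false

namespace Fermat.Agent.S58.helper1650

open Filter Topology Finset

/-! ## Part G: the germ calculus -/

/-- The pair of `n`-th derivatives at `0` of two germs. -/
noncomputable def dPair (f f₂ : ℂ → ℂ) (n : ℕ) : ℂ × ℂ :=
  (iteratedDeriv n f 0, iteratedDeriv n f₂ 0)

/-- Two germs at `0` are `T`-related: both are analytic at `0` and every pair of derivatives
at `0` lies in `T`. -/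
structure RelAt (T : Subalgebra ℚ (ℂ × ℂ)) (f f₂ : ℂ → ℂ) : Prop where
  an₁ : AnalyticAt ℂ f 0
  an₂ : AnalyticAt ℂ f₂ 0
  mem : ∀ n, dPair f f₂ n ∈ T

theorem dPair_congr {f g f₂ g₂ : ℂ → ℂ} (h : f =ᶠ[𝓝 0] g) (h₂ : f₂ =ᶠ[𝓝 0] g₂) (n : ℕ) :
    dPair f f₂ n = dPair g g₂ n := by
  simp only [dPair, h.iteratedDeriv_eq n, h₂.iteratedDeriv_eq n]

theorem RelAt.congr {T : Subalgebra ℚ (ℂ × ℂ)} {f g f₂ g₂ : ℂ → ℂ} (hf : RelAt T f f₂)
    (h : f =ᶠ[𝓝 0] g) (h₂ : f₂ =ᶠ[𝓝 0] g₂) : RelAt T g g₂ :=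
  ⟨hf.an₁.congr h, hf.an₂.congr h₂, fun n => dPair_congr h h₂ n ▸ hf.mem n⟩

theorem dPair_add {f g f₂ g₂ : ℂ → ℂ} (hf : AnalyticAt ℂ f 0) (hg : AnalyticAt ℂ g 0)
    (hf₂ : AnalyticAt ℂ f₂ 0) (hg₂ : AnalyticAt ℂ g₂ 0) (n : ℕ) :
    dPair (f + g) (f₂ + g₂) n = dPair f f₂ n + dPair g g₂ n := by
  simp only [dPair, iteratedDeriv_add hf.contDiffAt hg.contDiffAt,
    iteratedDeriv_add hf₂.contDiffAt hg₂.contDiffAt, Prod.mk_add_mk]

theorem dPair_mul {f g f₂ g₂ : ℂ → ℂ} (hf : AnalyticAt ℂ f 0) (hg : AnalyticAt ℂ g 0)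
    (hf₂ : AnalyticAt ℂ f₂ 0) (hg₂ : AnalyticAt ℂ g₂ 0) (n : ℕ) :
    dPair (f * g) (f₂ * g₂) n =
      ∑ i ∈ range (n + 1), (n.choose i : ℂ × ℂ) * dPair f f₂ i * dPair g g₂ (n - i) := by
  refine Prod.ext ?_ ?_
  · simp [dPair, iteratedDeriv_mul hf.contDiffAt hg.contDiffAt, Prod.fst_sum]
  · simp [dPair, iteratedDeriv_mul hf₂.contDiffAt hg₂.contDiffAt, Prod.snd_sum]

theorem dPair_deriv (f f₂ : ℂ → ℂ) (n : ℕ) :
    dPair (deriv f) (deriv f₂) n = dPair f f₂ (n + 1) := by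
  simp only [dPair, iteratedDeriv_succ']

variable {T : Subalgebra ℚ (ℂ × ℂ)}

theorem RelAt.add {f g f₂ g₂ : ℂ → ℂ} (hf : RelAt T f f₂) (hg : RelAt T g g₂) :
    RelAt T (f + g) (f₂ + g₂) :=
  ⟨hf.an₁.add hg.an₁, hf.an₂.add hg.an₂, fun n => by
    rw [dPair_add hf.an₁ hg.an₁ hf.an₂ hg.an₂]
    exact add_mem (hf.mem n) (hg.mem n)⟩

theorem RelAt.mul {f g f₂ g₂ : ℂ → ℂ} (hf : RelAt T f f₂) (hg : RelAt T g g₂) :
    RelAt T (f * g) (f₂ * g₂) :=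
  ⟨hf.an₁.mul hg.an₁, hf.an₂.mul hg.an₂, fun n => by
    rw [dPair_mul hf.an₁ hg.an₁ hf.an₂ hg.an₂]
    exact sum_mem fun i _ => mul_mem (mul_mem (natCast_mem T _) (hf.mem i)) (hg.mem _)⟩

theorem RelAt.deriv {f f₂ : ℂ → ℂ} (hf : RelAt T f f₂) : RelAt T (deriv f) (deriv f₂) :=
  ⟨hf.an₁.deriv, hf.an₂.deriv, fun n => by rw [dPair_deriv]; exact hf.mem _⟩

theorem RelAt.const {c : ℂ × ℂ} (hc : c ∈ T) : RelAt T (fun _ => c.1) (fun _ => c.2) :=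
  ⟨analyticAt_const, analyticAt_const, fun n => by
    rcases Nat.eq_zero_or_pos n with rfl | hn
    · simpa [dPair] using hc
    · have : dPair (fun _ : ℂ => c.1) (fun _ : ℂ => c.2) n = 0 := by
        simp [dPair, iteratedDeriv_const, hn.ne']
      rw [this]; exact zero_mem T⟩

theorem RelAt.id : RelAt T (fun q : ℂ => q) (fun q : ℂ => q) :=
  ⟨analyticAt_id, analyticAt_id, fun n => by
    have : dPair (fun q : ℂ => q) (fun q : ℂ => q) n = if n = 1 then 1 else 0 := by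
      simp only [dPair, iteratedDeriv_fun_id_zero]
      split_ifs <;> rfl
    rw [this]; split_ifs
    · exact one_mem T
    · exact zero_mem T⟩

theorem RelAt.pow {f f₂ : ℂ → ℂ} (hf : RelAt T f f₂) (m : ℕ) : RelAt T (f ^ m) (f₂ ^ m) := by
  induction m with
  | zero =>
    rw [pow_zero, pow_zero]
    exact RelAt.const (T := T) (c := 1) (one_mem T)
  | succ m ih => simpa [pow_succ] using ih.mul hf

/-! ### Composition -/

/-- The chain rule, once, near `0`. -/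
theorem deriv_comp_eventuallyEq {f φ : ℂ → ℂ} (hφ : AnalyticAt ℂ φ 0)
    (hf : AnalyticAt ℂ f (φ 0)) :
    deriv (f ∘ φ) =ᶠ[𝓝 0] (deriv f ∘ φ) * deriv φ := by
  have h1 : ∀ᶠ q in 𝓝 (0 : ℂ), AnalyticAt ℂ φ q := hφ.eventually_analyticAt
  have h2 : ∀ᶠ q in 𝓝 (0 : ℂ), AnalyticAt ℂ f (φ q) :=
    hφ.continuousAt.eventually hf.eventually_analyticAt
  filter_upwards [h1, h2] with q hq1 hq2
  simp only [Pi.mul_apply, Function.comp_apply]
  exact deriv_comp q hq2.differentiableAt hq1.differentiableAt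

/-- The recursion for the derivatives at `0` of a composite germ. -/
theorem iteratedDeriv_comp_succ {f φ : ℂ → ℂ} (hφ : AnalyticAt ℂ φ 0)
    (hf : AnalyticAt ℂ f (φ 0)) (n : ℕ) :
    iteratedDeriv (n + 1) (f ∘ φ) 0 =
      ∑ i ∈ range (n + 1), (n.choose i : ℂ) * iteratedDeriv i (deriv f ∘ φ) 0 *
        iteratedDeriv (n - i + 1) φ 0 := by
  rw [iteratedDeriv_succ', (deriv_comp_eventuallyEq hφ hf).iteratedDeriv_eq n,
    iteratedDeriv_mul (hf.deriv.comp hφ).contDiffAt hφ.deriv.contDiffAt]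
  refine sum_congr rfl fun i _ => ?_
  rw [iteratedDeriv_succ']

theorem RelAt.comp {f f₂ φ φ₂ : ℂ → ℂ} (hf : RelAt T f f₂) (hφ : RelAt T φ φ₂)
    (h0 : φ 0 = 0) (h0₂ : φ₂ 0 = 0) : RelAt T (f ∘ φ) (f₂ ∘ φ₂) := by
  have key : ∀ n : ℕ, ∀ g g₂ : ℂ → ℂ, RelAt T g g₂ → dPair (g ∘ φ) (g₂ ∘ φ₂) n ∈ T := by
    intro n
    induction n using Nat.strong_induction_on with
    | _ n ih =>
      intro g g₂ hg
      rcases n with _ | n
      · have : dPair (g ∘ φ) (g₂ ∘ φ₂) 0 = dPair g g₂ 0 := by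
          simp [dPair, h0, h0₂]
        rw [this]; exact hg.mem 0
      · have e : dPair (g ∘ φ) (g₂ ∘ φ₂) (n + 1) =
            ∑ i ∈ range (n + 1), (n.choose i : ℂ × ℂ) *
              dPair (_root_.deriv g ∘ φ) (_root_.deriv g₂ ∘ φ₂) i * dPair φ φ₂ (n - i + 1) := by
          refine Prod.ext ?_ ?_
          · simp [dPair, iteratedDeriv_comp_succ hφ.an₁ (h0.symm ▸ hg.an₁), Prod.fst_sum]
          · simp [dPair, iteratedDeriv_comp_succ hφ.an₂ (h0₂.symm ▸ hg.an₂), Prod.snd_sum]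
        rw [e]
        refine sum_mem fun i hi => mul_mem (mul_mem (natCast_mem T _) ?_) (hφ.mem _)
        exact ih i (Nat.lt_succ_of_le (Nat.lt_succ_iff.mp (mem_range.mp hi))) _ _ hg.deriv
  exact ⟨(h0.symm ▸ hf.an₁ : AnalyticAt ℂ f (φ 0)).comp hφ.an₁,
    (h0₂.symm ▸ hf.an₂ : AnalyticAt ℂ f₂ (φ₂ 0)).comp hφ.an₂, fun n => key n f f₂ hf⟩

/-! ### Inverse -/

/-- The recursion for the derivatives at `0` of the inverse of a germ. -/
theorem iteratedDeriv_inv_rec {ψ : ℂ → ℂ} (hψ : AnalyticAt ℂ ψ 0) (h0 : ψ 0 ≠ 0) {n : ℕ}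
    (hn : n ≠ 0) :
    iteratedDeriv n (fun q => (ψ q)⁻¹) 0 = -(ψ 0)⁻¹ *
      ∑ i ∈ range n, (n.choose i : ℂ) * iteratedDeriv i (fun q => (ψ q)⁻¹) 0 *
        iteratedDeriv (n - i) ψ 0 := by
  have hinv : AnalyticAt ℂ (fun q => (ψ q)⁻¹) 0 := hψ.inv h0
  have h1 : (fun q => (ψ q)⁻¹) * ψ =ᶠ[𝓝 0] fun _ => (1 : ℂ) := by
    filter_upwards [hψ.continuousAt.eventually_ne h0] with q hq
    simp [inv_mul_cancel₀ hq]
  have h2 := h1.iteratedDeriv_eq n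
  rw [iteratedDeriv_mul hinv.contDiffAt hψ.contDiffAt, iteratedDeriv_const, if_neg hn,
    sum_range_succ] at h2
  simp only [Nat.choose_self, Nat.cast_one, one_mul, Nat.sub_self, iteratedDeriv_zero] at h2
  have h3 : iteratedDeriv n (fun q => (ψ q)⁻¹) 0 * ψ 0 =
      -∑ i ∈ range n, (n.choose i : ℂ) * iteratedDeriv i (fun q => (ψ q)⁻¹) 0 *
        iteratedDeriv (n - i) ψ 0 := by
    rw [eq_neg_iff_add_eq_zero, add_comm]; exact h2
  rw [neg_mul, ← mul_neg, ← h3]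
  field_simp

theorem RelAt.inv {ψ ψ₂ : ℂ → ℂ} (hψ : RelAt T ψ ψ₂) {e : ℂ × ℂ} (he : e ∈ T)
    (h1 : e.1 * ψ 0 = 1) (h2 : e.2 * ψ₂ 0 = 1) :
    RelAt T (fun q => (ψ q)⁻¹) (fun q => (ψ₂ q)⁻¹) := by
  have hne1 : ψ 0 ≠ 0 := right_ne_zero_of_mul_eq_one h1
  have hne2 : ψ₂ 0 ≠ 0 := right_ne_zero_of_mul_eq_one h2
  have he1 : e.1 = (ψ 0)⁻¹ := eq_inv_of_mul_eq_one_left h1
  have he2 : e.2 = (ψ₂ 0)⁻¹ := eq_inv_of_mul_eq_one_left h2
  refine ⟨hψ.an₁.inv hne1, hψ.an₂.inv hne2, fun n => ?_⟩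
  induction n using Nat.strong_induction_on with
  | _ n ih =>
    rcases Nat.eq_zero_or_pos n with rfl | hn
    · have : dPair (fun q => (ψ q)⁻¹) (fun q => (ψ₂ q)⁻¹) 0 = e := by
        refine Prod.ext ?_ ?_
        · simp [dPair, he1]
        · simp [dPair, he2]
      rw [this]; exact he
    · have e' : dPair (fun q => (ψ q)⁻¹) (fun q => (ψ₂ q)⁻¹) n =
          -e * ∑ i ∈ range n, (n.choose i : ℂ × ℂ) *
            dPair (fun q => (ψ q)⁻¹) (fun q => (ψ₂ q)⁻¹) i * dPair ψ ψ₂ (n - i) := by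
        refine Prod.ext ?_ ?_
        · simp [dPair, iteratedDeriv_inv_rec hψ.an₁ hne1 hn.ne', Prod.fst_sum, he1]
        · simp [dPair, iteratedDeriv_inv_rec hψ.an₂ hne2 hn.ne', Prod.snd_sum, he2]
      rw [e']
      refine mul_mem (neg_mem he) (sum_mem fun i hi => ?_)
      exact mul_mem (mul_mem (natCast_mem T _) (ih i (mem_range.mp hi))) (hψ.mem _)

/-! ### Division by the variable -/

/-- `dslope φ 0` is analytic at `0`. -/
theorem analyticAt_dslope_zero {φ : ℂ → ℂ} (hφ : AnalyticAt ℂ φ 0) :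
    AnalyticAt ℂ (dslope φ 0) 0 := by
  obtain ⟨p, hp⟩ := hφ
  exact ⟨_, hp.has_fpower_series_dslope_fslope⟩

theorem eq_mul_dslope_zero {φ : ℂ → ℂ} (h0 : φ 0 = 0) (q : ℂ) : φ q = q * dslope φ 0 q := by
  have := sub_smul_dslope φ 0 q
  simp only [sub_zero, smul_eq_mul, h0] at this
  exact this.symm

/-- Derivatives at `0` of `dslope φ 0`. -/
theorem iteratedDeriv_succ_eq_dslope {φ : ℂ → ℂ} (hφ : AnalyticAt ℂ φ 0) (h0 : φ 0 = 0) (n : ℕ) :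
    iteratedDeriv (n + 1) φ 0 = (n + 1 : ℂ) * iteratedDeriv n (dslope φ 0) 0 := by
  have hfun : φ = (fun q : ℂ => q) * dslope φ 0 := by
    funext q; simpa using eq_mul_dslope_zero h0 q
  conv_lhs => rw [hfun]
  rw [iteratedDeriv_mul (f := fun q : ℂ => q) analyticAt_id.contDiffAt
    (analyticAt_dslope_zero hφ).contDiffAt]
  rw [sum_eq_single 1]
  · simp [iteratedDeriv_fun_id_zero]
  · intro i _ hi
    simp [iteratedDeriv_fun_id_zero, hi]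
  · intro h; exact absurd (mem_range.mpr (by omega)) h

theorem RelAt.dslope {φ φ₂ : ℂ → ℂ} (hφ : RelAt T φ φ₂) (h0 : φ 0 = 0) (h0₂ : φ₂ 0 = 0) :
    RelAt T (dslope φ 0) (dslope φ₂ 0) := by
  refine ⟨analyticAt_dslope_zero hφ.an₁, analyticAt_dslope_zero hφ.an₂, fun n => ?_⟩
  have e : dPair (_root_.dslope φ 0) (_root_.dslope φ₂ 0) n =
      ((n + 1 : ℚ)⁻¹ : ℚ) • dPair φ φ₂ (n + 1) := by
    have hn : (n + 1 : ℂ) ≠ 0 := by exact_mod_cast Nat.succ_ne_zero n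
    refine Prod.ext ?_ ?_
    · simp only [dPair, Prod.smul_mk, iteratedDeriv_succ_eq_dslope hφ.an₁ h0]
      rw [Rat.smul_def]; push_cast; field_simp
    · simp only [dPair, Prod.smul_mk, iteratedDeriv_succ_eq_dslope hφ.an₂ h0₂]
      rw [Rat.smul_def]; push_cast; field_simp
  rw [e]; exact T.smul_mem (hφ.mem _) _

/-! ## Part W: the Weierstrass functions along a germ vanishing at `0` -/

theorem weierstrassP_eq_except (L : PeriodPair) (w : ℂ) :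
    L.weierstrassP w = L.weierstrassPExcept 0 w + 1 / w ^ 2 := by
  have := L.weierstrassPExcept_add (0 : L.lattice) w
  simpa using this.symm

theorem derivWeierstrassP_eq_except (L : PeriodPair) (w : ℂ) :
    L.derivWeierstrassP w = L.derivWeierstrassPExcept 0 w - 2 / w ^ 3 := by
  have := L.derivWeierstrassPExcept_sub (0 : L.lattice) w
  simpa using this.symm

/-- `q ^ 2 * ℘[L] (φ q)`, extended analytically to `q = 0`. -/
noncomputable def wpU (L : PeriodPair) (φ : ℂ → ℂ) : ℂ → ℂ :=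
  (fun q : ℂ => q) ^ 2 * (L.weierstrassPExcept 0 ∘ φ) + (fun q : ℂ => (dslope φ 0 q)⁻¹) ^ 2

/-- `q ^ 3 * ℘'[L] (φ q)`, extended analytically to `q = 0`. -/
noncomputable def wpV (L : PeriodPair) (φ : ℂ → ℂ) : ℂ → ℂ :=
  (fun q : ℂ => q) ^ 3 * (L.derivWeierstrassPExcept 0 ∘ φ) +
    (fun _ : ℂ => (-2 : ℂ)) * (fun q : ℂ => (dslope φ 0 q)⁻¹) ^ 3

theorem wpU_eq (L : PeriodPair) {φ : ℂ → ℂ} (h0 : φ 0 = 0) {q : ℂ} (hq : q ≠ 0)
    (hψ : dslope φ 0 q ≠ 0) : wpU L φ q = q ^ 2 * L.weierstrassP (φ q) := by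
  have hφq : φ q = q * dslope φ 0 q := eq_mul_dslope_zero h0 q
  simp only [wpU, Pi.add_apply, Pi.mul_apply, Pi.pow_apply, Function.comp_apply,
    weierstrassP_eq_except, mul_add]
  congr 1
  rw [hφq]
  field_simp

theorem wpV_eq (L : PeriodPair) {φ : ℂ → ℂ} (h0 : φ 0 = 0) {q : ℂ} (hq : q ≠ 0)
    (hψ : dslope φ 0 q ≠ 0) : wpV L φ q = q ^ 3 * L.derivWeierstrassP (φ q) := by
  have hφq : φ q = q * dslope φ 0 q := eq_mul_dslope_zero h0 q
  simp only [wpV, Pi.add_apply, Pi.mul_apply, Pi.pow_apply, Function.comp_apply,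
    derivWeierstrassP_eq_except]
  rw [mul_sub, sub_eq_add_neg]
  congr 1
  rw [hφq]
  field_simp

theorem eventually_dslope_ne {φ : ℂ → ℂ} (hφ : AnalyticAt ℂ φ 0) (h1 : deriv φ 0 ≠ 0) :
    ∀ᶠ q in 𝓝 (0 : ℂ), dslope φ 0 q ≠ 0 :=
  (analyticAt_dslope_zero hφ).continuousAt.eventually_ne (by rwa [dslope_same])

theorem wpU_eventuallyEq (L : PeriodPair) {φ : ℂ → ℂ} (hφ : AnalyticAt ℂ φ 0) (h0 : φ 0 = 0)
    (h1 : deriv φ 0 ≠ 0) :
    ∀ᶠ q in 𝓝[≠] (0 : ℂ), wpU L φ q = q ^ 2 * L.weierstrassP (φ q) := by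
  filter_upwards [self_mem_nhdsWithin, nhdsWithin_le_nhds (eventually_dslope_ne hφ h1)]
    with q hq hψ
  exact wpU_eq L h0 hq hψ

theorem wpV_eventuallyEq (L : PeriodPair) {φ : ℂ → ℂ} (hφ : AnalyticAt ℂ φ 0) (h0 : φ 0 = 0)
    (h1 : deriv φ 0 ≠ 0) :
    ∀ᶠ q in 𝓝[≠] (0 : ℂ), wpV L φ q = q ^ 3 * L.derivWeierstrassP (φ q) := by
  filter_upwards [self_mem_nhdsWithin, nhdsWithin_le_nhds (eventually_dslope_ne hφ h1)]
    with q hq hψ
  exact wpV_eq L h0 hq hψ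

/-- The regular parts of `℘` for two lattices are `T`-related as soon as the lattice sums are. -/
theorem relAt_weierstrassPExcept {L L₂ : PeriodPair}
    (hG : ∀ n, 3 ≤ n → (L.G n, L₂.G n) ∈ T) :
    RelAt T (L.weierstrassPExcept 0) (L₂.weierstrassPExcept 0) := by
  refine ⟨L.analyticAt_weierstrassPExcept 0, L₂.analyticAt_weierstrassPExcept 0, fun n => ?_⟩
  rcases Nat.eq_zero_or_pos n with rfl | hn
  · have : dPair (L.weierstrassPExcept 0) (L₂.weierstrassPExcept 0) 0 = 0 := by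
      simp [dPair]
    rw [this]; exact zero_mem T
  · have : dPair (L.weierstrassPExcept 0) (L₂.weierstrassPExcept 0) n =
        (((n + 1).factorial : ℕ) : ℂ × ℂ) * (L.G (n + 2), L₂.G (n + 2)) := by
      refine Prod.ext ?_ ?_
      · simp [dPair, PeriodPair.iteratedDeriv_weierstrassPExcept_self, hn.ne']
      · simp [dPair, PeriodPair.iteratedDeriv_weierstrassPExcept_self, hn.ne']
    rw [this]; exact mul_mem (natCast_mem T _) (hG _ (by omega))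

theorem relAt_derivWeierstrassPExcept {L L₂ : PeriodPair}
    (hG : ∀ n, 3 ≤ n → (L.G n, L₂.G n) ∈ T) :
    RelAt T (L.derivWeierstrassPExcept 0) (L₂.derivWeierstrassPExcept 0) := by
  refine ⟨L.analyticAt_derivWeierstrassPExcept 0, L₂.analyticAt_derivWeierstrassPExcept 0,
    fun n => ?_⟩
  have : dPair (L.derivWeierstrassPExcept 0) (L₂.derivWeierstrassPExcept 0) n =
      (((n + 2).factorial : ℕ) : ℂ × ℂ) * (L.G (n + 3), L₂.G (n + 3)) := by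
    refine Prod.ext ?_ ?_
    · simp [dPair, PeriodPair.iteratedDeriv_derivWeierstrassPExcept_self]
    · simp [dPair, PeriodPair.iteratedDeriv_derivWeierstrassPExcept_self]
  rw [this]; exact mul_mem (natCast_mem T _) (hG _ (by omega))

/-- `q ^ 2 * ℘[L] (φ q)` and `q ^ 2 * ℘[L₂] (φ₂ q)` are `T`-related germs at `0`. -/
theorem relAt_wpU {L L₂ : PeriodPair} {φ φ₂ : ℂ → ℂ} (hφ : RelAt T φ φ₂) (h0 : φ 0 = 0)
    (h0₂ : φ₂ 0 = 0) {e : ℂ × ℂ} (he : e ∈ T) (h1 : e.1 * deriv φ 0 = 1)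
    (h2 : e.2 * deriv φ₂ 0 = 1) (hG : ∀ n, 3 ≤ n → (L.G n, L₂.G n) ∈ T) :
    RelAt T (wpU L φ) (wpU L₂ φ₂) :=
  ((RelAt.id.pow 2).mul ((relAt_weierstrassPExcept hG).comp hφ h0 h0₂)).add
    (((hφ.dslope h0 h0₂).inv he (by rwa [dslope_same]) (by rwa [dslope_same])).pow 2)

/-- `q ^ 3 * ℘'[L] (φ q)` and `q ^ 3 * ℘'[L₂] (φ₂ q)` are `T`-related germs at `0`. -/
theorem relAt_wpV {L L₂ : PeriodPair} {φ φ₂ : ℂ → ℂ} (hφ : RelAt T φ φ₂) (h0 : φ 0 = 0)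
    (h0₂ : φ₂ 0 = 0) {e : ℂ × ℂ} (he : e ∈ T) (h1 : e.1 * deriv φ 0 = 1)
    (h2 : e.2 * deriv φ₂ 0 = 1) (hG : ∀ n, 3 ≤ n → (L.G n, L₂.G n) ∈ T) :
    RelAt T (wpV L φ) (wpV L₂ φ₂) := by
  have hc : RelAt T (fun _ : ℂ => (-2 : ℂ)) (fun _ : ℂ => (-2 : ℂ)) :=
    RelAt.const (T := T) (c := ((-2 : ℤ) : ℂ × ℂ)) (intCast_mem T _) |>.congr
      (by simp) (by simp)
  exact ((RelAt.id.pow 3).mul ((relAt_derivWeierstrassPExcept hG).comp hφ h0 h0₂)).add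
    (hc.mul (((hφ.dslope h0 h0₂).inv he (by rwa [dslope_same]) (by rwa [dslope_same])).pow 3))

/-! ## Part Q: Taylor power series and the bridge to `qExpansion` -/

/-- The Taylor power series at `0` of a germ; for `cuspFunction h f` it is `qExpansion h f`. -/
noncomputable def taylorPS (f : ℂ → ℂ) : PowerSeries ℂ :=
  PowerSeries.mk fun n => ((n.factorial : ℂ))⁻¹ * iteratedDeriv n f 0

theorem coeff_taylorPS (f : ℂ → ℂ) (n : ℕ) :
    (taylorPS f).coeff n = ((n.factorial : ℂ))⁻¹ * iteratedDeriv n f 0 := by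
  simp [taylorPS]

theorem qExpansion_eq_taylorPS (h : ℝ) (f : UpperHalfPlane → ℂ) :
    UpperHalfPlane.qExpansion h f = taylorPS (UpperHalfPlane.cuspFunction h f) := rfl

theorem taylorPS_congr {f g : ℂ → ℂ} (h : f =ᶠ[𝓝 0] g) : taylorPS f = taylorPS g := by
  ext n; simp only [coeff_taylorPS, h.iteratedDeriv_eq n]

theorem taylorPS_mul {f g : ℂ → ℂ} (hf : AnalyticAt ℂ f 0) (hg : AnalyticAt ℂ g 0) :
    taylorPS (f * g) = taylorPS f * taylorPS g := by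
  ext n
  simp only [coeff_taylorPS, iteratedDeriv_mul hf.contDiffAt hg.contDiffAt, Finset.mul_sum,
    PowerSeries.coeff_mul, Finset.Nat.sum_antidiagonal_eq_sum_range_succ_mk, Nat.succ_eq_add_one]
  refine Finset.sum_congr rfl fun i hi ↦ ?_
  rw [Nat.cast_choose _ (by grind)]
  field_simp [Nat.factorial_ne_zero]

theorem taylorPS_X_pow (m : ℕ) : taylorPS (fun q : ℂ => q ^ m) = PowerSeries.X ^ m := by
  ext n
  rw [coeff_taylorPS, PowerSeries.coeff_X_pow, iteratedDeriv_fun_pow_zero]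
  split_ifs with h
  · subst h
    have : (n.factorial : ℂ) ≠ 0 := by exact_mod_cast Nat.factorial_ne_zero n
    field_simp
  · simp

open UpperHalfPlane in
/-- An identity near `i∞` becomes an identity of cusp functions on a punctured neighbourhood
of `q = 0`. -/
theorem eventually_cuspFunction_of_atImInfty {A B : ℍ → ℂ} {W : ℂ → ℂ}
    (hAB : ∀ᶠ z in atImInfty, A z = B z * W (Function.Periodic.qParam 1 z)) :
    ∀ᶠ q in 𝓝[≠] (0 : ℂ), cuspFunction 1 A q = cuspFunction 1 B q * W q := by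
  have hinv := Function.Periodic.invQParam_tendsto (h := 1) one_pos
  have ht : Tendsto (fun q => ofComplex (Function.Periodic.invQParam 1 q)) (𝓝[≠] 0) atImInfty :=
    tendsto_comap_im_ofComplex.comp hinv
  have him : ∀ᶠ q in 𝓝[≠] (0 : ℂ), 0 < (Function.Periodic.invQParam 1 q).im :=
    (tendsto_comap_iff.mp hinv).eventually (eventually_gt_atTop 0)
  filter_upwards [ht.eventually hAB, him, self_mem_nhdsWithin] with q hq him hq0
  have e1 : ((ofComplex (Function.Periodic.invQParam 1 q) : ℍ) : ℂ) =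
      Function.Periodic.invQParam 1 q := by
    rw [ofComplex_apply_of_im_pos him]
  have e2 : Function.Periodic.qParam 1 (Function.Periodic.invQParam 1 q) = q :=
    Function.Periodic.qParam_right_inv one_ne_zero hq0
  simp only [cuspFunction, Function.Periodic.cuspFunction_eq_of_nonzero 1 _ hq0,
    Function.comp_apply]
  rw [hq, e1, e2]

open UpperHalfPlane in
/-- **The bridge.** If `A z = B z * W (𝕢 z)` near `i∞` and `q ^ m * W q` extends to a germ `U`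
analytic at `q = 0`, then `X ^ m * qExpansion 1 A = taylorPS U * qExpansion 1 B`. -/
theorem qExpansion_bridge {A B : ℍ → ℂ} {W U : ℂ → ℂ} (m : ℕ)
    (hA : AnalyticAt ℂ (cuspFunction 1 A) 0) (hB : AnalyticAt ℂ (cuspFunction 1 B) 0)
    (hU : AnalyticAt ℂ U 0) (hUW : ∀ᶠ q in 𝓝[≠] (0 : ℂ), U q = q ^ m * W q)
    (hAB : ∀ᶠ z in atImInfty, A z = B z * W (Function.Periodic.qParam 1 z)) :
    PowerSeries.X ^ m * qExpansion 1 A = taylorPS U * qExpansion 1 B := by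
  have h1 := eventually_cuspFunction_of_atImInfty hAB
  have h2 : (fun q : ℂ => q ^ m) * cuspFunction 1 A =ᶠ[𝓝[≠] 0] U * cuspFunction 1 B := by
    filter_upwards [h1, hUW] with q hq hu
    simp only [Pi.mul_apply]
    rw [hq, hu]; ring
  have hp : AnalyticAt ℂ (fun q : ℂ => q ^ m) 0 := by fun_prop
  have hc1 : ContinuousAt ((fun q : ℂ => q ^ m) * cuspFunction 1 A) 0 :=
    hp.continuousAt.mul hA.continuousAt
  have hc2 : ContinuousAt (U * cuspFunction 1 B) 0 := hU.continuousAt.mul hB.continuousAt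
  have h3 := (hc1.eventuallyEq_nhds_iff_eventuallyEq_nhdsNE hc2).mp h2
  have h4 := taylorPS_congr h3
  rw [taylorPS_mul hp hA, taylorPS_mul hU hB, taylorPS_X_pow] at h4
  exact h4

theorem analyticAt_wpU (L : PeriodPair) {φ : ℂ → ℂ} (hφ : AnalyticAt ℂ φ 0) (h0 : φ 0 = 0)
    (h1 : deriv φ 0 ≠ 0) : AnalyticAt ℂ (wpU L φ) 0 :=
  (relAt_wpU (T := ⊤) (L := L) (L₂ := L) ⟨hφ, hφ, fun _ => Algebra.mem_top⟩ h0 h0
    (e := ((deriv φ 0)⁻¹, (deriv φ 0)⁻¹)) Algebra.mem_top (inv_mul_cancel₀ h1)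
    (inv_mul_cancel₀ h1) (fun _ _ => Algebra.mem_top)).an₁

theorem analyticAt_wpV (L : PeriodPair) {φ : ℂ → ℂ} (hφ : AnalyticAt ℂ φ 0) (h0 : φ 0 = 0)
    (h1 : deriv φ 0 ≠ 0) : AnalyticAt ℂ (wpV L φ) 0 :=
  (relAt_wpV (T := ⊤) (L := L) (L₂ := L) ⟨hφ, hφ, fun _ => Algebra.mem_top⟩ h0 h0
    (e := ((deriv φ 0)⁻¹, (deriv φ 0)⁻¹)) Algebra.mem_top (inv_mul_cancel₀ h1)
    (inv_mul_cancel₀ h1) (fun _ _ => Algebra.mem_top)).an₁

theorem wpU_zero (L : PeriodPair) (φ : ℂ → ℂ) : wpU L φ 0 = ((deriv φ 0)⁻¹) ^ 2 := by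
  simp [wpU, dslope_same]

theorem wpV_zero (L : PeriodPair) (φ : ℂ → ℂ) : wpV L φ 0 = -2 * ((deriv φ 0)⁻¹) ^ 3 := by
  simp [wpV, dslope_same]

open UpperHalfPlane in
/-- The bridge for `℘`: `A z = B z * ℘[L] (φ (𝕢 z))` near `i∞` gives
`X ^ 2 * qExpansion 1 A = taylorPS (wpU L φ) * qExpansion 1 B`. -/
theorem qExpansion_bridge_wp (L : PeriodPair) {A B : ℍ → ℂ} {φ : ℂ → ℂ}
    (hA : AnalyticAt ℂ (cuspFunction 1 A) 0) (hB : AnalyticAt ℂ (cuspFunction 1 B) 0)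
    (hφ : AnalyticAt ℂ φ 0) (h0 : φ 0 = 0) (h1 : deriv φ 0 ≠ 0)
    (hAB : ∀ᶠ z in atImInfty, A z = B z * L.weierstrassP (φ (Function.Periodic.qParam 1 z))) :
    PowerSeries.X ^ 2 * qExpansion 1 A = taylorPS (wpU L φ) * qExpansion 1 B :=
  qExpansion_bridge (W := fun q => L.weierstrassP (φ q)) 2 hA hB (analyticAt_wpU L hφ h0 h1)
    (wpU_eventuallyEq L hφ h0 h1) hAB

open UpperHalfPlane in
/-- The bridge for `℘'`: `A z = B z * ℘'[L] (φ (𝕢 z))` near `i∞` gives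
`X ^ 3 * qExpansion 1 A = taylorPS (wpV L φ) * qExpansion 1 B`. -/
theorem qExpansion_bridge_wp' (L : PeriodPair) {A B : ℍ → ℂ} {φ : ℂ → ℂ}
    (hA : AnalyticAt ℂ (cuspFunction 1 A) 0) (hB : AnalyticAt ℂ (cuspFunction 1 B) 0)
    (hφ : AnalyticAt ℂ φ 0) (h0 : φ 0 = 0) (h1 : deriv φ 0 ≠ 0)
    (hAB : ∀ᶠ z in atImInfty,
      A z = B z * L.derivWeierstrassP (φ (Function.Periodic.qParam 1 z))) :
    PowerSeries.X ^ 3 * qExpansion 1 A = taylorPS (wpV L φ) * qExpansion 1 B :=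
  qExpansion_bridge (W := fun q => L.derivWeierstrassP (φ q)) 3 hA hB (analyticAt_wpV L hφ h0 h1)
    (wpV_eventuallyEq L hφ h0 h1) hAB

/-! ## The two subalgebras used by the consumers -/

/-- Pairs whose first component is rational: `RelAt ratT f f` says that `f` has rational
Taylor coefficients at `0`. -/
noncomputable def ratT : Subalgebra ℚ (ℂ × ℂ) := (⊥ : Subalgebra ℚ ℂ).comap (AlgHom.fst ℚ ℂ ℂ)

theorem mem_ratT {p : ℂ × ℂ} : p ∈ ratT ↔ ∃ r : ℚ, (r : ℂ) = p.1 := by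
  simp [ratT, Algebra.mem_bot]

/-- The graph of a ring endomorphism of `ℂ`: `RelAt (graphT σ) f f₂` says that the Taylor
coefficients of `f₂` at `0` are the `σ`-images of those of `f`. -/
noncomputable def graphT (σ : ℂ →+* ℂ) : Subalgebra ℚ (ℂ × ℂ) :=
  AlgHom.equalizer (σ.toRatAlgHom.comp (AlgHom.fst ℚ ℂ ℂ)) (AlgHom.snd ℚ ℂ ℂ)

theorem mem_graphT {σ : ℂ →+* ℂ} {p : ℂ × ℂ} : p ∈ graphT σ ↔ σ p.1 = p.2 := by
  simp [graphT, AlgHom.mem_equalizer]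

theorem iteratedDeriv_eq_factorial_mul_coeff (f : ℂ → ℂ) (n : ℕ) :
    iteratedDeriv n f 0 = (n.factorial : ℂ) * (taylorPS f).coeff n := by
  have : (n.factorial : ℂ) ≠ 0 := by exact_mod_cast Nat.factorial_ne_zero n
  rw [coeff_taylorPS]; field_simp

/-- `RelAt ratT f f` iff `f` is analytic at `0` with a rational Taylor series. -/
theorem relAt_ratT_iff {f : ℂ → ℂ} :
    RelAt ratT f f ↔
      AnalyticAt ℂ f 0 ∧ ∃ u : PowerSeries ℚ, u.map (algebraMap ℚ ℂ) = taylorPS f := by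
  constructor
  · intro h
    refine ⟨h.an₁, ?_⟩
    have hm : ∀ n, ∃ r : ℚ, (r : ℂ) = iteratedDeriv n f 0 := fun n => mem_ratT.mp (h.mem n)
    choose r hr using hm
    refine ⟨PowerSeries.mk fun n => ((n.factorial : ℚ))⁻¹ * r n, ?_⟩
    ext n
    simp [coeff_taylorPS, hr]
  · rintro ⟨ha, u, hu⟩
    refine ⟨ha, ha, fun n => mem_ratT.mpr ⟨(n.factorial : ℚ) * u.coeff n, ?_⟩⟩
    simp only [dPair]
    rw [iteratedDeriv_eq_factorial_mul_coeff, ← hu]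
    simp

/-- `RelAt (graphT σ) f f₂` iff both are analytic at `0` and the Taylor series of `f₂` is the
coefficientwise `σ`-image of that of `f`. -/
theorem relAt_graphT_iff {σ : ℂ →+* ℂ} {f f₂ : ℂ → ℂ} :
    RelAt (graphT σ) f f₂ ↔
      AnalyticAt ℂ f 0 ∧ AnalyticAt ℂ f₂ 0 ∧ (taylorPS f).map σ = taylorPS f₂ := by
  constructor
  · intro h
    refine ⟨h.an₁, h.an₂, ?_⟩
    ext n
    have := mem_graphT.mp (h.mem n)
    simp only [dPair] at this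
    simp [coeff_taylorPS, this]
  · rintro ⟨ha, ha₂, hu⟩
    refine ⟨ha, ha₂, fun n => mem_graphT.mpr ?_⟩
    simp only [dPair]
    rw [iteratedDeriv_eq_factorial_mul_coeff f, iteratedDeriv_eq_factorial_mul_coeff f₂, ← hu]
    simp

/-! ## Consumer forms -/

/-- **Rationality.** If `φ` has a rational Taylor series at `0`, `φ 0 = 0`, `φ' 0 ≠ 0`, and the
lattice sums `L.G n` (`n ≥ 3`) are rational, then `q ^ 2 * ℘[L] (φ q)` has a rational Taylor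
series at `0`. -/
theorem exists_rat_taylorPS_wpU (L : PeriodPair) {φ : ℂ → ℂ} (hφ : AnalyticAt ℂ φ 0)
    (h0 : φ 0 = 0) (h1 : deriv φ 0 ≠ 0)
    (hrat : ∃ p : PowerSeries ℚ, p.map (algebraMap ℚ ℂ) = taylorPS φ)
    (hG : ∀ n, 3 ≤ n → ∃ r : ℚ, (r : ℂ) = L.G n) :
    ∃ u : PowerSeries ℚ, u.map (algebraMap ℚ ℂ) = taylorPS (wpU L φ) := by
  have hR : RelAt ratT φ φ := relAt_ratT_iff.mpr ⟨hφ, hrat⟩
  obtain ⟨r, hr⟩ := mem_ratT.mp (hR.mem 1)
  simp only [dPair, iteratedDeriv_one] at hr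
  have he : (((deriv φ 0)⁻¹, (deriv φ 0)⁻¹) : ℂ × ℂ) ∈ ratT :=
    mem_ratT.mpr ⟨r⁻¹, by simp [hr]⟩
  exact (relAt_ratT_iff.mp (relAt_wpU hR h0 h0 he (inv_mul_cancel₀ h1) (inv_mul_cancel₀ h1)
    (fun n hn => mem_ratT.mpr (hG n hn)))).2

/-- **Rationality** for `q ^ 3 * ℘'[L] (φ q)`. -/
theorem exists_rat_taylorPS_wpV (L : PeriodPair) {φ : ℂ → ℂ} (hφ : AnalyticAt ℂ φ 0)
    (h0 : φ 0 = 0) (h1 : deriv φ 0 ≠ 0)
    (hrat : ∃ p : PowerSeries ℚ, p.map (algebraMap ℚ ℂ) = taylorPS φ)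
    (hG : ∀ n, 3 ≤ n → ∃ r : ℚ, (r : ℂ) = L.G n) :
    ∃ u : PowerSeries ℚ, u.map (algebraMap ℚ ℂ) = taylorPS (wpV L φ) := by
  have hR : RelAt ratT φ φ := relAt_ratT_iff.mpr ⟨hφ, hrat⟩
  obtain ⟨r, hr⟩ := mem_ratT.mp (hR.mem 1)
  simp only [dPair, iteratedDeriv_one] at hr
  have he : (((deriv φ 0)⁻¹, (deriv φ 0)⁻¹) : ℂ × ℂ) ∈ ratT :=
    mem_ratT.mpr ⟨r⁻¹, by simp [hr]⟩
  exact (relAt_ratT_iff.mp (relAt_wpV hR h0 h0 he (inv_mul_cancel₀ h1) (inv_mul_cancel₀ h1)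
    (fun n hn => mem_ratT.mpr (hG n hn)))).2

/-- **Equivariance.** If the Taylor series of `φ₂` is the `σ`-image of that of `φ` and
`σ (L.G n) = L₂.G n` for `n ≥ 3`, then the Taylor series of `q ^ 2 * ℘[L₂] (φ₂ q)` is the
`σ`-image of that of `q ^ 2 * ℘[L] (φ q)`. -/
theorem map_taylorPS_wpU (σ : ℂ →+* ℂ) {L L₂ : PeriodPair} {φ φ₂ : ℂ → ℂ}
    (hφ : AnalyticAt ℂ φ 0) (hφ₂ : AnalyticAt ℂ φ₂ 0) (h0 : φ 0 = 0) (h0₂ : φ₂ 0 = 0)
    (h1 : deriv φ 0 ≠ 0) (hσ : (taylorPS φ).map σ = taylorPS φ₂)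
    (hG : ∀ n, 3 ≤ n → σ (L.G n) = L₂.G n) :
    (taylorPS (wpU L φ)).map σ = taylorPS (wpU L₂ φ₂) := by
  have hR : RelAt (graphT σ) φ φ₂ := relAt_graphT_iff.mpr ⟨hφ, hφ₂, hσ⟩
  have hd : σ (deriv φ 0) = deriv φ₂ 0 := by
    have := mem_graphT.mp (hR.mem 1)
    simpa only [dPair, iteratedDeriv_one] using this
  have h1₂ : deriv φ₂ 0 ≠ 0 := by rw [← hd]; exact (map_ne_zero σ).mpr h1
  have he : (((deriv φ 0)⁻¹, (deriv φ₂ 0)⁻¹) : ℂ × ℂ) ∈ graphT σ :=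
    mem_graphT.mpr (by simp [map_inv₀, hd])
  exact (relAt_graphT_iff.mp (relAt_wpU hR h0 h0₂ he (inv_mul_cancel₀ h1) (inv_mul_cancel₀ h1₂)
    (fun n hn => mem_graphT.mpr (hG n hn)))).2.2

/-- **Equivariance** for `q ^ 3 * ℘'[L] (φ q)`. -/
theorem map_taylorPS_wpV (σ : ℂ →+* ℂ) {L L₂ : PeriodPair} {φ φ₂ : ℂ → ℂ}
    (hφ : AnalyticAt ℂ φ 0) (hφ₂ : AnalyticAt ℂ φ₂ 0) (h0 : φ 0 = 0) (h0₂ : φ₂ 0 = 0)
    (h1 : deriv φ 0 ≠ 0) (hσ : (taylorPS φ).map σ = taylorPS φ₂)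
    (hG : ∀ n, 3 ≤ n → σ (L.G n) = L₂.G n) :
    (taylorPS (wpV L φ)).map σ = taylorPS (wpV L₂ φ₂) := by
  have hR : RelAt (graphT σ) φ φ₂ := relAt_graphT_iff.mpr ⟨hφ, hφ₂, hσ⟩
  have hd : σ (deriv φ 0) = deriv φ₂ 0 := by
    have := mem_graphT.mp (hR.mem 1)
    simpa only [dPair, iteratedDeriv_one] using this
  have h1₂ : deriv φ₂ 0 ≠ 0 := by rw [← hd]; exact (map_ne_zero σ).mpr h1
  have he : (((deriv φ 0)⁻¹, (deriv φ₂ 0)⁻¹) : ℂ × ℂ) ∈ graphT σ :=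
    mem_graphT.mpr (by simp [map_inv₀, hd])
  exact (relAt_graphT_iff.mp (relAt_wpV hR h0 h0₂ he (inv_mul_cancel₀ h1) (inv_mul_cancel₀ h1₂)
    (fun n hn => mem_graphT.mpr (hG n hn)))).2.2

theorem coeff_zero_taylorPS_wpU (L : PeriodPair) (φ : ℂ → ℂ) :
    (taylorPS (wpU L φ)).coeff 0 = ((deriv φ 0)⁻¹) ^ 2 := by
  simp [coeff_taylorPS, wpU_zero]

theorem coeff_zero_taylorPS_wpV (L : PeriodPair) (φ : ℂ → ℂ) :
    (taylorPS (wpV L φ)).coeff 0 = -2 * ((deriv φ 0)⁻¹) ^ 3 := by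
  simp [coeff_taylorPS, wpV_zero]

end Fermat.Agent.S58.helper1650
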