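/-
helper1661 — S58 leaf AUTC (board #971), glue for the `Aut(ℂ)`-descent of route #1886 step 2.

Contents.
* (A1) `exists_rat_of_forall_ringEquiv_fixed` : a complex number fixed by every ring
  automorphism of `ℂ` is rational.  (`exists_ringEquiv_extending` : extension of ring
  automorphisms of a polynomial ring on a transcendence basis.)
* (A2) `sigmaTwist` : for a ring endomorphism `σ` of `ℂ` and a cusp form `f` of level `Γ₀(N)` and
  weight `k` (given `CuspForm.HasIntegralStructure N k`), the cusp form whose `q`-expansion is the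
  coefficientwise `σ`-image of that of `f`.
* (A3) transport of `q`-expansion identities `qexp A = X * qexp B` in `LaurentSeries ℂ`.
-/
import Mathlib
import Fermat.Prelude.Def_FLTPrelim_Modularity
import Fermat.Prelude.Def_CuspForm_IntegralStructure
import Fermat.Agent.Lib.helper229_HeckeLattice

set_option autoImplicit false

namespace Fermat.Agent.S58.helper1661

noncomputable section

/-! ### (A1) The fixed field of `Aut(ℂ)` is `ℚ` -/

section AutC

/-- Every ring automorphism of the polynomial ring on a transcendence basis of `ℂ` over a domain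
`R` extends to a ring automorphism of `ℂ`. -/
theorem exists_ringEquiv_extending {R : Type*} [CommRing R] [IsDomain R] [Algebra R ℂ]
    {ι : Type*} (v : ι → ℂ) (hv : IsTranscendenceBasis R v)
    (e : MvPolynomial ι R ≃+* MvPolynomial ι R) :
    ∃ σ : ℂ ≃+* ℂ, ∀ p : MvPolynomial ι R,
      σ (MvPolynomial.aeval v p) = MvPolynomial.aeval v (e p) := by
  have := IsAlgClosed.isAlgClosure_of_transcendence_basis v hv
  let eA : Algebra.adjoin R (Set.range v) ≃+* Algebra.adjoin R (Set.range v) :=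
    hv.1.aevalEquiv.symm.toRingEquiv.trans (e.trans hv.1.aevalEquiv.toRingEquiv)
  refine ⟨IsAlgClosure.equivOfEquiv ℂ ℂ eA, fun p => ?_⟩
  have h1 : ∀ p : MvPolynomial ι R, MvPolynomial.aeval v p =
      algebraMap (Algebra.adjoin R (Set.range v)) ℂ (hv.1.aevalEquiv p) := fun p =>
    (hv.1.algebraMap_aevalEquiv p).symm
  rw [h1 p, IsAlgClosure.equivOfEquiv_algebraMap, h1 (e p)]
  simp [eA]

/-- Translation automorphism `X i ↦ X i + c i` of a polynomial ring. -/
def shiftEquiv {ι : Type*} (c : ι → ℚ) : MvPolynomial ι ℚ ≃ₐ[ℚ] MvPolynomial ι ℚ :=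
  AlgEquiv.ofAlgHom (MvPolynomial.aeval fun i => MvPolynomial.X i + MvPolynomial.C (c i))
    (MvPolynomial.aeval fun i => MvPolynomial.X i - MvPolynomial.C (c i))
    (by ext i; simp) (by ext i; simp)

theorem shiftEquiv_X {ι : Type*} (c : ι → ℚ) (i : ι) :
    shiftEquiv c (MvPolynomial.X i) = MvPolynomial.X i + MvPolynomial.C (c i) := by
  simp [shiftEquiv]

/-- A transcendental complex number is moved by some ring automorphism of `ℂ`. -/
theorem exists_ringEquiv_ne_of_transcendental (x : ℂ) (hx : Transcendental ℚ x) :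
    ∃ σ : ℂ ≃+* ℂ, σ x ≠ x := by
  classical
  have hs : AlgebraicIndepOn ℚ id ({x} : Set ℂ) :=
    (algebraicIndependent_singleton_iff (⟨x, rfl⟩ : ({x} : Set ℂ))).2 hx
  obtain ⟨t, hst, ht⟩ := exists_isTranscendenceBasis_superset hs
  have hxt : x ∈ t := hst (Set.mem_singleton x)
  let c : t → ℚ := fun i => if i = ⟨x, hxt⟩ then 1 else 0
  obtain ⟨σ, hσ⟩ := exists_ringEquiv_extending (R := ℚ) ((↑) : t → ℂ) ht
    (shiftEquiv c).toRingEquiv
  refine ⟨σ, ?_⟩
  have h := hσ (MvPolynomial.X ⟨x, hxt⟩)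
  simp only [MvPolynomial.aeval_X, AlgEquiv.coe_ringEquiv,
    shiftEquiv_X, map_add, MvPolynomial.aeval_C] at h
  rw [h]
  simp [c]

/-- An algebraic irrational complex number is moved by some ring automorphism of `ℂ`. -/
theorem exists_rat_of_isAlgebraic_of_fixed (x : ℂ) (hx : IsAlgebraic ℚ x)
    (h : ∀ σ : ℂ ≃+* ℂ, σ x = x) : ∃ r : ℚ, x = (r : ℂ) := by
  let k : IntermediateField ℚ ℂ := algebraicClosure ℚ ℂ
  have hcl : IsAlgClosure ℚ k := algebraicClosure.isAlgClosure ℚ ℂ
  have hgal : IsGalois ℚ k := inferInstance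
  have hxk : x ∈ k := mem_algebraicClosure_iff.2 hx
  obtain ⟨ι, v, hv⟩ := exists_isTranscendenceBasis' k ℂ
  have hfix : ∀ f : Gal(k/ℚ), f ⟨x, hxk⟩ = ⟨x, hxk⟩ := by
    intro f
    obtain ⟨σ, hσ⟩ := exists_ringEquiv_extending (R := k) v hv
      (MvPolynomial.mapEquiv ι f.toRingEquiv)
    have h2 := hσ (MvPolynomial.C ⟨x, hxk⟩)
    simp only [MvPolynomial.aeval_C, MvPolynomial.mapEquiv_apply, MvPolynomial.map_C] at h2
    have h3 : σ x = ((f ⟨x, hxk⟩ : k) : ℂ) := h2
    rw [h σ] at h3
    exact Subtype.ext h3.symm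
  obtain ⟨r, hr⟩ := (InfiniteGalois.mem_range_algebraMap_iff_fixed (k := ℚ) (K := k) ⟨x, hxk⟩).2 hfix
  refine ⟨r, ?_⟩
  have := congrArg (Subtype.val) hr
  simpa using this.symm

/-- **(A1)** A complex number fixed by every ring automorphism of `ℂ` is rational. -/
theorem exists_rat_of_forall_ringEquiv_fixed (x : ℂ) (h : ∀ σ : ℂ ≃+* ℂ, σ x = x) :
    ∃ r : ℚ, x = (r : ℂ) := by
  by_cases hx : IsAlgebraic ℚ x
  · exact exists_rat_of_isAlgebraic_of_fixed x hx h
  · obtain ⟨σ, hσ⟩ := exists_ringEquiv_ne_of_transcendental x hx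
    exact absurd (h σ) hσ

end AutC

/-! ### Coefficientwise maps of Laurent series -/

section LaurentMap

variable {R S T : Type*} [Semiring R] [Semiring S] [Semiring T]

/-- The coefficientwise map of Laurent series induced by a ring homomorphism. -/
def laurentMap (σ : R →+* S) : LaurentSeries R →+* LaurentSeries S where
  toFun x := x.map σ
  map_one' := by
    ext n
    simp only [HahnSeries.map_coeff, HahnSeries.coeff_one]
    split_ifs <;> simp
  map_mul' x y := HahnSeries.map_mul σ.toNonUnitalRingHom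
  map_zero' := by
    ext n
    simp
  map_add' x y := by
    ext n
    simp

@[simp] theorem laurentMap_coeff (σ : R →+* S) (x : LaurentSeries R) (n : ℤ) :
    (laurentMap σ x).coeff n = σ (x.coeff n) := by
  simp [laurentMap]

theorem laurentMap_ofPowerSeries (σ : R →+* S) (p : PowerSeries R) :
    laurentMap σ (HahnSeries.ofPowerSeries ℤ R p) =
      HahnSeries.ofPowerSeries ℤ S (PowerSeries.map σ p) := by
  ext n
  have h1 := PowerSeries.coeff_coe (R := R) p n
  have h2 := PowerSeries.coeff_coe (R := S) (PowerSeries.map σ p) n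
  rw [laurentMap_coeff]
  erw [h1, h2]
  split_ifs
  · exact map_zero σ
  · rw [PowerSeries.coeff_map]

theorem laurentMap_single (σ : R →+* S) (n : ℤ) (r : R) :
    laurentMap σ (HahnSeries.single n r) = HahnSeries.single n (σ r) := by
  ext m
  simp only [laurentMap_coeff, HahnSeries.coeff_single]
  split_ifs <;> simp

theorem laurentMap_comp (τ : S →+* T) (σ : R →+* S) (x : LaurentSeries R) :
    laurentMap τ (laurentMap σ x) = laurentMap (τ.comp σ) x := by
  ext n
  simp

theorem laurentMap_id (x : LaurentSeries R) : laurentMap (RingHom.id R) x = x := by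
  ext n
  simp

theorem laurentMap_injective (σ : R →+* S) (hσ : Function.Injective σ) :
    Function.Injective (laurentMap σ) := by
  intro x y h
  ext n
  have := congrArg (fun z => HahnSeries.coeff z n) h
  exact hσ (by simpa using this)

end LaurentMap

/-! ### (A2) `σ`-twists of cusp forms -/

section Twist

open ModularFormClass CongruenceSubgroup UpperHalfPlane
open Fermat.Agent.Lib.helper229

variable {N : ℕ} {k : ℤ}

theorem qCoeff_add (f g : CuspForm (Gamma0 N) k) (n : ℕ) :
    qCoeff (⇑(f + g)) n = qCoeff f n + qCoeff g n :=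
  map_add (qCoeffLin N k n) f g

theorem qCoeff_sub (f g : CuspForm (Gamma0 N) k) (n : ℕ) :
    qCoeff (⇑(f - g)) n = qCoeff f n - qCoeff g n :=
  map_sub (qCoeffLin N k n) f g

theorem qCoeff_smul (c : ℂ) (f : CuspForm (Gamma0 N) k) (n : ℕ) :
    qCoeff (⇑(c • f)) n = c * qCoeff f n :=
  map_smul (qCoeffLin N k n) c f

theorem qCoeff_zero (n : ℕ) : qCoeff (⇑(0 : CuspForm (Gamma0 N) k)) n = 0 :=
  map_zero (qCoeffLin N k n)

/-- **(A2)**, existence: given the integral structure on `S_k(Γ₀(N))`, for every ring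
endomorphism `σ` of `ℂ` and every cusp form `f` there is a cusp form whose `q`-coefficients are
the `σ`-images of those of `f`. -/
theorem exists_sigma_cuspForm (hint : CuspForm.HasIntegralStructure N k) (σ : ℂ →+* ℂ)
    (f : CuspForm (Gamma0 N) k) :
    ∃ f' : CuspForm (Gamma0 N) k, ∀ n : ℕ, qCoeff f' n = σ (qCoeff f n) := by
  have hf : f ∈ Submodule.span ℂ
      ((CuspForm.intLattice N k : Submodule ℤ (CuspForm (Gamma0 N) k)) :
        Set (CuspForm (Gamma0 N) k)) := by
    have h : Submodule.span ℂ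
      ((CuspForm.intLattice N k : Submodule ℤ (CuspForm (Gamma0 N) k)) :
        Set (CuspForm (Gamma0 N) k)) = ⊤ := hint
    rw [h]
    exact Submodule.mem_top
  induction hf using Submodule.span_induction with
  | mem x hx =>
    refine ⟨x, fun n => ?_⟩
    obtain ⟨m, hm⟩ := intQ_of_mem_intLattice hx n
    rw [hm, map_intCast]
  | zero =>
    refine ⟨0, fun n => ?_⟩
    rw [qCoeff_zero, map_zero]
  | add x y _ _ hx hy =>
    obtain ⟨x', hx'⟩ := hx
    obtain ⟨y', hy'⟩ := hy
    refine ⟨x' + y', fun n => ?_⟩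
    rw [qCoeff_add, hx', hy', qCoeff_add, map_add]
  | smul c x _ hx =>
    obtain ⟨x', hx'⟩ := hx
    refine ⟨σ c • x', fun n => ?_⟩
    rw [qCoeff_smul, hx', qCoeff_smul, map_mul]

/-- The `σ`-twist of a cusp form: the cusp form with `q`-coefficients `σ (a_n)`. -/
def sigmaTwist (hint : CuspForm.HasIntegralStructure N k) (σ : ℂ →+* ℂ)
    (f : CuspForm (Gamma0 N) k) : CuspForm (Gamma0 N) k :=
  Classical.choose (exists_sigma_cuspForm hint σ f)

theorem qCoeff_sigmaTwist (hint : CuspForm.HasIntegralStructure N k) (σ : ℂ →+* ℂ)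
    (f : CuspForm (Gamma0 N) k) (n : ℕ) :
    qCoeff (sigmaTwist hint σ f) n = σ (qCoeff f n) :=
  Classical.choose_spec (exists_sigma_cuspForm hint σ f) n

/-- A cusp form of level `Γ₀(N)` is determined by its `q`-coefficients. -/
theorem cuspForm_ext_qCoeff {f g : CuspForm (Gamma0 N) k}
    (h : ∀ n : ℕ, qCoeff f n = qCoeff g n) : f = g := by
  rw [← sub_eq_zero]
  refine eq_zero_of_forall_qCoeff_eq_zero _ fun n => ?_
  rw [qCoeff_sub, h n, sub_self]

/-- Characterisation of the twist. -/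
theorem sigmaTwist_eq_of_qCoeff (hint : CuspForm.HasIntegralStructure N k) (σ : ℂ →+* ℂ)
    (f g : CuspForm (Gamma0 N) k) (h : ∀ n : ℕ, qCoeff g n = σ (qCoeff f n)) :
    sigmaTwist hint σ f = g :=
  cuspForm_ext_qCoeff fun n => by rw [qCoeff_sigmaTwist, h n]

theorem qExpansion_sigmaTwist (hint : CuspForm.HasIntegralStructure N k) (σ : ℂ →+* ℂ)
    (f : CuspForm (Gamma0 N) k) :
    qExpansion 1 (sigmaTwist hint σ f) = PowerSeries.map σ (qExpansion 1 f) := by
  ext n
  rw [PowerSeries.coeff_map]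
  exact qCoeff_sigmaTwist hint σ f n

theorem sigmaTwist_zero (hint : CuspForm.HasIntegralStructure N k) (σ : ℂ →+* ℂ) :
    sigmaTwist hint σ (0 : CuspForm (Gamma0 N) k) = 0 :=
  sigmaTwist_eq_of_qCoeff hint σ 0 0 fun n => by
    rw [qCoeff_zero, map_zero]

theorem sigmaTwist_add (hint : CuspForm.HasIntegralStructure N k) (σ : ℂ →+* ℂ)
    (f g : CuspForm (Gamma0 N) k) :
    sigmaTwist hint σ (f + g) = sigmaTwist hint σ f + sigmaTwist hint σ g :=
  sigmaTwist_eq_of_qCoeff hint σ _ _ fun n => by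
    rw [qCoeff_add, qCoeff_sigmaTwist, qCoeff_sigmaTwist, qCoeff_add, map_add]

theorem sigmaTwist_smul (hint : CuspForm.HasIntegralStructure N k) (σ : ℂ →+* ℂ) (c : ℂ)
    (f : CuspForm (Gamma0 N) k) :
    sigmaTwist hint σ (c • f) = σ c • sigmaTwist hint σ f :=
  sigmaTwist_eq_of_qCoeff hint σ _ _ fun n => by
    rw [qCoeff_smul, qCoeff_sigmaTwist, qCoeff_smul, map_mul]

/-- The twist as a `σ`-semilinear map. -/
def sigmaTwistₛₗ (hint : CuspForm.HasIntegralStructure N k) (σ : ℂ →+* ℂ) :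
    CuspForm (Gamma0 N) k →ₛₗ[σ] CuspForm (Gamma0 N) k where
  toFun := sigmaTwist hint σ
  map_add' := sigmaTwist_add hint σ
  map_smul' := sigmaTwist_smul hint σ

@[simp] theorem sigmaTwistₛₗ_apply (hint : CuspForm.HasIntegralStructure N k) (σ : ℂ →+* ℂ)
    (f : CuspForm (Gamma0 N) k) : sigmaTwistₛₗ hint σ f = sigmaTwist hint σ f := rfl

theorem sigmaTwist_eq_zero_iff (hint : CuspForm.HasIntegralStructure N k) (σ : ℂ →+* ℂ)
    (f : CuspForm (Gamma0 N) k) : sigmaTwist hint σ f = 0 ↔ f = 0 := by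
  constructor
  · intro h
    refine eq_zero_of_forall_qCoeff_eq_zero _ fun n => ?_
    have h1 := qCoeff_sigmaTwist hint σ f n
    rw [h, qCoeff_zero] at h1
    exact (map_eq_zero σ).1 h1.symm
  · rintro rfl
    exact sigmaTwist_zero hint σ

theorem sigmaTwist_ne_zero (hint : CuspForm.HasIntegralStructure N k) (σ : ℂ →+* ℂ)
    {f : CuspForm (Gamma0 N) k} (hf : f ≠ 0) : sigmaTwist hint σ f ≠ 0 :=
  fun h => hf ((sigmaTwist_eq_zero_iff hint σ f).1 h)

theorem sigmaTwist_comp (hint : CuspForm.HasIntegralStructure N k) (τ σ : ℂ →+* ℂ)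
    (f : CuspForm (Gamma0 N) k) :
    sigmaTwist hint τ (sigmaTwist hint σ f) = sigmaTwist hint (τ.comp σ) f :=
  cuspForm_ext_qCoeff fun n => by
    rw [qCoeff_sigmaTwist, qCoeff_sigmaTwist, qCoeff_sigmaTwist, RingHom.comp_apply]

theorem sigmaTwist_id (hint : CuspForm.HasIntegralStructure N k) (f : CuspForm (Gamma0 N) k) :
    sigmaTwist hint (RingHom.id ℂ) f = f :=
  cuspForm_ext_qCoeff fun n => by rw [qCoeff_sigmaTwist, RingHom.id_apply]

/-- Forms with integral `q`-expansion are fixed by every twist. -/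
theorem sigmaTwist_of_intQ (hint : CuspForm.HasIntegralStructure N k) (σ : ℂ →+* ℂ)
    {f : CuspForm (Gamma0 N) k} (hf : ∀ n : ℕ, ∃ m : ℤ, qCoeff f n = (m : ℂ)) :
    sigmaTwist hint σ f = f :=
  sigmaTwist_eq_of_qCoeff hint σ f f fun n => by
    obtain ⟨m, hm⟩ := hf n
    rw [hm, map_intCast]

/-- The Laurent-series form of `qExpansion_sigmaTwist`. -/
theorem laurent_qExpansion_sigmaTwist (hint : CuspForm.HasIntegralStructure N k) (σ : ℂ →+* ℂ)
    (f : CuspForm (Gamma0 N) k) :
    HahnSeries.ofPowerSeries ℤ ℂ (qExpansion 1 (sigmaTwist hint σ f)) =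
      laurentMap σ (HahnSeries.ofPowerSeries ℤ ℂ (qExpansion 1 f)) := by
  rw [qExpansion_sigmaTwist, laurentMap_ofPowerSeries]

/-- **(A3)** Transport of a `q`-expansion identity `qexp A = X * qexp B` along `σ`. -/
theorem sigma_transport (hint : CuspForm.HasIntegralStructure N k) (σ : ℂ →+* ℂ)
    (A B : CuspForm (Gamma0 N) k) (X : LaurentSeries ℂ)
    (h : HahnSeries.ofPowerSeries ℤ ℂ (qExpansion 1 A) =
      X * HahnSeries.ofPowerSeries ℤ ℂ (qExpansion 1 B)) :
    HahnSeries.ofPowerSeries ℤ ℂ (qExpansion 1 (sigmaTwist hint σ A)) =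
      laurentMap σ X * HahnSeries.ofPowerSeries ℤ ℂ (qExpansion 1 (sigmaTwist hint σ B)) := by
  rw [laurent_qExpansion_sigmaTwist, laurent_qExpansion_sigmaTwist, h, map_mul]

/-- **(A3')** Power-series version: `qexp A * Q = P * qexp B` is transported along `σ`. -/
theorem sigma_transport_powerSeries (hint : CuspForm.HasIntegralStructure N k) (σ : ℂ →+* ℂ)
    (A B : CuspForm (Gamma0 N) k) (P Q : PowerSeries ℂ)
    (h : qExpansion 1 A * Q = P * qExpansion 1 B) :
    qExpansion 1 (sigmaTwist hint σ A) * PowerSeries.map σ Q =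
      PowerSeries.map σ P * qExpansion 1 (sigmaTwist hint σ B) := by
  rw [qExpansion_sigmaTwist, qExpansion_sigmaTwist, ← map_mul, ← map_mul, h]

end Twist

end

end Fermat.Agent.S58.helper1661
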