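/-
helper2214: S58-LATTICE (route #1886, step 1; backup of board #793).

The period group of a normalized weight-two eigenform on `Γ₀(M)` with integer `q`-coefficients is
a lattice in `ℂ` (`periodLattice`), unconditionally: the Hecke operators on `Hom(Γ₀(M), A)` and
their compatibility with the period map are the landed S16 files of helper2876, the
Eichler–Shimura isomorphism is the landed S21.

Proof: (1) real coefficients give `P(jγ) = -conj (P γ)`, hence `periodHomPair (c₁ g, c₂ g)` is
`2 i c₁ Im P + 2 c₂ Re P` and `Re P`, `Im P` are independent by injectivity in S21;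
(2) coefficient multiplicity one identifies the parabolic eigenspace of the eigenvalues of `g`
with `periodHomPair (ℂ g × ℂ g)`; (3) the image of `P` is a finitely generated torsion-free
group, and the integral coordinates of `P` in a `ℤ`-basis of it lie in that eigenspace (the Hecke
operators are natural in the coefficient group), so the rank is at most two; with (1) it is
exactly two and the two basis vectors are `ℝ`-independent.
-/
import Fermat.Agent.S21
import Fermat.Agent.S21.helper921_Injective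
import Fermat.Agent.S16.helper2876_PeriodEquiv
import Fermat.Agent.S29.helper7617_Integrality

set_option autoImplicit false

namespace Fermat.Agent.S58.helper2214

open ModularCurve ModularCurve.Period CongruenceSubgroup UpperHalfPlane Filter Topology
open ModularFormClass
open scoped MatrixGroups ComplexConjugate

section Abstract

variable {G : Type*} [AddGroup G]

/-- A complex-valued homomorphism with finitely generated image decomposes along a `ℤ`-basis of
its image, with integer-valued coordinate homomorphisms and dual elements. -/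
theorem exists_decomposition (P : G →+ ℂ) (hfg : P.range.FG) :
    ∃ (r : ℕ) (e : Fin r → ℂ) (ψ : Fin r → (G →+ ℤ)) (x : Fin r → G),
      LinearIndependent ℤ e ∧ (∀ g, P g = ∑ j, ((ψ j g : ℤ) : ℂ) * e j) ∧
      (∀ i j, ψ j (x i) = if i = j then 1 else 0) ∧ (∀ i, P (x i) = e i) := by
  classical
  set S : Submodule ℤ ℂ := AddSubgroup.toIntSubmodule P.range with hS
  have hSfg : S.FG := by
    rw [Submodule.fg_iff_addSubgroup_fg]
    exact hfg
  have : Module.Finite ℤ S := Module.Finite.of_fg hSfg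
  have : Module.Free ℤ S := Module.free_of_finite_type_torsion_free'
  let b := Module.finBasis ℤ S
  have hmem : ∀ g, P g ∈ S := fun g => ⟨g, rfl⟩
  have hx : ∀ i, ∃ g, P g = (b i : ℂ) := fun i => (b i).2
  choose x hx using hx
  refine ⟨Module.finrank ℤ S, fun j => (b j : ℂ),
    fun j => AddMonoidHom.mk' (fun g => b.repr ⟨P g, hmem g⟩ j) ?_, x, ?_, ?_, ?_, hx⟩
  · intro g h
    have : (⟨P (g + h), hmem (g + h)⟩ : S) = ⟨P g, hmem g⟩ + ⟨P h, hmem h⟩ :=
      Subtype.ext (map_add P g h)
    rw [this, map_add]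
    exact Finsupp.add_apply _ _ _
  · have := b.linearIndependent.map' S.subtype (Submodule.ker_subtype S)
    exact this
  · intro g
    have h1 := b.sum_repr ⟨P g, hmem g⟩
    have h2 : ((∑ i, (b.repr ⟨P g, hmem g⟩) i • b i : S) : ℂ) = P g :=
      congrArg (Subtype.val : S → ℂ) h1
    calc P g = ((∑ i, (b.repr ⟨P g, hmem g⟩) i • b i : S) : ℂ) := h2.symm
      _ = ∑ i, (((b.repr ⟨P g, hmem g⟩) i • b i : S) : ℂ) := Submodule.coe_sum _ _ _
      _ = _ := Finset.sum_congr rfl (fun i _ => by
        rw [Submodule.coe_smul, zsmul_eq_mul]; rfl)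
  · intro i j
    have : (⟨P (x i), hmem (x i)⟩ : S) = b i := Subtype.ext (hx i)
    simp only [AddMonoidHom.mk'_apply]
    rw [this, Module.Basis.repr_self, Finsupp.single_apply]

/-- The real-bilinear "cross product" criterion used below. -/
theorem false_of_cross (P : G →+ ℂ)
    (hspan : ∀ a b : ℝ, (∀ x, a * (P x).re + b * (P x).im = 0) → a = 0 ∧ b = 0)
    (e₀ : ℂ) (he₀ : e₀ ≠ 0) (h : ∀ x, e₀.im * (P x).re - e₀.re * (P x).im = 0) : False := by
  obtain ⟨h1, h2⟩ := hspan e₀.im (-e₀.re) (fun x => by rw [neg_mul, ← sub_eq_add_neg]; exact h x)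
  exact he₀ (Complex.ext (by simpa using h2) (by simpa using h1))

/-- **Abstract lattice criterion.**  Let `P : G →+ ℂ` have finitely generated image which is not
contained in a real line, and suppose the integral coordinate homomorphisms of `P` (with respect
to any `ℤ`-independent family) all lie in a class `Good` in which any three members are
`ℂ`-linearly dependent.  Then the image of `P` is a lattice in `ℂ`. -/
theorem lattice_criterion (P : G →+ ℂ) (hfg : P.range.FG)
    (hspan : ∀ a b : ℝ, (∀ x, a * (P x).re + b * (P x).im = 0) → a = 0 ∧ b = 0)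
    (Good : (G →+ ℤ) → Prop)
    (hgood : ∀ (r : ℕ) (e : Fin r → ℂ) (ψ : Fin r → (G →+ ℤ)), LinearIndependent ℤ e →
      (∀ g, P g = ∑ j, ((ψ j g : ℤ) : ℂ) * e j) → ∀ j, Good (ψ j))
    (hdim : ∀ ψ₁ ψ₂ ψ₃ : G →+ ℤ, Good ψ₁ → Good ψ₂ → Good ψ₃ →
      ∃ c₁ c₂ c₃ : ℂ, (c₁ ≠ 0 ∨ c₂ ≠ 0 ∨ c₃ ≠ 0) ∧
        ∀ g, c₁ * ((ψ₁ g : ℤ) : ℂ) + c₂ * ((ψ₂ g : ℤ) : ℂ) + c₃ * ((ψ₃ g : ℤ) : ℂ) = 0) :
    ∃ ω₁ ω₂ : ℂ, LinearIndependent ℝ ![ω₁, ω₂] ∧ P.range = AddSubgroup.closure {ω₁, ω₂} := by
  obtain ⟨r, e, ψ, x, hli, hP, hdual, hPx⟩ := exists_decomposition P hfg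
  have hG := hgood r e ψ hli hP
  have hr2 : r ≤ 2 := by
    by_contra hr
    have h3 : 3 ≤ r := by omega
    obtain ⟨c₁, c₂, c₃, hne, hc⟩ :=
      hdim _ _ _ (hG ⟨0, by omega⟩) (hG ⟨1, by omega⟩) (hG ⟨2, by omega⟩)
    have h0 := hc (x ⟨0, by omega⟩)
    have h1 := hc (x ⟨1, by omega⟩)
    have h2 := hc (x ⟨2, by omega⟩)
    simp only [hdual, Fin.mk.injEq] at h0 h1 h2
    norm_num at h0 h1 h2
    rcases hne with h | h | h
    · exact h h0
    · exact h h1
    · exact h h2
  interval_cases r
  · -- rank 0: P = 0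
    have hP0 : ∀ g, P g = 0 := fun g => by rw [hP g]; simp
    have := (hspan 1 0 (fun g => by rw [hP0 g]; simp)).1
    exact absurd this one_ne_zero
  · -- rank 1: the image lies on a real line
    exfalso
    refine false_of_cross P hspan (e 0) (hli.ne_zero 0) (fun g => ?_)
    rw [hP g]
    simp only [Fin.sum_univ_one, Complex.mul_re, Complex.mul_im, Complex.intCast_re,
      Complex.intCast_im]
    ring
  · -- rank 2
    have hPg : ∀ g, P g = ((ψ 0 g : ℤ) : ℂ) * e 0 + ((ψ 1 g : ℤ) : ℂ) * e 1 := fun g => by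
      rw [hP g, Fin.sum_univ_two]
    have hcross : (e 0).re * (e 1).im - (e 0).im * (e 1).re ≠ 0 := by
      intro h0
      refine false_of_cross P hspan (e 0) (hli.ne_zero 0) (fun g => ?_)
      rw [hPg g]
      simp only [Complex.add_re, Complex.add_im, Complex.mul_re, Complex.mul_im,
        Complex.intCast_re, Complex.intCast_im]
      linear_combination (-(ψ 1 g : ℝ)) * h0
    refine ⟨e 0, e 1, ?_, ?_⟩
    · rw [LinearIndependent.pair_iff]
      intro s t hst
      have hre := congrArg Complex.re hst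
      have him := congrArg Complex.im hst
      simp only [Complex.add_re, Complex.add_im, Complex.real_smul, Complex.mul_re,
        Complex.mul_im, Complex.ofReal_re, Complex.ofReal_im, Complex.zero_re,
        Complex.zero_im, zero_mul, sub_zero, add_zero] at hre him
      constructor
      · have : s * ((e 0).re * (e 1).im - (e 0).im * (e 1).re) = 0 := by
          linear_combination (e 1).im * hre - (e 1).re * him
        exact (mul_eq_zero.mp this).resolve_right hcross
      · have : t * ((e 0).re * (e 1).im - (e 0).im * (e 1).re) = 0 := by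
          linear_combination (e 0).re * him - (e 0).im * hre
        exact (mul_eq_zero.mp this).resolve_right hcross
    · apply le_antisymm
      · rintro _ ⟨g, rfl⟩
        rw [AddSubgroup.mem_closure_pair]
        refine ⟨ψ 0 g, ψ 1 g, ?_⟩
        rw [hPg g]
        simp [zsmul_eq_mul]
      · rw [AddSubgroup.closure_le]
        rintro z (rfl | rfl)
        · exact ⟨x 0, hPx 0⟩
        · exact ⟨x 1, hPx 1⟩

end Abstract

section Concrete

variable {M : ℕ} [NeZero M]

/-- A cusp form with real `q`-coefficients satisfies `conj (g (-conj τ)) = g τ`. -/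
theorem conj_apply_J_smul (g : CuspForm (Gamma0 M) 2)
    (hreal : ∀ n, conj (qCoeff g n) = qCoeff g n) (τ : ℍ) :
    conj (g (J • τ)) = g τ := by
  have hΓ := S49.helper529.hΓ0 M
  have h1 := ModularForm.hasSum_qExpansion (h := 1) g one_pos hΓ τ
  have h2 := ModularForm.hasSum_qExpansion (h := 1) g one_pos hΓ (J • τ)
  have hq : Function.Periodic.qParam 1 ((J • τ : ℍ) : ℂ)
      = conj (Function.Periodic.qParam 1 (τ : ℂ)) := by
    rw [coe_J_smul]
    unfold Function.Periodic.qParam
    rw [← Complex.exp_conj]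
    congr 1
    simp only [map_div₀, map_mul, Complex.conj_ofReal, Complex.conj_I, map_ofNat]
    ring
  rw [hq] at h2
  have h3 := (Complex.hasSum_conj').mpr h2
  refine h3.unique ?_
  convert h1 using 2 with m
  rw [map_mul, map_pow, Complex.conj_conj]
  congr 1
  exact hreal m

/-- For a cusp form with real `q`-coefficients, the equivariant primitive satisfies
`conj (F (-conj z)) = -F z`. -/
theorem reflConj_primitive (g : CuspForm (Gamma0 M) 2)
    (hreal : ∀ n, conj (qCoeff g n) = qCoeff g n) {F : ℍ → ℂ}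
    (hF : HasEquivariantPrimitive M g F) (z : ℍ) :
    S21.helper921.reflConj F z = -F z := by
  set D : ℍ → ℂ := fun z => F z + S21.helper921.reflConj F z with hD
  have hder : ∀ τ : ℍ, HasDerivAt (D ∘ ofComplex) 0 (τ : ℂ) := by
    intro τ
    have h1 := hF.1 τ
    have h2 := S21.helper921.hasDerivAt_reflConj hF.1 τ
    have h3 := h1.add h2
    rw [conj_apply_J_smul g hreal τ, add_neg_cancel] at h3
    exact h3
  have hconst : ∀ w : ℍ, D w = D z := fun w => S21.helper21.eq_of_hasDerivAt_zero hder w z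
  have hlim : Tendsto D atImInfty (𝓝 (0 + conj 0)) := by
    refine hF.2.1.add ?_
    have h1 : Tendsto (fun w : ℍ => F (J • w)) atImInfty (𝓝 0) :=
      hF.2.1.comp S21.helper921.tendsto_J_smul
    exact (Complex.continuous_conj.tendsto 0).comp h1
  have hlim' : Tendsto D atImInfty (𝓝 (D z)) := by
    have : D = fun _ => D z := funext hconst
    rw [this]
    exact tendsto_const_nhds
  have h0 : D z = 0 + conj 0 := tendsto_nhds_unique hlim' hlim
  rw [map_zero, add_zero] at h0
  exact eq_neg_of_add_eq_zero_right h0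

/-- For a cusp form with real `q`-coefficients, the involution `γ ↦ jConj γ` acts on the period
homomorphism by `-conj`. -/
theorem periodMap_jConj (g : CuspForm (Gamma0 M) 2)
    (hreal : ∀ n, conj (qCoeff g n) = qCoeff g n) (γ : Gamma0 M) :
    periodMap M g (Additive.ofMul (jConjGamma0 M γ))
      = -conj (periodMap M g (Additive.ofMul γ)) := by
  obtain ⟨F, hF⟩ := S21.helper21.stmtA M g
  have h1 := S21.helper921.reflConj_sub_eq hF γ UpperHalfPlane.I
  have h2 := S21.helper921.primitive_sub_eq_periodMap hF γ UpperHalfPlane.I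
  rw [reflConj_primitive g hreal hF, reflConj_primitive g hreal hF] at h1
  have h3 : conj (periodMap M g (Additive.ofMul (jConjGamma0 M γ)))
      = -(periodMap M g (Additive.ofMul γ)) := by
    rw [← h1, ← h2]; ring
  have h4 := congrArg conj h3
  rw [Complex.conj_conj, map_neg] at h4
  exact h4

/-! ### Coefficient multiplicity one -/

theorem heckeFormsGen_apply_of_dvd {q : Nat.Primes} (hq : (q : ℕ) ∣ M)
    (f : CuspForm (Gamma0 M) 2) :
    (CuspForm.heckeFormsGen M 2 q).1 f = CuspForm.heckeULin 2 hq f := by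
  rw [CuspForm.heckeFormsGen_of_dvd hq]
  rfl

theorem heckeFormsGen_apply_of_not_dvd {q : Nat.Primes} (hq : ¬ (q : ℕ) ∣ M)
    (f : CuspForm (Gamma0 M) 2) :
    (CuspForm.heckeFormsGen M 2 q).1 f = CuspForm.heckeTLin 2 q.2 hq f := by
  rw [CuspForm.heckeFormsGen_of_not_dvd hq]
  rfl

/-- A simultaneous eigenvector of all Hecke generators (`T_ℓ` for `ℓ ∤ M`, `U_ℓ` for `ℓ ∣ M`)
whose first `q`-coefficient vanishes is zero. -/
theorem eq_zero_of_eigen (lam : Nat.Primes → ℂ) (h : CuspForm (Gamma0 M) 2)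
    (heig : ∀ ℓ : Nat.Primes, (CuspForm.heckeFormsGen M 2 ℓ).1 h = lam ℓ • h)
    (h1 : qCoeff h 1 = 0) : h = 0 := by
  apply S49.helper529.eq_zero_of_qCoeff_eq_zero
  intro n
  induction n using Nat.strong_induction_on with
  | _ n ih =>
    rcases Nat.lt_or_ge n 2 with hn | hn
    · interval_cases n
      · exact S49.helper529.qCoeff_zero_eq h
      · exact h1
    · obtain ⟨p, hp, hpn⟩ := Nat.exists_prime_and_dvd (show n ≠ 1 by omega)
      obtain ⟨m, rfl⟩ := hpn
      have hm0 : 0 < m := by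
        rcases Nat.eq_zero_or_pos m with h0 | h0
        · subst h0; omega
        · exact h0
      have hm : m < p * m := by
        have := hp.two_le
        nlinarith
      have e := heig ⟨p, hp⟩
      by_cases hpM : p ∣ M
      · rw [heckeFormsGen_apply_of_dvd (q := ⟨p, hp⟩) hpM] at e
        have e' := S49.helper529.qCoeff_heckeULin hp.ne_zero hpM h m
        rw [e, S49.helper529.qCoeff_smulC, ih m hm, mul_zero] at e'
        rw [mul_comm p m]
        exact e'.symm
      · rw [heckeFormsGen_apply_of_not_dvd (q := ⟨p, hp⟩) hpM] at e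
        have e' := S49.helper529.qCoeff_heckeTLin hp hpM h m
        rw [e, S49.helper529.qCoeff_smulC, ih m hm, mul_zero] at e'
        have h2 : (if p ∣ m then (p : ℂ) * qCoeff (⇑h) (m / p) else 0) = 0 := by
          split_ifs with hpm
          · rw [ih (m / p) (lt_of_le_of_lt (Nat.div_le_self m p) hm), mul_zero]
          · rfl
        rw [h2, add_zero] at e'
        rw [mul_comm p m]
        exact e'.symm

/-- **Coefficient multiplicity one**: a cusp form having the same Hecke eigenvalues as the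
normalized eigenform `g` (for all generators, `U_ℓ` included) is a multiple of `g`. -/
theorem eq_smul_of_eigen {g : CuspForm (Gamma0 M) 2} (hg : g.IsNormalizedEigenform)
    (f : CuspForm (Gamma0 M) 2)
    (heig : ∀ ℓ : Nat.Primes, (CuspForm.heckeFormsGen M 2 ℓ).1 f = qCoeff g ℓ • f) :
    f = qCoeff f 1 • g := by
  have hgeig : ∀ ℓ : Nat.Primes, (CuspForm.heckeFormsGen M 2 ℓ).1 g = qCoeff g ℓ • g := by
    intro ℓ
    by_cases hℓ : (ℓ : ℕ) ∣ M
    · rw [heckeFormsGen_apply_of_dvd hℓ]
      exact S29.helper7617.heckeULin_apply_eq_smul hg ℓ.2 hℓ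
    · rw [heckeFormsGen_apply_of_not_dvd hℓ]
      exact S29.helper7617.heckeTLin_apply_eq_smul hg ℓ.2 hℓ
  have h0 : f - qCoeff f 1 • g = 0 := by
    refine eq_zero_of_eigen (fun ℓ => qCoeff g ℓ) _ (fun ℓ => ?_) ?_
    · rw [map_sub, map_smul, heig ℓ, hgeig ℓ, smul_sub, smul_comm]
    · rw [S49.helper529.qCoeff_subC, S49.helper529.qCoeff_smulC, hg.qCoeff_one, mul_one,
        sub_self]
  exact sub_eq_zero.mp h0

/-! ### Hecke operators on homomorphisms and the eigenspace of `g` -/

theorem periodMap_smul (c : ℂ) (f : CuspForm (Gamma0 M) 2) :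
    periodMap M (c • f) = c • periodMap M f := by
  obtain ⟨pml, hpml⟩ := S21.helper921.existsPeriodMapLinear_of_A (S21.helper21.stmtA M)
  rw [← hpml, ← hpml, map_smul]

theorem heckeHomGen_periodHomPair (q : Nat.Primes) (f h : CuspForm (Gamma0 M) 2) :
    S16.helper2876.heckeHomGen M ℂ q (periodHomPair M (f, h))
      = periodHomPair M
          ((CuspForm.heckeFormsGen M 2 q).1 f, (CuspForm.heckeFormsGen M 2 q).1 h) := by
  rw [S21.helper21.periodHomPair_apply, S21.helper21.periodHomPair_apply, map_add, map_add,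
    map_sub, S16.helper2876.heckeHomGen_charInvolution, S16.helper2876.heckeHomGen_charInvolution,
    ← S16.helper2876.periodMap_heckeFormsGen, ← S16.helper2876.periodMap_heckeFormsGen]

/-- A parabolic homomorphism which is an eigenvector of all Hecke operators with the eigenvalues
of the normalized eigenform `g` is of the form `periodHomPair (c₁ g, c₂ g)`. -/
theorem exists_eq_periodHomPair_of_eigen {g : CuspForm (Gamma0 M) 2}
    (hg : g.IsNormalizedEigenform) (φ : Additive (Gamma0 M) →+ ℂ)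
    (hpar : φ ∈ parabolicHoms ℂ (Gamma0 M) ℂ)
    (heig : ∀ q : Nat.Primes, S16.helper2876.heckeHomGen M ℂ q φ = qCoeff g q • φ) :
    ∃ c₁ c₂ : ℂ, φ = periodHomPair M (c₁ • g, c₂ • g) := by
  have hrange := (S21.result M).2
  have hinj := (S21.result M).1
  rw [← hrange] at hpar
  obtain ⟨⟨f, h⟩, rfl⟩ := hpar
  have key : ∀ q : Nat.Primes, (CuspForm.heckeFormsGen M 2 q).1 f = qCoeff g q • f ∧
      (CuspForm.heckeFormsGen M 2 q).1 h = qCoeff g q • h := by
    intro q
    have e := heig q
    rw [heckeHomGen_periodHomPair, ← map_smul] at e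
    have e' := hinj e
    exact ⟨congrArg Prod.fst e', congrArg Prod.snd e'⟩
  refine ⟨qCoeff f 1, qCoeff h 1, ?_⟩
  rw [← eq_smul_of_eigen hg f (fun q => (key q).1), ← eq_smul_of_eigen hg h (fun q => (key q).2)]

/-- Explicit formula for `periodHomPair (c₁ g, c₂ g)` when `g` has real coefficients. -/
theorem periodHomPair_smul_smul_apply (g : CuspForm (Gamma0 M) 2)
    (hreal : ∀ n, conj (qCoeff g n) = qCoeff g n) (c₁ c₂ : ℂ) (γ : Gamma0 M) :
    periodHomPair M (c₁ • g, c₂ • g) (Additive.ofMul γ)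
      = c₁ * (periodMap M g (Additive.ofMul γ) - conj (periodMap M g (Additive.ofMul γ)))
        + c₂ * (periodMap M g (Additive.ofMul γ) + conj (periodMap M g (Additive.ofMul γ))) := by
  rw [S21.helper21.periodHomPair_apply, periodMap_smul, periodMap_smul, map_smul, map_smul]
  simp only [AddMonoidHom.add_apply, AddMonoidHom.sub_apply, AddMonoidHom.smul_apply,
    charInvolution_apply, smul_eq_mul, toMul_ofMul]
  rw [periodMap_jConj g hreal γ]
  ring

/-- The real and imaginary parts of the period homomorphism of a rational normalized eigenform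
are `ℝ`-linearly independent. -/
theorem re_im_independent {g : CuspForm (Gamma0 M) 2} (hg : g.IsNormalizedEigenform)
    (hreal : ∀ n, conj (qCoeff g n) = qCoeff g n) (a b : ℝ)
    (h : ∀ x : Additive (Gamma0 M),
      a * (periodMap M g x).re + b * (periodMap M g x).im = 0) : a = 0 ∧ b = 0 := by
  have hg0 : g ≠ 0 := S29.helper7617.ne_zero_of_isNormalizedEigenform hg
  have hz : periodHomPair M ((-Complex.I * ((b : ℂ) / 2)) • g, ((a : ℂ) / 2) • g) = 0 := by
    refine AddMonoidHom.ext fun γ => ?_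
    obtain ⟨γ, rfl⟩ := Additive.ofMul.surjective γ
    rw [periodHomPair_smul_smul_apply g hreal, Complex.sub_conj, Complex.add_conj]
    have h' : ((a * (periodMap M g (Additive.ofMul γ)).re
        + b * (periodMap M g (Additive.ofMul γ)).im : ℝ) : ℂ) = 0 := by
      rw [h]; rfl
    push_cast at h' ⊢
    rw [AddMonoidHom.zero_apply]
    linear_combination h' - ((b : ℂ) * (periodMap M g (Additive.ofMul γ)).im) * Complex.I_mul_I
  have h2 := (S21.result M).1 (hz.trans (map_zero (periodHomPair M)).symm)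
  have h3 := congrArg Prod.fst h2
  have h4 := congrArg Prod.snd h2
  simp only [Prod.fst_zero, Prod.snd_zero, smul_eq_zero, hg0, or_false] at h3 h4
  constructor
  · have : (a : ℂ) = 0 := by linear_combination 2 * h4
    exact_mod_cast this
  · have : (b : ℂ) = 0 := by linear_combination (2 * Complex.I) * h3 + (b : ℂ) * Complex.I_mul_I
    exact_mod_cast this

/-! ### Integral descent of the eigenspace -/

/-- The integral coordinate homomorphisms of the period homomorphism of a rational normalized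
eigenform, with respect to a `ℤ`-independent family, again lie in the eigenspace of `g`. -/
theorem good_of_decomposition {g : CuspForm (Gamma0 M) 2} (hg : g.IsNormalizedEigenform)
    (hZ : ∀ n, ∃ a : ℤ, qCoeff g n = a)
    (r : ℕ) (e : Fin r → ℂ) (ψ : Fin r → (Additive (Gamma0 M) →+ ℤ))
    (hli : LinearIndependent ℤ e)
    (hP : ∀ γ, periodMap M g γ = ∑ j, ((ψ j γ : ℤ) : ℂ) * e j) (j : Fin r) :
    ∃ c₁ c₂ : ℂ, (Int.castAddHom ℂ).comp (ψ j) = periodHomPair M (c₁ • g, c₂ • g) := by
  have hind : ∀ n : Fin r → ℤ, ∑ j, ((n j : ℤ) : ℂ) * e j = 0 → ∀ j, n j = 0 := by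
    intro n hn
    refine Fintype.linearIndependent_iff.mp hli n ?_
    rw [← hn]
    exact Finset.sum_congr rfl (fun j _ => zsmul_eq_mul _ _)
  have hpar : ∀ j, IsParabolicHom (Gamma0 M) (ψ j) := by
    intro j γ hγ
    have h0 : periodMap M g (Additive.ofMul γ) = 0 := S21.helper21.stmtB M g γ hγ
    rw [hP] at h0
    exact hind (fun j => ψ j (Additive.ofMul γ)) h0 j
  -- the Hecke eigen-relation descends to the integral coordinates
  have heigZ : ∀ (q : Nat.Primes) (a : ℤ), qCoeff g q = a → ∀ j γ,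
      S16.helper2876.heckeHomGen M ℤ q (ψ j) γ = a * ψ j γ := by
    intro q a ha j γ
    set m : Fin r → (ℤ →+ ℂ) :=
      fun j => (AddMonoidHom.mulRight (e j)).comp (Int.castAddHom ℂ) with hm
    have hPsum : periodMap M g = ∑ j, (m j).comp (ψ j) := by
      refine AddMonoidHom.ext fun γ => ?_
      rw [hP γ, AddMonoidHom.finsetSum_apply]
      rfl
    have h1 : S16.helper2876.heckeHomGen M ℂ q (periodMap M g) = (a : ℂ) • periodMap M g := by
      have hgq : (CuspForm.heckeFormsGen M 2 q).1 g = qCoeff g q • g := by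
        by_cases hℓ : (q : ℕ) ∣ M
        · rw [heckeFormsGen_apply_of_dvd hℓ]
          exact S29.helper7617.heckeULin_apply_eq_smul hg q.2 hℓ
        · rw [heckeFormsGen_apply_of_not_dvd hℓ]
          exact S29.helper7617.heckeTLin_apply_eq_smul hg q.2 hℓ
      rw [← S16.helper2876.periodMap_heckeFormsGen, hgq, periodMap_smul, ha]
    have h2 : S16.helper2876.heckeHomGen M ℂ q (periodMap M g)
        = ∑ j, (m j).comp (S16.helper2876.heckeHomGen M ℤ q (ψ j)) := by
      conv_lhs => rw [hPsum]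
      rw [map_sum]
      exact Finset.sum_congr rfl (fun j _ => S16.helper2876.heckeHomGen_comp q (m j) (ψ j))
    have h3 := congrArg (fun φ : Additive (Gamma0 M) →+ ℂ => φ γ) (h2.symm.trans h1)
    simp only [AddMonoidHom.finsetSum_apply, AddMonoidHom.smul_apply, smul_eq_mul] at h3
    rw [hP γ, Finset.mul_sum] at h3
    have h4 : ∑ j, (((S16.helper2876.heckeHomGen M ℤ q (ψ j) γ - a * ψ j γ : ℤ) : ℤ) : ℂ) * e j
        = 0 := by
      have h5 : ∀ j, (((S16.helper2876.heckeHomGen M ℤ q (ψ j) γ - a * ψ j γ : ℤ) : ℤ) : ℂ) * e j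
          = (m j).comp (S16.helper2876.heckeHomGen M ℤ q (ψ j)) γ
            - (a : ℂ) * (((ψ j γ : ℤ) : ℂ) * e j) := by
        intro j
        simp only [hm, AddMonoidHom.comp_apply, Int.coe_castAddHom, AddMonoidHom.mulRight_apply]
        push_cast
        ring
      rw [Finset.sum_congr rfl (fun j _ => h5 j), Finset.sum_sub_distrib, h3, sub_self]
    have h6 := hind _ h4 j
    exact sub_eq_zero.mp h6
  -- apply the complex eigenspace description to the complexification of `ψ j`
  refine exists_eq_periodHomPair_of_eigen hg _ ?_ ?_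
  · intro γ hγ
    show ((ψ j (Additive.ofMul γ) : ℤ) : ℂ) = 0
    rw [hpar j γ hγ, Int.cast_zero]
  · intro q
    obtain ⟨a, ha⟩ := hZ q
    rw [S16.helper2876.heckeHomGen_comp]
    refine AddMonoidHom.ext fun γ => ?_
    rw [AddMonoidHom.comp_apply, heigZ q a ha j γ, ha, AddMonoidHom.smul_apply,
      AddMonoidHom.comp_apply]
    simp

omit [NeZero M] in
/-- Any three members of the eigenspace of `g` are linearly dependent. -/
theorem dependent_of_good (g : CuspForm (Gamma0 M) 2)
    (ψ₁ ψ₂ ψ₃ : Additive (Gamma0 M) →+ ℤ)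
    (h₁ : ∃ c₁ c₂ : ℂ, (Int.castAddHom ℂ).comp ψ₁ = periodHomPair M (c₁ • g, c₂ • g))
    (h₂ : ∃ c₁ c₂ : ℂ, (Int.castAddHom ℂ).comp ψ₂ = periodHomPair M (c₁ • g, c₂ • g))
    (h₃ : ∃ c₁ c₂ : ℂ, (Int.castAddHom ℂ).comp ψ₃ = periodHomPair M (c₁ • g, c₂ • g)) :
    ∃ c₁ c₂ c₃ : ℂ, (c₁ ≠ 0 ∨ c₂ ≠ 0 ∨ c₃ ≠ 0) ∧
      ∀ γ, c₁ * ((ψ₁ γ : ℤ) : ℂ) + c₂ * ((ψ₂ γ : ℤ) : ℂ) + c₃ * ((ψ₃ γ : ℤ) : ℂ) = 0 := by
  obtain ⟨a₁, b₁, e₁⟩ := h₁
  obtain ⟨a₂, b₂, e₂⟩ := h₂
  obtain ⟨a₃, b₃, e₃⟩ := h₃
  have hdep : ¬ LinearIndependent ℂ ![(a₁, b₁), (a₂, b₂), ((a₃, b₃) : ℂ × ℂ)] := by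
    intro hli
    have := hli.fintype_card_le_finrank
    simp at this
  rw [Fintype.not_linearIndependent_iff] at hdep
  obtain ⟨c, hc, i, hi⟩ := hdep
  rw [Fin.sum_univ_three] at hc
  have hc1 : c 0 * a₁ + c 1 * a₂ + c 2 * a₃ = 0 := by simpa using congrArg Prod.fst hc
  have hc2 : c 0 * b₁ + c 1 * b₂ + c 2 * b₃ = 0 := by simpa using congrArg Prod.snd hc
  refine ⟨c 0, c 1, c 2, ?_, fun γ => ?_⟩
  · fin_cases i
    · exact Or.inl hi
    · exact Or.inr (Or.inl hi)
    · exact Or.inr (Or.inr hi)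
  · have k₁ := congrArg (fun φ : Additive (Gamma0 M) →+ ℂ => φ γ) e₁
    have k₂ := congrArg (fun φ : Additive (Gamma0 M) →+ ℂ => φ γ) e₂
    have k₃ := congrArg (fun φ : Additive (Gamma0 M) →+ ℂ => φ γ) e₃
    simp only [AddMonoidHom.comp_apply, Int.coe_castAddHom] at k₁ k₂ k₃
    rw [k₁, k₂, k₃]
    have hsum : c 0 • periodHomPair M (a₁ • g, b₁ • g) + c 1 • periodHomPair M (a₂ • g, b₂ • g)
        + c 2 • periodHomPair M (a₃ • g, b₃ • g) = 0 := by
      rw [← map_smul, ← map_smul, ← map_smul, ← map_add, ← map_add]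
      have : c 0 • (a₁ • g, b₁ • g) + c 1 • (a₂ • g, b₂ • g) + c 2 • (a₃ • g, b₃ • g)
          = ((0 : CuspForm (Gamma0 M) 2), (0 : CuspForm (Gamma0 M) 2)) := by
        simp only [Prod.smul_mk, Prod.mk_add_mk, smul_smul, ← add_smul, hc1, hc2, zero_smul]
      rw [this]
      exact map_zero _
    have := congrArg (fun φ : Additive (Gamma0 M) →+ ℂ => φ γ) hsum
    simpa only [AddMonoidHom.add_apply, AddMonoidHom.smul_apply, smul_eq_mul,
      AddMonoidHom.zero_apply] using this

end Concrete

/-- **Step 1 of the modular parametrisation (period lattice).**  The group of periods of a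
normalized weight-two eigenform on `Γ₀(M)` with integer `q`-coefficients is a lattice in `ℂ`. -/
theorem periodLattice (M : ℕ) [NeZero M] (g : CuspForm (Gamma0 M) 2)
    (hg : g.IsNormalizedEigenform) (hZ : ∀ n, ∃ a : ℤ, qCoeff g n = a) :
    ∃ ω₁ ω₂ : ℂ, LinearIndependent ℝ ![ω₁, ω₂] ∧
      (periodMap M g).range = AddSubgroup.closure {ω₁, ω₂} := by
  have hreal : ∀ n, conj (qCoeff g n) = qCoeff g n := fun n => by
    obtain ⟨a, ha⟩ := hZ n
    rw [ha, map_intCast]
  have hfg : (periodMap M g).range.FG := by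
    have h1 : Group.FG (Gamma0 M) := S21.helper2438.fg_Gamma0 M
    have h2 : AddGroup.FG (Additive (Gamma0 M)) := GroupFG.iff_add_fg.mp h1
    exact (AddGroup.fg_iff_addSubgroup_fg _).mp (AddGroup.fg_range _)
  exact lattice_criterion (periodMap M g) hfg (re_im_independent hg hreal)
    (fun ψ => ∃ c₁ c₂ : ℂ, (Int.castAddHom ℂ).comp ψ = periodHomPair M (c₁ • g, c₂ • g))
    (fun r e ψ hli hP j => good_of_decomposition hg hZ r e ψ hli hP j)
    (fun ψ₁ ψ₂ ψ₃ h₁ h₂ h₃ => dependent_of_good g ψ₁ ψ₂ ψ₃ h₁ h₂ h₃)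

/-- Bundled form: for `c ≠ 0` there is a Mathlib `PeriodPair` whose lattice is exactly the set of
`c`-multiples of the periods of `g` (`c = 2πi` gives the periods of `∑ aₙ qⁿ / n`). -/
theorem exists_periodPair (M : ℕ) [NeZero M] (g : CuspForm (Gamma0 M) 2)
    (hg : g.IsNormalizedEigenform) (hZ : ∀ n, ∃ a : ℤ, qCoeff g n = a) (c : ℂ) (hc : c ≠ 0) :
    ∃ L : PeriodPair, ∀ x : ℂ,
      x ∈ L.lattice ↔ ∃ γ : Additive (Gamma0 M), x = c * periodMap M g γ := by
  obtain ⟨ω₁, ω₂, hli, hrange⟩ := periodLattice M g hg hZ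
  have hli' : LinearIndependent ℝ ![c * ω₁, c * ω₂] := by
    rw [LinearIndependent.pair_iff] at hli ⊢
    intro s t h
    apply hli s t
    have : c * (s • ω₁ + t • ω₂) = 0 := by
      rw [← h]
      simp only [Complex.real_smul]
      ring
    exact (mul_eq_zero.mp this).resolve_left hc
  refine ⟨⟨c * ω₁, c * ω₂, hli'⟩, fun x => ?_⟩
  rw [PeriodPair.mem_lattice]
  constructor
  · rintro ⟨m, n, rfl⟩
    have hmem : (m : ℂ) * ω₁ + n * ω₂ ∈ (periodMap M g).range := by
      rw [hrange, AddSubgroup.mem_closure_pair]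
      exact ⟨m, n, by simp [zsmul_eq_mul]⟩
    obtain ⟨γ, hγ⟩ := hmem
    exact ⟨γ, by rw [hγ]; ring⟩
  · rintro ⟨γ, rfl⟩
    have hmem : periodMap M g γ ∈ (periodMap M g).range := ⟨γ, rfl⟩
    rw [hrange, AddSubgroup.mem_closure_pair] at hmem
    obtain ⟨m, n, hmn⟩ := hmem
    refine ⟨m, n, ?_⟩
    rw [← hmn]
    simp only [zsmul_eq_mul]
    ring

/-- Consumer form in terms of an equivariant primitive `F` of `g`: the lattice of
`c`-multiples of the periods `F (γ z) - F z`. -/
theorem exists_periodPair_of_primitive (M : ℕ) [NeZero M] (g : CuspForm (Gamma0 M) 2)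
    (hg : g.IsNormalizedEigenform) (hZ : ∀ n, ∃ a : ℤ, qCoeff g n = a) (c : ℂ) (hc : c ≠ 0)
    {F : ℍ → ℂ} (hF : HasEquivariantPrimitive M g F) :
    ∃ L : PeriodPair,
      (∀ γ : Gamma0 M, c * hF.2.2.1.period γ ∈ L.lattice) ∧
      (∀ (γ : Gamma0 M) (z : ℍ), c * F ((γ : SL(2, ℤ)) • z) - c * F z ∈ L.lattice) ∧
      (∀ x ∈ L.lattice, ∃ γ : Gamma0 M, x = c * hF.2.2.1.period γ) := by
  obtain ⟨L, hL⟩ := exists_periodPair M g hg hZ c hc
  have hper : ∀ γ : Gamma0 M, periodMap M g (Additive.ofMul γ) = hF.2.2.1.period γ := by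
    intro γ
    rw [S21.helper921.periodMap_eq_of_primitive hF]
    rfl
  refine ⟨L, fun γ => ?_, fun γ z => ?_, fun x hx => ?_⟩
  · exact (hL _).mpr ⟨Additive.ofMul γ, by rw [hper]⟩
  · refine (hL _).mpr ⟨Additive.ofMul γ, ?_⟩
    rw [← S21.helper921.primitive_sub_eq_periodMap hF γ z]
    ring
  · obtain ⟨γ, hγ⟩ := (hL x).mp hx
    obtain ⟨γ, rfl⟩ := Additive.ofMul.surjective γ
    exact ⟨γ, by rw [hγ, hper]⟩

end Fermat.Agent.S58.helper2214
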