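import Mathlib

/-!
# S58, step 6: transfer lemmas between two torsion modules (helper2508)

Route #1886 compares the Galois modules `W[m]` and `E_g[m]` (`m` prime) only through Frobenius
elements `τ` at auxiliary primes `r`, for which the Frobenius Cayley–Hamilton relation gives
`τ ^ 2 - t τ + r = 0` on BOTH modules, with the same `t` and with `r = χ(τ)` the action of `τ`
on `μ_m` (put `ζ_m` into the comparison field).  Annihilation alone does not give the
characteristic polynomial of `τ`, but together with `det = χ` it is enough for everything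
step 6 needs.  This file contains the two purely algebraic statements.

If `σ = τ ^ k` and `τ = σ ^ j` (weak Chebotarev: every cyclic subgroup is generated by a
Frobenius), then:

* `unipotent_transfer` (T1): if `χ(σ) = 1` and `σ` is unipotent on `V₁`, then `σ` is unipotent
  on `V₂`;
* `trace_transfer` (T2): if `σ` kills `x ^ 2 - a x + l` on `V₁` and `x ^ 2 - b x + l` on `V₂`,
  `l = χ(σ)`, then `a = b`.

Both are stated first for endomorphisms `A`, `B` of two nontrivial modules over a field
(`A ^ j`, `B ^ j` play the role of `τ`), then for group actions.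
-/

set_option autoImplicit false

namespace Fermat.Agent.S58.helper2508

open Polynomial

section Ring

variable {R : Type*} [Ring R]

/-- Powers of a unipotent element (`(x - 1) ^ 2 = 0`) are unipotent. -/
theorem sq_pow_sub_one_eq_zero {x : R} (h : (x - 1) ^ 2 = 0) (k : ℕ) : (x ^ k - 1) ^ 2 = 0 := by
  have h1 : x ^ k - 1 = (∑ i ∈ Finset.range k, x ^ i) * (x - 1) := (geom_sum_mul x k).symm
  have h2 : x ^ k - 1 = (x - 1) * ∑ i ∈ Finset.range k, x ^ i := (mul_geom_sum x k).symm
  calc (x ^ k - 1) ^ 2 = (x ^ k - 1) * (x ^ k - 1) := sq _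
    _ = ((∑ i ∈ Finset.range k, x ^ i) * (x - 1)) * ((x - 1) * ∑ i ∈ Finset.range k, x ^ i) := by
        rw [← h1, ← h2]
    _ = (∑ i ∈ Finset.range k, x ^ i) * (x - 1) ^ 2 * ∑ i ∈ Finset.range k, x ^ i := by
        rw [sq]; simp only [mul_assoc]
    _ = 0 := by rw [h]; simp

end Ring

section Endomorphisms

variable {F : Type*} [Field F]
variable {V₁ V₂ : Type*} [AddCommGroup V₁] [Module F V₁] [AddCommGroup V₂] [Module F V₂]

/-- **(T1) Unipotent transfer.**  `A` is unipotent on `V₁ ≠ 0`; `A ^ j` and `B ^ j` kill the same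
quadratic `x ^ 2 - t x + 1`; `B` is a power of `B ^ j`.  Then `B` is unipotent. -/
theorem unipotent_transfer [Nontrivial V₁] (A : Module.End F V₁) (B : Module.End F V₂) (t : F)
    (j k : ℕ) (hA : (A - 1) ^ 2 = 0) (hBjk : B ^ (j * k) = B)
    (hAj : (A ^ j) ^ 2 - t • A ^ j + 1 = 0) (hBj : (B ^ j) ^ 2 - t • B ^ j + 1 = 0) :
    (B - 1) ^ 2 = 0 := by
  have hX : (A ^ j - 1) ^ 2 = 0 := sq_pow_sub_one_eq_zero hA j
  have hX' : (A ^ j) ^ 2 - (2 : F) • A ^ j + 1 = 0 := by
    have : (A ^ j - 1) ^ 2 = (A ^ j) ^ 2 - (2 : F) • A ^ j + 1 := by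
      rw [sq, sq, sub_mul, mul_sub, mul_sub, mul_one, one_mul, one_mul, ofNat_smul_eq_nsmul, two_nsmul]
      abel
    rw [← this]; exact hX
  have ht : t = 2 := by
    by_contra hne
    have h3 : (t - 2) • A ^ j = 0 := by
      have : (t - 2) • A ^ j = ((A ^ j) ^ 2 - (2 : F) • A ^ j + 1) - ((A ^ j) ^ 2 - t • A ^ j + 1) := by
        rw [sub_smul]; abel
      rw [this, hX', hAj, sub_zero]
    have h4 : A ^ j = 0 := by
      rcases smul_eq_zero.mp h3 with h | h
      · exact absurd (sub_eq_zero.mp h) hne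
      · exact h
    rw [h4] at hAj
    simp at hAj
  subst ht
  have hY : (B ^ j - 1) ^ 2 = 0 := by
    have : (B ^ j - 1) ^ 2 = (B ^ j) ^ 2 - (2 : F) • B ^ j + 1 := by
      rw [sq, sq, sub_mul, mul_sub, mul_sub, mul_one, one_mul, one_mul, ofNat_smul_eq_nsmul, two_nsmul]
      abel
    rw [this]; exact hBj
  have := sq_pow_sub_one_eq_zero hY k
  rwa [← pow_mul, hBjk] at this

/-- Evaluate a polynomial identity for an endomorphism at a root of its minimal polynomial. -/
theorem aeval_root_eq_zero {V : Type*} [AddCommGroup V] [Module F V] (A : Module.End F V)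
    {Ω : Type*} [Field Ω] [Algebra F Ω] {lam : Ω} (hlam : aeval lam (minpoly F A) = 0)
    (q : F[X]) (hq : aeval A q = 0) : aeval lam q = 0 := by
  obtain ⟨c, hc⟩ := minpoly.dvd F A hq
  rw [hc, map_mul, hlam, zero_mul]

/-- An endomorphism of a nontrivial module killed by a monic polynomial has an "eigenvalue" in
any algebraically closed extension: a root of its minimal polynomial. -/
theorem exists_root_minpoly {V : Type*} [AddCommGroup V] [Module F V] [Nontrivial V]
    (A : Module.End F V) (p : F[X]) (hp : p.Monic) (hpA : aeval A p = 0)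
    (Ω : Type*) [Field Ω] [Algebra F Ω] [IsAlgClosed Ω] :
    ∃ lam : Ω, aeval lam (minpoly F A) = 0 := by
  have hint : IsIntegral F A := ⟨p, hp, hpA⟩
  have hdeg : (minpoly F A).degree ≠ 0 := (minpoly.degree_pos hint).ne'
  exact IsAlgClosed.exists_aeval_eq_zero Ω _ hdeg

/-- The root data used in `trace_transfer`: an "eigenvalue" `x` of `C` in an algebraic closure,
with the three polynomial identities satisfied by `C` evaluated at `x`. -/
theorem exists_root_data {V : Type*} [AddCommGroup V] [Module F V] [Nontrivial V]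
    (C : Module.End F V) (c l t : F) (j k : ℕ)
    (h1 : C ^ 2 - c • C + l • (1 : Module.End F V) = 0) (h2 : C ^ (j * k) = C)
    (h3 : (C ^ j) ^ 2 - t • C ^ j + l ^ j • (1 : Module.End F V) = 0)
    (Ω : Type*) [Field Ω] [Algebra F Ω] [IsAlgClosed Ω] :
    ∃ x : Ω, x ^ 2 - algebraMap F Ω c * x + algebraMap F Ω l = 0 ∧ x ^ (j * k) = x ∧
      (x ^ j) ^ 2 - algebraMap F Ω t * x ^ j + algebraMap F Ω l ^ j = 0 := by
  have hmonic : (X ^ 2 - Polynomial.C c * X + Polynomial.C l : F[X]).Monic := by
    have : (X ^ 2 - Polynomial.C c * X + Polynomial.C l : F[X]) =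
        X ^ 2 + (Polynomial.C (-c) * X + Polynomial.C l) := by
      rw [map_neg]; ring
    rw [this]
    apply Polynomial.monic_X_pow_add
    calc (Polynomial.C (-c) * X + Polynomial.C l : F[X]).degree ≤ 1 :=
          Polynomial.degree_linear_le
      _ < 2 := by norm_num
  have e1 : aeval C (X ^ 2 - Polynomial.C c * X + Polynomial.C l : F[X]) = 0 := by
    simp only [map_add, map_sub, map_mul, map_pow, aeval_X, aeval_C]
    rw [Algebra.algebraMap_eq_smul_one, Algebra.algebraMap_eq_smul_one, smul_mul_assoc, one_mul]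
    exact h1
  obtain ⟨x, hx⟩ := exists_root_minpoly C _ hmonic e1 Ω
  refine ⟨x, ?_, ?_, ?_⟩
  · have := aeval_root_eq_zero C hx _ e1
    simpa using this
  · have e2 : aeval C (X ^ (j * k) - X : F[X]) = 0 := by
      simp only [map_sub, map_pow, aeval_X]
      rw [h2, sub_self]
    have := aeval_root_eq_zero C hx _ e2
    simp only [map_sub, map_pow, aeval_X] at this
    exact sub_eq_zero.mp this
  · have e3 : aeval C ((X ^ j) ^ 2 - Polynomial.C t * X ^ j + Polynomial.C (l ^ j) : F[X]) = 0 := by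
      simp only [map_add, map_sub, map_mul, map_pow, aeval_X, aeval_C]
      rw [← map_pow (algebraMap F (Module.End F V)) l j, Algebra.algebraMap_eq_smul_one,
        Algebra.algebraMap_eq_smul_one, smul_mul_assoc, one_mul]
      exact h3
    have := aeval_root_eq_zero C hx _ e3
    simpa using this

/-- **(T2) Trace transfer.**  `A` kills `x ^ 2 - a x + l` on `V₁ ≠ 0`, `B` kills
`x ^ 2 - b x + l` on `V₂ ≠ 0`, `l ≠ 0`; `A ^ j` and `B ^ j` kill the same quadratic
`x ^ 2 - t x + l ^ j`; and `A ^ (j k) = A`, `B ^ (j k) = B`, `l ^ (j k) = l`.  Then `a = b`. -/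
theorem trace_transfer [Nontrivial V₁] [Nontrivial V₂] (A : Module.End F V₁) (B : Module.End F V₂)
    (a b l t : F) (j k : ℕ) (hl : l ≠ 0)
    (hA : A ^ 2 - a • A + l • (1 : Module.End F V₁) = 0)
    (hB : B ^ 2 - b • B + l • (1 : Module.End F V₂) = 0)
    (hAjk : A ^ (j * k) = A) (hBjk : B ^ (j * k) = B) (hljk : l ^ (j * k) = l)
    (hAj : (A ^ j) ^ 2 - t • A ^ j + l ^ j • (1 : Module.End F V₁) = 0)
    (hBj : (B ^ j) ^ 2 - t • B ^ j + l ^ j • (1 : Module.End F V₂) = 0) :
    a = b := by
  obtain ⟨lam, hlam1, hlam2, hlam3⟩ :=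
    exists_root_data A a l t j k hA hAjk hAj (AlgebraicClosure F)
  obtain ⟨mu, hmu1, hmu2, hmu3⟩ :=
    exists_root_data B b l t j k hB hBjk hBj (AlgebraicClosure F)
  set φ := algebraMap F (AlgebraicClosure F) with hφ
  have hl' : φ l ≠ 0 := (map_ne_zero φ).mpr hl
  have hljk' : φ l ^ (j * k) = φ l := by rw [← map_pow, hljk]
  have hlam0 : lam ≠ 0 := by
    rintro rfl
    apply hl'
    simpa using hlam1
  have hmu0 : mu ≠ 0 := by
    rintro rfl
    apply hl'
    simpa using hmu1
  -- it suffices to prove the equality in the algebraic closure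
  apply φ.injective
  -- `lam ^ j` and `mu ^ j` are roots of the same quadratic
  have hprod : (lam ^ j - mu ^ j) * (lam ^ j + mu ^ j - φ t) = 0 := by
    linear_combination hlam3 - hmu3
  rcases mul_eq_zero.mp hprod with h | h
  · -- `lam ^ j = mu ^ j`, hence `lam = mu`
    have h' : lam ^ j = mu ^ j := sub_eq_zero.mp h
    have hlm : lam = mu := by
      rw [← hlam2, ← hmu2, pow_mul, pow_mul, h']
    subst hlm
    have : (φ a - φ b) * lam = 0 := by linear_combination hmu1 - hlam1
    rcases mul_eq_zero.mp this with h'' | h''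
    · exact sub_eq_zero.mp h''
    · exact absurd h'' hlam0
  · -- `lam ^ j + mu ^ j = t`, hence `(lam mu) ^ j = l ^ j` and `lam mu = l`
    have ht : φ t = lam ^ j + mu ^ j := (sub_eq_zero.mp h).symm
    have h' : (lam * mu) ^ j = φ l ^ j := by
      rw [ht] at hmu3
      rw [mul_pow]
      linear_combination -hmu3
    have hlm : lam * mu = φ l := by
      have := congrArg (fun z => z ^ k) h'
      simp only [← pow_mul] at this
      rw [mul_pow, hlam2, hmu2, hljk'] at this
      exact this
    have ha : φ a = lam + mu := by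
      have : lam * (lam + mu - φ a) = 0 := by linear_combination hlam1 + hlm
      rcases mul_eq_zero.mp this with h'' | h''
      · exact absurd h'' hlam0
      · linear_combination -h''
    have hb : φ b = lam + mu := by
      have : mu * (lam + mu - φ b) = 0 := by linear_combination hmu1 + hlm
      rcases mul_eq_zero.mp this with h'' | h''
      · exact absurd h'' hmu0
      · linear_combination -h''
    rw [ha, hb]

end Endomorphisms

section Actions

/-! ### Group-action form

`G` acts on the `F`-modules `V₁`, `V₂` by additive maps commuting with the scalars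
(`DistribMulAction` + `SMulCommClass`); for `F = ZMod m` the latter is automatic, see
`smulCommClass_zmod`.  All hypotheses and conclusions are pointwise. -/

variable {F : Type*} [Field F]
variable {G : Type*} [Group G]
variable {V₁ V₂ : Type*} [AddCommGroup V₁] [Module F V₁] [AddCommGroup V₂] [Module F V₂]
variable [DistribMulAction G V₁] [SMulCommClass G F V₁]
variable [DistribMulAction G V₂] [SMulCommClass G F V₂]

/-- Any additive action on a `ZMod n`-module commutes with the scalars. -/
theorem smulCommClass_zmod (n : ℕ) (G : Type*) [Monoid G] (V : Type*) [AddCommGroup V]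
    [Module (ZMod n) V] [DistribMulAction G V] : SMulCommClass G (ZMod n) V :=
  ⟨fun g c v => ZMod.map_smul (DistribSMul.toAddMonoidHom V g) c v⟩

/-- Pointwise quadratic relation versus the relation in the endomorphism ring. -/
theorem quad_end_iff {V : Type*} [AddCommGroup V] [Module F V] [DistribMulAction G V]
    [SMulCommClass G F V] (g : G) (a l : F) :
    (DistribMulAction.toModuleEnd F V g) ^ 2 - a • DistribMulAction.toModuleEnd F V g
        + l • (1 : Module.End F V) = 0 ↔
      ∀ v : V, g • g • v - a • g • v + l • v = 0 := by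
  constructor
  · intro h v
    have := LinearMap.congr_fun h v
    simpa [sq, Module.End.mul_apply] using this
  · intro h
    ext v
    simpa [sq, Module.End.mul_apply] using h v

/-- Pointwise unipotency versus unipotency in the endomorphism ring. -/
theorem unip_end_iff {V : Type*} [AddCommGroup V] [Module F V] [DistribMulAction G V]
    [SMulCommClass G F V] (g : G) :
    (DistribMulAction.toModuleEnd F V g - 1) ^ 2 = 0 ↔
      ∀ v : V, g • g • v - (2 : F) • g • v + v = 0 := by
  have key : (DistribMulAction.toModuleEnd F V g - 1) ^ 2 =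
      (DistribMulAction.toModuleEnd F V g) ^ 2 - (2 : F) • DistribMulAction.toModuleEnd F V g
        + (1 : F) • (1 : Module.End F V) := by
    rw [sq, sq, sub_mul, mul_sub, mul_sub, mul_one, one_mul, one_mul, ofNat_smul_eq_nsmul,
      two_nsmul, one_smul]
    abel
  rw [key, quad_end_iff]
  simp

/-- **(T1), action form.**  `τ = σ ^ j`, `σ = τ ^ k`; `σ` is unipotent on `V₁ ≠ 0`; `τ` kills
the same quadratic `x ^ 2 - t x + 1` on `V₁` and on `V₂`.  Then `σ` is unipotent on `V₂`. -/
theorem unipotent_transfer_action [Nontrivial V₁] (σ τ : G) (j k : ℕ) (hτ : τ = σ ^ j)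
    (hσ : σ = τ ^ k) (t : F)
    (h1 : ∀ v : V₁, σ • σ • v - (2 : F) • σ • v + v = 0)
    (hτ1 : ∀ v : V₁, τ • τ • v - t • τ • v + v = 0)
    (hτ2 : ∀ v : V₂, τ • τ • v - t • τ • v + v = 0) :
    ∀ v : V₂, σ • σ • v - (2 : F) • σ • v + v = 0 := by
  have hjk : σ ^ (j * k) = σ := by rw [pow_mul, ← hτ, ← hσ]
  rw [← unip_end_iff] at h1 ⊢
  have e1 := (quad_end_iff (V := V₁) τ t 1).mpr (by simpa using hτ1)
  have e2 := (quad_end_iff (V := V₂) τ t 1).mpr (by simpa using hτ2)
  rw [hτ, map_pow, one_smul] at e1 e2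
  refine unipotent_transfer (DistribMulAction.toModuleEnd F V₁ σ)
    (DistribMulAction.toModuleEnd F V₂ σ) t j k h1 ?_ e1 e2
  rw [← map_pow, hjk]

/-- **(T2), action form.**  `τ = σ ^ j`, `σ = τ ^ k`, `χ : G →* F` (the action on `μ_m`).
If `σ` kills `x ^ 2 - a x + χ σ` on `V₁ ≠ 0` and `x ^ 2 - b x + χ σ` on `V₂ ≠ 0`, and `τ` kills
the same quadratic `x ^ 2 - t x + χ τ` on both, then `a = b`. -/
theorem trace_transfer_action [Nontrivial V₁] [Nontrivial V₂] (χ : G →* F) (σ τ : G) (j k : ℕ)
    (hτ : τ = σ ^ j) (hσ : σ = τ ^ k) (a b t : F)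
    (h1 : ∀ v : V₁, σ • σ • v - a • σ • v + χ σ • v = 0)
    (h2 : ∀ v : V₂, σ • σ • v - b • σ • v + χ σ • v = 0)
    (hτ1 : ∀ v : V₁, τ • τ • v - t • τ • v + χ τ • v = 0)
    (hτ2 : ∀ v : V₂, τ • τ • v - t • τ • v + χ τ • v = 0) :
    a = b := by
  have hjk : σ ^ (j * k) = σ := by rw [pow_mul, ← hτ, ← hσ]
  have hl : χ σ ≠ 0 := by
    intro h0
    have : χ σ * χ σ⁻¹ = 1 := by rw [← map_mul, mul_inv_cancel, map_one]
    rw [h0, zero_mul] at this
    exact zero_ne_one this
  have hχτ : χ τ = χ σ ^ j := by rw [hτ, map_pow]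
  rw [← quad_end_iff] at h1 h2 hτ1 hτ2
  rw [hχτ, hτ, map_pow] at hτ1 hτ2
  refine trace_transfer (DistribMulAction.toModuleEnd F V₁ σ)
    (DistribMulAction.toModuleEnd F V₂ σ) a b (χ σ) t j k hl h1 h2 ?_ ?_ ?_ hτ1 hτ2
  · rw [← map_pow, hjk]
  · rw [← map_pow, hjk]
  · rw [← map_pow, hjk]

/-- The hypothesis supplied by weak Chebotarev + Frobenius Cayley–Hamilton on both curves:
every `σ` generates the same cyclic group as some `τ` which kills one and the same quadratic
`x ^ 2 - t x + χ τ` on `V₁` and on `V₂`. -/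
def FrobRel (χ : G →* F) (V₁ V₂ : Type*) [AddCommGroup V₁] [Module F V₁] [AddCommGroup V₂]
    [Module F V₂] [DistribMulAction G V₁] [DistribMulAction G V₂] : Prop :=
  ∀ σ : G, ∃ (τ : G) (j k : ℕ) (t : F), τ = σ ^ j ∧ σ = τ ^ k ∧
    (∀ v : V₁, τ • τ • v - t • τ • v + χ τ • v = 0) ∧
    (∀ v : V₂, τ • τ • v - t • τ • v + χ τ • v = 0)

/-- **(T1)** under `FrobRel`: an element acting trivially on `μ_m` and unipotently on `V₁ ≠ 0`
acts unipotently on `V₂`. -/
theorem unipotent_of_frobRel [Nontrivial V₁] {χ : G →* F} (H : FrobRel χ V₁ V₂) (σ : G)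
    (hχ : χ σ = 1) (h1 : ∀ v : V₁, σ • σ • v - (2 : F) • σ • v + v = 0) :
    ∀ v : V₂, σ • σ • v - (2 : F) • σ • v + v = 0 := by
  obtain ⟨τ, j, k, t, hτ, hσ, e1, e2⟩ := H σ
  have hχτ : χ τ = 1 := by rw [hτ, map_pow, hχ, one_pow]
  simp only [hχτ, one_smul] at e1 e2
  exact unipotent_transfer_action σ τ j k hτ hσ t h1 e1 e2

/-- **(T2)** under `FrobRel`: if `σ` kills `x ^ 2 - a x + χ σ` on `V₁ ≠ 0` and
`x ^ 2 - b x + χ σ` on `V₂ ≠ 0`, then `a = b`. -/
theorem trace_eq_of_frobRel [Nontrivial V₁] [Nontrivial V₂] {χ : G →* F} (H : FrobRel χ V₁ V₂)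
    (σ : G) (a b : F)
    (h1 : ∀ v : V₁, σ • σ • v - a • σ • v + χ σ • v = 0)
    (h2 : ∀ v : V₂, σ • σ • v - b • σ • v + χ σ • v = 0) : a = b := by
  obtain ⟨τ, j, k, t, hτ, hσ, e1, e2⟩ := H σ
  exact trace_transfer_action χ σ τ j k hτ hσ a b t h1 h2 e1 e2

end Actions

section Kolchin

/-! ### A fixed vector for a group of unipotent elements (`F = ZMod m`) -/

variable {m : ℕ} [Fact m.Prime]
variable {G : Type*} [Group G]
variable {V : Type*} [AddCommGroup V] [Module (ZMod m) V] [DistribMulAction G V]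

/-- If `h` is unipotent on the `ZMod m`-module `V`, then `h ^ m` acts trivially. -/
theorem pow_prime_smul_of_unipotent (h : G)
    (hh : ∀ v : V, h • h • v - (2 : ZMod m) • h • v + v = 0) (v : V) : h ^ m • v = v := by
  have hw : ∀ v : V, h • (h • v - v) = h • v - v := by
    intro v
    have := hh v
    rw [smul_sub]
    rw [ofNat_smul_eq_nsmul (R := ZMod m), two_nsmul] at this
    have h3 : h • h • v - h • v - (h • v - v) = 0 := by rw [← this]; abel
    exact sub_eq_zero.mp h3
  have key : ∀ n : ℕ, h ^ n • v = v + n • (h • v - v) := by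
    intro n
    induction n with
    | zero => simp
    | succ n ih =>
      rw [pow_succ', mul_smul, ih, smul_add, smul_comm h n, hw, succ_nsmul]
      abel
  rw [key m]
  have : (m : ℕ) • (h • v - v) = 0 := by
    rw [← Nat.cast_smul_eq_nsmul (ZMod m), ZMod.natCast_self, zero_smul]
  rw [this, add_zero]

/-- **Kolchin for unipotent actions on a finite `ZMod m`-module.**  If every element of the
subgroup `H` is unipotent on `V ≠ 0` (finite), then `H` fixes a nonzero vector. -/
theorem exists_ne_zero_fixed [Finite V] [Nontrivial V] (H : Subgroup G)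
    (hH : ∀ h ∈ H, ∀ v : V, h • h • v - (2 : ZMod m) • h • v + v = 0) :
    ∃ v : V, v ≠ 0 ∧ ∀ h ∈ H, h • v = v := by
  classical
  have hm : m.Prime := Fact.out
  set P : Subgroup (Equiv.Perm V) := H.map (MulAction.toPermHom G V) with hP
  have hPG : IsPGroup m P := by
    rintro ⟨g, hg⟩
    obtain ⟨h, hhH, rfl⟩ := Subgroup.mem_map.mp hg
    refine ⟨1, ?_⟩
    apply Subtype.ext
    simp only [pow_one, Subgroup.coe_pow, Subgroup.coe_one]
    rw [← map_pow]
    ext v
    simp only [MulAction.toPermHom_apply, MulAction.toPerm_apply, Equiv.Perm.coe_one, id_eq]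
    exact pow_prime_smul_of_unipotent h (hH h hhH) v
  have hdvd : m ∣ Nat.card V := by
    obtain ⟨v, hv⟩ := exists_ne (0 : V)
    have hmv : m • v = 0 := by
      rw [← Nat.cast_smul_eq_nsmul (ZMod m), ZMod.natCast_self, zero_smul]
    have hord : addOrderOf v = m := addOrderOf_eq_prime hmv hv
    rw [← hord]
    exact addOrderOf_dvd_natCard v
  have h0 : (0 : V) ∈ MulAction.fixedPoints P V := by
    rintro ⟨g, hg⟩
    obtain ⟨h, -, rfl⟩ := Subgroup.mem_map.mp hg
    show (MulAction.toPermHom G V h) (0 : V) = 0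
    simp
  obtain ⟨b, hb, hb0⟩ := hPG.exists_fixed_point_of_prime_dvd_card_of_fixed_point V hdvd h0
  refine ⟨b, fun h => hb0 h.symm, fun h hhH => ?_⟩
  have := hb ⟨MulAction.toPermHom G V h, Subgroup.mem_map_of_mem _ hhH⟩
  simpa using this

/-- **(T1) + Kolchin.**  Under `FrobRel`, a subgroup `H` acting trivially on `μ_m` and by
unipotent elements on `V₁ ≠ 0` fixes a nonzero vector of the finite module `V₂ ≠ 0`.
(Use: `H` = inertia at `ℓ ≠ m`, `V₁ = W[m]` with `W` semistable, `V₂ = E_g[m]`: a point of exact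
order `m` of `E_g` rational over the inertia field.) -/
theorem exists_fixed_of_frobRel {V₁ V₂ : Type*} [AddCommGroup V₁] [Module (ZMod m) V₁]
    [AddCommGroup V₂] [Module (ZMod m) V₂] [DistribMulAction G V₁] [DistribMulAction G V₂]
    [Nontrivial V₁] [Finite V₂] [Nontrivial V₂] {χ : G →* ZMod m} (hFR : FrobRel χ V₁ V₂)
    (H : Subgroup G) (hχ : ∀ h ∈ H, χ h = 1)
    (hH : ∀ h ∈ H, ∀ v : V₁, h • h • v - (2 : ZMod m) • h • v + v = 0) :
    ∃ v : V₂, v ≠ 0 ∧ ∀ h ∈ H, h • v = v := by
  have := smulCommClass_zmod m G V₁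
  have := smulCommClass_zmod m G V₂
  exact exists_ne_zero_fixed H fun h hh => unipotent_of_frobRel hFR h (hχ h hh) (hH h hh)

end Kolchin

end Fermat.Agent.S58.helper2508
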