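/-
S58-AUTFIX (board #973): the fixed field of `Aut(ℂ)` is `ℚ`.
Mathlib-only, statement-agnostic.
-/
import Mathlib

set_option autoImplicit false

namespace Fermat.Agent.S58.helper3268

open Polynomial

/-- Two algebraically closed fields over `F` with transcendence bases indexed by the same type
are isomorphic by an isomorphism that is the identity on `F` and realises a prescribed
automorphism `τ` of the polynomial ring on the bases. -/
theorem exists_ringEquiv_of_transcendenceBasis_of_algEquiv
    {F K L ι : Type*} [Field F] [Field K] [Field L] [Algebra F K] [Algebra F L]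
    [IsAlgClosed K] [IsAlgClosed L] (v : ι → K) (w : ι → L)
    (hv : IsTranscendenceBasis F v) (hw : IsTranscendenceBasis F w)
    (τ : MvPolynomial ι F ≃ₐ[F] MvPolynomial ι F) :
    ∃ σ : K ≃+* L, (∀ r : F, σ (algebraMap F K r) = algebraMap F L r) ∧
      ∀ p : MvPolynomial ι F, σ (MvPolynomial.aeval v p) = MvPolynomial.aeval w (τ p) := by
  have := IsAlgClosed.isAlgClosure_of_transcendence_basis v hv
  have := IsAlgClosed.isAlgClosure_of_transcendence_basis w hw
  let e : Algebra.adjoin F (Set.range v) ≃ₐ[F] Algebra.adjoin F (Set.range w) :=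
    hv.1.aevalEquiv.symm.trans (τ.trans hw.1.aevalEquiv)
  refine ⟨IsAlgClosure.equivOfEquiv K L e.toRingEquiv, ?_, ?_⟩
  · intro r
    have h := IsAlgClosure.equivOfEquiv_algebraMap K L e.toRingEquiv
      (algebraMap F (Algebra.adjoin F (Set.range v)) r)
    rw [← IsScalarTower.algebraMap_apply] at h
    rw [h]
    simp only [AlgEquiv.coe_ringEquiv, AlgEquiv.commutes]
    rw [← IsScalarTower.algebraMap_apply]
  · intro p
    have h := IsAlgClosure.equivOfEquiv_algebraMap K L e.toRingEquiv (hv.1.aevalEquiv p)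
    have h1 : algebraMap (Algebra.adjoin F (Set.range v)) K (hv.1.aevalEquiv p)
        = MvPolynomial.aeval v p := hv.1.algebraMap_aevalEquiv p
    rw [h1] at h
    rw [h]
    simp only [AlgEquiv.coe_ringEquiv, e, AlgEquiv.trans_apply, AlgEquiv.symm_apply_apply]
    exact hw.1.algebraMap_aevalEquiv (τ p)

/-- Two algebraically closed fields over `F` with transcendence bases indexed by the same type
are isomorphic by an isomorphism that is the identity on `F` and matches the bases. -/
theorem exists_ringEquiv_of_transcendenceBasis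
    {F K L ι : Type*} [Field F] [Field K] [Field L] [Algebra F K] [Algebra F L]
    [IsAlgClosed K] [IsAlgClosed L] (v : ι → K) (w : ι → L)
    (hv : IsTranscendenceBasis F v) (hw : IsTranscendenceBasis F w) :
    ∃ σ : K ≃+* L, (∀ r : F, σ (algebraMap F K r) = algebraMap F L r) ∧ ∀ i, σ (v i) = w i := by
  obtain ⟨σ, h1, h2⟩ :=
    exists_ringEquiv_of_transcendenceBasis_of_algEquiv v w hv hw AlgEquiv.refl
  refine ⟨σ, h1, fun i => ?_⟩
  simpa using h2 (MvPolynomial.X i)

/-- A transcendence basis over `ℚ` stays a transcendence basis over an algebraic extension `F`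
of `ℚ`, for any embedding of `F`. -/
theorem isTranscendenceBasis_toAlgebra
    {F K ι : Type*} [Field F] [CharZero F] [Algebra.IsAlgebraic ℚ F] [Field K] [CharZero K]
    (φ : F →+* K) (v : ι → K) (hv : IsTranscendenceBasis ℚ v) :
    @IsTranscendenceBasis ι F K _ _ φ.toAlgebra v := by
  let _ := φ.toAlgebra
  have : IsScalarTower ℚ F K := IsScalarTower.of_algebraMap_eq (fun r => by
    rw [RingHom.algebraMap_toAlgebra]; simp)
  exact (Algebra.IsAlgebraic.isTranscendenceBasis_iff ℚ F).mp hv

/-- Conjugate algebraic numbers are exchanged by an automorphism of an algebraically closed field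
of characteristic zero. -/
theorem exists_ringEquiv_apply_eq_of_aeval_minpoly
    {K : Type*} [Field K] [IsAlgClosed K] [CharZero K] (x x₂ : K) (hx : IsAlgebraic ℚ x)
    (h₂ : Polynomial.aeval x₂ (minpoly ℚ x) = 0) : ∃ σ : K ≃+* K, σ x = x₂ := by
  have hf : Irreducible (minpoly ℚ x) := minpoly.irreducible hx.isIntegral
  have : Fact (Irreducible (minpoly ℚ x)) := ⟨hf⟩
  let F := AdjoinRoot (minpoly ℚ x)
  have hfin : Module.Finite ℚ F := (AdjoinRoot.powerBasis hf.ne_zero).finite
  have : Algebra.IsAlgebraic ℚ F := Algebra.IsAlgebraic.of_finite ℚ F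
  have : CharZero F := algebraRat.charZero F
  let φ₁ : F →+* K := AdjoinRoot.lift (algebraMap ℚ K) x (by
    rw [← Polynomial.aeval_def]; exact minpoly.aeval ℚ x)
  let φ₂ : F →+* K := AdjoinRoot.lift (algebraMap ℚ K) x₂ (by
    rw [← Polynomial.aeval_def]; exact h₂)
  obtain ⟨ι, v, hv⟩ := exists_isTranscendenceBasis' ℚ K
  have hv₁ := isTranscendenceBasis_toAlgebra φ₁ v hv
  have hv₂ := isTranscendenceBasis_toAlgebra φ₂ v hv
  obtain ⟨σ, hσ, -⟩ := @exists_ringEquiv_of_transcendenceBasis F K K ι _ _ _ φ₁.toAlgebra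
    φ₂.toAlgebra _ _ v v hv₁ hv₂
  refine ⟨σ, ?_⟩
  have h := hσ (AdjoinRoot.root (minpoly ℚ x))
  have e1 : @algebraMap F K _ _ φ₁.toAlgebra (AdjoinRoot.root (minpoly ℚ x)) = x :=
    AdjoinRoot.lift_root _
  have e2 : @algebraMap F K _ _ φ₂.toAlgebra (AdjoinRoot.root (minpoly ℚ x)) = x₂ :=
    AdjoinRoot.lift_root _
  rw [e1, e2] at h
  exact h

/-- A transcendental element is moved to its negative by an automorphism of an algebraically
closed field of characteristic zero. -/
theorem exists_ringEquiv_apply_eq_neg_of_transcendental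
    {K : Type*} [Field K] [IsAlgClosed K] [CharZero K] (x : K) (hx : Transcendental ℚ x) :
    ∃ σ : K ≃+* K, σ x = -x := by
  have hs : AlgebraicIndepOn ℚ id ({x} : Set K) := by
    rw [AlgebraicIndepOn, algebraicIndependent_unique_type_iff]
    exact hx
  obtain ⟨t, hxt, ht⟩ := exists_isTranscendenceBasis_superset hs
  let ν : MvPolynomial t ℚ →ₐ[ℚ] MvPolynomial t ℚ :=
    MvPolynomial.aeval (fun i => -MvPolynomial.X i)
  have hν : ν.comp ν = AlgHom.id ℚ _ := by
    apply MvPolynomial.algHom_ext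
    intro i
    simp [ν]
  let τ : MvPolynomial t ℚ ≃ₐ[ℚ] MvPolynomial t ℚ := AlgEquiv.ofAlgHom ν ν hν hν
  obtain ⟨σ, -, hσ⟩ := exists_ringEquiv_of_transcendenceBasis_of_algEquiv
    ((↑) : t → K) ((↑) : t → K) ht ht τ
  refine ⟨σ, ?_⟩
  have h := hσ (MvPolynomial.X ⟨x, hxt rfl⟩)
  simpa [τ, ν] using h

/-- **Fix(Aut K) = ℚ** for an algebraically closed field `K` of characteristic zero: every element
outside `ℚ` is moved by some field automorphism. -/
theorem exists_ringEquiv_apply_ne' {K : Type*} [Field K] [IsAlgClosed K] [CharZero K] (x : K)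
    (hx : x ∉ Set.range ((↑) : ℚ → K)) : ∃ σ : K ≃+* K, σ x ≠ x := by
  by_cases halg : IsAlgebraic ℚ x
  · -- another root of the minimal polynomial
    have hf : Irreducible (minpoly ℚ x) := minpoly.irreducible halg.isIntegral
    have hsep : (minpoly ℚ x).Separable := hf.separable
    have hdeg : 1 < (minpoly ℚ x).natDegree := by
      have h1 : (minpoly ℚ x).natDegree ≠ 1 := by
        intro h
        apply hx
        have := (minpoly.natDegree_eq_one_iff (A := ℚ) (x := x)).mp h
        obtain ⟨r, hr⟩ := this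
        exact ⟨r, by simpa using hr⟩
      have h0 : 0 < (minpoly ℚ x).natDegree := minpoly.natDegree_pos halg.isIntegral
      omega
    have hcard : Fintype.card ((minpoly ℚ x).rootSet K) = (minpoly ℚ x).natDegree :=
      Polynomial.card_rootSet_eq_natDegree hsep (IsAlgClosed.splits _)
    have hxmem : x ∈ (minpoly ℚ x).rootSet K := by
      rw [Polynomial.mem_rootSet]
      exact ⟨hf.ne_zero, minpoly.aeval ℚ x⟩
    obtain ⟨⟨x₂, hx₂⟩, hne⟩ := Fintype.exists_ne_of_one_lt_card (hcard ▸ hdeg)
      (⟨x, hxmem⟩ : (minpoly ℚ x).rootSet K)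
    obtain ⟨σ, hσ⟩ := exists_ringEquiv_apply_eq_of_aeval_minpoly x x₂ halg
      ((Polynomial.mem_rootSet.mp hx₂).2)
    refine ⟨σ, ?_⟩
    rw [hσ]
    intro h
    exact hne (Subtype.ext h)
  · obtain ⟨σ, hσ⟩ := exists_ringEquiv_apply_eq_neg_of_transcendental x halg
    refine ⟨σ, ?_⟩
    rw [hσ]
    intro h
    have hx0 : x = 0 := by
      have : (2 : K) * x = 0 := by linear_combination -h
      simpa using this
    apply halg
    rw [hx0]
    exact isAlgebraic_zero

/-- (A1) **Fix(Aut ℂ) = ℚ**: every non-rational complex number is moved by some field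
automorphism of `ℂ`. -/
theorem exists_ringEquiv_apply_ne (x : ℂ) (hx : x ∉ Set.range ((↑) : ℚ → ℂ)) :
    ∃ σ : ℂ ≃+* ℂ, σ x ≠ x :=
  exists_ringEquiv_apply_ne' x hx

/-- (A2) A complex number fixed by all field automorphisms of `ℂ` is rational. -/
theorem rat_of_forall_ringEquiv_fixed (x : ℂ) (h : ∀ σ : ℂ ≃+* ℂ, σ x = x) :
    ∃ r : ℚ, (r : ℂ) = x := by
  by_contra hx
  obtain ⟨σ, hσ⟩ := exists_ringEquiv_apply_ne x (by simpa using hx)
  exact hσ (h σ)

/-- (A3) Pair form, for the descent of `(g₂, g₃)`. -/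
theorem rat_pair_of_forall_ringEquiv_fixed (a b : ℂ)
    (h : ∀ σ : ℂ ≃+* ℂ, σ a = a ∧ σ b = b) :
    ∃ r s : ℚ, (r : ℂ) = a ∧ (s : ℂ) = b := by
  obtain ⟨r, hr⟩ := rat_of_forall_ringEquiv_fixed a (fun σ => (h σ).1)
  obtain ⟨s, hs⟩ := rat_of_forall_ringEquiv_fixed b (fun σ => (h σ).2)
  exact ⟨r, s, hr, hs⟩

end Fermat.Agent.S58.helper3268
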