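/-
S58 (route #1886, step 3b prerequisites), author helper328.

* `theta` : the Euler operator `θ = t d/dt` on Laurent series (`coeff n ↦ n * coeff n`) as an
  additive map, its Leibniz rule `theta_mul`, compatibility with `twist ζ` (`t ↦ ζ t`),
  `qExpand N` (`t ↦ t^N`), `coeffMap`, and `theta x = 0 ↔ x` constant (characteristic zero).
* `derivationOfLeibniz`, `thetaDer` : `θ` as a `Derivation` for the `Algebra`-module structure
  (the instance a generic `[Algebra k L] (D : Derivation k L L)` specialises to) and as a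
  `Derivation ℤ`.
* `HeckeRec a l ε` : the multiplicativity relations of a Hecke eigen-sequence at the prime `l`
  (`ε = l` good prime, `ε = 0` bad prime); `HeckeRec.series` : the FORMAL EIGEN-RELATION
  `U_l g + ε V_l g = a_l g` for `g = ∑ a_n q^n` in `LaurentSeries A`;
  `heckeRec_of_not_dvd`, `heckeRec_of_dvd` : a Prelude `IsNormalizedEigenform` gives `HeckeRec`.
-/
import Mathlib
import Fermat.Agent.S28.helper328_Ush
import Fermat.Prelude.Def_FLTPrelim_Modularity
import Fermat.Prelude.Thm_CongruenceSubgroup_one_mem_strictPeriods_Gamma0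

set_option autoImplicit false

namespace Fermat.Agent.S58.helper328

open ModularCurve Fermat.Agent.S28.helper328

noncomputable section

section Theta

variable {R : Type*} [CommRing R]

/-- The Euler operator `θ = t d/dt` on Laurent series, as a function. -/
def thetaFun (x : LaurentSeries R) : LaurentSeries R where
  coeff n := (n : R) * x.coeff n
  isPWO_support' := x.isPWO_support.mono (fun n hn => by
    simp only [Function.mem_support, ne_eq] at hn ⊢
    exact fun h => hn (by rw [h, mul_zero]))

/-- The Euler operator `θ = t d/dt` on Laurent series, as an additive map. -/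
def theta : LaurentSeries R →+ LaurentSeries R where
  toFun := thetaFun
  map_zero' := by ext n; simp [thetaFun]
  map_add' x y := by ext n; simp [thetaFun, mul_add]

@[simp] theorem theta_coeff (x : LaurentSeries R) (n : ℤ) :
    (theta x).coeff n = (n : R) * x.coeff n := rfl

theorem theta_support_subset (x : LaurentSeries R) : (theta x).support ⊆ x.support := by
  intro n hn
  simp only [HahnSeries.mem_support, theta_coeff, ne_eq] at hn ⊢
  exact fun h => hn (by rw [h, mul_zero])

/-- **Leibniz rule** for `θ`. -/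
theorem theta_mul (x y : LaurentSeries R) : theta (x * y) = x * theta y + y * theta x := by
  ext a
  rw [theta_coeff, HahnSeries.coeff_add, HahnSeries.coeff_mul, mul_comm y (theta x),
    HahnSeries.coeff_mul_right' (x := x) (y := theta y) y.isPWO_support (theta_support_subset y),
    HahnSeries.coeff_mul_left' (x := theta x) (y := y) x.isPWO_support (theta_support_subset x),
    Finset.mul_sum, ← Finset.sum_add_distrib]
  refine Finset.sum_congr rfl ?_
  intro ij hij
  have hsum : ij.1 + ij.2 = a := (Finset.mem_antidiagonal.mp hij).2.2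
  rw [theta_coeff, theta_coeff, ← hsum]
  push_cast
  ring

theorem theta_single (n : ℤ) (c : R) :
    theta (HahnSeries.single n c) = HahnSeries.single n ((n : R) * c) := by
  ext m
  rw [theta_coeff]
  rcases eq_or_ne m n with rfl | hm
  · rw [HahnSeries.coeff_single_same, HahnSeries.coeff_single_same]
  · rw [HahnSeries.coeff_single_of_ne hm, HahnSeries.coeff_single_of_ne hm, mul_zero]

theorem theta_C (c : R) : theta (HahnSeries.C c) = 0 := by
  rw [HahnSeries.C_apply, theta_single]
  simp

theorem theta_one : theta (1 : LaurentSeries R) = 0 := by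
  rw [← map_one (HahnSeries.C : R →+* LaurentSeries R), theta_C]

theorem theta_C_mul (c : R) (x : LaurentSeries R) :
    theta (HahnSeries.C c * x) = HahnSeries.C c * theta x := by
  rw [theta_mul, theta_C, mul_zero, add_zero]

theorem theta_natCast_mul (n : ℕ) (x : LaurentSeries R) :
    theta ((n : LaurentSeries R) * x) = (n : LaurentSeries R) * theta x := by
  rw [← map_natCast (HahnSeries.C : R →+* LaurentSeries R), theta_C_mul]

theorem theta_intCast_mul (n : ℤ) (x : LaurentSeries R) :
    theta ((n : LaurentSeries R) * x) = (n : LaurentSeries R) * theta x := by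
  rw [← map_intCast (HahnSeries.C : R →+* LaurentSeries R), theta_C_mul]

/-- `θ` commutes with the substitution `t ↦ ζ t`. -/
theorem theta_twist (ζ : Rˣ) (x : LaurentSeries R) : theta (twist ζ x) = twist ζ (theta x) := by
  ext n
  simp only [theta_coeff, twist_coeff]
  ring

/-- `θ (x(t^N)) = N * (θ x)(t^N)`. -/
theorem theta_qExpand (N : ℕ) [NeZero N] (x : LaurentSeries R) :
    theta (qExpand R N x) = HahnSeries.C (N : R) * qExpand R N (theta x) := by
  ext k
  rw [theta_coeff, HahnSeries.C_apply, HahnSeries.coeff_single_mul, sub_zero]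
  by_cases hk : (N : ℤ) ∣ k
  · obtain ⟨m, rfl⟩ := hk
    rw [qExpand_coeff_mul, qExpand_coeff_mul, theta_coeff]
    push_cast
    ring
  · rw [qExpand_coeff_of_not_dvd N _ hk, qExpand_coeff_of_not_dvd N _ hk, mul_zero, mul_zero]

theorem theta_coeffMap {S : Type*} [CommRing S] (φ : R →+* S) (x : LaurentSeries R) :
    theta (coeffMap φ x) = coeffMap φ (theta x) := by
  ext n
  simp

/-- In characteristic zero the kernel of `θ` consists of the constants. -/
theorem theta_eq_zero_iff [IsDomain R] [CharZero R] (x : LaurentSeries R) :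
    theta x = 0 ↔ x = HahnSeries.C (x.coeff 0) := by
  constructor
  · intro h
    ext n
    rw [HahnSeries.C_apply]
    rcases eq_or_ne n 0 with rfl | hn
    · rw [HahnSeries.coeff_single_same]
    · rw [HahnSeries.coeff_single_of_ne hn]
      have h1 : (theta x).coeff n = 0 := by rw [h, HahnSeries.coeff_zero]
      rw [theta_coeff] at h1
      exact (mul_eq_zero.mp h1).resolve_left (Int.cast_ne_zero.mpr hn)
  · intro h
    rw [h, theta_C]

theorem theta_eq_zero_iff_exists [IsDomain R] [CharZero R] (x : LaurentSeries R) :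
    theta x = 0 ↔ ∃ c : R, x = HahnSeries.C c :=
  ⟨fun h => ⟨_, (theta_eq_zero_iff x).mp h⟩, fun ⟨c, hc⟩ => by rw [hc, theta_C]⟩

end Theta

section Derivations

/-- An additive map with the Leibniz rule that kills the constants is a derivation (for the
module structure coming from the algebra structure). -/
def derivationOfLeibniz {k L : Type*} [CommRing k] [CommRing L] [Algebra k L] (D : L →+ L)
    (hmul : ∀ x y, D (x * y) = x * D y + y * D x) (hk : ∀ c : k, D (algebraMap k L c) = 0) :
    Derivation k L L where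
  toFun := D
  map_add' := D.map_add
  map_smul' c x := by
    rw [RingHom.id_apply, Algebra.smul_def, Algebra.smul_def]
    show D (algebraMap k L c * x) = algebraMap k L c * D x
    rw [hmul, hk, mul_zero, add_zero]
  map_one_eq_zero' := by
    show D 1 = 0
    have h := hmul 1 1
    rw [mul_one, one_mul] at h
    exact left_eq_add.mp h
  leibniz' x y := by
    show D (x * y) = x • D y + y • D x
    rw [hmul, smul_eq_mul, smul_eq_mul]

@[simp] theorem derivationOfLeibniz_apply {k L : Type*} [CommRing k] [CommRing L] [Algebra k L]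
    (D : L →+ L) (hmul : ∀ x y, D (x * y) = x * D y + y * D x)
    (hk : ∀ c : k, D (algebraMap k L c) = 0) (x : L) :
    derivationOfLeibniz D hmul hk x = D x := rfl

theorem algebraMap_laurentSeries_eq_C {R : Type*} [CommRing R] (c : R) :
    algebraMap R (LaurentSeries R) c = HahnSeries.C c := by
  have h1 : algebraMap R (PowerSeries R) c = PowerSeries.C c := by
    simp
  rw [HahnSeries.algebraMap_apply', h1, HahnSeries.ofPowerSeries_C]

/-- `θ` as a derivation over the coefficient ring, for the module structure induced by the algebra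
structure `Algebra R (LaurentSeries R)` (this is the instance a generic statement about
`[Algebra k L] (D : Derivation k L L)` specialises to). -/
def thetaDer (R : Type*) [CommRing R] :
    @Derivation R (LaurentSeries R) (LaurentSeries R) _ _ _ _ _ Algebra.toModule :=
  derivationOfLeibniz theta theta_mul (fun c => by rw [algebraMap_laurentSeries_eq_C, theta_C])

@[simp] theorem thetaDer_apply (R : Type*) [CommRing R] (x : LaurentSeries R) :
    thetaDer R x = theta x := rfl

/-- An additive map with the Leibniz rule is a `ℤ`-derivation. -/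
def derivationIntOfLeibniz {L : Type*} [CommRing L] (D : L →+ L)
    (hmul : ∀ x y, D (x * y) = x * D y + y * D x) : Derivation ℤ L L where
  toFun := D
  map_add' := D.map_add
  map_smul' c x := by
    rw [RingHom.id_apply]
    exact map_zsmul D c x
  map_one_eq_zero' := by
    show D 1 = 0
    have h := hmul 1 1
    rw [mul_one, one_mul] at h
    exact left_eq_add.mp h
  leibniz' x y := by
    show D (x * y) = x • D y + y • D x
    rw [hmul, smul_eq_mul, smul_eq_mul]

@[simp] theorem derivationIntOfLeibniz_apply {L : Type*} [CommRing L] (D : L →+ L)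
    (hmul : ∀ x y, D (x * y) = x * D y + y * D x) (x : L) :
    derivationIntOfLeibniz D hmul x = D x := rfl

/-- `θ` as a `ℤ`-derivation (the instance arguments are those of the generic
`derivationIntOfLeibniz`). -/
def thetaDerInt (R : Type*) [CommRing R] := derivationIntOfLeibniz (theta (R := R)) theta_mul

@[simp] theorem thetaDerInt_apply (R : Type*) [CommRing R] (x : LaurentSeries R) :
    thetaDerInt R x = theta x := rfl

end Derivations

section AlgHoms

variable {R : Type*} [CommRing R]

/-- The substitution `t ↦ ζ t` as an algebra homomorphism over the coefficient ring. -/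
def twistAlgHom (ζ : Rˣ) : LaurentSeries R →ₐ[R] LaurentSeries R where
  __ := twist ζ
  commutes' c := by
    show twist ζ (algebraMap R (LaurentSeries R) c) = algebraMap R (LaurentSeries R) c
    rw [algebraMap_laurentSeries_eq_C, HahnSeries.C_apply, twist_single]
    simp

@[simp] theorem twistAlgHom_apply (ζ : Rˣ) (x : LaurentSeries R) :
    twistAlgHom ζ x = twist ζ x := rfl

/-- The substitution `t ↦ t^N` as an algebra homomorphism over the coefficient ring. -/
def qExpandAlgHomR (R : Type*) [CommRing R] (N : ℕ) [NeZero N] :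
    LaurentSeries R →ₐ[R] LaurentSeries R where
  __ := qExpand R N
  commutes' c := by
    show qExpand R N (algebraMap R (LaurentSeries R) c) = algebraMap R (LaurentSeries R) c
    rw [algebraMap_laurentSeries_eq_C, qExpand_C]

@[simp] theorem qExpandAlgHomR_apply (N : ℕ) [NeZero N] (x : LaurentSeries R) :
    qExpandAlgHomR R N x = qExpand R N x := rfl

theorem theta_twistAlgHom (ζ : Rˣ) (x : LaurentSeries R) :
    theta (twistAlgHom ζ x) = twistAlgHom ζ (theta x) := theta_twist ζ x

theorem theta_qExpand_natCast (N : ℕ) [NeZero N] (x : LaurentSeries R) :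
    theta (qExpand R N x) = (N : LaurentSeries R) * qExpand R N (theta x) := by
  rw [theta_qExpand, map_natCast]

theorem theta_qExpandAlgHomR (N : ℕ) [NeZero N] (x : LaurentSeries R) :
    theta (qExpandAlgHomR R N x) = (N : LaurentSeries R) * qExpandAlgHomR R N (theta x) :=
  theta_qExpand_natCast N x

/-- Trace formula in `C`-multiplication form: `∑_j f(ω^j t) = l * (U_l f)(t^l)`. -/
theorem sum_twist_eq_C_mul {K : Type*} [Field K] (l : ℕ) [NeZero l] (ω : Kˣ)
    (hω : IsPrimitiveRoot ω l) (F : LaurentSeries K) :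
    ∑ j : Fin l, twist (ω ^ (j : ℕ)) F = HahnSeries.C (l : K) * qExpand K l (Ush l 0 F) := by
  rw [sum_twist_eq l ω hω F, HahnSeries.C_mul_eq_smul]

/-- From the formal eigen-relation `U_l g + ε V_l g = c g` to the relation between the
substitutions `t ↦ ω^j t`, `t ↦ t^l` and `t ↦ t^(l²)` applied to `g`:
`∑_j g(ω^j t) + l ε g(t^(l²)) = l c g(t^l)`. -/
theorem sum_twist_add_of_eigen {K : Type*} [Field K] (l : ℕ) [NeZero l] (ω : Kˣ)
    (hω : IsPrimitiveRoot ω l) (g : LaurentSeries K) (ε c : K)
    (h : Ush l 0 g + HahnSeries.C ε * qExpand K l g = HahnSeries.C c * g) :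
    ∑ j : Fin l, twist (ω ^ (j : ℕ)) g +
        HahnSeries.C ((l : K) * ε) * qExpand K l (qExpand K l g) =
      HahnSeries.C ((l : K) * c) * qExpand K l g := by
  rw [sum_twist_eq_C_mul l ω hω g, eq_sub_of_add_eq h, map_sub, map_mul, map_mul, qExpand_C,
    qExpand_C, map_mul, map_mul]
  ring

/-- The case `ε = 0` (primes dividing the level): `∑_j g(ω^j t) = l c g(t^l)`. -/
theorem sum_twist_of_eigen_zero {K : Type*} [Field K] (l : ℕ) [NeZero l] (ω : Kˣ)
    (hω : IsPrimitiveRoot ω l) (g : LaurentSeries K) (c : K)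
    (h : Ush l 0 g = HahnSeries.C c * g) :
    ∑ j : Fin l, twist (ω ^ (j : ℕ)) g = HahnSeries.C ((l : K) * c) * qExpand K l g := by
  rw [sum_twist_eq_C_mul l ω hω g, h, map_mul, qExpand_C, map_mul]
  ring

end AlgHoms

section HeckeRec

variable {A : Type*} [CommRing A]

/-- The Laurent series `∑_{n ≥ 0} a n t^n`. -/
def gSeries (a : ℕ → A) : LaurentSeries A := HahnSeries.ofPowerSeries ℤ A (PowerSeries.mk a)

theorem gSeries_eq (a : ℕ → A) :
    gSeries a = HahnSeries.ofPowerSeries ℤ A (PowerSeries.mk a) := by rw [gSeries]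

theorem gSeries_coeff_natCast (a : ℕ → A) (n : ℕ) : (gSeries a).coeff (n : ℤ) = a n := by
  rw [gSeries_eq, HahnSeries.ofPowerSeries_apply_coeff, PowerSeries.coeff_mk]

theorem gSeries_coeff_of_neg (a : ℕ → A) {n : ℤ} (hn : n < 0) : (gSeries a).coeff n = 0 := by
  rw [gSeries_eq]
  exact ofPowerSeries_coeff_of_neg _ hn

theorem coeffMap_gSeries {B : Type*} [CommRing B] (φ : A →+* B) (a : ℕ → A) :
    coeffMap φ (gSeries a) = gSeries (fun n => φ (a n)) := by
  ext n
  rw [coeffMap_coeff]
  rcases lt_or_ge n 0 with hn | hn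
  · rw [gSeries_coeff_of_neg _ hn, gSeries_coeff_of_neg _ hn, map_zero]
  · lift n to ℕ using hn
    rw [gSeries_coeff_natCast, gSeries_coeff_natCast]

/-- The multiplicativity relations of a Hecke eigen-sequence at the prime `l`: `ε = l` for a good
prime (weight two), `ε = 0` for a prime dividing the level. -/
structure HeckeRec (a : ℕ → A) (l : ℕ) (ε : A) : Prop where
  zero : a 0 = 0
  mul : ∀ m n : ℕ, m.Coprime n → a (m * n) = a m * a n
  pow : ∀ r : ℕ, a (l ^ (r + 2)) = a l * a (l ^ (r + 1)) - ε * a (l ^ r)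

theorem HeckeRec.map {B : Type*} [CommRing B] (φ : A →+* B) {a : ℕ → A} {l : ℕ} {ε : A}
    (h : HeckeRec a l ε) : HeckeRec (fun n => φ (a n)) l (φ ε) where
  zero := by rw [h.zero, map_zero]
  mul m n hmn := by rw [h.mul m n hmn, map_mul]
  pow r := by rw [h.pow r, map_sub, map_mul, map_mul]

theorem HeckeRec.of_injective {B : Type*} [CommRing B] (φ : A →+* B)
    (hφ : Function.Injective φ) {a : ℕ → A} {l : ℕ} {ε : A}
    (h : HeckeRec (fun n => φ (a n)) l (φ ε)) : HeckeRec a l ε where
  zero := hφ (by rw [h.zero, map_zero])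
  mul m n hmn := hφ (by rw [h.mul m n hmn, map_mul])
  pow r := hφ (by rw [h.pow r, map_sub, map_mul, map_mul])

/-- The coefficientwise form of the Hecke relation at `l`. -/
theorem HeckeRec.coeff_mul {a : ℕ → A} {l : ℕ} {ε : A} (h : HeckeRec a l ε) (hl : l.Prime)
    (n : ℕ) : a (l * n) = a l * a n - ε * (if l ∣ n then a (n / l) else 0) := by
  rcases Nat.eq_zero_or_pos n with rfl | hn
  · simp [h.zero]
  obtain ⟨r, m, hm, rfl⟩ := Nat.exists_eq_pow_mul_and_not_dvd hn.ne' l hl.ne_one
  have hcop : ∀ s : ℕ, (l ^ s).Coprime m := fun s =>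
    Nat.Coprime.pow_left s ((Nat.Prime.coprime_iff_not_dvd hl).mpr hm)
  rcases r with _ | r
  · rw [pow_zero, one_mul, if_neg hm, mul_zero, sub_zero]
    have := h.mul (l ^ 1) m (hcop 1)
    rwa [pow_one] at this
  · have hdvd : l ∣ l ^ (r + 1) * m := Dvd.dvd.mul_right (dvd_pow_self l (Nat.succ_ne_zero r)) m
    have hdiv : l ^ (r + 1) * m / l = l ^ r * m := by
      rw [pow_succ, mul_assoc, mul_comm l m, ← mul_assoc, Nat.mul_div_cancel _ hl.pos]
    rw [if_pos hdvd, hdiv, ← mul_assoc, ← pow_succ', h.mul _ m (hcop (r + 2)), h.pow r,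
      h.mul _ m (hcop (r + 1)), h.mul _ m (hcop r)]
    ring

/-- **Formal eigen-relation** `U_l g + ε V_l g = a_l g` for `g = ∑ a_n t^n`. -/
theorem HeckeRec.series {a : ℕ → A} {l : ℕ} [NeZero l] {ε : A} (h : HeckeRec a l ε)
    (hl : l.Prime) :
    Ush l 0 (gSeries a) + HahnSeries.C ε * qExpand A l (gSeries a) =
      HahnSeries.C (a l) * gSeries a := by
  have hl0 : (0 : ℤ) < l := by exact_mod_cast hl.pos
  ext n
  rw [HahnSeries.coeff_add, HahnSeries.C_apply, HahnSeries.coeff_single_mul, sub_zero,
    HahnSeries.C_apply, HahnSeries.coeff_single_mul, sub_zero, Ush_coeff, add_zero]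
  rcases lt_or_ge n 0 with hn | hn
  · rw [gSeries_coeff_of_neg _ hn, gSeries_coeff_of_neg _ (by nlinarith)]
    by_cases hdvd : (l : ℤ) ∣ n
    · obtain ⟨j, rfl⟩ := hdvd
      rw [qExpand_coeff_mul, gSeries_coeff_of_neg _ (by nlinarith)]
      simp
    · rw [qExpand_coeff_of_not_dvd l _ hdvd]
      simp
  · lift n to ℕ using hn
    rw [show (l : ℤ) * (n : ℤ) = ((l * n : ℕ) : ℤ) by push_cast; ring, gSeries_coeff_natCast,
      gSeries_coeff_natCast, h.coeff_mul hl n]
    by_cases hdvd : l ∣ n
    · rw [if_pos hdvd]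
      obtain ⟨j, rfl⟩ := hdvd
      rw [show ((l * j : ℕ) : ℤ) = (l : ℤ) * (j : ℤ) by push_cast; ring, qExpand_coeff_mul,
        gSeries_coeff_natCast, Nat.mul_div_cancel_left _ hl.pos]
      ring
    · rw [if_neg hdvd, qExpand_coeff_of_not_dvd l _ (by exact_mod_cast hdvd)]
      ring

/-- Good prime (`ε = l`): `∑_j g(ω^j t) + l² g(t^(l²)) = l a_l g(t^l)` for `g = ∑ a_n t^n`. -/
theorem HeckeRec.sum_twist_good {K : Type*} [Field K] {a : ℕ → K} {l : ℕ} [NeZero l]
    (h : HeckeRec a l (l : K)) (hl : l.Prime) (ω : Kˣ) (hω : IsPrimitiveRoot ω l) :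
    ∑ j : Fin l, twist (ω ^ (j : ℕ)) (gSeries a) +
        HahnSeries.C ((l : K) * l) * qExpand K l (qExpand K l (gSeries a)) =
      HahnSeries.C ((l : K) * a l) * qExpand K l (gSeries a) :=
  sum_twist_add_of_eigen l ω hω _ _ _ (h.series hl)

/-- Bad prime (`ε = 0`): `∑_j g(ω^j t) = l a_l g(t^l)` for `g = ∑ a_n t^n`. -/
theorem HeckeRec.sum_twist_bad {K : Type*} [Field K] {a : ℕ → K} {l : ℕ} [NeZero l]
    (h : HeckeRec a l (0 : K)) (hl : l.Prime) (ω : Kˣ) (hω : IsPrimitiveRoot ω l) :
    ∑ j : Fin l, twist (ω ^ (j : ℕ)) (gSeries a) =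
      HahnSeries.C ((l : K) * a l) * qExpand K l (gSeries a) := by
  have h1 := sum_twist_add_of_eigen l ω hω _ _ _ (h.series hl)
  rwa [mul_zero, map_zero, zero_mul, add_zero] at h1

end HeckeRec

section Eigenform

open ModularFormClass CuspForm

variable {N : ℕ}

/-- The constant coefficient of a cusp form of level `Γ₀(N)` vanishes. -/
theorem qCoeff_zero_of_cuspForm {k : ℤ} (f : CuspForm (CongruenceSubgroup.Gamma0 N) k) :
    qCoeff f 0 = 0 :=
  CuspFormClass.qExpansion_coeff_zero f one_pos
    (CongruenceSubgroup.one_mem_strictPeriods_Gamma0 N)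

/-- A normalised eigenform satisfies the Hecke relations at a good prime. -/
theorem heckeRec_of_not_dvd {f : CuspForm (CongruenceSubgroup.Gamma0 N) 2}
    (hf : f.IsNormalizedEigenform) {l : ℕ} (hl : l.Prime) (hlN : ¬ l ∣ N) :
    HeckeRec (qCoeff f) l (l : ℂ) where
  zero := qCoeff_zero_of_cuspForm f
  mul := hf.qCoeff_mul_of_coprime
  pow r := hf.qCoeff_prime_pow_of_not_dvd l r hl hlN

/-- A normalised eigenform satisfies the Hecke relations at a prime dividing the level. -/
theorem heckeRec_of_dvd {f : CuspForm (CongruenceSubgroup.Gamma0 N) 2}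
    (hf : f.IsNormalizedEigenform) {l : ℕ} (hl : l.Prime) (hlN : l ∣ N) :
    HeckeRec (qCoeff f) l 0 where
  zero := qCoeff_zero_of_cuspForm f
  mul := hf.qCoeff_mul_of_coprime
  pow r := by rw [hf.qCoeff_prime_pow_of_dvd l r hl hlN, zero_mul, sub_zero]

/-- The `q`-expansion of `f` as a Laurent series is `gSeries (qCoeff f)`. -/
theorem ofPowerSeries_qExpansion_eq_gSeries (f : UpperHalfPlane → ℂ) :
    HahnSeries.ofPowerSeries ℤ ℂ (UpperHalfPlane.qExpansion 1 f) = gSeries (qCoeff f) := by
  rw [gSeries_eq]
  congr 1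
  ext n
  rw [PowerSeries.coeff_mk, qCoeff]

end Eigenform

end

end Fermat.Agent.S58.helper328
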