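import Mathlib
import Fermat.Prelude.Def_ModularCurve_PeriodMapBundled
import Fermat.Prelude.Thm_Subgroup_IsArithmetic_exists_nat_mem_strictPeriods_conj
import Fermat.Agent.S22.helper1222_EichlerSeries

/-!
# S58-PARAM-HYP (helper3404): the modular parametrisation functions `℘(c·F)`, `℘'(c·F)`

Let `f` be a weight-2 cusp form on `Γ₀(N)` with an equivariant primitive `F` (Prelude
`ModularCurve.HasEquivariantPrimitive`), `c : ℂ`, and `L` a period pair whose lattice contains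
`c •` (all periods of `F`).  We show that `X z = ℘[L] (c * F z)` and `Y z = ℘'[L] (c * F z)` are
`Γ₀(N)`-invariant, meromorphic on the upper half plane and of moderate growth (and holomorphic)
near every cusp.
-/

set_option autoImplicit false

noncomputable section

namespace Fermat.Agent.S58.helper3404

open Complex Filter Topology UpperHalfPlane ModularForm CongruenceSubgroup ModularCurve
open scoped MatrixGroups Real PeriodPair

open Fermat.Agent.S22.helper1222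

local notation "𝕢" => Function.Periodic.qParam

/-! ### Part 1: a lower bound for a non-zero Eichler series near `i∞` -/

/-- If the coefficient sequence is not identically zero, the once-integrated series is bounded
below by a multiple of `exp (-2 π m im z / h)` for `im z` large. -/
theorem exists_le_norm_eichlerSeries {h : ℝ} {c : ℕ → ℂ} (hh : 0 < h) (hc : c 0 = 0)
    (hsum : ∀ z : ℂ, 0 < z.im → Summable fun n => c n * 𝕢 h z ^ n) (hne : ∃ n, c n ≠ 0) :
    ∃ (m : ℕ) (a T : ℝ), 0 < a ∧ ∀ z : ℂ, T ≤ z.im →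
      a * Real.exp (-2 * π * m * z.im / h) ≤ ‖eichlerSeries h c 1 z‖ := by
  classical
  set n0 := Nat.find hne with hn0
  have hcn0 : c n0 ≠ 0 := Nat.find_spec hne
  have hlt : ∀ n, n < n0 → c n = 0 := fun n hn => by
    by_contra hcn
    exact Nat.find_min hne hn hcn
  have hn0pos : 0 < n0 := by
    rcases Nat.eq_zero_or_pos n0 with h0 | h0
    · rw [h0] at hcn0; exact absurd hc hcn0
    · exact h0
  obtain ⟨r, hr⟩ : ∃ r : ℝ, r = Real.exp (-2 * π * 1 / h) := ⟨_, rfl⟩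
  have hr0 : 0 < r := hr ▸ Real.exp_pos _
  have hs := summable_norm_coeff_mul_pow hsum (δ := 1) one_pos
  rw [← hr] at hs
  -- shifted series
  have hs' : Summable fun n => ‖c (n + (n0 + 1))‖ * r ^ n := by
    have h1 := (summable_nat_add_iff (n0 + 1)).mpr hs
    have h2 := h1.mul_left (r ^ (n0 + 1))⁻¹
    refine h2.congr fun n => ?_
    have hrn : r ^ (n0 + 1) ≠ 0 := (pow_pos hr0 _).ne'
    rw [show r ^ (n + (n0 + 1)) = r ^ n * r ^ (n0 + 1) from pow_add _ _ _]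
    field_simp
  set S : ℝ := (h / (2 * π)) * ∑' n, ‖c (n + (n0 + 1))‖ * r ^ n with hS
  have hS0 : 0 ≤ S := by
    have : 0 ≤ ∑' n, ‖c (n + (n0 + 1))‖ * r ^ n :=
      tsum_nonneg fun n => by positivity
    positivity
  set A : ℝ := ‖c n0‖ * ‖eichlerWeight h n0‖ with hA
  have hw : eichlerWeight h n0 ≠ 0 := by
    unfold eichlerWeight
    have h1 : (h : ℂ) ≠ 0 := by exact_mod_cast hh.ne'
    have h2 : (n0 : ℂ) ≠ 0 := by exact_mod_cast hn0pos.ne'
    have h3 : (π : ℂ) ≠ 0 := by exact_mod_cast Real.pi_ne_zero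
    have h4 : (2 * (π : ℂ) * Complex.I * n0) ≠ 0 := by
      simp [h2, h3, Complex.I_ne_zero]
    exact div_ne_zero h1 h4
  have hA0 : 0 < A := mul_pos (norm_pos_iff.mpr hcn0) (norm_pos_iff.mpr hw)
  -- choose `T`
  obtain ⟨T, hT1, hT⟩ : ∃ T : ℝ, 1 ≤ T ∧ S * Real.exp (-2 * π * T / h) ≤ A / 2 := by
    have h2 : Tendsto (fun y : ℝ => S * Real.exp (-2 * π * y / h)) atTop (𝓝 (S * 0)) := by
      apply Tendsto.const_mul
      apply Real.tendsto_exp_atBot.comp
      have : (fun y : ℝ => -2 * π * y / h) = fun y => (-(2 * π / h)) * y := by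
        funext y; ring
      rw [this]
      exact Tendsto.const_mul_atTop_of_neg (by simp; positivity) tendsto_id
    rw [mul_zero] at h2
    have h3 : ∀ᶠ y : ℝ in atTop, S * Real.exp (-2 * π * y / h) < A / 2 :=
      h2.eventually (gt_mem_nhds (by positivity))
    obtain ⟨T, hT⟩ := (h3.and (eventually_ge_atTop 1)).exists
    exact ⟨T, hT.2, hT.1.le⟩
  refine ⟨n0, A / 2, T, by positivity, fun z hz => ?_⟩
  have hz1 : 1 ≤ z.im := hT1.trans hz
  have hz0 : 0 < z.im := lt_of_lt_of_le one_pos hz1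
  have hq : ‖𝕢 h z‖ ≤ r := hr ▸ norm_qParam_le_of_le_im hh hz1
  have hqT : ‖𝕢 h z‖ ≤ Real.exp (-2 * π * T / h) := norm_qParam_le_of_le_im hh hz
  have hsumz := summable_eichlerTerm hh hsum 1 hz0
  -- split the series
  have h1 : eichlerSeries h c 1 z =
      eichlerTerm h c 1 n0 z + ∑' n, eichlerTerm h c 1 (n + (n0 + 1)) z := by
    unfold eichlerSeries
    rw [← hsumz.sum_add_tsum_nat_add (n0 + 1), Finset.sum_range_succ]
    have : ∑ i ∈ Finset.range n0, eichlerTerm h c 1 i z = 0 := by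
      apply Finset.sum_eq_zero
      intro i hi
      have := hlt i (Finset.mem_range.mp hi)
      simp [eichlerTerm, this]
    rw [this, zero_add]
  have hb : ∀ n, ‖eichlerTerm h c 1 (n + (n0 + 1)) z‖ ≤
      (h / (2 * π)) * (‖c (n + (n0 + 1))‖ * r ^ n) * ‖𝕢 h z‖ ^ (n0 + 1) := by
    intro n
    unfold eichlerTerm
    rw [norm_mul, norm_mul, norm_pow, norm_pow, pow_one, pow_add]
    have e1 := norm_eichlerWeight_le hh (n + (n0 + 1))
    have e2 := pow_le_pow_left₀ (norm_nonneg _) hq n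
    calc ‖c (n + (n0 + 1))‖ * ‖eichlerWeight h (n + (n0 + 1))‖ *
          (‖𝕢 h z‖ ^ n * ‖𝕢 h z‖ ^ (n0 + 1))
        ≤ ‖c (n + (n0 + 1))‖ * (h / (2 * π)) * (r ^ n * ‖𝕢 h z‖ ^ (n0 + 1)) := by gcongr
      _ = _ := by ring
  have hsb : Summable fun n =>
      (h / (2 * π)) * (‖c (n + (n0 + 1))‖ * r ^ n) * ‖𝕢 h z‖ ^ (n0 + 1) :=
    (hs'.mul_left _).mul_right _
  have h2 := tsum_of_norm_bounded hsb.hasSum hb
  rw [tsum_mul_right, tsum_mul_left] at h2
  have h3 : ‖eichlerTerm h c 1 n0 z‖ = A * ‖𝕢 h z‖ ^ n0 := by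
    unfold eichlerTerm
    rw [norm_mul, norm_mul, norm_pow, norm_pow, pow_one]
  have hqn : ‖𝕢 h z‖ ^ n0 = Real.exp (-2 * π * n0 * z.im / h) := by
    rw [Function.Periodic.norm_qParam, ← Real.exp_nat_mul]
    congr 1
    ring
  have hq0 : 0 ≤ ‖𝕢 h z‖ := norm_nonneg _
  have hqpow : 0 ≤ ‖𝕢 h z‖ ^ n0 := pow_nonneg hq0 _
  -- tail ≤ (A/2) * ‖q‖^n0
  have h4 : ‖∑' n, eichlerTerm h c 1 (n + (n0 + 1)) z‖ ≤ A / 2 * ‖𝕢 h z‖ ^ n0 := by
    calc ‖∑' n, eichlerTerm h c 1 (n + (n0 + 1)) z‖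
        ≤ S * ‖𝕢 h z‖ ^ (n0 + 1) := h2
      _ = (S * ‖𝕢 h z‖) * ‖𝕢 h z‖ ^ n0 := by ring
      _ ≤ (S * Real.exp (-2 * π * T / h)) * ‖𝕢 h z‖ ^ n0 := by gcongr
      _ ≤ A / 2 * ‖𝕢 h z‖ ^ n0 := by gcongr
  rw [h1, ← hqn]
  have h5 := norm_sub_norm_le (eichlerTerm h c 1 n0 z)
    (-∑' n, eichlerTerm h c 1 (n + (n0 + 1)) z)
  rw [sub_neg_eq_add, norm_neg] at h5
  linarith

/-! ### Part 2: cusp expansions of an equivariant primitive -/

/-- A function on the upper half plane whose extension has zero derivative everywhere is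
constant. -/
theorem const_of_hasDerivAt_zero {H : ℍ → ℂ}
    (hH : ∀ τ : ℍ, HasDerivAt (H ∘ ofComplex) 0 ↑τ) (z w : ℍ) : H z = H w := by
  have hconv : Convex ℝ upperHalfPlaneSet := by
    have : upperHalfPlaneSet = Complex.imCLM ⁻¹' (Set.Ioi (0:ℝ)) := by
      ext z; simp [upperHalfPlaneSet]
    rw [this]
    exact (convex_Ioi (0:ℝ)).linear_preimage Complex.imCLM.toLinearMap
  have := isOpen_upperHalfPlaneSet.is_const_of_deriv_eq_zero hconv.isPreconnected
    (f := H ∘ ofComplex)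
    (fun x hx => (hH ⟨x, hx⟩).differentiableAt.differentiableWithinAt)
    (fun x hx => (hH ⟨x, hx⟩).deriv) z.im_pos w.im_pos
  simpa only [Function.comp_apply, ofComplex_apply] using this

/-- Chain rule for the Möbius action. -/
theorem hasDerivAt_comp_smul {F f : ℍ → ℂ}
    (hF : ∀ τ : ℍ, HasDerivAt (F ∘ ofComplex) (f τ) ↑τ) (γ : SL(2, ℤ)) (w : ℍ) :
    HasDerivAt ((fun z : ℍ => F (γ • z)) ∘ ofComplex) ((f ∣[(2:ℤ)] γ) w) ↑w := by
  have hdet1 : (γ : GL (Fin 2) ℝ).val.det = 1 := by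
    rw [← Matrix.GeneralLinearGroup.val_det_apply]; simp
  have hdet : (0:ℝ) < ((γ : GL (Fin 2) ℝ)).val.det := by rw [hdet1]; exact one_pos
  have h1 := (hasStrictDerivAt_smul hdet w).hasDerivAt
  have h2 : HasDerivAt (F ∘ ofComplex) (f (γ • w))
      (↑((γ : GL (Fin 2) ℝ) • ofComplex (w : ℂ)) : ℂ) := by
    rw [ofComplex_apply]
    exact hF (γ • w)
  have h3 := h2.comp (w : ℂ) h1
  have hfun : ((fun z : ℍ => F (γ • z)) ∘ ofComplex) =
      (F ∘ ofComplex) ∘ (fun z : ℂ => (↑((γ : GL (Fin 2) ℝ) • ofComplex z) : ℂ)) := by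
    funext z
    simp only [Function.comp_apply, ofComplex_apply]
    rfl
  rw [hfun]
  refine h3.congr_deriv ?_
  rw [ModularForm.SL_slash_apply, hdet1]
  simp only [Complex.ofReal_one]
  rw [zpow_neg, one_div]
  norm_cast

/-- **Cusp expansion of an equivariant primitive.**  For every `δ ∈ SL(2,ℤ)` the function
`w ↦ F (δ • w)` is a constant plus a once-integrated `q_h`-series without constant term. -/
theorem exists_cusp_expansion (N : ℕ) [NeZero N] (f : CuspForm (Gamma0 N) 2) {F : ℍ → ℂ}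
    (hF : HasEquivariantPrimitive N f F) (δ : SL(2, ℤ)) :
    ∃ (h : ℝ) (a : ℕ → ℂ) (Lδ : ℂ), 0 < h ∧ a 0 = 0 ∧
      (∀ z : ℂ, 0 < z.im → Summable fun n => a n * 𝕢 h z ^ n) ∧
      (∀ w : ℍ, F (δ • w) = Lδ + eichlerSeries h a 1 w) ∧
      ((∀ n, a n = 0) → f = 0) := by
  obtain ⟨M, hM, hper⟩ := Subgroup.IsArithmetic.exists_nat_mem_strictPeriods_conj
    (Subgroup.map (Matrix.SpecialLinearGroup.mapGL ℝ) (Gamma0 N))
  have hper' := hper δ⁻¹
  rw [map_inv] at hper'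
  have hMpos : (0:ℝ) < M := Nat.cast_pos.mpr hM
  set g := CuspForm.translate f (Matrix.SpecialLinearGroup.mapGL ℝ δ) with hg
  have hG : ∀ τ : ℍ, HasDerivAt ((fun w : ℍ => eichlerOf M g 1 w) ∘ ofComplex) (g τ) ↑τ := by
    intro τ
    have h1 := hasDerivAt_eichlerOf g hMpos hper' 0 τ.im_pos
    rw [eichlerOf_zero g hMpos hper' τ.im_pos] at h1
    refine h1.congr_of_eventuallyEq ?_
    filter_upwards [isOpen_upperHalfPlaneSet.mem_nhds τ.im_pos] with z hz
    simp [Function.comp_apply, ofComplex_apply_of_im_pos hz]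
  have hH : ∀ τ : ℍ,
      HasDerivAt ((fun z : ℍ => F (δ • z) - eichlerOf M g 1 z) ∘ ofComplex) 0 ↑τ := by
    intro τ
    have h1 := hasDerivAt_comp_smul hF.1 δ τ
    have h2 := hG τ
    have h3 := h1.sub h2
    have h4 : (⇑f ∣[(2:ℤ)] δ) τ - g τ = 0 := sub_self _
    rw [h4] at h3
    exact h3
  refine ⟨M, qCoeffSeq M g, F (δ • UpperHalfPlane.I) - eichlerOf M g 1 UpperHalfPlane.I, hMpos,
    qCoeffSeq_zero g hMpos hper', summable_qCoeffSeq g hMpos hper', fun w => ?_, fun h0 => ?_⟩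
  · have := const_of_hasDerivAt_zero hH w UpperHalfPlane.I
    rw [show eichlerSeries M (qCoeffSeq M g) 1 w = eichlerOf M g 1 w from rfl]
    linear_combination this
  · have hg0 : ∀ τ : ℍ, g τ = 0 := by
      intro τ
      have h1 := hasSum_qCoeffSeq g hMpos hper' τ
      have h2 : (fun n => qCoeffSeq M g n * 𝕢 M τ ^ n) = fun _ => (0:ℂ) := by
        funext n; rw [h0 n, zero_mul]
      rw [h2] at h1
      exact h1.unique hasSum_zero
    have hs0 : (⇑f ∣[(2:ℤ)] δ) = 0 := funext fun τ => hg0 τ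
    have hf : (⇑f : ℍ → ℂ) = (⇑f ∣[(2:ℤ)] δ) ∣[(2:ℤ)] δ⁻¹ := by
      rw [← SlashAction.slash_mul, mul_inv_cancel, SlashAction.slash_one]
    rw [hs0, SlashAction.zero_slash] at hf
    exact DFunLike.coe_injective hf

/-! ### Part 3: local bounds for `℘` and `℘'` -/

lemma aux_bound {B c₀ d t : ℝ} (k : ℕ) (hB : 0 ≤ B) (hc₀ : 0 ≤ c₀) (_hd : 0 ≤ d)
    (ht0 : 0 < t) (ht1 : t ≤ 1) : B + d / t ^ k + c₀ ≤ (B + d + c₀) / t ^ k := by
  have hk0 : 0 < t ^ k := pow_pos ht0 k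
  have hk1 : t ^ k ≤ 1 := pow_le_one₀ ht0.le ht1
  have h1 : B ≤ B / t ^ k := le_div_self hB hk0 hk1
  have h2 : c₀ ≤ c₀ / t ^ k := le_div_self hc₀ hk0 hk1
  have h3 : (B + d + c₀) / t ^ k = B / t ^ k + d / t ^ k + c₀ / t ^ k := by ring
  rw [h3]
  linarith

/-- Near any point `x₀` (a lattice point or not) the functions `℘` and `℘'` have no pole on a
punctured disc and satisfy `‖℘ u‖ ≤ K / ‖u - x₀‖ ^ 2`, `‖℘' u‖ ≤ K / ‖u - x₀‖ ^ 3` there. -/
theorem exists_weierstrassP_bounds (L : PeriodPair) (x₀ : ℂ) :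
    ∃ ε K : ℝ, 0 < ε ∧ 0 ≤ K ∧ ∀ u : ℂ, 0 < ‖u - x₀‖ → ‖u - x₀‖ < ε →
      u ∉ L.lattice ∧ ‖℘[L] u‖ ≤ K / ‖u - x₀‖ ^ 2 ∧ ‖℘'[L] u‖ ≤ K / ‖u - x₀‖ ^ 3 := by
  -- a punctured disc without lattice points
  obtain ⟨ε₁, hε₁, hball⟩ := Metric.mem_nhds_iff.mp (L.compl_lattice_sdiff_singleton_mem_nhds x₀)
  -- local bounds for the regular parts
  have hc1 : ContinuousAt ℘[L - x₀] x₀ := (L.analyticAt_weierstrassPExcept x₀).continuousAt
  have hc2 : ContinuousAt ℘'[L - x₀] x₀ := (L.analyticAt_derivWeierstrassPExcept x₀).continuousAt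
  obtain ⟨ε₂, hε₂, hb1⟩ := Metric.eventually_nhds_iff.mp
    (hc1.norm.eventually (gt_mem_nhds (lt_add_one ‖℘[L - x₀] x₀‖)))
  obtain ⟨ε₃, hε₃, hb2⟩ := Metric.eventually_nhds_iff.mp
    (hc2.norm.eventually (gt_mem_nhds (lt_add_one ‖℘'[L - x₀] x₀‖)))
  set B₁ : ℝ := ‖℘[L - x₀] x₀‖ + 1 with hB₁
  set B₂ : ℝ := ‖℘'[L - x₀] x₀‖ + 1 with hB₂
  set c₀ : ℝ := ‖(1 : ℂ) / x₀ ^ 2‖ with hc₀
  have hB₁0 : 0 ≤ B₁ := by positivity
  have hB₂0 : 0 ≤ B₂ := by positivity
  have hc₀0 : 0 ≤ c₀ := norm_nonneg _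
  refine ⟨min ε₁ (min ε₂ (min ε₃ 1)), B₁ + B₂ + 2 + c₀, by positivity, by positivity,
    fun u hu0 hu => ?_⟩
  have hu1 : ‖u - x₀‖ < ε₁ := lt_of_lt_of_le hu (min_le_left _ _)
  have hu2 : ‖u - x₀‖ < ε₂ :=
    lt_of_lt_of_le hu ((min_le_right _ _).trans (min_le_left _ _))
  have hu3 : ‖u - x₀‖ < ε₃ :=
    lt_of_lt_of_le hu ((min_le_right _ _).trans ((min_le_right _ _).trans (min_le_left _ _)))
  have hu4 : ‖u - x₀‖ ≤ 1 :=
    (lt_of_lt_of_le hu ((min_le_right _ _).trans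
      ((min_le_right _ _).trans (min_le_right _ _)))).le
  have hne : u ≠ x₀ := fun h => by simp [h] at hu0
  have hd1 : dist u x₀ < ε₁ := by rwa [dist_eq_norm]
  have hd2 : dist u x₀ < ε₂ := by rwa [dist_eq_norm]
  have hd3 : dist u x₀ < ε₃ := by rwa [dist_eq_norm]
  have hnot : u ∉ L.lattice := by
    intro hmem
    have := hball (Metric.mem_ball.mpr hd1)
    exact this ⟨hmem, hne⟩
  have hr1 : ‖℘[L - x₀] u‖ ≤ B₁ := (hb1 hd2).le
  have hr2 : ‖℘'[L - x₀] u‖ ≤ B₂ := (hb2 hd3).le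
  have hpow2 : 0 < ‖u - x₀‖ ^ 2 := pow_pos hu0 2
  have hpow3 : 0 < ‖u - x₀‖ ^ 3 := pow_pos hu0 3
  refine ⟨hnot, ?_, ?_⟩
  · by_cases hx : x₀ ∈ L.lattice
    · have h1 := L.weierstrassPExcept_add ⟨x₀, hx⟩ u
      simp only at h1
      rw [← h1]
      calc ‖℘[L - x₀] u + (1 / (u - x₀) ^ 2 - 1 / x₀ ^ 2)‖
          ≤ ‖℘[L - x₀] u‖ + (‖(1 : ℂ) / (u - x₀) ^ 2‖ + ‖(1 : ℂ) / x₀ ^ 2‖) :=
            (norm_add_le _ _).trans (add_le_add le_rfl (norm_sub_le _ _))
        _ ≤ B₁ + 1 / ‖u - x₀‖ ^ 2 + c₀ := by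
            rw [norm_div, norm_one, norm_pow]
            linarith
        _ ≤ (B₁ + 1 + c₀) / ‖u - x₀‖ ^ 2 := aux_bound 2 hB₁0 hc₀0 zero_le_one hu0 hu4
        _ ≤ (B₁ + B₂ + 2 + c₀) / ‖u - x₀‖ ^ 2 := by
            apply div_le_div_of_nonneg_right _ hpow2.le
            linarith
    · rw [← L.weierstrassPExcept_of_notMem x₀ hx]
      calc ‖℘[L - x₀] u‖ ≤ B₁ := hr1
        _ ≤ B₁ + 0 / ‖u - x₀‖ ^ 2 + 0 := by simp
        _ ≤ (B₁ + 0 + 0) / ‖u - x₀‖ ^ 2 := aux_bound 2 hB₁0 le_rfl le_rfl hu0 hu4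
        _ ≤ (B₁ + B₂ + 2 + c₀) / ‖u - x₀‖ ^ 2 := by
            apply div_le_div_of_nonneg_right _ hpow2.le
            linarith
  · by_cases hx : x₀ ∈ L.lattice
    · have h1 := L.derivWeierstrassPExcept_sub ⟨x₀, hx⟩ u
      simp only at h1
      rw [← h1]
      calc ‖℘'[L - x₀] u - 2 / (u - x₀) ^ 3‖
          ≤ ‖℘'[L - x₀] u‖ + ‖(2 : ℂ) / (u - x₀) ^ 3‖ := norm_sub_le _ _
        _ ≤ B₂ + 2 / ‖u - x₀‖ ^ 3 + 0 := by
            rw [norm_div, norm_pow, Complex.norm_ofNat]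
            linarith
        _ ≤ (B₂ + 2 + 0) / ‖u - x₀‖ ^ 3 := aux_bound 3 hB₂0 le_rfl zero_le_two hu0 hu4
        _ ≤ (B₁ + B₂ + 2 + c₀) / ‖u - x₀‖ ^ 3 := by
            apply div_le_div_of_nonneg_right _ hpow3.le
            linarith
    · rw [← L.derivWeierstrassPExcept_of_notMem x₀ hx]
      calc ‖℘'[L - x₀] u‖ ≤ B₂ := hr2
        _ ≤ B₂ + 0 / ‖u - x₀‖ ^ 3 + 0 := by simp
        _ ≤ (B₂ + 0 + 0) / ‖u - x₀‖ ^ 3 := aux_bound 3 hB₂0 le_rfl le_rfl hu0 hu4
        _ ≤ (B₁ + B₂ + 2 + c₀) / ‖u - x₀‖ ^ 3 := by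
            apply div_le_div_of_nonneg_right _ hpow3.le
            linarith

/-! ### Part 4: growth and holomorphy near the cusps -/

section Growth

variable {N : ℕ} {f : CuspForm (Gamma0 N) 2} {F : ℍ → ℂ}

/-- The function `w ↦ c * F (δ • w)` is analytic at every point of the upper half plane. -/
theorem analyticAt_mul_comp_smul (hF : HasEquivariantPrimitive N f F) (c : ℂ) (δ : SL(2, ℤ))
    (z : ℍ) : AnalyticAt ℂ (fun w : ℂ => c * F (δ • ofComplex w)) (z : ℂ) := by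
  have hd : DifferentiableOn ℂ (fun w : ℂ => c * F (δ • ofComplex w)) upperHalfPlaneSet := by
    intro x hx
    have h1 := (hasDerivAt_comp_smul hF.1 δ ⟨x, hx⟩).differentiableAt
    exact (h1.const_mul c).differentiableWithinAt
  exact hd.analyticAt (isOpen_upperHalfPlaneSet.mem_nhds z.im_pos)

/-- The function `w ↦ c * F w` is analytic at every point of the upper half plane. -/
theorem analyticAt_mul_primitive (hF : HasEquivariantPrimitive N f F) (c : ℂ) (z : ℍ) :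
    AnalyticAt ℂ (fun w : ℂ => c * F (ofComplex w)) (z : ℂ) := by
  have hd : DifferentiableOn ℂ (fun w : ℂ => c * F (ofComplex w)) upperHalfPlaneSet := by
    intro x hx
    have h1 := (hF.1 ⟨x, hx⟩).differentiableAt
    exact (h1.const_mul c).differentiableWithinAt
  exact hd.analyticAt (isOpen_upperHalfPlaneSet.mem_nhds z.im_pos)

/-- **Growth lemma.**  Let `P` be a function which near every point `x₀` is analytic on a
punctured disc with `‖P u‖ ≤ K / ‖u - x₀‖ ^ k`.  Then for every `δ ∈ SL(2,ℤ)` the function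
`w ↦ P (c * F (δ • w))` is holomorphic for `im w` large and grows at most exponentially in
`im w`. -/
theorem exists_growth [NeZero N] (hF : HasEquivariantPrimitive N f F) (c : ℂ) (P : ℂ → ℂ)
    (k : ℕ)
    (hP : ∀ x₀ : ℂ, ∃ ε K : ℝ, 0 < ε ∧ 0 ≤ K ∧ ∀ u : ℂ, 0 < ‖u - x₀‖ → ‖u - x₀‖ < ε →
      AnalyticAt ℂ P u ∧ ‖P u‖ ≤ K / ‖u - x₀‖ ^ k)
    (δ : SL(2, ℤ)) :
    ∃ T m C : ℝ, ∀ z : ℍ, T ≤ z.im →
      AnalyticAt ℂ (fun w : ℂ => P (c * F (δ • ofComplex w))) (z : ℂ) ∧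
        ‖P (c * F (δ • z))‖ ≤ C * Real.exp (m * z.im) := by
  obtain ⟨h, a, Lδ, hh, ha0, hsum, hexp, -⟩ := exists_cusp_expansion N f hF δ
  by_cases hdeg : c = 0 ∨ ∀ n, a n = 0
  · -- degenerate case: the inner function is constant
    have hconst : ∀ w : ℍ, c * F (δ • w) = c * Lδ := by
      intro w
      rcases hdeg with rfl | h0
      · simp
      · have h1 : eichlerSeries h a 1 w = 0 := by
          unfold eichlerSeries eichlerTerm
          simp [h0]
        rw [hexp w, h1, add_zero]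
    refine ⟨0, 0, ‖P (c * Lδ)‖, fun z _ => ⟨?_, ?_⟩⟩
    · have h1 : (fun w : ℂ => P (c * F (δ • ofComplex w))) =ᶠ[𝓝 (z : ℂ)]
          fun _ => P (c * Lδ) := by
        filter_upwards [isOpen_upperHalfPlaneSet.mem_nhds z.im_pos] with w hw
        rw [hconst]
      exact analyticAt_const.congr h1.symm
    · rw [hconst]; simp
  · obtain ⟨hc, hne'⟩ := not_or.mp hdeg
    have hne : ∃ n, a n ≠ 0 := not_forall.mp hne'
    obtain ⟨K₁, hK₁0, hK₁⟩ := exists_norm_eichlerSeries_le hh ha0 hsum 1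
    obtain ⟨m, a₀, T₁, ha₀, hlow⟩ := exists_le_norm_eichlerSeries hh ha0 hsum hne
    obtain ⟨ε, K, hε, hK0, hPb⟩ := hP (c * Lδ)
    have hcn : 0 < ‖c‖ := norm_pos_iff.mpr hc
    -- choose `T`
    obtain ⟨T, hT1, hTT₁, hT⟩ : ∃ T : ℝ, 1 ≤ T ∧ T₁ ≤ T ∧
        ‖c‖ * (K₁ * Real.exp (-2 * π * T / h)) < ε := by
      have h2 : Tendsto (fun y : ℝ => ‖c‖ * (K₁ * Real.exp (-2 * π * y / h))) atTop
          (𝓝 (‖c‖ * (K₁ * 0))) := by
        apply Tendsto.const_mul
        apply Tendsto.const_mul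
        apply Real.tendsto_exp_atBot.comp
        have : (fun y : ℝ => -2 * π * y / h) = fun y => (-(2 * π / h)) * y := by
          funext y; ring
        rw [this]
        exact Tendsto.const_mul_atTop_of_neg (by simp; positivity) tendsto_id
      rw [mul_zero, mul_zero] at h2
      have h3 : ∀ᶠ y : ℝ in atTop, ‖c‖ * (K₁ * Real.exp (-2 * π * y / h)) < ε :=
        h2.eventually (gt_mem_nhds hε)
      obtain ⟨T, hT⟩ := ((h3.and (eventually_ge_atTop 1)).and (eventually_ge_atTop T₁)).exists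
      exact ⟨T, hT.1.2, hT.2, hT.1.1⟩
    refine ⟨T, 2 * π * m * k / h, K / (‖c‖ * a₀) ^ k, fun z hz => ?_⟩
    have hz1 : 1 ≤ z.im := hT1.trans hz
    have hu : c * F (δ • z) - c * Lδ = c * eichlerSeries h a 1 z := by
      rw [hexp z]; ring
    have hlow' : a₀ * Real.exp (-2 * π * m * z.im / h) ≤ ‖eichlerSeries h a 1 (z : ℂ)‖ :=
      hlow z (hTT₁.trans hz)
    have hE0 : 0 < ‖eichlerSeries h a 1 (z : ℂ)‖ :=
      lt_of_lt_of_le (by positivity) hlow'
    have hpos : 0 < ‖c * F (δ • z) - c * Lδ‖ := by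
      rw [hu, norm_mul]
      exact mul_pos hcn hE0
    have hlt : ‖c * F (δ • z) - c * Lδ‖ < ε := by
      rw [hu, norm_mul]
      have h1 : ‖eichlerSeries h a 1 (z : ℂ)‖ ≤ K₁ * Real.exp (-2 * π * T / h) := by
        refine (hK₁ z hz1).trans ?_
        apply mul_le_mul_of_nonneg_left _ hK₁0
        apply Real.exp_le_exp.mpr
        apply div_le_div_of_nonneg_right _ hh.le
        have : (z : ℂ).im = z.im := rfl
        nlinarith [Real.pi_pos]
      calc ‖c‖ * ‖eichlerSeries h a 1 (z : ℂ)‖ ≤ ‖c‖ * (K₁ * Real.exp (-2 * π * T / h)) := by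
            gcongr
        _ < ε := hT
    obtain ⟨hPan, hPbd⟩ := hPb _ hpos hlt
    constructor
    · have hin := analyticAt_mul_comp_smul hF c δ z
      have hout : AnalyticAt ℂ P ((fun w : ℂ => c * F (δ • ofComplex w)) (z : ℂ)) := by
        simpa only [ofComplex_apply] using hPan
      exact AnalyticAt.comp (f := fun w : ℂ => c * F (δ • ofComplex w)) hout hin
    · have hden : ‖c‖ * a₀ * Real.exp (-2 * π * m * z.im / h) ≤ ‖c * F (δ • z) - c * Lδ‖ := by
        rw [hu, norm_mul, mul_assoc]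
        exact mul_le_mul_of_nonneg_left hlow' hcn.le
      have hden0 : 0 < ‖c‖ * a₀ * Real.exp (-2 * π * m * z.im / h) := by positivity
      have hexpk : (Real.exp (-2 * π * m * z.im / h) ^ k)⁻¹ =
          Real.exp (2 * π * m * k / h * z.im) := by
        rw [← Real.exp_nat_mul, ← Real.exp_neg]
        congr 1
        ring
      calc ‖P (c * F (δ • z))‖ ≤ K / ‖c * F (δ • z) - c * Lδ‖ ^ k := hPbd
        _ ≤ K / (‖c‖ * a₀ * Real.exp (-2 * π * m * z.im / h)) ^ k := by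
            apply div_le_div_of_nonneg_left hK0 (pow_pos hden0 k)
            exact pow_le_pow_left₀ hden0.le hden k
        _ = K / (‖c‖ * a₀) ^ k * Real.exp (2 * π * m * k / h * z.im) := by
            rw [mul_pow, ← hexpk, div_mul_eq_div_div, div_eq_mul_inv (K / (‖c‖ * a₀) ^ k)]

end Growth

/-! ### Part 5: the parametrisation functions `X = ℘(c·F)`, `Y = ℘'(c·F)` -/

/-- `X z = ℘[L] (c * F z)`. -/
def paramX (L : PeriodPair) (c : ℂ) (F : ℍ → ℂ) : ℍ → ℂ := fun z => ℘[L] (c * F z)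

/-- `Y z = ℘'[L] (c * F z)`. -/
def paramY (L : PeriodPair) (c : ℂ) (F : ℍ → ℂ) : ℍ → ℂ := fun z => ℘'[L] (c * F z)

@[simp] lemma paramX_apply (L : PeriodPair) (c : ℂ) (F : ℍ → ℂ) (z : ℍ) :
    paramX L c F z = ℘[L] (c * F z) := rfl

@[simp] lemma paramY_apply (L : PeriodPair) (c : ℂ) (F : ℍ → ℂ) (z : ℍ) :
    paramY L c F z = ℘'[L] (c * F z) := rfl

section Param

variable {N : ℕ} {f : CuspForm (Gamma0 N) 2} {F : ℍ → ℂ}

/-- (H1) for `X`: meromorphic at every point of the upper half plane. -/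
theorem meromorphicAt_paramX (hF : HasEquivariantPrimitive N f F) (c : ℂ) (L : PeriodPair)
    (z : ℍ) : MeromorphicAt (paramX L c F ∘ ofComplex) (z : ℂ) :=
  (L.meromorphic_weierstrassP _).comp_analyticAt (analyticAt_mul_primitive hF c z)

/-- (H1) for `Y`: meromorphic at every point of the upper half plane. -/
theorem meromorphicAt_paramY (hF : HasEquivariantPrimitive N f F) (c : ℂ) (L : PeriodPair)
    (z : ℍ) : MeromorphicAt (paramY L c F ∘ ofComplex) (z : ℂ) :=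
  (L.meromorphic_derivWeierstrassP _).comp_analyticAt (analyticAt_mul_primitive hF c z)

/-- (H2) for `X`: invariance under `Γ₀(N)`. -/
theorem paramX_smul (hF : HasEquivariantPrimitive N f F) (c : ℂ) (L : PeriodPair)
    (hL : ∀ γ : Gamma0 N, c * hF.2.2.1.period γ ∈ L.lattice) (γ : Gamma0 N) (z : ℍ) :
    paramX L c F ((γ : SL(2, ℤ)) • z) = paramX L c F z := by
  have h1 := hF.2.2.1.sub_eq_period γ z
  have h2 : c * F ((γ : SL(2, ℤ)) • z) = c * F z + c * hF.2.2.1.period γ := by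
    rw [← h1]; ring
  simp only [paramX_apply, h2]
  exact L.weierstrassP_add_coe _ ⟨_, hL γ⟩

/-- (H2) for `Y`: invariance under `Γ₀(N)`. -/
theorem paramY_smul (hF : HasEquivariantPrimitive N f F) (c : ℂ) (L : PeriodPair)
    (hL : ∀ γ : Gamma0 N, c * hF.2.2.1.period γ ∈ L.lattice) (γ : Gamma0 N) (z : ℍ) :
    paramY L c F ((γ : SL(2, ℤ)) • z) = paramY L c F z := by
  have h1 := hF.2.2.1.sub_eq_period γ z
  have h2 : c * F ((γ : SL(2, ℤ)) • z) = c * F z + c * hF.2.2.1.period γ := by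
    rw [← h1]; ring
  simp only [paramY_apply, h2]
  exact L.derivWeierstrassP_add_coe _ ⟨_, hL γ⟩

/-- (H3) for `X`: holomorphic and of moderate growth near every cusp. -/
theorem exists_growth_paramX [NeZero N] (hF : HasEquivariantPrimitive N f F) (c : ℂ)
    (L : PeriodPair) (g : SL(2, ℤ)) :
    ∃ T m C : ℝ, ∀ z : ℍ, T ≤ z.im →
      AnalyticAt ℂ (paramX L c F ∘ (fun w : ℍ => g • w) ∘ ofComplex) (z : ℂ) ∧
        ‖paramX L c F (g • z)‖ ≤ C * Real.exp (m * z.im) := by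
  refine exists_growth hF c ℘[L] 2 (fun x₀ => ?_) g
  obtain ⟨ε, K, hε, hK, hb⟩ := exists_weierstrassP_bounds L x₀
  exact ⟨ε, K, hε, hK, fun u hu0 hu =>
    ⟨L.analyticOnNhd_weierstrassP u (hb u hu0 hu).1, (hb u hu0 hu).2.1⟩⟩

/-- (H3) for `Y`: holomorphic and of moderate growth near every cusp. -/
theorem exists_growth_paramY [NeZero N] (hF : HasEquivariantPrimitive N f F) (c : ℂ)
    (L : PeriodPair) (g : SL(2, ℤ)) :
    ∃ T m C : ℝ, ∀ z : ℍ, T ≤ z.im →
      AnalyticAt ℂ (paramY L c F ∘ (fun w : ℍ => g • w) ∘ ofComplex) (z : ℂ) ∧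
        ‖paramY L c F (g • z)‖ ≤ C * Real.exp (m * z.im) := by
  refine exists_growth hF c ℘'[L] 3 (fun x₀ => ?_) g
  obtain ⟨ε, K, hε, hK, hb⟩ := exists_weierstrassP_bounds L x₀
  exact ⟨ε, K, hε, hK, fun u hu0 hu =>
    ⟨L.analyticOnNhd_derivWeierstrassP u (hb u hu0 hu).1, (hb u hu0 hu).2.2⟩⟩

/-- (AN) for `X`: holomorphic off the pole set. -/
theorem analyticAt_paramX (hF : HasEquivariantPrimitive N f F) (c : ℂ) (L : PeriodPair)
    (z : ℍ) (hz : c * F z ∉ L.lattice) : AnalyticAt ℂ (paramX L c F ∘ ofComplex) (z : ℂ) := by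
  have hin := analyticAt_mul_primitive hF c z
  have hout : AnalyticAt ℂ ℘[L] ((fun w : ℂ => c * F (ofComplex w)) (z : ℂ)) := by
    simp only [ofComplex_apply]
    exact L.analyticOnNhd_weierstrassP _ hz
  exact AnalyticAt.comp (f := fun w : ℂ => c * F (ofComplex w)) hout hin

/-- (AN) for `Y`: holomorphic off the pole set. -/
theorem analyticAt_paramY (hF : HasEquivariantPrimitive N f F) (c : ℂ) (L : PeriodPair)
    (z : ℍ) (hz : c * F z ∉ L.lattice) : AnalyticAt ℂ (paramY L c F ∘ ofComplex) (z : ℂ) := by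
  have hin := analyticAt_mul_primitive hF c z
  have hout : AnalyticAt ℂ ℘'[L] ((fun w : ℂ => c * F (ofComplex w)) (z : ℂ)) := by
    simp only [ofComplex_apply]
    exact L.analyticOnNhd_derivWeierstrassP _ hz
  exact AnalyticAt.comp (f := fun w : ℂ => c * F (ofComplex w)) hout hin

/-- (D): off the pole set, `dX/dz = c · f · Y`. -/
theorem hasDerivAt_paramX (hF : HasEquivariantPrimitive N f F) (c : ℂ) (L : PeriodPair)
    (z : ℍ) (hz : c * F z ∉ L.lattice) :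
    HasDerivAt (paramX L c F ∘ ofComplex) (c * f z * paramY L c F z) (z : ℂ) := by
  have hin : HasDerivAt (fun w : ℂ => c * F (ofComplex w)) (c * f z) (z : ℂ) :=
    (hF.1 z).const_mul c
  have hopen : IsOpen (L.lattice : Set ℂ)ᶜ := L.isClosed_lattice.isOpen_compl
  have hd : DifferentiableAt ℂ ℘[L] (c * F z) :=
    (L.differentiableOn_weierstrassP _ hz).differentiableAt (hopen.mem_nhds hz)
  have hout : HasDerivAt ℘[L] (℘'[L] (c * F z)) ((fun w : ℂ => c * F (ofComplex w)) (z : ℂ)) := by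
    simp only [ofComplex_apply]
    have := hd.hasDerivAt
    rwa [L.deriv_weierstrassP] at this
  have h := HasDerivAt.comp (h := fun w : ℂ => c * F (ofComplex w)) (z : ℂ) hout hin
  refine h.congr_deriv ?_
  simp only [paramY_apply]
  ring

/-- (E): off the pole set, `Y² = 4X³ - g₂X - g₃`. -/
theorem paramY_sq (L : PeriodPair) (c : ℂ) (F : ℍ → ℂ) (z : ℍ) (hz : c * F z ∉ L.lattice) :
    paramY L c F z ^ 2 = 4 * paramX L c F z ^ 3 - L.g₂ * paramX L c F z - L.g₃ :=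
  L.derivWeierstrassP_sq _ hz

end Param

end Fermat.Agent.S58.helper3404
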