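import Mathlib

/-!
# S58 (route #1886, step 2): the Laurent coefficients of the Weierstrass `℘`-function are universal
polynomials in `g₂, g₃`, and the lattice is determined by `(g₂, g₃)`  (helper3413)

Mathlib-only.  For a Mathlib `PeriodPair` `L`:

* `wpCoeff : ℕ → MvPolynomial (Fin 2) ℚ` : explicit universal polynomials (`wpCoeff_zero` …
  `wpCoeff_add_five` are the defining recursion);
* `coeff_serA` / `G_eq` : `(n + 1) * L.G (n + 2) = aeval ![L.g₂, L.g₃] (wpCoeff n)` for `n ≠ 0`;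
* `hasSum_weierstrassP` : `℘[L] z - 1 / z ^ 2 = ∑ n, aeval ![L.g₂, L.g₃] (wpCoeff n) * z ^ n` for all
  `z ≠ 0` closer to `0` than every nonzero lattice point;
* `lattice_eq_of_g₂_g₃` : `L.g₂ = L'.g₂ → L.g₃ = L'.g₃ → L.lattice = L'.lattice`
  (and `weierstrassP_eq_of_g₂_g₃`).

Route: Mathlib's `derivWeierstrassP_sq` (`℘'² = 4℘³ - g₂℘ - g₃`) is turned into an identity of
formal power series for `A = ℘ - z⁻²`, `B = ℘' + 2 z⁻³`; formal differentiation and cancellation of
the unit `X³ B - 2` give `X² A'' - 12 A = 6 X² A² - (g₂/2) X²`, whose coefficients are the recursion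
`(n - 4)(n + 3) aₙ = 6 ∑_{i + j = n - 2} aᵢ aⱼ` (`n ≥ 5`).
-/

set_option autoImplicit false

open scoped Topology
open Filter Finset

namespace Fermat.Agent.S58.helper3413

/-! ### A small bridge between analytic germs at `0` and `PowerSeries ℂ` -/

/-- `f` is, near `0`, the sum of the power series `a`. -/
def IsTaylor (f : ℂ → ℂ) (a : PowerSeries ℂ) : Prop :=
  ∃ r : ℝ, 0 < r ∧ ∀ z : ℂ, ‖z‖ < r → HasSum (fun n : ℕ ↦ PowerSeries.coeff n a * z ^ n) (f z)

theorem summable_norm_of_forall_summable {c : ℕ → ℂ} {r : ℝ}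
    (h : ∀ z : ℂ, ‖z‖ < r → Summable fun n : ℕ ↦ c n * z ^ n) {z : ℂ} (hz : ‖z‖ < r) :
    Summable fun n : ℕ ↦ ‖c n * z ^ n‖ := by
  obtain ⟨w, hzw, hwr⟩ := exists_between hz
  have hw0 : 0 < w := (norm_nonneg z).trans_lt hzw
  have hsw : Summable fun n : ℕ ↦ c n * (w : ℂ) ^ n :=
    h w (by simpa [abs_of_pos hw0] using hwr)
  obtain ⟨M, hM⟩ := (hsw.tendsto_atTop_zero.norm).bddAbove_range
  have hM' : ∀ n, ‖c n * (w : ℂ) ^ n‖ ≤ M := fun n ↦ hM (Set.mem_range_self n)
  have hρ : ‖z‖ / w < 1 := (div_lt_one hw0).mpr hzw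
  have hρ0 : 0 ≤ ‖z‖ / w := div_nonneg (norm_nonneg z) hw0.le
  refine Summable.of_nonneg_of_le (fun n ↦ norm_nonneg _) (fun n ↦ ?_)
    ((summable_geometric_of_lt_one hρ0 hρ).mul_left M)
  have hwn : (w : ℝ) ^ n ≠ 0 := pow_ne_zero _ hw0.ne'
  calc ‖c n * z ^ n‖ = ‖c n * (w : ℂ) ^ n‖ * (‖z‖ / w) ^ n := by
        simp only [norm_mul, norm_pow, Complex.norm_real, Real.norm_eq_abs, abs_of_pos hw0,
          div_pow]
        field_simp
    _ ≤ M * (‖z‖ / w) ^ n := mul_le_mul_of_nonneg_right (hM' n) (pow_nonneg hρ0 n)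

theorem IsTaylor.summable_norm {f : ℂ → ℂ} {a : PowerSeries ℂ} {r : ℝ}
    (h : ∀ z : ℂ, ‖z‖ < r → HasSum (fun n : ℕ ↦ PowerSeries.coeff n a * z ^ n) (f z))
    {z : ℂ} (hz : ‖z‖ < r) : Summable fun n : ℕ ↦ ‖PowerSeries.coeff n a * z ^ n‖ :=
  summable_norm_of_forall_summable (fun w hw ↦ (h w hw).summable) hz

theorem isTaylor_const (c : ℂ) : IsTaylor (fun _ ↦ c) (PowerSeries.C c) := by
  refine ⟨1, one_pos, fun z _ ↦ ?_⟩
  have : (fun n : ℕ ↦ PowerSeries.coeff n (PowerSeries.C c : PowerSeries ℂ) * z ^ n) =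
      fun n : ℕ ↦ if n = 0 then c else 0 := by
    funext n
    rw [PowerSeries.coeff_C]
    split_ifs with h
    · simp [h]
    · simp
  rw [this]
  exact hasSum_ite_eq 0 c

theorem isTaylor_X_pow (k : ℕ) : IsTaylor (fun z ↦ z ^ k) ((PowerSeries.X : PowerSeries ℂ) ^ k) := by
  refine ⟨1, one_pos, fun z _ ↦ ?_⟩
  have : (fun n : ℕ ↦ PowerSeries.coeff n ((PowerSeries.X : PowerSeries ℂ) ^ k) * z ^ n) =
      fun n : ℕ ↦ if n = k then z ^ k else 0 := by
    funext n
    rw [PowerSeries.coeff_X_pow]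
    split_ifs with h
    · simp [h]
    · simp
  rw [this]
  exact hasSum_ite_eq k (z ^ k)

theorem IsTaylor.add {f g : ℂ → ℂ} {a b : PowerSeries ℂ} (hf : IsTaylor f a) (hg : IsTaylor g b) :
    IsTaylor (fun z ↦ f z + g z) (a + b) := by
  obtain ⟨r, hr, hfr⟩ := hf
  obtain ⟨s, hs, hgs⟩ := hg
  refine ⟨min r s, lt_min hr hs, fun z hz ↦ ?_⟩
  have := (hfr z (hz.trans_le (min_le_left _ _))).add (hgs z (hz.trans_le (min_le_right _ _)))
  simpa [add_mul] using this

theorem IsTaylor.neg {f : ℂ → ℂ} {a : PowerSeries ℂ} (hf : IsTaylor f a) :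
    IsTaylor (fun z ↦ - f z) (-a) := by
  obtain ⟨r, hr, hfr⟩ := hf
  refine ⟨r, hr, fun z hz ↦ ?_⟩
  simpa using (hfr z hz).neg

theorem IsTaylor.sub {f g : ℂ → ℂ} {a b : PowerSeries ℂ} (hf : IsTaylor f a) (hg : IsTaylor g b) :
    IsTaylor (fun z ↦ f z - g z) (a - b) := by
  simpa [sub_eq_add_neg] using hf.add hg.neg

theorem IsTaylor.mul {f g : ℂ → ℂ} {a b : PowerSeries ℂ} (hf : IsTaylor f a) (hg : IsTaylor g b) :
    IsTaylor (fun z ↦ f z * g z) (a * b) := by
  obtain ⟨r, hr, hfr⟩ := hf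
  obtain ⟨s, hs, hgs⟩ := hg
  refine ⟨min r s, lt_min hr hs, fun z hz ↦ ?_⟩
  have hzr : ‖z‖ < r := hz.trans_le (min_le_left _ _)
  have hzs : ‖z‖ < s := hz.trans_le (min_le_right _ _)
  have h1 := IsTaylor.summable_norm hfr hzr
  have h2 := IsTaylor.summable_norm hgs hzs
  have hprod := tsum_mul_tsum_eq_tsum_sum_antidiagonal_of_summable_norm h1 h2
  have hsum := summable_norm_sum_mul_antidiagonal_of_summable_norm h1 h2
  have hterm : ∀ n : ℕ, PowerSeries.coeff n (a * b) * z ^ n =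
      ∑ kl ∈ antidiagonal n, (PowerSeries.coeff kl.1 a * z ^ kl.1) *
        (PowerSeries.coeff kl.2 b * z ^ kl.2) := by
    intro n
    rw [PowerSeries.coeff_mul, Finset.sum_mul]
    refine Finset.sum_congr rfl fun kl hkl ↦ ?_
    rw [← (mem_antidiagonal.mp hkl), pow_add]
    ring
  have hs' : Summable fun n : ℕ ↦ PowerSeries.coeff n (a * b) * z ^ n := by
    simp_rw [hterm]
    exact hsum.of_norm
  rw [hs'.hasSum_iff]
  simp_rw [hterm]
  rw [← hprod, (hfr z hzr).tsum_eq, (hgs z hzs).tsum_eq]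

theorem IsTaylor.pow {f : ℂ → ℂ} {a : PowerSeries ℂ} (hf : IsTaylor f a) (k : ℕ) :
    IsTaylor (fun z ↦ f z ^ k) (a ^ k) := by
  induction k with
  | zero => simpa using isTaylor_const 1
  | succ k ih => simpa [pow_succ] using ih.mul hf

theorem IsTaylor.congr {f g : ℂ → ℂ} {a : PowerSeries ℂ} (hf : IsTaylor f a)
    (h : ∀ᶠ z in 𝓝 (0 : ℂ), f z = g z) : IsTaylor g a := by
  obtain ⟨r, hr, hfr⟩ := hf
  obtain ⟨ε, hε, hε'⟩ := Metric.eventually_nhds_iff.mp h
  refine ⟨min r ε, lt_min hr hε, fun z hz ↦ ?_⟩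
  have := hfr z (hz.trans_le (min_le_left _ _))
  rwa [hε' (by simpa using hz.trans_le (min_le_right _ _))] at this

/-- The power series of a germ is unique: an `IsTaylor` function vanishing on a punctured
neighbourhood of `0` has the zero series. -/
theorem IsTaylor.eq_zero {f : ℂ → ℂ} {a : PowerSeries ℂ} (hf : IsTaylor f a)
    (h : ∀ᶠ z in 𝓝[≠] (0 : ℂ), f z = 0) : a = 0 := by
  obtain ⟨r, hr, hfr⟩ := hf
  set p : FormalMultilinearSeries ℂ ℂ ℂ :=
    FormalMultilinearSeries.ofScalars ℂ (fun n ↦ PowerSeries.coeff n a) with hp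
  set ρ : NNReal := ⟨r / 2, by positivity⟩ with hρ
  have hρr : ((ρ : ℝ) : ℂ) = ((r / 2 : ℝ) : ℂ) := rfl
  have hball : HasFPowerSeriesOnBall f p 0 ρ := by
    constructor
    · apply FormalMultilinearSeries.le_radius_of_tendsto (l := 0)
      have hs := (hfr ((r / 2 : ℝ) : ℂ) (by
        rw [Complex.norm_real, Real.norm_eq_abs, abs_of_pos (by positivity)]; linarith)).summable
      have := tendsto_norm.comp hs.tendsto_atTop_zero
      simp only [norm_zero] at this
      refine this.congr fun n ↦ ?_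
      simp only [Function.comp_apply, norm_mul, norm_pow, Complex.norm_real, Real.norm_eq_abs,
        hp, FormalMultilinearSeries.ofScalars_norm]
      rw [abs_of_pos (by positivity : (0 : ℝ) < r / 2)]
      rfl
    · exact ENNReal.coe_pos.mpr (by rw [hρ]; exact_mod_cast (by positivity : (0 : ℝ) < r / 2))
    · intro y hy
      have hy' : ‖y‖ < r := by
        have : ‖y‖ < r / 2 := by
          have := hy
          rw [Metric.mem_eball, edist_zero_right] at this
          have h2 : (‖y‖₊ : ENNReal) < (ρ : ENNReal) := by simpa [enorm_eq_nnnorm] using this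
          exact_mod_cast (ENNReal.coe_lt_coe.mp h2)
        linarith
      have := hfr y hy'
      simpa [hp, FormalMultilinearSeries.ofScalars_apply_eq, mul_comm] using this
  have hps : HasFPowerSeriesAt f p 0 := hball.hasFPowerSeriesAt
  have hev : ∀ᶠ z in 𝓝 (0 : ℂ), f z = 0 := by
    rcases hps.analyticAt.eventually_eq_zero_or_eventually_ne_zero with h0 | h0
    · exact h0
    · exact ((h.and h0).exists.elim fun z hz ↦ (hz.2 hz.1).elim)
  have hzero : HasFPowerSeriesAt (0 : ℂ → ℂ) p 0 := hps.congr hev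
  have hp0 : p = 0 := hzero.eq_zero
  have hc : (fun n ↦ PowerSeries.coeff n a) = 0 :=
    (FormalMultilinearSeries.ofScalars_series_eq_zero (E := ℂ)).mp hp0
  ext n
  simpa using congrFun hc n

theorem isTaylor_of_hasFPowerSeriesAt {f : ℂ → ℂ} {c : ℕ → ℂ}
    (h : HasFPowerSeriesAt f (FormalMultilinearSeries.ofScalars ℂ c) 0) :
    IsTaylor f (PowerSeries.mk c) := by
  obtain ⟨r, hr⟩ := h
  have hr0 : 0 < min r 1 := lt_min hr.r_pos one_pos
  have hrt : min r 1 ≠ ⊤ := ne_top_of_le_ne_top ENNReal.one_ne_top (min_le_right _ _)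
  refine ⟨(min r 1).toReal, ENNReal.toReal_pos hr0.ne' hrt, fun z hz ↦ ?_⟩
  have hzb : z ∈ Metric.eball (0 : ℂ) r := by
    rw [Metric.mem_eball, edist_zero_right]
    have h1 : ‖z‖ₑ < min r 1 := by
      rw [← ENNReal.ofReal_toReal hrt, ← ofReal_norm]
      exact (ENNReal.ofReal_lt_ofReal_iff (ENNReal.toReal_pos hr0.ne' hrt)).mpr hz
    exact h1.trans_le (min_le_left _ _)
  have := hr.hasSum hzb
  simpa [FormalMultilinearSeries.ofScalars_apply_eq, mul_comm] using this

/-! ### The Taylor series of `℘ - z⁻²` and `℘' + 2 z⁻³` at `0` -/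

open PeriodPair

variable (L : PeriodPair)

/-- Taylor series at `0` of `℘[L - 0] = ℘ - z⁻²`. -/
noncomputable def serA : PowerSeries ℂ :=
  PowerSeries.mk fun i : ℕ ↦ if i = 0 then 0 else ((i : ℂ) + 1) * L.G (i + 2)

/-- Taylor series at `0` of `℘'[L - 0] = ℘' + 2 z⁻³`. -/
noncomputable def serB : PowerSeries ℂ :=
  PowerSeries.mk fun i : ℕ ↦ ((i : ℂ) + 1) * ((i : ℂ) + 2) * L.G (i + 3)

theorem isTaylor_serA : IsTaylor (L.weierstrassPExcept 0) (serA L) := by
  have h := L.hasFPowerSeriesAt_weierstrassPExcept 0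
  simp only [weierstrassPExcept_zero, sumInvPow_zero] at h
  exact isTaylor_of_hasFPowerSeriesAt h

theorem isTaylor_serB : IsTaylor (L.derivWeierstrassPExcept 0) (serB L) := by
  have h := L.hasFPowerSeriesAt_derivWeierstrassPExcept 0
  simp only [sumInvPow_zero] at h
  exact isTaylor_of_hasFPowerSeriesAt h

theorem serB_eq_derivative : serB L = PowerSeries.derivative ℂ (serA L) := by
  ext n
  rw [PowerSeries.coeff_derivative]
  simp only [serA, serB, PowerSeries.coeff_mk, Nat.succ_ne_zero, if_false]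
  push_cast
  ring_nf

/-- The formal power series form of `℘'² = 4℘³ - g₂℘ - g₃`. -/
noncomputable def relE (A B : PowerSeries ℂ) (g2 g3 : ℂ) : PowerSeries ℂ :=
  (PowerSeries.X ^ 3 * B - PowerSeries.C 2) ^ 2 -
    (PowerSeries.C 4 * (PowerSeries.X ^ 2 * A + PowerSeries.C 1) ^ 3 -
      PowerSeries.C g2 * PowerSeries.X ^ 4 * (PowerSeries.X ^ 2 * A + PowerSeries.C 1) -
      PowerSeries.C g3 * PowerSeries.X ^ 6)

theorem relE_eq_zero : relE (serA L) (serB L) L.g₂ L.g₃ = 0 := by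
  have hA := isTaylor_serA L
  have hB := isTaylor_serB L
  have hT : IsTaylor (fun z : ℂ ↦ (z ^ 3 * L.derivWeierstrassPExcept 0 z - 2) ^ 2 -
      (4 * (z ^ 2 * L.weierstrassPExcept 0 z + 1) ^ 3 -
        L.g₂ * z ^ 4 * (z ^ 2 * L.weierstrassPExcept 0 z + 1) - L.g₃ * z ^ 6))
      (relE (serA L) (serB L) L.g₂ L.g₃) :=
    (((isTaylor_X_pow 3).mul hB).sub (isTaylor_const 2)).pow 2 |>.sub
      ((((isTaylor_const 4).mul ((((isTaylor_X_pow 2).mul hA).add (isTaylor_const 1)).pow 3)).sub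
        (((isTaylor_const L.g₂).mul (isTaylor_X_pow 4)).mul
          (((isTaylor_X_pow 2).mul hA).add (isTaylor_const 1)))).sub
        ((isTaylor_const L.g₃).mul (isTaylor_X_pow 6)))
  refine hT.eq_zero ?_
  have hmem : ((L.lattice : Set ℂ) \ {0})ᶜ ∈ 𝓝 (0 : ℂ) :=
    L.compl_lattice_sdiff_singleton_mem_nhds 0
  filter_upwards [mem_nhdsWithin_of_mem_nhds hmem, self_mem_nhdsWithin] with z hz hz0
  have hz0' : z ≠ 0 := hz0
  have hzL : z ∉ L.lattice := fun h ↦ hz ⟨h, hz0'⟩
  have h1 := L.weierstrassPExcept_def (0 : L.lattice) z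
  have h2 := L.derivWeierstrassPExcept_def (0 : L.lattice) z
  have h3 := L.derivWeierstrassP_sq z hzL
  simp only [ZeroMemClass.coe_zero, sub_zero] at h1 h2
  rw [h1, h2]
  have e1 : L.derivWeierstrassP z ^ 2 - (4 * L.weierstrassP z ^ 3 - L.g₂ * L.weierstrassP z - L.g₃)
      = 0 := by rw [h3]; ring
  have : (z ^ 3 * (L.derivWeierstrassP z + 2 / z ^ 3) - 2) ^ 2 -
      (4 * (z ^ 2 * (L.weierstrassP z + (1 / (0 : ℂ) ^ 2 - 1 / z ^ 2)) + 1) ^ 3 -
        L.g₂ * z ^ 4 * (z ^ 2 * (L.weierstrassP z + (1 / (0 : ℂ) ^ 2 - 1 / z ^ 2)) + 1) -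
        L.g₃ * z ^ 6) =
      z ^ 6 * (L.derivWeierstrassP z ^ 2 -
        (4 * L.weierstrassP z ^ 3 - L.g₂ * L.weierstrassP z - L.g₃)) := by
    field_simp
    ring
  rw [this, e1, mul_zero]

/-! ### Formal differentiation: the second order relation -/

/-- The formal power series form of `℘'' = 6℘² - g₂/2` (times `2 X²`). -/
noncomputable def relR (A : PowerSeries ℂ) (g2 : ℂ) : PowerSeries ℂ :=
  2 * PowerSeries.X ^ 2 * PowerSeries.derivative ℂ (PowerSeries.derivative ℂ A) - 24 * A -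
    12 * PowerSeries.X ^ 2 * A ^ 2 + PowerSeries.C g2 * PowerSeries.X ^ 2

theorem X_mul_derivative_relE (A : PowerSeries ℂ) (g2 g3 : ℂ) :
    PowerSeries.X * PowerSeries.derivative ℂ (relE A (PowerSeries.derivative ℂ A) g2 g3) -
      6 * relE A (PowerSeries.derivative ℂ A) g2 g3 =
    PowerSeries.X ^ 2 * (PowerSeries.X ^ 3 * PowerSeries.derivative ℂ A - 2) * relR A g2 := by
  simp only [relE, relR, map_sub, map_add, Derivation.leibniz, Derivation.leibniz_pow,
    PowerSeries.derivative_X, PowerSeries.derivative_C, smul_eq_mul, nsmul_eq_mul]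
  simp only [map_ofNat, map_one]
  push_cast
  ring

theorem relR_eq_zero : relR (serA L) L.g₂ = 0 := by
  have h := X_mul_derivative_relE (serA L) L.g₂ L.g₃
  rw [← serB_eq_derivative, relE_eq_zero, map_zero, mul_zero, mul_zero, sub_zero] at h
  have hX : (PowerSeries.X : PowerSeries ℂ) ^ 2 ≠ 0 := pow_ne_zero _ PowerSeries.X_ne_zero
  have hu : (PowerSeries.X : PowerSeries ℂ) ^ 3 * serB L - 2 ≠ 0 := by
    intro h0
    have := congrArg (PowerSeries.coeff 0) h0
    simp [PowerSeries.coeff_zero_eq_constantCoeff, map_ofNat] at this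
  rcases mul_eq_zero.mp h.symm with h1 | h1
  · rcases mul_eq_zero.mp h1 with h2 | h2
    · exact (hX h2).elim
    · exact (hu h2).elim
  · exact h1

/-! ### The coefficient recursion and the universal polynomials -/

theorem coeff_ofNat_mul (k : ℕ) [k.AtLeastTwo] (n : ℕ) (φ : PowerSeries ℂ) :
    PowerSeries.coeff n ((OfNat.ofNat k : PowerSeries ℂ) * φ) =
      (OfNat.ofNat k : ℂ) * PowerSeries.coeff n φ := by
  rw [← map_ofNat (PowerSeries.C (R := ℂ)) k, PowerSeries.coeff_C_mul]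

theorem coeff_serA_def (n : ℕ) :
    PowerSeries.coeff n (serA L) = if n = 0 then 0 else ((n : ℂ) + 1) * L.G (n + 2) := by
  simp [serA]

/-- The coefficient form of `relR = 0`. -/
theorem serA_rec (n : ℕ) :
    2 * (PowerSeries.coeff (n + 2) (serA L) * ((n : ℂ) + 1 + 1) * ((n : ℂ) + 1)) -
      24 * PowerSeries.coeff (n + 2) (serA L) -
      12 * ∑ x ∈ antidiagonal n,
        PowerSeries.coeff x.1 (serA L) * PowerSeries.coeff x.2 (serA L) +
      (if n = 0 then L.g₂ else 0) = 0 := by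
  have h := congrArg (PowerSeries.coeff (n + 2)) (relR_eq_zero L)
  simp only [relR, map_add, map_sub, map_zero] at h
  rw [mul_assoc (2 : PowerSeries ℂ), mul_assoc (12 : PowerSeries ℂ), coeff_ofNat_mul,
    coeff_ofNat_mul, coeff_ofNat_mul, PowerSeries.coeff_X_pow_mul, PowerSeries.coeff_X_pow_mul,
    PowerSeries.coeff_derivative, PowerSeries.coeff_derivative, pow_two (serA L),
    PowerSeries.coeff_mul, PowerSeries.coeff_C_mul, PowerSeries.coeff_X_pow] at h
  have hite : L.g₂ * (if n + 2 = 2 then (1 : ℂ) else 0) = if n = 0 then L.g₂ else 0 := by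
    by_cases hn : n = 0 <;> simp [hn]
  rw [hite] at h
  push_cast at h
  exact h

/-- The universal polynomials: `wpCoeff n` evaluated at `(g₂, g₃)` is the coefficient of `zⁿ` in
the Laurent expansion of `℘` at `0`. -/
noncomputable def wpCoeff : ℕ → MvPolynomial (Fin 2) ℚ
  | 0 => 0
  | 1 => 0
  | 2 => MvPolynomial.C (1 / 20) * MvPolynomial.X 0
  | 3 => 0
  | 4 => MvPolynomial.C (1 / 28) * MvPolynomial.X 1
  | (m + 5) => MvPolynomial.C (6 / (((m : ℚ) + 1) * ((m : ℚ) + 8))) *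
      ∑ x ∈ (antidiagonal (m + 3)).attach, wpCoeff x.1.1 * wpCoeff x.1.2
decreasing_by
  all_goals
    have := mem_antidiagonal.mp x.2
    omega

theorem wpCoeff_zero : wpCoeff 0 = 0 := by rw [wpCoeff]
theorem wpCoeff_one : wpCoeff 1 = 0 := by rw [wpCoeff]
theorem wpCoeff_two : wpCoeff 2 = MvPolynomial.C (1 / 20) * MvPolynomial.X 0 := by rw [wpCoeff]
theorem wpCoeff_three : wpCoeff 3 = 0 := by rw [wpCoeff]
theorem wpCoeff_four : wpCoeff 4 = MvPolynomial.C (1 / 28) * MvPolynomial.X 1 := by rw [wpCoeff]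
theorem wpCoeff_add_five (m : ℕ) :
    wpCoeff (m + 5) = MvPolynomial.C (6 / (((m : ℚ) + 1) * ((m : ℚ) + 8))) *
      ∑ x ∈ antidiagonal (m + 3), wpCoeff x.1 * wpCoeff x.2 := by
  rw [wpCoeff, Finset.sum_attach (antidiagonal (m + 3)) (fun x ↦ wpCoeff x.1 * wpCoeff x.2)]

/-- **Universality of the Laurent coefficients of `℘`.**  The `n`-th Taylor coefficient of
`℘ - z⁻²` at `0` is the universal polynomial `wpCoeff n` evaluated at `(g₂, g₃)`. -/
theorem coeff_serA (n : ℕ) :
    PowerSeries.coeff n (serA L) = MvPolynomial.aeval ![L.g₂, L.g₃] (wpCoeff n) := by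
  induction n using Nat.strong_induction_on with
  | _ n ih =>
    match n, ih with
    | 0, _ => simp [coeff_serA_def, wpCoeff_zero]
    | 1, _ =>
      simp [coeff_serA_def, wpCoeff_one, L.G_eq_zero_of_odd 3 (by decide)]
    | 2, _ =>
      simp only [coeff_serA_def, wpCoeff_two, map_mul, MvPolynomial.aeval_C, MvPolynomial.aeval_X,
        Matrix.cons_val_zero, PeriodPair.g₂]
      simp
      ring
    | 3, _ =>
      simp [coeff_serA_def, wpCoeff_three, L.G_eq_zero_of_odd 5 (by decide)]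
    | 4, _ =>
      simp only [coeff_serA_def, wpCoeff_four, map_mul, MvPolynomial.aeval_C, MvPolynomial.aeval_X,
        Matrix.cons_val_one, PeriodPair.g₃]
      simp
      ring
    | m + 5, ih =>
      have hrec := serA_rec L (m + 3)
      rw [if_neg (by omega)] at hrec
      have hsum : ∑ x ∈ antidiagonal (m + 3),
          PowerSeries.coeff x.1 (serA L) * PowerSeries.coeff x.2 (serA L) =
          ∑ x ∈ antidiagonal (m + 3), MvPolynomial.aeval ![L.g₂, L.g₃] (wpCoeff x.1) *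
            MvPolynomial.aeval ![L.g₂, L.g₃] (wpCoeff x.2) := by
        refine Finset.sum_congr rfl fun x hx ↦ ?_
        have := mem_antidiagonal.mp hx
        rw [ih x.1 (by omega), ih x.2 (by omega)]
      rw [hsum] at hrec
      rw [wpCoeff_add_five, map_mul, map_sum, MvPolynomial.aeval_C]
      simp only [map_mul]
      have hm1 : ((m : ℂ) + 1) ≠ 0 := by exact_mod_cast Nat.succ_ne_zero m
      have hm8 : ((m : ℂ) + 8) ≠ 0 := by exact_mod_cast (by omega : m + 8 ≠ 0)
      have hcast : (algebraMap ℚ ℂ) (6 / (((m : ℚ) + 1) * ((m : ℚ) + 8))) =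
          6 / (((m : ℂ) + 1) * ((m : ℂ) + 8)) := by
        simp
      rw [hcast]
      have hcoe : ((m + 3 : ℕ) : ℂ) = (m : ℂ) + 3 := by push_cast; ring
      rw [show m + 3 + 2 = m + 5 from rfl, hcoe] at hrec
      field_simp
      linear_combination (1 / 2 : ℂ) * hrec

/-- The Eisenstein sums `G n` (`n ≥ 3`) are universal polynomials in `g₂, g₃`. -/
theorem G_eq (n : ℕ) :
    ((n : ℂ) + 2) * L.G (n + 3) = MvPolynomial.aeval ![L.g₂, L.g₃] (wpCoeff (n + 1)) := by
  rw [← coeff_serA, coeff_serA_def, if_neg (Nat.succ_ne_zero n)]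
  push_cast
  ring_nf

/-- Compatibility of the universal coefficients with ring homomorphisms (e.g. field automorphisms
of `ℂ`). -/
theorem map_aeval_wpCoeff (σ : ℂ →+* ℂ) (a b : ℂ) (n : ℕ) :
    σ (MvPolynomial.aeval ![a, b] (wpCoeff n)) = MvPolynomial.aeval ![σ a, σ b] (wpCoeff n) := by
  have h1 : MvPolynomial.aeval ![a, b] (wpCoeff n) =
      MvPolynomial.eval₂ (algebraMap ℚ ℂ) ![a, b] (wpCoeff n) := rfl
  have h2 : MvPolynomial.aeval ![σ a, σ b] (wpCoeff n) =
      MvPolynomial.eval₂ (algebraMap ℚ ℂ) ![σ a, σ b] (wpCoeff n) := rfl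
  rw [h1, h2, MvPolynomial.eval₂_comp_left σ]
  congr 1
  · exact Subsingleton.elim _ _
  · funext i
    fin_cases i <;> simp

/-- **Laurent expansion of `℘` at `0` with universal coefficients**: for `z` closer to `0` than
every nonzero lattice point. -/
theorem hasSum_weierstrassP (z : ℂ) (hz : ∀ l : L.lattice, (l : ℂ) ≠ 0 → ‖z‖ < ‖(l : ℂ)‖) :
    HasSum (fun n : ℕ ↦ MvPolynomial.aeval ![L.g₂, L.g₃] (wpCoeff n) * z ^ n)
      (L.weierstrassP z - 1 / z ^ 2) := by
  have h := L.weierstrassPExceptSeries_hasSum 0 z 0 (by simpa using hz)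
  have h1 := L.weierstrassPExcept_def (0 : L.lattice) z
  simp only [ZeroMemClass.coe_zero, sub_zero] at h1
  have h2 : L.weierstrassPExcept 0 z = L.weierstrassP z - 1 / z ^ 2 := by
    rw [h1]; simp [sub_eq_add_neg]
  rw [h2] at h
  have hc : ∀ i : ℕ, (L.weierstrassPExceptSeries 0 0).coeff i = PowerSeries.coeff i (serA L) := by
    intro i
    rw [coeff_serA_def]
    simp [PeriodPair.weierstrassPExceptSeries, FormalMultilinearSeries.coeff_ofScalars]
  have hfun : (fun i : ℕ ↦ (L.weierstrassPExceptSeries 0 0).coeff i * (z - 0) ^ i) =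
      fun n : ℕ ↦ MvPolynomial.aeval ![L.g₂, L.g₃] (wpCoeff n) * z ^ n := by
    funext i
    rw [hc, coeff_serA, sub_zero]
  rwa [hfun] at h

/-! ### The lattice is determined by `(g₂, g₃)` -/

theorem serA_eq_of_g₂_g₃ {L L' : PeriodPair} (h₂ : L.g₂ = L'.g₂) (h₃ : L.g₃ = L'.g₃) :
    serA L = serA L' := by
  ext n
  rw [coeff_serA, coeff_serA, h₂, h₃]

theorem exists_weierstrassP_eq_of_g₂_g₃ {L L' : PeriodPair} (h₂ : L.g₂ = L'.g₂)
    (h₃ : L.g₃ = L'.g₃) :
    ∃ r : ℝ, 0 < r ∧ ∀ z : ℂ, ‖z‖ < r → L.weierstrassP z = L'.weierstrassP z := by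
  obtain ⟨r, hr, h⟩ := isTaylor_serA L
  obtain ⟨r', hr', h'⟩ := isTaylor_serA L'
  refine ⟨min r r', lt_min hr hr', fun z hz ↦ ?_⟩
  have e1 := h z (hz.trans_le (min_le_left _ _))
  have e2 := h' z (hz.trans_le (min_le_right _ _))
  rw [← serA_eq_of_g₂_g₃ h₂ h₃] at e2
  have e := e1.unique e2
  have d1 := L.weierstrassPExcept_def (0 : L.lattice) z
  have d2 := L'.weierstrassPExcept_def (0 : L'.lattice) z
  simp only [ZeroMemClass.coe_zero, sub_zero] at d1 d2
  rw [d1, d2] at e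
  exact add_right_cancel e

theorem countable_lattice (L : PeriodPair) : (L.lattice : Set ℂ).Countable := by
  have : Countable L.lattice := L.latticeEquivProd.toEquiv.countable_iff.mpr inferInstance
  exact Set.countable_coe_iff.mp this

theorem lattice_le_of_g₂_g₃ {L L' : PeriodPair} (h₂ : L.g₂ = L'.g₂) (h₃ : L.g₃ = L'.g₃) :
    L.lattice ≤ L'.lattice := by
  obtain ⟨r, hr, heq⟩ := exists_weierstrassP_eq_of_g₂_g₃ h₂ h₃
  set S : Set ℂ := (L.lattice : Set ℂ) ∪ (L'.lattice : Set ℂ) with hS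
  have hScount : S.Countable := (countable_lattice L).union (countable_lattice L')
  have hconn : IsPreconnected Sᶜ :=
    (hScount.isPathConnected_compl_of_one_lt_rank
      (by rw [Complex.rank_real_complex]; exact Nat.one_lt_ofNat)).isConnected.isPreconnected
  have hanL : AnalyticOnNhd ℂ L.weierstrassP Sᶜ :=
    L.analyticOnNhd_weierstrassP.mono (fun x hx hxL ↦ hx (Or.inl hxL))
  have hanL' : AnalyticOnNhd ℂ L'.weierstrassP Sᶜ :=
    L'.analyticOnNhd_weierstrassP.mono (fun x hx hxL ↦ hx (Or.inr hxL))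
  have hnb : ((L.lattice : Set ℂ) \ {0})ᶜ ∩ ((L'.lattice : Set ℂ) \ {0})ᶜ ∩ Metric.ball 0 r ∈
      𝓝 (0 : ℂ) :=
    Filter.inter_mem (Filter.inter_mem (L.compl_lattice_sdiff_singleton_mem_nhds 0)
      (L'.compl_lattice_sdiff_singleton_mem_nhds 0)) (Metric.ball_mem_nhds 0 hr)
  obtain ⟨ε, hε, hεsub⟩ := Metric.mem_nhds_iff.mp hnb
  set z₀ : ℂ := ((ε / 2 : ℝ) : ℂ) with hz₀
  have hz₀ne : z₀ ≠ 0 := by
    rw [hz₀]
    exact_mod_cast (by positivity : (ε / 2 : ℝ) ≠ 0)
  have hz₀mem : z₀ ∈ Metric.ball (0 : ℂ) ε := by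
    rw [Metric.mem_ball, dist_zero_right, hz₀, Complex.norm_real, Real.norm_eq_abs,
      abs_of_pos (by positivity)]
    linarith
  have hz₀' := hεsub hz₀mem
  have hz₀S : z₀ ∈ Sᶜ := by
    rintro (h | h)
    · exact hz₀'.1.1 ⟨h, hz₀ne⟩
    · exact hz₀'.1.2 ⟨h, hz₀ne⟩
  have hev : L.weierstrassP =ᶠ[𝓝 z₀] L'.weierstrassP := by
    have : Metric.ball (0 : ℂ) r ∈ 𝓝 z₀ := Metric.isOpen_ball.mem_nhds hz₀'.2
    filter_upwards [this] with z hz
    exact heq z (by simpa using hz)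
  have hEqOn : Set.EqOn L.weierstrassP L'.weierstrassP Sᶜ :=
    hanL.eqOn_of_preconnected_of_eventuallyEq hanL' hconn hz₀S hev
  intro l hl
  by_contra hl'
  have hord := L.order_weierstrassP l hl
  have han : AnalyticAt ℂ L'.weierstrassP l := L'.analyticOnNhd_weierstrassP l hl'
  have hcongr : L.weierstrassP =ᶠ[𝓝[≠] l] L'.weierstrassP := by
    have h1 : ((L.lattice : Set ℂ) \ {l})ᶜ ∈ 𝓝 l := L.compl_lattice_sdiff_singleton_mem_nhds l
    have h2 : ((L'.lattice : Set ℂ) \ {l})ᶜ ∈ 𝓝 l := L'.compl_lattice_sdiff_singleton_mem_nhds l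
    filter_upwards [mem_nhdsWithin_of_mem_nhds h1, mem_nhdsWithin_of_mem_nhds h2,
      self_mem_nhdsWithin] with z hz1 hz2 hz
    apply hEqOn
    rintro (h | h)
    · exact hz1 ⟨h, hz⟩
    · exact hz2 ⟨h, hz⟩
  have hnonneg : 0 ≤ meromorphicOrderAt L'.weierstrassP l := han.meromorphicOrderAt_nonneg
  rw [← meromorphicOrderAt_congr hcongr, hord] at hnonneg
  exact absurd hnonneg (by decide)

/-- **The period lattice is determined by `(g₂, g₃)`.** -/
theorem lattice_eq_of_g₂_g₃ {L L' : PeriodPair} (h₂ : L.g₂ = L'.g₂) (h₃ : L.g₃ = L'.g₃) :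
    L.lattice = L'.lattice :=
  le_antisymm (lattice_le_of_g₂_g₃ h₂ h₃) (lattice_le_of_g₂_g₃ h₂.symm h₃.symm)

theorem weierstrassP_eq_of_lattice_eq {L L' : PeriodPair} (h : L.lattice = L'.lattice) :
    L.weierstrassP = L'.weierstrassP := by
  funext z
  unfold PeriodPair.weierstrassP
  rw [h]

theorem derivWeierstrassP_eq_of_lattice_eq {L L' : PeriodPair} (h : L.lattice = L'.lattice) :
    L.derivWeierstrassP = L'.derivWeierstrassP := by
  funext z
  unfold PeriodPair.derivWeierstrassP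
  rw [h]

/-- `℘` (as a function on all of `ℂ`) is determined by `(g₂, g₃)`. -/
theorem weierstrassP_eq_of_g₂_g₃ {L L' : PeriodPair} (h₂ : L.g₂ = L'.g₂) (h₃ : L.g₃ = L'.g₃) :
    L.weierstrassP = L'.weierstrassP :=
  weierstrassP_eq_of_lattice_eq (lattice_eq_of_g₂_g₃ h₂ h₃)

theorem derivWeierstrassP_eq_of_g₂_g₃ {L L' : PeriodPair} (h₂ : L.g₂ = L'.g₂)
    (h₃ : L.g₃ = L'.g₃) : L.derivWeierstrassP = L'.derivWeierstrassP :=
  derivWeierstrassP_eq_of_lattice_eq (lattice_eq_of_g₂_g₃ h₂ h₃)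

/-! ### Complements -/

/-- The universal coefficients of odd index vanish (`℘` is even). -/
theorem wpCoeff_odd (n : ℕ) (hn : Odd n) : wpCoeff n = 0 := by
  induction n using Nat.strong_induction_on with
  | _ n ih =>
    match n, ih, hn with
    | 0, _, hn => exact absurd hn (by decide)
    | 1, _, _ => exact wpCoeff_one
    | 2, _, hn => exact absurd hn (by decide)
    | 3, _, _ => exact wpCoeff_three
    | 4, _, hn => exact absurd hn (by decide)
    | m + 5, ih, hn =>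
      rw [wpCoeff_add_five]
      have hsum : ∑ x ∈ antidiagonal (m + 3), wpCoeff x.1 * wpCoeff x.2 = 0 := by
        refine Finset.sum_eq_zero fun x hx ↦ ?_
        have hx' := mem_antidiagonal.mp hx
        have hodd : Odd (x.1 + x.2) := by
          rw [hx']
          obtain ⟨k, hk⟩ := hn
          exact ⟨k - 1, by omega⟩
        rcases Nat.even_or_odd x.1 with h1 | h1
        · have h2 : Odd x.2 := by
            rcases Nat.even_or_odd x.2 with h2 | h2
            · exact absurd (h1.add h2) (Nat.not_even_iff_odd.mpr hodd)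
            · exact h2
          rw [ih x.2 (by omega) h2, mul_zero]
        · rw [ih x.1 (by omega) h1, zero_mul]
      rw [hsum, mul_zero]

theorem G_eq_of_lattice_eq {L L' : PeriodPair} (h : L.lattice = L'.lattice) (n : ℕ) :
    L.G n = L'.G n := by
  unfold PeriodPair.G
  rw [h]

/-- Two period pairs span the same lattice iff they have the same invariants `g₂, g₃`. -/
theorem lattice_eq_iff_g₂_g₃ {L L' : PeriodPair} :
    L.lattice = L'.lattice ↔ L.g₂ = L'.g₂ ∧ L.g₃ = L'.g₃ := by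
  refine ⟨fun h ↦ ⟨?_, ?_⟩, fun h ↦ lattice_eq_of_g₂_g₃ h.1 h.2⟩
  · simp only [PeriodPair.g₂, G_eq_of_lattice_eq h]
  · simp only [PeriodPair.g₃, G_eq_of_lattice_eq h]

/-- Taylor expansion (near `0`) of `℘' + 2 z⁻³` with universal coefficients. -/
theorem isTaylor_derivWeierstrassPExcept :
    IsTaylor (L.derivWeierstrassPExcept 0)
      (PowerSeries.mk fun n : ℕ ↦
        ((n : ℂ) + 1) * MvPolynomial.aeval ![L.g₂, L.g₃] (wpCoeff (n + 1))) := by
  have h := isTaylor_serB L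
  have : serB L = PowerSeries.mk fun n : ℕ ↦
      ((n : ℂ) + 1) * MvPolynomial.aeval ![L.g₂, L.g₃] (wpCoeff (n + 1)) := by
    ext n
    rw [serB_eq_derivative, PowerSeries.coeff_derivative, coeff_serA, PowerSeries.coeff_mk]
    ring
  rwa [this] at h

/-- Taylor expansion (near `0`) of `℘ - z⁻²` with universal coefficients. -/
theorem isTaylor_weierstrassPExcept :
    IsTaylor (L.weierstrassPExcept 0)
      (PowerSeries.mk fun n : ℕ ↦ MvPolynomial.aeval ![L.g₂, L.g₃] (wpCoeff n)) := by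
  have h := isTaylor_serA L
  have : serA L = PowerSeries.mk fun n : ℕ ↦ MvPolynomial.aeval ![L.g₂, L.g₃] (wpCoeff n) := by
    ext n
    rw [coeff_serA, PowerSeries.coeff_mk]
  rwa [this] at h

end Fermat.Agent.S58.helper3413
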