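/-
S58, step 6 glue (route #1886): comparison of two mod-`m` Galois modules through
ANNIHILATING QUADRATICS only (no characteristic polynomial, no determinant, no Weil pairing).

Setting: a group `G` acting additively on two abelian groups `V₁`, `V₂` (think `W[m]` and
`E_g[m]`), a "cyclotomic" character `χ : G →* ZMod m`, and a set `S` of "Frobenius" elements
such that every `σ ∈ S` kills one and the same monic quadratic `X² - a σ X + l σ` on both
modules, `χ σ = l σ`.  If every `τ` acts like a power of some `σ ∈ S` (weak Chebotarev), then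
every `τ` kills a common monic quadratic `X² - s X + d` on both modules with `χ τ = d`.

Consequences (`m` prime, the modules killed by `m`):
* `unipotent_transfer`   : `(τ - 1)² = 0` on `V₁`, `χ τ = 1`  ⟹  `(τ - 1)² = 0` on `V₂`;
* `trace_congr`          : `τ` kills `X² - a₁ X + r` on `V₁` and `X² - a₂ X + r` on `V₂`
                           ⟹ `a₁ ≡ a₂ mod m`;
* `eigen_congr`          : `τ` kills `X² - t X + Q` on `V₁` and has an eigenvector with
                           eigenvalue `lam` on `V₂` ⟹ `lam² - t lam + Q ≡ 0 mod m`;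
* `eigen_one_or_Q_congr` : if moreover `lam ∈ {±1, ±Q}` and `m ∤ Q` then `t ≡ ±(1 + Q) mod m`.
-/
import Mathlib

set_option autoImplicit false

namespace Fermat.Agent.S58.helper358

/-- Lucas sequence `V_j(a, l)`: `V₀ = 2`, `V₁ = a`, `V_{j+2} = a V_{j+1} - l V_j`
(`= α^j + β^j` for the roots `α, β` of `X² - a X + l`). -/
def lucasV (a l : ℤ) : ℕ → ℤ
  | 0 => 2
  | 1 => a
  | (n + 2) => a * lucasV a l (n + 1) - l * lucasV a l n

@[simp] lemma lucasV_zero (a l : ℤ) : lucasV a l 0 = 2 := rfl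
@[simp] lemma lucasV_one (a l : ℤ) : lucasV a l 1 = a := rfl
lemma lucasV_add_two (a l : ℤ) (n : ℕ) :
    lucasV a l (n + 2) = a * lucasV a l (n + 1) - l * lucasV a l n := rfl

/-- Commutative core: if `x² - a x + l = 0` then `(x^j)² - V_j x^j + l^j = 0`. -/
theorem pow_quadratic_comm {R : Type*} [CommRing R] (x : R) (a l : ℤ)
    (h : x * x - (a : R) * x + (l : R) = 0) (j : ℕ) :
    x ^ j * x ^ j - (lucasV a l j : R) * x ^ j + (l : R) ^ j = 0 := by
  set t : R := (a : R) - x with ht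
  have hxt : x * t = (l : R) := by rw [ht]; linear_combination (-1 : R) * h
  have key : ∀ n : ℕ, x ^ n + t ^ n = (lucasV a l n : R) ∧
      x ^ (n + 1) + t ^ (n + 1) = (lucasV a l (n + 1) : R) := by
    intro n
    induction n with
    | zero =>
      refine ⟨by simp; norm_num, ?_⟩
      simp [ht]
    | succ n ih =>
      refine ⟨ih.2, ?_⟩
      rw [lucasV_add_two]
      push_cast
      rw [← ih.1, ← ih.2]
      have e1 : x ^ (n + 1 + 1) = x * x ^ (n + 1) := by ring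
      have e2 : t ^ (n + 1 + 1) = t * t ^ (n + 1) := by ring
      have e3 : x ^ (n + 1) = x * x ^ n := by ring
      have e4 : t ^ (n + 1) = t * t ^ n := by ring
      have hsum : x + t = (a : R) := by rw [ht]; ring
      rw [e1, e2, ← hsum, ← hxt]
      rw [e3, e4]
      ring
  have hk := (key j).1
  have hpow : x ^ j * t ^ j = (l : R) ^ j := by rw [← mul_pow, hxt]
  rw [← hk, ← hpow]
  ring

/-- On a group killed by the prime `m`, an integer killing a non-zero element is divisible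
by `m`. -/
lemma dvd_of_zsmul_eq_zero {V : Type*} [AddCommGroup V] {m : ℕ} (hm : m.Prime) {T : V}
    (hT : T ≠ 0) (hmT : m • T = 0) {c : ℤ} (hc : c • T = 0) : (m : ℤ) ∣ c := by
  by_contra hndvd
  have hcop : IsCoprime c (m : ℤ) := by
    rw [Int.isCoprime_iff_gcd_eq_one]
    have h1 : Nat.Coprime m c.natAbs :=
      (Nat.Prime.coprime_iff_not_dvd hm).mpr (fun hdvd => hndvd (Int.natCast_dvd.mpr hdvd))
    have h2 : Int.gcd c (m : ℤ) = Nat.gcd c.natAbs m := by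
      simp [Int.gcd]
    rw [h2]
    exact h1.symm
  obtain ⟨u, w, huw⟩ := hcop
  have e : T = (u * c + w * (m : ℤ)) • T := by rw [huw, one_smul]
  rw [add_smul, mul_smul, hc, smul_zero, mul_smul, natCast_zsmul, hmT, smul_zero,
    add_zero] at e
  exact hT e

section Ann

variable {V : Type*} [AddCommGroup V]

/-- `f` kills the monic quadratic `X² - s X + d` on `V`. -/
def Ann (f : AddMonoid.End V) (s d : ℤ) : Prop :=
  ∀ v : V, f (f v) - s • f v + d • v = 0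

lemma ann_iff (f : AddMonoid.End V) (s d : ℤ) :
    Ann f s d ↔ f * f - s • f + d • (1 : AddMonoid.End V) = 0 := by
  constructor
  · intro h
    ext v
    exact h v
  · intro h v
    exact DFunLike.congr_fun h v

/-- Powers: if `f` kills `X² - a X + l` then `f^j` kills `X² - V_j(a,l) X + l^j`. -/
theorem Ann.pow {f : AddMonoid.End V} {a l : ℤ} (h : Ann f a l) (j : ℕ) :
    Ann (f ^ j) (lucasV a l j) (l ^ j) := by
  rw [ann_iff] at h ⊢
  -- work in the commutative quotient `ℤ[X] / (X² - aX + l)` and map to `End V`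
  let p : Polynomial ℤ := Polynomial.X * Polynomial.X - Polynomial.C a * Polynomial.X +
    Polynomial.C l
  let ev : Polynomial ℤ →+* AddMonoid.End V := (Polynomial.aeval f).toRingHom
  have hev : ∀ q ∈ Ideal.span ({p} : Set (Polynomial ℤ)), ev q = 0 := by
    intro q hq
    obtain ⟨c, rfl⟩ := Ideal.mem_span_singleton.mp hq
    have hp : ev p = 0 := by
      simp only [ev, p, AlgHom.toRingHom_eq_coe, RingHom.coe_coe, map_add, map_sub, map_mul,
        Polynomial.aeval_X, Polynomial.aeval_C]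
      simpa [Algebra.algebraMap_eq_smul_one, zsmul_eq_mul] using h
    rw [map_mul, hp, zero_mul]
  let φ : (Polynomial ℤ ⧸ Ideal.span ({p} : Set (Polynomial ℤ))) →+* AddMonoid.End V :=
    Ideal.Quotient.lift _ ev hev
  let x : Polynomial ℤ ⧸ Ideal.span ({p} : Set (Polynomial ℤ)) :=
    Ideal.Quotient.mk _ Polynomial.X
  have hx : x * x - ((a : ℤ) : Polynomial ℤ ⧸ Ideal.span ({p} : Set (Polynomial ℤ))) * x +
      ((l : ℤ) : Polynomial ℤ ⧸ Ideal.span ({p} : Set (Polynomial ℤ))) = 0 := by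
    have : Ideal.Quotient.mk (Ideal.span ({p} : Set (Polynomial ℤ))) p = 0 :=
      Ideal.Quotient.eq_zero_iff_mem.mpr (Ideal.subset_span rfl)
    simpa [p, x] using this
  have hmain := pow_quadratic_comm x a l hx j
  have hφx : φ x = f := by
    simp [φ, x, ev]
  have := congrArg φ hmain
  simp only [map_add, map_sub, map_mul, map_pow, map_intCast, hφx, map_zero] at this
  rw [← this]
  simp [zsmul_eq_mul]

variable {m : ℕ}

/-- Uniqueness of the middle coefficient modulo `m` on a non-zero group killed by `m`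
(`m` prime), for a surjective `f`, when the constant terms agree modulo `m`. -/
theorem Ann.congr_of_surjective (hm : m.Prime) (hV : ∀ v : V, m • v = 0)
    (hne : ∃ v : V, v ≠ 0) {f : AddMonoid.End V} (hf : Function.Surjective f)
    {s s' d d' : ℤ} (h : Ann f s d) (h' : Ann f s' d') (hd : (m : ℤ) ∣ d - d') :
    (m : ℤ) ∣ s - s' := by
  obtain ⟨v, hv⟩ := hne
  obtain ⟨w, rfl⟩ := hf v
  have hkill : ∀ (c : ℤ), (m : ℤ) ∣ c → ∀ u : V, c • u = 0 := by
    rintro c ⟨e, rfl⟩ u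
    rw [mul_comm, mul_smul, natCast_zsmul, hV, smul_zero]
  have h1 := h w
  have h2 := h' w
  have h3 : (s - s') • f w = 0 := by
    have hdw := hkill _ hd w
    have : (s - s') • f w = (f (f w) - s' • f w + d' • w) - (f (f w) - s • f w + d • w)
        + (d - d') • w := by
      simp only [sub_smul]; abel
    rw [this, h1, h2, hdw]; simp
  exact dvd_of_zsmul_eq_zero hm hv (hV _) h3

end Ann

section Compare

variable {G : Type*} [Group G] {V₁ V₂ : Type*} [AddCommGroup V₁] [AddCommGroup V₂] {m : ℕ}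

/-- **Common quadratic.**  If the "Frobenius" elements `σ ∈ S` kill a common monic quadratic
`X² - a σ X + l σ` on `V₁` and `V₂`, with `χ σ = l σ`, and every `τ` acts on `V₁`, `V₂` and
through `χ` like a power of some `σ ∈ S`, then every `τ` kills a common monic quadratic
`X² - s X + d` on both, with `χ τ = d`. -/
theorem exists_common_quadratic
    (ρ₁ : G →* AddMonoid.End V₁) (ρ₂ : G →* AddMonoid.End V₂) (χ : G →* ZMod m)
    (S : Set G) (a l : G → ℤ)
    (hS₁ : ∀ σ ∈ S, Ann (ρ₁ σ) (a σ) (l σ)) (hS₂ : ∀ σ ∈ S, Ann (ρ₂ σ) (a σ) (l σ))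
    (hχ : ∀ σ ∈ S, χ σ = (l σ : ZMod m))
    (τ : G)
    (hWC : ∃ σ ∈ S, ∃ j : ℕ, ρ₁ τ = ρ₁ σ ^ j ∧ ρ₂ τ = ρ₂ σ ^ j ∧ χ τ = χ σ ^ j) :
    ∃ s d : ℤ, Ann (ρ₁ τ) s d ∧ Ann (ρ₂ τ) s d ∧ χ τ = (d : ZMod m) := by
  obtain ⟨σ, hσ, j, h1, h2, h3⟩ := hWC
  refine ⟨lucasV (a σ) (l σ) j, l σ ^ j, ?_, ?_, ?_⟩
  · rw [h1]; exact (hS₁ σ hσ).pow j
  · rw [h2]; exact (hS₂ σ hσ).pow j
  · rw [h3, hχ σ hσ]; push_cast; rfl

/-- Version of `exists_common_quadratic` when `τ = σ ^ j` in the group itself. -/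
theorem exists_common_quadratic_of_pow
    (ρ₁ : G →* AddMonoid.End V₁) (ρ₂ : G →* AddMonoid.End V₂) (χ : G →* ZMod m)
    (S : Set G) (a l : G → ℤ)
    (hS₁ : ∀ σ ∈ S, Ann (ρ₁ σ) (a σ) (l σ)) (hS₂ : ∀ σ ∈ S, Ann (ρ₂ σ) (a σ) (l σ))
    (hχ : ∀ σ ∈ S, χ σ = (l σ : ZMod m))
    (τ : G) (hWC : ∃ σ ∈ S, ∃ j : ℕ, τ = σ ^ j) :
    ∃ s d : ℤ, Ann (ρ₁ τ) s d ∧ Ann (ρ₂ τ) s d ∧ χ τ = (d : ZMod m) := by
  obtain ⟨σ, hσ, j, rfl⟩ := hWC
  exact exists_common_quadratic ρ₁ ρ₂ χ S a l hS₁ hS₂ hχ (σ ^ j)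
    ⟨σ, hσ, j, map_pow _ _ _, map_pow _ _ _, map_pow _ _ _⟩

lemma surjective_of_group (ρ : G →* AddMonoid.End V₁) (τ : G) :
    Function.Surjective (ρ τ) := by
  intro v
  refine ⟨ρ τ⁻¹ v, ?_⟩
  have : ρ τ * ρ τ⁻¹ = 1 := by rw [← map_mul, mul_inv_cancel, map_one]
  simpa using DFunLike.congr_fun this v

lemma zmod_intCast_eq_iff_dvd_sub (x y : ℤ) :
    (x : ZMod m) = (y : ZMod m) ↔ (m : ℤ) ∣ x - y := by
  rw [ZMod.intCast_eq_intCast_iff_dvd_sub]
  constructor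
  · intro h
    have : x - y = -(y - x) := by ring
    rw [this]; exact dvd_neg.mpr h
  · intro h
    have : y - x = -(x - y) := by ring
    rw [this]; exact dvd_neg.mpr h

/-- **Transfer of unipotence** (inertia): if `(τ - 1)² = 0` on `V₁` and `χ τ = 1`, and `τ`
kills a common monic quadratic with constant term `χ τ` on `V₁`, `V₂`, then `(τ - 1)² = 0`
on `V₂`. -/
theorem unipotent_transfer (hm : m.Prime)
    (hV₁ : ∀ v : V₁, m • v = 0) (hV₂ : ∀ v : V₂, m • v = 0) (hne₁ : ∃ v : V₁, v ≠ 0)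
    (ρ₁ : G →* AddMonoid.End V₁) (ρ₂ : G →* AddMonoid.End V₂) (χ : G →* ZMod m)
    (τ : G) (hcommon : ∃ s d : ℤ, Ann (ρ₁ τ) s d ∧ Ann (ρ₂ τ) s d ∧ χ τ = (d : ZMod m))
    (hχτ : χ τ = 1) (huni : Ann (ρ₁ τ) 2 1) :
    Ann (ρ₂ τ) 2 1 := by
  obtain ⟨s, d, h1, h2, hd⟩ := hcommon
  have hd1 : (m : ℤ) ∣ d - 1 := by
    rw [← zmod_intCast_eq_iff_dvd_sub]
    rw [← hd, hχτ]; simp
  have hs : (m : ℤ) ∣ s - 2 :=
    Ann.congr_of_surjective hm hV₁ hne₁ (surjective_of_group ρ₁ τ) h1 huni hd1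
  have hkill : ∀ (c : ℤ), (m : ℤ) ∣ c → ∀ u : V₂, c • u = 0 := by
    rintro c ⟨e, rfl⟩ u
    rw [mul_comm, mul_smul, natCast_zsmul, hV₂, smul_zero]
  intro v
  have e1 := h2 v
  have e2 := hkill _ hs (ρ₂ τ v)
  have e3 := hkill _ hd1 v
  have : ρ₂ τ (ρ₂ τ v) - (2 : ℤ) • ρ₂ τ v + (1 : ℤ) • v =
      (ρ₂ τ (ρ₂ τ v) - s • ρ₂ τ v + d • v) + (s - 2) • ρ₂ τ v - (d - 1) • v := by
    simp only [sub_smul]; abel
  rw [this, e1, e2, e3]; simp

/-- **Congruence of traces**: if `τ` kills `X² - a₁ X + r` on `V₁` and `X² - a₂ X + r` on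
`V₂` and a common quadratic with constant term `χ τ = r`, then `a₁ ≡ a₂ mod m`. -/
theorem trace_congr (hm : m.Prime)
    (hV₁ : ∀ v : V₁, m • v = 0) (hV₂ : ∀ v : V₂, m • v = 0)
    (hne₁ : ∃ v : V₁, v ≠ 0) (hne₂ : ∃ v : V₂, v ≠ 0)
    (ρ₁ : G →* AddMonoid.End V₁) (ρ₂ : G →* AddMonoid.End V₂) (χ : G →* ZMod m)
    (τ : G) (hcommon : ∃ s d : ℤ, Ann (ρ₁ τ) s d ∧ Ann (ρ₂ τ) s d ∧ χ τ = (d : ZMod m))
    {a₁ a₂ r : ℤ} (hχτ : χ τ = (r : ZMod m))
    (h₁ : Ann (ρ₁ τ) a₁ r) (h₂ : Ann (ρ₂ τ) a₂ r) :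
    (m : ℤ) ∣ a₁ - a₂ := by
  obtain ⟨s, d, c1, c2, hd⟩ := hcommon
  have hdr : (m : ℤ) ∣ d - r := by
    rw [← zmod_intCast_eq_iff_dvd_sub, ← hd, hχτ]
  have e1 : (m : ℤ) ∣ s - a₁ :=
    Ann.congr_of_surjective hm hV₁ hne₁ (surjective_of_group ρ₁ τ) c1 h₁ hdr
  have e2 : (m : ℤ) ∣ s - a₂ :=
    Ann.congr_of_surjective hm hV₂ hne₂ (surjective_of_group ρ₂ τ) c2 h₂ hdr
  have : a₁ - a₂ = (s - a₂) - (s - a₁) := by ring
  rw [this]
  exact dvd_sub e2 e1

/-- **Eigenvector congruence**: if `τ` kills `X² - t X + Q` on `V₁`, has an eigenvector with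
(integer) eigenvalue `lam` on `V₂`, and kills a common quadratic with constant term
`χ τ = Q` on both, then `lam² - t lam + Q ≡ 0 mod m`. -/
theorem eigen_congr (hm : m.Prime)
    (hV₁ : ∀ v : V₁, m • v = 0) (hV₂ : ∀ v : V₂, m • v = 0) (hne₁ : ∃ v : V₁, v ≠ 0)
    (ρ₁ : G →* AddMonoid.End V₁) (ρ₂ : G →* AddMonoid.End V₂) (χ : G →* ZMod m)
    (τ : G) (hcommon : ∃ s d : ℤ, Ann (ρ₁ τ) s d ∧ Ann (ρ₂ τ) s d ∧ χ τ = (d : ZMod m))
    {t Q lam : ℤ} (hχτ : χ τ = (Q : ZMod m)) (h₁ : Ann (ρ₁ τ) t Q)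
    (T : V₂) (hT : T ≠ 0) (hlam : ρ₂ τ T = lam • T) :
    (m : ℤ) ∣ lam * lam - t * lam + Q := by
  obtain ⟨s, d, c1, c2, hd⟩ := hcommon
  have hdr : (m : ℤ) ∣ d - Q := by
    rw [← zmod_intCast_eq_iff_dvd_sub, ← hd, hχτ]
  have e1 : (m : ℤ) ∣ s - t :=
    Ann.congr_of_surjective hm hV₁ hne₁ (surjective_of_group ρ₁ τ) c1 h₁ hdr
  have h2 := c2 T
  rw [hlam, map_zsmul, hlam] at h2
  have h3 : (lam * lam - s * lam + d) • T = 0 := by
    rw [← h2]; simp only [add_smul, sub_smul, mul_smul]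
  -- `m` prime, `T ≠ 0`, `m • T = 0`, `c • T = 0` ⟹ `m ∣ c`
  have hdvd : (m : ℤ) ∣ lam * lam - s * lam + d :=
    dvd_of_zsmul_eq_zero hm hT (hV₂ _) h3
  have : lam * lam - t * lam + Q = (lam * lam - s * lam + d) + (s - t) * lam - (d - Q) := by
    ring
  rw [this]
  exact dvd_sub (dvd_add hdvd (Dvd.dvd.mul_right e1 lam)) hdr

/-- If the eigenvalue is `±1` or `±Q` and `m ∤ Q`, then `t ≡ ±(1 + Q) mod m`. -/
theorem eigen_one_or_Q_congr (hm : m.Prime) {t Q lam : ℤ}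
    (h : (m : ℤ) ∣ lam * lam - t * lam + Q) (hQ : ¬ (m : ℤ) ∣ Q)
    (hlam : lam = 1 ∨ lam = -1 ∨ lam = Q ∨ lam = -Q) :
    (m : ℤ) ∣ t - (1 + Q) ∨ (m : ℤ) ∣ t + (1 + Q) := by
  have hp : Prime (m : ℤ) := Nat.prime_iff_prime_int.mp hm
  rcases hlam with h1 | h1 | h1 | h1
  · left
    rw [h1] at h
    have : t - (1 + Q) = -(1 * 1 - t * 1 + Q) := by ring
    rw [this]; exact dvd_neg.mpr h
  · right
    rw [h1] at h
    have : t + (1 + Q) = (-1) * (-1) - t * (-1) + Q := by ring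
    rw [this]; exact h
  · left
    rw [h1] at h
    have e : Q * Q - t * Q + Q = Q * (-(t - (1 + Q))) := by ring
    rw [e] at h
    rcases hp.dvd_or_dvd h with h' | h'
    · exact absurd h' hQ
    · exact dvd_neg.mp h'
  · right
    rw [h1] at h
    have e : -Q * -Q - t * -Q + Q = Q * (t + (1 + Q)) := by ring
    rw [e] at h
    rcases hp.dvd_or_dvd h with h' | h'
    · exact absurd h' hQ
    · exact h'

end Compare

end Fermat.Agent.S58.helper358
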