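import Mathlib
import Fermat.Prelude.Def_GaloisRep_Adic
import Fermat.Prelude.Def_FLTPrelim_Modularity
import Fermat.Agent.Lib.helper74_GenChebQbar
import Fermat.Agent.Lib.helper822_TorsionGalois
import Fermat.Agent.Lib.helper5856_TorsionCard
import Fermat.Agent.Lib.helper1844_FrobGenAll
import Fermat.Agent.Lib.helper1663_InertiaAdapter
import Fermat.Agent.S30.helper3194_QuadClosed
import Fermat.Agent.S58.helper5765_FrobTors

/-!
# S58 via S35 + S36, part 1: transfer between `W[m](ℚ̄)` and an adic representation (helper3808)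

Let `W` be an integral Weierstrass model with `Δ ≠ 0` and `ρ` an adic Galois representation
(Prelude `GaloisRepAdic O`, rank two) such that for all primes `ℓ` outside a finite set `T₀`
the model has good reduction at `ℓ` and every Frobenius element at `ℓ` has characteristic
polynomial `X² - a_ℓ(W) X + ℓ` on `ρ`.

* `transfer` : for EVERY `σ ∈ G_ℚ`, every `m ≠ 0` and every level `N` there are integers `t`, `d`
  with `σ² - t σ + d = 0` on `W[m](ℚ̄)`, `σ ζ = ζ ^ d` on the `m`-th roots of unity, and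
  `tr ρ(σ) ≡ t`, `det ρ(σ) ≡ d` modulo `𝔪 ^ N`  (generator-Chebotarev, Frobenius
  Cayley–Hamilton on torsion, Lucas sequences, adic continuity).
* `trace_det_of_rel` : if `σ² - a σ + e = 0` on `W[λⁿ]` and `σ ζ = ζ ^ e` on `μ_{λⁿ}` for all `n`,
  then `tr ρ(σ) = a` and `det ρ(σ) = e`.
* `trace_frobenius` : `tr ρ(Frob_q) = a_q(W)` at EVERY good prime `q ≠ λ` (also those in `T₀`).
* `charpoly_inertia` : for `W` semistable and `λ` odd, `charpoly ρ(σ) = (X - 1)²` for every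
  inertia element at a prime `q ≠ λ`.
-/

set_option autoImplicit false

open Polynomial

namespace Fermat.Agent.S58.helper3808

local notation "Qb" => AlgebraicClosure ℚ
local notation "Gal" => (AlgebraicClosure ℚ) ≃ₐ[ℚ] (AlgebraicClosure ℚ)

open Fermat.Agent.S58.helper5765 (Tors curveQb)
open Fermat.Agent.S30.helper3194 (lucasSeq)

/-! ### Rank two linear algebra -/

section RankTwo

variable {R : Type*} [CommRing R] {V : Type*} [AddCommGroup V] [Module R V]
  [Module.Free R V] [Module.Finite R V]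

/-- In rank two, `charpoly f = X² - tr(f) X + det(f)`. -/
theorem charpoly_eq_of_finrank_two [Nontrivial R] (hV : Module.finrank R V = 2)
    (f : Module.End R V) :
    LinearMap.charpoly f = X ^ 2 - C (LinearMap.trace R V f) * X + C (LinearMap.det f) := by
  let b : Module.Basis (Fin 2) R V := Module.finBasisOfFinrankEq R V hV
  rw [← LinearMap.charpoly_toMatrix f b, Matrix.charpoly_fin_two,
    LinearMap.trace_eq_matrix_trace R b, LinearMap.det_toMatrix b]

/-- Trace and determinant from the characteristic polynomial in rank two. -/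
theorem trace_det_of_charpoly [Nontrivial R] (hV : Module.finrank R V = 2)
    (f : Module.End R V) (a e : R) (h : LinearMap.charpoly f = X ^ 2 - C a * X + C e) :
    LinearMap.trace R V f = a ∧ LinearMap.det f = e := by
  rw [charpoly_eq_of_finrank_two hV f] at h
  have h1 := congrArg (fun P : R[X] => P.coeff 1) h
  have h0 := congrArg (fun P : R[X] => P.coeff 0) h
  simp only [coeff_add, coeff_sub, coeff_X_pow, coeff_C_mul, coeff_X_one, coeff_C,
    coeff_X_zero] at h1 h0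
  norm_num at h1 h0
  exact ⟨h1, h0⟩

/-- Cayley–Hamilton in rank two, in the `f * f - a • f + e • 1 = 0` shape. -/
theorem quad_of_charpoly (f : Module.End R V) (a e : R)
    (h : LinearMap.charpoly f = X ^ 2 - C a * X + C e) :
    f * f - a • f + e • (1 : Module.End R V) = 0 := by
  have h1 := LinearMap.aeval_self_charpoly f
  rw [h] at h1
  simp only [map_add, map_sub, map_mul, map_pow, aeval_X, aeval_C] at h1
  rw [← h1, sq, Algebra.algebraMap_eq_smul_one, Algebra.algebraMap_eq_smul_one, smul_mul_assoc,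
    one_mul]

/-- The explicit Lucas step: `f ^ k` satisfies the quadratic relation with trace term
`lucasSeq a e k` and constant term `e ^ k`. -/
theorem lucas_explicit {O M : Type*} [CommRing O] [AddCommGroup M] [Module O M]
    (f : Module.End O M) (a e : O)
    (h : f * f - a • f + e • (1 : Module.End O M) = 0) (k : ℕ) :
    f ^ k * f ^ k - lucasSeq a e k • f ^ k + e ^ k • (1 : Module.End O M) = 0 := by
  have hff' : f * (a • (1 : Module.End O M) - f) = e • (1 : Module.End O M) := by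
    have : f * (a • (1 : Module.End O M) - f) = -(f * f - a • f + e • (1 : Module.End O M))
        + e • (1 : Module.End O M) := by
      rw [mul_sub, mul_smul_comm, mul_one]; abel
    rw [this, h, neg_zero, zero_add]
  have hcomm : Commute f (a • (1 : Module.End O M) - f) :=
    ((Commute.one_right f).smul_right a).sub_right (Commute.refl f)
  have hs := Fermat.Agent.S30.helper3194.pow_add_pow_eq_lucasSeq f a e h k
  have hpow : (a • (1 : Module.End O M) - f) ^ k * f ^ k = e ^ k • (1 : Module.End O M) := by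
    rw [← (hcomm.symm).mul_pow, hcomm.symm.eq, hff', _root_.smul_pow, one_pow]
  have hsk : lucasSeq a e k • f ^ k = (f ^ k + (a • (1 : Module.End O M) - f) ^ k) * f ^ k := by
    rw [hs, smul_mul_assoc, one_mul]
  rw [hsk, add_mul, hpow]
  abel

/-- Lucas sequences commute with ring homomorphisms. -/
theorem map_lucasSeq {O O' : Type*} [CommRing O] [CommRing O'] (φ : O →+* O') (a e : O) :
    ∀ k : ℕ, φ (lucasSeq a e k) = lucasSeq (φ a) (φ e) k
  | 0 => by simp only [lucasSeq, map_ofNat]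
  | 1 => by simp only [lucasSeq]
  | (k + 2) => by
    simp only [lucasSeq, map_sub, map_mul]
    rw [map_lucasSeq φ a e (k + 1), map_lucasSeq φ a e k]

/-- In rank two, `tr (f ^ k)` is the Lucas sequence of `tr f`, `det f`. -/
theorem trace_pow_eq_lucasSeq [Nontrivial R] (hV : Module.finrank R V = 2)
    (f : Module.End R V) (a e : R)
    (h : LinearMap.charpoly f = X ^ 2 - C a * X + C e) :
    ∀ k : ℕ, LinearMap.trace R V (f ^ k) = lucasSeq a e k
  | 0 => by
    rw [pow_zero, LinearMap.trace_one, hV]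
    simp [lucasSeq]
  | 1 => by
    rw [pow_one, (trace_det_of_charpoly hV f a e h).1]
    simp [lucasSeq]
  | (k + 2) => by
    have hq := quad_of_charpoly f a e h
    have h2 : f ^ (k + 2) = a • f ^ (k + 1) - e • f ^ k := by
      have : f ^ (k + 2) = (f * f - a • f + e • (1 : Module.End R V)) * f ^ k
          + a • f ^ (k + 1) - e • f ^ k := by
        rw [add_mul, sub_mul, smul_mul_assoc, smul_mul_assoc, one_mul, ← pow_succ', ← sq,
          ← pow_add, add_comm 2 k]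
        abel
      rw [this, hq, zero_mul, zero_add]
    rw [h2, map_sub, map_smul, map_smul, trace_pow_eq_lucasSeq hV f a e h (k + 1),
      trace_pow_eq_lucasSeq hV f a e h k]
    simp [lucasSeq]

/-- The trace of an endomorphism with image in `I • ⊤` lies in `I`. -/
theorem trace_mem_of_forall_mem_smul_top (I : Ideal R) (g : Module.End R V)
    (h : ∀ v : V, g v ∈ I • (⊤ : Submodule R V)) : LinearMap.trace R V g ∈ I := by
  classical
  let b := Module.Free.chooseBasis R V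
  rw [LinearMap.trace_eq_matrix_trace R b, Matrix.trace]
  refine Ideal.sum_mem _ fun i _ => ?_
  rw [Matrix.diag_apply, LinearMap.toMatrix_apply]
  exact Fermat.Agent.S30.helper3194.form_mem_of_mem_smul_top I (b.coord i) (h (b i))

/-- In rank two, an endomorphism congruent to the identity modulo `I` has determinant
congruent to `1` modulo `I`. -/
theorem det_sub_one_mem [Nontrivial R] (hV : Module.finrank R V = 2) (I : Ideal R) (g : Module.End R V)
    (h : ∀ v : V, g v - v ∈ I • (⊤ : Submodule R V)) : LinearMap.det g - 1 ∈ I := by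
  classical
  let b : Module.Basis (Fin 2) R V := Module.finBasisOfFinrankEq R V hV
  have hentry : ∀ i j : Fin 2, LinearMap.toMatrix b b g i j - (if i = j then 1 else 0) ∈ I := by
    intro i j
    have h1 := Fermat.Agent.S30.helper3194.form_mem_of_mem_smul_top I (b.coord i) (h (b j))
    rw [map_sub, Module.Basis.coord_apply, Module.Basis.coord_apply, Module.Basis.repr_self,
      Finsupp.single_apply] at h1
    rw [LinearMap.toMatrix_apply]
    convert h1 using 3
    exact eq_comm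
  rw [← LinearMap.det_toMatrix b, Matrix.det_fin_two]
  have h00 := hentry 0 0
  have h01 := hentry 0 1
  have h10 := hentry 1 0
  have h11 := hentry 1 1
  simp only [Fin.isValue, if_true] at h00 h01 h10 h11
  norm_num at h01 h10
  set M := LinearMap.toMatrix b b g
  have : M 0 0 * M 1 1 - M 0 1 * M 1 0 - 1 =
      (M 0 0 - 1) * M 1 1 + (M 1 1 - 1) - M 0 1 * M 1 0 := by ring
  rw [this]
  exact I.sub_mem (I.add_mem (I.mul_mem_right _ h00) h11) (I.mul_mem_right _ h01)

end RankTwo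

/-! ### Finite levels -/

/-- The `m`-th roots of unity of `ℚ̄` lie in a finite extension of `ℚ`. -/
theorem exists_level_roots (m : ℕ) (hm : m ≠ 0) :
    ∃ L : IntermediateField ℚ Qb, FiniteDimensional ℚ L ∧
      ∀ σ : Gal, (∀ x ∈ L, σ x = x) → ∀ ζ : Qb, ζ ^ m = 1 → σ ζ = ζ := by
  have hfin : {ζ : Qb | ζ ^ m = 1}.Finite := by
    have hsub : {ζ : Qb | ζ ^ m = 1} ⊆ ((nthRootsFinset m (1 : Qb) : Finset Qb) : Set Qb) := by
      intro ζ hζ
      rw [Finset.mem_coe, mem_nthRootsFinset (Nat.pos_of_ne_zero hm)]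
      exact hζ
    exact (Finset.finite_toSet _).subset hsub
  have : Finite {ζ : Qb | ζ ^ m = 1} := hfin.to_subtype
  have halg : Algebra.IsAlgebraic ℚ Qb := AlgebraicClosure.isAlgebraic ℚ
  refine ⟨IntermediateField.adjoin ℚ {ζ : Qb | ζ ^ m = 1}, ?_, ?_⟩
  · exact IntermediateField.finiteDimensional_adjoin
      (fun x _ => (halg.isAlgebraic x).isIntegral)
  · intro σ hσ ζ hζ
    exact hσ ζ (IntermediateField.subset_adjoin ℚ _ hζ)

/-! ### The transfer -/

section Transfer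

variable (W : WeierstrassCurve ℤ) {O : Type} [CommRing O] [IsLocalRing O] (ρ : GaloisRepAdic O)

/-- `ρ` is compatible with `W` outside the finite set `T₀`: good reduction and Frobenius
characteristic polynomial `X² - a_ℓ(W) X + ℓ` at all primes `ℓ ∉ T₀`. -/
def Compatible (T₀ : Finset ℕ) : Prop :=
  ∀ ℓ : ℕ, ℓ.Prime → ℓ ∉ T₀ → W.IsGoodPrimeFor ℓ ∧
    ∀ A : ValuationSubring Qb, A.LiesOverPrime ℓ → ∀ σ : Gal, A.IsFrobeniusAt σ ℓ →
      LinearMap.charpoly (ρ.ρ σ) = X ^ 2 - C ((W.apOfModel ℓ : ℤ) : O) * X + C (ℓ : O)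

variable {W ρ}

/-- **Transfer.**  For every `σ ∈ G_ℚ`, every `m ≠ 0` and every level `N` there are `t : ℤ`,
`d : ℕ` such that `σ² - t σ + d = 0` on `W[m](ℚ̄)`, `σ ζ = ζ ^ d` for the `m`-th roots of unity
and `tr ρ(σ) ≡ t`, `det ρ(σ) ≡ d` modulo `𝔪 ^ N`. -/
theorem transfer {T₀ : Finset ℕ} (h : Compatible W ρ T₀) (m : ℕ) (hm : m ≠ 0) (N : ℕ)
    (σ : Gal) :
    ∃ (t : ℤ) (d : ℕ),
      (∀ P : Tors W m, σ • σ • P - t • σ • P + (d : ℤ) • P = 0) ∧
      (∀ ζ : Qb, ζ ^ m = 1 → σ ζ = ζ ^ d) ∧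
      LinearMap.trace O ρ.V (ρ.ρ σ) - (t : O) ∈ IsLocalRing.maximalIdeal O ^ N ∧
      LinearMap.det (ρ.ρ σ) - (d : O) ∈ IsLocalRing.maximalIdeal O ^ N := by
  obtain ⟨L₁, hL₁, h₁⟩ := Fermat.Agent.Lib.helper822.galoisFactorsThroughFiniteLevel_torsion
    (W.map (Int.castRingHom ℚ)) m hm
  obtain ⟨L₂, hL₂, h₂⟩ := exists_level_roots m hm
  obtain ⟨L₃, hL₃, h₃⟩ := ρ.isAdicContinuous N
  have : FiniteDimensional ℚ (L₁ ⊔ L₂ : IntermediateField ℚ Qb) :=
    IntermediateField.finiteDimensional_sup L₁ L₂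
  have : FiniteDimensional ℚ (L₁ ⊔ L₂ ⊔ L₃ : IntermediateField ℚ Qb) :=
    IntermediateField.finiteDimensional_sup _ L₃
  obtain ⟨ℓ, A, φ, j, hℓ, hℓT, hA, hφ, hagree⟩ :=
    Fermat.Agent.Lib.helper74.exists_frobenius_pow_eq (L₁ ⊔ L₂ ⊔ L₃) σ (T₀ ∪ m.primeFactors)
  have : Fact ℓ.Prime := ⟨hℓ⟩
  have hℓT₀ : ℓ ∉ T₀ := fun h' => hℓT (Finset.mem_union_left _ h')
  have hℓm : ¬ ℓ ∣ m := fun h' =>
    hℓT (Finset.mem_union_right _ (Nat.mem_primeFactors.mpr ⟨hℓ, h', hm⟩))
  have hcop : Nat.Coprime m ℓ := ((Nat.Prime.coprime_iff_not_dvd hℓ).mpr hℓm).symm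
  obtain ⟨hgood, hchar⟩ := h ℓ hℓ hℓT₀
  -- the correction term
  set τ : Gal := (φ ^ j)⁻¹ * σ with hτ
  have hσ : σ = φ ^ j * τ := by rw [hτ, mul_inv_cancel_left]
  have hτfix : ∀ x ∈ (L₁ ⊔ L₂ ⊔ L₃ : IntermediateField ℚ Qb), τ x = x := by
    intro x hx
    rw [hτ, AlgEquiv.mul_apply, ← hagree x hx]
    exact (φ ^ j).symm_apply_apply x
  have hτ₁ : ∀ P : Tors W m, τ • P = P := by
    intro P
    have h1 := h₁ τ fun x hx => hτfix x
      ((le_sup_left : L₁ ⊔ L₂ ≤ L₁ ⊔ L₂ ⊔ L₃) ((le_sup_left : L₁ ≤ L₁ ⊔ L₂) hx))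
    exact congrArg (fun f => f P) h1
  have hτ₂ : ∀ ζ : Qb, ζ ^ m = 1 → τ ζ = ζ := fun ζ hζ =>
    h₂ τ (fun x hx => hτfix x
      ((le_sup_left : L₁ ⊔ L₂ ≤ L₁ ⊔ L₂ ⊔ L₃) ((le_sup_right : L₂ ≤ L₁ ⊔ L₂) hx))) ζ hζ
  have hτ₃ : ∀ v : ρ.V, ρ.ρ τ v - v ∈
      (IsLocalRing.maximalIdeal O ^ N) • (⊤ : Submodule O ρ.V) :=
    h₃ τ fun x hx => hτfix x ((le_sup_right : L₃ ≤ L₁ ⊔ L₂ ⊔ L₃) hx)
  -- the torsion side
  let f : Module.End ℤ (Tors W m) := DistribMulAction.toModuleEnd ℤ (Tors W m) φ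
  have hf : f * f - (W.apOfModel ℓ) • f + (ℓ : ℤ) • (1 : Module.End ℤ (Tors W m)) = 0 := by
    refine LinearMap.ext fun P => ?_
    exact Fermat.Agent.S58.helper5765.frob_relation_of_frobCH W ℓ hgood
      (fun K _ _ _ _ => Fermat.Agent.Lib.helper1844.frobCH_all ℓ W hgood K) A hA φ hφ m hcop P
  have hfj := lucas_explicit f (W.apOfModel ℓ) (ℓ : ℤ) hf j
  have hfpow : f ^ j = DistribMulAction.toModuleEnd ℤ (Tors W m) (φ ^ j) :=
    (map_pow (DistribMulAction.toModuleEnd ℤ (Tors W m)) φ j).symm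
  -- the roots of unity
  have hφζ : ∀ i : ℕ, ∀ ζ : Qb, ζ ^ m = 1 → (φ ^ i) ζ = ζ ^ ℓ ^ i := by
    intro i
    induction i with
    | zero => intro ζ _; simp
    | succ i ih =>
      intro ζ hζ
      have h1 : φ ζ = ζ ^ ℓ :=
        Fermat.Agent.S58.helper5765.isFrobeniusAt_apply_of_pow_eq_one A hA φ ℓ hφ m hm hcop ζ hζ
      have h2 : (ζ ^ ℓ) ^ m = 1 := by rw [← pow_mul, mul_comm, pow_mul, hζ, one_pow]
      rw [pow_succ, AlgEquiv.mul_apply, h1, ih _ h2, ← pow_mul, pow_succ']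
  -- the `ρ` side
  set F : Module.End O ρ.V := ρ.ρ φ with hF
  have hFtd := trace_det_of_charpoly ρ.finrank_eq F _ _ (hchar A hA φ hφ)
  have hFtr := trace_pow_eq_lucasSeq ρ.finrank_eq F _ _ (hchar A hA φ hφ) j
  have hρσ : ρ.ρ σ = F ^ j * ρ.ρ τ := by rw [hσ, map_mul, map_pow]
  refine ⟨lucasSeq (W.apOfModel ℓ) (ℓ : ℤ) j, ℓ ^ j, ?_, ?_, ?_, ?_⟩
  · intro P
    have hP : ∀ Q : Tors W m, σ • Q = (φ ^ j) • Q := fun Q => by rw [hσ, mul_smul, hτ₁]
    have h1 := congrArg (fun g : Module.End ℤ (Tors W m) => g P) hfj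
    rw [hfpow] at h1
    simp only [LinearMap.add_apply, LinearMap.sub_apply, Module.End.mul_apply,
      LinearMap.smul_apply, Module.End.one_apply, LinearMap.zero_apply,
      DistribMulAction.toModuleEnd_apply, DistribSMul.toLinearMap_apply] at h1
    rw [hP, hP, Nat.cast_pow]
    exact h1
  · intro ζ hζ
    rw [hσ, AlgEquiv.mul_apply, hτ₂ ζ hζ, hφζ j ζ hζ]
  · have h1 : LinearMap.trace O ρ.V (ρ.ρ σ) - ((lucasSeq (W.apOfModel ℓ) (ℓ : ℤ) j : ℤ) : O) =
        LinearMap.trace O ρ.V (F ^ j * (ρ.ρ τ - 1)) := by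
      rw [hρσ, mul_sub, mul_one, map_sub, hFtr, ← eq_intCast (Int.castRingHom O),
        map_lucasSeq (Int.castRingHom O)]
      simp
    rw [h1]
    refine trace_mem_of_forall_mem_smul_top _ _ fun v => ?_
    rw [Module.End.mul_apply]
    exact Fermat.Agent.S30.helper3194.map_mem_smul_top _ _ (hτ₃ v)
  · have h1 : LinearMap.det (ρ.ρ σ) - ((ℓ ^ j : ℕ) : O) =
        (ℓ : O) ^ j * (LinearMap.det (ρ.ρ τ) - 1) := by
      rw [hρσ, map_mul, map_pow, hFtd.2]
      push_cast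
      ring
    rw [h1]
    exact Ideal.mul_mem_left _ _ (det_sub_one_mem ρ.finrank_eq _ _ hτ₃)

end Transfer

/-! ### Consumers -/

section Consumers

/-- Krull separation in a noetherian local ring. -/
theorem eq_of_forall_sub_mem_pow {O : Type*} [CommRing O] [IsLocalRing O] [IsNoetherianRing O]
    (x y : O) (h : ∀ n : ℕ, x - y ∈ IsLocalRing.maximalIdeal O ^ n) : x = y := by
  have h0 := Ideal.iInf_pow_eq_bot_of_isLocalRing (IsLocalRing.maximalIdeal O)
    (IsLocalRing.maximalIdeal.isMaximal O).ne_top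
  have h1 : x - y ∈ (⨅ i : ℕ, IsLocalRing.maximalIdeal O ^ i : Ideal O) := by
    rw [Ideal.mem_iInf]; exact h
  rw [h0, Ideal.mem_bot] at h1
  exact sub_eq_zero.mp h1

variable (W : WeierstrassCurve ℤ)

/-- The curve over `ℚ̄` is elliptic when `Δ ≠ 0`. -/
theorem isElliptic_curveQb (hΔ : W.Δ ≠ 0) : (curveQb W).IsElliptic :=
  ⟨isUnit_iff_ne_zero.mpr (Fermat.Agent.Lib.helper1663.barW_Δ_ne_zero W hΔ)⟩

/-- The `m`-torsion module of `W(ℚ̄)` has `m²` elements. -/
theorem card_tors (hΔ : W.Δ ≠ 0) (m : ℕ) (hm : m ≠ 0) : Nat.card (Tors W m) = m ^ 2 := by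
  have := isElliptic_curveQb W hΔ
  exact Fermat.Agent.Lib.helper5856.card_torsionBy (W := curveQb W) m (by exact_mod_cast hm)

/-- An integer killing `W[m](ℚ̄)` is divisible by `m`. -/
theorem dvd_of_forall_smul_eq_zero (hΔ : W.Δ ≠ 0) (m : ℕ) (hm : m ≠ 0) (s : ℤ)
    (h : ∀ P : Tors W m, s • P = 0) : (m : ℤ) ∣ s := by
  have := isElliptic_curveQb W hΔ
  set g : ℕ := Int.gcd s m with hg
  have hgm : g ∣ m := by
    have := Int.gcd_dvd_right s (m : ℤ)
    exact_mod_cast this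
  have hg0 : g ≠ 0 := by
    intro h0
    rw [h0] at hgm
    exact hm (Nat.eq_zero_of_zero_dvd hgm)
  have hsub : {P : (curveQb W).Point | m • P = 0} ⊆ {P : (curveQb W).Point | g • P = 0} := by
    intro P hP
    have hP' : m • P = 0 := hP
    have hPm : P ∈ Submodule.torsionBy ℤ (curveQb W).Point m := by
      rw [Submodule.mem_torsionBy_iff, natCast_zsmul]; exact hP'
    have h1 : s • P = 0 := congrArg Subtype.val (h ⟨P, hPm⟩)
    have h2 : (g : ℤ) = s * Int.gcdA s m + m * Int.gcdB s m := Int.gcd_eq_gcd_ab s m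
    show g • P = 0
    rw [← natCast_zsmul, h2, add_zsmul, mul_zsmul', h1, zsmul_zero,
      mul_zsmul', natCast_zsmul, hP', zsmul_zero, add_zero]
  have hcard_m := Fermat.Agent.Lib.helper5856.ncard_torsion (W := curveQb W) m
    (by exact_mod_cast hm)
  have hcard_g := Fermat.Agent.Lib.helper5856.ncard_torsion (W := curveQb W) g
    (by exact_mod_cast hg0)
  have hfin : {P : (curveQb W).Point | g • P = 0}.Finite :=
    Set.finite_of_ncard_pos (by rw [hcard_g]; positivity)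
  have hle := Set.ncard_le_ncard hsub hfin
  rw [hcard_m, hcard_g] at hle
  have hmg : m ≤ g := (Nat.pow_le_pow_iff_left (by norm_num)).mp hle
  have hgm' : g = m := Nat.le_antisymm (Nat.le_of_dvd (Nat.pos_of_ne_zero hm) hgm) hmg
  have := Int.gcd_dvd_left s (m : ℤ)
  rw [← hg, hgm'] at this
  exact this

/-- Exponents of a primitive root. -/
theorem dvd_sub_of_pow_eq_pow {ζ : Qb} {k : ℕ} (hk : k ≠ 0) (hζ : IsPrimitiveRoot ζ k)
    {d e : ℕ} (h : ζ ^ d = ζ ^ e) : (k : ℤ) ∣ (d : ℤ) - e := by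
  have h0 : ζ ≠ 0 := hζ.ne_zero hk
  have hu : (Units.mk0 ζ h0) ^ d = (Units.mk0 ζ h0) ^ e := by
    apply Units.ext
    simpa using h
  have h1 : d ≡ e [MOD orderOf (Units.mk0 ζ h0)] := pow_eq_pow_iff_modEq.mp hu
  have h2 : orderOf (Units.mk0 ζ h0) = k := by
    rw [← orderOf_units, Units.val_mk0, ← hζ.eq_orderOf]
  rw [h2] at h1
  exact Nat.modEq_iff_dvd.mp h1.symm

variable {W} {O : Type} [CommRing O] [IsLocalRing O] [IsNoetherianRing O] {ρ : GaloisRepAdic O}

/-- **Trace and determinant from a relation on all `λ`-power torsion.**  If `σ² - a σ + e = 0`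
on `W[λⁿ](ℚ̄)` and `σ ζ = ζ ^ e` on the `λⁿ`-th roots of unity for all `n`, then `tr ρ(σ) = a`
and `det ρ(σ) = e`. -/
theorem trace_det_of_rel {T₀ : Finset ℕ} (hΔ : W.Δ ≠ 0) (h : Compatible W ρ T₀)
    (lam : ℕ) (hlam : lam.Prime) (hlamO : (lam : O) ∈ IsLocalRing.maximalIdeal O)
    (σ : Gal) (a : ℤ) (e : ℕ)
    (hrel : ∀ (n : ℕ) (P : Tors W (lam ^ n)), σ • σ • P - a • σ • P + (e : ℤ) • P = 0)
    (hroot : ∀ (n : ℕ) (ζ : Qb), ζ ^ (lam ^ n) = 1 → σ ζ = ζ ^ e) :
    LinearMap.trace O ρ.V (ρ.ρ σ) = (a : O) ∧ LinearMap.det (ρ.ρ σ) = (e : O) := by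
  have key : ∀ n : ℕ,
      LinearMap.trace O ρ.V (ρ.ρ σ) - (a : O) ∈ IsLocalRing.maximalIdeal O ^ n ∧
      LinearMap.det (ρ.ρ σ) - (e : O) ∈ IsLocalRing.maximalIdeal O ^ n := by
    intro n
    have hm : lam ^ n ≠ 0 := pow_ne_zero n hlam.ne_zero
    obtain ⟨t, d, h1, h2, h3, h4⟩ := transfer h (lam ^ n) hm n σ
    have : NeZero (lam ^ n) := ⟨hm⟩
    obtain ⟨ζ, hζ⟩ := HasEnoughRootsOfUnity.exists_primitiveRoot Qb (lam ^ n)
    have hde : ((lam ^ n : ℕ) : ℤ) ∣ (d : ℤ) - e := by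
      refine dvd_sub_of_pow_eq_pow hm hζ ?_
      rw [← h2 ζ hζ.pow_eq_one, ← hroot n ζ hζ.pow_eq_one]
    have hmem : ∀ z : ℤ, ((lam ^ n : ℕ) : ℤ) ∣ z → (z : O) ∈ IsLocalRing.maximalIdeal O ^ n := by
      rintro z ⟨c, rfl⟩
      push_cast
      exact Ideal.mul_mem_right _ _ (Ideal.pow_mem_pow hlamO n)
    have hat : ((lam ^ n : ℕ) : ℤ) ∣ a - t := by
      refine dvd_of_forall_smul_eq_zero W hΔ (lam ^ n) hm (a - t) fun Q => ?_
      have hQ : σ • (σ⁻¹ • Q) = Q := smul_inv_smul σ Q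
      have r1 := h1 (σ⁻¹ • Q)
      have r2 := hrel n (σ⁻¹ • Q)
      rw [hQ] at r1 r2
      have r3 : (a - t) • Q = ((e : ℤ) - d) • (σ⁻¹ • Q) := by
        have : (a - t) • Q - ((e : ℤ) - d) • (σ⁻¹ • Q) =
            (σ • Q - t • Q + (d : ℤ) • (σ⁻¹ • Q)) - (σ • Q - a • Q + (e : ℤ) • (σ⁻¹ • Q)) := by
          simp only [sub_smul]; abel
        rw [← sub_eq_zero, this, r1, r2, sub_zero]
      rw [r3]
      obtain ⟨c, hc⟩ := hde
      have h5 : ((e : ℤ) - d) = (-c) * ((lam ^ n : ℕ) : ℤ) := by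
        rw [neg_mul, mul_comm, ← hc]; ring
      rw [h5, mul_smul, Submodule.smul_torsionBy, smul_zero]
    constructor
    · have h5 : LinearMap.trace O ρ.V (ρ.ρ σ) - (a : O) =
          (LinearMap.trace O ρ.V (ρ.ρ σ) - (t : O)) - ((a - t : ℤ) : O) := by
        push_cast; ring
      rw [h5]
      exact Ideal.sub_mem _ h3 (hmem _ hat)
    · have h5 : LinearMap.det (ρ.ρ σ) - (e : O) =
          (LinearMap.det (ρ.ρ σ) - (d : O)) + (((d : ℤ) - e : ℤ) : O) := by
        push_cast; ring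
      rw [h5]
      exact Ideal.add_mem _ h4 (hmem _ hde)
  exact ⟨eq_of_forall_sub_mem_pow _ _ fun n => (key n).1,
    eq_of_forall_sub_mem_pow _ _ fun n => (key n).2⟩

/-- **Frobenius traces at ALL good primes.**  If `ρ` is compatible with `W` outside a finite set,
then `tr ρ(Frob_q) = a_q(W)` and `det ρ(Frob_q) = q` for every good prime `q ≠ λ` of `W`. -/
theorem trace_det_frobenius {T₀ : Finset ℕ} (hΔ : W.Δ ≠ 0) (h : Compatible W ρ T₀)
    (lam : ℕ) (hlam : lam.Prime) (hlamO : (lam : O) ∈ IsLocalRing.maximalIdeal O)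
    (q : ℕ) (hq : q.Prime) (hqlam : q ≠ lam) (hgood : W.IsGoodPrimeFor q)
    (A : ValuationSubring Qb) (hA : A.LiesOverPrime q) (σ : Gal) (hσ : A.IsFrobeniusAt σ q) :
    LinearMap.trace O ρ.V (ρ.ρ σ) = ((W.apOfModel q : ℤ) : O) ∧
      LinearMap.det (ρ.ρ σ) = (q : O) := by
  have : Fact q.Prime := ⟨hq⟩
  have hcop : ∀ n : ℕ, Nat.Coprime (lam ^ n) q := fun n =>
    Nat.Coprime.pow_left n ((Nat.coprime_primes hlam hq).mpr (Ne.symm hqlam))
  exact trace_det_of_rel hΔ h lam hlam hlamO σ (W.apOfModel q) q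
    (fun n P => Fermat.Agent.S58.helper5765.frob_relation_of_frobCH W q hgood
      (fun K _ _ _ _ => Fermat.Agent.Lib.helper1844.frobCH_all q W hgood K) A hA σ hσ
      (lam ^ n) (hcop n) P)
    (fun n ζ hζ => Fermat.Agent.S58.helper5765.isFrobeniusAt_apply_of_pow_eq_one A hA σ q hσ
      (lam ^ n) (pow_ne_zero n hlam.ne_zero) (hcop n) ζ hζ)

/-- **Unipotent inertia.**  If `W` is semistable and `ρ` (over a ring of odd residue
characteristic `p`) is compatible with `W` outside a finite set, then every inertia element at a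
prime `q ≠ p` has characteristic polynomial `(X - 1)²` on `ρ`. -/
theorem charpoly_inertia {T₀ : Finset ℕ} (hΔ : W.Δ ≠ 0) (hss : W.IsSemistableModel)
    (h : Compatible W ρ T₀) (p : ℕ) (hp : p.Prime) (hp2 : p ≠ 2)
    (hpO : (p : O) ∈ IsLocalRing.maximalIdeal O)
    (q : ℕ) (hq : q.Prime) (hqp : q ≠ p)
    (A : ValuationSubring Qb) (hA : A.LiesOverPrime q) (σ : Gal)
    (hσ : σ ∈ A.inertiaSubgroupIn ℚ) :
    LinearMap.charpoly (ρ.ρ σ) = (X - 1) ^ 2 := by
  have hodd : ∀ n : ℕ, Odd (p ^ n) := fun n => (hp.odd_of_ne_two hp2).pow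
  have hqn : ∀ n : ℕ, ¬ q ∣ p ^ n := fun n hdvd =>
    hqp ((Nat.prime_dvd_prime_iff_eq hq hp).mp (hq.dvd_of_dvd_pow hdvd))
  have hcop : ∀ n : ℕ, Nat.Coprime (p ^ n) q := fun n =>
    Nat.Coprime.pow_left n ((Nat.coprime_primes hp hq).mpr (Ne.symm hqp))
  obtain ⟨htr, hdet⟩ := trace_det_of_rel hΔ h p hp hpO σ 2 1
    (fun n P => by
      have h1 := Fermat.Agent.Lib.helper1663.rel_torsion W A hq (hodd n) (hqn n) (hss q hq) hA hσ P
      rw [Nat.cast_one]
      exact h1)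
    (fun n ζ hζ => by
      rw [pow_one]
      exact Fermat.Agent.S58.helper5765.inertia_apply_of_pow_eq_one A hA σ hσ (p ^ n)
        (pow_ne_zero n hp.ne_zero) (hcop n) ζ hζ)
  rw [charpoly_eq_of_finrank_two ρ.finrank_eq, htr, hdet]
  simp only [Int.cast_ofNat, Nat.cast_one, map_one]
  rw [show (C (2 : O) : O[X]) = 2 from rfl]
  ring

end Consumers

end Fermat.Agent.S58.helper3808
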