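import Mathlib
import Fermat.Prelude.Def_GaloisRep_Adic
import Fermat.Prelude.Def_GaloisRep_Residual
import Fermat.Prelude.Def_GaloisRep_ComplexConjugation
import Fermat.Prelude.Def_FLTPrelim_ModularRep
import Fermat.Agent.S30.helper6350_CycloPkg
import Fermat.Agent.S58.helper3808_TransferCore

/-!
# S58 via S35 + S36, part 2: the residual representation (helper3808)

`W` an integral Weierstrass model with `Δ ≠ 0`, `p` an odd prime with `W[p](ℚ̄)` irreducible
(Prelude `ModRepIsIrreducible`), `ρ` an adic representation over a local ring with `p ∈ 𝔪`,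
compatible with `W` outside a finite set (`Compatible`, part 1).  Then the residual
representation of `ρ` is odd (`residual_isOdd`) and absolutely irreducible
(`residual_isAbsolutelyIrreducible`).

No Weil pairing and no comparison isomorphism `W[p] ⊗ k ≅ ρ̄` is used: only the `transfer` of
part 1 at level `(m, N) = (p, 1)`.

* `involution_apply_ne` (Artin–Schreier, the part we need): an involution `c ≠ 1` of `ℚ̄` moves
  every primitive `p`-th root of unity, `p` odd.
* `trace_eq_two_of_stable_line` : a group acting on a plane over a field and preserving a line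
  acts with trace `2` through its commutator subgroup.
-/

set_option autoImplicit false

open Polynomial

namespace Fermat.Agent.S58.helper3808

local notation "Qb" => AlgebraicClosure ℚ
local notation "Gal" => (AlgebraicClosure ℚ) ≃ₐ[ℚ] (AlgebraicClosure ℚ)

open Fermat.Agent.S58.helper5765 (Tors curveQb)
open scoped commutatorElement

/-! ### Involutions of `ℚ̄` and roots of unity -/

section Involution

variable (c : Gal) (hc : c * c = 1)

include hc in
theorem invol_apply_apply (x : Qb) : c (c x) = x := by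
  have := congrArg (fun f : Gal => f x) hc
  simpa using this

include hc in
/-- An involution `c ≠ 1` of `ℚ̄` maps a square root of `-1` to its negative. -/
theorem invol_apply_I (hc1 : c ≠ 1) {i : Qb} (hi : i * i = -1) : c i = -i := by
  have hci : c i * c i = i * i := by rw [← map_mul, hi, map_neg, map_one]
  rcases mul_self_eq_mul_self_iff.mp hci with h | h
  · exfalso
    obtain ⟨x, hx⟩ : ∃ x, c x ≠ x := by
      by_contra hall
      push Not at hall
      exact hc1 (AlgEquiv.ext hall)
    set δ : Qb := x - c x with hδ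
    have hδ0 : δ ≠ 0 := fun h0 => hx (sub_eq_zero.mp h0).symm
    have hcδ : c δ = -δ := by
      rw [hδ, map_sub, invol_apply_apply c hc]; ring
    obtain ⟨β, hβ⟩ := IsAlgClosed.exists_eq_mul_self δ
    have hβ0 : β ≠ 0 := by
      rintro rfl
      exact hδ0 (by rw [hβ, mul_zero])
    have h1 : c β * c β = (i * β) * (i * β) := by
      rw [← map_mul, ← hβ, hcδ, hβ]
      linear_combination (-(β * β)) * hi
    have h2 : c (c β) = -β := by
      rcases mul_self_eq_mul_self_iff.mp h1 with h3 | h3
      · rw [h3, map_mul, h, h3]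
        linear_combination β * hi
      · rw [h3, map_neg, map_mul, h, h3]
        linear_combination β * hi
    rw [invol_apply_apply c hc] at h2
    have h4 : (2 : Qb) * β = 0 := by linear_combination h2
    rcases mul_eq_zero.mp h4 with h5 | h5
    · exact two_ne_zero h5
    · exact hβ0 h5
  · exact h

include hc in
/-- Sums of two squares of `c`-fixed elements are squares of `c`-fixed elements. -/
theorem invol_sum_two_squares (hc1 : c ≠ 1) {u v : Qb} (hu : c u = u) (hv : c v = v) :
    ∃ w : Qb, c w = w ∧ w * w = u * u + v * v := by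
  obtain ⟨i, hi⟩ := IsAlgClosed.exists_eq_mul_self (-1 : Qb)
  have hci := invol_apply_I c hc hc1 hi.symm
  obtain ⟨z, hz⟩ := IsAlgClosed.exists_eq_mul_self (u + i * v)
  refine ⟨z * c z, ?_, ?_⟩
  · rw [map_mul, invol_apply_apply c hc, mul_comm]
  · have h1 : c z * c z = u - i * v := by
      rw [← map_mul, ← hz, map_add, map_mul, hu, hv, hci]; ring
    have h2 : z * c z * (z * c z) = (z * z) * (c z * c z) := by ring
    rw [h2, h1, ← hz]
    linear_combination (v * v) * hi

include hc in
/-- Finite sums of squares of `c`-fixed elements are squares of `c`-fixed elements. -/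
theorem invol_sum_squares (hc1 : c ≠ 1) {ι : Type*} (s : Finset ι) (f : ι → Qb)
    (hf : ∀ k ∈ s, c (f k) = f k) :
    ∃ w : Qb, c w = w ∧ w * w = ∑ k ∈ s, f k * f k := by
  classical
  induction s using Finset.induction_on with
  | empty => exact ⟨0, map_zero c, by simp⟩
  | insert a s ha ih =>
    obtain ⟨w, hw, hww⟩ := ih fun k hk => hf k (Finset.mem_insert_of_mem hk)
    obtain ⟨w', hw', hww'⟩ := invol_sum_two_squares c hc hc1
      (hf a (Finset.mem_insert_self a s)) hw
    exact ⟨w', hw', by rw [hww', Finset.sum_insert ha, hww]⟩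

include hc in
/-- **Artin–Schreier (the part we need).**  An involution `c ≠ 1` of `ℚ̄` does not fix a
primitive `p`-th root of unity for an odd prime `p`. -/
theorem involution_apply_ne (hc1 : c ≠ 1) {p : ℕ} (hp : p.Prime) (hp2 : p ≠ 2) {ζ : Qb}
    (hζ : IsPrimitiveRoot ζ p) : c ζ ≠ ζ := by
  intro hfix
  obtain ⟨k, hk⟩ := hp.odd_of_ne_two hp2
  set η : Qb := ζ ^ (k + 1) with hη
  have hcη : c η = η := by rw [hη, map_pow, hfix]
  have hηη : η * η = ζ := by
    rw [hη, ← pow_add, show k + 1 + (k + 1) = p + 1 by omega, pow_succ, hζ.pow_eq_one, one_mul]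
  obtain ⟨w, hw, hww⟩ := invol_sum_squares c hc hc1 (Finset.range (p - 1))
    (fun j => η ^ (j + 1)) (fun j _ => by rw [map_pow, hcη])
  have hsum : ∑ j ∈ Finset.range (p - 1), η ^ (j + 1) * η ^ (j + 1) = -1 := by
    have h1 := hζ.geom_sum_eq_zero hp.one_lt
    have hp1 : p = (p - 1) + 1 := by have := hp.two_le; omega
    rw [hp1, Finset.sum_range_succ', pow_zero] at h1
    have h2 : ∀ j : ℕ, η ^ (j + 1) * η ^ (j + 1) = ζ ^ (j + 1) := fun j => by
      rw [← mul_pow, hηη]
    simp only [h2]
    linear_combination h1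
  rw [hsum] at hww
  have hcw := invol_apply_I c hc hc1 hww
  rw [hw] at hcw
  have h4 : (2 : Qb) * w = 0 := by linear_combination hcw
  rcases mul_eq_zero.mp h4 with h5 | h5
  · exact two_ne_zero h5
  · rw [h5, mul_zero] at hww
    exact one_ne_zero (neg_eq_zero.mp hww.symm)

end Involution

/-- Powers of a primitive root and congruences. -/
theorem pow_eq_pow_of_dvd_sub {ζ : Qb} {k : ℕ} (hζ : IsPrimitiveRoot ζ k) {d e : ℕ}
    (h : (k : ℤ) ∣ (d : ℤ) - e) : ζ ^ d = ζ ^ e := by
  have h1 : e ≡ d [MOD k] := Nat.modEq_iff_dvd.mpr h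
  rw [← Nat.div_add_mod d k, ← Nat.div_add_mod e k, pow_add, pow_add, pow_mul, pow_mul,
    hζ.pow_eq_one, one_pow, one_pow, h1]

/-! ### A group preserving a line in a plane -/

/-- A group acting linearly on a two-dimensional space over a field and preserving a line acts
with trace `2` through its commutator subgroup. -/
theorem trace_eq_two_of_stable_line {G : Type*} [Group G] {K : Type*} [Field K] {V : Type*}
    [AddCommGroup V] [Module K V] (hV : Module.finrank K V = 2) (r : G →* Module.End K V)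
    (U : Submodule K V) (hU0 : U ≠ ⊥) (hU1 : U ≠ ⊤) (hU : ∀ g : G, ∀ x ∈ U, r g x ∈ U)
    {γ : G} (hγ : γ ∈ commutator G) : LinearMap.trace K V (r γ) = 2 := by
  obtain ⟨u, huU, hu0⟩ := (Submodule.ne_bot_iff U).mp hU0
  obtain ⟨v, hvU⟩ : ∃ v, v ∉ U := by
    by_contra hall
    push Not at hall
    exact hU1 (eq_top_iff.mpr fun x _ => hall x)
  have hli : LinearIndependent K ![u, v] := by
    rw [LinearIndependent.pair_iff]
    intro s t hst
    have ht : t = 0 := by
      by_contra ht
      apply hvU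
      have h1 : t • v = -(s • u) := eq_neg_of_add_eq_zero_right hst
      have h2 : v = (-(t⁻¹ * s)) • u := by
        calc v = t⁻¹ • (t • v) := by rw [smul_smul, inv_mul_cancel₀ ht, one_smul]
          _ = (-(t⁻¹ * s)) • u := by rw [h1, smul_neg, smul_smul, neg_smul]
      rw [h2]
      exact U.smul_mem _ huU
    refine ⟨?_, ht⟩
    rw [ht, zero_smul, add_zero] at hst
    exact (smul_eq_zero.mp hst).resolve_right hu0
  let b : Module.Basis (Fin 2) K V :=
    basisOfLinearIndependentOfCardEqFinrank hli (by rw [Fintype.card_fin, hV])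
  have hb0 : b 0 = u := by simp [b]
  have hb1 : b 1 = v := by simp [b]
  have hUcoord : ∀ w ∈ U, b.repr w 1 = 0 := by
    intro w hw
    by_contra hne
    apply hvU
    have hsum : w = b.repr w 0 • u + b.repr w 1 • v := by
      conv_lhs => rw [← b.sum_repr w]
      rw [Fin.sum_univ_two, hb0, hb1]
    have h2 : v = (b.repr w 1)⁻¹ • (w - b.repr w 0 • u) := by
      have h3 : w - b.repr w 0 • u = b.repr w 1 • v := by rw [sub_eq_iff_eq_add, add_comm]; exact hsum
      rw [h3, smul_smul, inv_mul_cancel₀ hne, one_smul]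
    rw [h2]
    exact U.smul_mem _ (U.sub_mem hw (U.smul_mem _ huU))
  let M : G → Matrix (Fin 2) (Fin 2) K := fun g => LinearMap.toMatrix b b (r g)
  have hM10 : ∀ g, M g 1 0 = 0 := by
    intro g
    show LinearMap.toMatrix b b (r g) 1 0 = 0
    rw [LinearMap.toMatrix_apply, hb0]
    exact hUcoord _ (hU g u huU)
  have hMmul : ∀ g h, M (g * h) = M g * M h := by
    intro g h
    show LinearMap.toMatrix b b (r (g * h)) = _
    rw [map_mul]
    exact LinearMap.toMatrix_mul b _ _
  have hM1 : M 1 = 1 := by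
    show LinearMap.toMatrix b b (r 1) = 1
    rw [map_one]
    exact LinearMap.toMatrix_one b
  let χ₀ : G →* K :=
    { toFun := fun g => M g 0 0
      map_one' := by rw [hM1]; simp
      map_mul' := fun g h => by
        rw [hMmul, Matrix.mul_apply, Fin.sum_univ_two, hM10 h, mul_zero, add_zero] }
  let χ₁ : G →* K :=
    { toFun := fun g => M g 1 1
      map_one' := by rw [hM1]; simp
      map_mul' := fun g h => by
        rw [hMmul, Matrix.mul_apply, Fin.sum_univ_two, hM10 g, zero_mul, zero_add] }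
  have h0 : M γ 0 0 = 1 := by
    have h1 := Abelianization.commutator_subset_ker χ₀.toHomUnits hγ
    rw [MonoidHom.mem_ker] at h1
    have h2 := congrArg Units.val h1
    rwa [MonoidHom.coe_toHomUnits, Units.val_one] at h2
  have h1 : M γ 1 1 = 1 := by
    have h1 := Abelianization.commutator_subset_ker χ₁.toHomUnits hγ
    rw [MonoidHom.mem_ker] at h1
    have h2 := congrArg Units.val h1
    rwa [MonoidHom.coe_toHomUnits, Units.val_one] at h2
  rw [LinearMap.trace_eq_matrix_trace K b, Matrix.trace_fin_two]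
  show M γ 0 0 + M γ 1 1 = 2
  rw [h0, h1]
  norm_num

/-! ### The residual representation -/

section Residual

variable {W : WeierstrassCurve ℤ} {O : Type} [CommRing O] [IsLocalRing O]

theorem residual_trace (ρ : GaloisRepAdic O) (σ : Gal) :
    LinearMap.trace (IsLocalRing.ResidueField O) ρ.residual.V (ρ.residual.ρ σ) =
      IsLocalRing.residue O (LinearMap.trace O ρ.V (ρ.ρ σ)) := by
  show LinearMap.trace (IsLocalRing.ResidueField O)
    (TensorProduct O (IsLocalRing.ResidueField O) ρ.V)
      ((ρ.ρ σ).baseChange (IsLocalRing.ResidueField O)) = _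
  rw [LinearMap.trace_baseChange, IsLocalRing.ResidueField.algebraMap_eq]

theorem residual_det (ρ : GaloisRepAdic O) (σ : Gal) :
    LinearMap.det (ρ.residual.ρ σ) = IsLocalRing.residue O (LinearMap.det (ρ.ρ σ)) := by
  show LinearMap.det ((ρ.ρ σ).baseChange (IsLocalRing.ResidueField O)) = _
  rw [LinearMap.det_baseChange, IsLocalRing.ResidueField.algebraMap_eq]

/-- The residue field has characteristic `p` when `p ∈ 𝔪`. -/
theorem charP_residueField (p : ℕ) (hp : p.Prime)
    (hpO : (p : O) ∈ IsLocalRing.maximalIdeal O) : CharP (IsLocalRing.ResidueField O) p := by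
  have h3 : ((p : ℕ) : IsLocalRing.ResidueField O) = 0 := by
    rw [← map_natCast (IsLocalRing.residue O)]
    exact (IsLocalRing.residue_eq_zero_iff _).mpr hpO
  have : Fact p.Prime := ⟨hp⟩
  exact (CharP.charP_iff_prime_eq_zero hp).mpr h3

variable {ρ : GaloisRepAdic O}

/-- The transfer at level `(p, 1)`, in residual form. -/
theorem exists_residual_datum {T₀ : Finset ℕ} (h : Compatible W ρ T₀) (p : ℕ) (hp : p.Prime)
    (σ : Gal) :
    ∃ (t : ℤ) (d : ℕ),
      (∀ P : Tors W p, σ • σ • P - t • σ • P + (d : ℤ) • P = 0) ∧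
      (∀ ζ : Qb, ζ ^ p = 1 → σ ζ = ζ ^ d) ∧
      LinearMap.trace (IsLocalRing.ResidueField O) ρ.residual.V (ρ.residual.ρ σ) =
        ((t : ℤ) : IsLocalRing.ResidueField O) ∧
      LinearMap.det (ρ.residual.ρ σ) = ((d : ℕ) : IsLocalRing.ResidueField O) := by
  obtain ⟨t, d, h1, h2, h3, h4⟩ := transfer h p hp.ne_zero 1 σ
  rw [pow_one] at h3 h4
  refine ⟨t, d, h1, h2, ?_, ?_⟩
  · rw [residual_trace, ← map_intCast (IsLocalRing.residue O), ← sub_eq_zero, ← map_sub,
      IsLocalRing.residue_eq_zero_iff]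
    exact h3
  · rw [residual_det, ← map_natCast (IsLocalRing.residue O), ← sub_eq_zero, ← map_sub,
      IsLocalRing.residue_eq_zero_iff]
    exact h4

/-- **Oddness of the residual representation.** -/
theorem residual_isOdd {T₀ : Finset ℕ} (h : Compatible W ρ T₀) (p : ℕ) (hp : p.Prime)
    (hp2 : p ≠ 2) (hpO : (p : O) ∈ IsLocalRing.maximalIdeal O) : ρ.residual.IsOdd := by
  intro c hc hc1
  have := charP_residueField p hp hpO
  obtain ⟨t, d, -, h2, -, h4⟩ := exists_residual_datum h p hp c
  have : NeZero p := ⟨hp.ne_zero⟩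
  obtain ⟨ζ, hζ⟩ := HasEnoughRootsOfUnity.exists_primitiveRoot Qb p
  have hcζ : c ζ = ζ ^ d := h2 ζ hζ.pow_eq_one
  have hdd : ζ ^ (d * d) = ζ ^ 1 := by
    rw [pow_mul, ← hcζ, ← map_pow, ← hcζ, invol_apply_apply c hc, pow_one]
  have h5 := dvd_sub_of_pow_eq_pow hp.ne_zero hζ hdd
  have h6 : (p : ℤ) ∣ ((d : ℤ) - 1) * ((d : ℤ) + 1) := by
    convert h5 using 1
    push_cast
    ring
  rcases (Nat.prime_iff_prime_int.mp hp).dvd_or_dvd h6 with h7 | h7
  · exfalso
    have h8 : ζ ^ d = ζ ^ 1 := pow_eq_pow_of_dvd_sub hζ (by simpa using h7)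
    rw [pow_one] at h8
    exact involution_apply_ne c hc hc1 hp hp2 hζ (hcζ.trans h8)
  · rw [h4]
    have h8 : (((d : ℤ) + 1 : ℤ) : IsLocalRing.ResidueField O) = 0 :=
      (CharP.intCast_eq_zero_iff _ p _).mpr h7
    push_cast at h8
    exact eq_neg_of_add_eq_zero_left h8

end Residual

/-! ### Absolute irreducibility -/

section AbsIrr

variable {W : WeierstrassCurve ℤ} {O : Type} [CommRing O] [IsLocalRing O] {ρ : GaloisRepAdic O}

/-- If the residual representation has a stable line over the algebraic closure, the commutator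
subgroup of `G_ℚ` acts unipotently on `W[p](ℚ̄)`. -/
theorem unip_of_stable_line {T₀ : Finset ℕ} (h : Compatible W ρ T₀) (p : ℕ) (hp : p.Prime)
    (hpO : (p : O) ∈ IsLocalRing.maximalIdeal O)
    (U : Submodule (AlgebraicClosure (IsLocalRing.ResidueField O))
      (ρ.residual.baseChange (AlgebraicClosure (IsLocalRing.ResidueField O))).V)
    (hU : ∀ σ : Gal, ∀ x ∈ U,
      (ρ.residual.baseChange (AlgebraicClosure (IsLocalRing.ResidueField O))).ρ σ x ∈ U)
    (hU0 : U ≠ ⊥) (hU1 : U ≠ ⊤) {γ : Gal} (hγ : γ ∈ commutator Gal) (P : Tors W p) :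
    γ • (γ • P - P) = γ • P - P := by
  have hchar := charP_residueField p hp hpO
  -- trace and determinant of the residual representation at `γ`
  have htr' := trace_eq_two_of_stable_line
    (ρ.residual.baseChange (AlgebraicClosure (IsLocalRing.ResidueField O))).finrank_eq
    (ρ.residual.baseChange (AlgebraicClosure (IsLocalRing.ResidueField O))).ρ U hU0 hU1 hU hγ
  have htr : LinearMap.trace (IsLocalRing.ResidueField O) ρ.residual.V (ρ.residual.ρ γ) = 2 := by
    have h1 : LinearMap.trace (AlgebraicClosure (IsLocalRing.ResidueField O))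
        (TensorProduct (IsLocalRing.ResidueField O)
          (AlgebraicClosure (IsLocalRing.ResidueField O)) ρ.residual.V)
        ((ρ.residual.ρ γ).baseChange (AlgebraicClosure (IsLocalRing.ResidueField O))) = 2 := htr'
    rw [LinearMap.trace_baseChange] at h1
    apply (algebraMap (IsLocalRing.ResidueField O)
      (AlgebraicClosure (IsLocalRing.ResidueField O))).injective
    rw [h1, map_ofNat]
  have hdet : LinearMap.det (ρ.residual.ρ γ) = 1 := by
    have h1 := Abelianization.commutator_subset_ker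
      ((LinearMap.det.comp ρ.residual.ρ).toHomUnits) hγ
    rw [MonoidHom.mem_ker] at h1
    have h2 := congrArg Units.val h1
    rwa [MonoidHom.coe_toHomUnits, Units.val_one] at h2
  obtain ⟨t, d, h1, -, h3, h4⟩ := exists_residual_datum h p hp γ
  have ht : (p : ℤ) ∣ t - 2 := by
    rw [← CharP.intCast_eq_zero_iff (IsLocalRing.ResidueField O) p]
    push_cast
    rw [← h3, htr, sub_self]
  have hd : (p : ℤ) ∣ (d : ℤ) - 1 := by
    rw [← CharP.intCast_eq_zero_iff (IsLocalRing.ResidueField O) p]
    push_cast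
    rw [← h4, hdet, sub_self]
  have e1 : (t - 2) • (γ • P) = 0 := by
    obtain ⟨c, hc⟩ := ht
    rw [hc, mul_comm, mul_smul, Submodule.smul_torsionBy, smul_zero]
  have e2 : ((d : ℤ) - 1) • P = 0 := by
    obtain ⟨c, hc⟩ := hd
    rw [hc, mul_comm, mul_smul, Submodule.smul_torsionBy, smul_zero]
  have e3 : γ • γ • P - (2 : ℤ) • γ • P + P = 0 := by
    have h5 : γ • γ • P - (2 : ℤ) • γ • P + P =
        (γ • γ • P - t • γ • P + (d : ℤ) • P) + (t - 2) • (γ • P) - ((d : ℤ) - 1) • P := by
      simp only [sub_smul, one_smul]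
      abel
    rw [h5, h1 P, e1, e2]
    simp
  rw [smul_sub]
  have h6 : γ • γ • P - γ • P - (γ • P - P) = γ • γ • P - (2 : ℤ) • γ • P + P := by
    rw [two_smul]
    abel
  exact sub_eq_zero.mp (h6.trans e3)

/-- A normal subgroup acting unipotently on the irreducible `W[p](ℚ̄)` acts trivially. -/
theorem commutator_trivial (hΔ : W.Δ ≠ 0) (p : ℕ) (hp : p.Prime)
    (hirr : W.ModRepIsIrreducible p)
    (hun : ∀ γ ∈ commutator Gal, ∀ P : Tors W p, γ • (γ • P - P) = γ • P - P) :
    ∀ γ ∈ commutator Gal, ∀ P : Tors W p, γ • P = P := by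
  have hpow : ∀ γ ∈ commutator Gal, ∀ P : Tors W p, γ ^ p • P = P := by
    intro γ hγ P
    rw [Fermat.Agent.Lib.helper1663.pow_smul_eq_of_unip γ P (hun γ hγ P) p]
    have h1 : (p : ℕ) • (γ • P - P) = 0 := by
      rw [← natCast_zsmul]
      exact Submodule.smul_torsionBy _ _
    rw [h1, add_zero]
  have : Fact p.Prime := ⟨hp⟩
  have hcard := card_tors W hΔ p hp.ne_zero
  have : Finite (Tors W p) :=
    Nat.finite_of_card_ne_zero (by rw [hcard]; exact pow_ne_zero 2 hp.ne_zero)
  let H : Subgroup (Equiv.Perm (Tors W p)) :=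
    (commutator Gal).map (MulAction.toPermHom Gal (Tors W p))
  have hH : IsPGroup p H := by
    rintro ⟨_, γ, hγ, rfl⟩
    refine ⟨1, Subtype.ext ?_⟩
    rw [pow_one]
    show (MulAction.toPermHom Gal (Tors W p) γ) ^ p = 1
    rw [← map_pow]
    exact Equiv.ext fun P => hpow γ hγ P
  obtain ⟨b, hbfix, hb0⟩ := hH.exists_fixed_point_of_prime_dvd_card_of_fixed_point (Tors W p)
    (by rw [hcard]; exact dvd_pow_self p two_ne_zero) (a := 0)
    (by
      rw [MulAction.mem_fixedPoints]
      rintro ⟨_, γ, hγ, rfl⟩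
      exact smul_zero γ)
  have hb : ∀ γ ∈ commutator Gal, γ • b = b := by
    intro γ hγ
    rw [MulAction.mem_fixedPoints] at hbfix
    exact hbfix ⟨MulAction.toPermHom Gal (Tors W p) γ, Subgroup.mem_map_of_mem _ hγ⟩
  let Nfix : Submodule (ZMod p) (Tors W p) :=
    { carrier := {x | ∀ γ ∈ commutator Gal, γ • x = x}
      add_mem' := by
        intro x y hx hy γ hγ
        rw [smul_add, hx γ hγ, hy γ hγ]
      zero_mem' := fun γ _ => smul_zero γ
      smul_mem' := by
        intro a x hx γ hγ
        rw [smul_comm, hx γ hγ] }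
  have hstable : ∀ σ : Gal, ∀ x ∈ Nfix, σ • x ∈ Nfix := by
    intro σ x hx γ hγ
    have hconj : σ⁻¹ * γ * σ ∈ commutator Gal := by
      have h1 := Subgroup.Normal.conj_mem (inferInstance : (commutator Gal).Normal) γ hγ σ⁻¹
      rwa [inv_inv] at h1
    have h2 : (σ⁻¹ * γ * σ) • x = x := hx _ hconj
    calc γ • σ • x = σ • ((σ⁻¹ * γ * σ) • x) := by
          rw [← mul_smul, ← mul_smul, mul_assoc σ⁻¹, mul_inv_cancel_left]
      _ = σ • x := by rw [h2]
  rcases hirr.2 Nfix hstable with h0 | h1
  · exfalso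
    have h2 : b ∈ Nfix := hb
    rw [h0, Submodule.mem_bot] at h2
    exact hb0 h2.symm
  · intro γ hγ P
    have h2 : P ∈ Nfix := by rw [h1]; trivial
    exact h2 γ hγ

/-- The Galois group cannot act on the irreducible `W[p](ℚ̄)`, `p` odd, through an abelian
quotient. -/
theorem false_of_abelian {T₀ : Finset ℕ} (hΔ : W.Δ ≠ 0) (h : Compatible W ρ T₀) (p : ℕ)
    (hp : p.Prime) (hp2 : p ≠ 2) (hirr : W.ModRepIsIrreducible p)
    (htriv : ∀ γ ∈ commutator Gal, ∀ P : Tors W p, γ • P = P) : False := by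
  have hcomm : ∀ σ τ : Gal, ∀ x : Tors W p, σ • τ • x = τ • σ • x := by
    intro σ τ x
    have hmem : ⁅σ⁻¹, τ⁻¹⁆ ∈ commutator Gal :=
      Subgroup.commutator_mem_commutator (Subgroup.mem_top _) (Subgroup.mem_top _)
    have h1 := htriv _ hmem x
    rw [commutatorElement_def, inv_inv, inv_inv] at h1
    calc σ • τ • x = (τ * σ) • ((σ⁻¹ * τ⁻¹ * σ * τ) • x) := by
          rw [← mul_smul, ← mul_smul]
          congr 1
          group
      _ = τ • σ • x := by rw [h1, mul_smul]
  -- complex conjugation acts as a sign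
  have hc₀ : complexConjugation * complexConjugation = 1 := complexConjugation_mul_self
  have hc₀x : ∀ x : Tors W p, complexConjugation • complexConjugation • x = x := fun x => by
    rw [← mul_smul, hc₀, one_smul]
  obtain ⟨ε, hε, hεx⟩ : ∃ ε : ℤ, (ε = 1 ∨ ε = -1) ∧
      ∀ x : Tors W p, complexConjugation • x = ε • x := by
    let Nfix : Submodule (ZMod p) (Tors W p) :=
      { carrier := {x | complexConjugation • x = x}
        add_mem' := by
          intro x y hx hy
          show complexConjugation • (x + y) = x + y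
          rw [smul_add, (hx : complexConjugation • x = x), (hy : complexConjugation • y = y)]
        zero_mem' := smul_zero _
        smul_mem' := by
          intro a x hx
          show complexConjugation • (a • x) = a • x
          rw [smul_comm, (hx : complexConjugation • x = x)] }
    rcases hirr.2 Nfix (fun σ x hx => by
        show complexConjugation • σ • x = σ • x
        rw [hcomm, (hx : complexConjugation • x = x)]) with h0 | h1
    · refine ⟨-1, Or.inr rfl, fun x => ?_⟩
      have h2 : complexConjugation • x + x ∈ Nfix := by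
        show complexConjugation • (complexConjugation • x + x) = complexConjugation • x + x
        rw [smul_add, hc₀x, add_comm]
      rw [h0, Submodule.mem_bot] at h2
      rw [neg_one_smul]
      exact eq_neg_of_add_eq_zero_left h2
    · refine ⟨1, Or.inl rfl, fun x => ?_⟩
      have h2 : x ∈ Nfix := by rw [h1]; trivial
      rw [one_smul]
      exact h2
  -- a non-scalar element
  obtain ⟨σ₀, hσ₀⟩ : ∃ σ₀ : Gal, ∀ s : ℤ, ∃ x : Tors W p, σ₀ • x ≠ s • x := by
    by_contra hall
    push Not at hall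
    have := hirr.1
    obtain ⟨x₀, hx₀⟩ := exists_ne (0 : Tors W p)
    rcases hirr.2 (Submodule.span (ZMod p) {x₀}) (fun σ x hx => by
        obtain ⟨a, rfl⟩ := Submodule.mem_span_singleton.mp hx
        obtain ⟨s, hs⟩ := hall σ
        rw [hs]
        exact zsmul_mem (Submodule.smul_mem _ _ (Submodule.mem_span_singleton_self x₀)) s)
      with h0 | h1
    · exact hx₀ (Submodule.span_singleton_eq_bot.mp h0)
    · have hsurj : Function.Surjective (fun a : ZMod p => a • x₀) := by
        intro x
        have h2 : x ∈ Submodule.span (ZMod p) {x₀} := by rw [h1]; trivial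
        exact Submodule.mem_span_singleton.mp h2
      have : NeZero p := ⟨hp.ne_zero⟩
      have hle := Nat.card_le_card_of_surjective _ hsurj
      rw [card_tors W hΔ p hp.ne_zero, Nat.card_zmod] at hle
      have := hp.two_le
      nlinarith
  obtain ⟨t₀, d₀, r0, z0, -, -⟩ := transfer h p hp.ne_zero 0 σ₀
  obtain ⟨t₁, d₁, r1, z1, -, -⟩ := transfer h p hp.ne_zero 0 (σ₀ * complexConjugation)
  have : NeZero p := ⟨hp.ne_zero⟩
  obtain ⟨ζ, hζ⟩ := HasEnoughRootsOfUnity.exists_primitiveRoot Qb p
  have hd : (p : ℤ) ∣ (d₀ : ℤ) + d₁ := by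
    have e1 : (σ₀ * complexConjugation) ζ = (ζ ^ d₀)⁻¹ := by
      rw [AlgEquiv.mul_apply,
        Fermat.Agent.S30.helper6350.complexConjugation_root_of_unity hp.ne_zero hζ.pow_eq_one,
        map_inv₀, z0 ζ hζ.pow_eq_one]
    have e2 : ζ ^ (d₀ + d₁) = ζ ^ 0 := by
      rw [pow_add, ← z1 ζ hζ.pow_eq_one, e1, pow_zero,
        mul_inv_cancel₀ (pow_ne_zero _ (hζ.ne_zero hp.ne_zero))]
    have h1 := dvd_sub_of_pow_eq_pow hp.ne_zero hζ e2
    simpa using h1
  have hεε : ε * ε = 1 := by rcases hε with rfl | rfl <;> norm_num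
  have hσc : ∀ x : Tors W p, (σ₀ * complexConjugation) • x = ε • σ₀ • x := fun x => by
    rw [mul_smul, hεx, smul_comm]
  have r1' : ∀ P : Tors W p, σ₀ • σ₀ • P - (t₁ * ε) • σ₀ • P + (d₁ : ℤ) • P = 0 := by
    intro P
    have h1 := r1 P
    have h2 : (σ₀ * complexConjugation) • (σ₀ * complexConjugation) • P = σ₀ • σ₀ • P := by
      rw [hσc, hσc, smul_comm σ₀ ε, smul_smul, hεε, one_smul]
    have h3 : t₁ • (σ₀ * complexConjugation) • P = (t₁ * ε) • σ₀ • P := by
      rw [hσc, smul_smul]
    rw [h2, h3] at h1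
    exact h1
  have hdiff : ∀ P : Tors W p, (t₁ * ε - t₀) • σ₀ • P = ((d₁ : ℤ) - d₀) • P := by
    intro P
    have h1 : (t₁ * ε - t₀) • σ₀ • P - ((d₁ : ℤ) - d₀) • P =
        (σ₀ • σ₀ • P - t₀ • σ₀ • P + (d₀ : ℤ) • P) -
          (σ₀ • σ₀ • P - (t₁ * ε) • σ₀ • P + (d₁ : ℤ) • P) := by
      simp only [sub_smul]
      abel
    rw [← sub_eq_zero, h1, r0 P, r1' P, sub_zero]
  by_cases hu : (p : ℤ) ∣ t₁ * ε - t₀
  · have h1 : (p : ℤ) ∣ (d₁ : ℤ) - d₀ := by
      refine dvd_of_forall_smul_eq_zero W hΔ p hp.ne_zero _ fun P => ?_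
      rw [← hdiff P]
      obtain ⟨c, hc⟩ := hu
      rw [hc, mul_comm, mul_smul, Submodule.smul_torsionBy, smul_zero]
    have h2 : (p : ℤ) ∣ 2 * (d₀ : ℤ) := by
      have h3 : (p : ℤ) ∣ ((d₀ : ℤ) + d₁) - ((d₁ : ℤ) - d₀) := dvd_sub hd h1
      have e : ((d₀ : ℤ) + d₁) - ((d₁ : ℤ) - d₀) = 2 * (d₀ : ℤ) := by ring
      rwa [e] at h3
    have h3 : (p : ℤ) ∣ (d₀ : ℤ) := by
      rcases (Nat.prime_iff_prime_int.mp hp).dvd_or_dvd h2 with h4 | h4
      · exfalso
        have h5 := Int.le_of_dvd (by norm_num) h4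
        have h6 := hp.two_le
        omega
      · exact h4
    have h4 : ζ ^ d₀ = ζ ^ 0 := pow_eq_pow_of_dvd_sub hζ (by simpa using h3)
    have h5 : σ₀ ζ = 1 := by rw [z0 ζ hζ.pow_eq_one, h4, pow_zero]
    have h6 : ζ = 1 := σ₀.injective (h5.trans (map_one σ₀).symm)
    exact hζ.ne_one hp.one_lt h6
  · have hcop : IsCoprime (t₁ * ε - t₀) (p : ℤ) :=
      (isCoprime_comm.mp
        ((Prime.coprime_iff_not_dvd (Nat.prime_iff_prime_int.mp hp)).mpr hu))
    obtain ⟨a, b, hab⟩ := hcop
    obtain ⟨x, hx⟩ := hσ₀ (a * ((d₁ : ℤ) - d₀))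
    apply hx
    calc σ₀ • x = (a * (t₁ * ε - t₀) + b * (p : ℤ)) • σ₀ • x := by rw [hab, one_smul]
      _ = a • ((t₁ * ε - t₀) • σ₀ • x) + b • ((p : ℤ) • σ₀ • x) := by
          rw [add_smul, mul_smul, mul_smul]
      _ = (a * ((d₁ : ℤ) - d₀)) • x := by
          rw [hdiff, Submodule.smul_torsionBy, smul_zero, add_zero, mul_smul]

/-- **Absolute irreducibility of the residual representation.** -/
theorem residual_isAbsolutelyIrreducible {T₀ : Finset ℕ} (hΔ : W.Δ ≠ 0)
    (h : Compatible W ρ T₀) (p : ℕ) (hp : p.Prime) (hp2 : p ≠ 2)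
    (hpO : (p : O) ∈ IsLocalRing.maximalIdeal O) (hirr : W.ModRepIsIrreducible p) :
    ρ.residual.IsAbsolutelyIrreducible := by
  intro U hU
  by_contra hcon
  push Not at hcon
  exact false_of_abelian hΔ h p hp hp2 hirr
    (commutator_trivial hΔ p hp hirr fun γ hγ P =>
      unip_of_stable_line h p hp hpO U hU hcon.1 hcon.2 hγ P)

end AbsIrr

end Fermat.Agent.S58.helper3808
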