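import Mathlib
import Fermat.Prelude.Def_CuspForm_HeckeGaloisRepDatum
import Fermat.Prelude.Def_CuspForm_Newforms
import Fermat.Prelude.Def_GaloisRep_LocalConditions
import Fermat.Prelude.Def_GaloisRep_Residual
import Fermat.Prelude.Def_WeierstrassCurve_ConductorLevel
import Fermat.Prelude.Def_FLTPrelim_ModularRep
import Fermat.Agent.Lib.helper54_Frobenius
import Fermat.Agent.S29.helper7617_Integrality
import Fermat.Agent.S58.helper708_IntCoeff
import Fermat.Agent.S58.helper6078_MultOne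
import Fermat.Agent.S58.helper1646_Raise
import Fermat.Agent.S58.helper1790_TrivBound
import Fermat.Agent.S58.helper3808_TransferCore
import Fermat.Agent.S58.helper3808_Residual

/-!
# S58 as a corollary of the frozen statements S35 and S36 (helper3808)

`Stmt_S35`, `Stmt_S36` are the frozen types of S35 and S36, restated verbatim as `Prop`s (no
reserved name is cited).  Main result:

`core_of : Stmt_S35 → Stmt_S36 → (hypotheses of frozen S58) → helper1646.Stmt_Core W N`,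

so that `Fermat.Agent.S58.helper1646.frozen_of_core` turns proofs of the frozen S35 and S36 into
a proof of the frozen S58.

Route.  Let `g` be a Prelude newform of level `M ∣ N` with `a_ℓ(g) = a_ℓ(W)` for the good primes
`ℓ ∤ N`.
* (0) all `a_n(g)` are integers (landed multiplicity one + integrality);
* S35/S36 are applied with `O' = ℤ_[λ]`, the eigencharacter of `g` and `ι : ℤ → ℤ_[λ]`;
* (C) `M` is squarefree: a prime `q` with `q² ∣ M` is `≠ p`, and the representation of S36 at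
  `λ = p` is unipotent on inertia at `q` by `charpoly_inertia` — contradiction (the hypothesis
  `hres` of S36 is discharged by `residual_isAbsolutelyIrreducible`, `residual_isOdd`);
* (B) every prime `q ∣ M` divides `Δ`: otherwise the second clause of S35 at a prime `λ ≠ q`
  gives `tr ρ(Frob_q) = ± (q + 1)`, while `trace_det_frobenius` gives `a_q(W)`, against the
  trivial bound `|a_q(W)| ≤ q`;
* (A) `a_ℓ(g) = a_ℓ(W)` for a good prime `ℓ ∣ N`: `ℓ ∤ M` by (B), and the first clause of S35 at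
  a prime `λ ≠ ℓ` with `ℓ ∉ S` compared with `trace_det_frobenius`.
-/

set_option autoImplicit false

open Polynomial

namespace Fermat.Agent.S58.helper3808

local notation "Qb" => AlgebraicClosure ℚ
local notation "Gal" => (AlgebraicClosure ℚ) ≃ₐ[ℚ] (AlgebraicClosure ℚ)

/-- The frozen statement S35, verbatim. -/
def Stmt_S35 : Prop :=
  ∀ {M : ℕ} [NeZero M] {g : CuspForm (CongruenceSubgroup.Gamma0 M) 2} (_hg : g.IsNewform)
    (lam : ℕ) [Fact lam.Prime]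
    (S : Finset ℕ)
    (O' : Type) [CommRing O'] [IsDomain O'] [IsDiscreteValuationRing O']
    [IsAdicComplete (IsLocalRing.maximalIdeal O') O'] [Finite (IsLocalRing.ResidueField O')]
    [CharZero O'] (_hlamO' : (lam : O') ∈ IsLocalRing.maximalIdeal O')
    (chig : CuspForm.heckeAlgebra M 2 (↑S : Set ℕ) →+* ℂ)
    (_hchig : ∀ (ℓ : ℕ) (hℓ : ℓ.Prime) (hℓM : ¬ ℓ ∣ M) (hℓS : ℓ ∉ (↑S : Set ℕ)),
      chig (CuspForm.heckeAlgebra.T hℓ hℓM hℓS) = ModularFormClass.qCoeff g ℓ)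
    (iota : chig.range →+* O')
    (_hlamS : lam ∈ S) (_hMS : ∀ q : ℕ, q.Prime → q ∣ M → q ∈ S),
    ∃ (O'' : Type) (_ : CommRing O'') (_ : IsDomain O'') (_ : IsDiscreteValuationRing O'')
      (_ : IsAdicComplete (IsLocalRing.maximalIdeal O'') O'') (_ : Finite (IsLocalRing.ResidueField O''))
      (_ : CharZero O'') (_ : Algebra O' O'') (_ : Module.Finite O' O'') (_ : IsLocalHom (algebraMap O' O'')),
      Function.Injective (algebraMap O' O'') ∧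
      ∃ ρ : GaloisRepAdic O'',
        (∀ (ℓ : ℕ) (hℓ : ℓ.Prime) (hℓM : ¬ ℓ ∣ M) (hℓS : ℓ ∉ (↑S : Set ℕ)),
          ∀ A : ValuationSubring (AlgebraicClosure ℚ), A.LiesOverPrime ℓ →
            ∀ σ : AlgebraicClosure ℚ ≃ₐ[ℚ] AlgebraicClosure ℚ, A.IsFrobeniusAt σ ℓ →
              LinearMap.charpoly (ρ.ρ σ) =
                X ^ 2 - C (algebraMap O' O'' ((iota.comp chig.rangeRestrict) (CuspForm.heckeAlgebra.T hℓ hℓM hℓS))) * X
                  + C ((ℓ : O''))) ∧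
        (∀ q : ℕ, q.Prime → q ≠ lam → q ∣ M → ¬ q ^ 2 ∣ M →
          ∀ A : ValuationSubring (AlgebraicClosure ℚ), A.LiesOverPrime q →
            ∀ σ : AlgebraicClosure ℚ ≃ₐ[ℚ] AlgebraicClosure ℚ, A.IsFrobeniusAt σ q →
              LinearMap.charpoly (ρ.ρ σ) = X ^ 2 - C ((q : O'') + 1) * X + C ((q : O'')) ∨
              LinearMap.charpoly (ρ.ρ σ) = X ^ 2 + C ((q : O'') + 1) * X + C ((q : O'')))

/-- The frozen statement S36, verbatim. -/
def Stmt_S36 : Prop :=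
  ∀ {M : ℕ} [NeZero M] {g : CuspForm (CongruenceSubgroup.Gamma0 M) 2} (_hg : g.IsNewform)
    (lam : ℕ) [Fact lam.Prime]
    (S : Finset ℕ)
    (O' : Type) [CommRing O'] [IsDomain O'] [IsDiscreteValuationRing O']
    [IsAdicComplete (IsLocalRing.maximalIdeal O') O'] [Finite (IsLocalRing.ResidueField O')]
    [CharZero O'] (_hlamO' : (lam : O') ∈ IsLocalRing.maximalIdeal O')
    (_hlam2 : lam ≠ 2)
    (chig : CuspForm.heckeAlgebra M 2 (↑S : Set ℕ) →+* ℂ)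
    (_hchig : ∀ (ℓ : ℕ) (hℓ : ℓ.Prime) (hℓM : ¬ ℓ ∣ M) (hℓS : ℓ ∉ (↑S : Set ℕ)),
      chig (CuspForm.heckeAlgebra.T hℓ hℓM hℓS) = ModularFormClass.qCoeff g ℓ)
    (iota : chig.range →+* O')
    (_hlamS : lam ∈ S) (_hMS : ∀ q : ℕ, q.Prime → q ∣ M → q ∈ S)
    (_hres : ∀ (O'' : Type) [CommRing O''] [IsDomain O''] [IsDiscreteValuationRing O'']
      [IsAdicComplete (IsLocalRing.maximalIdeal O'') O''] [Finite (IsLocalRing.ResidueField O'')] [CharZero O'']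
      [Algebra O' O''] [Module.Finite O' O''] [IsLocalHom (algebraMap O' O'')],
      Function.Injective (algebraMap O' O'') → ∀ (ρ : GaloisRepAdic O''),
      (∀ (ℓ : ℕ) (hℓ : ℓ.Prime) (_hℓlam : ℓ ≠ lam) (hℓM : ¬ ℓ ∣ M) (hℓS : ℓ ∉ (↑S : Set ℕ)),
        ∀ A : ValuationSubring (AlgebraicClosure ℚ), A.LiesOverPrime ℓ →
          ∀ σ : AlgebraicClosure ℚ ≃ₐ[ℚ] AlgebraicClosure ℚ, A.IsFrobeniusAt σ ℓ →
            LinearMap.charpoly (ρ.ρ σ) =
              X ^ 2 - C (algebraMap O' O'' ((iota.comp chig.rangeRestrict) (CuspForm.heckeAlgebra.T hℓ hℓM hℓS))) * X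
                + C ((ℓ : O'')))
      → ρ.residual.IsAbsolutelyIrreducible ∧ ρ.residual.IsOdd),
    ∃ (O'' : Type) (_ : CommRing O'') (_ : IsDomain O'') (_ : IsDiscreteValuationRing O'')
      (_ : IsAdicComplete (IsLocalRing.maximalIdeal O'') O'') (_ : Finite (IsLocalRing.ResidueField O''))
      (_ : CharZero O'') (_ : Algebra O' O'') (_ : Module.Finite O' O'') (_ : IsLocalHom (algebraMap O' O'')),
      Function.Injective (algebraMap O' O'') ∧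
      ∃ ρ : GaloisRepAdic O'',
        (∀ (ℓ : ℕ) (hℓ : ℓ.Prime) (hℓM : ¬ ℓ ∣ M) (hℓS : ℓ ∉ (↑S : Set ℕ)),
          ∀ A : ValuationSubring (AlgebraicClosure ℚ), A.LiesOverPrime ℓ →
            ∀ σ : AlgebraicClosure ℚ ≃ₐ[ℚ] AlgebraicClosure ℚ, A.IsFrobeniusAt σ ℓ →
              LinearMap.charpoly (ρ.ρ σ) =
                X ^ 2 - C (algebraMap O' O'' ((iota.comp chig.rangeRestrict) (CuspForm.heckeAlgebra.T hℓ hℓM hℓS))) * X
                  + C ((ℓ : O''))) ∧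
        (∀ q : ℕ, q.Prime → q ≠ lam → M.factorization q = 2 → ¬ ρ.IsUnipotentOnInertiaAt q)

/-! ### Integrality of the coefficients -/

/-- (0) A Prelude newform whose coefficients at almost all primes are integers has integer
coefficients (landed strong multiplicity one `helper6078` + integrality `helper708`). -/
theorem exists_int_qCoeff_of_eq {M N : ℕ} [NeZero M] (hN : N ≠ 0)
    {g : CuspForm (CongruenceSubgroup.Gamma0 M) 2} (hg : g.IsNewform) (a : ℕ → ℤ)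
    (ha : ∀ ℓ : ℕ, ℓ.Prime → ¬ ℓ ∣ N → ModularFormClass.qCoeff g ℓ = (a ℓ : ℂ)) :
    ∃ z : ℕ → ℤ, ∀ n : ℕ, ModularFormClass.qCoeff g n = (z n : ℂ) := by
  have key := Fermat.Agent.S58.helper708.exists_int_qCoeff g hg.1
    (↑(N.primeFactors) : Set ℕ)
    (fun h hT => Fermat.Agent.S58.helper6078.multiplicity_one hg (↑(N.primeFactors) : Set ℕ)
      (Finset.finite_toSet _) h hT)
    (fun ℓ hℓ _ hℓS => ⟨(a ℓ : ℚ), by
      rw [ha ℓ hℓ (fun hdvd => hℓS (Finset.mem_coe.mpr (Nat.mem_primeFactors.mpr ⟨hℓ, hdvd, hN⟩)))]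
      push_cast
      rfl⟩)
  choose z hz using key
  exact ⟨z, hz⟩

/-! ### The Hecke character and `ι : ℤ → ℤ_[λ]` -/

/-- For a normalized eigenform with integer coefficients: a character `chig` of the Hecke algebra
with `chig(T_ℓ) = a_ℓ` and a ring homomorphism `ι` from its range to `ℤ_[λ]` with
`ι(chig(T_ℓ)) = a_ℓ`. -/
theorem exists_chig_iota {M : ℕ} [NeZero M] {g : CuspForm (CongruenceSubgroup.Gamma0 M) 2}
    (hg : g.IsNormalizedEigenform) (z : ℕ → ℤ)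
    (hz : ∀ n : ℕ, ModularFormClass.qCoeff g n = (z n : ℂ)) (lam : ℕ) [Fact lam.Prime]
    (S : Finset ℕ) :
    ∃ (chig : CuspForm.heckeAlgebra M 2 (↑S : Set ℕ) →+* ℂ) (iota : chig.range →+* ℤ_[lam]),
      (∀ (ℓ : ℕ) (hℓ : ℓ.Prime) (hℓM : ¬ ℓ ∣ M) (hℓS : ℓ ∉ (↑S : Set ℕ)),
        chig (CuspForm.heckeAlgebra.T hℓ hℓM hℓS) = ModularFormClass.qCoeff g ℓ) ∧
      (∀ (ℓ : ℕ) (hℓ : ℓ.Prime) (hℓM : ¬ ℓ ∣ M) (hℓS : ℓ ∉ (↑S : Set ℕ)),
        (iota.comp chig.rangeRestrict) (CuspForm.heckeAlgebra.T hℓ hℓM hℓS) =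
          ((z ℓ : ℤ) : ℤ_[lam])) := by
  let chig : CuspForm.heckeAlgebra M 2 (↑S : Set ℕ) →+* ℂ :=
    (algebraMap (integralClosure ℤ ℂ) ℂ).comp
      (Fermat.Agent.S29.helper7617.eigenCharacter hg (↑S : Set ℕ))
  have hT : ∀ (ℓ : ℕ) (hℓ : ℓ.Prime) (hℓM : ¬ ℓ ∣ M) (hℓS : ℓ ∉ (↑S : Set ℕ)),
      chig (CuspForm.heckeAlgebra.T hℓ hℓM hℓS) = ModularFormClass.qCoeff g ℓ :=
    fun ℓ hℓ hℓM hℓS => Fermat.Agent.S29.helper7617.eigenCharacter_T hg hℓ hℓM hℓS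
  have hU : ∀ (q : ℕ) (hq : q.Prime) (hqM : q ∣ M) (hqS : q ∉ (↑S : Set ℕ)),
      chig (CuspForm.heckeAlgebra.U hq hqM hqS) = ModularFormClass.qCoeff g q :=
    fun q hq hqM hqS => Fermat.Agent.S29.helper7617.eigenCharacter_U hg hq hqM hqS
  -- all values are integers
  have hint : ∀ (x : Module.End ℂ (CuspForm (CongruenceSubgroup.Gamma0 M) 2))
      (hx : x ∈ Algebra.adjoin ℤ (CuspForm.heckeGenerators M 2 (↑S : Set ℕ))),
      ∃ n : ℤ, chig ⟨x, hx⟩ = (n : ℂ) := by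
    intro x hx
    induction hx using Algebra.adjoin_induction with
    | mem x hx =>
      rcases hx with ⟨ℓ, hℓ, hℓM, hℓS, rfl⟩ | ⟨q, hqM, hq, hqS, rfl⟩
      · exact ⟨z ℓ, (hT ℓ hℓ hℓM hℓS).trans (hz ℓ)⟩
      · exact ⟨z q, (hU q hq hqM hqS).trans (hz q)⟩
    | algebraMap r =>
      refine ⟨r, ?_⟩
      have h1 : (⟨algebraMap ℤ _ r, Subalgebra.algebraMap_mem _ r⟩ :
          CuspForm.heckeAlgebra M 2 (↑S : Set ℕ)) = ((r : ℤ) : CuspForm.heckeAlgebra M 2 (↑S : Set ℕ)) := by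
        apply Subtype.ext
        simp
      exact (congrArg chig h1).trans (map_intCast chig r)
    | add x y hx hy ihx ihy =>
      obtain ⟨n₁, h₁⟩ := ihx
      obtain ⟨n₂, h₂⟩ := ihy
      refine ⟨n₁ + n₂, ?_⟩
      have h1 : (⟨x + y, add_mem hx hy⟩ : CuspForm.heckeAlgebra M 2 (↑S : Set ℕ)) =
          ⟨x, hx⟩ + ⟨y, hy⟩ := rfl
      rw [h1, map_add, h₁, h₂, Int.cast_add]
    | mul x y hx hy ihx ihy =>
      obtain ⟨n₁, h₁⟩ := ihx
      obtain ⟨n₂, h₂⟩ := ihy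
      refine ⟨n₁ * n₂, ?_⟩
      have h1 : (⟨x * y, mul_mem hx hy⟩ : CuspForm.heckeAlgebra M 2 (↑S : Set ℕ)) =
          ⟨x, hx⟩ * ⟨y, hy⟩ := rfl
      rw [h1, map_mul, h₁, h₂, Int.cast_mul]
  have hle : chig.range ≤ (Int.castRingHom ℂ).range := by
    rintro _ ⟨T, rfl⟩
    obtain ⟨n, hn⟩ := hint T.1 T.2
    exact ⟨n, hn.symm⟩
  let e : ℤ ≃+* (Int.castRingHom ℂ).range :=
    RingEquiv.ofBijective (Int.castRingHom ℂ).rangeRestrict
      ⟨fun a b hab => Int.cast_injective (congrArg Subtype.val hab),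
        (Int.castRingHom ℂ).rangeRestrict_surjective⟩
  let iota : chig.range →+* ℤ_[lam] :=
    (Int.castRingHom ℤ_[lam]).comp ((e.symm : (Int.castRingHom ℂ).range →+* ℤ).comp
      (Subring.inclusion hle))
  refine ⟨chig, iota, hT, fun ℓ hℓ hℓM hℓS => ?_⟩
  have h1 : Subring.inclusion hle (chig.rangeRestrict (CuspForm.heckeAlgebra.T hℓ hℓM hℓS)) =
      e (z ℓ) := by
    apply Subtype.ext
    show chig (CuspForm.heckeAlgebra.T hℓ hℓM hℓS) = ((z ℓ : ℤ) : ℂ)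
    rw [hT ℓ hℓ hℓM hℓS, hz ℓ]
  show (Int.castRingHom ℤ_[lam]) (e.symm (Subring.inclusion hle
    (chig.rangeRestrict (CuspForm.heckeAlgebra.T hℓ hℓM hℓS)))) = _
  rw [h1, RingEquiv.symm_apply_apply]
  rfl

/-! ### S35 and S36 for newforms with integer coefficients -/

theorem natCast_mem_maximalIdeal_padicInt (lam : ℕ) [Fact lam.Prime] :
    (lam : ℤ_[lam]) ∈ IsLocalRing.maximalIdeal ℤ_[lam] := by
  rw [PadicInt.maximalIdeal_eq_span_p]
  exact Ideal.mem_span_singleton_self _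

/-- A local homomorphism from `ℤ_[λ]` sends `λ` into the maximal ideal. -/
theorem natCast_mem_maximalIdeal_of_isLocalHom (lam : ℕ) [Fact lam.Prime] (O'' : Type)
    [CommRing O''] [IsLocalRing O''] [Algebra ℤ_[lam] O''] [IsLocalHom (algebraMap ℤ_[lam] O'')] :
    (lam : O'') ∈ IsLocalRing.maximalIdeal O'' := by
  have h1 : (lam : O'') = algebraMap ℤ_[lam] O'' (lam : ℤ_[lam]) := (map_natCast _ _).symm
  rw [h1, IsLocalRing.mem_maximalIdeal]
  intro hu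
  exact (IsLocalRing.mem_maximalIdeal _).mp (natCast_mem_maximalIdeal_padicInt lam)
    (isUnit_of_map_unit (algebraMap ℤ_[lam] O'') _ hu)

/-- **S35 for a newform with integer coefficients** `z`: a `λ`-adic representation over a
characteristic zero discrete valuation ring with `λ ∈ 𝔪`, with Frobenius characteristic
polynomials `X² - z_ℓ X + ℓ` outside `S`, and the `q ∥ M` clause. -/
theorem s35_rational (h35 : Stmt_S35) {M : ℕ} [NeZero M]
    {g : CuspForm (CongruenceSubgroup.Gamma0 M) 2} (hg : g.IsNewform) (z : ℕ → ℤ)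
    (hz : ∀ n : ℕ, ModularFormClass.qCoeff g n = (z n : ℂ)) (lam : ℕ) (hlam : lam.Prime)
    (S : Finset ℕ) (hlamS : lam ∈ S) (hMS : ∀ q : ℕ, q.Prime → q ∣ M → q ∈ S) :
    ∃ (O'' : Type) (_ : CommRing O'') (_ : IsDomain O'') (_ : IsDiscreteValuationRing O'')
      (_ : CharZero O''), (lam : O'') ∈ IsLocalRing.maximalIdeal O'' ∧
      ∃ ρ : GaloisRepAdic O'',
        (∀ ℓ : ℕ, ℓ.Prime → ¬ ℓ ∣ M → ℓ ∉ S →
          ∀ A : ValuationSubring Qb, A.LiesOverPrime ℓ → ∀ σ : Gal, A.IsFrobeniusAt σ ℓ →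
            LinearMap.charpoly (ρ.ρ σ) = X ^ 2 - C ((z ℓ : ℤ) : O'') * X + C (ℓ : O'')) ∧
        (∀ q : ℕ, q.Prime → q ≠ lam → q ∣ M → ¬ q ^ 2 ∣ M →
          ∀ A : ValuationSubring Qb, A.LiesOverPrime q → ∀ σ : Gal, A.IsFrobeniusAt σ q →
            LinearMap.charpoly (ρ.ρ σ) = X ^ 2 - C ((q : O'') + 1) * X + C (q : O'') ∨
            LinearMap.charpoly (ρ.ρ σ) = X ^ 2 + C ((q : O'') + 1) * X + C (q : O'')) := by
  have : Fact lam.Prime := ⟨hlam⟩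
  obtain ⟨chig, iota, hchig, hiota⟩ := exists_chig_iota hg.1 z hz lam S
  obtain ⟨O'', i1, i2, i3, i4, i5, i6, i7, i8, i9, -, ρ, h1, h2⟩ :=
    h35 hg lam S ℤ_[lam] (natCast_mem_maximalIdeal_padicInt lam) chig hchig iota hlamS hMS
  refine ⟨O'', i1, i2, i3, i6, natCast_mem_maximalIdeal_of_isLocalHom lam O'', ρ, ?_, h2⟩
  intro ℓ hℓ hℓM hℓS A hA σ hσ
  have hℓS' : ℓ ∉ (↑S : Set ℕ) := fun h => hℓS (Finset.mem_coe.mp h)
  rw [h1 ℓ hℓ hℓM hℓS' A hA σ hσ, hiota ℓ hℓ hℓM hℓS', map_intCast]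

/-- **S36 for a newform with integer coefficients** `z`. -/
theorem s36_rational (h36 : Stmt_S36) {M : ℕ} [NeZero M]
    {g : CuspForm (CongruenceSubgroup.Gamma0 M) 2} (hg : g.IsNewform) (z : ℕ → ℤ)
    (hz : ∀ n : ℕ, ModularFormClass.qCoeff g n = (z n : ℂ)) (lam : ℕ) (hlam : lam.Prime)
    (hlam2 : lam ≠ 2)
    (S : Finset ℕ) (hlamS : lam ∈ S) (hMS : ∀ q : ℕ, q.Prime → q ∣ M → q ∈ S)
    (hres : ∀ (O'' : Type) [CommRing O''] [IsDomain O''] [IsDiscreteValuationRing O'']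
      [CharZero O''], (lam : O'') ∈ IsLocalRing.maximalIdeal O'' → ∀ ρ : GaloisRepAdic O'',
      (∀ ℓ : ℕ, ℓ.Prime → ¬ ℓ ∣ M → ℓ ∉ S →
        ∀ A : ValuationSubring Qb, A.LiesOverPrime ℓ → ∀ σ : Gal, A.IsFrobeniusAt σ ℓ →
          LinearMap.charpoly (ρ.ρ σ) = X ^ 2 - C ((z ℓ : ℤ) : O'') * X + C (ℓ : O'')) →
      ρ.residual.IsAbsolutelyIrreducible ∧ ρ.residual.IsOdd) :
    ∃ (O'' : Type) (_ : CommRing O'') (_ : IsDomain O'') (_ : IsDiscreteValuationRing O'')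
      (_ : CharZero O''), (lam : O'') ∈ IsLocalRing.maximalIdeal O'' ∧
      ∃ ρ : GaloisRepAdic O'',
        (∀ ℓ : ℕ, ℓ.Prime → ¬ ℓ ∣ M → ℓ ∉ S →
          ∀ A : ValuationSubring Qb, A.LiesOverPrime ℓ → ∀ σ : Gal, A.IsFrobeniusAt σ ℓ →
            LinearMap.charpoly (ρ.ρ σ) = X ^ 2 - C ((z ℓ : ℤ) : O'') * X + C (ℓ : O'')) ∧
        (∀ q : ℕ, q.Prime → q ≠ lam → M.factorization q = 2 →
          ¬ ρ.IsUnipotentOnInertiaAt q) := by
  have : Fact lam.Prime := ⟨hlam⟩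
  obtain ⟨chig, iota, hchig, hiota⟩ := exists_chig_iota hg.1 z hz lam S
  obtain ⟨O'', i1, i2, i3, i4, i5, i6, i7, i8, i9, -, ρ, h1, h2⟩ :=
    h36 hg lam S ℤ_[lam] (natCast_mem_maximalIdeal_padicInt lam) hlam2 chig hchig iota hlamS hMS
      (fun O'' _ _ _ _ _ _ _ _ _ _ ρ h1 =>
        hres O'' (natCast_mem_maximalIdeal_of_isLocalHom lam O'') ρ
          (fun ℓ hℓ hℓM hℓS A hA σ hσ => by
            have hℓS' : ℓ ∉ (↑S : Set ℕ) := fun h => hℓS (Finset.mem_coe.mp h)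
            have hℓlam : ℓ ≠ lam := fun h => hℓS (h ▸ hlamS)
            rw [h1 ℓ hℓ hℓlam hℓM hℓS' A hA σ hσ, hiota ℓ hℓ hℓM hℓS', map_intCast]))
  refine ⟨O'', i1, i2, i3, i6, natCast_mem_maximalIdeal_of_isLocalHom lam O'', ρ, ?_, h2⟩
  intro ℓ hℓ hℓM hℓS A hA σ hσ
  have hℓS' : ℓ ∉ (↑S : Set ℕ) := fun h => hℓS (Finset.mem_coe.mp h)
  rw [h1 ℓ hℓ hℓM hℓS' A hA σ hσ, hiota ℓ hℓ hℓM hℓS', map_intCast]

/-- Compatibility of a representation attached to `g` with the curve `W`. -/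
theorem compatible_of {W : WeierstrassCurve ℤ} {N M : ℕ} (hMN : M ∣ N)
    (hbad : ∀ ℓ : ℕ, ℓ.Prime → (ℓ : ℤ) ∣ W.Δ → ℓ ∣ N)
    (z : ℕ → ℤ) (hzW : ∀ ℓ : ℕ, ℓ.Prime → ¬ ℓ ∣ N → z ℓ = W.apOfModel ℓ)
    {O : Type} [CommRing O] [IsLocalRing O] (ρ : GaloisRepAdic O) (S T : Finset ℕ)
    (hT : ∀ ℓ : ℕ, ℓ.Prime → ℓ ∉ T → ℓ ∉ S ∧ ¬ ℓ ∣ N)
    (h1 : ∀ ℓ : ℕ, ℓ.Prime → ¬ ℓ ∣ M → ℓ ∉ S →
      ∀ A : ValuationSubring Qb, A.LiesOverPrime ℓ → ∀ σ : Gal, A.IsFrobeniusAt σ ℓ →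
        LinearMap.charpoly (ρ.ρ σ) = X ^ 2 - C ((z ℓ : ℤ) : O) * X + C (ℓ : O)) :
    Compatible W ρ T := by
  intro ℓ hℓ hℓT
  obtain ⟨hℓS, hℓN⟩ := hT ℓ hℓ hℓT
  refine ⟨fun hdvd => hℓN (hbad ℓ hℓ hdvd), fun A hA σ hσ => ?_⟩
  rw [h1 ℓ hℓ (fun hℓM => hℓN (hℓM.trans hMN)) hℓS A hA σ hσ, hzW ℓ hℓ hℓN]

/-! ### The core of S58 -/

/-- A prime different from a given one. -/
theorem exists_prime_ne (q : ℕ) : ∃ lam : ℕ, lam.Prime ∧ q ≠ lam := by
  by_cases h2 : q = 2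
  · exact ⟨3, Nat.prime_three, by omega⟩
  · exact ⟨2, Nat.prime_two, h2⟩

/-- **The arithmetic core of S58 from the frozen statements S35 and S36.** -/
theorem core_of (h35 : Stmt_S35) (h36 : Stmt_S36)
    (W : WeierstrassCurve ℤ) (hss : W.IsSemistableModel) (N p : ℕ) (hp : p.Prime) (hp2 : p ≠ 2)
    (hirr : W.ModRepIsIrreducible p) (hp2N : ¬ p ^ 2 ∣ N)
    (hbad : ∀ ℓ : ℕ, ℓ.Prime → (ℓ : ℤ) ∣ W.Δ → ℓ ∣ N) (hN3 : ∀ q : ℕ, q.Prime → ¬ q ^ 3 ∣ N)
    (hΔ : W.Δ ≠ 0) (hN0 : N ≠ 0) : Fermat.Agent.S58.helper1646.Stmt_Core W N := by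
  intro M g hMN hg hgW
  have hM0 : M ≠ 0 := ne_zero_of_dvd_ne_zero hN0 hMN
  have : NeZero M := ⟨hM0⟩
  have hgoodN : ∀ ℓ : ℕ, ℓ.Prime → ¬ ℓ ∣ N → W.IsGoodPrimeFor ℓ :=
    fun ℓ hℓ hℓN hdvd => hℓN (hbad ℓ hℓ hdvd)
  -- (0) integer coefficients
  obtain ⟨z, hz⟩ := exists_int_qCoeff_of_eq hN0 hg (fun ℓ => W.apOfModel ℓ)
    (fun ℓ hℓ hℓN => hgW ℓ hℓ (hgoodN ℓ hℓ hℓN) hℓN)
  have hzW : ∀ ℓ : ℕ, ℓ.Prime → ¬ ℓ ∣ N → z ℓ = W.apOfModel ℓ := by
    intro ℓ hℓ hℓN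
    have h1 := (hz ℓ).symm.trans (hgW ℓ hℓ (hgoodN ℓ hℓ hℓN) hℓN)
    exact_mod_cast h1
  have hmemS : ∀ (lam ℓ : ℕ), ℓ.Prime → ℓ ∉ N.primeFactors ∪ {lam} → ¬ ℓ ∣ N := by
    intro lam ℓ hℓ hℓS hℓN
    exact hℓS (Finset.mem_union_left _ (Nat.mem_primeFactors.mpr ⟨hℓ, hℓN, hN0⟩))
  have hMS : ∀ (lam q : ℕ), q.Prime → q ∣ M → q ∈ N.primeFactors ∪ {lam} :=
    fun lam q hq hqM =>
      Finset.mem_union_left _ (Nat.mem_primeFactors.mpr ⟨hq, hqM.trans hMN, hN0⟩)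
  have hlamS : ∀ lam : ℕ, lam ∈ N.primeFactors ∪ {lam} :=
    fun lam => Finset.mem_union_right _ (Finset.mem_singleton_self lam)
  -- (C) `M` is squarefree
  have hsq : Squarefree M := by
    rw [Nat.squarefree_iff_prime_squarefree]
    intro q hq hqq
    have hqp : q ≠ p := by
      rintro rfl
      exact hp2N (by rw [sq]; exact hqq.trans hMN)
    have hfac : M.factorization q = 2 := by
      have h2 : 2 ≤ M.factorization q :=
        (hq.pow_dvd_iff_le_factorization hM0).mp (by rw [sq]; exact hqq)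
      have h3 : ¬ 3 ≤ M.factorization q := fun h3 =>
        hN3 q hq (((hq.pow_dvd_iff_le_factorization hM0).mpr h3).trans hMN)
      omega
    obtain ⟨O'', _, _, _, _, hpO, ρ, h1, h2⟩ := s36_rational h36 hg z hz p hp hp2
      (N.primeFactors ∪ {p}) (hlamS p) (hMS p)
      (fun O'' _ _ _ _ hpO ρ h1 => by
        have hcompat : Compatible W ρ (N.primeFactors ∪ {p}) :=
          compatible_of hMN hbad z hzW ρ _ _ (fun ℓ hℓ hℓT => ⟨hℓT, hmemS p ℓ hℓ hℓT⟩) h1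
        exact ⟨residual_isAbsolutelyIrreducible hΔ hcompat p hp hp2 hpO hirr,
          residual_isOdd hcompat p hp hp2 hpO⟩)
    have hcompat : Compatible W ρ (N.primeFactors ∪ {p}) :=
      compatible_of hMN hbad z hzW ρ _ _ (fun ℓ hℓ hℓT => ⟨hℓT, hmemS p ℓ hℓ hℓT⟩) h1
    exact h2 q hq hqp hfac fun P hP σ hσ =>
      charpoly_inertia hΔ hss hcompat p hp hp2 hpO q hq hqp P hP σ hσ
  -- (B) the primes of `M` are bad
  have hbadM : ∀ q : ℕ, q.Prime → q ∣ M → (q : ℤ) ∣ W.Δ := by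
    intro q hq hqM
    by_contra hgood
    have : Fact q.Prime := ⟨hq⟩
    obtain ⟨lam, hlam, hqlam⟩ := exists_prime_ne q
    obtain ⟨O'', _, _, _, _, hlamO, ρ, h1, h2⟩ := s35_rational h35 hg z hz lam hlam
      (N.primeFactors ∪ {lam}) (hlamS lam) (hMS lam)
    have hcompat : Compatible W ρ (N.primeFactors ∪ {lam}) :=
      compatible_of hMN hbad z hzW ρ _ _ (fun ℓ hℓ hℓT => ⟨hℓT, hmemS lam ℓ hℓ hℓT⟩) h1
    obtain ⟨A, σ, hA, hσ⟩ := Fermat.Agent.Lib.helper54.exists_liesOverPrime_isFrobeniusAt hq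
    have htr := (trace_det_frobenius hΔ hcompat lam hlam hlamO q hq hqlam hgood A hA σ hσ).1
    have hq2 : ¬ q ^ 2 ∣ M := fun hdvd =>
      (Nat.squarefree_iff_prime_squarefree.mp hsq) q hq (by rw [← sq]; exact hdvd)
    rcases h2 q hq hqlam hqM hq2 A hA σ hσ with hc | hc
    · have h3 := (trace_det_of_charpoly ρ.finrank_eq _ _ _ hc).1
      rw [htr] at h3
      have h4 : W.apOfModel q = (q : ℤ) + 1 := by
        have h5 : ((W.apOfModel q : ℤ) : O'') = (((q : ℤ) + 1 : ℤ) : O'') := by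
          rw [h3]; push_cast; ring
        exact Int.cast_injective h5
      exact Fermat.Agent.S58.helper1790.apOfModel_ne_add_one W q h4
    · have hc' : LinearMap.charpoly (ρ.ρ σ) =
          X ^ 2 - C (-((q : O'') + 1)) * X + C (q : O'') := by
        rw [hc, map_neg]; ring
      have h3 := (trace_det_of_charpoly ρ.finrank_eq _ _ _ hc').1
      rw [htr] at h3
      have h4 : W.apOfModel q = -((q : ℤ) + 1) := by
        have h5 : ((W.apOfModel q : ℤ) : O'') = ((-((q : ℤ) + 1) : ℤ) : O'') := by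
          rw [h3]; push_cast; ring
        exact Int.cast_injective h5
      exact Fermat.Agent.S58.helper1790.apOfModel_ne_neg_add_one W q h4
  refine ⟨?_, ?_⟩
  · -- `M ∣ rad Δ`
    rw [← Nat.factorization_le_iff_dvd hM0 W.conductorLevel_pos.ne']
    intro q
    by_cases hq : q.Prime
    · by_cases hqM : q ∣ M
      · have h1 : M.factorization q ≤ 1 := Squarefree.natFactorization_le_one q hsq
        have h2 : q ∣ W.conductorLevel :=
          (W.prime_dvd_conductorLevel_iff hΔ hq).mpr (hbadM q hq hqM)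
        have h3 : 0 < W.conductorLevel.factorization q :=
          hq.factorization_pos_of_dvd W.conductorLevel_pos.ne' h2
        omega
      · rw [Nat.factorization_eq_zero_of_not_dvd hqM]
        exact Nat.zero_le _
    · rw [Nat.factorization_eq_zero_of_not_prime _ hq]
      exact Nat.zero_le _
  · -- (A) the coefficients at all good primes
    intro ℓ hℓ hgood
    by_cases hℓN : ℓ ∣ N
    · have hℓM : ¬ ℓ ∣ M := fun hdvd => hgood (hbadM ℓ hℓ hdvd)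
      obtain ⟨lam, hlam, hℓlam⟩ := exists_prime_ne ℓ
      have hℓS : ℓ ∉ N.primeFactors.erase ℓ ∪ {lam} := by
        rw [Finset.mem_union, Finset.mem_singleton, not_or]
        exact ⟨Finset.notMem_erase ℓ _, hℓlam⟩
      obtain ⟨O'', _, _, _, _, hlamO, ρ, h1, -⟩ := s35_rational h35 hg z hz lam hlam
        (N.primeFactors.erase ℓ ∪ {lam})
        (Finset.mem_union_right _ (Finset.mem_singleton_self lam))
        (fun q hq hqM => Finset.mem_union_left _ (Finset.mem_erase.mpr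
          ⟨fun hqℓ => hℓM (hqℓ ▸ hqM), Nat.mem_primeFactors.mpr ⟨hq, hqM.trans hMN, hN0⟩⟩))
      have hcompat : Compatible W ρ (N.primeFactors.erase ℓ ∪ {lam} ∪ {ℓ}) := by
        refine compatible_of hMN hbad z hzW ρ (N.primeFactors.erase ℓ ∪ {lam}) _
          (fun ℓ' hℓ' hℓ'T => ?_) h1
        have hℓ'S : ℓ' ∉ N.primeFactors.erase ℓ ∪ {lam} :=
          fun hmem => hℓ'T (Finset.mem_union_left _ hmem)
        have hℓ'ℓ : ℓ' ≠ ℓ := fun heq =>
          hℓ'T (Finset.mem_union_right _ (Finset.mem_singleton.mpr heq))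
        refine ⟨hℓ'S, fun hdvd => hℓ'S (Finset.mem_union_left _ (Finset.mem_erase.mpr
          ⟨hℓ'ℓ, Nat.mem_primeFactors.mpr ⟨hℓ', hdvd, hN0⟩⟩))⟩
      obtain ⟨A, σ, hA, hσ⟩ := Fermat.Agent.Lib.helper54.exists_liesOverPrime_isFrobeniusAt hℓ
      have htr := (trace_det_frobenius hΔ hcompat lam hlam hlamO ℓ hℓ hℓlam hgood A hA σ hσ).1
      have htr' := (trace_det_of_charpoly ρ.finrank_eq _ _ _ (h1 ℓ hℓ hℓM hℓS A hA σ hσ)).1
      rw [htr] at htr'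
      have h4 : W.apOfModel ℓ = z ℓ := Int.cast_injective htr'
      rw [hz ℓ, h4]
    · exact hgW ℓ hℓ hgood hℓN

/-- **The frozen statement S58 from the frozen statements S35 and S36** (in the shape of the
S58 template). -/
theorem s58_of_s35_s36 (h35 : Stmt_S35) (h36 : Stmt_S36)
    (W : WeierstrassCurve ℤ) (hss : W.IsSemistableModel) (N : ℕ)
    (p : ℕ) [Fact p.Prime] (hp2 : p ≠ 2) (hirr : W.ModRepIsIrreducible p)
    (hp2N : ¬ p ^ 2 ∣ N)
    (hN : W.IsModularModelOfLevel N) (hbad : ∀ ℓ : ℕ, ℓ.Prime → (ℓ : ℤ) ∣ W.Δ → ℓ ∣ N)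
    (hN3 : ∀ q : ℕ, q.Prime → ¬ q ^ 3 ∣ N) :
    W.IsModularModelOfLevel W.conductorLevel :=
  Fermat.Agent.S58.helper1646.frozen_of_core
    (fun W hss N p hp hp2 hirr hp2N _ hbad hN3 hΔ hN0 =>
      core_of h35 h36 W hss N p hp hp2 hirr hp2N hbad hN3 hΔ hN0)
    W hss N p hp2 hirr hp2N hN hbad hN3

end Fermat.Agent.S58.helper3808
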