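/-
S58 helper module (helper4268): Tate normal forms for points of order 5 and 7, and the
resulting semistable models (backup implementation of board row 818).

Everything lives in namespace `Fermat.Agent.S58.helper4268`.

* `tateNF b c`  : the curve `y² + (1 - c)xy - by = x³ - bx²`.
* `tate5 b`, `tate7 d` : its specialisations carrying a point of order 5, resp. 7, at `(0, 0)`.
* `exists_tateNF` : a curve with a point `P`, `2P ≠ 0`, `3P ≠ 0`, is a variable change of some
  `tateNF b c` with `b ≠ 0`, the point `(0, 0)` corresponding to `P`.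
* `exists_tate5`, `exists_tate7` : normal forms from a point of exact order 5, resp. 7.
* `IsSemistableAt A E` : some variable change of `E` is `A`-integral with `Δ` or `c₄` a unit.
* `isSemistableAt_of_order5`, `isSemistableAt_of_order7`.
-/
import Mathlib
import Fermat.Agent.S05.helper725_Transfer

set_option autoImplicit false

namespace Fermat.Agent.S58.helper4268

open WeierstrassCurve WeierstrassCurve.Affine
open Fermat.Agent.S05.helper725

section Defs

variable {K : Type*} [Field K]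

/-- The general Tate normal form `y² + (1 - c)xy - by = x³ - bx²`. -/
def tateNF (b c : K) : WeierstrassCurve K := ⟨1 - c, -b, -b, 0, 0⟩

/-- The Tate normal form for a point of order 5: `y² + (1 - b)xy - by = x³ - bx²`. -/
def tate5 (b : K) : WeierstrassCurve K := ⟨1 - b, -b, -b, 0, 0⟩

/-- The Tate normal form for a point of order 7. -/
def tate7 (d : K) : WeierstrassCurve K :=
  ⟨1 - (d ^ 2 - d), -(d ^ 3 - d ^ 2), -(d ^ 3 - d ^ 2), 0, 0⟩

lemma tateNF_self (b : K) : tateNF b b = tate5 b := rfl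

lemma tateNF_tate7 (d : K) : tateNF (d ^ 3 - d ^ 2) (d ^ 2 - d) = tate7 d := rfl

end Defs

section Points

variable {K : Type*} [Field K] [DecidableEq K]

omit [DecidableEq K] in
/-- Transport of a point along equalities of coordinates. -/
lemma some_eq_some {W : Affine K} {x y x' y' : K} (h : W.Nonsingular x y) (hx : x = x')
    (hy : y = y') : ∃ h' : W.Nonsingular x' y', Point.some x y h = Point.some x' y' h' := by
  subst hx hy
  exact ⟨h, rfl⟩

/-- Chord addition with explicit slope and explicit result. -/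
lemma chord_add {W : Affine K} {x₁ y₁ x₂ y₂ x₃ y₃ ℓ : K} (h₁ : W.Nonsingular x₁ y₁)
    (h₂ : W.Nonsingular x₂ y₂) (hx : x₁ ≠ x₂) (hℓ : ℓ * (x₁ - x₂) = y₁ - y₂)
    (hx₃ : x₃ = ℓ ^ 2 + W.a₁ * ℓ - W.a₂ - x₁ - x₂)
    (hy₃ : y₃ = -(ℓ * (x₃ - x₁) + y₁) - W.a₁ * x₃ - W.a₃) :
    ∃ h₃ : W.Nonsingular x₃ y₃, Point.some x₁ y₁ h₁ + Point.some x₂ y₂ h₂ = Point.some x₃ y₃ h₃ := by
  have hs : W.slope x₁ x₂ y₁ y₂ = ℓ := by
    rw [Affine.slope_of_X_ne hx, div_eq_iff (sub_ne_zero.mpr hx), hℓ]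
  rw [Point.add_of_X_ne hx]
  refine some_eq_some _ ?_ ?_
  · rw [hs, hx₃, Affine.addX]
  · rw [hs, hy₃, hx₃, Affine.addY, Affine.negAddY, Affine.negY, Affine.addX]

/-- Tangent addition (doubling) with explicit slope and explicit result. -/
lemma tangent_add {W : Affine K} {x₁ y₁ x₃ y₃ ℓ : K} (h₁ : W.Nonsingular x₁ y₁)
    (hy : y₁ ≠ W.negY x₁ y₁)
    (hℓ : ℓ * (y₁ - W.negY x₁ y₁) = 3 * x₁ ^ 2 + 2 * W.a₂ * x₁ + W.a₄ - W.a₁ * y₁)
    (hx₃ : x₃ = ℓ ^ 2 + W.a₁ * ℓ - W.a₂ - x₁ - x₁)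
    (hy₃ : y₃ = -(ℓ * (x₃ - x₁) + y₁) - W.a₁ * x₃ - W.a₃) :
    ∃ h₃ : W.Nonsingular x₃ y₃, Point.some x₁ y₁ h₁ + Point.some x₁ y₁ h₁ = Point.some x₃ y₃ h₃ := by
  have hs : W.slope x₁ x₁ y₁ y₁ = ℓ := by
    rw [Affine.slope_of_Y_ne rfl hy, div_eq_iff (sub_ne_zero.mpr hy), hℓ]
  rw [Point.add_self_of_Y_ne hy]
  refine some_eq_some _ ?_ ?_
  · rw [hs, hx₃, Affine.addX]
  · rw [hs, hy₃, hx₃, Affine.addY, Affine.negAddY, Affine.negY, Affine.addX]

/-! ### Multiples of `(0, 0)` on `tateNF b c` -/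

omit [DecidableEq K] in
lemma tateNF_nonsingular_zero (b c : K) (hb : b ≠ 0) : (tateNF b c).toAffine.Nonsingular 0 0 := by
  rw [Affine.nonsingular_zero]
  exact ⟨rfl, Or.inl (neg_ne_zero.mpr hb)⟩

/-- `2 • (0, 0) = (b, b c)` on `tateNF b c`. -/
lemma tateNF_two (b c : K) (hb : b ≠ 0) (h0 : (tateNF b c).toAffine.Nonsingular 0 0) :
    ∃ h2 : (tateNF b c).toAffine.Nonsingular b (b * c),
      Point.some 0 0 h0 + Point.some 0 0 h0 = Point.some b (b * c) h2 := by
  refine tangent_add (ℓ := 0) h0 ?_ ?_ ?_ ?_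
  · simp only [Affine.negY, tateNF]
    intro h
    apply hb
    linear_combination (-1 : K) * h
  · simp only [Affine.negY, tateNF]
    ring
  · simp only [tateNF]
    ring
  · simp only [tateNF]
    ring

/-- `(b, b c) + (0, 0) = (c, b - c)` on `tateNF b c`. -/
lemma tateNF_three (b c : K) (hb : b ≠ 0) (h0 : (tateNF b c).toAffine.Nonsingular 0 0)
    (h2 : (tateNF b c).toAffine.Nonsingular b (b * c)) :
    ∃ h3 : (tateNF b c).toAffine.Nonsingular c (b - c),
      Point.some b (b * c) h2 + Point.some 0 0 h0 = Point.some c (b - c) h3 := by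
  refine chord_add (ℓ := c) h2 h0 hb ?_ ?_ ?_
  · ring
  · simp only [tateNF]
    ring
  · simp only [tateNF]
    ring

/-- If `(0, 0)` is killed by `5` on `tateNF b c` (with `b ≠ 0`), then `c = b`. -/
lemma tateNF_five (b c : K) (hb : b ≠ 0) (h0 : (tateNF b c).toAffine.Nonsingular 0 0)
    (h5 : (5 : ℕ) • (Point.some 0 0 h0 : (tateNF b c).toAffine.Point) = 0) : c = b := by
  obtain ⟨h2, e2⟩ := tateNF_two b c hb h0
  obtain ⟨h3, e3⟩ := tateNF_three b c hb h0 h2
  have h5' : Point.some b (b * c) h2 + Point.some c (b - c) h3 = 0 := by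
    rw [← e3, ← e2, ← h5]
    abel
  have h := eq_neg_of_add_eq_zero_right h5'
  rw [Point.neg_some, Point.some.injEq] at h
  exact h.1

/-- If `(0, 0)` is killed by `7` on `tateNF b c` (with `b ≠ 0`), then `c ≠ 0` and
`b² - b c - c³ = 0`. -/
lemma tateNF_seven (b c : K) (hb : b ≠ 0) (h0 : (tateNF b c).toAffine.Nonsingular 0 0)
    (h7 : (7 : ℕ) • (Point.some 0 0 h0 : (tateNF b c).toAffine.Point) = 0) :
    c ≠ 0 ∧ b ^ 2 - b * c - c ^ 3 = 0 := by
  obtain ⟨h2, e2⟩ := tateNF_two b c hb h0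
  obtain ⟨h3, e3⟩ := tateNF_three b c hb h0 h2
  have hc : c ≠ 0 := by
    intro hc
    have h4 : Point.some c (b - c) h3 + Point.some 0 0 h0 = 0 := by
      refine Point.add_of_Y_eq hc ?_
      simp only [Affine.negY, tateNF, hc]
      ring
    have h4' : (4 : ℕ) • (Point.some 0 0 h0 : (tateNF b c).toAffine.Point) = 0 := by
      rw [← h4, ← e3, ← e2]
      abel
    have h1 : (Point.some 0 0 h0 : (tateNF b c).toAffine.Point) = 0 := by
      have h8 : (8 : ℕ) • (Point.some 0 0 h0 : (tateNF b c).toAffine.Point) = 0 := by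
        have e8 : (8 : ℕ) • (Point.some 0 0 h0 : (tateNF b c).toAffine.Point)
            = (4 : ℕ) • Point.some 0 0 h0 + (4 : ℕ) • Point.some 0 0 h0 := by abel
        rw [e8, h4', add_zero]
      have : (8 : ℕ) • (Point.some 0 0 h0 : (tateNF b c).toAffine.Point)
          = (7 : ℕ) • Point.some 0 0 h0 + Point.some 0 0 h0 := by abel
      rw [h7, zero_add] at this
      rw [← this, h8]
    exact Point.some_ne_zero h0 h1
  refine ⟨hc, ?_⟩
  obtain ⟨h4, e4⟩ := chord_add (W := (tateNF b c).toAffine) (ℓ := (b - c) / c)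
    (x₃ := ((b - c) / c) ^ 2 + (1 - c) * ((b - c) / c) + b - c)
    (y₃ := -(((b - c) / c) * ((((b - c) / c) ^ 2 + (1 - c) * ((b - c) / c) + b - c) - c)
      + (b - c)) - (1 - c) * (((b - c) / c) ^ 2 + (1 - c) * ((b - c) / c) + b - c) + b)
    h3 h0 hc (by rw [sub_zero, sub_zero, div_mul_cancel₀ _ hc]) (by simp only [tateNF]; ring)
    (by simp only [tateNF]; ring)
  have h7' : Point.some _ _ h4 + Point.some c (b - c) h3 = 0 := by
    rw [← e4, ← e3, ← e2, ← h7]
    abel
  have h := eq_neg_of_add_eq_zero_right h7'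
  rw [Point.neg_some, Point.some.injEq] at h
  have hx := h.1
  field_simp at hx
  linear_combination -hx

/-- Version of `tateNF_five` for a curve propositionally equal to `tateNF b c`. -/
lemma eq_of_five {W : WeierstrassCurve K} {b c : K} (hW : W = tateNF b c) (hb : b ≠ 0)
    (h0 : W.toAffine.Nonsingular 0 0)
    (h5 : (5 : ℕ) • (Point.some 0 0 h0 : W.toAffine.Point) = 0) : c = b := by
  subst hW
  exact tateNF_five b c hb h0 h5

/-- Version of `tateNF_seven` for a curve propositionally equal to `tateNF b c`. -/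
lemma eq_of_seven {W : WeierstrassCurve K} {b c : K} (hW : W = tateNF b c) (hb : b ≠ 0)
    (h0 : W.toAffine.Nonsingular 0 0)
    (h7 : (7 : ℕ) • (Point.some 0 0 h0 : W.toAffine.Point) = 0) :
    c ≠ 0 ∧ b ^ 2 - b * c - c ^ 3 = 0 := by
  subst hW
  exact tateNF_seven b c hb h0 h7

end Points

section Normalise

variable {K : Type*} [Field K]

/-- The pure algebra behind the normalisation: translating a point `(x₀, y₀)` to the origin,
making its tangent horizontal and rescaling by `u = η / θ` produces a Tate normal form. -/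
lemma smul_eq_tateNF (E : WeierstrassCurve K) (x0 y0 s η θ : K)
    (hη : η = 2 * y0 + E.a₁ * x0 + E.a₃) (hη0 : η ≠ 0)
    (hθ : θ = E.a₂ - s * E.a₁ + 3 * x0 - s ^ 2) (hθ0 : θ ≠ 0)
    (hsη : s * η = 3 * x0 ^ 2 + 2 * E.a₂ * x0 + E.a₄ - E.a₁ * y0)
    (heq : y0 ^ 2 + E.a₁ * x0 * y0 + E.a₃ * y0 = x0 ^ 3 + E.a₂ * x0 ^ 2 + E.a₄ * x0 + E.a₆)
    (u : Kˣ) (hu : (u : K) = η / θ) :
    (⟨u, x0, s, y0⟩ : VariableChange K) • E
      = tateNF (-(θ ^ 3 / η ^ 2)) (1 - θ / η * (E.a₁ + 2 * s)) := by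
  have hui : ((u⁻¹ : Kˣ) : K) = θ / η := by
    rw [Units.val_inv_eq_inv_val, hu, inv_div]
  ext
  · rw [variableChange_a₁, hui]
    simp only [tateNF]
    ring
  · rw [variableChange_a₂, hui]
    simp only [tateNF]
    rw [← hθ]
    field_simp
  · rw [variableChange_a₃, hui]
    simp only [tateNF]
    have e : E.a₃ + x0 * E.a₁ + 2 * y0 = η := by rw [hη]; ring
    rw [e]
    field_simp
  · rw [variableChange_a₄, hui]
    simp only [tateNF]
    have e : E.a₄ - s * E.a₃ + 2 * x0 * E.a₂ - (y0 + x0 * s) * E.a₁ + 3 * x0 ^ 2 - 2 * s * y0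
        = 0 := by
      rw [hη] at hsη
      linear_combination (-1 : K) * hsη
    rw [e, mul_zero]
  · rw [variableChange_a₆, hui]
    simp only [tateNF]
    have e : E.a₆ + x0 * E.a₄ + x0 ^ 2 * E.a₂ + x0 ^ 3 - y0 * E.a₃ - y0 ^ 2 - x0 * y0 * E.a₁
        = 0 := by
      linear_combination (-1 : K) * heq
    rw [e, mul_zero]

variable [DecidableEq K]

/-- **Tate normal form.** A Weierstrass curve with a point `P` such that `2P ≠ 0` and `3P ≠ 0`
is a variable change of a curve `y² + (1 - c)xy - by = x³ - bx²` with `b ≠ 0`, in such a way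
that `(0, 0)` corresponds to `P`. -/
theorem exists_tateNF (E : WeierstrassCurve K) (P : E.toAffine.Point)
    (h2 : (2 : ℕ) • P ≠ 0) (h3 : (3 : ℕ) • P ≠ 0) :
    ∃ (C : VariableChange K) (b c : K) (h0 : (C • E).toAffine.Nonsingular 0 0),
      C • E = tateNF b c ∧ b ≠ 0 ∧
        vcHom (isVarChange_smul C E) (Point.some 0 0 h0) = P := by
  rcases P with _ | ⟨x0, y0, hP⟩
  · exact absurd (nsmul_zero 2) h2
  have hy : y0 ≠ E.toAffine.negY x0 y0 := by
    intro h
    apply h2
    rw [two_nsmul]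
    exact Point.add_self_of_Y_eq h
  obtain ⟨η, hη⟩ : ∃ η : K, η = 2 * y0 + E.a₁ * x0 + E.a₃ := ⟨_, rfl⟩
  have hη0 : η ≠ 0 := by
    intro h
    apply hy
    simp only [Affine.negY]
    rw [hη] at h
    linear_combination h
  obtain ⟨s, hs⟩ : ∃ s : K, s = (3 * x0 ^ 2 + 2 * E.a₂ * x0 + E.a₄ - E.a₁ * y0) / η := ⟨_, rfl⟩
  have hsη : s * η = 3 * x0 ^ 2 + 2 * E.a₂ * x0 + E.a₄ - E.a₁ * y0 := by
    rw [hs, div_mul_cancel₀ _ hη0]
  obtain ⟨θ, hθ⟩ : ∃ θ : K, θ = E.a₂ - s * E.a₁ + 3 * x0 - s ^ 2 := ⟨_, rfl⟩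
  obtain ⟨hd, ed⟩ := tangent_add (W := E.toAffine) (ℓ := s)
    (x₃ := s ^ 2 + E.a₁ * s - E.a₂ - x0 - x0)
    (y₃ := -(s * ((s ^ 2 + E.a₁ * s - E.a₂ - x0 - x0) - x0) + y0)
      - E.a₁ * (s ^ 2 + E.a₁ * s - E.a₂ - x0 - x0) - E.a₃)
    hP hy (by simp only [Affine.negY]; rw [← hsη, hη]; ring) rfl rfl
  have hθ0 : θ ≠ 0 := by
    intro h
    have hx : s ^ 2 + E.a₁ * s - E.a₂ - x0 - x0 = x0 := by
      rw [hθ] at h
      linear_combination (-1 : K) * h
    rcases (Point.X_eq_iff (h₁ := hd) (h₂ := hP)).mp hx with h' | h'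
    · rw [← ed] at h'
      exact Point.some_ne_zero hP (add_eq_left.mp h')
    · apply h3
      rw [← ed] at h'
      have e3 : (3 : ℕ) • Point.some x0 y0 hP
          = (Point.some x0 y0 hP + Point.some x0 y0 hP) + Point.some x0 y0 hP := by abel
      rw [e3, h', neg_add_cancel]
  have hu : η / θ ≠ 0 := div_ne_zero hη0 hθ0
  have heq := (Affine.equation_iff _ _).mp hP.1
  have hCE := smul_eq_tateNF E x0 y0 s η θ hη hη0 hθ hθ0 hsη heq (Units.mk0 _ hu) rfl
  have hb : -(θ ^ 3 / η ^ 2) ≠ 0 :=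
    neg_ne_zero.mpr (div_ne_zero (pow_ne_zero 3 hθ0) (pow_ne_zero 2 hη0))
  have h0 : ((⟨Units.mk0 _ hu, x0, s, y0⟩ : VariableChange K) • E).toAffine.Nonsingular 0 0 := by
    rw [hCE]
    exact tateNF_nonsingular_zero _ _ hb
  refine ⟨⟨Units.mk0 _ hu, x0, s, y0⟩, _, _, h0, hCE, hb, ?_⟩
  rw [vcHom_some, Point.some.injEq]
  constructor <;> ring

end Normalise

section Orders

variable {K : Type*} [Field K] [DecidableEq K]

/-- A point of exact order `n` with `n ∤ 2`, `n ∤ 3` gives a Tate normal form on which the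
point `(0, 0)` is killed by `n`. -/
lemma exists_tateNF_of_addOrderOf (E : WeierstrassCurve K) (P : E.toAffine.Point) (n : ℕ)
    (hP : addOrderOf P = n) (hn2 : ¬ n ∣ 2) (hn3 : ¬ n ∣ 3) :
    ∃ (C : VariableChange K) (b c : K) (h0 : (C • E).toAffine.Nonsingular 0 0),
      C • E = tateNF b c ∧ b ≠ 0 ∧ n • (Point.some 0 0 h0 : (C • E).toAffine.Point) = 0 := by
  have h2 : (2 : ℕ) • P ≠ 0 := fun h => hn2 (hP ▸ addOrderOf_dvd_of_nsmul_eq_zero h)
  have h3 : (3 : ℕ) • P ≠ 0 := fun h => hn3 (hP ▸ addOrderOf_dvd_of_nsmul_eq_zero h)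
  obtain ⟨C, b, c, h0, hCE, hb, hψ⟩ := exists_tateNF E P h2 h3
  refine ⟨C, b, c, h0, hCE, hb, ?_⟩
  apply vcHom_injective (isVarChange_smul C E)
  rw [map_nsmul, hψ, map_zero, ← hP]
  exact addOrderOf_nsmul_eq_zero P

/-- **Tate normal form for a point of order 5.** -/
theorem exists_tate5 (E : WeierstrassCurve K) (P : E.toAffine.Point)
    (hP : addOrderOf P = 5) : ∃ (C : VariableChange K) (b : K), C • E = tate5 b := by
  obtain ⟨C, b, c, h0, hCE, hb, h5⟩ :=
    exists_tateNF_of_addOrderOf E P 5 hP (by decide) (by decide)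
  have hc : c = b := eq_of_five hCE hb h0 h5
  exact ⟨C, b, by rw [hCE, hc, tateNF_self]⟩

/-- **Tate normal form for a point of order 7.** -/
theorem exists_tate7 (E : WeierstrassCurve K) (P : E.toAffine.Point)
    (hP : addOrderOf P = 7) : ∃ (C : VariableChange K) (d : K), C • E = tate7 d := by
  obtain ⟨C, b, c, h0, hCE, hb, h7⟩ :=
    exists_tateNF_of_addOrderOf E P 7 hP (by decide) (by decide)
  obtain ⟨hc, hbc⟩ := eq_of_seven hCE hb h0 h7
  refine ⟨C, b / c, ?_⟩
  have e2 : (b / c) ^ 2 - b / c = c := by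
    have e : (b / c) ^ 2 - b / c = (b ^ 2 - b * c) / c ^ 2 := by
      field_simp
    rw [e, div_eq_iff (pow_ne_zero 2 hc)]
    linear_combination hbc
  have e1 : (b / c) ^ 3 - (b / c) ^ 2 = b := by
    have e : (b / c) ^ 3 - (b / c) ^ 2 = (b / c) * ((b / c) ^ 2 - b / c) := by ring
    rw [e, e2, div_mul_cancel₀ _ hc]
  rw [hCE, ← tateNF_tate7, e1, e2]

end Orders

section Semistable

variable {K : Type*} [Field K]

/-- `E` has a model over the valuation ring `A` (obtained by a variable change over `K`)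
with integral coefficients and with `Δ` or `c₄` a unit of `A`, i.e. a model with good or
multiplicative reduction. -/
def IsSemistableAt (A : ValuationSubring K) (E : WeierstrassCurve K) : Prop :=
  ∃ C : WeierstrassCurve.VariableChange K, (C • E).a₁ ∈ A ∧ (C • E).a₂ ∈ A ∧ (C • E).a₃ ∈ A ∧
    (C • E).a₄ ∈ A ∧ (C • E).a₆ ∈ A ∧
    (A.valuation (C • E).Δ = 1 ∨ A.valuation (C • E).c₄ = 1)

lemma IsSemistableAt.of_smul {A : ValuationSubring K} {E : WeierstrassCurve K}
    (C : VariableChange K) (h : IsSemistableAt A (C • E)) : IsSemistableAt A E := by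
  obtain ⟨C', h⟩ := h
  refine ⟨C' * C, ?_⟩
  rwa [mul_smul]

lemma IsSemistableAt.smul {A : ValuationSubring K} {E : WeierstrassCurve K}
    (C : VariableChange K) (h : IsSemistableAt A E) : IsSemistableAt A (C • E) := by
  obtain ⟨C', h⟩ := h
  refine ⟨C' * C⁻¹, ?_⟩
  rwa [mul_smul, inv_smul_smul]

lemma isSemistableAt_smul_iff {A : ValuationSubring K} {E : WeierstrassCurve K}
    (C : VariableChange K) : IsSemistableAt A (C • E) ↔ IsSemistableAt A E :=
  ⟨IsSemistableAt.of_smul C, IsSemistableAt.smul C⟩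

lemma isSemistableAt_of_integral {A : ValuationSubring K} {E : WeierstrassCurve K}
    (h1 : E.a₁ ∈ A) (h2 : E.a₂ ∈ A) (h3 : E.a₃ ∈ A) (h4 : E.a₄ ∈ A) (h6 : E.a₆ ∈ A)
    (h : A.valuation E.Δ = 1 ∨ A.valuation E.c₄ = 1) : IsSemistableAt A E :=
  ⟨1, by rw [one_smul]; exact ⟨h1, h2, h3, h4, h6, h⟩⟩

/-! ### Valuation helpers -/

lemma val_one_add_mul (A : ValuationSubring K) {d q : K} (hd : A.valuation d < 1) (hq : q ∈ A) :
    A.valuation (1 + d * q) = 1 := by
  apply Valuation.map_one_add_of_lt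
  rw [map_mul]
  exact Left.mul_lt_one_of_lt_of_le hd ((A.valuation_le_one_iff q).mpr hq)

lemma val_mul_lt_one (A : ValuationSubring K) {d q : K} (hd : A.valuation d < 1) (hq : q ∈ A) :
    A.valuation (q * d) < 1 := by
  rw [mul_comm, map_mul]
  exact Left.mul_lt_one_of_lt_of_le hd ((A.valuation_le_one_iff q).mpr hq)

lemma val_inv_lt_one (A : ValuationSubring K) {b : K} (hb : b ∉ A) : A.valuation b⁻¹ < 1 := by
  rw [map_inv₀]
  apply inv_lt_one_of_one_lt₀
  by_contra h
  exact hb ((A.valuation_le_one_iff b).mp (not_lt.mp h))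

lemma val_eq_one_of_not_lt (A : ValuationSubring K) {b : K} (hb : b ∈ A)
    (h : ¬ A.valuation b < 1) : A.valuation b = 1 :=
  le_antisymm ((A.valuation_le_one_iff b).mpr hb) (not_lt.mp h)

/-! ### Pure scalings -/

lemma scale_a₁ (W : WeierstrassCurve K) (u : K) (hu : u ≠ 0) :
    ((⟨Units.mk0 u hu, 0, 0, 0⟩ : VariableChange K) • W).a₁ = u⁻¹ * W.a₁ := by
  rw [variableChange_a₁]
  simp

lemma scale_a₂ (W : WeierstrassCurve K) (u : K) (hu : u ≠ 0) :
    ((⟨Units.mk0 u hu, 0, 0, 0⟩ : VariableChange K) • W).a₂ = u⁻¹ ^ 2 * W.a₂ := by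
  rw [variableChange_a₂]
  simp

lemma scale_a₃ (W : WeierstrassCurve K) (u : K) (hu : u ≠ 0) :
    ((⟨Units.mk0 u hu, 0, 0, 0⟩ : VariableChange K) • W).a₃ = u⁻¹ ^ 3 * W.a₃ := by
  rw [variableChange_a₃]
  simp

lemma scale_a₄ (W : WeierstrassCurve K) (u : K) (hu : u ≠ 0) :
    ((⟨Units.mk0 u hu, 0, 0, 0⟩ : VariableChange K) • W).a₄ = u⁻¹ ^ 4 * W.a₄ := by
  rw [variableChange_a₄]
  simp

lemma scale_a₆ (W : WeierstrassCurve K) (u : K) (hu : u ≠ 0) :
    ((⟨Units.mk0 u hu, 0, 0, 0⟩ : VariableChange K) • W).a₆ = u⁻¹ ^ 6 * W.a₆ := by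
  rw [variableChange_a₆]
  simp

lemma scale_c₄ (W : WeierstrassCurve K) (u : K) (hu : u ≠ 0) :
    ((⟨Units.mk0 u hu, 0, 0, 0⟩ : VariableChange K) • W).c₄ = u⁻¹ ^ 4 * W.c₄ := by
  rw [variableChange_c₄]
  simp

/-! ### Order 5 -/

lemma tate5_Δ (b : K) : (tate5 b).Δ = b ^ 5 * (b ^ 2 - 11 * b - 1) := by
  simp only [WeierstrassCurve.Δ, WeierstrassCurve.b₂, WeierstrassCurve.b₄, WeierstrassCurve.b₆,
    WeierstrassCurve.b₈, tate5]
  ring

lemma tate5_c₄ (b : K) : (tate5 b).c₄ = b ^ 4 - 12 * b ^ 3 + 14 * b ^ 2 + 12 * b + 1 := by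
  simp only [WeierstrassCurve.c₄, WeierstrassCurve.b₂, WeierstrassCurve.b₄, tate5]
  ring

/-- The curve `tate5 b` is semistable at every valuation ring in which `5` is a unit. -/
theorem isSemistableAt_tate5 (A : ValuationSubring K) (h5 : A.valuation (5 : K) = 1) (b : K) :
    IsSemistableAt A (tate5 b) := by
  by_cases hb : b ∈ A
  · refine isSemistableAt_of_integral (E := tate5 b) (sub_mem (one_mem A) hb) (neg_mem hb)
      (neg_mem hb) (zero_mem A) (zero_mem A) ?_
    by_cases hb1 : A.valuation b < 1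
    · right
      have e : (tate5 b).c₄ = 1 + b * (12 + 14 * b - 12 * b ^ 2 + b ^ 3) := by
        rw [tate5_c₄]
        ring
      rw [e]
      exact val_one_add_mul A hb1 (by aesop)
    · have hb1' := val_eq_one_of_not_lt A hb hb1
      by_cases hk : A.valuation (b ^ 2 - 11 * b - 1) < 1
      · right
        have e : (tate5 b).c₄ = 5 * b ^ 2 + (b ^ 2 - b - 1) * (b ^ 2 - 11 * b - 1) := by
          rw [tate5_c₄]
          ring
        have h1 : A.valuation (5 * b ^ 2) = 1 := by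
          rw [map_mul, map_pow, h5, hb1', one_pow, one_mul]
        have h2 : A.valuation ((b ^ 2 - b - 1) * (b ^ 2 - 11 * b - 1)) < 1 :=
          val_mul_lt_one A hk (by aesop)
        rw [e, Valuation.map_add_eq_of_lt_left _ (h1 ▸ h2), h1]
      · left
        rw [tate5_Δ, map_mul, map_pow, hb1', one_pow, one_mul]
        exact val_eq_one_of_not_lt A (by aesop) hk
  · have hb0 : b ≠ 0 := fun h => hb (h ▸ A.zero_mem)
    have he := val_inv_lt_one A hb
    have heA : b⁻¹ ∈ A := (A.valuation_le_one_iff _).mp he.le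
    refine ⟨⟨Units.mk0 b hb0, 0, 0, 0⟩, ?_, ?_, ?_, ?_, ?_, Or.inr ?_⟩
    · have e : b⁻¹ * (tate5 b).a₁ = b⁻¹ - 1 := by
        simp only [tate5]
        field_simp
      rw [scale_a₁, e]
      exact sub_mem heA (one_mem A)
    · have e : b⁻¹ ^ 2 * (tate5 b).a₂ = -b⁻¹ := by
        simp only [tate5]
        field_simp
      rw [scale_a₂, e]
      exact neg_mem heA
    · have e : b⁻¹ ^ 3 * (tate5 b).a₃ = -b⁻¹ ^ 2 := by
        simp only [tate5]
        field_simp
      rw [scale_a₃, e]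
      exact neg_mem (pow_mem heA 2)
    · rw [scale_a₄]
      simp only [tate5, mul_zero]
      exact zero_mem A
    · rw [scale_a₆]
      simp only [tate5, mul_zero]
      exact zero_mem A
    · have e : b⁻¹ ^ 4 * (tate5 b).c₄
          = 1 + b⁻¹ * (-12 + 14 * b⁻¹ + 12 * b⁻¹ ^ 2 + b⁻¹ ^ 3) := by
        rw [tate5_c₄]
        field_simp
        ring
      have key : ∀ x : K, x ∈ A → -12 + 14 * x + 12 * x ^ 2 + x ^ 3 ∈ A := fun x hx => by
        aesop
      rw [scale_c₄, e]
      exact val_one_add_mul A he (key _ heA)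

/-! ### Order 7 -/

lemma tate7_Δ (d : K) :
    (tate7 d).Δ = d ^ 7 * (d - 1) ^ 7 * (d ^ 3 - 8 * d ^ 2 + 5 * d + 1) := by
  simp only [WeierstrassCurve.Δ, WeierstrassCurve.b₂, WeierstrassCurve.b₄, WeierstrassCurve.b₆,
    WeierstrassCurve.b₈, tate7]
  ring

lemma tate7_c₄ (d : K) :
    (tate7 d).c₄ = 1 + 4 * d - 14 * d ^ 2 + 35 * d ^ 4 - 56 * d ^ 5 + 42 * d ^ 6 - 12 * d ^ 7
      + d ^ 8 := by
  simp only [WeierstrassCurve.c₄, WeierstrassCurve.b₂, WeierstrassCurve.b₄, tate7]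
  ring

/-- The curve `tate7 d` is semistable at every valuation ring in which `7` is a unit. -/
theorem isSemistableAt_tate7 (A : ValuationSubring K) (h7 : A.valuation (7 : K) = 1) (d : K) :
    IsSemistableAt A (tate7 d) := by
  by_cases hd : d ∈ A
  · refine isSemistableAt_of_integral (E := tate7 d) (by simp only [tate7]; aesop)
      (by simp only [tate7]; aesop) (by simp only [tate7]; aesop) (zero_mem A) (zero_mem A) ?_
    have hc4A : (tate7 d).c₄ ∈ A := by
      rw [tate7_c₄]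
      aesop
    by_cases hd0 : A.valuation d < 1
    · right
      have e : (tate7 d).c₄ = 1 + d * (4 - 14 * d + 35 * d ^ 3 - 56 * d ^ 4 + 42 * d ^ 5
          - 12 * d ^ 6 + d ^ 7) := by
        rw [tate7_c₄]
        ring
      rw [e]
      exact val_one_add_mul A hd0 (by aesop)
    · have hd0' := val_eq_one_of_not_lt A hd hd0
      by_cases hd1 : A.valuation (d - 1) < 1
      · right
        have e : (tate7 d).c₄ = 1 + (d - 1) * (-4 * d + 10 * d ^ 2 + 10 * d ^ 3 - 25 * d ^ 4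
            + 31 * d ^ 5 - 11 * d ^ 6 + d ^ 7) := by
          rw [tate7_c₄]
          ring
        rw [e]
        exact val_one_add_mul A hd1 (by aesop)
      · have hd1' := val_eq_one_of_not_lt A (sub_mem hd (one_mem A)) hd1
        by_cases hk : A.valuation (d ^ 3 - 8 * d ^ 2 + 5 * d + 1) < 1
        · right
          have hbez : (1710 + 3005 * d - 444 * d ^ 2) * (tate7 d).c₄
              = 49 - (-1661 - 1540 * d + 6776 * d ^ 2 - 693 * d ^ 3 - 6853 * d ^ 4
                + 12530 * d ^ 5 - 4781 * d ^ 6 + 444 * d ^ 7)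
                  * (d ^ 3 - 8 * d ^ 2 + 5 * d + 1) := by
            rw [tate7_c₄]
            ring
          have h49 : A.valuation (49 : K) = 1 := by
            rw [show (49 : K) = 7 * 7 by norm_num, map_mul, h7, one_mul]
          have hVκ : A.valuation ((-1661 - 1540 * d + 6776 * d ^ 2 - 693 * d ^ 3 - 6853 * d ^ 4
                + 12530 * d ^ 5 - 4781 * d ^ 6 + 444 * d ^ 7)
                  * (d ^ 3 - 8 * d ^ 2 + 5 * d + 1)) < 1 :=
            val_mul_lt_one A hk (by aesop)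
          have hUc : A.valuation ((1710 + 3005 * d - 444 * d ^ 2) * (tate7 d).c₄) = 1 := by
            rw [hbez, Valuation.map_sub_eq_of_lt_left _ (h49 ▸ hVκ), h49]
          by_contra hc
          have hc' : A.valuation (tate7 d).c₄ < 1 :=
            lt_of_le_of_ne ((A.valuation_le_one_iff _).mpr hc4A) hc
          exact absurd hUc (val_mul_lt_one A hc' (by aesop)).ne
        · left
          rw [tate7_Δ, map_mul, map_mul, map_pow, map_pow, hd0', hd1', one_pow, one_mul, one_mul]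
          exact val_eq_one_of_not_lt A (by aesop) hk
  · have hd0 : d ≠ 0 := fun h => hd (h ▸ A.zero_mem)
    have he := val_inv_lt_one A hd
    have heA : d⁻¹ ∈ A := (A.valuation_le_one_iff _).mp he.le
    refine ⟨⟨Units.mk0 (d ^ 2) (pow_ne_zero 2 hd0), 0, 0, 0⟩, ?_, ?_, ?_, ?_, ?_, Or.inr ?_⟩
    · have e : (d ^ 2)⁻¹ * (tate7 d).a₁ = d⁻¹ ^ 2 + d⁻¹ - 1 := by
        simp only [tate7]
        field_simp
        ring
      have key : ∀ x : K, x ∈ A → x ^ 2 + x - 1 ∈ A := fun x hx => by aesop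
      rw [scale_a₁, e]
      exact key _ heA
    · have e : (d ^ 2)⁻¹ ^ 2 * (tate7 d).a₂ = d⁻¹ ^ 2 - d⁻¹ := by
        simp only [tate7]
        field_simp
        ring
      have key : ∀ x : K, x ∈ A → x ^ 2 - x ∈ A := fun x hx => by aesop
      rw [scale_a₂, e]
      exact key _ heA
    · have e : (d ^ 2)⁻¹ ^ 3 * (tate7 d).a₃ = d⁻¹ ^ 4 - d⁻¹ ^ 3 := by
        simp only [tate7]
        field_simp
        ring
      have key : ∀ x : K, x ∈ A → x ^ 4 - x ^ 3 ∈ A := fun x hx => by aesop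
      rw [scale_a₃, e]
      exact key _ heA
    · rw [scale_a₄]
      simp only [tate7, mul_zero]
      exact zero_mem A
    · rw [scale_a₆]
      simp only [tate7, mul_zero]
      exact zero_mem A
    · have e : (d ^ 2)⁻¹ ^ 4 * (tate7 d).c₄
          = 1 + d⁻¹ * (-12 + 42 * d⁻¹ - 56 * d⁻¹ ^ 2 + 35 * d⁻¹ ^ 3 - 14 * d⁻¹ ^ 5
            + 4 * d⁻¹ ^ 6 + d⁻¹ ^ 7) := by
        rw [tate7_c₄]
        field_simp
        ring
      have key : ∀ x : K, x ∈ A → -12 + 42 * x - 56 * x ^ 2 + 35 * x ^ 3 - 14 * x ^ 5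
          + 4 * x ^ 6 + x ^ 7 ∈ A := fun x hx => by aesop
      rw [scale_c₄, e]
      exact val_one_add_mul A he (key _ heA)

end Semistable

section Main

variable {K : Type*} [Field K] [DecidableEq K]

/-- **Semistability from a rational point of order 5**, at any valuation ring in which `5` is a
unit. -/
theorem isSemistableAt_of_order5 (A : ValuationSubring K) (h5 : A.valuation (5 : K) = 1)
    (E : WeierstrassCurve K) (P : E.toAffine.Point) (hP : addOrderOf P = 5) :
    IsSemistableAt A E := by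
  obtain ⟨C, b, hC⟩ := exists_tate5 E P hP
  exact IsSemistableAt.of_smul C (hC ▸ isSemistableAt_tate5 A h5 b)

/-- **Semistability from a rational point of order 7**, at any valuation ring in which `7` is a
unit. -/
theorem isSemistableAt_of_order7 (A : ValuationSubring K) (h7 : A.valuation (7 : K) = 1)
    (E : WeierstrassCurve K) (P : E.toAffine.Point) (hP : addOrderOf P = 7) :
    IsSemistableAt A E := by
  obtain ⟨C, d, hC⟩ := exists_tate7 E P hP
  exact IsSemistableAt.of_smul C (hC ▸ isSemistableAt_tate7 A h7 d)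

end Main

end Fermat.Agent.S58.helper4268
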