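/-
S58-QBACK (helper4294): the FORMAL -> ANALYTIC bridge for the Aut(ℂ)-descent of `g₂, g₃`
(route #1886 step 2).

* `taylor U` : the Taylor series at `0` of a germ `U : ℂ → ℂ` (normalised as Mathlib's `qExpansion`).
* (B1) `eventually_eq_of_series_eq` : a power-series identity
  `X ^ n * qExpansion 1 A = taylor U * qExpansion 1 B` gives `q ^ n * A = U(q) * B` near `i∞`.
* (B2) `eq_mul_weierstrassP_of_eventually` : globalisation on the upper half plane.
* (B3) `period_mem_lattice` : every period lies in the lattice.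
-/
import Mathlib
import Fermat.Prelude.Def_ModularCurve_PeriodMap

set_option autoImplicit false

namespace Fermat.Agent.S58.helper4294

open UpperHalfPlane Filter Topology Function
open scoped Nat Manifold

local notation "𝕢" => Periodic.qParam

/-! ## Taylor series of a germ at `0` -/

/-- The Taylor series at `0` of `U : ℂ → ℂ`, with the normalisation of Mathlib's `qExpansion`. -/
noncomputable def taylor (U : ℂ → ℂ) : PowerSeries ℂ :=
  PowerSeries.mk fun m ↦ ((m ! : ℕ) : ℂ)⁻¹ * iteratedDeriv m U 0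

lemma coeff_taylor (U : ℂ → ℂ) (m : ℕ) :
    (taylor U).coeff m = ((m ! : ℕ) : ℂ)⁻¹ * iteratedDeriv m U 0 := by
  simp [taylor]

/-- Adapter: the other common normalisation. -/
lemma taylor_eq_mk_div (U : ℂ → ℂ) :
    taylor U = PowerSeries.mk fun m ↦ iteratedDeriv m U 0 / ((m ! : ℕ) : ℂ) := by
  ext m
  simp [taylor, div_eq_inv_mul]

lemma taylor_cuspFunction (h : ℝ) (f : ℍ → ℂ) : taylor (cuspFunction h f) = qExpansion h f := rfl

lemma taylor_congr {U V : ℂ → ℂ} (h : U =ᶠ[𝓝 0] V) : taylor U = taylor V := by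
  ext m
  rw [coeff_taylor, coeff_taylor, h.iteratedDeriv_eq m]

lemma taylor_mul {U V : ℂ → ℂ} (hU : AnalyticAt ℂ U 0) (hV : AnalyticAt ℂ V 0) :
    taylor (U * V) = taylor U * taylor V := by
  ext n
  simp only [coeff_taylor, iteratedDeriv_mul hU.contDiffAt hV.contDiffAt, Finset.mul_sum,
    PowerSeries.coeff_mul, Finset.Nat.sum_antidiagonal_eq_sum_range_succ_mk, Nat.succ_eq_add_one]
  refine Finset.sum_congr rfl fun i hi ↦ ?_
  rw [Nat.cast_choose _ (by grind)]
  field_simp [Nat.factorial_ne_zero]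

lemma taylor_sub {U V : ℂ → ℂ} (hU : AnalyticAt ℂ U 0) (hV : AnalyticAt ℂ V 0) :
    taylor (U - V) = taylor U - taylor V := by
  ext n
  simp [coeff_taylor, iteratedDeriv_sub hU.contDiffAt hV.contDiffAt, mul_sub]

lemma taylor_pow_id (n : ℕ) : taylor (fun q : ℂ ↦ q ^ n) = PowerSeries.X ^ n := by
  ext m
  rw [coeff_taylor, PowerSeries.coeff_X_pow]
  have h := iteratedDeriv_pow (𝕜 := ℂ) (x := (0 : ℂ)) n m
  rw [h]
  split_ifs with hmn
  · subst hmn
    simp [Nat.descFactorial_self, Nat.factorial_ne_zero]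
  · rcases lt_or_gt_of_ne hmn with hlt | hgt
    · have : n - m ≠ 0 := by omega
      simp [this]
    · simp [Nat.descFactorial_of_lt hgt]

/-- An analytic germ whose Taylor series vanishes is locally zero. -/
lemma eventually_eq_zero_of_taylor_eq_zero {H : ℂ → ℂ} (hH : AnalyticAt ℂ H 0)
    (h0 : taylor H = 0) : ∀ᶠ q in 𝓝 (0 : ℂ), H q = 0 := by
  have hs := hH.hasFPowerSeriesAt
  have hz : (FormalMultilinearSeries.ofScalars ℂ
      (fun n ↦ iteratedDeriv n H 0 / ((n ! : ℕ) : ℂ)) : FormalMultilinearSeries ℂ ℂ ℂ) = 0 := by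
    have hc : (fun n ↦ iteratedDeriv n H 0 / ((n ! : ℕ) : ℂ)) = fun _ ↦ (0 : ℂ) := by
      funext n
      have := congrArg (fun p : PowerSeries ℂ ↦ p.coeff n) h0
      simp only [coeff_taylor, map_zero] at this
      rw [div_eq_inv_mul]
      exact this
    rw [hc]
    ext n
    simp [FormalMultilinearSeries.ofScalars]
  rw [hz] at hs
  exact hs.eventually_eq_zero

/-! ## (B1) from a power-series identity to an identity near `i∞` -/

/-- (B1) A power-series identity `X ^ n * qExpansion 1 A = taylor U * qExpansion 1 B` between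
"nice" functions on `ℍ` (holomorphic, `1`-periodic, bounded at `i∞`) and a germ `U` analytic at `0`
gives the pointwise identity `q ^ n * A = U(q) * B` near `i∞`. -/
theorem eventually_eq_of_series_eq {A B : ℍ → ℂ}
    (hAper : Periodic (A ∘ ofComplex) 1) (hAhol : MDiff A) (hAbdd : IsBoundedAtImInfty A)
    (hBper : Periodic (B ∘ ofComplex) 1) (hBhol : MDiff B) (hBbdd : IsBoundedAtImInfty B)
    {U : ℂ → ℂ} (hU : AnalyticAt ℂ U 0) (n : ℕ)
    (h : PowerSeries.X ^ n * qExpansion 1 A = taylor U * qExpansion 1 B) :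
    ∀ᶠ z : ℍ in atImInfty, (𝕢 1 z) ^ n * A z = U (𝕢 1 z) * B z := by
  have hA := analyticAt_cuspFunction_zero one_pos hAper hAhol hAbdd
  have hB := analyticAt_cuspFunction_zero one_pos hBper hBhol hBbdd
  have hpow : AnalyticAt ℂ (fun q : ℂ ↦ q ^ n) 0 := by fun_prop
  have hH : AnalyticAt ℂ ((fun q : ℂ ↦ q ^ n) * cuspFunction 1 A - U * cuspFunction 1 B) 0 :=
    (hpow.mul hA).sub (hU.mul hB)
  have h0 : taylor ((fun q : ℂ ↦ q ^ n) * cuspFunction 1 A - U * cuspFunction 1 B) = 0 := by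
    rw [taylor_sub (hpow.mul hA) (hU.mul hB), taylor_mul hpow hA, taylor_mul hU hB,
      taylor_pow_id, taylor_cuspFunction, taylor_cuspFunction, h, sub_self]
  have hev := eventually_eq_zero_of_taylor_eq_zero hH h0
  have hq : Tendsto (fun τ : ℍ ↦ 𝕢 1 τ) atImInfty (𝓝 0) := qParam_tendsto_atImInfty one_pos
  filter_upwards [hq.eventually hev] with z hz
  have e1 : cuspFunction 1 A (𝕢 1 z) = A z := eq_cuspFunction z one_ne_zero hAper
  have e2 : cuspFunction 1 B (𝕢 1 z) = B z := eq_cuspFunction z one_ne_zero hBper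
  simp only [Pi.sub_apply, Pi.mul_apply, e1, e2] at hz
  exact sub_eq_zero.mp hz

/-! ## (B2) globalisation on the upper half plane -/

lemma analyticAt_comp_ofComplex {A : ℍ → ℂ} (hA : MDiff A) {w : ℂ} (hw : 0 < w.im) :
    AnalyticAt ℂ (A ∘ ofComplex) w :=
  (UpperHalfPlane.mdifferentiable_iff.mp hA).analyticAt (isOpen_upperHalfPlaneSet.mem_nhds hw)

/-- (B2), general form: if `A = B * (P ∘ G)` near `i∞` for holomorphic `A B G : ℍ → ℂ` and a
meromorphic `P : ℂ → ℂ`, then the identity holds at every point where `P` is analytic at `G z`. -/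
theorem eq_mul_comp_of_eventually {P : ℂ → ℂ} (hP : Meromorphic P) {G A B : ℍ → ℂ}
    (hG : MDiff G) (hA : MDiff A) (hB : MDiff B)
    (h : ∀ᶠ z : ℍ in atImInfty, A z = B z * P (G z)) :
    ∀ z : ℍ, AnalyticAt ℂ P (G z) → A z = B z * P (G z) := by
  intro z hPz
  set H : ℂ → ℂ := fun w ↦ (A ∘ ofComplex) w - (B ∘ ofComplex) w * (P ∘ (G ∘ ofComplex)) w
    with hHdef
  set U : Set ℂ := {w : ℂ | 0 < w.im} with hUdef
  have hUpre : IsPreconnected U := (convex_halfSpace_im_gt 0).isPreconnected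
  have hmero : MeromorphicOn H U := by
    intro w hw
    have hw' : 0 < w.im := hw
    have hAw := (analyticAt_comp_ofComplex hA hw').meromorphicAt
    have hBw := (analyticAt_comp_ofComplex hB hw').meromorphicAt
    have hGw := analyticAt_comp_ofComplex hG hw'
    have hPG : MeromorphicAt (P ∘ (G ∘ ofComplex)) w := (hP _).comp_analyticAt hGw
    exact hAw.sub (hBw.mul hPG)
  -- a point near `i∞` where `H` vanishes identically
  obtain ⟨T, hT⟩ := (atImInfty_mem _).mp h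
  set y : ℂ := ⟨0, max T 0 + 1⟩ with hydef
  have hyU : y ∈ U := by
    show 0 < y.im
    simp only [hydef]
    positivity
  have hyT : T < y.im := by
    simp only [hydef]
    have := le_max_left T 0
    linarith
  have hy_top : meromorphicOrderAt H y = ⊤ := by
    rw [meromorphicOrderAt_eq_top_iff]
    have hopen : IsOpen {w : ℂ | max T 0 < w.im} :=
      isOpen_lt continuous_const Complex.continuous_im
    have hmem : {w : ℂ | max T 0 < w.im} ∈ 𝓝 y := hopen.mem_nhds (by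
      show max T 0 < y.im
      simp [hydef])
    refine nhdsWithin_le_nhds ?_
    filter_upwards [hmem] with w hw
    have hw0 : 0 < w.im := lt_of_le_of_lt (le_max_right T 0) hw
    have hwT : T ≤ w.im := le_trans (le_max_left T 0) hw.le
    have := hT ⟨w, hw0⟩ hwT
    simp only [hHdef, Function.comp_apply, ofComplex_apply_of_im_pos hw0]
    rw [Set.mem_ofPred_eq] at this
    rw [this, sub_self]
  have hzU : (z : ℂ) ∈ U := z.im_pos
  have hz_top : meromorphicOrderAt H z = ⊤ := by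
    by_contra hne
    exact hmero.meromorphicOrderAt_ne_top_of_isPreconnected hUpre hzU hyU hne hy_top
  rw [meromorphicOrderAt_eq_top_iff] at hz_top
  -- continuity of `H` at `z`
  have hAz := (analyticAt_comp_ofComplex hA z.im_pos).continuousAt
  have hBz := (analyticAt_comp_ofComplex hB z.im_pos).continuousAt
  have hGz := (analyticAt_comp_ofComplex hG z.im_pos)
  have hPGz : ContinuousAt (P ∘ (G ∘ ofComplex)) z := by
    have : AnalyticAt ℂ P ((G ∘ ofComplex) z) := by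
      simpa [Function.comp_apply, ofComplex_apply] using hPz
    exact (this.comp hGz).continuousAt
  have hHc : ContinuousAt H z := hAz.sub (hBz.mul hPGz)
  have hev : H =ᶠ[𝓝 (z : ℂ)] fun _ ↦ (0 : ℂ) :=
    (hHc.eventuallyEq_nhds_iff_eventuallyEq_nhdsNE continuousAt_const).mp hz_top
  have hval := hev.eq_of_nhds
  simp only [hHdef, Function.comp_apply, ofComplex_apply] at hval
  exact sub_eq_zero.mp hval

open PeriodPair in
/-- (B2) for `℘`. -/
theorem eq_mul_weierstrassP_of_eventually (L : PeriodPair) {G A B : ℍ → ℂ}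
    (hG : MDiff G) (hA : MDiff A) (hB : MDiff B)
    (h : ∀ᶠ z : ℍ in atImInfty, A z = B z * ℘[L] (G z)) :
    ∀ z : ℍ, G z ∉ L.lattice → A z = B z * ℘[L] (G z) :=
  fun z hz ↦ eq_mul_comp_of_eventually L.meromorphic_weierstrassP hG hA hB h z
    (L.analyticOnNhd_weierstrassP _ hz)

open PeriodPair in
/-- (B2) for `℘'`. -/
theorem eq_mul_derivWeierstrassP_of_eventually (L : PeriodPair) {G A B : ℍ → ℂ}
    (hG : MDiff G) (hA : MDiff A) (hB : MDiff B)
    (h : ∀ᶠ z : ℍ in atImInfty, A z = B z * ℘'[L] (G z)) :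
    ∀ z : ℍ, G z ∉ L.lattice → A z = B z * ℘'[L] (G z) :=
  fun z hz ↦ eq_mul_comp_of_eventually L.meromorphic_derivWeierstrassP hG hA hB h z
    (L.analyticOnNhd_derivWeierstrassP _ hz)

/-- A holomorphic function on `ℍ` vanishing near `i∞` vanishes identically. -/
theorem eq_zero_of_eventually_eq_zero {B : ℍ → ℂ} (hB : MDiff B)
    (h : ∀ᶠ z : ℍ in atImInfty, B z = 0) : B = 0 := by
  funext z
  have hc : MDiff (fun _ : ℍ ↦ (0 : ℂ)) := mdifferentiable_const
  have h' : ∀ᶠ z : ℍ in atImInfty, B z = (fun _ : ℍ ↦ (0 : ℂ)) z * (fun _ : ℂ ↦ (0 : ℂ)) 0 := by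
    filter_upwards [h] with z hz
    simp [hz]
  have := eq_mul_comp_of_eventually (P := fun _ : ℂ ↦ (0 : ℂ)) (fun x ↦ analyticAt_const.meromorphicAt)
    (G := fun _ : ℍ ↦ (0 : ℂ)) hc hB hc h' z analyticAt_const
  simpa using this

/-! ## (B3) the periods lie in the lattice -/

open PeriodPair ModularCurve.Period in
/-- (B3) Let `F` be an equivariant primitive for `Γ` with `c * F` tending to `0` at `i∞` but not
eventually zero, and let `A = B * ℘[L] ∘ (c * F)` pointwise (off the poles) with `B ≠ 0`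
holomorphic.  If `A` and `B` transform under `γ ∈ Γ` with the same nowhere vanishing factor `j`
(e.g. two modular forms of the same weight), then `c * period γ` lies in `L`. -/
theorem period_mem_lattice (L : PeriodPair) {Γ : Subgroup (Matrix.SpecialLinearGroup (Fin 2) ℤ)}
    {F : ℍ → ℂ} (hF : IsEquivariantPrimitive Γ F) (c : ℂ)
    (hcF : Tendsto (fun z : ℍ ↦ c * F z) atImInfty (𝓝 0))
    (hFne : ∀ᶠ z : ℍ in atImInfty, c * F z ≠ 0)
    {A B : ℍ → ℂ} (hB : MDiff B) (hBne : B ≠ 0)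
    (hAB : ∀ z : ℍ, c * F z ∉ L.lattice → A z = B z * ℘[L] (c * F z))
    (γ : Γ) (j : ℍ → ℂ) (hj : ∀ z, j z ≠ 0)
    (hAγ : ∀ z : ℍ, A ((γ : Matrix.SpecialLinearGroup (Fin 2) ℤ) • z) = j z * A z)
    (hBγ : ∀ z : ℍ, B ((γ : Matrix.SpecialLinearGroup (Fin 2) ℤ) • z) = j z * B z) :
    c * hF.period γ ∈ L.lattice := by
  by_contra hω
  set ω : ℂ := c * hF.period γ with hωdef
  apply hBne
  apply eq_zero_of_eventually_eq_zero hB
  -- (a) eventually `c * F z ∉ L`
  have ha : ∀ᶠ z : ℍ in atImInfty, c * F z ∉ L.lattice := by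
    have h1 := hcF.eventually (L.compl_lattice_sdiff_singleton_mem_nhds 0)
    filter_upwards [h1, hFne] with z hz hne hmem
    exact hz ⟨hmem, hne⟩
  -- (b) eventually `c * F z + ω ∉ L`
  have hcFω : Tendsto (fun z : ℍ ↦ c * F z + ω) atImInfty (𝓝 ω) := by
    simpa using hcF.add_const ω
  have hb : ∀ᶠ z : ℍ in atImInfty, c * F z + ω ∉ L.lattice :=
    hcFω.eventually (L.isClosed_lattice.isOpen_compl.mem_nhds hω)
  -- (c) `℘ (c * F z) → ∞`
  have hc' : Tendsto (fun z : ℍ ↦ ‖℘[L] (c * F z)‖) atImInfty atTop := by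
    have hpole : Tendsto ℘[L] (𝓝[≠] 0) (Bornology.cobounded ℂ) :=
      tendsto_cobounded_of_meromorphicOrderAt_neg (by
        rw [L.order_weierstrassP 0 (zero_mem _)]; decide)
    have hne : Tendsto (fun z : ℍ ↦ c * F z) atImInfty (𝓝[≠] 0) :=
      tendsto_nhdsWithin_iff.mpr ⟨hcF, hFne⟩
    exact tendsto_norm_cobounded_atTop.comp (hpole.comp hne)
  -- (d) `℘ (c * F z + ω) → ℘ ω`
  have hd : Tendsto (fun z : ℍ ↦ ‖℘[L] (c * F z + ω)‖) atImInfty (𝓝 ‖℘[L] ω‖) :=
    ((L.analyticOnNhd_weierstrassP ω hω).continuousAt.tendsto.comp hcFω).norm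
  have hd' : ∀ᶠ z : ℍ in atImInfty, ‖℘[L] (c * F z + ω)‖ < ‖℘[L] ω‖ + 1 :=
    hd.eventually (gt_mem_nhds (lt_add_one _))
  have hc'' : ∀ᶠ z : ℍ in atImInfty, ‖℘[L] ω‖ + 1 ≤ ‖℘[L] (c * F z)‖ :=
    hc'.eventually (eventually_ge_atTop _)
  filter_upwards [ha, hb, hd', hc''] with z hza hzb hzd hzc
  have hγz : c * F ((γ : Matrix.SpecialLinearGroup (Fin 2) ℤ) • z) = c * F z + ω := by
    have := hF.sub_eq_period γ z
    rw [hωdef, ← this]; ring
  have h1 := hAB z hza
  have h2 := hAB ((γ : Matrix.SpecialLinearGroup (Fin 2) ℤ) • z) (by rw [hγz]; exact hzb)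
  rw [hAγ, hBγ, hγz, h1] at h2
  have h3 : B z * (℘[L] (c * F z) - ℘[L] (c * F z + ω)) = 0 := by
    have := mul_left_cancel₀ (hj z) (by linear_combination h2 :
      j z * (B z * ℘[L] (c * F z)) = j z * (B z * ℘[L] (c * F z + ω)))
    linear_combination this
  rcases mul_eq_zero.mp h3 with h | h
  · exact h
  · exfalso
    rw [sub_eq_zero] at h
    rw [h] at hzc
    linarith

/-! ## (PACK) the chained statements -/

lemma tendsto_qParam_nhdsNE :
    Tendsto (fun τ : ℍ ↦ 𝕢 1 τ) atImInfty (𝓝[≠] (0 : ℂ)) :=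
  tendsto_nhdsWithin_iff.mpr ⟨qParam_tendsto_atImInfty one_pos,
    Filter.Eventually.of_forall fun τ ↦ Periodic.qParam_ne_zero (τ : ℂ)⟩

/-- A germ analytic at `0`, vanishing at `0` with nonzero derivative, is nonzero on a punctured
neighbourhood of `0`. -/
lemma eventually_ne_zero_of_deriv_ne_zero {Φ : ℂ → ℂ} (hΦ : AnalyticAt ℂ Φ 0)
    (hd : deriv Φ 0 ≠ 0) : ∀ᶠ q in 𝓝[≠] (0 : ℂ), Φ q ≠ 0 := by
  rcases hΦ.eventually_eq_zero_or_eventually_ne_zero with h | h
  · have h' : Φ =ᶠ[𝓝 0] fun _ ↦ (0 : ℂ) := h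
    exact absurd (by simpa using h'.deriv_eq) hd
  · exact h

/-- (PACK-1), general form: from the series identity `X ^ n * qExpansion 1 A = taylor U *
qExpansion 1 B` with `U q = q ^ n * P (Φ q)` near `0` and `G z = Φ (q z)` near `i∞`, to the
pointwise identity `A z = B z * P (G z)` at every `z` where `P` is analytic at `G z`. -/
theorem eq_mul_comp_of_series {P : ℂ → ℂ} (hP : Meromorphic P) {G : ℍ → ℂ} (hG : MDiff G)
    {Φ : ℂ → ℂ} (hGΦ : ∀ᶠ z : ℍ in atImInfty, G z = Φ (𝕢 1 z))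
    {U : ℂ → ℂ} (hU : AnalyticAt ℂ U 0) (n : ℕ)
    (hUΦ : ∀ᶠ q in 𝓝[≠] (0 : ℂ), U q = q ^ n * P (Φ q))
    {A B : ℍ → ℂ}
    (hAper : Periodic (A ∘ ofComplex) 1) (hAhol : MDiff A) (hAbdd : IsBoundedAtImInfty A)
    (hBper : Periodic (B ∘ ofComplex) 1) (hBhol : MDiff B) (hBbdd : IsBoundedAtImInfty B)
    (hser : PowerSeries.X ^ n * qExpansion 1 A = taylor U * qExpansion 1 B) :
    ∀ z : ℍ, AnalyticAt ℂ P (G z) → A z = B z * P (G z) := by
  refine eq_mul_comp_of_eventually hP hG hAhol hBhol ?_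
  have h1 := eventually_eq_of_series_eq hAper hAhol hAbdd hBper hBhol hBbdd hU n hser
  have h2 := tendsto_qParam_nhdsNE.eventually hUΦ
  filter_upwards [h1, h2, hGΦ] with z hz1 hz2 hz3
  have hq : (𝕢 1 z) ^ n ≠ 0 := pow_ne_zero _ (Periodic.qParam_ne_zero (z : ℂ))
  rw [hz2, ← hz3] at hz1
  exact mul_left_cancel₀ hq (by linear_combination hz1)

open PeriodPair in
/-- (PACK-1) for `℘`, `n = 2`. -/
theorem eq_mul_weierstrassP_of_series (L : PeriodPair) {G : ℍ → ℂ} (hG : MDiff G)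
    {Φ : ℂ → ℂ} (hGΦ : ∀ᶠ z : ℍ in atImInfty, G z = Φ (𝕢 1 z))
    {U : ℂ → ℂ} (hU : AnalyticAt ℂ U 0)
    (hUΦ : ∀ᶠ q in 𝓝[≠] (0 : ℂ), U q = q ^ 2 * ℘[L] (Φ q))
    {A B : ℍ → ℂ}
    (hAper : Periodic (A ∘ ofComplex) 1) (hAhol : MDiff A) (hAbdd : IsBoundedAtImInfty A)
    (hBper : Periodic (B ∘ ofComplex) 1) (hBhol : MDiff B) (hBbdd : IsBoundedAtImInfty B)
    (hser : PowerSeries.X ^ 2 * qExpansion 1 A = taylor U * qExpansion 1 B) :
    ∀ z : ℍ, G z ∉ L.lattice → A z = B z * ℘[L] (G z) :=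
  fun z hz ↦ eq_mul_comp_of_series L.meromorphic_weierstrassP hG hGΦ hU 2 hUΦ
    hAper hAhol hAbdd hBper hBhol hBbdd hser z (L.analyticOnNhd_weierstrassP _ hz)

open PeriodPair in
/-- (PACK-1) for `℘'`, `n = 3`. -/
theorem eq_mul_derivWeierstrassP_of_series (L : PeriodPair) {G : ℍ → ℂ} (hG : MDiff G)
    {Φ : ℂ → ℂ} (hGΦ : ∀ᶠ z : ℍ in atImInfty, G z = Φ (𝕢 1 z))
    {U : ℂ → ℂ} (hU : AnalyticAt ℂ U 0)
    (hUΦ : ∀ᶠ q in 𝓝[≠] (0 : ℂ), U q = q ^ 3 * ℘'[L] (Φ q))
    {A B : ℍ → ℂ}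
    (hAper : Periodic (A ∘ ofComplex) 1) (hAhol : MDiff A) (hAbdd : IsBoundedAtImInfty A)
    (hBper : Periodic (B ∘ ofComplex) 1) (hBhol : MDiff B) (hBbdd : IsBoundedAtImInfty B)
    (hser : PowerSeries.X ^ 3 * qExpansion 1 A = taylor U * qExpansion 1 B) :
    ∀ z : ℍ, G z ∉ L.lattice → A z = B z * ℘'[L] (G z) :=
  fun z hz ↦ eq_mul_comp_of_series L.meromorphic_derivWeierstrassP hG hGΦ hU 3 hUΦ
    hAper hAhol hAbdd hBper hBhol hBbdd hser z (L.analyticOnNhd_derivWeierstrassP _ hz)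

open PeriodPair ModularCurve.Period in
/-- (PACK) From the series identity `X ^ 2 * qExpansion 1 A = taylor U * qExpansion 1 B`, where
`U q = q ^ 2 * ℘[L] (Φ q)` near `0` and `c * F z = Φ (q z)` near `i∞` (`Φ` continuous at `0`,
`Φ 0 = 0`, `Φ ≠ 0` on a punctured neighbourhood), to: every `c * period γ` lies in `L`, for
each `γ` under which `A` and `B` transform with the same nowhere vanishing factor. -/
theorem period_mem_lattice_of_series (L : PeriodPair)
    {Γ : Subgroup (Matrix.SpecialLinearGroup (Fin 2) ℤ)}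
    {F : ℍ → ℂ} (hF : IsEquivariantPrimitive Γ F) (hFhol : MDiff F) (c : ℂ)
    {Φ : ℂ → ℂ} (hΦ : ContinuousAt Φ 0) (hΦ0 : Φ 0 = 0) (hΦne : ∀ᶠ q in 𝓝[≠] (0 : ℂ), Φ q ≠ 0)
    (hFΦ : ∀ᶠ z : ℍ in atImInfty, c * F z = Φ (𝕢 1 z))
    {U : ℂ → ℂ} (hU : AnalyticAt ℂ U 0)
    (hUΦ : ∀ᶠ q in 𝓝[≠] (0 : ℂ), U q = q ^ 2 * ℘[L] (Φ q))
    {A B : ℍ → ℂ}
    (hAper : Periodic (A ∘ ofComplex) 1) (hAhol : MDiff A) (hAbdd : IsBoundedAtImInfty A)
    (hBper : Periodic (B ∘ ofComplex) 1) (hBhol : MDiff B) (hBbdd : IsBoundedAtImInfty B)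
    (hBne : B ≠ 0)
    (hser : PowerSeries.X ^ 2 * qExpansion 1 A = taylor U * qExpansion 1 B)
    (γ : Γ) (j : ℍ → ℂ) (hj : ∀ z, j z ≠ 0)
    (hAγ : ∀ z : ℍ, A ((γ : Matrix.SpecialLinearGroup (Fin 2) ℤ) • z) = j z * A z)
    (hBγ : ∀ z : ℍ, B ((γ : Matrix.SpecialLinearGroup (Fin 2) ℤ) • z) = j z * B z) :
    c * hF.period γ ∈ L.lattice := by
  have hG : MDiff (fun z : ℍ ↦ c * F z) := mdifferentiable_const.mul hFhol
  have hcF : Tendsto (fun z : ℍ ↦ c * F z) atImInfty (𝓝 0) := by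
    have h1 : Tendsto (fun z : ℍ ↦ Φ (𝕢 1 z)) atImInfty (𝓝 0) := by
      have := hΦ.tendsto.comp (qParam_tendsto_atImInfty one_pos)
      rwa [hΦ0] at this
    exact h1.congr' (by filter_upwards [hFΦ] with z hz using hz.symm)
  have hFne : ∀ᶠ z : ℍ in atImInfty, c * F z ≠ 0 := by
    filter_upwards [tendsto_qParam_nhdsNE.eventually hΦne, hFΦ] with z hz1 hz2
    rwa [hz2]
  have hAB := eq_mul_weierstrassP_of_series L hG hFΦ hU hUΦ
    hAper hAhol hAbdd hBper hBhol hBbdd hser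
  exact period_mem_lattice L hF c hcF hFne hBhol hBne hAB γ j hj hAγ hBγ

end Fermat.Agent.S58.helper4294
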