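import Mathlib

/-!
# S58 (route #1886, steps 4 / 5a): the "norm descent" ending of Eichler–Shimura at a point

Pure algebra, Mathlib-only, statement-agnostic.

Setting: `A` an abelian group (points of the reduced curve over `k((t))`), `F : A →+ A` injective
(Frobenius), `δ : A →+ V` additive (the invariant-differential hom), a point `P` with
`δ (F P) = 0` (Frobenius kills differentials) and such that `δ P` has exact additive order `ℓ`
(in the application: `V` is a field of characteristic `ℓ` and `δ P ≠ 0`), and the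
Cayley–Hamilton relation `F (F P) - t • F P + ℓ • P = 0` **at the point `P` only**.

Then every `ℤ[F]`-relation `r₀ • P + r₁ • F P = 0` has norm zero:
`r₀ ^ 2 + r₀ * r₁ * t + r₁ ^ 2 * ℓ = 0`  (`norm_eq_zero_of_rel`).

Consequences (no torsion theory, no division polynomials, no "torsion points are algebraic"):
* `eq_zero_of_zsmul_eq_zero` : `P` is not a torsion point;
* `trace_eq_of_quadratic`    : a second relation `F (F P) - a • F P + ℓ • P = 0` forces `a = t`
  (step 4: `a_ℓ(g) = ℓ + 1 - #E(𝔽_ℓ)`);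
* `trace_eq_of_u_relation`   : a relation `ℓ • P = a • F P` forces `t = ℓ + 1 ∨ t = -(ℓ + 1)`
  (step 5a: impossible for a point count, `1 ≤ #E(𝔽_ℓ) ≤ 2ℓ + 1`, see `false_of_u_relation`).
-/

set_option autoImplicit false

namespace Fermat.Agent.S58.helper5120

variable {A V : Type*} [AddCommGroup A] [AddCommGroup V]

/-- **Norm descent.** See the module docstring. -/
theorem norm_eq_zero_of_rel (F : A →+ A) (hF : Function.Injective F) (δ : A →+ V)
    {ℓ : ℕ} (hℓ : 1 < ℓ) (t : ℤ) (P : A) (hδF : δ (F P) = 0)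
    (hδP : ∀ n : ℤ, n • δ P = 0 → (ℓ : ℤ) ∣ n)
    (hCH : F (F P) - t • F P + (ℓ : ℤ) • P = 0)
    (r₀ r₁ : ℤ) (h : r₀ • P + r₁ • F P = 0) :
    r₀ ^ 2 + r₀ * r₁ * t + r₁ ^ 2 * ℓ = 0 := by
  -- strong induction on the absolute value of the norm
  suffices H : ∀ (n : ℕ) (r₀ r₁ : ℤ), r₀ • P + r₁ • F P = 0 →
      (r₀ ^ 2 + r₀ * r₁ * t + r₁ ^ 2 * ℓ).natAbs = n → r₀ ^ 2 + r₀ * r₁ * t + r₁ ^ 2 * ℓ = 0 from
    H _ r₀ r₁ h rfl
  intro n
  induction n using Nat.strong_induction_on with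
  | _ n ih =>
    intro r₀ r₁ h hn
    -- apply `δ`: `ℓ ∣ r₀`
    have h1 : r₀ • δ P = 0 := by
      have := congrArg δ h
      simpa [map_add, map_zsmul, hδF] using this
    obtain ⟨s, rfl⟩ := hδP r₀ h1
    -- rewrite the relation as `F` of a new relation
    have hℓP : (ℓ : ℤ) • P = t • F P - F (F P) := by
      have := hCH
      rw [sub_add_eq_add_sub, sub_eq_zero] at this
      rw [eq_sub_iff_add_eq, add_comm]
      exact this
    have h2 : F ((s * t + r₁) • P + (-s) • F P) = 0 := by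
      rw [map_add, map_zsmul, map_zsmul]
      have h3 : ((ℓ : ℤ) * s) • P = s • (t • F P - F (F P)) := by
        rw [mul_comm, mul_smul, hℓP]
      rw [h3] at h
      rw [← h]
      simp only [smul_sub, add_smul, neg_smul, mul_smul]
      abel
    have h4 : (s * t + r₁) • P + (-s) • F P = 0 := hF (by rw [h2, map_zero])
    -- the new norm is the old one divided by `ℓ`
    have hN : ((ℓ : ℤ) * s) ^ 2 + (ℓ : ℤ) * s * r₁ * t + r₁ ^ 2 * ℓ
        = ℓ * ((s * t + r₁) ^ 2 + (s * t + r₁) * (-s) * t + (-s) ^ 2 * ℓ) := by ring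
    by_cases hz : (s * t + r₁) ^ 2 + (s * t + r₁) * (-s) * t + (-s) ^ 2 * ℓ = 0
    · rw [hN, hz, mul_zero]
    · exfalso
      refine hz (ih _ ?_ _ _ h4 rfl)
      rw [← hn, hN, Int.natAbs_mul, Int.natAbs_natCast]
      have hpos : 0 < ((s * t + r₁) ^ 2 + (s * t + r₁) * (-s) * t + (-s) ^ 2 * ℓ).natAbs :=
        Int.natAbs_pos.mpr hz
      calc ((s * t + r₁) ^ 2 + (s * t + r₁) * (-s) * t + (-s) ^ 2 * ℓ).natAbs
          = 1 * ((s * t + r₁) ^ 2 + (s * t + r₁) * (-s) * t + (-s) ^ 2 * ℓ).natAbs := by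
            rw [one_mul]
        _ < ℓ * ((s * t + r₁) ^ 2 + (s * t + r₁) * (-s) * t + (-s) ^ 2 * ℓ).natAbs :=
            Nat.mul_lt_mul_of_pos_right hℓ hpos

/-- Under the hypotheses of `norm_eq_zero_of_rel`, the point `P` is not torsion. -/
theorem eq_zero_of_zsmul_eq_zero (F : A →+ A) (hF : Function.Injective F) (δ : A →+ V)
    {ℓ : ℕ} (hℓ : 1 < ℓ) (t : ℤ) (P : A) (hδF : δ (F P) = 0)
    (hδP : ∀ n : ℤ, n • δ P = 0 → (ℓ : ℤ) ∣ n)
    (hCH : F (F P) - t • F P + (ℓ : ℤ) • P = 0)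
    (c : ℤ) (h : c • P = 0) : c = 0 := by
  have := norm_eq_zero_of_rel F hF δ hℓ t P hδF hδP hCH c 0 (by simpa using h)
  simpa using this

/-- **Step 4 ending.** Two Frobenius quadratics at the same point have the same trace. -/
theorem trace_eq_of_quadratic (F : A →+ A) (hF : Function.Injective F) (δ : A →+ V)
    {ℓ : ℕ} (hℓ : 1 < ℓ) (t : ℤ) (P : A) (hδF : δ (F P) = 0)
    (hδP : ∀ n : ℤ, n • δ P = 0 → (ℓ : ℤ) ∣ n)
    (hCH : F (F P) - t • F P + (ℓ : ℤ) • P = 0)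
    (a : ℤ) (hES : F (F P) - a • F P + (ℓ : ℤ) • P = 0) : a = t := by
  have hrel : (0 : ℤ) • P + (a - t) • F P = 0 := by
    have : (a - t) • F P = (F (F P) - t • F P + (ℓ : ℤ) • P) - (F (F P) - a • F P + (ℓ : ℤ) • P) := by
      rw [sub_smul]; abel
    rw [zero_smul, zero_add, this, hCH, hES, sub_zero]
  have := norm_eq_zero_of_rel F hF δ hℓ t P hδF hδP hCH 0 (a - t) hrel
  have hℓ0 : (ℓ : ℤ) ≠ 0 := by
    have : (0 : ℤ) < ℓ := by exact_mod_cast (by omega : 0 < ℓ)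
    exact this.ne'
  have h2 : (a - t) ^ 2 * (ℓ : ℤ) = 0 := by simpa using this
  have h3 : (a - t) ^ 2 = 0 := (mul_eq_zero.mp h2).resolve_right hℓ0
  exact sub_eq_zero.mp ((pow_eq_zero_iff (two_ne_zero)).mp h3)

/-- **Step 5a ending.** A `U_ℓ`-type relation `ℓ • P = a • F P` forces `t = ±(ℓ + 1)`. -/
theorem trace_eq_of_u_relation (F : A →+ A) (hF : Function.Injective F) (δ : A →+ V)
    {ℓ : ℕ} (hℓ : ℓ.Prime) (t : ℤ) (P : A) (hδF : δ (F P) = 0)
    (hδP : ∀ n : ℤ, n • δ P = 0 → (ℓ : ℤ) ∣ n)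
    (hCH : F (F P) - t • F P + (ℓ : ℤ) • P = 0)
    (a : ℤ) (hU : (ℓ : ℤ) • P = a • F P) : t = ℓ + 1 ∨ t = -(ℓ + 1) := by
  have hrel : (ℓ : ℤ) • P + (-a) • F P = 0 := by rw [hU, neg_smul, add_neg_cancel]
  have h1 := norm_eq_zero_of_rel F hF δ hℓ.one_lt t P hδF hδP hCH ℓ (-a) hrel
  have hℓ0 : (ℓ : ℤ) ≠ 0 := by exact_mod_cast hℓ.ne_zero
  -- `ℓ - a t + a² = 0`
  have h2 : (ℓ : ℤ) - a * t + a ^ 2 = 0 := by
    have : (ℓ : ℤ) * ((ℓ : ℤ) - a * t + a ^ 2) = 0 := by linear_combination h1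
    exact (mul_eq_zero.mp this).resolve_left hℓ0
  -- `a ∣ ℓ`, so `a = ±1` or `a = ±ℓ`
  have hdvd : a ∣ (ℓ : ℤ) := ⟨t - a, by linear_combination h2⟩
  have ha : a = 1 ∨ a = -1 ∨ a = ℓ ∨ a = -ℓ := by
    have hnat : a.natAbs ∣ ℓ := by
      have := Int.natAbs_dvd_natAbs.mpr hdvd
      simpa using this
    rcases (Nat.dvd_prime hℓ).mp hnat with h | h
    · rcases Int.natAbs_eq a with h' | h' <;> rw [h] at h' <;> simp [h']
    · rcases Int.natAbs_eq a with h' | h' <;> rw [h] at h' <;> simp [h']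
  rcases ha with rfl | rfl | rfl | rfl
  · left; linear_combination -h2
  · right; linear_combination h2
  · left
    have : (ℓ : ℤ) * ((ℓ : ℤ) + 1 - t) = 0 := by linear_combination h2
    have := (mul_eq_zero.mp this).resolve_left hℓ0
    linear_combination -this
  · right
    have : (ℓ : ℤ) * ((ℓ : ℤ) + 1 + t) = 0 := by linear_combination h2
    have := (mul_eq_zero.mp this).resolve_left hℓ0
    linear_combination this

/-- **Step 5a ending, point-count form.** If `t = ℓ + 1 - n` with `1 ≤ n ≤ 2ℓ + 1`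
(the trivial bounds for the number of points of a Weierstrass curve over `𝔽_ℓ`), then no
`U_ℓ`-type relation `ℓ • P = a • F P` can hold at a point with nonzero differential. -/
theorem false_of_u_relation (F : A →+ A) (hF : Function.Injective F) (δ : A →+ V)
    {ℓ : ℕ} (hℓ : ℓ.Prime) (n : ℕ) (hn1 : 1 ≤ n) (hn2 : n ≤ 2 * ℓ + 1) (P : A)
    (hδF : δ (F P) = 0) (hδP : ∀ n : ℤ, n • δ P = 0 → (ℓ : ℤ) ∣ n)
    (hCH : F (F P) - ((ℓ : ℤ) + 1 - n) • F P + (ℓ : ℤ) • P = 0)
    (a : ℤ) (hU : (ℓ : ℤ) • P = a • F P) : False := by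
  rcases trace_eq_of_u_relation F hF δ hℓ _ P hδF hδP hCH a hU with h | h
  · have : (n : ℤ) = 0 := by linear_combination -h
    omega
  · have : (n : ℤ) = 2 * ℓ + 2 := by linear_combination -h
    omega

/-- The order hypothesis `hδP` of the lemmas above, in the application: the target of `δ` is a
field of characteristic `ℓ` and the differential is nonzero. -/
theorem dvd_of_zsmul_eq_zero {K : Type*} [Field K] (ℓ : ℕ) [CharP K ℓ] {v : K} (hv : v ≠ 0)
    (n : ℤ) (h : n • v = 0) : (ℓ : ℤ) ∣ n := by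
  rw [zsmul_eq_mul] at h
  exact (CharP.intCast_eq_zero_iff K ℓ n).mp ((mul_eq_zero.mp h).resolve_right hv)

end Fermat.Agent.S58.helper5120
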