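import Mathlib

/-!
# S58 (route #1886, steps 4 and 5a): the abstract Eichler–Shimura endgame

Setting (purely formal; in the application `G` is the group of points of the reduction of an
elliptic curve over a field `K` of characteristic `l`, e.g. `K = 𝔽_l((t))`, `Fr` is the
coordinatewise `l`-power Frobenius and `delta` is the invariant-differential homomorphism of a
derivation of `K`):

* `G` an additive commutative group, `Fr : G →+ G` injective;
* Cayley–Hamilton: `Fr (Fr P) - tau • Fr P + l • P = 0` for all `P`;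
* `delta : G →+ K`, `K` a field of characteristic `l`, with `delta (Fr P) = 0`.

Results:

* `ESData.delta_eq_zero_of_torsion` (NT): a torsion point is killed by `delta`.
  No algebraicity of torsion points, no division polynomials, no finiteness of torsion;
* `ESData.trace_eq_of_hecke` (ES4): `Fr² Q + l Q = a Fr Q` and `delta Q ≠ 0` give `a = tau`;
* `ESData.eq_or_eq_neg_of_U_relation`, `ESData.false_of_U_relation` (ES5a):
  `l Q = a Fr Q` and `delta Q ≠ 0` force `tau = ±(l + 1)`, impossible when `|tau| ≤ l`.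
-/

set_option autoImplicit false

namespace Fermat.Agent.S58.helper5371

/-- The formal data of the Eichler–Shimura endgame. -/
structure ESData (G : Type*) [AddCommGroup G] (K : Type*) [Field K] (l : ℕ) where
  /-- Frobenius on points. -/
  Fr : G →+ G
  Fr_injective : Function.Injective Fr
  /-- the trace of Frobenius. -/
  tau : ℤ
  /-- Cayley–Hamilton on points. -/
  CH : ∀ P : G, Fr (Fr P) - tau • Fr P + (l : ℤ) • P = 0
  /-- the invariant differential. -/
  delta : G →+ K
  delta_Fr : ∀ P : G, delta (Fr P) = 0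

namespace ESData

variable {G : Type*} [AddCommGroup G] {K : Type*} [Field K] {l : ℕ}

/-- The integer `n` is nonzero in `K` when `l ∤ n`. -/
theorem intCast_ne_zero_of_not_dvd [CharP K l] {n : ℤ} (h : ¬ (l : ℤ) ∣ n) : (n : K) ≠ 0 := by
  intro h0
  exact h ((CharP.intCast_eq_zero_iff K l n).mp h0)

variable (d : ESData G K l)

theorem Fr_eq_zero_iff {P : G} : d.Fr P = 0 ↔ P = 0 := by
  constructor
  · intro h
    exact d.Fr_injective (by rw [h, map_zero])
  · rintro rfl
    exact map_zero _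

/-- `Fr (tau • P - Fr P) = l • P`. -/
theorem Fr_verschiebung (P : G) : d.Fr (d.tau • P - d.Fr P) = (l : ℤ) • P := by
  have h := d.CH P
  rw [map_sub, map_zsmul]
  have : (l : ℤ) • P = d.tau • d.Fr P - d.Fr (d.Fr P) := by
    have h2 : (l : ℤ) • P = -(d.Fr (d.Fr P) - d.tau • d.Fr P) := by
      rw [eq_neg_iff_add_eq_zero, add_comm]
      exact h
    rw [h2]
    abel
  rw [this]

/-- Ordinary case: `l ∤ tau` and `l ^ e • Q = 0` give `delta Q = 0`. -/
theorem delta_eq_zero_of_pow_smul_of_not_dvd [CharP K l] (hτ : ¬ (l : ℤ) ∣ d.tau) :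
    ∀ (e : ℕ) (Q : G), ((l : ℤ) ^ e) • Q = 0 → d.delta Q = 0 := by
  intro e
  induction e with
  | zero =>
    intro Q hQ
    rw [pow_zero, one_smul] at hQ
    rw [hQ, map_zero]
  | succ e ih =>
    intro Q hQ
    -- `l^e • Fr (tau • Q - Fr Q) = 0`
    have h1 : ((l : ℤ) ^ e) • d.Fr (d.tau • Q - d.Fr Q) = 0 := by
      rw [d.Fr_verschiebung, smul_smul, ← pow_succ]
      exact hQ
    have h2 : ((l : ℤ) ^ e) • (d.tau • Q - d.Fr Q) = 0 := by
      rw [← map_zsmul] at h1
      exact (d.Fr_eq_zero_iff).mp h1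
    have h3 := ih _ h2
    rw [map_sub, map_zsmul, d.delta_Fr, sub_zero, zsmul_eq_mul] at h3
    rcases mul_eq_zero.mp h3 with h4 | h4
    · exact absurd h4 (intCast_ne_zero_of_not_dvd hτ)
    · exact h4

/-- Supersingular-like case: `l ∣ tau` and `l • Q = 0` give `Q = 0`. -/
theorem eq_zero_of_smul_of_dvd (hτ : (l : ℤ) ∣ d.tau) (Q : G) (hQ : (l : ℤ) • Q = 0) :
    Q = 0 := by
  obtain ⟨t', ht'⟩ := hτ
  have h := d.CH Q
  -- `Fr (Fr Q) = tau • Fr Q - l • Q = t' • Fr (l • Q) - l • Q = 0`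
  have h1 : d.Fr (d.Fr Q) = 0 := by
    have h2 : d.tau • d.Fr Q = 0 := by
      rw [ht', mul_comm, mul_smul, ← map_zsmul, hQ, map_zero, smul_zero]
    rw [h2, hQ, sub_zero, add_zero] at h
    exact h
  exact (d.Fr_eq_zero_iff).mp ((d.Fr_eq_zero_iff).mp h1)

theorem eq_zero_of_pow_smul_of_dvd (hτ : (l : ℤ) ∣ d.tau) :
    ∀ (e : ℕ) (Q : G), ((l : ℤ) ^ e) • Q = 0 → Q = 0 := by
  intro e
  induction e with
  | zero =>
    intro Q hQ
    rwa [pow_zero, one_smul] at hQ
  | succ e ih =>
    intro Q hQ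
    apply d.eq_zero_of_smul_of_dvd hτ
    apply ih
    rw [smul_smul, ← pow_succ]
    exact hQ

/-- Both cases: `l ^ e • Q = 0` gives `delta Q = 0`. -/
theorem delta_eq_zero_of_pow_smul [CharP K l] (e : ℕ) (Q : G) (hQ : ((l : ℤ) ^ e) • Q = 0) :
    d.delta Q = 0 := by
  by_cases hτ : (l : ℤ) ∣ d.tau
  · rw [d.eq_zero_of_pow_smul_of_dvd hτ e Q hQ, map_zero]
  · exact d.delta_eq_zero_of_pow_smul_of_not_dvd hτ e Q hQ

/-- **(NT)** Torsion points are killed by the invariant differential:
`n ≠ 0`, `n • Q = 0` imply `delta Q = 0`. -/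
theorem delta_eq_zero_of_torsion [Fact l.Prime] [CharP K l] {n : ℤ} (hn : n ≠ 0) {Q : G}
    (hQ : n • Q = 0) : d.delta Q = 0 := by
  have hl : l.Prime := Fact.out
  -- pass to the natural number `n.natAbs`
  have hN : (n.natAbs : ℤ) • Q = 0 := by
    rcases Int.natAbs_eq n with h | h
    · rw [← h]; exact hQ
    · have : (n.natAbs : ℤ) = -n := by omega
      rw [this, neg_smul, hQ, neg_zero]
  have hN0 : n.natAbs ≠ 0 := Int.natAbs_ne_zero.mpr hn
  obtain ⟨e, n', hn', hnn'⟩ := Nat.exists_eq_pow_mul_and_not_dvd hN0 l hl.ne_one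
  -- `Q' := n' • Q` is killed by `l ^ e`
  have h1 : ((l : ℤ) ^ e) • ((n' : ℤ) • Q) = 0 := by
    rw [smul_smul]
    have : ((l : ℤ) ^ e) * (n' : ℤ) = (n.natAbs : ℤ) := by
      rw [hnn']; push_cast; ring
    rw [this]
    exact hN
  have h2 := d.delta_eq_zero_of_pow_smul e _ h1
  rw [map_zsmul, zsmul_eq_mul] at h2
  rcases mul_eq_zero.mp h2 with h3 | h3
  · exfalso
    have h4 : ¬ (l : ℤ) ∣ (n' : ℤ) := by
      rw [Int.natCast_dvd_natCast]
      exact hn'
    exact intCast_ne_zero_of_not_dvd h4 h3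
  · exact h3

/-- Contrapositive of (NT): a point with `delta Q ≠ 0` is not torsion. -/
theorem eq_zero_of_smul_eq_zero [Fact l.Prime] [CharP K l] {Q : G} (hδ : d.delta Q ≠ 0)
    {n : ℤ} (hQ : n • Q = 0) : n = 0 := by
  by_contra hn
  exact hδ (d.delta_eq_zero_of_torsion hn hQ)

/-- **(ES4)** Eichler–Shimura at a good prime: if the reduced generic point `Q` has
`delta Q ≠ 0` and satisfies the Hecke relation `Fr² Q + l Q = a Fr Q`, then `a = tau`. -/
theorem trace_eq_of_hecke [Fact l.Prime] [CharP K l] {Q : G} (hδ : d.delta Q ≠ 0) {a : ℤ}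
    (hrel : d.Fr (d.Fr Q) + (l : ℤ) • Q = a • d.Fr Q) : a = d.tau := by
  have h := d.CH Q
  -- `(a - tau) • Fr Q = 0`
  have h1 : (a - d.tau) • d.Fr Q = 0 := by
    rw [sub_smul, ← hrel]
    rw [← h]
    abel
  rw [← map_zsmul] at h1
  have h2 := (d.Fr_eq_zero_iff).mp h1
  have h3 := d.eq_zero_of_smul_eq_zero hδ h2
  omega

/-- **(ES5a)**, first half: the `U_l`-relation `l Q = a Fr Q` forces `Fr Q = (tau - a) • Q`. -/
theorem Fr_eq_smul_of_U_relation {Q : G} {a : ℤ} (hrel : (l : ℤ) • Q = a • d.Fr Q) :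
    d.Fr Q = (d.tau - a) • Q := by
  have h1 : d.Fr (d.tau • Q - d.Fr Q - a • Q) = 0 := by
    rw [map_sub, d.Fr_verschiebung, map_zsmul, hrel, sub_self]
  have h2 := (d.Fr_eq_zero_iff).mp h1
  rw [sub_smul]
  have h3 : d.Fr Q = d.tau • Q - a • Q - (d.tau • Q - d.Fr Q - a • Q) := by abel
  rw [h3, h2, sub_zero]

/-- **(ES5a)**, second half: with `delta Q ≠ 0` the integer `c = tau - a` is a root of the
characteristic polynomial `X² - tau X + l`. -/
theorem charpoly_root_of_U_relation [Fact l.Prime] [CharP K l] {Q : G} (hδ : d.delta Q ≠ 0)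
    {a : ℤ} (hrel : (l : ℤ) • Q = a • d.Fr Q) :
    (d.tau - a) ^ 2 - d.tau * (d.tau - a) + (l : ℤ) = 0 := by
  have hc := d.Fr_eq_smul_of_U_relation hrel
  set c : ℤ := d.tau - a with hcdef
  have h := d.CH Q
  rw [hc, map_zsmul, hc] at h
  have h1 : (c ^ 2 - d.tau * c + (l : ℤ)) • Q = 0 := by
    rw [← h, add_smul, sub_smul, pow_two, mul_smul, mul_smul]
  exact d.eq_zero_of_smul_eq_zero hδ h1

/-- **(ES5a)**: the `U_l`-relation `l Q = a Fr Q` at a point with `delta Q ≠ 0` forces
`tau = l + 1` or `tau = -(l + 1)`. -/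
theorem eq_or_eq_neg_of_U_relation [Fact l.Prime] [CharP K l] {Q : G} (hδ : d.delta Q ≠ 0)
    {a : ℤ} (hrel : (l : ℤ) • Q = a • d.Fr Q) :
    d.tau = (l : ℤ) + 1 ∨ d.tau = -((l : ℤ) + 1) := by
  have hl : l.Prime := Fact.out
  have hroot := d.charpoly_root_of_U_relation hδ hrel
  set c : ℤ := d.tau - a with hcdef
  -- `c * (tau - c) = l`
  have h1 : c * (d.tau - c) = (l : ℤ) := by linear_combination -hroot
  have hcdvd : c ∣ (l : ℤ) := Dvd.intro _ h1
  have hlp : Prime (l : ℤ) := Nat.prime_iff_prime_int.mp hl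
  have hl0 : (l : ℤ) ≠ 0 := hlp.ne_zero
  have hc0 : c ≠ 0 := by
    rintro h0
    rw [h0, zero_mul] at h1
    exact hl0 h1.symm
  -- `|c| ∣ l` in ℕ, so `|c| = 1` or `|c| = l`
  have hnat : c.natAbs ∣ l := by
    have := Int.natAbs_dvd_natAbs.mpr hcdvd
    simpa using this
  rcases (Nat.dvd_prime hl).mp hnat with h | h
  · -- `c = ± 1`
    rcases Int.natAbs_eq c with h' | h'
    · rw [h] at h'
      have hc1 : c = 1 := by simpa using h'
      rw [hc1] at h1
      left; linarith
    · rw [h] at h'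
      have hc1 : c = -1 := by simpa using h'
      rw [hc1] at h1
      right; linarith
  · -- `c = ± l`
    rcases Int.natAbs_eq c with h' | h'
    · rw [h] at h'
      rw [h'] at h1
      have h2 : d.tau - (l : ℤ) = 1 := by
        have := mul_left_cancel₀ hl0 (h1.trans (mul_one _).symm)
        exact this
      left; linarith
    · rw [h] at h'
      rw [h'] at h1
      have h2 : d.tau - -(l : ℤ) = -1 := by
        have h3 : (l : ℤ) * (-(d.tau - -(l : ℤ))) = (l : ℤ) * 1 := by
          rw [mul_one]; linarith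
        have := mul_left_cancel₀ hl0 h3
        linarith
      right; linarith

/-- **(ES5a)**, contradiction form: under the trivial bound `|tau| ≤ l`, the `U_l`-relation
`l Q = a Fr Q` cannot hold at a point with `delta Q ≠ 0`. -/
theorem false_of_U_relation [Fact l.Prime] [CharP K l] {Q : G} (hδ : d.delta Q ≠ 0)
    {a : ℤ} (hrel : (l : ℤ) • Q = a • d.Fr Q) (hbound : |d.tau| ≤ (l : ℤ)) : False := by
  rcases d.eq_or_eq_neg_of_U_relation hδ hrel with h | h
  · rw [h] at hbound
    have : |(l : ℤ) + 1| = (l : ℤ) + 1 := abs_of_nonneg (by positivity)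
    rw [this] at hbound
    omega
  · rw [h, abs_neg] at hbound
    have : |(l : ℤ) + 1| = (l : ℤ) + 1 := abs_of_nonneg (by positivity)
    rw [this] at hbound
    omega

end ESData

end Fermat.Agent.S58.helper5371
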