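import Mathlib

/-!
# S58, route #1886, step 3a: the invariant differential as an additive homomorphism

Let `L` be a field with a derivation `D` and `W` a Weierstrass curve over `L` whose five
coefficients are `D`-constants.  For a nonsingular point `(x, y)` there is a unique `w : L` with

* `D x = w * (2 y + a₁ x + a₃)` and
* `D y = w * (3 x² + 2 a₂ x + a₄ - a₁ y)`,

namely the value of the invariant differential `dx / (2y + a₁x + a₃)` on `D`.  We define
`delta W D : W.Point → L` (with `delta 0 = 0`) and prove that it is additive for **all** pairs of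
points (chord, tangent, inverse points, 2-torsion), in every characteristic and without any
hypothesis on the discriminant.  Its kernel consists of the points with `D`-constant coordinates.
-/

set_option autoImplicit false

namespace Fermat.Agent.S58.helper6639

open WeierstrassCurve Polynomial

variable {L : Type*} [Field L]

/-- The five coefficients of `W` are constants of the derivation `D`. -/
structure IsConst (W : Affine L) (D : Derivation ℤ L L) : Prop where
  a₁ : D W.a₁ = 0
  a₂ : D W.a₂ = 0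
  a₃ : D W.a₃ = 0
  a₄ : D W.a₄ = 0
  a₆ : D W.a₆ = 0

/-- `w` is the value at `(x, y)` of the invariant differential of `W` evaluated on `D`
(relational form; `w` is unique at nonsingular points, see `IsDeltaAt.unique`). -/
structure IsDeltaAt (W : Affine L) (D : Derivation ℤ L L) (x y w : L) : Prop where
  dx : D x = w * (2 * y + W.a₁ * x + W.a₃)
  dy : D y = w * (3 * x ^ 2 + 2 * W.a₂ * x + W.a₄ - W.a₁ * y)

section basics

variable {W : Affine L} {D : Derivation ℤ L L}

theorem D_two (D : Derivation ℤ L L) : D (2 : L) = 0 := by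
  have h := D.map_natCast 2
  simpa using h

theorem D_three (D : Derivation ℤ L L) : D (3 : L) = 0 := by
  have h := D.map_natCast 3
  simpa using h

/-- The differentiated Weierstrass equation. -/
theorem equation_deriv (hc : IsConst W D) {x y : L} (h : W.Equation x y) :
    (2 * y + W.a₁ * x + W.a₃) * D y = (3 * x ^ 2 + 2 * W.a₂ * x + W.a₄ - W.a₁ * y) * D x := by
  rw [Affine.equation_iff] at h
  have h' := congrArg D h
  simp only [map_add, Derivation.leibniz, Derivation.leibniz_pow, smul_eq_mul, nsmul_eq_mul,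
    hc.a₁, hc.a₂, hc.a₃, hc.a₄, hc.a₆, mul_zero, add_zero] at h'
  push_cast at h'
  linear_combination h'

theorem IsDeltaAt.unique {x y w w' : L} (h : W.Nonsingular x y)
    (d : IsDeltaAt W D x y w) (d' : IsDeltaAt W D x y w') : w = w' := by
  rw [Affine.nonsingular_iff] at h
  rcases h.2 with hv | hu
  · have hv' : 3 * x ^ 2 + 2 * W.a₂ * x + W.a₄ - W.a₁ * y ≠ 0 := by
      intro h0; apply hv; linear_combination -h0
    have := d.dy.symm.trans d'.dy
    exact mul_right_cancel₀ hv' this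
  · have hu' : 2 * y + W.a₁ * x + W.a₃ ≠ 0 := by
      intro h0; apply hu; linear_combination h0
    have := d.dx.symm.trans d'.dx
    exact mul_right_cancel₀ hu' this

theorem IsDeltaAt.exists (hc : IsConst W D) {x y : L} (h : W.Nonsingular x y) :
    ∃ w, IsDeltaAt W D x y w := by
  have hd := equation_deriv hc h.1
  rw [Affine.nonsingular_iff] at h
  by_cases hu : 2 * y + W.a₁ * x + W.a₃ = 0
  · have hv : 3 * x ^ 2 + 2 * W.a₂ * x + W.a₄ - W.a₁ * y ≠ 0 := by
      rcases h.2 with hv | hu'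
      · intro h0; apply hv; linear_combination -h0
      · exact absurd (by linear_combination hu) hu'
    have hx : D x = 0 := by
      rw [hu, zero_mul] at hd
      exact (mul_eq_zero.mp hd.symm).resolve_left hv
    refine ⟨D y / (3 * x ^ 2 + 2 * W.a₂ * x + W.a₄ - W.a₁ * y), ?_, ?_⟩
    · rw [hu, mul_zero, hx]
    · rw [div_mul_cancel₀ _ hv]
  · refine ⟨D x / (2 * y + W.a₁ * x + W.a₃), ?_, ?_⟩
    · rw [div_mul_cancel₀ _ hu]
    · rw [div_mul_eq_mul_div, eq_div_iff hu]
      linear_combination hd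

/-- Negation: the invariant differential changes sign. -/
theorem IsDeltaAt.neg (hc : IsConst W D) {x y w : L} (d : IsDeltaAt W D x y w) :
    IsDeltaAt W D x (W.negY x y) (-w) := by
  constructor
  · simp only [Affine.negY]
    linear_combination d.dx
  · simp only [Affine.negY, map_sub, map_neg, Derivation.leibniz, smul_eq_mul, hc.a₁, hc.a₃,
      mul_zero, add_zero, sub_zero]
    linear_combination -d.dy - W.a₁ * d.dx

end basics

section add

variable [DecidableEq L] {W : Affine L} {D : Derivation ℤ L L}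

/-- The second elementary symmetric function of the three roots of the addition polynomial. -/
theorem sym2_identity {x₁ x₂ y₁ y₂ : L} (h₁ : W.Equation x₁ y₁) (h₂ : W.Equation x₂ y₂)
    (hxy : ¬(x₁ = x₂ ∧ y₁ = W.negY x₂ y₂)) :
    2 * x₁ * W.slope x₁ x₂ y₁ y₂ ^ 2 + (W.a₁ * x₁ - 2 * y₁ - W.a₃) * W.slope x₁ x₂ y₁ y₂
        + (-W.a₁ * y₁ + W.a₄)
      = x₁ * x₂ + x₁ * W.addX x₁ x₂ (W.slope x₁ x₂ y₁ y₂)
        + x₂ * W.addX x₁ x₂ (W.slope x₁ x₂ y₁ y₂) := by
  have h := Affine.addPolynomial_slope h₁ h₂ hxy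
  rw [Affine.addPolynomial_eq, neg_inj, Cubic.prod_X_sub_C_eq, Cubic.toPoly_injective] at h
  exact congrArg Cubic.c h

/-- The second point lies on the line through the first one with slope `W.slope`. -/
theorem line_rel {x₁ x₂ y₁ y₂ : L} (h₁ : W.Equation x₁ y₁) (h₂ : W.Equation x₂ y₂)
    (hxy : ¬(x₁ = x₂ ∧ y₁ = W.negY x₂ y₂)) :
    y₁ - y₂ = W.slope x₁ x₂ y₁ y₂ * (x₁ - x₂) := by
  by_cases hx : x₁ = x₂
  · have hy : y₁ ≠ W.negY x₂ y₂ := fun h => hxy ⟨hx, h⟩
    have := Affine.Y_eq_of_Y_ne h₁ h₂ hx hy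
    rw [hx, this, sub_self, sub_self, mul_zero]
  · rw [Affine.slope_of_X_ne hx, div_mul_cancel₀ _ (sub_ne_zero.mpr hx)]

/-- The derivative of the slope. -/
theorem D_slope (hc : IsConst W D) {x₁ x₂ y₁ y₂ w₁ w₂ : L} (h₁ : W.Equation x₁ y₁)
    (h₂ : W.Equation x₂ y₂) (hxy : ¬(x₁ = x₂ ∧ y₁ = W.negY x₂ y₂))
    (d₁ : IsDeltaAt W D x₁ y₁ w₁) (d₂ : IsDeltaAt W D x₂ y₂ w₂) :
    D (W.slope x₁ x₂ y₁ y₂) = w₁ * (x₁ - W.addX x₁ x₂ (W.slope x₁ x₂ y₁ y₂))
      + w₂ * (x₂ - W.addX x₁ x₂ (W.slope x₁ x₂ y₁ y₂)) := by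
  have hS := sym2_identity h₁ h₂ hxy
  have hL := line_rel h₁ h₂ hxy
  by_cases hx : x₁ = x₂
  · -- tangent case
    have hy : y₁ ≠ W.negY x₂ y₂ := fun h => hxy ⟨hx, h⟩
    have hyy := Affine.Y_eq_of_Y_ne h₁ h₂ hx hy
    subst hx
    subst hyy
    have hu : 2 * y₁ + W.a₁ * x₁ + W.a₃ ≠ 0 := by
      intro h0; apply hy; simp only [Affine.negY]; linear_combination h0
    have hw : w₁ = w₂ := by
      have := d₁.dx.symm.trans d₂.dx
      exact mul_right_cancel₀ hu this
    subst hw
    have hsl : W.slope x₁ x₁ y₁ y₁ * (2 * y₁ + W.a₁ * x₁ + W.a₃)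
        = 3 * x₁ ^ 2 + 2 * W.a₂ * x₁ + W.a₄ - W.a₁ * y₁ := by
      rw [Affine.slope_of_Y_ne rfl hy]
      have : y₁ - W.negY x₁ y₁ = 2 * y₁ + W.a₁ * x₁ + W.a₃ := by
        simp only [Affine.negY]; ring
      rw [this, div_mul_cancel₀ _ hu]
    set ℓ := W.slope x₁ x₁ y₁ y₁ with hℓ
    have hD : D ℓ * (2 * y₁ + W.a₁ * x₁ + W.a₃) + ℓ * (2 * D y₁ + W.a₁ * D x₁)
        = (6 * x₁ + 2 * W.a₂) * D x₁ - W.a₁ * D y₁ := by
      have h' := congrArg D hsl
      simp only [map_add, map_sub, Derivation.leibniz, Derivation.leibniz_pow, smul_eq_mul,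
        nsmul_eq_mul, hc.a₁, hc.a₂, hc.a₃, hc.a₄, D_two, D_three, mul_zero, add_zero] at h'
      push_cast at h'
      linear_combination h'
    apply mul_left_cancel₀ hu
    simp only [Affine.addX]
    linear_combination hD - (2 * ℓ + W.a₁) * d₁.dy + (6 * x₁ + 2 * W.a₂ - W.a₁ * ℓ) * d₁.dx
      + w₁ * (2 * ℓ + W.a₁) * hsl
  · -- chord case
    have hx' : x₁ - x₂ ≠ 0 := sub_ne_zero.mpr hx
    set ℓ := W.slope x₁ x₂ y₁ y₂ with hℓ
    have hD : D ℓ * (x₁ - x₂) + ℓ * (D x₁ - D x₂) = D y₁ - D y₂ := by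
      have h' := congrArg D hL
      simp only [map_sub, Derivation.leibniz, smul_eq_mul] at h'
      linear_combination -h'
    apply mul_left_cancel₀ hx'
    simp only [Affine.addX] at hS ⊢
    linear_combination hD + d₁.dy - d₂.dy - ℓ * d₁.dx + ℓ * d₂.dx + (w₁ - w₂) * hS
      - w₂ * (2 * ℓ + W.a₁) * hL

/-- **Addition**: the invariant differential is additive on the chord-tangent sum. -/
theorem IsDeltaAt.add (hc : IsConst W D) {x₁ x₂ y₁ y₂ w₁ w₂ : L} (h₁ : W.Equation x₁ y₁)
    (h₂ : W.Equation x₂ y₂) (hxy : ¬(x₁ = x₂ ∧ y₁ = W.negY x₂ y₂))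
    (d₁ : IsDeltaAt W D x₁ y₁ w₁) (d₂ : IsDeltaAt W D x₂ y₂ w₂) :
    IsDeltaAt W D (W.addX x₁ x₂ (W.slope x₁ x₂ y₁ y₂)) (W.addY x₁ x₂ y₁ (W.slope x₁ x₂ y₁ y₂))
      (w₁ + w₂) := by
  have hS := sym2_identity h₁ h₂ hxy
  have hL := line_rel h₁ h₂ hxy
  have hDL := D_slope hc h₁ h₂ hxy d₁ d₂
  set ℓ := W.slope x₁ x₂ y₁ y₂ with hℓ
  simp only [Affine.addX] at hS hDL
  constructor
  · simp only [Affine.addY, Affine.negAddY, Affine.addX, Affine.negY, map_sub, map_add,
      Derivation.leibniz, Derivation.leibniz_pow, smul_eq_mul, nsmul_eq_mul, hc.a₁, hc.a₂,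
      mul_zero, add_zero, sub_zero]
    push_cast
    linear_combination (2 * ℓ + W.a₁) * hDL - d₁.dx - d₂.dx + 2 * w₂ * hL
  · simp only [Affine.addY, Affine.negAddY, Affine.addX, Affine.negY, map_sub, map_add, map_neg,
      Derivation.leibniz, Derivation.leibniz_pow, smul_eq_mul, nsmul_eq_mul, hc.a₁, hc.a₂, hc.a₃,
      mul_zero, add_zero, sub_zero]
    push_cast
    linear_combination
      (-((ℓ ^ 2 + W.a₁ * ℓ - W.a₂ - x₁ - x₂) - x₁) - (ℓ + W.a₁) * (2 * ℓ + W.a₁)) * hDL
      + (2 * ℓ + W.a₁) * d₁.dx + (ℓ + W.a₁) * d₂.dx - d₁.dy - (2 * w₁ + w₂) * hS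
      - 2 * (ℓ + W.a₁) * w₂ * hL

end add

section hom

variable [DecidableEq L] (W : Affine L) (D : Derivation ℤ L L)

/-- The invariant differential `dx / (2y + a₁x + a₃) = dy / (3x² + 2a₂x + a₄ - a₁y)` of `W`
evaluated on the derivation `D`, as a function on the nonsingular points (`0` at infinity). -/
noncomputable def delta : W.Point → L
  | .zero => 0
  | .some x y _ => if 2 * y + W.a₁ * x + W.a₃ = 0 then
      D y / (3 * x ^ 2 + 2 * W.a₂ * x + W.a₄ - W.a₁ * y) else D x / (2 * y + W.a₁ * x + W.a₃)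

variable {W D}

@[simp] theorem delta_zero : delta W D 0 = 0 := rfl

theorem delta_some_of_ne {x y : L} (h : W.Nonsingular x y)
    (hu : 2 * y + W.a₁ * x + W.a₃ ≠ 0) :
    delta W D (.some x y h) = D x / (2 * y + W.a₁ * x + W.a₃) := by
  simp only [delta, if_neg hu]

theorem delta_some_of_eq {x y : L} (h : W.Nonsingular x y)
    (hu : 2 * y + W.a₁ * x + W.a₃ = 0) :
    delta W D (.some x y h) = D y / (3 * x ^ 2 + 2 * W.a₂ * x + W.a₄ - W.a₁ * y) := by
  simp only [delta, if_pos hu]

/-- `delta` is characterised by the two linear equations. -/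
theorem delta_eq_of_isDeltaAt {x y w : L} (h : W.Nonsingular x y) (d : IsDeltaAt W D x y w) :
    delta W D (.some x y h) = w := by
  by_cases hu : 2 * y + W.a₁ * x + W.a₃ = 0
  · have hv : 3 * x ^ 2 + 2 * W.a₂ * x + W.a₄ - W.a₁ * y ≠ 0 := by
      have h' := (Affine.nonsingular_iff x y).mp h
      rcases h'.2 with hv | hu'
      · intro h0; apply hv; linear_combination -h0
      · exact absurd (by linear_combination hu) hu'
    rw [delta_some_of_eq h hu, d.dy, mul_div_assoc, div_self hv, mul_one]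
  · rw [delta_some_of_ne h hu, d.dx, mul_div_assoc, div_self hu, mul_one]

theorem delta_spec (hc : IsConst W D) {x y : L} (h : W.Nonsingular x y) :
    IsDeltaAt W D x y (delta W D (.some x y h)) := by
  obtain ⟨w, hw⟩ := IsDeltaAt.exists hc h
  rw [delta_eq_of_isDeltaAt h hw]
  exact hw

theorem delta_dx (hc : IsConst W D) {x y : L} (h : W.Nonsingular x y) :
    D x = delta W D (.some x y h) * (2 * y + W.a₁ * x + W.a₃) :=
  (delta_spec hc h).dx

theorem delta_dy (hc : IsConst W D) {x y : L} (h : W.Nonsingular x y) :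
    D y = delta W D (.some x y h) * (3 * x ^ 2 + 2 * W.a₂ * x + W.a₄ - W.a₁ * y) :=
  (delta_spec hc h).dy

theorem delta_neg (hc : IsConst W D) (P : W.Point) : delta W D (-P) = -delta W D P := by
  rcases P with _ | ⟨x, y, h⟩
  · change delta W D 0 = -delta W D 0
    simp
  · rw [Affine.Point.neg_some]
    exact delta_eq_of_isDeltaAt _ ((delta_spec hc h).neg hc)

/-- **Additivity of the invariant differential**, for all pairs of points. -/
theorem delta_add (hc : IsConst W D) (P Q : W.Point) :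
    delta W D (P + Q) = delta W D P + delta W D Q := by
  rcases P with _ | ⟨x₁, y₁, h₁⟩
  · change delta W D (0 + Q) = delta W D 0 + delta W D Q
    simp
  rcases Q with _ | ⟨x₂, y₂, h₂⟩
  · change delta W D (_ + 0) = delta W D _ + delta W D 0
    simp
  by_cases hxy : x₁ = x₂ ∧ y₁ = W.negY x₂ y₂
  · rw [Affine.Point.add_of_Y_eq hxy.1 hxy.2]
    obtain ⟨rfl, rfl⟩ := hxy
    have := delta_eq_of_isDeltaAt h₁ ((delta_spec hc h₂).neg hc)
    rw [this]
    simp
  · rw [Affine.Point.add_some hxy]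
    exact delta_eq_of_isDeltaAt _
      (IsDeltaAt.add hc h₁.1 h₂.1 hxy (delta_spec hc h₁) (delta_spec hc h₂))

/-- The invariant differential as an additive homomorphism `W.Point →+ L`. -/
noncomputable def deltaHom (hc : IsConst W D) : W.Point →+ L where
  toFun := delta W D
  map_zero' := rfl
  map_add' := delta_add hc

@[simp] theorem deltaHom_apply (hc : IsConst W D) (P : W.Point) :
    deltaHom hc P = delta W D P := rfl

theorem delta_nsmul (hc : IsConst W D) (n : ℕ) (P : W.Point) :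
    delta W D (n • P) = n * delta W D P := by
  have := map_nsmul (deltaHom hc) n P
  simpa using this

theorem delta_zsmul (hc : IsConst W D) (n : ℤ) (P : W.Point) :
    delta W D (n • P) = n * delta W D P := by
  have := map_zsmul (deltaHom hc) n P
  simpa using this

theorem delta_sub (hc : IsConst W D) (P Q : W.Point) :
    delta W D (P - Q) = delta W D P - delta W D Q :=
  map_sub (deltaHom hc) P Q

/-- **Kernel**: `delta` vanishes exactly at the points with `D`-constant coordinates. -/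
theorem delta_some_eq_zero_iff (hc : IsConst W D) {x y : L} (h : W.Nonsingular x y) :
    delta W D (.some x y h) = 0 ↔ D x = 0 ∧ D y = 0 := by
  constructor
  · intro h0
    have hx := delta_dx hc h
    have hy := delta_dy hc h
    rw [h0, zero_mul] at hx hy
    exact ⟨hx, hy⟩
  · rintro ⟨hx, hy⟩
    exact delta_eq_of_isDeltaAt h ⟨by rw [hx, zero_mul], by rw [hy, zero_mul]⟩

theorem delta_eq_zero_iff (hc : IsConst W D) (P : W.Point) :
    delta W D P = 0 ↔ P = 0 ∨ ∃ (x y : L) (h : W.Nonsingular x y),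
      P = .some x y h ∧ D x = 0 ∧ D y = 0 := by
  rcases P with _ | ⟨x, y, h⟩
  · exact ⟨fun _ => Or.inl rfl, fun _ => rfl⟩
  · rw [delta_some_eq_zero_iff hc h]
    constructor
    · intro h0
      exact Or.inr ⟨x, y, h, rfl, h0⟩
    · rintro (h0 | ⟨x', y', h', heq, h0⟩)
      · exact absurd h0 (Affine.Point.some_ne_zero h)
      · obtain ⟨rfl, rfl⟩ := Affine.Point.some.inj heq
        exact h0

end hom

end Fermat.Agent.S58.helper6639
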