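import Mathlib
import Fermat.Prelude.Def_FLTPrelim_Modularity
import Fermat.Agent.S58.helper6639_DeltaHom
import Fermat.Agent.S58.helper5371_NonTorsion

/-!
# S58 (route #1886, steps 4 and 5a): the Eichler–Shimura endgame on Weierstrass points

Concrete instance of `helper5371_NonTorsion` for the points of a Weierstrass curve `W` over
`ZMod p`, base changed to a field `K` of characteristic `p` carrying a derivation `D`
(application: `K = 𝔽_p((t))`, `D = t d/dt`), with

* `Fr = Point.map (FiniteField.frobeniusAlgHom (ZMod p) K)` (the consumer shape of the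
  Cayley–Hamilton leaves `S52/helper7612.frobPt`, `S52/helper3731.CHGeneral`),
* `delta = helper6639.delta (W⁄K) D` (the invariant-differential homomorphism).

Main results (all under the hypothesis `hCH` = Cayley–Hamilton for `W` over `K`):

* `delta_map_frob` : `delta (Fr P) = 0`;
* `delta_eq_zero_of_torsion` : `n ≠ 0`, `n • Q = 0` imply `delta Q = 0`;
* `trace_eq_of_hecke` : `delta Q ≠ 0`, `Fr² Q + p Q = a Fr Q` imply `a = W.traceOfFrobenius`;
* `false_of_U_relation` : `delta Q ≠ 0`, `p Q = a Fr Q` is impossible;
* `abs_traceOfFrobenius_le` : the trivial bound `|traceOfFrobenius| ≤ card k` over any finite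
  field `k` (from `1 ≤ #W(k) ≤ 2 card k + 1`).
-/

set_option autoImplicit false

namespace Fermat.Agent.S58.helper5371

open WeierstrassCurve WeierstrassCurve.Affine Polynomial
open Fermat.Agent.S58.helper6639

/-! ### The trivial bound on the trace of Frobenius -/

section Bound

variable {k : Type*} [Field k] [Fintype k] (W : WeierstrassCurve k)

open Classical in
/-- For fixed `x` the Weierstrass equation has at most two solutions `y`. -/
theorem card_filter_equation_le_two (x : k) :
    (Finset.univ.filter fun y : k => W.toAffine.Equation x y).card ≤ 2 := by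
  classical
  set b : k := W.a₁ * x + W.a₃ with hb
  set c : k := x ^ 3 + W.a₂ * x ^ 2 + W.a₄ * x + W.a₆ with hc
  set P : k[X] := X ^ 2 + C b * X - C c with hP
  have hdeg : P.natDegree = 2 := by
    rw [hP]
    compute_degree!
  have hP0 : P ≠ 0 := by
    intro h0
    rw [h0] at hdeg
    simp at hdeg
  have hsub : (Finset.univ.filter fun y : k => W.toAffine.Equation x y) ⊆ P.roots.toFinset := by
    intro y hy
    rw [Finset.mem_filter] at hy
    have hy2 := (Affine.equation_iff x y).mp hy.2
    rw [Multiset.mem_toFinset, Polynomial.mem_roots hP0, Polynomial.IsRoot.def, hP]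
    simp only [eval_sub, eval_add, eval_pow, eval_X, eval_mul, eval_C]
    rw [hb, hc]
    linear_combination hy2
  calc (Finset.univ.filter fun y : k => W.toAffine.Equation x y).card
      ≤ P.roots.toFinset.card := Finset.card_le_card hsub
    _ ≤ P.roots.card := Multiset.toFinset_card_le _
    _ ≤ P.natDegree := Polynomial.card_roots' P
    _ = 2 := hdeg

open Classical in
/-- The affine solutions of the Weierstrass equation number at most `2 * card k`. -/
theorem card_equation_le :
    (Finset.univ.filter fun xy : k × k => W.toAffine.Equation xy.1 xy.2).card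
      ≤ 2 * Fintype.card k := by
  classical
  set S := Finset.univ.filter fun xy : k × k => W.toAffine.Equation xy.1 xy.2 with hS
  have h1 : S.card = ∑ x ∈ (Finset.univ : Finset k), (S.filter fun xy => xy.1 = x).card :=
    Finset.card_eq_sum_card_fiberwise (f := Prod.fst) (fun _ _ => Finset.mem_univ _)
  rw [h1]
  have h2 : ∀ x ∈ (Finset.univ : Finset k), (S.filter fun xy => xy.1 = x).card ≤ 2 := by
    intro x _
    refine le_trans ?_ (card_filter_equation_le_two W x)
    apply Finset.card_le_card_of_injOn (fun xy => xy.2)
    · intro xy hxy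
      have hxy' := Finset.mem_filter.mp (Finset.mem_coe.mp hxy)
      have hxyS := Finset.mem_filter.mp hxy'.1
      rw [Finset.mem_coe, Finset.mem_filter]
      refine ⟨Finset.mem_univ _, ?_⟩
      rw [← hxy'.2]
      exact hxyS.2
    · intro xy hxy xy' hxy' heq
      have h := (Finset.mem_filter.mp (Finset.mem_coe.mp hxy)).2
      have h' := (Finset.mem_filter.mp (Finset.mem_coe.mp hxy')).2
      exact Prod.ext (h.trans h'.symm) heq
  calc ∑ x ∈ (Finset.univ : Finset k), (S.filter fun xy => xy.1 = x).card
      ≤ ∑ _x ∈ (Finset.univ : Finset k), 2 := Finset.sum_le_sum h2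
    _ = 2 * Fintype.card k := by
        rw [Finset.sum_const, Finset.card_univ, smul_eq_mul, mul_comm]

open Classical in
/-- `#W(k) ≤ 2 * card k + 1`. -/
theorem card_le : W.card ≤ 2 * Fintype.card k + 1 := by
  unfold WeierstrassCurve.card
  set S := Finset.univ.filter fun xy : k × k => W.toAffine.Equation xy.1 xy.2 with hS
  -- inject the points into `Option S`
  let φ : W.toAffine.Point → Option S := fun P =>
    match P with
    | .zero => none
    | .some x y h => Option.some ⟨(x, y), Finset.mem_filter.mpr ⟨Finset.mem_univ _, h.1⟩⟩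
  have hφ : Function.Injective φ := by
    rintro (_ | ⟨x₁, y₁, h₁⟩) (_ | ⟨x₂, y₂, h₂⟩) h
    · rfl
    · simp [φ] at h
    · simp [φ] at h
    · simp only [φ, Option.some.injEq, Subtype.mk.injEq, Prod.mk.injEq] at h
      obtain ⟨rfl, rfl⟩ := h
      rfl
  have h1 : Nat.card W.toAffine.Point ≤ Nat.card (Option S) :=
    Nat.card_le_card_of_injective φ hφ
  have h2 : Nat.card (Option S) = S.card + 1 := by
    rw [Nat.card_eq_fintype_card, Fintype.card_option, Fintype.card_coe]
  have h3 : S.card ≤ 2 * Fintype.card k := card_equation_le W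
  rw [h2] at h1
  omega

/-- `1 ≤ #W(k)` (the point at infinity). -/
theorem one_le_card : 1 ≤ W.card := by
  unfold WeierstrassCurve.card
  exact Nat.one_le_iff_ne_zero.mpr (Nat.card_ne_zero.mpr ⟨⟨0⟩, inferInstance⟩)

/-- **Trivial bound**: `|traceOfFrobenius| ≤ card k`. -/
theorem abs_traceOfFrobenius_le : |W.traceOfFrobenius| ≤ (Fintype.card k : ℤ) := by
  unfold WeierstrassCurve.traceOfFrobenius
  rw [Nat.card_eq_fintype_card]
  have h1 := card_le W
  have h2 := one_le_card W
  rw [abs_le]
  constructor <;> omega

end Bound

/-! ### Frobenius kills the invariant differential -/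

section Frob

variable {k : Type*} [Field k] [Fintype k] {K : Type*} [Field K] [Algebra k K]

/-- The cardinality of a finite field vanishes in every algebra over it. -/
theorem card_cast_eq_zero : ((Fintype.card k : ℕ) : K) = 0 := by
  have h : ((Fintype.card k : ℕ) : k) = 0 := FiniteField.cast_card_eq_zero k
  have h2 := congrArg (algebraMap k K) h
  rwa [map_natCast, map_zero] at h2

/-- A derivation kills `q`-th powers, `q = card k`. -/
theorem D_pow_card (D : Derivation ℤ K K) (z : K) : D (z ^ Fintype.card k) = 0 := by
  rw [Derivation.leibniz_pow, nsmul_eq_mul, card_cast_eq_zero (k := k), zero_mul]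

/-- A derivation kills the image of a finite field. -/
theorem D_algebraMap (D : Derivation ℤ K K) (c : k) : D (algebraMap k K c) = 0 := by
  have h : algebraMap k K c = (algebraMap k K c) ^ Fintype.card k := by
    rw [← map_pow, FiniteField.pow_card]
  rw [h]
  exact D_pow_card (k := k) D _

variable (W : WeierstrassCurve k) (D : Derivation ℤ K K)

/-- The base change of a curve over a finite field has `D`-constant coefficients. -/
theorem isConst_baseChange : IsConst (W⁄K) D where
  a₁ := D_algebraMap D W.a₁
  a₂ := D_algebraMap D W.a₂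
  a₃ := D_algebraMap D W.a₃
  a₄ := D_algebraMap D W.a₄
  a₆ := D_algebraMap D W.a₆

variable [DecidableEq K]

/-- **`delta ∘ Fr = 0`** for every `k`-algebra endomorphism `frob` of `K` which is the
`card k`-power map. -/
theorem delta_map_frob (frob : K →ₐ[k] K) (hfrob : ∀ z, frob z = z ^ Fintype.card k)
    (P : (W⁄K).Point) : delta (W⁄K) D (Point.map (W' := W) frob P) = 0 := by
  rcases P with _ | ⟨x, y, h⟩
  · rfl
  · rw [Point.map_some]
    rw [delta_some_eq_zero_iff (isConst_baseChange W D)]
    exact ⟨by rw [hfrob]; exact D_pow_card (k := k) D x,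
      by rw [hfrob]; exact D_pow_card (k := k) D y⟩

end Frob

/-! ### The endgame over `ZMod p` -/

section Endgame

variable {p : ℕ} [Fact p.Prime] {K : Type*} [Field K] [Algebra (ZMod p) K] [DecidableEq K]
  (W : WeierstrassCurve (ZMod p)) (D : Derivation ℤ K K)

/-- The Frobenius map on points (same definition as `S52/helper7612.frobPt`). -/
noncomputable def frobPt : (W⁄K).Point →+ (W⁄K).Point :=
  Point.map (W' := W) (FiniteField.frobeniusAlgHom (ZMod p) K)

theorem frobPt_apply (P : (W⁄K).Point) :
    frobPt W P = Point.map (W' := W) (FiniteField.frobeniusAlgHom (ZMod p) K) P := rfl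

theorem frobPt_injective : Function.Injective (frobPt (K := K) W) :=
  Point.map_injective (W' := W) (FiniteField.frobeniusAlgHom (ZMod p) K)

theorem delta_frobPt (P : (W⁄K).Point) : delta (W⁄K) D (frobPt W P) = 0 :=
  delta_map_frob W D _ (fun z => by
    rw [FiniteField.coe_frobeniusAlgHom]) P

/-- Cayley–Hamilton for `W` over `K`, the hypothesis supplied by the Frobenius leaves. -/
def CHAt (tau : ℤ) : Prop :=
  ∀ P : (W⁄K).Point, frobPt W (frobPt W P) - tau • frobPt W P + (p : ℤ) • P = 0

variable {W}

/-- The abstract Eichler–Shimura datum of `W` over `K`. -/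
noncomputable def esData {tau : ℤ} (hCH : CHAt (K := K) W tau) :
    ESData (W⁄K).Point K p where
  Fr := frobPt W
  Fr_injective := frobPt_injective W
  tau := tau
  CH := hCH
  delta := deltaHom (isConst_baseChange W D)
  delta_Fr := fun P => by
    rw [deltaHom_apply]
    exact delta_frobPt W D P

omit [DecidableEq K] in
variable (p K) in
/-- A field which is an algebra over `ZMod p` has characteristic `p`. -/
theorem charP_of_algebra : CharP K p :=
  charP_of_injective_algebraMap (algebraMap (ZMod p) K).injective p

/-- **(NT)** Torsion points are killed by the invariant differential. -/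
theorem delta_eq_zero_of_torsion {tau : ℤ} (hCH : CHAt (K := K) W tau) {n : ℤ} (hn : n ≠ 0)
    {Q : (W⁄K).Point} (hQ : n • Q = 0) : delta (W⁄K) D Q = 0 :=
  haveI := charP_of_algebra p K
  (esData D hCH).delta_eq_zero_of_torsion hn hQ

/-- **(ES4)** `delta Q ≠ 0` and the Hecke relation `Fr² Q + p Q = a Fr Q` give `a = tau`. -/
theorem trace_eq_of_hecke {tau : ℤ} (hCH : CHAt (K := K) W tau) {Q : (W⁄K).Point}
    (hδ : delta (W⁄K) D Q ≠ 0) {a : ℤ}
    (hrel : frobPt W (frobPt W Q) + (p : ℤ) • Q = a • frobPt W Q) : a = tau :=
  haveI := charP_of_algebra p K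
  (esData D hCH).trace_eq_of_hecke hδ hrel

/-- **(ES5a)** `delta Q ≠ 0` and the `U_p`-relation `p Q = a Fr Q` force `tau = ±(p + 1)`. -/
theorem eq_or_eq_neg_of_U_relation {tau : ℤ} (hCH : CHAt (K := K) W tau) {Q : (W⁄K).Point}
    (hδ : delta (W⁄K) D Q ≠ 0) {a : ℤ} (hrel : (p : ℤ) • Q = a • frobPt W Q) :
    tau = (p : ℤ) + 1 ∨ tau = -((p : ℤ) + 1) :=
  haveI := charP_of_algebra p K
  (esData D hCH).eq_or_eq_neg_of_U_relation hδ hrel

/-- **(ES5a)**, contradiction form with the point-count trace: if Cayley–Hamilton holds with
`tau = W.traceOfFrobenius`, then the `U_p`-relation `p Q = a Fr Q` cannot hold at a point with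
`delta Q ≠ 0`. -/
theorem false_of_U_relation (hCH : CHAt (K := K) W W.traceOfFrobenius) {Q : (W⁄K).Point}
    (hδ : delta (W⁄K) D Q ≠ 0) {a : ℤ} (hrel : (p : ℤ) • Q = a • frobPt W Q) : False := by
  have hchar := charP_of_algebra p K
  refine (esData D hCH).false_of_U_relation hδ hrel ?_
  have h := abs_traceOfFrobenius_le W
  rwa [ZMod.card] at h

end Endgame

end Fermat.Agent.S58.helper5371
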