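/-
helper5595 — S58-INTDESC (route #1886 step 2, board #935).

RATIONAL / INTEGRAL DESCENT of a ratio of forms.

If a ratio of two forms `A / B` (with `B ≠ 0`) has a q-expansion with RATIONAL coefficients
(`X ^ m * q(A) = u * q(B)` with `u` a rational power series), then the same Laurent series
`X ^ (-m) * u` is a ratio `a / b` of two power series with INTEGER coefficients, `b ≠ 0`
(both q-expansions of integral cusp forms of the same weight and level).

* `coordSeries`               : apply a `ℚ`-linear functional `L → ℚ` coefficientwise.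
* `exists_rat_combination`    : abstract descent `ℂ → ℚ` for finitely many integral series.
* `exists_int_combination`    : the same with integer coefficients (denominators cleared).
* `exists_int_forms`          : the statement for `CuspForm (Gamma0 N) k`, any finite family of
                                numerators over ONE common denominator, hypothesis-passing on
                                `CuspForm.HasIntegralStructure N k`.
* `exists_int_ratio`, `exists_int_ratio₂` : one numerator / two numerators (`X` and `Y`).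
-/
import Mathlib
import Fermat.Prelude.Def_CuspForm_IntegralStructure
import Fermat.Agent.Lib.helper229_HeckeLattice

set_option autoImplicit false

namespace Fermat.Agent.S58.helper5595

open PowerSeries

section Abstract

variable {K L : Type*} [Field K] [Field L] [Algebra K L]

/-- Apply a `K`-linear functional coefficientwise. -/
noncomputable def coordSeries (φ : L →ₗ[K] K) : PowerSeries L →ₗ[K] PowerSeries K where
  toFun f := PowerSeries.mk fun n => φ (PowerSeries.coeff n f)
  map_add' f g := by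
    ext n
    simp
  map_smul' c f := by
    ext n
    simp

@[simp] theorem coeff_coordSeries (φ : L →ₗ[K] K) (f : PowerSeries L) (n : ℕ) :
    PowerSeries.coeff n (coordSeries φ f) = φ (PowerSeries.coeff n f) := by
  simp [coordSeries]

/-- Coefficientwise application of a `K`-linear functional is `K⟦X⟧`-linear. -/
theorem coordSeries_map_mul (φ : L →ₗ[K] K) (g : PowerSeries K) (f : PowerSeries L) :
    coordSeries φ (g.map (algebraMap K L) * f) = g * coordSeries φ f := by
  ext n
  rw [coeff_coordSeries, PowerSeries.coeff_mul, PowerSeries.coeff_mul, map_sum]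
  refine Finset.sum_congr rfl fun p _ => ?_
  rw [PowerSeries.coeff_map, coeff_coordSeries, ← Algebra.smul_def, map_smul, smul_eq_mul]

theorem coordSeries_smul_map (φ : L →ₗ[K] K) (a : L) (g : PowerSeries K) :
    coordSeries φ (a • g.map (algebraMap K L)) = φ a • g := by
  ext n
  rw [coeff_coordSeries, PowerSeries.coeff_smul, PowerSeries.coeff_smul, PowerSeries.coeff_map,
    smul_eq_mul, smul_eq_mul, mul_comm, ← Algebra.smul_def, map_smul, smul_eq_mul, mul_comm]

/-- Abstract descent: if an `L`-linear combination of (base-changed) `K`-series satisfies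
`X ^ m * (numerator) = u * (denominator)` with a nonzero denominator, then so does a `K`-linear
combination of the same series. Any family `J` of numerators over one common denominator. -/
theorem exists_rat_combination {ι J : Type*} [Fintype ι] (g : ι → PowerSeries K)
    (α : J → ι → L) (β : ι → L) (m : J → ℕ) (u : J → PowerSeries K)
    (h : ∀ j, (PowerSeries.X : PowerSeries L) ^ (m j) * ∑ i, α j i • (g i).map (algebraMap K L) =
      (u j).map (algebraMap K L) * ∑ i, β i • (g i).map (algebraMap K L))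
    (hβ : ∑ i, β i • (g i).map (algebraMap K L) ≠ 0) :
    ∃ (α' : J → ι → K) (β' : ι → K),
      (∀ j, (PowerSeries.X : PowerSeries K) ^ (m j) * ∑ i, α' j i • g i =
        u j * ∑ i, β' i • g i) ∧ ∑ i, β' i • g i ≠ 0 := by
  classical
  -- a nonzero coefficient of the denominator
  obtain ⟨n₀, hn₀⟩ : ∃ n₀, PowerSeries.coeff n₀ (∑ i, β i • (g i).map (algebraMap K L)) ≠ 0 := by
    by_contra hcon
    push Not at hcon
    exact hβ (PowerSeries.ext fun n => by simpa using hcon n)
  -- a coordinate functional not killing it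
  let bs := Module.Basis.ofVectorSpace K L
  obtain ⟨s, hs⟩ : ∃ s, bs.repr (PowerSeries.coeff n₀ (∑ i, β i • (g i).map (algebraMap K L))) s
      ≠ 0 := by
    by_contra hcon
    push Not at hcon
    apply hn₀
    apply bs.repr.injective
    ext s
    simpa using hcon s
  let φ : L →ₗ[K] K := bs.coord s
  have key : ∀ γ : ι → L, coordSeries φ (∑ i, γ i • (g i).map (algebraMap K L)) =
      ∑ i, φ (γ i) • g i := by
    intro γ
    rw [map_sum]
    exact Finset.sum_congr rfl fun i _ => coordSeries_smul_map φ (γ i) (g i)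
  refine ⟨fun j i => φ (α j i), fun i => φ (β i), fun j => ?_, ?_⟩
  · have h1 := congrArg (coordSeries φ) (h j)
    have hX : (PowerSeries.X : PowerSeries L) ^ (m j) =
        ((PowerSeries.X : PowerSeries K) ^ (m j)).map (algebraMap K L) := by
      rw [map_pow, PowerSeries.map_X]
    rw [hX, coordSeries_map_mul, coordSeries_map_mul, key, key] at h1
    exact h1
  · intro h0
    apply hs
    have h2 := key β
    rw [h0] at h2
    have h3 := congrArg (PowerSeries.coeff n₀) h2
    rw [coeff_coordSeries] at h3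
    simpa [φ] using h3

end Abstract

section Integer

/-- Integer version of `exists_rat_combination` for `ℚ ⊆ ℂ`: finitely many numerators over one
common denominator; the denominators of the rational solution are cleared. -/
theorem exists_int_combination {ι J : Type*} [Fintype ι] [Finite J] (b : ι → PowerSeries ℤ)
    (α : J → ι → ℂ) (β : ι → ℂ) (m : J → ℕ) (u : J → PowerSeries ℚ)
    (h : ∀ j, (PowerSeries.X : PowerSeries ℂ) ^ (m j) *
        ∑ i, α j i • (b i).map (Int.castRingHom ℂ) =
      (u j).map (algebraMap ℚ ℂ) * ∑ i, β i • (b i).map (Int.castRingHom ℂ))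
    (hβ : ∑ i, β i • (b i).map (Int.castRingHom ℂ) ≠ 0) :
    ∃ (α' : J → ι → ℤ) (β' : ι → ℤ),
      (∀ j, (PowerSeries.X : PowerSeries ℚ) ^ (m j) *
          (∑ i, α' j i • b i).map (Int.castRingHom ℚ) =
        u j * (∑ i, β' i • b i).map (Int.castRingHom ℚ)) ∧ ∑ i, β' i • b i ≠ 0 := by
  classical
  have hmap : ∀ i, ((b i).map (Int.castRingHom ℚ)).map (algebraMap ℚ ℂ) =
      (b i).map (Int.castRingHom ℂ) := by
    intro i
    ext n
    simp
  obtain ⟨α₁, β₁, h₁, hβ₁⟩ := exists_rat_combination (K := ℚ) (L := ℂ)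
    (fun i => (b i).map (Int.castRingHom ℚ)) α β m u
    (by simpa only [hmap] using h) (by simpa only [hmap] using hβ)
  -- common denominator
  obtain ⟨D, hD⟩ := IsLocalization.exist_integer_multiples_of_finite (nonZeroDivisors ℤ)
    (S := ℚ) (fun x : (J × ι) ⊕ ι => Sum.elim (fun p : J × ι => α₁ p.1 p.2) β₁ x)
  have hD0 : ((D : ℤ) : ℚ) ≠ 0 := by
    exact_mod_cast nonZeroDivisors.ne_zero D.2
  choose z hz using hD
  have hzα : ∀ j i, ((z (Sum.inl (j, i)) : ℤ) : ℚ) = (D : ℤ) * α₁ j i := by
    intro j i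
    have := hz (Sum.inl (j, i))
    simpa [Algebra.smul_def] using this
  have hzβ : ∀ i, ((z (Sum.inr i) : ℤ) : ℚ) = (D : ℤ) * β₁ i := by
    intro i
    have := hz (Sum.inr i)
    simpa [Algebra.smul_def] using this
  have hsum : ∀ (c : ι → ℤ) (c₁ : ι → ℚ), (∀ i, ((c i : ℤ) : ℚ) = (D : ℤ) * c₁ i) →
      (∑ i, c i • b i).map (Int.castRingHom ℚ) =
        PowerSeries.C (((D : ℤ) : ℚ)) * ∑ i, c₁ i • (b i).map (Int.castRingHom ℚ) := by
    intro c c₁ hc
    rw [map_sum, Finset.mul_sum]
    refine Finset.sum_congr rfl fun i _ => ?_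
    rw [map_zsmul, zsmul_eq_mul, PowerSeries.smul_eq_C_mul, ← mul_assoc, ← map_mul, ← hc i,
      map_intCast]
  refine ⟨fun j i => z (Sum.inl (j, i)), fun i => z (Sum.inr i), fun j => ?_, ?_⟩
  · rw [hsum _ _ (hzα j), hsum _ _ hzβ]
    calc (PowerSeries.X : PowerSeries ℚ) ^ (m j) *
          (PowerSeries.C (((D : ℤ) : ℚ)) * ∑ i, α₁ j i • (b i).map (Int.castRingHom ℚ))
        = PowerSeries.C (((D : ℤ) : ℚ)) * ((PowerSeries.X : PowerSeries ℚ) ^ (m j) *
          ∑ i, α₁ j i • (b i).map (Int.castRingHom ℚ)) := by ring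
      _ = PowerSeries.C (((D : ℤ) : ℚ)) * (u j * ∑ i, β₁ i • (b i).map (Int.castRingHom ℚ)) := by
          rw [h₁ j]
      _ = u j * (PowerSeries.C (((D : ℤ) : ℚ)) * ∑ i, β₁ i • (b i).map (Int.castRingHom ℚ)) := by
          ring
  · intro h0
    have h1 := hsum _ _ hzβ
    rw [h0, map_zero] at h1
    rcases mul_eq_zero.mp h1.symm with h2 | h2
    · exact hD0 (PowerSeries.C_injective (by rw [h2, map_zero]))
    · exact hβ₁ h2

end Integer

section Forms

open ModularFormClass CongruenceSubgroup UpperHalfPlane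
open Fermat.Agent.Lib.helper229

variable {N : ℕ} {k : ℤ}

/-- A cusp form with integer q-coefficients has an integer q-expansion series. -/
theorem exists_intSeries {f : CuspForm (Gamma0 N) k} (hf : IntQ f) :
    ∃ a : PowerSeries ℤ, a.map (Int.castRingHom ℂ) = qExpansion 1 f := by
  choose z hz using hf
  refine ⟨PowerSeries.mk z, ?_⟩
  ext n
  have := hz n
  simp only [qCoeff] at this
  simp [this]

/-- q-expansion of a `ℂ`-linear combination. -/
theorem qExpansion_sum_smul {ι : Type*} [Fintype ι] (c : ι → ℂ)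
    (f : ι → CuspForm (Gamma0 N) k) :
    qExpansion 1 (⇑(∑ i, c i • f i)) = ∑ i, c i • qExpansion 1 (⇑(f i)) := by
  ext n
  have h1 : PowerSeries.coeff n (qExpansion 1 (⇑(∑ i, c i • f i))) =
      qCoeffLin N k n (∑ i, c i • f i) := rfl
  rw [h1, map_sum, map_sum]
  refine Finset.sum_congr rfl fun i _ => ?_
  rw [map_smul, PowerSeries.coeff_smul]
  rfl

/-- q-expansion of a `ℤ`-linear combination. -/
theorem qExpansion_sum_zsmul {ι : Type*} [Fintype ι] (c : ι → ℤ)
    (f : ι → CuspForm (Gamma0 N) k) :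
    qExpansion 1 (⇑(∑ i, c i • f i)) = ∑ i, c i • qExpansion 1 (⇑(f i)) := by
  ext n
  have h1 : PowerSeries.coeff n (qExpansion 1 (⇑(∑ i, c i • f i))) =
      qCoeffLin N k n (∑ i, c i • f i) := rfl
  rw [h1, map_sum, map_sum]
  refine Finset.sum_congr rfl fun i _ => ?_
  rw [map_zsmul, map_zsmul]
  rfl

theorem qExpansion_ne_zero {B : CuspForm (Gamma0 N) k} (hB : B ≠ 0) :
    qExpansion 1 (⇑B) ≠ 0 := by
  intro h0
  apply hB
  apply eq_zero_of_forall_qCoeff_eq_zero
  intro n
  simp [qCoeff, h0]

/-- **Integral descent for cusp forms of level `Γ₀(N)`.** Finitely many numerators `A j` over one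
common denominator `B ≠ 0`, with `X ^ (m j) * q(A j) = u j * q(B)` for rational power series
`u j`: then there are cusp forms `A' j`, `B' ≠ 0` with INTEGER q-expansions `a j`, `b` satisfying
the same identities. -/
theorem exists_int_forms [NeZero N] (hint : CuspForm.HasIntegralStructure N k) {J : Type*}
    [Finite J]
    (A : J → CuspForm (Gamma0 N) k) (B : CuspForm (Gamma0 N) k) (hB : B ≠ 0)
    (m : J → ℕ) (u : J → PowerSeries ℚ)
    (h : ∀ j, (PowerSeries.X : PowerSeries ℂ) ^ (m j) * qExpansion 1 (⇑(A j)) =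
      (u j).map (algebraMap ℚ ℂ) * qExpansion 1 (⇑B)) :
    ∃ (A' : J → CuspForm (Gamma0 N) k) (B' : CuspForm (Gamma0 N) k)
      (a : J → PowerSeries ℤ) (b : PowerSeries ℤ),
      B' ≠ 0 ∧ b ≠ 0 ∧
      (∀ j, qExpansion 1 (⇑(A' j)) = (a j).map (Int.castRingHom ℂ)) ∧
      qExpansion 1 (⇑B') = b.map (Int.castRingHom ℂ) ∧
      (∀ j, (PowerSeries.X : PowerSeries ℚ) ^ (m j) * (a j).map (Int.castRingHom ℚ) =
        u j * b.map (Int.castRingHom ℚ)) := by
  classical
  obtain ⟨F, hFZ, hFC⟩ := exists_finset_span_of_hasIntegralStructure hint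
  have hFint : ∀ i : ↥F, IntQ (i : CuspForm (Gamma0 N) k) := fun i =>
    intQ_of_mem_intLattice (hFZ ▸ Submodule.subset_span i.2)
  choose bser hbser using fun i : ↥F => exists_intSeries (hFint i)
  -- every form is a `ℂ`-combination of the elements of `F`
  have hcomb : ∀ G : CuspForm (Gamma0 N) k, ∃ c : ↥F → ℂ,
      G = ∑ i : ↥F, c i • (i : CuspForm (Gamma0 N) k) := by
    intro G
    have hG : G ∈ Submodule.span ℂ (F : Set (CuspForm (Gamma0 N) k)) := by
      rw [hFC]; exact Submodule.mem_top
    obtain ⟨c, -, hc⟩ := Submodule.mem_span_finset.mp hG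
    refine ⟨fun i => c i, ?_⟩
    rw [← hc]
    exact (Finset.sum_coe_sort F fun x => c x • x).symm
  have hqexp : ∀ c : ↥F → ℂ,
      qExpansion 1 (⇑(∑ i : ↥F, c i • (i : CuspForm (Gamma0 N) k))) =
        ∑ i, c i • (bser i).map (Int.castRingHom ℂ) := by
    intro c
    rw [qExpansion_sum_smul]
    exact Finset.sum_congr rfl fun i _ => by rw [hbser i]
  choose cA hcA using fun j => hcomb (A j)
  obtain ⟨cB, hcB⟩ := hcomb B
  have hβ : ∑ i, cB i • (bser i).map (Int.castRingHom ℂ) ≠ 0 := by
    rw [← hqexp cB, ← hcB]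
    exact qExpansion_ne_zero hB
  have h' : ∀ j, (PowerSeries.X : PowerSeries ℂ) ^ (m j) *
        ∑ i, cA j i • (bser i).map (Int.castRingHom ℂ) =
      (u j).map (algebraMap ℚ ℂ) * ∑ i, cB i • (bser i).map (Int.castRingHom ℂ) := by
    intro j
    rw [← hqexp (cA j), ← hqexp cB, ← hcA j, ← hcB]
    exact h j
  obtain ⟨α', β', hid, hne⟩ := exists_int_combination bser cA cB m u h' hβ
  have hqexpZ : ∀ c : ↥F → ℤ,
      qExpansion 1 (⇑(∑ i : ↥F, c i • (i : CuspForm (Gamma0 N) k))) =
        (∑ i, c i • bser i).map (Int.castRingHom ℂ) := by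
    intro c
    rw [qExpansion_sum_zsmul, map_sum]
    exact Finset.sum_congr rfl fun i _ => by rw [map_zsmul, hbser i]
  refine ⟨fun j => ∑ i : ↥F, α' j i • (i : CuspForm (Gamma0 N) k),
    ∑ i : ↥F, β' i • (i : CuspForm (Gamma0 N) k),
    fun j => ∑ i, α' j i • bser i, ∑ i, β' i • bser i, ?_, hne, fun j => hqexpZ _, hqexpZ _, hid⟩
  intro h0
  have h1 := hqexpZ β'
  rw [h0] at h1
  have h2 : (∑ i, β' i • bser i).map (Int.castRingHom ℂ) = 0 := by
    rw [← h1]
    ext n
    have := (qCoeffLin N k n).map_zero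
    simpa [qCoeff] using this
  apply hne
  ext n
  have h3 := congrArg (PowerSeries.coeff n) h2
  rw [PowerSeries.coeff_map, map_zero, eq_intCast, Int.cast_eq_zero] at h3
  rw [h3, map_zero]

/-- One numerator: if `X ^ m * q(A) = u * q(B)` with `B ≠ 0` and `u` rational, then
`X ^ m * a = u * b` for integer power series `a`, `b ≠ 0` (q-expansions of integral cusp forms of
the same weight and level). -/
theorem exists_int_ratio [NeZero N] (hint : CuspForm.HasIntegralStructure N k)
    (A B : CuspForm (Gamma0 N) k) (hB : B ≠ 0) (m : ℕ) (u : PowerSeries ℚ)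
    (h : (PowerSeries.X : PowerSeries ℂ) ^ m * qExpansion 1 (⇑A) =
      u.map (algebraMap ℚ ℂ) * qExpansion 1 (⇑B)) :
    ∃ (A' B' : CuspForm (Gamma0 N) k) (a b : PowerSeries ℤ), B' ≠ 0 ∧ b ≠ 0 ∧
      qExpansion 1 (⇑A') = a.map (Int.castRingHom ℂ) ∧
      qExpansion 1 (⇑B') = b.map (Int.castRingHom ℂ) ∧
      (PowerSeries.X : PowerSeries ℚ) ^ m * a.map (Int.castRingHom ℚ) =
        u * b.map (Int.castRingHom ℚ) := by
  obtain ⟨A', B', a, b, hB', hb, hA', hqB', hid⟩ := exists_int_forms hint (J := Unit)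
    (fun _ => A) B hB (fun _ => m) (fun _ => u) (fun _ => h)
  exact ⟨A' (), B', a (), b, hB', hb, hA' (), hqB', hid ()⟩

/-- Two numerators over one common denominator (the coordinates `X`, `Y` of a point). -/
theorem exists_int_ratio₂ [NeZero N] (hint : CuspForm.HasIntegralStructure N k)
    (A₁ A₂ B : CuspForm (Gamma0 N) k) (hB : B ≠ 0) (m₁ m₂ : ℕ) (u₁ u₂ : PowerSeries ℚ)
    (h₁ : (PowerSeries.X : PowerSeries ℂ) ^ m₁ * qExpansion 1 (⇑A₁) =
      u₁.map (algebraMap ℚ ℂ) * qExpansion 1 (⇑B))
    (h₂ : (PowerSeries.X : PowerSeries ℂ) ^ m₂ * qExpansion 1 (⇑A₂) =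
      u₂.map (algebraMap ℚ ℂ) * qExpansion 1 (⇑B)) :
    ∃ (A₁' A₂' B' : CuspForm (Gamma0 N) k) (a₁ a₂ b : PowerSeries ℤ), B' ≠ 0 ∧ b ≠ 0 ∧
      qExpansion 1 (⇑A₁') = a₁.map (Int.castRingHom ℂ) ∧
      qExpansion 1 (⇑A₂') = a₂.map (Int.castRingHom ℂ) ∧
      qExpansion 1 (⇑B') = b.map (Int.castRingHom ℂ) ∧
      (PowerSeries.X : PowerSeries ℚ) ^ m₁ * a₁.map (Int.castRingHom ℚ) =
        u₁ * b.map (Int.castRingHom ℚ) ∧
      (PowerSeries.X : PowerSeries ℚ) ^ m₂ * a₂.map (Int.castRingHom ℚ) =
        u₂ * b.map (Int.castRingHom ℚ) := by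
  obtain ⟨A', B', a, b, hB', hb, hA', hqB', hid⟩ := exists_int_forms hint (J := Bool)
    (fun j => if j then A₁ else A₂) B hB (fun j => if j then m₁ else m₂)
    (fun j => if j then u₁ else u₂) (fun j => by cases j <;> simpa)
  exact ⟨A' true, A' false, B', a true, a false, b, hB', hb, hA' true, hA' false, hqB',
    by simpa using hid true, by simpa using hid false⟩

end Forms

end Fermat.Agent.S58.helper5595
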