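/-
helper5595 — S58-INTDESC adapters (board #935).

* unconditional versions of `helper5595.exists_int_forms` (the all-weights integral structure of
  cusp forms is the landed `S23.helper23.hasIntegralStructure`);
* LaurentSeries form in Prelude vocabulary (`ModularCurve.coeffMap`);
* denominator of LEVEL ONE.
-/
import Mathlib
import Fermat.Prelude.Def_ModularCurve_LaurentCoeff
import Fermat.Agent.S23.helper23_Final
import Fermat.Agent.S58.helper5595_IntDescent

set_option autoImplicit false

namespace Fermat.Agent.S58.helper5595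

open PowerSeries ModularFormClass CongruenceSubgroup UpperHalfPlane
open scoped MatrixGroups

section Laurent

variable {R : Type*} [Field R]

/-- Every Laurent series becomes a power series after multiplication by a power of `X`. -/
theorem exists_pow_mul_eq_powerSeries (x : LaurentSeries R) :
    ∃ (m : ℕ) (u : PowerSeries R),
      HahnSeries.ofPowerSeries ℤ R ((PowerSeries.X : PowerSeries R) ^ m) * x =
        HahnSeries.ofPowerSeries ℤ R u := by
  obtain ⟨m, h0⟩ : ∃ m : ℕ, 0 ≤ (m : ℤ) + x.order :=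
    ⟨(-x.order).toNat, by have := Int.self_le_toNat (-x.order); omega⟩
  refine ⟨m, (PowerSeries.X : PowerSeries R) ^ ((m : ℤ) + x.order).toNat * x.powerSeriesPart, ?_⟩
  conv_lhs => rw [← x.single_order_mul_powerSeriesPart]
  rw [map_mul, HahnSeries.ofPowerSeries_X_pow, HahnSeries.ofPowerSeries_X_pow, ← mul_assoc,
    HahnSeries.single_mul_single, mul_one, Int.toNat_of_nonneg h0]

theorem coeffMap_ofPowerSeries {S : Type*} [Field S] (f : R →+* S) (u : PowerSeries R) :
    ModularCurve.coeffMap f (HahnSeries.ofPowerSeries ℤ R u) =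
      HahnSeries.ofPowerSeries ℤ S (u.map f) := by
  ext i
  rw [ModularCurve.coeffMap_coeff]
  have h1 := PowerSeries.coeff_coe (R := R) u i
  have h2 := PowerSeries.coeff_coe (R := S) (u.map f) i
  rw [h1, h2]
  split_ifs
  · simp
  · simp

end Laurent

section Forms

variable {N : ℕ} [NeZero N] {k : ℤ}

/-- Unconditional form of `exists_int_forms` (all weights, all levels). -/
theorem exists_int_forms' {J : Type*} [Finite J]
    (A : J → CuspForm (Gamma0 N) k) (B : CuspForm (Gamma0 N) k) (hB : B ≠ 0)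
    (m : J → ℕ) (u : J → PowerSeries ℚ)
    (h : ∀ j, (PowerSeries.X : PowerSeries ℂ) ^ (m j) * qExpansion 1 (⇑(A j)) =
      (u j).map (algebraMap ℚ ℂ) * qExpansion 1 (⇑B)) :
    ∃ (A' : J → CuspForm (Gamma0 N) k) (B' : CuspForm (Gamma0 N) k)
      (a : J → PowerSeries ℤ) (b : PowerSeries ℤ),
      B' ≠ 0 ∧ b ≠ 0 ∧
      (∀ j, qExpansion 1 (⇑(A' j)) = (a j).map (Int.castRingHom ℂ)) ∧
      qExpansion 1 (⇑B') = b.map (Int.castRingHom ℂ) ∧
      (∀ j, (PowerSeries.X : PowerSeries ℚ) ^ (m j) * (a j).map (Int.castRingHom ℚ) =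
        u j * b.map (Int.castRingHom ℚ)) :=
  exists_int_forms (Fermat.Agent.S23.helper23.hasIntegralStructure N k) A B hB m u h

/-- **LaurentSeries form** (Prelude vocabulary). Finitely many numerators `A j` over one common
denominator `B ≠ 0` whose quotients have q-expansions `x j` with RATIONAL coefficients:
then `x j = a j / b` with `a j`, `b ≠ 0` integer power series (q-expansions of integral cusp
forms `A' j`, `B'` of the same weight and level). -/
theorem exists_int_laurent {J : Type*} [Finite J]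
    (A : J → CuspForm (Gamma0 N) k) (B : CuspForm (Gamma0 N) k) (hB : B ≠ 0)
    (x : J → LaurentSeries ℚ)
    (h : ∀ j, HahnSeries.ofPowerSeries ℤ ℂ (qExpansion 1 (⇑(A j))) =
      ModularCurve.coeffMap (algebraMap ℚ ℂ) (x j) *
        HahnSeries.ofPowerSeries ℤ ℂ (qExpansion 1 (⇑B))) :
    ∃ (A' : J → CuspForm (Gamma0 N) k) (B' : CuspForm (Gamma0 N) k)
      (a : J → PowerSeries ℤ) (b : PowerSeries ℤ),
      B' ≠ 0 ∧ b ≠ 0 ∧
      (∀ j, qExpansion 1 (⇑(A' j)) = (a j).map (Int.castRingHom ℂ)) ∧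
      qExpansion 1 (⇑B') = b.map (Int.castRingHom ℂ) ∧
      (∀ j, HahnSeries.ofPowerSeries ℤ ℚ ((a j).map (Int.castRingHom ℚ)) =
        x j * HahnSeries.ofPowerSeries ℤ ℚ (b.map (Int.castRingHom ℚ))) := by
  choose m u hmu using fun j => exists_pow_mul_eq_powerSeries (x j)
  have h' : ∀ j, (PowerSeries.X : PowerSeries ℂ) ^ (m j) * qExpansion 1 (⇑(A j)) =
      (u j).map (algebraMap ℚ ℂ) * qExpansion 1 (⇑B) := by
    intro j
    apply HahnSeries.ofPowerSeries_injective (Γ := ℤ) (R := ℂ)
    have hX : HahnSeries.ofPowerSeries ℤ ℂ ((PowerSeries.X : PowerSeries ℂ) ^ (m j)) =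
        ModularCurve.coeffMap (algebraMap ℚ ℂ)
          (HahnSeries.ofPowerSeries ℤ ℚ ((PowerSeries.X : PowerSeries ℚ) ^ (m j))) := by
      rw [coeffMap_ofPowerSeries]
      congr 1
      rw [map_pow, PowerSeries.map_X]
    rw [map_mul, map_mul, h j, ← mul_assoc, hX, ← map_mul, hmu j, coeffMap_ofPowerSeries]
  obtain ⟨A', B', a, b, hB', hb, hA', hqB', hid⟩ := exists_int_forms' A B hB m u h'
  refine ⟨A', B', a, b, hB', hb, hA', hqB', fun j => ?_⟩
  have h1 := congrArg (HahnSeries.ofPowerSeries ℤ ℚ) (hid j)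
  rw [map_mul, map_mul, ← hmu j, mul_assoc] at h1
  refine mul_left_cancel₀ ?_ h1
  rw [HahnSeries.ofPowerSeries_X_pow]
  exact HahnSeries.single_ne_zero one_ne_zero

end Forms

section LevelOne

variable (N : ℕ) {k : ℤ}

/-- A level-one cusp form, viewed as a cusp form of level `Γ₀(N)` (same function). -/
def ofLevelOne (B : CuspForm 𝒮ℒ k) : CuspForm (Gamma0 N) k where
  toFun := B
  slash_action_eq' γ hγ := B.slash_action_eq' γ (Subgroup.map_le_range _ _ hγ)
  holo' := B.holo'
  zero_at_cusps' hc := B.zero_at_cusps' (hc.mono (Subgroup.map_le_range _ _))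

@[simp] theorem coe_ofLevelOne (B : CuspForm 𝒮ℒ k) : ⇑(ofLevelOne N B) = ⇑B := rfl

theorem ofLevelOne_ne_zero {B : CuspForm 𝒮ℒ k} (hB : B ≠ 0) : ofLevelOne N B ≠ 0 := by
  intro h0
  apply hB
  apply DFunLike.coe_injective
  have := congrArg (fun f : CuspForm (Gamma0 N) k => (⇑f : ℍ → ℂ)) h0
  simpa using this

end LevelOne

end Fermat.Agent.S58.helper5595
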