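import Mathlib
import Fermat.Agent.S31.helper8458_TraceKernel

/-!
# Irreducible + odd ⟹ absolutely irreducible, for a representation known through quadratics
(helper6156)

Setting.  `G` a group, `p` an odd prime, `V` a `ZMod p`-plane (`#V = p²`) with an additive
`G`-action which is irreducible.  `K` a field of characteristic `p`, `U` a `K`-plane,
`R : G →* End_K U`.  Assume that for every `σ` there are integers `s, d` such that `σ` kills
`X² - s X + d` on `V`, and `tr R(σ) = s`, `det R(σ) = d` in `K` (this is what generator-Chebotarev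
gives for `V = E[p]` and `R` the reduction of a `p`-adic representation with the Frobenius
characteristic polynomials of `E`).  Assume `c ∈ G`, `c² = 1`, `det R(c) = -1`.

Then `R` is irreducible (`absIrr_of_quad`).  Proof: if `L = K u` is a stable line, `G` acts on it
by a character `ψ`; `H = ker ψ ∩ ker (det ∘ R)` is normal, contains the commutators, and acts
unipotently on `V` (its elements have `tr = 2`, `det = 1`), hence trivially by irreducibility
(`commute_of_unipotent_normal`); so the action of `G` on `V` is commutative, `c` acts on `V` as a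
scalar `ε = ±1`, and comparing the quadratics of `σ` and `σ c` shows that every `σ` acts on `V`
as a scalar (`false_of_commute`) — contradicting irreducibility.
-/

set_option autoImplicit false

namespace Fermat.Agent.S58.helper6156

section AbsIrr

variable {G : Type*} [Group G] {p : ℕ}
  {V : Type*} [AddCommGroup V] [Module (ZMod p) V] [DistribMulAction G V]

/-- An additive group action commutes with `ZMod p`-scalars. -/
theorem smul_zmod_smul (σ : G) (a : ZMod p) (v : V) : σ • (a • v) = a • σ • v :=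
  ZMod.map_smul (DistribSMul.toAddMonoidHom V σ) a v

variable [Fact p.Prime]

omit [AddCommGroup V] [Module (ZMod p) V] [DistribMulAction G V] in
theorem finite_of_card_sq (hcard : Nat.card V = p ^ 2) : Finite V :=
  Nat.finite_of_card_ne_zero (by rw [hcard]; exact pow_ne_zero 2 (Fact.out : p.Prime).ne_zero)

theorem finrank_eq_two_of_card (hcard : Nat.card V = p ^ 2) : Module.finrank (ZMod p) V = 2 := by
  have hp : p.Prime := Fact.out
  have : Finite V := finite_of_card_sq hcard
  have h := Module.natCard_eq_pow_finrank (K := ZMod p) (V := V)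
  rw [hcard, Nat.card_zmod] at h
  exact (Nat.pow_right_injective hp.two_le h).symm

/-- In a plane, a proper subspace containing a non-zero vector `x` consists of multiples of
`x`. -/
theorem exists_smul_eq_of_mem_proper (hcard : Nat.card V = p ^ 2) (F : Submodule (ZMod p) V)
    (hF : F ≠ ⊤) {x y : V} (hx : x ∈ F) (hx0 : x ≠ 0) (hy : y ∈ F) : ∃ a : ZMod p, a • x = y := by
  have : Finite V := finite_of_card_sq hcard
  have h2 := finrank_eq_two_of_card hcard
  have hlt : Module.finrank (ZMod p) F < 2 := by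
    rw [← h2]
    exact Submodule.finrank_lt hF
  have hx' : (⟨x, hx⟩ : F) ≠ 0 := fun h => hx0 (congrArg Subtype.val h)
  have hpos : 0 < Module.finrank (ZMod p) F := Module.finrank_pos_iff_exists_ne_zero.mpr ⟨_, hx'⟩
  have h1 : Module.finrank (ZMod p) F = 1 := by omega
  obtain ⟨a, ha⟩ := (finrank_eq_one_iff_of_nonzero' (⟨x, hx⟩ : F) hx').mp h1 ⟨y, hy⟩
  exact ⟨a, congrArg Subtype.val ha⟩

variable (hcard : Nat.card V = p ^ 2)
  (hirr : ∀ N : Submodule (ZMod p) V, (∀ σ : G, ∀ x ∈ N, σ • x ∈ N) → N = ⊥ ∨ N = ⊤)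

include hcard hirr

/-- **Lemma A.**  A normal subgroup acting unipotently on an irreducible plane acts trivially;
if it contains the commutators, the action of `G` on `V` is commutative. -/
theorem commute_of_unipotent_normal (H : Subgroup G) [H.Normal]
    (hH1 : ∀ σ ∈ H, ∀ v : V, σ • (σ • v - v) = σ • v - v)
    (hH2 : ∀ σ τ : G, σ * τ * σ⁻¹ * τ⁻¹ ∈ H) (σ τ : G) (v : V) : σ • τ • v = τ • σ • v := by
  have : Finite V := finite_of_card_sq hcard
  -- the fixed space of `H`
  let F : Submodule (ZMod p) V :=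
    { carrier := {v | ∀ σ ∈ H, σ • v = v}
      add_mem' := fun {a b} ha hb σ hσ => by rw [smul_add, ha σ hσ, hb σ hσ]
      zero_mem' := fun σ _ => smul_zero σ
      smul_mem' := fun a v hv σ hσ => by rw [smul_zmod_smul, hv σ hσ] }
  have hFstab : ∀ g : G, ∀ x ∈ F, g • x ∈ F := by
    intro g x hx σ hσ
    have h1 : g⁻¹ * σ * g ∈ H := by
      have := (inferInstance : H.Normal).conj_mem σ hσ g⁻¹
      rwa [inv_inv] at this
    have h2 := hx _ h1
    rw [mul_smul, mul_smul, inv_smul_eq_iff] at h2
    exact h2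
  have htriv : ∀ σ ∈ H, ∀ v : V, σ • v = v := by
    by_cases hall : ∀ σ ∈ H, ∀ v : V, σ • v = v
    · exact hall
    · push Not at hall
      obtain ⟨σ₀, hσ₀, v₀, hv₀⟩ := hall
      set x : V := σ₀ • v₀ - v₀ with hx
      have hx0 : x ≠ 0 := fun h => hv₀ (sub_eq_zero.mp h)
      have hσ₀x : σ₀ • x = x := hH1 σ₀ hσ₀ v₀
      -- the fixed space of `σ₀`
      let F₀ : Submodule (ZMod p) V :=
        { carrier := {v | σ₀ • v = v}
          add_mem' := fun {a b} ha hb => by
            show σ₀ • (a + b) = a + b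
            rw [smul_add, ha, hb]
          zero_mem' := smul_zero σ₀
          smul_mem' := fun a v hv => by
            show σ₀ • (a • v) = a • v
            rw [smul_zmod_smul, hv] }
      have hF₀ : F₀ ≠ ⊤ := by
        intro h
        have : v₀ ∈ F₀ := by rw [h]; exact Submodule.mem_top
        exact hv₀ this
      have hxF : x ∈ F := by
        intro τ hτ
        set y : V := τ • x - x with hy
        have h1 : τ • y = y := hH1 τ hτ x
        have h2 : (τ * σ₀) • ((τ * σ₀) • x - x) = (τ * σ₀) • x - x :=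
          hH1 (τ * σ₀) (H.mul_mem hτ hσ₀) x
        have h3 : (τ * σ₀) • x = τ • x := by rw [mul_smul, hσ₀x]
        rw [h3, ← hy, mul_smul] at h2
        have h4 : σ₀ • y = y := by
          have h5 : σ₀ • y = τ⁻¹ • y := by rw [eq_inv_smul_iff]; exact h2
          rw [h5, inv_smul_eq_iff, h1]
        obtain ⟨a, ha⟩ := exists_smul_eq_of_mem_proper hcard F₀ hF₀ (x := x) (y := y) hσ₀x hx0 h4
        have h6 : τ • x = x + a • x := by rw [ha, hy]; abel
        have h7 : (a * a) • x = 0 := by
          have h8 : τ • (a • x) = a • x := by rw [ha]; exact h1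
          rw [smul_zmod_smul, h6, smul_add, smul_smul] at h8
          exact add_eq_left.mp h8
        have ha0 : a = 0 := by
          rcases smul_eq_zero.mp h7 with h9 | h9
          · exact mul_self_eq_zero.mp h9
          · exact absurd h9 hx0
        rw [ha0, zero_smul] at ha
        exact sub_eq_zero.mp ha.symm
      rcases hirr F hFstab with hF | hF
      · exfalso
        rw [hF, Submodule.mem_bot] at hxF
        exact hx0 hxF
      · intro σ hσ v
        have : v ∈ F := by rw [hF]; exact Submodule.mem_top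
        exact this σ hσ
  have h := htriv _ (hH2 σ τ) (τ • σ • v)
  rw [mul_smul, mul_smul, mul_smul, inv_smul_smul, inv_smul_smul] at h
  exact h

/-- **Lemma B.**  If the action on an irreducible plane is commutative, `c² = 1`, and for every
`σ` the elements `σ` and `σ c` kill quadratics with opposite non-zero constant terms, we have a
contradiction (`p` odd). -/
theorem false_of_commute (hp2 : p ≠ 2)
    (hcomm : ∀ (σ τ : G) (v : V), σ • τ • v = τ • σ • v) (c : G) (hc : c * c = 1)
    (hq : ∀ σ : G, ∃ s d s' d' : ZMod p, (∀ v : V, σ • σ • v - s • σ • v + d • v = 0) ∧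
      (∀ v : V, (σ * c) • (σ * c) • v - s' • (σ * c) • v + d' • v = 0) ∧ d' = -d ∧ d ≠ 0) :
    False := by
  have hp : p.Prime := Fact.out
  have : Finite V := finite_of_card_sq hcard
  have h2V := finrank_eq_two_of_card hcard
  have hnt : Nontrivial V := Module.nontrivial_of_finrank_pos (R := ZMod p) (by omega)
  have hcc : ∀ v : V, c • c • v = v := fun v => by rw [← mul_smul, hc, one_smul]
  -- `c` acts as a scalar `ε` with `ε² = 1`
  obtain ⟨ε, hεε, hε⟩ : ∃ ε : ZMod p, ε * ε = 1 ∧ ∀ v : V, c • v = ε • v := by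
    let Vp : Submodule (ZMod p) V :=
      { carrier := {v | c • v = v}
        add_mem' := fun {a b} ha hb => by
          show c • (a + b) = a + b
          rw [smul_add, ha, hb]
        zero_mem' := smul_zero c
        smul_mem' := fun a v hv => by
          show c • (a • v) = a • v
          rw [smul_zmod_smul, hv] }
    have hstab : ∀ σ : G, ∀ x ∈ Vp, σ • x ∈ Vp := by
      intro σ x hx
      show c • σ • x = σ • x
      rw [hcomm c σ x, hx]
    rcases hirr Vp hstab with h | h
    · refine ⟨-1, by ring, fun v => ?_⟩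
      have hw : c • v + v ∈ Vp := by
        show c • (c • v + v) = c • v + v
        rw [smul_add, hcc]; abel
      rw [h, Submodule.mem_bot] at hw
      rw [neg_one_smul]
      exact eq_neg_of_add_eq_zero_left hw
    · refine ⟨1, by ring, fun v => ?_⟩
      have : v ∈ Vp := by rw [h]; exact Submodule.mem_top
      rw [one_smul]
      exact this
  have h2ne : (2 : ZMod p) ≠ 0 := by
    intro h
    have h' : ((2 : ℕ) : ZMod p) = 0 := by exact_mod_cast h
    rw [ZMod.natCast_eq_zero_iff] at h'
    exact hp2 ((Nat.prime_dvd_prime_iff_eq hp Nat.prime_two).mp h')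
  -- every `σ` acts as a scalar
  have hscal : ∀ σ : G, ∃ γ : ZMod p, ∀ v : V, σ • v = γ • v := by
    intro σ
    obtain ⟨s, d, s', d', h1, h2, hd', hd0⟩ := hq σ
    have hσc : ∀ v : V, (σ * c) • v = ε • σ • v := fun v => by
      rw [mul_smul, hε, smul_zmod_smul]
    have key : ∀ v : V, (s - s' * ε) • σ • v = (2 * d) • v := by
      intro v
      have e1 := h1 v
      have e2 := h2 v
      have a1 : (σ * c) • v = ε • σ • v := hσc v
      have a2 : (σ * c) • (σ * c) • v = σ • σ • v := by
        rw [hσc v, hσc (ε • σ • v), smul_zmod_smul σ ε (σ • v), smul_smul ε ε, hεε, one_smul]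
      rw [a2, a1, smul_smul s' ε, hd'] at e2
      have e3 : (s - s' * ε) • σ • v - (2 * d) • v =
          (σ • σ • v - (s' * ε) • σ • v + (-d) • v) - (σ • σ • v - s • σ • v + d • v) := by
        rw [sub_smul, neg_smul, two_mul, add_smul]
        abel
      rw [e2, e1, sub_zero] at e3
      exact sub_eq_zero.mp e3
    have hβ : (2 * d : ZMod p) ≠ 0 := mul_ne_zero h2ne hd0
    have hα : (s - s' * ε : ZMod p) ≠ 0 := by
      intro h0
      obtain ⟨v, hv⟩ := exists_ne (0 : V)
      have := key v
      rw [h0, zero_smul] at this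
      rcases smul_eq_zero.mp this.symm with h | h
      · exact hβ h
      · exact hv h
    refine ⟨(s - s' * ε)⁻¹ * (2 * d), fun v => ?_⟩
    rw [← smul_smul, ← key v, smul_smul, inv_mul_cancel₀ hα, one_smul]
  -- a line is stable
  obtain ⟨v₀, hv₀⟩ := exists_ne (0 : V)
  have hstab : ∀ σ : G, ∀ x ∈ Submodule.span (ZMod p) {v₀}, σ • x ∈ Submodule.span (ZMod p) {v₀} := by
    intro σ x hx
    obtain ⟨γ, hγ⟩ := hscal σ
    rw [hγ]
    exact Submodule.smul_mem _ _ hx
  rcases hirr _ hstab with h | h
  · exact hv₀ ((Submodule.span_singleton_eq_bot).mp h)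
  · have h1 : Module.finrank (ZMod p) (Submodule.span (ZMod p) {v₀}) = 1 :=
      finrank_span_singleton hv₀
    rw [h, finrank_top, h2V] at h1
    omega

/-- **Irreducibility of a plane representation known through quadratics.** -/
theorem absIrr_of_quad (hp2 : p ≠ 2) {K : Type*} [Field K] [CharP K p]
    {U : Type*} [AddCommGroup U] [Module K U] (hU : Module.finrank K U = 2)
    (R : G →* Module.End K U)
    (hquad : ∀ σ : G, ∃ (s : ℤ) (d : ℕ), (∀ v : V, σ • σ • v - s • σ • v + (d : ℤ) • v = 0) ∧
      LinearMap.trace K U (R σ) = (s : K) ∧ LinearMap.det (R σ) = (d : K))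
    (c : G) (hc : c * c = 1) (hdetc : LinearMap.det (R c) = -1)
    (L : Submodule K U) (hL : ∀ σ : G, ∀ x ∈ L, R σ x ∈ L) : L = ⊥ ∨ L = ⊤ := by
  by_contra hne
  rw [not_or] at hne
  obtain ⟨hbot, htop⟩ := hne
  have hp : p.Prime := Fact.out
  have hfin : Module.Finite K U := Module.finite_of_finrank_pos (by omega)
  -- `L` is a line
  obtain ⟨u, huL, hu0⟩ := Submodule.exists_mem_ne_zero_of_ne_bot hbot
  have hline : ∀ w ∈ L, ∃ a : K, a • u = w := by
    have hlt : Module.finrank K L < 2 := by rw [← hU]; exact Submodule.finrank_lt htop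
    have hu' : (⟨u, huL⟩ : L) ≠ 0 := fun h => hu0 (congrArg Subtype.val h)
    have hpos : 0 < Module.finrank K L := Module.finrank_pos_iff_exists_ne_zero.mpr ⟨_, hu'⟩
    have h1 : Module.finrank K L = 1 := by omega
    intro w hw
    obtain ⟨a, ha⟩ := (finrank_eq_one_iff_of_nonzero' (⟨u, huL⟩ : L) hu').mp h1 ⟨w, hw⟩
    exact ⟨a, congrArg Subtype.val ha⟩
  have hcancel : ∀ a : K, a • u = 0 → a = 0 := fun a h =>
    (smul_eq_zero.mp h).resolve_right hu0
  -- the character `ψ` of the line
  have hex : ∀ σ : G, ∃ a : K, a • u = R σ u := fun σ => hline _ (hL σ u huL)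
  choose ψ hψ using hex
  have hψ1 : ψ 1 = 1 := by
    have h := hψ 1
    rw [map_one, Module.End.one_apply] at h
    have h' : (ψ 1 - 1) • u = 0 := by rw [sub_smul, h, one_smul, sub_self]
    exact sub_eq_zero.mp (hcancel _ h')
  have hψmul : ∀ σ τ : G, ψ (σ * τ) = ψ σ * ψ τ := by
    intro σ τ
    have h := hψ (σ * τ)
    rw [map_mul, Module.End.mul_apply, ← hψ τ, map_smul, ← hψ σ, smul_smul] at h
    have h' : (ψ (σ * τ) - ψ τ * ψ σ) • u = 0 := by rw [sub_smul, h, sub_self]
    rw [sub_eq_zero.mp (hcancel _ h'), mul_comm]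
  let Ψ : G →* K := { toFun := ψ, map_one' := hψ1, map_mul' := hψmul }
  let D : G →* K := (LinearMap.det : Module.End K U →* K).comp R
  -- Cayley–Hamilton on `u`
  have hCH : ∀ σ : G,
      ψ σ * ψ σ - LinearMap.trace K U (R σ) * ψ σ + LinearMap.det (R σ) = 0 := by
    intro σ
    have h := congrArg (fun f : Module.End K U => f u)
      (Fermat.Agent.S31.helper8458.mul_self_eq_of_finrank_two hU (R σ))
    simp only [Module.End.mul_apply, LinearMap.sub_apply, LinearMap.smul_apply,
      Module.End.one_apply] at h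
    rw [← hψ σ, map_smul, ← hψ σ, smul_smul, smul_smul] at h
    have h' : (ψ σ * ψ σ - LinearMap.trace K U (R σ) * ψ σ + LinearMap.det (R σ)) • u = 0 := by
      rw [add_smul, sub_smul, h]; abel
    exact hcancel _ h'
  -- the normal subgroup `H`
  let H : Subgroup G := Ψ.toHomUnits.ker ⊓ D.toHomUnits.ker
  have hHmem : ∀ σ : G, σ ∈ H → ψ σ = 1 ∧ LinearMap.det (R σ) = 1 := by
    intro σ hσ
    obtain ⟨h1, h2⟩ := Subgroup.mem_inf.mp hσ
    rw [MonoidHom.mem_ker, Units.ext_iff, MonoidHom.coe_toHomUnits, Units.val_one] at h1 h2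
    exact ⟨h1, h2⟩
  have hH2 : ∀ σ τ : G, σ * τ * σ⁻¹ * τ⁻¹ ∈ H := by
    intro σ τ
    refine Subgroup.mem_inf.mpr ⟨?_, ?_⟩ <;>
    · rw [MonoidHom.mem_ker, map_mul, map_mul, map_mul, map_inv, map_inv, mul_inv_cancel_comm,
        mul_inv_cancel]
  have hkill : ∀ z : ℤ, (p : ℤ) ∣ z → ∀ v : V, z • v = 0 := by
    intro z hz v
    rw [← Int.cast_smul_eq_zsmul (ZMod p) z v, (ZMod.intCast_zmod_eq_zero_iff_dvd z p).mpr hz,
      zero_smul]
  have hH1 : ∀ σ ∈ H, ∀ v : V, σ • (σ • v - v) = σ • v - v := by
    intro σ hσ v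
    obtain ⟨hψσ, hdσ⟩ := hHmem σ hσ
    have htr : LinearMap.trace K U (R σ) = 2 := by
      have h := hCH σ
      rw [hψσ, hdσ] at h
      linear_combination -h
    obtain ⟨s, d, hrel, hs, hd⟩ := hquad σ
    have hs2 : (((s - 2 : ℤ)) : K) = 0 := by
      push_cast
      rw [← hs, htr]; ring
    have hd1 : ((((d : ℤ) - 1 : ℤ)) : K) = 0 := by
      push_cast
      rw [← hd, hdσ]; ring
    have e := hrel v
    have e1 := hkill _ ((CharP.intCast_eq_zero_iff K p _).mp hs2) (σ • v)
    have e2 := hkill _ ((CharP.intCast_eq_zero_iff K p _).mp hd1) v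
    rw [sub_smul] at e1 e2
    rw [smul_sub]
    have e3 : σ • σ • v - σ • v - (σ • v - v) =
        (σ • σ • v - s • σ • v + (d : ℤ) • v) + (s • σ • v - (2 : ℤ) • σ • v) -
          ((d : ℤ) • v - (1 : ℤ) • v) := by
      rw [two_smul, one_smul]; abel
    rw [e, e1, e2, add_zero, sub_zero] at e3
    exact sub_eq_zero.mp e3
  have hcomm := commute_of_unipotent_normal hcard hirr H hH1 hH2
  refine false_of_commute hcard hirr hp2 hcomm c hc fun σ => ?_
  obtain ⟨s, d, h1, hs, hd⟩ := hquad σ
  obtain ⟨s', d', h1', hs', hd'⟩ := hquad (σ * c)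
  refine ⟨(s : ZMod p), (d : ZMod p), (s' : ZMod p), (d' : ZMod p), ?_, ?_, ?_, ?_⟩
  · intro v
    have h := h1 v
    rwa [← Int.cast_smul_eq_zsmul (ZMod p) s, ← Int.cast_smul_eq_zsmul (ZMod p) (d : ℤ),
      Int.cast_natCast] at h
  · intro v
    have h := h1' v
    rwa [← Int.cast_smul_eq_zsmul (ZMod p) s', ← Int.cast_smul_eq_zsmul (ZMod p) (d' : ℤ),
      Int.cast_natCast] at h
  · have h : ((d' + d : ℕ) : K) = 0 := by
      push_cast
      rw [← hd', ← hd, map_mul, map_mul, hdetc]; ring
    have hdvd : p ∣ d' + d := (CharP.cast_eq_zero_iff K p _).mp h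
    have h' : ((d' + d : ℕ) : ZMod p) = 0 := (ZMod.natCast_eq_zero_iff _ _).mpr hdvd
    push_cast at h'
    exact eq_neg_of_add_eq_zero_left h'
  · intro h0
    have hdvd : p ∣ d := (ZMod.natCast_eq_zero_iff _ _).mp h0
    have h : (d : K) = 0 := (CharP.cast_eq_zero_iff K p d).mpr hdvd
    rw [← hd] at h
    have h1 : LinearMap.det (R σ) * LinearMap.det (R σ⁻¹) = 1 := by
      rw [← map_mul, ← map_mul, mul_inv_cancel, map_one, map_one]
    rw [h, zero_mul] at h1
    exact zero_ne_one h1

end AbsIrr

end Fermat.Agent.S58.helper6156
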