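import Mathlib

/-!
# Involutions of an algebraically closed field invert the roots of unity of odd order (helper6156)

Let `Ω` be an algebraically closed field of characteristic zero and `c` a field automorphism
of `Ω` with `c ∘ c = id`, `c ≠ id`.  Then `c ζ = ζ⁻¹` for every root of unity `ζ` of odd order
(`inv_of_involution`).

This is the part of the Artin–Schreier theorem needed for "every involution of `Gal(ℚ̄/ℚ)` is
odd": the fixed field `R` of `c` is formally real.  Elementary proof, with `N x = x * c x`:

* there is `β ≠ 0` with `c β = -β`;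
* `c i = -i` for `i² = -1`: otherwise, for `γ² = β`, the element `e = N γ` is fixed, `e² = -β²`,
  so `e = ± i β` and `c e = -e`, hence `e = 0`;
* a sum of two squares of fixed elements is the square of a fixed element (`N` of a square root
  of `a + b i`), hence so is every finite sum of squares of fixed elements;
* `-1` is not the square of a fixed element;
* for `η = N ζ` (fixed, `η ^ n = 1`, `n` odd) every power `η ^ k` is the square of the fixed
  element `η ^ (k (n + 1) / 2)`; if `η ≠ 1` then `-1 = η + η² + ⋯ + η ^ (n - 1)` is a sum of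
  squares of fixed elements, contradiction.
-/

set_option autoImplicit false

namespace Fermat.Agent.S58.helper6156

section ArtinSchreier

variable {Ω : Type*} [Field Ω] [IsAlgClosed Ω] [CharZero Ω] (c : Ω ≃+* Ω)

omit [IsAlgClosed Ω] [CharZero Ω] in
/-- If `x² = y²` then `x = y` or `x = -y`. -/
theorem eq_or_eq_neg_of_mul_self (x y : Ω) (h : x * x = y * y) : x = y ∨ x = -y := by
  have h' : (x - y) * (x + y) = 0 := by ring_nf; linear_combination h
  rcases mul_eq_zero.mp h' with h1 | h1
  · exact Or.inl (sub_eq_zero.mp h1)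
  · exact Or.inr (eq_neg_of_add_eq_zero_left h1)

variable (hc : ∀ x : Ω, c (c x) = x)

include hc

omit [IsAlgClosed Ω] [CharZero Ω] in
/-- The norm `x * c x` is fixed by `c`. -/
theorem norm_fixed (x : Ω) : c (x * c x) = x * c x := by
  rw [map_mul, hc, mul_comm]

variable (hc1 : ∃ x : Ω, c x ≠ x)

include hc1

/-- A square root of `-1` is negated by a non-trivial involution. -/
theorem involution_apply_sqrt_neg_one (i : Ω) (hi : i * i = -1) : c i = -i := by
  have hci : c i * c i = i * i := by rw [← map_mul, hi, map_neg, map_one]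
  rcases eq_or_eq_neg_of_mul_self (c i) i hci with h | h
  · exfalso
    obtain ⟨x, hx⟩ := hc1
    set β : Ω := x - c x with hβ
    have hβ0 : β ≠ 0 := fun h0 => hx (sub_eq_zero.mp h0).symm
    have hcβ : c β = -β := by rw [hβ, map_sub, hc]; ring
    obtain ⟨γ, hγ⟩ := IsAlgClosed.exists_pow_nat_eq β (n := 2) (by norm_num)
    set e : Ω := γ * c γ with he
    have hce : c e = e := norm_fixed c hc γ
    have hee : e * e = (i * β) * (i * β) := by
      have h1 : e * e = (γ ^ 2) * c (γ ^ 2) := by rw [he, map_pow]; ring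
      rw [h1, hγ, hcβ]
      have : i * β * (i * β) = (i * i) * (β * β) := by ring
      rw [this, hi]; ring
    have hce' : c e = -e := by
      rcases eq_or_eq_neg_of_mul_self e (i * β) hee with h1 | h1
      · rw [h1, map_mul, h, hcβ]; ring
      · rw [h1, map_neg, map_mul, h, hcβ]; ring
    have he0 : e = 0 := by
      have h2 : e = -e := hce.symm.trans hce'
      have h3 : (2 : Ω) * e = 0 := by linear_combination h2
      rcases mul_eq_zero.mp h3 with h4 | h4
      · exact absurd h4 two_ne_zero
      · exact h4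
    have : (i * β) * (i * β) = 0 := by rw [← hee, he0, mul_zero]
    have hib : i * β = 0 := mul_self_eq_zero.mp this
    have hi0 : i ≠ 0 := by
      rintro rfl
      rw [mul_zero] at hi
      exact absurd hi.symm (neg_ne_zero.mpr one_ne_zero)
    exact hβ0 ((mul_eq_zero.mp hib).resolve_left hi0)
  · exact h

/-- A sum of two squares of fixed elements is the square of a fixed element. -/
theorem exists_fixed_sq_add_sq (a b : Ω) (ha : c a = a) (hb : c b = b) :
    ∃ r : Ω, c r = r ∧ r * r = a * a + b * b := by
  obtain ⟨i, hi⟩ := IsAlgClosed.exists_pow_nat_eq (-1 : Ω) (n := 2) (by norm_num)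
  have hi' : i * i = -1 := by rw [← hi]; ring
  have hci := involution_apply_sqrt_neg_one c hc hc1 i hi'
  obtain ⟨γ, hγ⟩ := IsAlgClosed.exists_pow_nat_eq (a + b * i) (n := 2) (by norm_num)
  refine ⟨γ * c γ, norm_fixed c hc γ, ?_⟩
  have h1 : γ * c γ * (γ * c γ) = (γ ^ 2) * c (γ ^ 2) := by rw [map_pow]; ring
  rw [h1, hγ, map_add, map_mul, ha, hb, hci]
  have : (a + b * i) * (a + b * -i) = a * a - b * b * (i * i) := by ring
  rw [this, hi']
  ring

/-- A finite sum of squares of fixed elements is the square of a fixed element. -/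
theorem exists_fixed_sq_sum (m : ℕ) (x : ℕ → Ω) (hx : ∀ k, c (x k) = x k) :
    ∃ r : Ω, c r = r ∧ r * r = ∑ k ∈ Finset.range m, x k * x k := by
  induction m with
  | zero => exact ⟨0, map_zero c, by simp⟩
  | succ m ih =>
    obtain ⟨r, hr, hrr⟩ := ih
    obtain ⟨r', hr', hrr'⟩ := exists_fixed_sq_add_sq c hc hc1 r (x m) hr (hx m)
    exact ⟨r', hr', by rw [Finset.sum_range_succ, ← hrr, hrr']⟩

/-- `-1` is not the square of a fixed element. -/
theorem not_fixed_sq_neg_one (r : Ω) (hr : c r = r) (hrr : r * r = -1) : False := by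
  have h := involution_apply_sqrt_neg_one c hc hc1 r hrr
  have h2 : r = -r := hr.symm.trans h
  have h3 : (2 : Ω) * r = 0 := by linear_combination h2
  have hr0 : r = 0 := (mul_eq_zero.mp h3).resolve_left two_ne_zero
  rw [hr0, mul_zero] at hrr
  exact absurd hrr.symm (neg_ne_zero.mpr one_ne_zero)

/-- **A non-trivial involution of an algebraically closed field of characteristic zero inverts
the roots of unity of odd order.** -/
theorem inv_of_involution {n : ℕ} (hn : Odd n) (ζ : Ω) (hζ : ζ ^ n = 1) : c ζ = ζ⁻¹ := by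
  set η : Ω := ζ * c ζ with hη
  have hcη : c η = η := norm_fixed c hc ζ
  have hηn : η ^ n = 1 := by rw [hη, mul_pow, ← map_pow, hζ, map_one, mul_one]
  suffices h : η = 1 by
    exact eq_inv_of_mul_eq_one_right h
  by_contra hne
  obtain ⟨h, hh⟩ := hn
  -- `n = 2 h + 1`; `η ^ k = (η ^ (k (h + 1)))²`
  have hsq : ∀ k : ℕ, η ^ k = η ^ (k * (h + 1)) * η ^ (k * (h + 1)) := by
    intro k
    rw [← pow_add]
    have e : k * (h + 1) + k * (h + 1) = n * k + k := by rw [hh]; ring
    rw [e, pow_add, pow_mul, hηn, one_pow, one_mul]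
  have hfix : ∀ k : ℕ, c (η ^ ((k + 1) * (h + 1))) = η ^ ((k + 1) * (h + 1)) := by
    intro k
    rw [map_pow, hcη]
  have hgeom : ∑ k ∈ Finset.range n, η ^ k = 0 := by
    have h1 := mul_neg_geom_sum η n
    rw [hηn, sub_self] at h1
    have h2 : (1 - η) ≠ 0 := sub_ne_zero.mpr (Ne.symm hne)
    exact (mul_eq_zero.mp h1).resolve_left h2
  have hsum : ∑ k ∈ Finset.range (n - 1), η ^ ((k + 1) * (h + 1)) * η ^ ((k + 1) * (h + 1)) =
      -1 := by
    have hn1 : n = (n - 1) + 1 := by omega
    rw [hn1, Finset.sum_range_succ', pow_zero] at hgeom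
    have : ∑ k ∈ Finset.range (n - 1), η ^ ((k + 1) * (h + 1)) * η ^ ((k + 1) * (h + 1)) =
        ∑ k ∈ Finset.range (n - 1), η ^ (k + 1) :=
      Finset.sum_congr rfl fun k _ => (hsq (k + 1)).symm
    rw [this]
    linear_combination hgeom
  obtain ⟨r, hr, hrr⟩ := exists_fixed_sq_sum c hc hc1 (n - 1)
    (fun k => η ^ ((k + 1) * (h + 1))) hfix
  rw [hsum] at hrr
  exact not_fixed_sq_neg_one c hc hc1 r hr hrr

end ArtinSchreier

end Fermat.Agent.S58.helper6156
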