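import Mathlib
import Fermat.Prelude.Def_GaloisRep_LocalConditions
import Fermat.Agent.Lib.helper74_GenChebQbar
import Fermat.Agent.S31.helper8458_TraceKernel
import Fermat.Agent.S34.helper1336_Core
import Fermat.Agent.S58.helper358_Compare

/-!
# S58 assembly (helper6156), part 1: the TRANSFER lemma

A "torsion system" `TorsSys m B a V` is a Galois module `V` killed by `m`, faithful over `ℤ / m`,
factoring through a finite level, on which every Frobenius element at a prime `ℓ ∉ B` kills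
`X² - a ℓ X + ℓ`.  (Example: `V = W(ℚ̄)[m]` for an integral Weierstrass model `W`,
`a ℓ = a_ℓ(W)`, `B ⊇` bad primes and prime divisors of `m`.)

Let `ρ : GaloisRepAdic T` have `charpoly ρ(Frob_ℓ) = X² - a ℓ X + ℓ` for the primes `ℓ ∉ B`.

* `exists_quad` : by generator-Chebotarev every `σ ∈ Gal(ℚ̄/ℚ)` has a pair `(s, d)` such that
  `σ` kills `X² - s X + d` on `V`, raises the `m`-th roots of unity to the `d`-th power, and
  `tr ρ(σ) ≡ s`, `det ρ(σ) ≡ d` modulo `𝔪 ^ n` (when `m ∈ 𝔪 ^ n`).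
* `quad_unique` : such a pair is unique modulo `m`.
* `transfer` : hence ANY pair `(s, d)` with the first two properties computes the trace and the
  determinant of `ρ(σ)` modulo `𝔪 ^ n`.
* `trace_det_eq_of_forall` : the limit version over a noetherian local ring.

No Tate module, no Weil pairing, no "det = cyclotomic character" is used.
-/

set_option autoImplicit false

namespace Fermat.Agent.S58.helper6156

open Polynomial

local notation "Qb" => AlgebraicClosure ℚ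
local notation "GQ" => (AlgebraicClosure ℚ ≃ₐ[ℚ] AlgebraicClosure ℚ)

open Fermat.Agent.S58.helper358 (lucasV Ann)
open Fermat.Agent.S31.helper8458 (dick)

/-- The Dickson sequence of S31 at integer arguments is the Lucas sequence of `helper358`. -/
theorem dick_intCast {T : Type*} [CommRing T] (a l : ℤ) (j : ℕ) :
    dick ((a : ℤ) : T) ((l : ℤ) : T) j = ((lucasV a l j : ℤ) : T) := by
  induction j using Nat.twoStepInduction with
  | zero => simp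
  | one => simp
  | more j h1 h2 =>
    rw [Fermat.Agent.S31.helper8458.dick_add_two, Fermat.Agent.S58.helper358.lucasV_add_two,
      h1, h2]
    push_cast
    ring

/-- A Galois module killed by `m`, faithful over `ℤ / m`, of finite level, with quadratic
Frobenius relations with integer traces `a ℓ` at the primes `ℓ ∉ B`. -/
structure TorsSys (m : ℕ) (B : Finset ℕ) (a : ℕ → ℤ) (V : Type*) [AddCommGroup V]
    [DistribMulAction GQ V] : Prop where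
  level : ∃ L : IntermediateField ℚ Qb, FiniteDimensional ℚ L ∧
    ∀ σ : GQ, (∀ x ∈ L, σ x = x) → ∀ v : V, σ • v = v
  kill : ∀ v : V, m • v = 0
  faithful : ∀ z : ℤ, (∀ v : V, z • v = 0) → (m : ℤ) ∣ z
  frob : ∀ ℓ : ℕ, ℓ.Prime → ℓ ∉ B → ∀ A : ValuationSubring Qb, A.LiesOverPrime ℓ →
    ∀ φ : GQ, A.IsFrobeniusAt φ ℓ → ∀ v : V, φ • φ • v - a ℓ • φ • v + (ℓ : ℤ) • v = 0
  frobRoot : ∀ ℓ : ℕ, ℓ.Prime → ℓ ∉ B → ∀ A : ValuationSubring Qb, A.LiesOverPrime ℓ →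
    ∀ φ : GQ, A.IsFrobeniusAt φ ℓ → ∀ ζ : Qb, ζ ^ m = 1 → φ ζ = ζ ^ ℓ

section Basic

variable {m : ℕ} {B : Finset ℕ} {a : ℕ → ℤ} {V : Type*} [AddCommGroup V]
  [DistribMulAction GQ V]

/-- Powers of an element raising roots of unity to the `ℓ`-th power. -/
theorem pow_apply_root {φ : GQ} {ℓ : ℕ} (h : ∀ ζ : Qb, ζ ^ m = 1 → φ ζ = ζ ^ ℓ) (j : ℕ) :
    ∀ ζ : Qb, ζ ^ m = 1 → (φ ^ j) ζ = ζ ^ (ℓ ^ j) := by
  induction j with
  | zero => intro ζ _; simp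
  | succ j ih =>
    intro ζ hζ
    rw [pow_succ', AlgEquiv.mul_apply, ih ζ hζ, map_pow, h ζ hζ, ← pow_mul, pow_succ']

/-- Two elements agreeing on a level of `V` act in the same way on `V`. -/
theorem smul_eq_of_agree {L : IntermediateField ℚ Qb}
    (hL : ∀ σ : GQ, (∀ x ∈ L, σ x = x) → ∀ v : V, σ • v = v) {σ τ : GQ}
    (h : ∀ x ∈ L, τ x = σ x) (v : V) : τ • v = σ • v := by
  have h1 : ∀ x ∈ L, (σ⁻¹ * τ) x = x := by
    intro x hx
    rw [AlgEquiv.mul_apply, h x hx, AlgEquiv.aut_inv, AlgEquiv.symm_apply_apply]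
  have h2 := hL _ h1 v
  rw [mul_smul, inv_smul_eq_iff] at h2
  exact h2

/-- **Uniqueness of the quadratic modulo `m`.** -/
theorem quad_unique (hm0 : m ≠ 0) (hV : TorsSys m B a V) (σ : GQ) (s s' : ℤ) (d d' : ℕ)
    (h1 : ∀ v : V, σ • σ • v - s • σ • v + (d : ℤ) • v = 0)
    (h1' : ∀ v : V, σ • σ • v - s' • σ • v + (d' : ℤ) • v = 0)
    (h2 : ∀ ζ : Qb, ζ ^ m = 1 → σ ζ = ζ ^ d)
    (h2' : ∀ ζ : Qb, ζ ^ m = 1 → σ ζ = ζ ^ d') :
    (m : ℤ) ∣ s - s' ∧ (m : ℤ) ∣ (d : ℤ) - d' := by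
  have : NeZero (m : ℚ) := ⟨by exact_mod_cast hm0⟩
  obtain ⟨ζ, hζ⟩ := HasEnoughRootsOfUnity.exists_primitiveRoot Qb m
  have hζ0 : ζ ≠ 0 := hζ.ne_zero hm0
  have hd : (m : ℤ) ∣ (d : ℤ) - d' := by
    rw [← hζ.zpow_eq_one_iff_dvd, zpow_sub₀ hζ0, zpow_natCast, zpow_natCast,
      ← h2 ζ hζ.pow_eq_one, ← h2' ζ hζ.pow_eq_one]
    exact div_self ((map_ne_zero σ).mpr hζ0)
  refine ⟨?_, hd⟩
  apply hV.faithful
  intro w
  have hkill : ∀ v : V, ((d : ℤ) - d') • v = 0 := by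
    intro v
    obtain ⟨k, hk⟩ := hd
    rw [hk, mul_smul, natCast_zsmul, hV.kill, ]
  have key : ∀ v : V, (s - s') • σ • v = 0 := by
    intro v
    have e1 := h1 v
    have e2 := h1' v
    have e3 := hkill v
    rw [sub_smul] at e3 ⊢
    have : s • σ • v - s' • σ • v = (σ • σ • v - s' • σ • v + (d' : ℤ) • v) -
        (σ • σ • v - s • σ • v + (d : ℤ) • v) + ((d : ℤ) • v - (d' : ℤ) • v) := by abel
    rw [this, e1, e2, e3]
    simp
  have := key (σ⁻¹ • w)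
  rwa [smul_inv_smul] at this

end Basic

section Main

variable {T : Type} [CommRing T] [IsLocalRing T] (ρ : GaloisRepAdic T)
  {m : ℕ} {B : Finset ℕ} {a : ℕ → ℤ} {V : Type*} [AddCommGroup V] [DistribMulAction GQ V]

/-- **Chebotarev data.**  Every `σ` has a pair `(s, d)` such that `σ` kills `X² - s X + d` on
`V`, raises `m`-th roots of unity to the `d`-th power, and `tr ρ(σ) ≡ s`, `det ρ(σ) ≡ d` modulo
`𝔪 ^ n`. -/
theorem exists_quad (hm0 : m ≠ 0) (hV : TorsSys m B a V) (n : ℕ)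
    (hρ : ∀ ℓ : ℕ, ℓ.Prime → ℓ ∉ B → ∀ A : ValuationSubring Qb, A.LiesOverPrime ℓ →
      ∀ φ : GQ, A.IsFrobeniusAt φ ℓ →
        LinearMap.charpoly (ρ.ρ φ) = X ^ 2 - C ((a ℓ : ℤ) : T) * X + C ((ℓ : ℕ) : T))
    (σ : GQ) :
    ∃ (s : ℤ) (d : ℕ), (∀ v : V, σ • σ • v - s • σ • v + (d : ℤ) • v = 0) ∧
      (∀ ζ : Qb, ζ ^ m = 1 → σ ζ = ζ ^ d) ∧
      LinearMap.trace T ρ.V (ρ.ρ σ) - (s : T) ∈ IsLocalRing.maximalIdeal T ^ n ∧
      LinearMap.det (ρ.ρ σ) - (d : T) ∈ IsLocalRing.maximalIdeal T ^ n := by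
  obtain ⟨L₁, hL₁fin, hL₁⟩ := ρ.isAdicContinuous n
  obtain ⟨L₂, hL₂fin, hL₂⟩ := hV.level
  -- the field of `m`-th roots of unity
  have : NeZero (m : ℚ) := ⟨by exact_mod_cast hm0⟩
  have : NeZero m := ⟨hm0⟩
  obtain ⟨ζ₀, hζ₀⟩ := HasEnoughRootsOfUnity.exists_primitiveRoot Qb m
  have hint : IsIntegral ℚ ζ₀ := (AlgebraicClosure.isAlgebraic ℚ).isAlgebraic ζ₀ |>.isIntegral
  have hL₃fin : FiniteDimensional ℚ (IntermediateField.adjoin ℚ {ζ₀}) :=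
    IntermediateField.adjoin.finiteDimensional hint
  let L : IntermediateField ℚ Qb := L₁ ⊔ L₂ ⊔ IntermediateField.adjoin ℚ {ζ₀}
  have hL12fin : FiniteDimensional ℚ (L₁ ⊔ L₂ : IntermediateField ℚ Qb) :=
    IntermediateField.finiteDimensional_sup L₁ L₂
  have hLfin : FiniteDimensional ℚ L := IntermediateField.finiteDimensional_sup _ _
  have hle₁ : L₁ ≤ L := le_sup_of_le_left le_sup_left
  have hle₂ : L₂ ≤ L := le_sup_of_le_left le_sup_right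
  have hζ₀L : ζ₀ ∈ L :=
    (le_sup_right : IntermediateField.adjoin ℚ {ζ₀} ≤ L)
      (IntermediateField.mem_adjoin_simple_self ℚ ζ₀)
  obtain ⟨ℓ, A, φ, j, hℓ, hℓB, hA, hφ, hagree⟩ :=
    Fermat.Agent.Lib.helper74.exists_frobenius_pow_eq L σ B
  -- the action on `V`
  have hact : ∀ v : V, (φ ^ j) • v = σ • v :=
    smul_eq_of_agree hL₂ fun x hx => hagree x (hle₂ hx)
  have hann : Ann (DistribMulAction.toAddMonoidEnd GQ V φ) (a ℓ) (ℓ : ℤ) :=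
    fun v => hV.frob ℓ hℓ hℓB A hA φ hφ v
  have hannj := hann.pow j
  rw [← map_pow] at hannj
  -- the action on roots of unity
  have hroot : ∀ ζ : Qb, ζ ^ m = 1 → σ ζ = ζ ^ (ℓ ^ j) := by
    intro ζ hζ
    obtain ⟨i, -, rfl⟩ := hζ₀.eq_pow_of_pow_eq_one hζ
    rw [map_pow, ← hagree ζ₀ hζ₀L,
      pow_apply_root (hV.frobRoot ℓ hℓ hℓB A hA φ hφ) j ζ₀ hζ₀.pow_eq_one, ← pow_mul, ← pow_mul,
      mul_comm]
  -- the `ρ` side
  obtain ⟨htr, hdet⟩ := Fermat.Agent.S31.helper8458.trace_det_of_charpoly ρ.finrank_eq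
    (ρ.ρ φ) _ _ (hρ ℓ hℓ hℓB A hA φ hφ)
  have htrj : LinearMap.trace T ρ.V (ρ.ρ (φ ^ j)) = ((lucasV (a ℓ) (ℓ : ℤ) j : ℤ) : T) := by
    rw [map_pow, Fermat.Agent.S31.helper8458.trace_pow_eq_dick ρ.finrank_eq, htr, hdet,
      ← dick_intCast, Int.cast_natCast]
  have hdetj : LinearMap.det (ρ.ρ (φ ^ j)) = ((ℓ ^ j : ℕ) : T) := by
    rw [map_pow, map_pow, hdet, Nat.cast_pow]
  refine ⟨lucasV (a ℓ) (ℓ : ℤ) j, ℓ ^ j, ?_, hroot, ?_, ?_⟩
  · intro v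
    have h : (φ ^ j) • (φ ^ j) • v - lucasV (a ℓ) (ℓ : ℤ) j • (φ ^ j) • v +
        ((ℓ : ℤ) ^ j) • v = 0 := hannj v
    simp only [hact] at h
    rw [Nat.cast_pow]
    exact h
  · rw [← htrj]
    exact Fermat.Agent.S31.helper8458.sub_trace_mem_of_agree ρ n L₁ hL₁ (φ ^ j) σ
      fun x hx => hagree x (hle₁ hx)
  · rw [← hdetj]
    exact Fermat.Agent.S34.helper1336.det_sub_det_mem ρ n L₁ hL₁ σ (φ ^ j)
      fun x hx => (hagree x (hle₁ hx)).symm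

/-- **TRANSFER.**  If `σ` kills `X² - s X + d` on `V` and raises the `m`-th roots of unity to
the `d`-th power, then `tr ρ(σ) ≡ s` and `det ρ(σ) ≡ d` modulo `𝔪 ^ n`, provided `m ∈ 𝔪 ^ n`. -/
theorem transfer (hm0 : m ≠ 0) (hV : TorsSys m B a V) (n : ℕ)
    (hmT : (m : T) ∈ IsLocalRing.maximalIdeal T ^ n)
    (hρ : ∀ ℓ : ℕ, ℓ.Prime → ℓ ∉ B → ∀ A : ValuationSubring Qb, A.LiesOverPrime ℓ →
      ∀ φ : GQ, A.IsFrobeniusAt φ ℓ →
        LinearMap.charpoly (ρ.ρ φ) = X ^ 2 - C ((a ℓ : ℤ) : T) * X + C ((ℓ : ℕ) : T))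
    (σ : GQ) (s : ℤ) (d : ℕ)
    (h1 : ∀ v : V, σ • σ • v - s • σ • v + (d : ℤ) • v = 0)
    (h2 : ∀ ζ : Qb, ζ ^ m = 1 → σ ζ = ζ ^ d) :
    LinearMap.trace T ρ.V (ρ.ρ σ) - (s : T) ∈ IsLocalRing.maximalIdeal T ^ n ∧
      LinearMap.det (ρ.ρ σ) - (d : T) ∈ IsLocalRing.maximalIdeal T ^ n := by
  obtain ⟨s', d', h1', h2', htr, hdet⟩ := exists_quad ρ hm0 hV n hρ σ
  obtain ⟨⟨k, hk⟩, ⟨k', hk'⟩⟩ := quad_unique hm0 hV σ s' s d' d h1' h1 h2' h2
  constructor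
  · have e : LinearMap.trace T ρ.V (ρ.ρ σ) - (s : T) =
        (LinearMap.trace T ρ.V (ρ.ρ σ) - (s' : T)) + (m : T) * (k : T) := by
      have : ((s' - s : ℤ) : T) = (m : T) * (k : T) := by rw [hk]; push_cast; ring
      rw [← this]; push_cast; ring
    rw [e]
    exact Ideal.add_mem _ htr (Ideal.mul_mem_right _ _ hmT)
  · have e : LinearMap.det (ρ.ρ σ) - (d : T) =
        (LinearMap.det (ρ.ρ σ) - (d' : T)) + (m : T) * (k' : T) := by
      have : (((d' : ℤ) - (d : ℤ) : ℤ) : T) = (m : T) * (k' : T) := by rw [hk']; push_cast; ring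
      rw [← this]; push_cast; ring
    rw [e]
    exact Ideal.add_mem _ hdet (Ideal.mul_mem_right _ _ hmT)

/-- **Limit form of TRANSFER** over a noetherian local ring: if `σ` kills `X² - s X + d` on
every `V n` (a torsion system of level `lam ^ n`) and raises all `lam`-power roots of unity to the
`d`-th power, then `tr ρ(σ) = s` and `det ρ(σ) = d`. -/
theorem trace_det_eq_of_forall [IsNoetherianRing T] {lam : ℕ} (hlam0 : lam ≠ 0)
    (hlamT : (lam : T) ∈ IsLocalRing.maximalIdeal T)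
    {W : ℕ → Type*} [∀ n, AddCommGroup (W n)] [∀ n, DistribMulAction GQ (W n)]
    (hW : ∀ n, TorsSys (lam ^ n) B a (W n))
    (hρ : ∀ ℓ : ℕ, ℓ.Prime → ℓ ∉ B → ∀ A : ValuationSubring Qb, A.LiesOverPrime ℓ →
      ∀ φ : GQ, A.IsFrobeniusAt φ ℓ →
        LinearMap.charpoly (ρ.ρ φ) = X ^ 2 - C ((a ℓ : ℤ) : T) * X + C ((ℓ : ℕ) : T))
    (σ : GQ) (s : ℤ) (d : ℕ)
    (h1 : ∀ n, ∀ v : W n, σ • σ • v - s • σ • v + (d : ℤ) • v = 0)
    (h2 : ∀ n, ∀ ζ : Qb, ζ ^ (lam ^ n) = 1 → σ ζ = ζ ^ d) :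
    LinearMap.trace T ρ.V (ρ.ρ σ) = (s : T) ∧ LinearMap.det (ρ.ρ σ) = (d : T) := by
  have hkrull : ⨅ i : ℕ, IsLocalRing.maximalIdeal T ^ i = ⊥ :=
    Ideal.iInf_pow_eq_bot_of_isLocalRing _ (Ideal.IsMaximal.ne_top inferInstance)
  have key : ∀ n : ℕ,
      LinearMap.trace T ρ.V (ρ.ρ σ) - (s : T) ∈ IsLocalRing.maximalIdeal T ^ n ∧
      LinearMap.det (ρ.ρ σ) - (d : T) ∈ IsLocalRing.maximalIdeal T ^ n := by
    intro n
    refine transfer ρ (pow_ne_zero n hlam0) (hW n) n ?_ hρ σ s d (h1 n) (h2 n)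
    rw [Nat.cast_pow]
    exact Ideal.pow_mem_pow hlamT n
  constructor
  · rw [← sub_eq_zero, ← Ideal.mem_bot, ← hkrull, Ideal.mem_iInf]
    exact fun n => (key n).1
  · rw [← sub_eq_zero, ← Ideal.mem_bot, ← hkrull, Ideal.mem_iInf]
    exact fun n => (key n).2

/-- The same as a statement on characteristic polynomials. -/
theorem charpoly_eq_of_forall [IsNoetherianRing T] {lam : ℕ} (hlam0 : lam ≠ 0)
    (hlamT : (lam : T) ∈ IsLocalRing.maximalIdeal T)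
    {W : ℕ → Type*} [∀ n, AddCommGroup (W n)] [∀ n, DistribMulAction GQ (W n)]
    (hW : ∀ n, TorsSys (lam ^ n) B a (W n))
    (hρ : ∀ ℓ : ℕ, ℓ.Prime → ℓ ∉ B → ∀ A : ValuationSubring Qb, A.LiesOverPrime ℓ →
      ∀ φ : GQ, A.IsFrobeniusAt φ ℓ →
        LinearMap.charpoly (ρ.ρ φ) = X ^ 2 - C ((a ℓ : ℤ) : T) * X + C ((ℓ : ℕ) : T))
    (σ : GQ) (s : ℤ) (d : ℕ)
    (h1 : ∀ n, ∀ v : W n, σ • σ • v - s • σ • v + (d : ℤ) • v = 0)
    (h2 : ∀ n, ∀ ζ : Qb, ζ ^ (lam ^ n) = 1 → σ ζ = ζ ^ d) :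
    LinearMap.charpoly (ρ.ρ σ) = X ^ 2 - C ((s : ℤ) : T) * X + C ((d : ℕ) : T) := by
  obtain ⟨htr, hdet⟩ := trace_det_eq_of_forall ρ hlam0 hlamT hW hρ σ s d h1 h2
  rw [Fermat.Agent.S31.helper8458.charpoly_eq_of_finrank_two ρ.finrank_eq, htr, hdet]

end Main

end Fermat.Agent.S58.helper6156
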