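import Mathlib
import Fermat.Agent.S58.helper6156_Transfer
import Fermat.Agent.S58.helper5765_FrobTors
import Fermat.Agent.S58.helper5371_FrobDelta
import Fermat.Agent.Lib.helper1844_FrobGenAll
import Fermat.Agent.Lib.helper1663_InertiaAdapter
import Fermat.Agent.Lib.helper5856_TorsionCard
import Fermat.Agent.Lib.helper822_TorsionGalois

/-!
# S58 assembly (helper6156), part 2: the torsion of an integral Weierstrass model is a torsion system

For `W : WeierstrassCurve ℤ` with `Δ ≠ 0`, `m ≠ 0` and a finite set `B` of primes containing the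
bad primes of `W` and the prime divisors of `m`, the Prelude Galois module `W(ℚ̄)[m]` is a
`TorsSys m B (a_ℓ(W))` (`torsSys`).  All inputs are landed bricks:

* finite level: `Lib/helper822_TorsionGalois`;
* faithfulness: `#W(ℚ̄)[n] = n²` (`Lib/helper5856_TorsionCard`);
* Frobenius relation: characteristic-free Frobenius Cayley–Hamilton (`Lib/helper1844_FrobGenAll`)
  transported to torsion (`S58/helper5765_FrobTors`);
* Frobenius on roots of unity (`S58/helper5765_FrobTors`).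

Also: the relations satisfied by inertia elements (`Lib/helper1663_InertiaAdapter`) in the shape
consumed by `transfer`, and the trivial bound `|a_q(W)| ≤ q`.
-/

set_option autoImplicit false

namespace Fermat.Agent.S58.helper6156

open WeierstrassCurve WeierstrassCurve.Affine

local notation "Qb" => AlgebraicClosure ℚ
local notation "GQ" => (AlgebraicClosure ℚ ≃ₐ[ℚ] AlgebraicClosure ℚ)

/-- The Prelude `m`-torsion module of an integral model over `ℚ̄`. -/
abbrev TorsW (W : WeierstrassCurve ℤ) (m : ℕ) : Type :=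
  Submodule.torsionBy ℤ (((W.map (Int.castRingHom ℚ)).toAffine)⁄Qb).Point m

section

variable (W : WeierstrassCurve ℤ)

theorem torsW_nsmul {m : ℕ} (v : TorsW W m) : m • v = 0 := by
  apply Subtype.ext
  have h1 := v.2
  rw [Submodule.mem_torsionBy_iff] at h1
  rw [AddSubmonoidClass.coe_nsmul, ZeroMemClass.coe_zero, ← natCast_zsmul]
  exact h1

theorem isElliptic_curveQb (hΔ : W.Δ ≠ 0) :
    (((W.map (Int.castRingHom ℚ)).toAffine)⁄Qb).IsElliptic :=
  ⟨isUnit_iff_ne_zero.mpr (Fermat.Agent.Lib.helper1663.barW_Δ_ne_zero W hΔ)⟩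

/-- `W(ℚ̄)[m]` is a faithful `ℤ / m`-module (from `#W(ℚ̄)[n] = n²`). -/
theorem torsW_faithful (hΔ : W.Δ ≠ 0) {m : ℕ} (hm0 : m ≠ 0) (z : ℤ)
    (hz : ∀ v : TorsW W m, z • v = 0) : (m : ℤ) ∣ z := by
  have : (((W.map (Int.castRingHom ℚ)).toAffine)⁄Qb).IsElliptic := isElliptic_curveQb W hΔ
  set g : ℕ := Int.gcd z m with hg
  have hg0 : g ≠ 0 := by
    rw [hg, Ne, Int.gcd_eq_zero_iff]
    rintro ⟨-, h⟩
    exact hm0 (by exact_mod_cast h)
  have hgm : g ∣ m := by
    have : (g : ℤ) ∣ (m : ℤ) := Int.gcd_dvd_right z m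
    exact_mod_cast this
  have hgz : (g : ℤ) ∣ z := Int.gcd_dvd_left z m
  -- every `m`-torsion point is `g`-torsion
  have hkill : ∀ v : TorsW W m, (g : ℤ) • (v : (((W.map (Int.castRingHom ℚ)).toAffine)⁄Qb).Point) = 0 := by
    intro v
    have e : (g : ℤ) = z * Int.gcdA z m + (m : ℤ) * Int.gcdB z m := Int.gcd_eq_gcd_ab z m
    have h1 : z • (v : (((W.map (Int.castRingHom ℚ)).toAffine)⁄Qb).Point) = 0 := by
      have := congrArg Subtype.val (hz v)
      simpa using this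
    have h2 : (m : ℤ) • (v : (((W.map (Int.castRingHom ℚ)).toAffine)⁄Qb).Point) = 0 :=
      (Submodule.mem_torsionBy_iff _ _).mp v.2
    rw [e, add_zsmul, mul_comm z, mul_comm (m : ℤ), mul_zsmul, mul_zsmul, h1, h2, zsmul_zero,
      zsmul_zero, add_zero]
  let f : TorsW W m → TorsW W g := fun v => ⟨v.1, (Submodule.mem_torsionBy_iff _ _).mpr (hkill v)⟩
  have hf : Function.Injective f := by
    intro v w hvw
    have h := congrArg Subtype.val hvw
    exact Subtype.ext h
  have hcm : Nat.card (TorsW W m) = m ^ 2 :=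
    Fermat.Agent.Lib.helper5856.card_torsionBy m (by exact_mod_cast hm0)
  have hcg : Nat.card (TorsW W g) = g ^ 2 :=
    Fermat.Agent.Lib.helper5856.card_torsionBy g (by exact_mod_cast hg0)
  have hfin : Finite (TorsW W g) := Nat.finite_of_card_ne_zero (by rw [hcg]; positivity)
  have hle : m ^ 2 ≤ g ^ 2 := by
    rw [← hcm, ← hcg]
    exact Nat.card_le_card_of_injective f hf
  have hmg : m ≤ g := by
    by_contra hlt
    rw [not_le] at hlt
    have : g ^ 2 < m ^ 2 := Nat.pow_lt_pow_left hlt (by norm_num)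
    omega
  have hgm' : g = m := le_antisymm (Nat.le_of_dvd (Nat.pos_of_ne_zero hm0) hgm) hmg
  rw [← hgm']
  exact hgz

/-- **The `m`-torsion of an integral Weierstrass model is a torsion system.** -/
theorem torsSys (hΔ : W.Δ ≠ 0) {m : ℕ} (hm0 : m ≠ 0) (B : Finset ℕ)
    (hB : ∀ ℓ : ℕ, ℓ.Prime → ℓ ∉ B → W.IsGoodPrimeFor ℓ ∧ ¬ ℓ ∣ m) :
    TorsSys m B (fun ℓ => W.apOfModel ℓ) (TorsW W m) where
  level := by
    obtain ⟨L, hLfin, hL⟩ :=
      Fermat.Agent.Lib.helper822.galoisFactorsThroughFiniteLevel_torsion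
        (W.map (Int.castRingHom ℚ)) m hm0
    refine ⟨L, hLfin, fun σ hσ v => ?_⟩
    have := congrArg (fun f => f v) (hL σ hσ)
    exact this
  kill := torsW_nsmul W
  faithful := torsW_faithful W hΔ hm0
  frob := by
    intro ℓ hℓ hℓB A hA φ hφ v
    have : Fact ℓ.Prime := ⟨hℓ⟩
    have hgood := (hB ℓ hℓ hℓB).1
    have hcop : Nat.Coprime m ℓ :=
      (Nat.Coprime.symm ((Nat.Prime.coprime_iff_not_dvd hℓ).mpr (hB ℓ hℓ hℓB).2))
    exact Fermat.Agent.S58.helper5765.frob_relation_of_frobCH W ℓ hgood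
      (fun K _ _ _ _ => Fermat.Agent.Lib.helper1844.frobCH_all ℓ W hgood K) A hA φ hφ m hcop v
  frobRoot := by
    intro ℓ hℓ hℓB A hA φ hφ ζ hζ
    have hcop : Nat.Coprime m ℓ :=
      (Nat.Coprime.symm ((Nat.Prime.coprime_iff_not_dvd hℓ).mpr (hB ℓ hℓ hℓB).2))
    exact Fermat.Agent.S58.helper5765.isFrobeniusAt_apply_of_pow_eq_one A hA φ ℓ hφ m hm0 hcop ζ hζ

/-- Inertia at `q` on `W(ℚ̄)[m]`, `m` odd and prime to `q`, `W` semistable: `(τ - 1)² = 0`, in
the shape consumed by `transfer` (`s = 2`, `d = 1`). -/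
theorem inertia_rel (hss : W.IsSemistableModel) {q : ℕ} (hq : q.Prime) {m : ℕ} (hm : Odd m)
    (hqm : ¬ q ∣ m) (A : ValuationSubring Qb) (hA : A.LiesOverPrime q) {τ : GQ}
    (hτ : τ ∈ A.inertiaSubgroupIn ℚ) (v : TorsW W m) :
    τ • τ • v - (2 : ℤ) • τ • v + ((1 : ℕ) : ℤ) • v = 0 := by
  have h := Fermat.Agent.Lib.helper1663.rel_torsion W A hq hm hqm (hss q hq) hA hτ v
  rw [Nat.cast_one]
  exact h

/-- Inertia at `q` fixes the roots of unity of order prime to `q`. -/
theorem inertia_root {q : ℕ} {m : ℕ} (hm0 : m ≠ 0) (hqm : Nat.Coprime m q)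
    (A : ValuationSubring Qb) (hA : A.LiesOverPrime q) {τ : GQ}
    (hτ : τ ∈ A.inertiaSubgroupIn ℚ) (ζ : Qb) (hζ : ζ ^ m = 1) : τ ζ = ζ ^ 1 := by
  rw [pow_one]
  exact Fermat.Agent.S58.helper5765.inertia_apply_of_pow_eq_one A hA τ hτ m hm0 hqm ζ hζ

/-- Frobenius at a good prime `q ∤ m` on `W(ℚ̄)[m]`. -/
theorem frob_rel {q : ℕ} (hq : q.Prime) (hgood : W.IsGoodPrimeFor q) {m : ℕ}
    (hqm : Nat.Coprime m q) (A : ValuationSubring Qb) (hA : A.LiesOverPrime q) {φ : GQ}
    (hφ : A.IsFrobeniusAt φ q) (v : TorsW W m) :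
    φ • φ • v - W.apOfModel q • φ • v + ((q : ℕ) : ℤ) • v = 0 := by
  have : Fact q.Prime := ⟨hq⟩
  exact Fermat.Agent.S58.helper5765.frob_relation_of_frobCH W q hgood
    (fun K _ _ _ _ => Fermat.Agent.Lib.helper1844.frobCH_all q W hgood K) A hA φ hφ m hqm v

/-- Frobenius at `q` on the roots of unity of order prime to `q`. -/
theorem frob_root {q : ℕ} {m : ℕ} (hm0 : m ≠ 0) (hqm : Nat.Coprime m q)
    (A : ValuationSubring Qb) (hA : A.LiesOverPrime q) {φ : GQ}
    (hφ : A.IsFrobeniusAt φ q) (ζ : Qb) (hζ : ζ ^ m = 1) : φ ζ = ζ ^ q :=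
  Fermat.Agent.S58.helper5765.isFrobeniusAt_apply_of_pow_eq_one A hA φ q hφ m hm0 hqm ζ hζ

/-- The trivial bound `|a_q(W)| ≤ q`. -/
theorem abs_apOfModel_le {q : ℕ} (hq : q.Prime) : |W.apOfModel q| ≤ (q : ℤ) := by
  have : Fact q.Prime := ⟨hq⟩
  have h := Fermat.Agent.S58.helper5371.abs_traceOfFrobenius_le (W.reductionMod q)
  rw [ZMod.card] at h
  exact h

end

end Fermat.Agent.S58.helper6156
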