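import Mathlib
import Fermat.Prelude.Def_CuspForm_HeckeAlgebra
import Fermat.Prelude.Def_CuspForm_Newforms
import Fermat.Agent.S58.helper708_IntCoeff
import Fermat.Agent.S58.helper6078_MultOne

/-!
# S58 assembly (helper6156), part 3: the eigen-character of a newform with integer coefficients

For a normalized eigenform `g` of level `M` and any set `S` of primes:

* `eigenChar hg S : heckeAlgebra M 2 S →+* ℂ`, the character by which the Hecke algebra acts on
  `g` (`eigenChar_T : eigenChar hg S (T_ℓ) = a_ℓ(g)`);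
* `intSubringHom R hR O : R →+* O` for a subring `R` of `ℂ` consisting of integers;
* `exists_chig_iota` : for a Prelude newform `g` whose coefficients at almost all primes are
  integers, ALL coefficients are integers `b n` (landed `helper708` + strong multiplicity one
  `helper6078`), and for every ring `O` there is `iota : (eigenChar).range →+* O` with
  `iota (chig T_ℓ) = b ℓ`.  This is the input `(chig, iota)` of the frozen statements S35, S36.
-/

set_option autoImplicit false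

namespace Fermat.Agent.S58.helper6156

open CuspForm CongruenceSubgroup ModularFormClass

section EigenChar

variable {M : ℕ} [NeZero M]

/-- Every element of the Hecke algebra acts on a normalized eigenform by a scalar. -/
theorem exists_smul_of_mem_heckeAlgebra {g : CuspForm (Gamma0 M) 2}
    (hg : g.IsNormalizedEigenform) (S : Set ℕ)
    {t : Module.End ℂ (CuspForm (Gamma0 M) 2)} (ht : t ∈ heckeAlgebra M 2 S) :
    ∃ c : ℂ, t g = c • g := by
  refine Algebra.adjoin_induction (p := fun t _ => ∃ c : ℂ, t g = c • g) ?_ ?_ ?_ ?_ ht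
  · rintro x (⟨ℓ, hℓ, hℓM, -, rfl⟩ | ⟨q, hqM, hq, -, rfl⟩)
    · exact ⟨_, Fermat.Agent.S58.helper708.heckeTLin_eq_smul hg hℓ hℓM⟩
    · exact ⟨_, Fermat.Agent.S58.helper708.heckeULin_eq_smul hg hq hqM⟩
  · intro r
    refine ⟨(r : ℂ), ?_⟩
    rw [Algebra.algebraMap_eq_smul_one, LinearMap.smul_apply, Module.End.one_apply,
      Int.cast_smul_eq_zsmul]
  · rintro x y - - ⟨c, hc⟩ ⟨d, hd⟩
    exact ⟨c + d, by rw [LinearMap.add_apply, hc, hd, add_smul]⟩
  · rintro x y - - ⟨c, hc⟩ ⟨d, hd⟩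
    exact ⟨d * c, by rw [Module.End.mul_apply, hd, map_smul, hc, smul_smul]⟩

/-- The scalar by which a Hecke operator acts on a normalized eigenform is the first
coefficient of the image. -/
theorem apply_eq_qCoeff_smul {g : CuspForm (Gamma0 M) 2}
    (hg : g.IsNormalizedEigenform) (S : Set ℕ) (t : heckeAlgebra M 2 S) :
    (t : Module.End ℂ (CuspForm (Gamma0 M) 2)) g =
      qCoeff (⇑((t : Module.End ℂ (CuspForm (Gamma0 M) 2)) g)) 1 • g := by
  obtain ⟨c, hc⟩ := exists_smul_of_mem_heckeAlgebra hg S t.2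
  rw [hc, Fermat.Agent.S58.helper708.qCoeff_smul, hg.qCoeff_one, mul_one]

/-- **The eigen-character** of a normalized eigenform on the Hecke algebra. -/
noncomputable def eigenChar {g : CuspForm (Gamma0 M) 2} (hg : g.IsNormalizedEigenform)
    (S : Set ℕ) : heckeAlgebra M 2 S →+* ℂ where
  toFun t := qCoeff (⇑((t : Module.End ℂ (CuspForm (Gamma0 M) 2)) g)) 1
  map_one' := by
    show qCoeff (⇑((1 : Module.End ℂ (CuspForm (Gamma0 M) 2)) g)) 1 = 1
    rw [Module.End.one_apply, hg.qCoeff_one]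
  map_mul' t t' := by
    show qCoeff (⇑(((t : Module.End ℂ (CuspForm (Gamma0 M) 2)) *
      (t' : Module.End ℂ (CuspForm (Gamma0 M) 2))) g)) 1 = _
    rw [Module.End.mul_apply, apply_eq_qCoeff_smul hg S t', map_smul,
      Fermat.Agent.S58.helper708.qCoeff_smul, mul_comm]
    congr 1
    rw [← apply_eq_qCoeff_smul hg S t']
  map_zero' := by
    show qCoeff (⇑((0 : Module.End ℂ (CuspForm (Gamma0 M) 2)) g)) 1 = 0
    rw [LinearMap.zero_apply]
    exact map_zero (Fermat.Agent.S58.helper708.qCoeffLin M 1)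
  map_add' t t' := by
    show qCoeff (⇑(((t : Module.End ℂ (CuspForm (Gamma0 M) 2)) +
      (t' : Module.End ℂ (CuspForm (Gamma0 M) 2))) g)) 1 = _
    rw [LinearMap.add_apply, Fermat.Agent.S58.helper708.qCoeff_add]

theorem eigenChar_apply {g : CuspForm (Gamma0 M) 2} (hg : g.IsNormalizedEigenform)
    (S : Set ℕ) (t : heckeAlgebra M 2 S) :
    eigenChar hg S t = qCoeff (⇑((t : Module.End ℂ (CuspForm (Gamma0 M) 2)) g)) 1 := rfl

/-- The eigen-character at `T_ℓ` is `a_ℓ(g)`. -/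
theorem eigenChar_T {g : CuspForm (Gamma0 M) 2} (hg : g.IsNormalizedEigenform)
    (S : Set ℕ) {ℓ : ℕ} (hℓ : ℓ.Prime) (hℓM : ¬ ℓ ∣ M) (hℓS : ℓ ∉ S) :
    eigenChar hg S (heckeAlgebra.T hℓ hℓM hℓS) = qCoeff g ℓ := by
  rw [eigenChar_apply, heckeAlgebra.coe_T, Fermat.Agent.S58.helper708.heckeTLin_eq_smul hg hℓ hℓM,
    Fermat.Agent.S58.helper708.qCoeff_smul, hg.qCoeff_one, mul_one]

/-- If all coefficients of `g` are integers, the eigen-character is integer valued. -/
theorem eigenChar_int {g : CuspForm (Gamma0 M) 2} (hg : g.IsNormalizedEigenform)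
    (S : Set ℕ) (hint : ∀ n : ℕ, ∃ z : ℤ, qCoeff g n = (z : ℂ)) (t : heckeAlgebra M 2 S) :
    ∃ z : ℤ, (z : ℂ) = eigenChar hg S t := by
  obtain ⟨t, ht⟩ := t
  refine Algebra.adjoin_induction
    (p := fun t ht => ∃ z : ℤ, (z : ℂ) = eigenChar hg S ⟨t, ht⟩) ?_ ?_ ?_ ?_ ht
  · rintro x hx
    have key : eigenChar hg S ⟨x, Algebra.subset_adjoin hx⟩ ∈ Set.range (fun z : ℤ => (z : ℂ)) := by
      rcases hx with ⟨ℓ, hℓ, hℓM, hℓS, rfl⟩ | ⟨q, hqM, hq, hqS, rfl⟩
      · obtain ⟨z, hz⟩ := hint ℓ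
        refine ⟨z, ?_⟩
        rw [eigenChar_apply]
        show (z : ℂ) = qCoeff (⇑(heckeTLin 2 hℓ hℓM g)) 1
        rw [Fermat.Agent.S58.helper708.heckeTLin_eq_smul hg hℓ hℓM,
          Fermat.Agent.S58.helper708.qCoeff_smul, hg.qCoeff_one, mul_one, hz]
      · obtain ⟨z, hz⟩ := hint q
        refine ⟨z, ?_⟩
        rw [eigenChar_apply]
        show (z : ℂ) = qCoeff (⇑(heckeULin 2 hqM g)) 1
        rw [Fermat.Agent.S58.helper708.heckeULin_eq_smul hg hq hqM,
          Fermat.Agent.S58.helper708.qCoeff_smul, hg.qCoeff_one, mul_one, hz]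
    obtain ⟨z, hz⟩ := key
    exact ⟨z, hz⟩
  · intro r
    refine ⟨r, ?_⟩
    have : (⟨algebraMap ℤ (Module.End ℂ (CuspForm (Gamma0 M) 2)) r,
        Subalgebra.algebraMap_mem _ r⟩ : heckeAlgebra M 2 S) =
        algebraMap ℤ (heckeAlgebra M 2 S) r := rfl
    rw [this, eq_intCast (algebraMap ℤ (heckeAlgebra M 2 S)) r, map_intCast]
  · rintro x y hx hy ⟨c, hc⟩ ⟨d, hd⟩
    refine ⟨c + d, ?_⟩
    have : (⟨x + y, add_mem hx hy⟩ : heckeAlgebra M 2 S) = ⟨x, hx⟩ + ⟨y, hy⟩ := rfl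
    rw [this, map_add, ← hc, ← hd, Int.cast_add]
  · rintro x y hx hy ⟨c, hc⟩ ⟨d, hd⟩
    refine ⟨c * d, ?_⟩
    have : (⟨x * y, mul_mem hx hy⟩ : heckeAlgebra M 2 S) = ⟨x, hx⟩ * ⟨y, hy⟩ := rfl
    rw [this, map_mul, ← hc, ← hd, Int.cast_mul]

end EigenChar

section IntSubring

/-- The ring homomorphism to `ℤ` from a subring of `ℂ` consisting of integers. -/
noncomputable def intSubringToInt (R : Subring ℂ) (hR : ∀ x ∈ R, ∃ z : ℤ, (z : ℂ) = x) :
    R →+* ℤ where
  toFun x := (hR x x.2).choose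
  map_one' := by
    have h := (hR (1 : R) (1 : R).2).choose_spec
    exact_mod_cast h
  map_mul' x y := by
    have h := (hR (x * y) (x * y).2).choose_spec
    have hx := (hR x x.2).choose_spec
    have hy := (hR y y.2).choose_spec
    have : (((hR (x * y) (x * y).2).choose : ℤ) : ℂ) =
        (((hR x x.2).choose * (hR y y.2).choose : ℤ) : ℂ) := by
      rw [h, Int.cast_mul, hx, hy]
    exact_mod_cast this
  map_zero' := by
    have h := (hR (0 : R) (0 : R).2).choose_spec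
    exact_mod_cast h
  map_add' x y := by
    have h := (hR (x + y) (x + y).2).choose_spec
    have hx := (hR x x.2).choose_spec
    have hy := (hR y y.2).choose_spec
    have : (((hR (x + y) (x + y).2).choose : ℤ) : ℂ) =
        (((hR x x.2).choose + (hR y y.2).choose : ℤ) : ℂ) := by
      rw [h, Int.cast_add, hx, hy]
    exact_mod_cast this

theorem intSubringToInt_spec (R : Subring ℂ) (hR : ∀ x ∈ R, ∃ z : ℤ, (z : ℂ) = x) (x : R) :
    ((intSubringToInt R hR x : ℤ) : ℂ) = x :=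
  (hR x x.2).choose_spec

/-- The ring homomorphism to any ring from a subring of `ℂ` consisting of integers. -/
noncomputable def intSubringHom (R : Subring ℂ) (hR : ∀ x ∈ R, ∃ z : ℤ, (z : ℂ) = x)
    (O : Type*) [Ring O] : R →+* O :=
  (Int.castRingHom O).comp (intSubringToInt R hR)

theorem intSubringHom_apply (R : Subring ℂ) (hR : ∀ x ∈ R, ∃ z : ℤ, (z : ℂ) = x)
    (O : Type*) [Ring O] (x : R) (z : ℤ) (hz : (z : ℂ) = x) :
    intSubringHom R hR O x = (z : O) := by
  have h : intSubringToInt R hR x = z := by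
    have := intSubringToInt_spec R hR x
    rw [← hz] at this
    exact_mod_cast this
  show ((intSubringToInt R hR x : ℤ) : O) = (z : O)
  rw [h]

end IntSubring

section Main

variable {M : ℕ} [NeZero M]

/-- **Integrality and the pair `(chig, iota)`.**  A Prelude newform `g` of level `M` whose
coefficients at the primes `ℓ ∤ M` outside a finite set `X` are integers has integer
coefficients `b n`; for every set `S` there is a character `chig` of the Hecke algebra with
`chig (T_ℓ) = a_ℓ(g)`, and for every ring `O` a ring homomorphism `iota : chig.range →+* O` with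
`iota (chig (T_ℓ)) = b ℓ`. -/
theorem exists_chig_iota {g : CuspForm (Gamma0 M) 2} (hg : g.IsNewform) (X : Finset ℕ)
    (hX : ∀ ℓ : ℕ, ℓ.Prime → ¬ ℓ ∣ M → ℓ ∉ X → ∃ z : ℤ, qCoeff g ℓ = (z : ℂ)) :
    ∃ b : ℕ → ℤ, (∀ n : ℕ, qCoeff g n = (b n : ℂ)) ∧
      ∀ S : Set ℕ, ∃ chig : heckeAlgebra M 2 S →+* ℂ,
        (∀ (ℓ : ℕ) (hℓ : ℓ.Prime) (hℓM : ¬ ℓ ∣ M) (hℓS : ℓ ∉ S),
          chig (heckeAlgebra.T hℓ hℓM hℓS) = qCoeff g ℓ) ∧
        ∀ (O : Type) [CommRing O], ∃ iota : chig.range →+* O,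
          ∀ (ℓ : ℕ) (hℓ : ℓ.Prime) (hℓM : ¬ ℓ ∣ M) (hℓS : ℓ ∉ S),
            (iota.comp chig.rangeRestrict) (heckeAlgebra.T hℓ hℓM hℓS) = ((b ℓ : ℤ) : O) := by
  have hint : ∀ n : ℕ, ∃ z : ℤ, qCoeff g n = (z : ℂ) :=
    Fermat.Agent.S58.helper708.exists_int_qCoeff g hg.1 (↑X : Set ℕ)
      (fun h hT => Fermat.Agent.S58.helper6078.multiplicity_one hg (↑X : Set ℕ)
        X.finite_toSet h hT)
      (fun ℓ hℓ hℓM hℓX => by
        obtain ⟨z, hz⟩ := hX ℓ hℓ hℓM (fun h => hℓX (Finset.mem_coe.mpr h))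
        exact ⟨(z : ℚ), by rw [hz]; push_cast; rfl⟩)
  choose b hb using hint
  refine ⟨b, hb, fun S => ⟨eigenChar hg.1 S, fun ℓ hℓ hℓM hℓS => eigenChar_T hg.1 S hℓ hℓM hℓS,
    fun O _ => ?_⟩⟩
  have hR : ∀ x ∈ (eigenChar hg.1 S).range, ∃ z : ℤ, (z : ℂ) = x := by
    rintro x ⟨t, rfl⟩
    exact eigenChar_int hg.1 S (fun n => ⟨b n, hb n⟩) t
  refine ⟨intSubringHom _ hR O, fun ℓ hℓ hℓM hℓS => ?_⟩
  rw [RingHom.comp_apply]
  apply intSubringHom_apply
  rw [RingHom.coe_rangeRestrict, eigenChar_T hg.1 S hℓ hℓM hℓS, hb ℓ]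

end Main

end Fermat.Agent.S58.helper6156
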