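import Mathlib
import Fermat.Agent.S58.helper6156_Stmts
import Fermat.Agent.S58.helper6156_CurveSide
import Fermat.Agent.S58.helper6156_Eigen
import Fermat.Agent.S58.helper1646_Raise
import Fermat.Agent.Lib.helper54_Frobenius

/-!
# S58 assembly (helper6156), part 4: the arithmetic core of S58 from the frozen S35 and S36

`stmt_Core_of : Stmt_S35 → Stmt_S36 → … → Stmt_Hres W p → helper1646.Stmt_Core W N`.

For a semistable integral model `W` (`Δ ≠ 0`), a cube-free level `N ≠ 0` divisible by the bad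
primes, an odd prime `p` with `p² ∤ N`, and a Prelude newform `g` of level `M ∣ N` with
`a_ℓ(g) = a_ℓ(W)` at the good primes `ℓ ∤ N`:

* all `a_n(g)` are integers (`exists_chig_iota`), so `(chig, iota)` exist for every `S`, `O'`;
* (C') `q² ∤ M` for `q ≠ p`: the frozen S36 at `lam = p`, `O' = ℤ_p` gives `ρ` which is NOT
  unipotent on inertia at `q`; TRANSFER + semistability give `charpoly ρ(τ) = (X - 1)²`;
* (B') `q ∥ M ⟹ q ∣ Δ`: the frozen S35 (clause 2) gives `tr ρ(Frob_q) = ±(q + 1)`; for good `q`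
  TRANSFER gives `tr ρ(Frob_q) = a_q(W)`, and `|a_q(W)| ≤ q`;
* (ii) `a_ℓ(g) = a_ℓ(W)` at the good primes `ℓ ∣ N`: then `ℓ ∤ M`, and S35 (clause 1) with
  `ℓ ∉ S` and TRANSFER at `Frob_ℓ`.

`Stmt_Hres W p` is the hypothesis `hres` of S36 in the only situation where it is needed; it is
proved in `helper6156_Hres`.
-/

set_option autoImplicit false

namespace Fermat.Agent.S58.helper6156

open Polynomial WeierstrassCurve CuspForm ModularFormClass

local notation "Qb" => AlgebraicClosure ℚ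
local notation "GQ" => (AlgebraicClosure ℚ ≃ₐ[ℚ] AlgebraicClosure ℚ)

/-- The hypothesis `hres` of the frozen S36 for representations with the Frobenius
characteristic polynomials of `W` (at almost all primes). -/
def Stmt_Hres (W : WeierstrassCurve ℤ) (p : ℕ) : Prop :=
  ∀ (T : Type) [CommRing T] [IsDomain T] [IsDiscreteValuationRing T]
    (_hp : (p : T) ∈ IsLocalRing.maximalIdeal T) (ρ : GaloisRepAdic T) (B : Finset ℕ),
    (∀ ℓ : ℕ, ℓ.Prime → ℓ ∉ B → ∀ A : ValuationSubring Qb, A.LiesOverPrime ℓ →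
      ∀ φ : GQ, A.IsFrobeniusAt φ ℓ →
        LinearMap.charpoly (ρ.ρ φ) = X ^ 2 - C ((W.apOfModel ℓ : ℤ) : T) * X + C ((ℓ : ℕ) : T)) →
    ρ.residual.IsAbsolutelyIrreducible ∧ ρ.residual.IsOdd

/-! ### Step 1: TRANSFER for the torsion of `W` -/

section Step1

variable (W : WeierstrassCurve ℤ) (hΔ : W.Δ ≠ 0) {N : ℕ} (hN0 : N ≠ 0)
  (hbad : ∀ ℓ : ℕ, ℓ.Prime → (ℓ : ℤ) ∣ W.Δ → ℓ ∣ N)

include hΔ hN0 hbad

/-- The torsion systems `W(ℚ̄)[lam ^ n]`, with bad set `B₀ ∪ primes(N) ∪ {lam}`. -/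
theorem torsSys_pow {lam : ℕ} (hlam : lam.Prime) (B₀ : Finset ℕ) (n : ℕ) :
    TorsSys (lam ^ n) (B₀ ∪ N.primeFactors ∪ {lam}) (fun ℓ => W.apOfModel ℓ)
      (TorsW W (lam ^ n)) := by
  refine torsSys W hΔ (pow_ne_zero n hlam.ne_zero) _ fun ℓ hℓ hℓB => ?_
  simp only [Finset.mem_union, Finset.mem_singleton, not_or] at hℓB
  obtain ⟨⟨-, hℓN⟩, hℓlam⟩ := hℓB
  have hℓN' : ¬ ℓ ∣ N := fun h => hℓN (Nat.mem_primeFactors.mpr ⟨hℓ, h, hN0⟩)
  refine ⟨fun h => hℓN' (hbad ℓ hℓ h), fun h => hℓlam ?_⟩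
  exact (Nat.prime_dvd_prime_iff_eq hℓ hlam).mp (hℓ.dvd_of_dvd_pow h)

variable {T : Type} [CommRing T] [IsLocalRing T] [IsNoetherianRing T] (ρ : GaloisRepAdic T)

/-- **TRANSFER for `W`.**  Let `ρ` have the Frobenius characteristic polynomials of `W` at the
primes `ℓ ∤ N` outside a finite set `B₀`.  If `σ` kills `X² - s X + d` on all `W(ℚ̄)[lam ^ n]`
and raises the `lam`-power roots of unity to the `d`-th power, then `tr ρ(σ) = s` and
`det ρ(σ) = d`. -/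
theorem trace_det_of_rel {lam : ℕ} (hlam : lam.Prime)
    (hlamT : (lam : T) ∈ IsLocalRing.maximalIdeal T) (B₀ : Finset ℕ)
    (hρ : ∀ ℓ : ℕ, ℓ.Prime → ¬ ℓ ∣ N → ℓ ∉ B₀ → ∀ A : ValuationSubring Qb, A.LiesOverPrime ℓ →
      ∀ φ : GQ, A.IsFrobeniusAt φ ℓ →
        LinearMap.charpoly (ρ.ρ φ) = X ^ 2 - C ((W.apOfModel ℓ : ℤ) : T) * X + C ((ℓ : ℕ) : T))
    (σ : GQ) (s : ℤ) (d : ℕ)
    (h1 : ∀ n, ∀ v : TorsW W (lam ^ n), σ • σ • v - s • σ • v + (d : ℤ) • v = 0)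
    (h2 : ∀ n, ∀ ζ : Qb, ζ ^ (lam ^ n) = 1 → σ ζ = ζ ^ d) :
    LinearMap.trace T ρ.V (ρ.ρ σ) = (s : T) ∧ LinearMap.det (ρ.ρ σ) = (d : T) := by
  refine trace_det_eq_of_forall ρ hlam.ne_zero hlamT (W := fun n => TorsW W (lam ^ n))
    (B := B₀ ∪ N.primeFactors ∪ {lam}) (a := fun ℓ => W.apOfModel ℓ)
    (fun n => torsSys_pow W hΔ hN0 hbad hlam B₀ n) ?_ σ s d h1 h2
  intro ℓ hℓ hℓB A hA φ hφ
  simp only [Finset.mem_union, Finset.mem_singleton, not_or] at hℓB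
  obtain ⟨⟨hℓB₀, hℓN⟩, -⟩ := hℓB
  exact hρ ℓ hℓ (fun h => hℓN (Nat.mem_primeFactors.mpr ⟨hℓ, h, hN0⟩)) hℓB₀ A hA φ hφ

/-- **Unipotent inertia.**  For a semistable `W` and an odd prime `p`, a `p`-adic `ρ` with the
Frobenius characteristic polynomials of `W` is unipotent on inertia at every prime `q ≠ p`. -/
theorem isUnipotentOnInertiaAt_of_frob (hss : W.IsSemistableModel) {p : ℕ} (hp : p.Prime)
    (hp2 : p ≠ 2) (hpT : (p : T) ∈ IsLocalRing.maximalIdeal T) (B₀ : Finset ℕ)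
    (hρ : ∀ ℓ : ℕ, ℓ.Prime → ¬ ℓ ∣ N → ℓ ∉ B₀ → ∀ A : ValuationSubring Qb, A.LiesOverPrime ℓ →
      ∀ φ : GQ, A.IsFrobeniusAt φ ℓ →
        LinearMap.charpoly (ρ.ρ φ) = X ^ 2 - C ((W.apOfModel ℓ : ℤ) : T) * X + C ((ℓ : ℕ) : T))
    {q : ℕ} (hq : q.Prime) (hqp : q ≠ p) : ρ.IsUnipotentOnInertiaAt q := by
  intro P hP τ hτ
  have hqpn : ∀ n : ℕ, ¬ q ∣ p ^ n := fun n h =>
    hqp ((Nat.prime_dvd_prime_iff_eq hq hp).mp (hq.dvd_of_dvd_pow h))
  obtain ⟨htr, hdet⟩ := trace_det_of_rel W hΔ hN0 hbad ρ hp hpT B₀ hρ τ 2 1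
    (fun n v => inertia_rel W hss hq (Odd.pow (hp.odd_of_ne_two hp2)) (hqpn n) P hP hτ v)
    (fun n ζ hζ => inertia_root (pow_ne_zero n hp.ne_zero)
      (Nat.Coprime.symm ((Nat.Prime.coprime_iff_not_dvd hq).mpr (hqpn n))) P hP hτ ζ hζ)
  rw [Fermat.Agent.S31.helper8458.charpoly_eq_of_finrank_two ρ.finrank_eq, htr, hdet]
  simp only [Int.cast_ofNat, Nat.cast_one, map_one, map_ofNat]
  ring

/-- **Frobenius at a good prime.**  For a prime `q ≠ lam` of good reduction, `tr ρ(Frob_q) =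
a_q(W)`. -/
theorem trace_frob_of_good {lam : ℕ} (hlam : lam.Prime)
    (hlamT : (lam : T) ∈ IsLocalRing.maximalIdeal T) (B₀ : Finset ℕ)
    (hρ : ∀ ℓ : ℕ, ℓ.Prime → ¬ ℓ ∣ N → ℓ ∉ B₀ → ∀ A : ValuationSubring Qb, A.LiesOverPrime ℓ →
      ∀ φ : GQ, A.IsFrobeniusAt φ ℓ →
        LinearMap.charpoly (ρ.ρ φ) = X ^ 2 - C ((W.apOfModel ℓ : ℤ) : T) * X + C ((ℓ : ℕ) : T))
    {q : ℕ} (hq : q.Prime) (hqlam : q ≠ lam) (hgood : W.IsGoodPrimeFor q)
    (A : ValuationSubring Qb) (hA : A.LiesOverPrime q) (φ : GQ) (hφ : A.IsFrobeniusAt φ q) :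
    LinearMap.trace T ρ.V (ρ.ρ φ) = ((W.apOfModel q : ℤ) : T) := by
  have hcop : ∀ n : ℕ, Nat.Coprime (lam ^ n) q := fun n =>
    Nat.Coprime.symm ((Nat.Prime.coprime_iff_not_dvd hq).mpr fun h =>
      hqlam ((Nat.prime_dvd_prime_iff_eq hq hlam).mp (hq.dvd_of_dvd_pow h)))
  exact (trace_det_of_rel W hΔ hN0 hbad ρ hlam hlamT B₀ hρ φ (W.apOfModel q) q
    (fun n v => frob_rel W hq hgood (hcop n) A hA hφ v)
    (fun n ζ hζ => frob_root (pow_ne_zero n hlam.ne_zero) (hcop n) A hA hφ ζ hζ)).1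

end Step1

/-! ### `p`-adic integers as the coefficient ring `O'` -/

section Padic

variable (p : ℕ) [Fact p.Prime]

instance finite_residueField_padicInt : Finite (IsLocalRing.ResidueField ℤ_[p]) :=
  Finite.of_equiv (ZMod p) (PadicInt.residueField (p := p)).symm.toEquiv

theorem natCast_mem_maximalIdeal_padicInt : (p : ℤ_[p]) ∈ IsLocalRing.maximalIdeal ℤ_[p] := by
  rw [PadicInt.maximalIdeal_eq_span_p]
  exact Ideal.mem_span_singleton_self _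

end Padic

/-- A local homomorphism sends a natural number of the maximal ideal into the maximal ideal. -/
theorem natCast_mem_maximalIdeal_of_isLocalHom {O' O'' : Type*} [CommRing O'] [IsLocalRing O']
    [CommRing O''] [IsLocalRing O''] [Algebra O' O''] [IsLocalHom (algebraMap O' O'')] {p : ℕ}
    (hp : (p : O') ∈ IsLocalRing.maximalIdeal O') : (p : O'') ∈ IsLocalRing.maximalIdeal O'' := by
  have h := map_nonunit (algebraMap O' O'') (p : O') hp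
  rwa [map_natCast] at h

/-! ### The core -/

/-- **The arithmetic core of S58 from the frozen statements S35 and S36.** -/
theorem stmt_Core_of (h35 : Stmt_S35) (h36 : Stmt_S36)
    (W : WeierstrassCurve ℤ) (hss : W.IsSemistableModel) (N p : ℕ) (hp : p.Prime) (hp2 : p ≠ 2)
    (hH : Stmt_Hres W p) (hp2N : ¬ p ^ 2 ∣ N)
    (hbad : ∀ ℓ : ℕ, ℓ.Prime → (ℓ : ℤ) ∣ W.Δ → ℓ ∣ N) (hN3 : ∀ q : ℕ, q.Prime → ¬ q ^ 3 ∣ N)
    (hΔ : W.Δ ≠ 0) (hN0 : N ≠ 0) : Fermat.Agent.S58.helper1646.Stmt_Core W N := by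
  intro M g hMN hg hgW
  have hM0 : M ≠ 0 := ne_zero_of_dvd_ne_zero hN0 hMN
  have : NeZero M := ⟨hM0⟩
  -- good primes not dividing `N`
  have hgoodN : ∀ ℓ : ℕ, ℓ.Prime → ¬ ℓ ∣ N → W.IsGoodPrimeFor ℓ :=
    fun ℓ hℓ hℓN h => hℓN (hbad ℓ hℓ h)
  -- integrality and the pairs `(chig, iota)`
  obtain ⟨b, hb, hE⟩ := exists_chig_iota hg N.primeFactors (fun ℓ hℓ _ hℓX => by
    have hℓN : ¬ ℓ ∣ N := fun h => hℓX (Nat.mem_primeFactors.mpr ⟨hℓ, h, hN0⟩)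
    exact ⟨W.apOfModel ℓ, hgW ℓ hℓ (hgoodN ℓ hℓ hℓN) hℓN⟩)
  have hbW : ∀ ℓ : ℕ, ℓ.Prime → ¬ ℓ ∣ N → b ℓ = W.apOfModel ℓ := by
    intro ℓ hℓ hℓN
    have h := hgW ℓ hℓ (hgoodN ℓ hℓ hℓN) hℓN
    rw [hb ℓ] at h
    exact_mod_cast h
  have hMdvd : ∀ ℓ : ℕ, ¬ ℓ ∣ N → ¬ ℓ ∣ M := fun ℓ hℓN h => hℓN (h.trans hMN)
  -- the Frobenius characteristic polynomials in integer form
  have hconv : ∀ (lam : ℕ) [Fact lam.Prime] (S : Finset ℕ)
      (chig : CuspForm.heckeAlgebra M 2 (↑S : Set ℕ) →+* ℂ) (iota : chig.range →+* ℤ_[lam])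
      (_hiota : ∀ (ℓ : ℕ) (hℓ : ℓ.Prime) (hℓM : ¬ ℓ ∣ M) (hℓS : ℓ ∉ (↑S : Set ℕ)),
        (iota.comp chig.rangeRestrict) (heckeAlgebra.T hℓ hℓM hℓS) = ((b ℓ : ℤ) : ℤ_[lam]))
      (O'' : Type) [CommRing O''] [Algebra ℤ_[lam] O''] (ℓ : ℕ) (hℓ : ℓ.Prime) (hℓM : ¬ ℓ ∣ M)
      (hℓS : ℓ ∉ (↑S : Set ℕ)),
      (X ^ 2 - C (algebraMap ℤ_[lam] O''
        ((iota.comp chig.rangeRestrict) (CuspForm.heckeAlgebra.T hℓ hℓM hℓS))) * X
          + C ((ℓ : O'')) : O''[X]) = X ^ 2 - C ((b ℓ : ℤ) : O'') * X + C ((ℓ : ℕ) : O'') := by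
    intro lam _ S chig iota hiota O'' _ _ ℓ hℓ hℓM hℓS
    rw [hiota ℓ hℓ hℓM hℓS, map_intCast]
  -- (C') no prime `q ≠ p` has exponent `2` in `M`
  have hC : ∀ q : ℕ, q.Prime → q ≠ p → M.factorization q ≠ 2 := by
    intro q hq hqp hfac
    have : Fact p.Prime := ⟨hp⟩
    set S : Finset ℕ := insert p (M.primeFactors ∪ N.primeFactors) with hS
    obtain ⟨chig, hchig, hio⟩ := hE (↑S : Set ℕ)
    obtain ⟨iota, hiota⟩ := hio ℤ_[p]
    have hpS : p ∈ S := Finset.mem_insert_self _ _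
    have hMS : ∀ q : ℕ, q.Prime → q ∣ M → q ∈ S := fun q hq hqM =>
      Finset.mem_insert_of_mem (Finset.mem_union_left _ (Nat.mem_primeFactors.mpr ⟨hq, hqM, hM0⟩))
    have hSN : ∀ ℓ : ℕ, ℓ.Prime → ℓ ∉ S → ¬ ℓ ∣ N := fun ℓ hℓ hℓS h =>
      hℓS (Finset.mem_insert_of_mem
        (Finset.mem_union_right _ (Nat.mem_primeFactors.mpr ⟨hℓ, h, hN0⟩)))
    obtain ⟨O'', _, _, _, _, _, _, _, _, _, -, ρ, hfrob, hnu⟩ :=
      h36 hg p S ℤ_[p] (natCast_mem_maximalIdeal_padicInt p) hp2 chig hchig iota hpS hMS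
        (by
          intro O'' _ _ _ _ _ _ _ _ _ _ ρ hρ
          refine hH O'' (natCast_mem_maximalIdeal_of_isLocalHom
            (natCast_mem_maximalIdeal_padicInt p)) ρ S ?_
          intro ℓ hℓ hℓS A hA φ hφ
          have hℓN := hSN ℓ hℓ hℓS
          have hℓS' : ℓ ∉ (↑S : Set ℕ) := fun h => hℓS (Finset.mem_coe.mp h)
          have hℓp : ℓ ≠ p := fun h => hℓS (h ▸ hpS)
          rw [hρ ℓ hℓ hℓp (hMdvd ℓ hℓN) hℓS' A hA φ hφ,
            hconv p S chig iota hiota O'' ℓ hℓ (hMdvd ℓ hℓN) hℓS', hbW ℓ hℓ hℓN])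
    refine hnu q hq hqp hfac ?_
    refine isUnipotentOnInertiaAt_of_frob W hΔ hN0 hbad ρ hss hp hp2
      (natCast_mem_maximalIdeal_of_isLocalHom (natCast_mem_maximalIdeal_padicInt p)) S ?_ hq hqp
    intro ℓ hℓ hℓN hℓS A hA φ hφ
    have hℓS' : ℓ ∉ (↑S : Set ℕ) := fun h => hℓS (Finset.mem_coe.mp h)
    rw [hfrob ℓ hℓ (hMdvd ℓ hℓN) hℓS' A hA φ hφ,
      hconv p S chig iota hiota O'' ℓ hℓ (hMdvd ℓ hℓN) hℓS', hbW ℓ hℓ hℓN]
  -- `M` is squarefree
  have hfac : ∀ q : ℕ, q.Prime → M.factorization q ≤ 1 := by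
    intro q hq
    by_cases hqp : q = p
    · subst hqp
      by_contra hlt
      rw [not_le] at hlt
      exact hp2N (((Nat.Prime.pow_dvd_iff_le_factorization hq hM0).mpr hlt).trans hMN)
    · have h3 : M.factorization q ≤ 2 := by
        by_contra hlt
        rw [not_le] at hlt
        exact hN3 q hq (((Nat.Prime.pow_dvd_iff_le_factorization hq hM0).mpr hlt).trans hMN)
      have h2 := hC q hq hqp
      omega
  have hsq : ∀ q : ℕ, q.Prime → ¬ q ^ 2 ∣ M := fun q hq h => by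
    have := (Nat.Prime.pow_dvd_iff_le_factorization hq hM0).mp h
    have := hfac q hq
    omega
  -- (B') every prime dividing `M` divides `Δ`
  have hB : ∀ q : ℕ, q.Prime → q ∣ M → (q : ℤ) ∣ W.Δ := by
    intro q hq hqM
    by_contra hgood
    -- an auxiliary prime `lam ≠ q`
    obtain ⟨lam, hlam, hlamq⟩ : ∃ lam : ℕ, lam.Prime ∧ q ≠ lam := by
      by_cases h2 : q = 2
      · exact ⟨3, Nat.prime_three, by omega⟩
      · exact ⟨2, Nat.prime_two, h2⟩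
    have : Fact lam.Prime := ⟨hlam⟩
    set S : Finset ℕ := insert lam (M.primeFactors ∪ N.primeFactors) with hS
    obtain ⟨chig, hchig, hio⟩ := hE (↑S : Set ℕ)
    obtain ⟨iota, hiota⟩ := hio ℤ_[lam]
    have hlamS : lam ∈ S := Finset.mem_insert_self _ _
    have hMS : ∀ q : ℕ, q.Prime → q ∣ M → q ∈ S := fun q hq hqM =>
      Finset.mem_insert_of_mem (Finset.mem_union_left _ (Nat.mem_primeFactors.mpr ⟨hq, hqM, hM0⟩))
    obtain ⟨O'', _, _, _, _, _, _, _, _, _, -, ρ, hfrob, hcl2⟩ :=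
      h35 hg lam S ℤ_[lam] (natCast_mem_maximalIdeal_padicInt lam) chig hchig iota hlamS hMS
    obtain ⟨A, φ, hA, hφ⟩ := Fermat.Agent.Lib.helper54.exists_liesOverPrime_isFrobeniusAt hq
    have htr : LinearMap.trace O'' ρ.V (ρ.ρ φ) = ((W.apOfModel q : ℤ) : O'') := by
      refine trace_frob_of_good W hΔ hN0 hbad ρ hlam
        (natCast_mem_maximalIdeal_of_isLocalHom (natCast_mem_maximalIdeal_padicInt lam)) S ?_
        hq hlamq hgood A hA φ hφ
      intro ℓ hℓ hℓN hℓS A hA φ hφ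
      have hℓS' : ℓ ∉ (↑S : Set ℕ) := fun h => hℓS (Finset.mem_coe.mp h)
      rw [hfrob ℓ hℓ (hMdvd ℓ hℓN) hℓS' A hA φ hφ,
        hconv lam S chig iota hiota O'' ℓ hℓ (hMdvd ℓ hℓN) hℓS', hbW ℓ hℓ hℓN]
    have hbound := abs_apOfModel_le W hq
    rcases hcl2 q hq hlamq hqM (hsq q hq) A hA φ hφ with h | h
    · have h' := (Fermat.Agent.S31.helper8458.trace_det_of_charpoly ρ.finrank_eq (ρ.ρ φ) _ _ h).1
      rw [htr] at h'
      have h'' : W.apOfModel q = (q : ℤ) + 1 := by exact_mod_cast h'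
      rw [h'', abs_le] at hbound
      omega
    · have h0 : LinearMap.charpoly (ρ.ρ φ) =
          X ^ 2 - C (-((q : O'') + 1)) * X + C ((q : O'')) := by
        rw [h, map_neg]; ring
      have h' := (Fermat.Agent.S31.helper8458.trace_det_of_charpoly ρ.finrank_eq (ρ.ρ φ) _ _ h0).1
      rw [htr] at h'
      have h'' : W.apOfModel q = -((q : ℤ) + 1) := by exact_mod_cast h'
      rw [h'', abs_le] at hbound
      omega
  refine ⟨?_, ?_⟩
  · -- `M ∣ rad |Δ|`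
    have hc0 : W.conductorLevel ≠ 0 := W.conductorLevel_pos.ne'
    rw [← Nat.factorization_le_iff_dvd hM0 hc0]
    intro q
    by_cases hq : q.Prime
    · by_cases hqM : q ∣ M
      · have h1 : q ∣ W.conductorLevel :=
          (W.prime_dvd_conductorLevel_iff hΔ hq).mpr (hB q hq hqM)
        have h2 : 1 ≤ W.conductorLevel.factorization q :=
          (hq.dvd_iff_one_le_factorization hc0).mp h1
        exact (hfac q hq).trans h2
      · rw [Nat.factorization_eq_zero_of_not_dvd hqM]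
        exact Nat.zero_le _
    · rw [Nat.factorization_eq_zero_of_not_prime M hq]
      exact Nat.zero_le _
  · -- (ii) the coefficients at all good primes
    intro ℓ hℓ hgood
    by_cases hℓN : ℓ ∣ N
    · have hℓM : ¬ ℓ ∣ M := fun h => hgood (hB ℓ hℓ h)
      obtain ⟨lam, hlam, hlamℓ⟩ : ∃ lam : ℕ, lam.Prime ∧ ℓ ≠ lam := by
        by_cases h2 : ℓ = 2
        · exact ⟨3, Nat.prime_three, by omega⟩
        · exact ⟨2, Nat.prime_two, h2⟩
      have : Fact lam.Prime := ⟨hlam⟩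
      set S : Finset ℕ := insert lam (M.primeFactors ∪ N.primeFactors.erase ℓ) with hS
      obtain ⟨chig, hchig, hio⟩ := hE (↑S : Set ℕ)
      obtain ⟨iota, hiota⟩ := hio ℤ_[lam]
      have hlamS : lam ∈ S := Finset.mem_insert_self _ _
      have hMS : ∀ q : ℕ, q.Prime → q ∣ M → q ∈ S := fun q hq hqM =>
        Finset.mem_insert_of_mem
          (Finset.mem_union_left _ (Nat.mem_primeFactors.mpr ⟨hq, hqM, hM0⟩))
      have hℓS : ℓ ∉ (↑S : Set ℕ) := by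
        intro h
        rw [Finset.mem_coe, hS, Finset.mem_insert, Finset.mem_union, Finset.mem_erase] at h
        rcases h with h | h | h
        · exact hlamℓ h
        · exact hℓM (Nat.dvd_of_mem_primeFactors h)
        · exact h.1 rfl
      obtain ⟨O'', _, _, _, _, _, _, _, _, _, -, ρ, hfrob, -⟩ :=
        h35 hg lam S ℤ_[lam] (natCast_mem_maximalIdeal_padicInt lam) chig hchig iota hlamS hMS
      obtain ⟨A, φ, hA, hφ⟩ := Fermat.Agent.Lib.helper54.exists_liesOverPrime_isFrobeniusAt hℓ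
      have htr : LinearMap.trace O'' ρ.V (ρ.ρ φ) = ((W.apOfModel ℓ : ℤ) : O'') := by
        refine trace_frob_of_good W hΔ hN0 hbad ρ hlam
          (natCast_mem_maximalIdeal_of_isLocalHom (natCast_mem_maximalIdeal_padicInt lam))
          (insert ℓ S) ?_ hℓ hlamℓ hgood A hA φ hφ
        intro ℓ' hℓ' hℓ'N hℓ'S A hA φ hφ
        have hℓ'S' : ℓ' ∉ (↑S : Set ℕ) := fun h =>
          hℓ'S (Finset.mem_insert_of_mem (Finset.mem_coe.mp h))
        rw [hfrob ℓ' hℓ' (hMdvd ℓ' hℓ'N) hℓ'S' A hA φ hφ,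
          hconv lam S chig iota hiota O'' ℓ' hℓ' (hMdvd ℓ' hℓ'N) hℓ'S', hbW ℓ' hℓ' hℓ'N]
      have h := hfrob ℓ hℓ hℓM hℓS A hA φ hφ
      rw [hconv lam S chig iota hiota O'' ℓ hℓ hℓM hℓS] at h
      have h' := (Fermat.Agent.S31.helper8458.trace_det_of_charpoly ρ.finrank_eq (ρ.ρ φ) _ _ h).1
      rw [htr] at h'
      have h'' : W.apOfModel ℓ = b ℓ := by exact_mod_cast h'
      rw [hb ℓ, h'']
    · exact hgW ℓ hℓ hgood hℓN

end Fermat.Agent.S58.helper6156
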