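import Fermat.Agent.S58.helper6156_Hres

/-!
# S58 assembly (helper6156), part 6: the frozen statement S58 from the frozen S35 and S36

`frozen_of_s35_s36 : Stmt_S35 → Stmt_S36 → (the frozen statement S58)`.

`Stmt_S35`, `Stmt_S36` (`helper6156_Stmts`) are the types of the frozen statements S35 and S36,
binder for binder, so that once `Fermat.Agent.S35.result` and `Fermat.Agent.S36.result` exist,

```
theorem result … : W.IsModularModelOfLevel W.conductorLevel :=
  Fermat.Agent.S58.helper6156.frozen_of_s35_s36 @Fermat.Agent.S35.result @Fermat.Agent.S36.result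
    W hss N p hp2 hirr hp2N hN hbad hN3
```

is the whole of `Fermat/Agent/S58.lean`.  Everything else is unconditional.
-/

set_option autoImplicit false

namespace Fermat.Agent.S58.helper6156

/-- **The frozen statement S58 from the frozen statements S35 and S36.** -/
theorem frozen_of_s35_s36 (h35 : Stmt_S35) (h36 : Stmt_S36)
    (W : WeierstrassCurve ℤ) (hss : W.IsSemistableModel) (N : ℕ)
    (p : ℕ) [Fact p.Prime] (hp2 : p ≠ 2) (hirr : W.ModRepIsIrreducible p)
    (hp2N : ¬ p ^ 2 ∣ N)
    (hN : W.IsModularModelOfLevel N) (hbad : ∀ ℓ : ℕ, ℓ.Prime → (ℓ : ℤ) ∣ W.Δ → ℓ ∣ N)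
    (hN3 : ∀ q : ℕ, q.Prime → ¬ q ^ 3 ∣ N) :
    W.IsModularModelOfLevel W.conductorLevel :=
  Fermat.Agent.S58.helper1646.frozen_of_core
    (fun W hss N p hp hp2 hirr hp2N _ hbad hN3 hΔ hN0 =>
      have : Fact p.Prime := ⟨hp⟩
      stmt_Core_of h35 h36 W hss N p hp hp2 (stmt_Hres W hΔ p hp2 hirr) hp2N hbad hN3 hΔ hN0)
    W hss N p hp2 hirr hp2N hN hbad hN3

end Fermat.Agent.S58.helper6156
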