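import Mathlib
import Fermat.Prelude.Def_GaloisRep_ComplexConjugation
import Fermat.Agent.S58.helper6156_Core
import Fermat.Agent.S58.helper6156_ArtinSchreier
import Fermat.Agent.S58.helper6156_AbsIrr
import Fermat.Agent.S30.helper6350_CycloPkg

/-!
# S58 assembly (helper6156), part 5: the hypothesis `hres` of S36

`stmt_Hres : W.Δ ≠ 0 → p ≠ 2 → W.ModRepIsIrreducible p → Stmt_Hres W p`: a `p`-adic
representation `ρ` (over a DVR `T` of residue characteristic `p`) with the Frobenius
characteristic polynomials of `W` at almost all primes has an odd and absolutely irreducible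
residual representation.

* Oddness, for EVERY involution `c ≠ 1` of `Gal(ℚ̄/ℚ)`: `c` inverts the `p`-th roots of unity
  (`helper6156_ArtinSchreier`), and generator-Chebotarev (`exists_quad` at level `p`) gives
  `det ρ(c) ≡ d mod 𝔪` with `c ζ = ζ ^ d` on `μ_p`.
* Absolute irreducibility: `absIrr_of_quad` for `V = W(ℚ̄)[p]` and the residual representation
  over the algebraic closure of the residue field, with `c` the Prelude `complexConjugation`.
-/

set_option autoImplicit false

namespace Fermat.Agent.S58.helper6156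

open Polynomial WeierstrassCurve

local notation "Qb" => AlgebraicClosure ℚ
local notation "GQ" => (AlgebraicClosure ℚ ≃ₐ[ℚ] AlgebraicClosure ℚ)

section Residual

variable {T : Type} [CommRing T] [IsLocalRing T] (ρ : GaloisRepAdic T)

/-- Elements congruent modulo `𝔪 ^ 1` have the same residue. -/
theorem residue_eq_of_sub_mem {x y : T} (h : x - y ∈ IsLocalRing.maximalIdeal T ^ 1) :
    IsLocalRing.residue T x = IsLocalRing.residue T y := by
  rw [pow_one] at h
  rw [← sub_eq_zero, ← map_sub]
  exact (IsLocalRing.residue_eq_zero_iff _).mpr h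

/-- Trace and determinant of the residual representation from congruences modulo `𝔪`. -/
theorem residual_trace_det (σ : GQ) (s : ℤ) (d : ℕ)
    (htr : LinearMap.trace T ρ.V (ρ.ρ σ) - (s : T) ∈ IsLocalRing.maximalIdeal T ^ 1)
    (hdet : LinearMap.det (ρ.ρ σ) - (d : T) ∈ IsLocalRing.maximalIdeal T ^ 1) :
    LinearMap.trace (IsLocalRing.ResidueField T) ρ.residual.V (ρ.residual.ρ σ) =
        (s : IsLocalRing.ResidueField T) ∧
      LinearMap.det (ρ.residual.ρ σ) = (d : IsLocalRing.ResidueField T) := by
  constructor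
  · have h2 : LinearMap.trace (IsLocalRing.ResidueField T) ρ.residual.V (ρ.residual.ρ σ) =
        algebraMap T (IsLocalRing.ResidueField T) (LinearMap.trace T ρ.V (ρ.ρ σ)) :=
      LinearMap.trace_baseChange (ρ.ρ σ) (IsLocalRing.ResidueField T)
    rw [h2, IsLocalRing.ResidueField.algebraMap_eq, residue_eq_of_sub_mem htr, map_intCast]
  · have h2 : LinearMap.det (ρ.residual.ρ σ) =
        algebraMap T (IsLocalRing.ResidueField T) (LinearMap.det (ρ.ρ σ)) :=
      LinearMap.det_baseChange (A := IsLocalRing.ResidueField T) (ρ.ρ σ)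
    rw [h2, IsLocalRing.ResidueField.algebraMap_eq, residue_eq_of_sub_mem hdet, map_natCast]

end Residual

/-- **The hypothesis `hres` of the frozen S36** for representations with the Frobenius
characteristic polynomials of `W`: odd and absolutely irreducible residual representation. -/
theorem stmt_Hres (W : WeierstrassCurve ℤ) (hΔ : W.Δ ≠ 0) (p : ℕ) [Fact p.Prime] (hp2 : p ≠ 2)
    (hirr : W.ModRepIsIrreducible p) : Stmt_Hres W p := by
  intro T _ _ _ hpT ρ B hρ
  have hp : p.Prime := Fact.out
  -- the torsion system `W(ℚ̄)[p]`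
  have hsys : TorsSys p (B ∪ W.Δ.natAbs.primeFactors ∪ {p}) (fun ℓ => W.apOfModel ℓ)
      (TorsW W p) := by
    refine torsSys W hΔ hp.ne_zero _ fun ℓ hℓ hℓB => ?_
    simp only [Finset.mem_union, Finset.mem_singleton, not_or] at hℓB
    obtain ⟨⟨-, hℓΔ⟩, hℓp⟩ := hℓB
    refine ⟨fun h => hℓΔ ?_, fun h => hℓp ((Nat.prime_dvd_prime_iff_eq hℓ hp).mp h)⟩
    exact Nat.mem_primeFactors.mpr ⟨hℓ, Int.natCast_dvd.mp h, Int.natAbs_ne_zero.mpr hΔ⟩
  have hq : ∀ σ : GQ, ∃ (s : ℤ) (d : ℕ),
      (∀ v : TorsW W p, σ • σ • v - s • σ • v + (d : ℤ) • v = 0) ∧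
      (∀ ζ : Qb, ζ ^ p = 1 → σ ζ = ζ ^ d) ∧
      LinearMap.trace T ρ.V (ρ.ρ σ) - (s : T) ∈ IsLocalRing.maximalIdeal T ^ 1 ∧
      LinearMap.det (ρ.ρ σ) - (d : T) ∈ IsLocalRing.maximalIdeal T ^ 1 := by
    intro σ
    refine exists_quad ρ hp.ne_zero hsys 1 ?_ σ
    intro ℓ hℓ hℓB A hA φ hφ
    simp only [Finset.mem_union, Finset.mem_singleton, not_or] at hℓB
    exact hρ ℓ hℓ hℓB.1.1 A hA φ hφ
  -- the residue field has characteristic `p`
  have hpk : (p : IsLocalRing.ResidueField T) = 0 := by
    rw [← map_natCast (IsLocalRing.residue T)]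
    exact (IsLocalRing.residue_eq_zero_iff _).mpr hpT
  have hchar : CharP (IsLocalRing.ResidueField T) p := (CharP.charP_iff_prime_eq_zero hp).mpr hpk
  -- a primitive `p`-th root of unity
  have : NeZero (p : ℚ) := ⟨by exact_mod_cast hp.ne_zero⟩
  obtain ⟨ζ₀, hζ₀⟩ := HasEnoughRootsOfUnity.exists_primitiveRoot Qb p
  -- determinant of the residual representation at an element inverting `μ_p`
  have hdetinv : ∀ c : GQ, (∀ ζ : Qb, ζ ^ p = 1 → c ζ = ζ⁻¹) →
      LinearMap.det (ρ.residual.ρ c) = -1 := by
    intro c hinv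
    obtain ⟨s, d, -, hroot, htr, hdet⟩ := hq c
    rw [(residual_trace_det ρ c s d htr hdet).2]
    have h1 : ζ₀ ^ (d + 1) = 1 := by
      rw [pow_succ, ← hroot ζ₀ hζ₀.pow_eq_one, hinv ζ₀ hζ₀.pow_eq_one]
      exact inv_mul_cancel₀ (hζ₀.ne_zero hp.ne_zero)
    have h2 : p ∣ d + 1 := hζ₀.dvd_of_pow_eq_one _ h1
    have h3 : ((d + 1 : ℕ) : IsLocalRing.ResidueField T) = 0 :=
      (CharP.cast_eq_zero_iff _ p _).mpr h2
    push_cast at h3
    exact eq_neg_of_add_eq_zero_left h3
  constructor
  · -- absolute irreducibility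
    intro L hL
    have : (((W.map (Int.castRingHom ℚ)).toAffine)⁄Qb).IsElliptic := isElliptic_curveQb W hΔ
    have hcard : Nat.card (TorsW W p) = p ^ 2 :=
      Fermat.Agent.Lib.helper5856.card_torsionBy p (by exact_mod_cast hp.ne_zero)
    have hcharK : CharP (AlgebraicClosure (IsLocalRing.ResidueField T)) p :=
      charP_of_injective_algebraMap
        (algebraMap (IsLocalRing.ResidueField T)
          (AlgebraicClosure (IsLocalRing.ResidueField T))).injective p
    refine absIrr_of_quad (G := GQ) (V := TorsW W p) hcard hirr.2 hp2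
      (K := AlgebraicClosure (IsLocalRing.ResidueField T))
      (ρ.residual.baseChange (AlgebraicClosure (IsLocalRing.ResidueField T))).finrank_eq
      (ρ.residual.baseChange (AlgebraicClosure (IsLocalRing.ResidueField T))).ρ ?_
      complexConjugation complexConjugation_mul_self ?_ L hL
    · intro σ
      obtain ⟨s, d, hrel, -, htr, hdet⟩ := hq σ
      obtain ⟨htr', hdet'⟩ := residual_trace_det ρ σ s d htr hdet
      refine ⟨s, d, hrel, ?_, ?_⟩
      · have h1 := LinearMap.trace_baseChange (ρ.residual.ρ σ)
          (AlgebraicClosure (IsLocalRing.ResidueField T))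
        have h2 : LinearMap.trace (AlgebraicClosure (IsLocalRing.ResidueField T))
            (ρ.residual.baseChange (AlgebraicClosure (IsLocalRing.ResidueField T))).V
            ((ρ.residual.baseChange (AlgebraicClosure (IsLocalRing.ResidueField T))).ρ σ) =
            algebraMap (IsLocalRing.ResidueField T) (AlgebraicClosure (IsLocalRing.ResidueField T))
              (LinearMap.trace (IsLocalRing.ResidueField T) ρ.residual.V (ρ.residual.ρ σ)) := h1
        rw [h2, htr', map_intCast]
      · have h1 := LinearMap.det_baseChange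
          (A := AlgebraicClosure (IsLocalRing.ResidueField T)) (ρ.residual.ρ σ)
        have h2 : LinearMap.det
            ((ρ.residual.baseChange (AlgebraicClosure (IsLocalRing.ResidueField T))).ρ σ) =
            algebraMap (IsLocalRing.ResidueField T) (AlgebraicClosure (IsLocalRing.ResidueField T))
              (LinearMap.det (ρ.residual.ρ σ)) := h1
        rw [h2, hdet', map_natCast]
    · have h1 := LinearMap.det_baseChange
        (A := AlgebraicClosure (IsLocalRing.ResidueField T)) (ρ.residual.ρ complexConjugation)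
      have h2 : LinearMap.det
          ((ρ.residual.baseChange (AlgebraicClosure (IsLocalRing.ResidueField T))).ρ
            complexConjugation) =
          algebraMap (IsLocalRing.ResidueField T) (AlgebraicClosure (IsLocalRing.ResidueField T))
            (LinearMap.det (ρ.residual.ρ complexConjugation)) := h1
      rw [h2, hdetinv complexConjugation fun ζ hζ =>
        Fermat.Agent.S30.helper6350.complexConjugation_root_of_unity hp.ne_zero hζ, map_neg,
        map_one]
  · -- oddness at every involution
    intro c hc hc1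
    refine hdetinv c fun ζ hζ => ?_
    have hcc : ∀ x : Qb, (c : Qb ≃+* Qb) ((c : Qb ≃+* Qb) x) = x := by
      intro x
      have h := congrArg (fun f : GQ => f x) hc
      exact h
    have hne : ∃ x : Qb, (c : Qb ≃+* Qb) x ≠ x := by
      by_contra hall
      push Not at hall
      exact hc1 (AlgEquiv.ext hall)
    exact inv_of_involution (c : Qb ≃+* Qb) hcc hne (hp.odd_of_ne_two hp2) ζ hζ

end Fermat.Agent.S58.helper6156
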