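import Mathlib
import Fermat.Agent.S28.helper328_Ush
import Fermat.Agent.S52.helper3042_RedHom
import Fermat.Agent.S58.helper6639_DeltaHom

/-!
# Formal Hecke relation on the generic point (helper651, S58 board row 914, backup of row 775)

`K` a field of characteristic zero, `W` a Weierstrass curve over `K` with `Δ ≠ 0`,
`L = K((t))`.  For `c : Kˣ` and `m ≥ 1` the substitution `f(t) ↦ f(c t^m)` is a `K`-algebra
endomorphism `sub c m` of `L` (`sub c m f = qExpand K m (twist c f)`); `theta = t d/dt` is a
derivation of `L`; `delta` is the invariant differential of `helper6639_DeltaHom`.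

Main results:
* `E1 W hΔ` : the kernel of the `t`-adic reduction, an additive subgroup of the points of `W`
  over `L` (`0` and the affine points whose `x`-coordinate is not a power series).
* `eq_zero_of_mem_E1_of_delta_eq_zero` : a point of `E1` with vanishing invariant differential
  is `0`.
* `sum_zsmul_map_eq_zero` : if `P ∈ E1` and `g = delta P`, every `ℤ`-linear relation
  `∑ i, n i * m i * g(c i * t^(m i)) = 0` lifts to `∑ i, n i • P(c i * t^(m i)) = 0`.
* `hecke_relation_T`, `hecke_relation_U` : the Hecke relations on the generic point.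
-/

set_option autoImplicit false

namespace Fermat.Agent.S58.helper651

open WeierstrassCurve ModularCurve
open Fermat.Agent.S28.helper328 (twist twist_coeff)
open Fermat.Agent.S58.helper6639
open Fermat.Agent.S52.helper3042

noncomputable section

/-! ### The Euler derivation and the substitutions -/

section Theta

variable {K : Type*} [Field K]

/-- `θ = t d/dt` on Laurent series, as a function. -/
def thetaFun (f : LaurentSeries K) : LaurentSeries K where
  coeff n := (n : K) * f.coeff n
  isPWO_support' := f.isPWO_support.mono (fun n hn => by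
    simp only [Function.mem_support, ne_eq] at hn ⊢
    exact fun h => hn (by rw [h, mul_zero]))

@[simp] theorem thetaFun_coeff (f : LaurentSeries K) (n : ℤ) :
    (thetaFun f).coeff n = (n : K) * f.coeff n := rfl

theorem thetaFun_support (f : LaurentSeries K) : (thetaFun f).support ⊆ f.support := by
  intro n hn
  simp only [HahnSeries.mem_support, thetaFun_coeff, ne_eq] at hn ⊢
  exact fun h => hn (by rw [h, mul_zero])

/-- `Derivation ℤ L L` elaborated for a generic field `L`: this is the type used by
`helper6639_DeltaHom`.  For `L = K((t))` instance search would otherwise pick another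
`ℤ`-algebra structure on `L` (`HahnSeries.powerSeriesAlgebra`), which is not reducibly the
same, so always write `IntDer (LaurentSeries K)`. -/
abbrev IntDer (L : Type*) [Field L] := Derivation ℤ L L

/-- A `ℤ`-derivation of a field from an additive map with the Leibniz rule. -/
def mkIntDer {L : Type*} [Field L] (D : L →+ L) (h1 : D 1 = 0)
    (hL : ∀ a b : L, D (a * b) = a * D b + b * D a) : IntDer L where
  __ := D.toIntLinearMap
  map_one_eq_zero' := h1
  leibniz' := hL

@[simp] theorem mkIntDer_apply {L : Type*} [Field L] (D : L →+ L) (h1 : D 1 = 0)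
    (hL : ∀ a b : L, D (a * b) = a * D b + b * D a) (a : L) : mkIntDer D h1 hL a = D a := rfl

/-- `θ = t d/dt` as an additive map. -/
def thetaAdd : LaurentSeries K →+ LaurentSeries K :=
  AddMonoidHom.mk' thetaFun (fun f g => by ext n; simp [mul_add])

theorem thetaAdd_one : thetaAdd (1 : LaurentSeries K) = 0 := by
  ext n
  show (n : K) * (1 : LaurentSeries K).coeff n = 0
  rw [HahnSeries.coeff_one]
  split_ifs with h
  · subst h; simp
  · simp

theorem thetaAdd_mul (a b : LaurentSeries K) :
    thetaAdd (a * b) = a * thetaAdd b + b * thetaAdd a := by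
  ext n
  show (thetaFun (a * b)).coeff n = (a * thetaFun b + b * thetaFun a).coeff n
  rw [mul_comm b, HahnSeries.coeff_add, thetaFun_coeff,
    HahnSeries.coeff_mul,
    HahnSeries.coeff_mul_right' (x := a) (y := thetaFun b) b.isPWO_support (thetaFun_support b),
    HahnSeries.coeff_mul_left' (x := thetaFun a) (y := b) a.isPWO_support (thetaFun_support a),
    Finset.mul_sum, ← Finset.sum_add_distrib]
  refine Finset.sum_congr rfl fun ij hij => ?_
  have hsum : ij.1 + ij.2 = n := (Finset.mem_antidiagonal.mp hij).2.2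
  rw [thetaFun_coeff, thetaFun_coeff, ← hsum, Int.cast_add]
  ring

/-- The Euler derivation `θ = t d/dt` of `K((t))`. -/
def theta : IntDer (LaurentSeries K) :=
  mkIntDer thetaAdd thetaAdd_one thetaAdd_mul

@[simp] theorem theta_coeff (f : LaurentSeries K) (n : ℤ) :
    (theta f).coeff n = (n : K) * f.coeff n := rfl

theorem theta_algebraMap (a : K) : theta (algebraMap K (LaurentSeries K) a) = 0 := by
  ext n
  rw [theta_coeff, LaurentSeries.algebraMap_apply, HahnSeries.C_apply, HahnSeries.coeff_zero]
  by_cases hn : n = 0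
  · subst hn; simp
  · rw [HahnSeries.coeff_single_of_ne hn, mul_zero]

theorem theta_twist (c : Kˣ) (f : LaurentSeries K) : theta (twist c f) = twist c (theta f) := by
  ext n
  simp only [theta_coeff, twist_coeff]
  ring

theorem theta_qExpand (m : ℕ) [NeZero m] (f : LaurentSeries K) :
    theta (qExpand K m f) = (m : LaurentSeries K) * qExpand K m (theta f) := by
  ext n
  rw [theta_coeff, ← nsmul_eq_mul, HahnSeries.coeff_smul]
  by_cases hn : (m : ℤ) ∣ n
  · obtain ⟨k, rfl⟩ := hn
    rw [qExpand_coeff_mul, qExpand_coeff_mul, theta_coeff, nsmul_eq_mul]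
    push_cast
    ring
  · rw [qExpand_coeff_of_not_dvd m _ hn, qExpand_coeff_of_not_dvd m _ hn, mul_zero, smul_zero]

/-- The substitution `f(t) ↦ f(c * t ^ m)`, as a `K`-algebra endomorphism of `K((t))`. -/
def sub (c : Kˣ) (m : ℕ) [NeZero m] : LaurentSeries K →ₐ[K] LaurentSeries K where
  __ := (qExpand K m).comp (twist c)
  commutes' r := by
    show qExpand K m (twist c (algebraMap K (LaurentSeries K) r)) =
      algebraMap K (LaurentSeries K) r
    rw [LaurentSeries.algebraMap_apply, HahnSeries.C_apply, Fermat.Agent.S28.helper328.twist_single,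
      qExpand_single]
    simp

theorem sub_apply (c : Kˣ) (m : ℕ) [NeZero m] (f : LaurentSeries K) :
    sub c m f = qExpand K m (twist c f) := rfl

theorem sub_coeff_mul (c : Kˣ) (m : ℕ) [NeZero m] (f : LaurentSeries K) (k : ℤ) :
    (sub c m f).coeff ((m : ℤ) * k) = ((c ^ k : Kˣ) : K) * f.coeff k := by
  rw [sub_apply, qExpand_coeff_mul, twist_coeff]

theorem sub_coeff_of_not_dvd (c : Kˣ) (m : ℕ) [NeZero m] (f : LaurentSeries K) {k : ℤ}
    (hk : ¬ (m : ℤ) ∣ k) : (sub c m f).coeff k = 0 := by
  rw [sub_apply, qExpand_coeff_of_not_dvd m _ hk]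

theorem sub_one_left (m : ℕ) [NeZero m] (f : LaurentSeries K) : sub 1 m f = qExpand K m f := by
  rw [sub_apply]
  congr 1
  ext n
  simp

theorem sub_one_right (c : Kˣ) (f : LaurentSeries K) : sub c 1 f = twist c f := by
  rw [sub_apply, qExpand_one_apply]

theorem theta_sub (c : Kˣ) (m : ℕ) [NeZero m] (f : LaurentSeries K) :
    theta (sub c m f) = (m : LaurentSeries K) * sub c m (theta f) := by
  rw [sub_apply, sub_apply, theta_qExpand, theta_twist]

end Theta

/-! ### `K[[t]]` as a valuation subring of `K((t))` -/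

section Integers

variable (K : Type*) [Field K]

/-- `K[[t]]` inside `K((t))`, as a valuation subring. -/
def tInt : ValuationSubring (LaurentSeries K) :=
  (Valued.v : Valuation (LaurentSeries K) (WithZero (Multiplicative ℤ))).valuationSubring

variable {K}

theorem mem_tInt_iff {f : LaurentSeries K} : f ∈ tInt K ↔ ∀ n : ℤ, n < 0 → f.coeff n = 0 := by
  rw [tInt, Valuation.mem_valuationSubring_iff]
  have := LaurentSeries.valuation_le_iff_coeff_lt_eq_zero K (D := 0) (f := f)
  simpa using this

theorem mem_tInt_iff_coe {f : LaurentSeries K} :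
    f ∈ tInt K ↔ ∃ F : PowerSeries K, (F : LaurentSeries K) = f := by
  rw [tInt, Valuation.mem_valuationSubring_iff]
  exact LaurentSeries.val_le_one_iff_eq_coe K f

theorem notMem_tInt_iff {f : LaurentSeries K} : f ∉ tInt K ↔ f.order < 0 := by
  rw [mem_tInt_iff]
  constructor
  · intro h
    push Not at h
    obtain ⟨n, hn, hne⟩ := h
    exact lt_of_le_of_lt (HahnSeries.order_le_of_coeff_ne_zero hne) hn
  · intro h hf
    have h0 : f ≠ 0 := by
      rintro rfl
      simp at h
    exact h0 (HahnSeries.coeff_order_eq_zero.mp (hf _ h))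

theorem coe_coeff_zero (F : PowerSeries K) :
    (F : LaurentSeries K).coeff 0 = PowerSeries.constantCoeff F := by
  have := LaurentSeries.coeff_coe_powerSeries F 0
  simpa using this

theorem algebraMap_mem_tInt (a : K) : algebraMap K (LaurentSeries K) a ∈ tInt K := by
  rw [mem_tInt_iff]
  intro n hn
  rw [LaurentSeries.algebraMap_apply, HahnSeries.C_apply, HahnSeries.coeff_single_of_ne hn.ne]

theorem mem_tInt_of_theta_eq_zero [CharZero K] {f : LaurentSeries K} (h : theta f = 0) :
    f ∈ tInt K := by
  rw [mem_tInt_iff]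
  intro n hn
  have h1 : (theta f).coeff n = 0 := by rw [h, HahnSeries.coeff_zero]
  rw [theta_coeff] at h1
  exact (mul_eq_zero.mp h1).resolve_left (Int.cast_ne_zero.mpr hn.ne)

theorem sub_mem_tInt_iff (c : Kˣ) (m : ℕ) [NeZero m] {f : LaurentSeries K} :
    sub c m f ∈ tInt K ↔ f ∈ tInt K := by
  have hm : (0 : ℤ) < m := by exact_mod_cast Nat.pos_of_ne_zero (NeZero.ne m)
  rw [mem_tInt_iff, mem_tInt_iff]
  constructor
  · intro h n hn
    have h1 := h ((m : ℤ) * n) (mul_neg_of_pos_of_neg hm hn)
    rw [sub_coeff_mul] at h1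
    exact (Units.mul_right_eq_zero _).mp h1
  · intro h n hn
    by_cases hd : (m : ℤ) ∣ n
    · obtain ⟨k, rfl⟩ := hd
      have hk : k < 0 := by
        by_contra hk
        exact absurd hn (not_lt.mpr (mul_nonneg hm.le (not_lt.mp hk)))
      rw [sub_coeff_mul, h k hk, mul_zero]
    · exact sub_coeff_of_not_dvd c m f hd

variable (K)

/-- The constant coefficient, as a ring homomorphism `K[[t]] → K`. -/
def tRes : tInt K →+* K where
  toFun f := (f : LaurentSeries K).coeff 0
  map_one' := by simp
  map_zero' := by simp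
  map_add' f g := by simp
  map_mul' f g := by
    obtain ⟨F, hF⟩ := mem_tInt_iff_coe.mp f.2
    obtain ⟨G, hG⟩ := mem_tInt_iff_coe.mp g.2
    show ((f : LaurentSeries K) * (g : LaurentSeries K)).coeff 0 =
      (f : LaurentSeries K).coeff 0 * (g : LaurentSeries K).coeff 0
    rw [← hF, ← hG, ← map_mul, coe_coeff_zero, coe_coeff_zero, coe_coeff_zero, map_mul]

/-- The constants, as a ring homomorphism `K → K[[t]]`. -/
def tC : K →+* tInt K :=
  (algebraMap K (LaurentSeries K)).codRestrict (tInt K) algebraMap_mem_tInt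

variable {K}

@[simp] theorem tRes_apply (f : tInt K) : tRes K f = (f : LaurentSeries K).coeff 0 := rfl

@[simp] theorem coe_tC (a : K) :
    ((tC K a : tInt K) : LaurentSeries K) = algebraMap K (LaurentSeries K) a := rfl

theorem tRes_tC (a : K) : tRes K (tC K a) = a := by
  rw [tRes_apply, coe_tC, LaurentSeries.algebraMap_apply, HahnSeries.C_apply,
    HahnSeries.coeff_single_same]

theorem tRes_surjective : Function.Surjective (tRes K) := fun a => ⟨tC K a, tRes_tC a⟩

theorem tRes_comp_tC : (tRes K).comp (tC K) = RingHom.id K := RingHom.ext tRes_tC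

end Integers

/-! ### Points reducing to `0` (no hypothesis on the fields) -/

section RedZero

variable {F k : Type*} [Field F] [Field k]
  {A : ValuationSubring F} {π : A →+* k} {V : WeierstrassCurve A}

/-- The points reducing to `0` are closed under addition (good reduction). -/
theorem red_zero_add [DecidableEq F] [DecidableEq k] (hΔ : (V.map π).Δ ≠ 0)
    {P Q : (V.map A.subtype).toAffine.Point}
    (hP : Red A π V P 0) (hQ : Red A π V Q 0) : Red A π V (P + Q) 0 := by
  obtain ⟨Sb, hS⟩ := exists_red hΔ (P + Q)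
  by_cases h0 : Sb = 0
  · exact h0 ▸ hS
  · have hQn : Red A π V (-Q) 0 := by simpa using hQ.neg
    have h1 := Red.add_of_ne hS hQn (by simpa using h0)
    have e1 : P + Q + -Q = P := by abel
    rw [e1, add_zero] at h1
    exact absurd (Red.unique h1 hP) h0

/-- An affine point reduces to `0` iff its `x`-coordinate is not integral. -/
theorem red_zero_some_iff (hπ : Function.Surjective π) (hΔ : (V.map π).Δ ≠ 0) {x y : F}
    (h : (V.map A.subtype).toAffine.Nonsingular x y) :
    Red A π V (.some x y h) 0 ↔ x ∉ A := by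
  constructor
  · intro hR hx
    have hy : y ∈ A := y_mem_of_x_mem hx h.1
    have hE : V.toAffine.Equation (⟨x, hx⟩ : A) ⟨y, hy⟩ :=
      (Affine.map_equation (W := V.toAffine) (f := A.subtype) Subtype.val_injective _ _).mp h.1
    have hk : (V.map π).toAffine.Nonsingular (π ⟨x, hx⟩) (π ⟨y, hy⟩) :=
      (Affine.equation_iff_nonsingular_of_Δ_ne_zero hΔ).mp (Affine.Equation.map π hE)
    have h2 := Red.some (π := π) (⟨x, hx⟩ : A) ⟨y, hy⟩ h hk
    exact Affine.Point.some_ne_zero hk (Red.unique h2 hR)
  · intro hx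
    obtain ⟨Pb, hPb⟩ := exists_red hΔ (Affine.Point.some x y h)
    have := Red.eq_zero_of_notMem hπ hPb hx
    exact this ▸ hPb

end RedZero

/-! ### The kernel of reduction over `K((t))` -/

section E1

variable {K : Type*} [Field K]

/-- The algebra structure of `K((t))` over `K` is compatible with the one of `K` over itself
(not found by instance search). -/
instance laurent_isScalarTower :
    @IsScalarTower K K (LaurentSeries K) (Algebra.id K).toSMul Algebra.toSMul Algebra.toSMul :=
  IsScalarTower.of_algebraMap_eq (fun _ => rfl)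

theorem map_tC_map_subtype (W : WeierstrassCurve K) :
    (W.map (tC K)).map (tInt K).subtype = W.baseChange (LaurentSeries K) := rfl

theorem map_tC_map_tRes_Δ (W : WeierstrassCurve K) :
    ((W.map (tC K)).map (tRes K)).Δ = W.Δ := by
  rw [WeierstrassCurve.map_map, tRes_comp_tC, WeierstrassCurve.map_id]

/-- The predicate "`P = 0` or the `x`-coordinate of `P` is not a power series". -/
def InE1 {V : WeierstrassCurve (LaurentSeries K)} (P : V.toAffine.Point) : Prop :=
  P = 0 ∨ ∃ x y h, P = .some x y h ∧ x ∉ tInt K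

theorem inE1_some_iff {V : WeierstrassCurve (LaurentSeries K)} {x y : LaurentSeries K}
    (h : V.toAffine.Nonsingular x y) : InE1 (Affine.Point.some x y h) ↔ x ∉ tInt K := by
  constructor
  · rintro (h0 | ⟨x', y', h', heq, hx⟩)
    · exact absurd h0 (Affine.Point.some_ne_zero h)
    · obtain ⟨rfl, rfl⟩ := Affine.Point.some.inj heq
      exact hx
  · intro hx
    exact Or.inr ⟨x, y, h, rfl, hx⟩

theorem inE1_iff_red (W : WeierstrassCurve K) (hΔ : W.Δ ≠ 0)
    (P : ((W.map (tC K)).map (tInt K).subtype).toAffine.Point) :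
    InE1 P ↔ Red (tInt K) (tRes K) (W.map (tC K)) P 0 := by
  rcases P with _ | ⟨x, y, h⟩
  · exact ⟨fun _ => Red.zero, fun _ => Or.inl rfl⟩
  · rw [inE1_some_iff]
    exact (red_zero_some_iff tRes_surjective (by rwa [map_tC_map_tRes_Δ]) h).symm

theorem inE1_neg {V : WeierstrassCurve (LaurentSeries K)} {P : V.toAffine.Point}
    (hP : InE1 P) : InE1 (-P) := by
  rcases P with _ | ⟨x, y, h⟩
  · exact Or.inl rfl
  · rw [inE1_some_iff] at hP
    rw [Affine.Point.neg_some, inE1_some_iff]
    exact hP

variable [DecidableEq K] [DecidableEq (LaurentSeries K)]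

theorem inE1_add (W : WeierstrassCurve K) (hΔ : W.Δ ≠ 0) (V : WeierstrassCurve (LaurentSeries K))
    (hV : (W.map (tC K)).map (tInt K).subtype = V) {P Q : V.toAffine.Point}
    (hP : InE1 P) (hQ : InE1 Q) : InE1 (P + Q) := by
  subst hV
  rw [inE1_iff_red W hΔ] at hP hQ ⊢
  exact red_zero_add (by rwa [map_tC_map_tRes_Δ]) hP hQ

/-- The kernel of the `t`-adic reduction on the points of `W` over `K((t))`: the point `0` and
the affine points whose `x`-coordinate is not a power series. -/
def E1 (W : WeierstrassCurve K) (hΔ : W.Δ ≠ 0) :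
    AddSubgroup (W.baseChange (LaurentSeries K)).toAffine.Point where
  carrier := {P | InE1 P}
  zero_mem' := Or.inl rfl
  add_mem' hP hQ := inE1_add W hΔ _ (map_tC_map_subtype W) hP hQ
  neg_mem' hP := inE1_neg hP

variable {W : WeierstrassCurve K}

theorem some_mem_E1_iff (hΔ : W.Δ ≠ 0) {x y : LaurentSeries K}
    (h : (W.baseChange (LaurentSeries K)).toAffine.Nonsingular x y) :
    Affine.Point.some x y h ∈ E1 W hΔ ↔ x ∉ tInt K :=
  inE1_some_iff h

theorem some_mem_E1_iff_order (hΔ : W.Δ ≠ 0) {x y : LaurentSeries K}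
    (h : (W.baseChange (LaurentSeries K)).toAffine.Nonsingular x y) :
    Affine.Point.some x y h ∈ E1 W hΔ ↔ x.order < 0 :=
  (some_mem_E1_iff hΔ h).trans notMem_tInt_iff

theorem mem_E1_iff (hΔ : W.Δ ≠ 0) (P : (W.baseChange (LaurentSeries K)).toAffine.Point) :
    P ∈ E1 W hΔ ↔ P = 0 ∨ ∃ x y h, P = .some x y h ∧ x.order < 0 := by
  rcases P with _ | ⟨x, y, h⟩
  · exact ⟨fun _ => Or.inl rfl, fun _ => (E1 W hΔ).zero_mem⟩
  · rw [some_mem_E1_iff_order]
    constructor
    · intro hx
      exact Or.inr ⟨x, y, h, rfl, hx⟩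
    · rintro (h0 | ⟨x', y', h', heq, hx⟩)
      · exact absurd h0 (Affine.Point.some_ne_zero h)
      · obtain ⟨rfl, rfl⟩ := Affine.Point.some.inj heq
        exact hx

/-- `E1` is stable under the substitutions `t ↦ c * t ^ m`. -/
theorem map_sub_mem_E1 (hΔ : W.Δ ≠ 0) (c : Kˣ) (m : ℕ) [NeZero m]
    {P : (W.baseChange (LaurentSeries K)).toAffine.Point} (hP : P ∈ E1 W hΔ) :
    Affine.Point.map (W' := W) (sub c m) P ∈ E1 W hΔ := by
  rcases P with _ | ⟨x, y, h⟩
  · exact (E1 W hΔ).zero_mem
  · rw [some_mem_E1_iff] at hP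
    rw [Affine.Point.map_some, some_mem_E1_iff, sub_mem_tInt_iff]
    exact hP

end E1

/-! ### The invariant differential under substitutions, and the main results -/

section Delta

variable {K : Type*} [Field K] (W : WeierstrassCurve K)

theorem isConst_theta : IsConst (W.baseChange (LaurentSeries K)).toAffine theta where
  a₁ := theta_algebraMap _
  a₂ := theta_algebraMap _
  a₃ := theta_algebraMap _
  a₄ := theta_algebraMap _
  a₆ := theta_algebraMap _

variable [DecidableEq (LaurentSeries K)]

/-- The invariant differential (w.r.t. `θ = t d/dt`) of a point of `W` over `K((t))`. -/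
abbrev genDelta (P : (W.baseChange (LaurentSeries K)).toAffine.Point) : LaurentSeries K :=
  delta (W.baseChange (LaurentSeries K)).toAffine theta P

/-- **Naturality**: `δ(P(c t^m)) = m * (δ P)(c t^m)`. -/
theorem genDelta_map_sub (c : Kˣ) (m : ℕ) [NeZero m]
    (P : (W.baseChange (LaurentSeries K)).toAffine.Point) :
    genDelta W (Affine.Point.map (W' := W) (sub c m) P) =
      (m : LaurentSeries K) * sub c m (genDelta W P) := by
  rcases P with _ | ⟨x, y, h⟩
  · show delta _ _ 0 = _ * sub c m (delta _ _ 0)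
    simp
  · rw [Affine.Point.map_some]
    refine delta_eq_of_isDeltaAt _ ?_
    have hd := delta_spec (isConst_theta W) h
    have ha : ∀ a : K, sub c m (algebraMap K (LaurentSeries K) a) =
        algebraMap K (LaurentSeries K) a := (sub c m).commutes
    have e1 : (W.baseChange (LaurentSeries K)).toAffine.a₁ =
        algebraMap K (LaurentSeries K) W.a₁ := rfl
    have e2 : (W.baseChange (LaurentSeries K)).toAffine.a₂ =
        algebraMap K (LaurentSeries K) W.a₂ := rfl
    have e3 : (W.baseChange (LaurentSeries K)).toAffine.a₃ =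
        algebraMap K (LaurentSeries K) W.a₃ := rfl
    have e4 : (W.baseChange (LaurentSeries K)).toAffine.a₄ =
        algebraMap K (LaurentSeries K) W.a₄ := rfl
    constructor
    · rw [theta_sub, hd.dx, e1, e3]
      simp only [map_mul, map_add, map_ofNat, ha]
      ring
    · rw [theta_sub, hd.dy, e1, e2, e4]
      simp only [map_mul, map_add, map_sub, map_pow, map_ofNat, ha]
      ring

variable {W}

/-- How to compute `genDelta` for a point with a pole: from the `dx`-equation alone. -/
theorem genDelta_some_eq [CharZero K] {X Y g : LaurentSeries K}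
    (h : (W.baseChange (LaurentSeries K)).toAffine.Nonsingular X Y) (hX : X.order < 0)
    (hg : theta X = g * (2 * Y + algebraMap K (LaurentSeries K) W.a₁ * X +
      algebraMap K (LaurentSeries K) W.a₃)) :
    genDelta W (Affine.Point.some X Y h) = g := by
  have hu : 2 * Y + (W.baseChange (LaurentSeries K)).toAffine.a₁ * X +
      (W.baseChange (LaurentSeries K)).toAffine.a₃ ≠ 0 := by
    intro hu
    have hu' : 2 * Y + algebraMap K (LaurentSeries K) W.a₁ * X +
        algebraMap K (LaurentSeries K) W.a₃ = 0 := hu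
    rw [hu', mul_zero] at hg
    exact notMem_tInt_iff.mpr hX (mem_tInt_of_theta_eq_zero hg)
  rw [genDelta, delta_some_of_ne h hu, hg]
  exact mul_div_cancel_right₀ _ hu

variable [DecidableEq K] [CharZero K]

/-- A point in the kernel of reduction whose invariant differential vanishes is `0`. -/
theorem eq_zero_of_mem_E1_of_delta_eq_zero (hΔ : W.Δ ≠ 0)
    {R : (W.baseChange (LaurentSeries K)).toAffine.Point} (h1 : R ∈ E1 W hΔ)
    (h2 : genDelta W R = 0) : R = 0 := by
  rcases (delta_eq_zero_iff (isConst_theta W) R).mp h2 with h0 | ⟨x, y, h, rfl, hx, -⟩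
  · exact h0
  · exact absurd (mem_tInt_of_theta_eq_zero hx) ((some_mem_E1_iff hΔ h).mp h1)

/-- **Relations between substitutions of the invariant differential lift to the point.** -/
theorem sum_zsmul_map_eq_zero (hΔ : W.Δ ≠ 0) {ι : Type*} (s : Finset ι) (c : ι → Kˣ)
    (m : ι → ℕ) [∀ i, NeZero (m i)] (n : ι → ℤ)
    {P : (W.baseChange (LaurentSeries K)).toAffine.Point} (hP : P ∈ E1 W hΔ)
    (hrel : ∑ i ∈ s, ((n i : LaurentSeries K) * (m i : LaurentSeries K)) *
      sub (c i) (m i) (genDelta W P) = 0) :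
    ∑ i ∈ s, n i • Affine.Point.map (W' := W) (sub (c i) (m i)) P = 0 := by
  apply eq_zero_of_mem_E1_of_delta_eq_zero hΔ
  · exact AddSubgroup.sum_mem _ fun i _ =>
      AddSubgroup.zsmul_mem _ (map_sub_mem_E1 hΔ _ _ hP) _
  · rw [genDelta, ← deltaHom_apply (isConst_theta W), map_sum, ← hrel]
    refine Finset.sum_congr rfl fun i _ => ?_
    rw [map_zsmul, deltaHom_apply, zsmul_eq_mul]
    have := genDelta_map_sub W (c i) (m i) P
    rw [genDelta] at this
    rw [this]
    ring

/-- **Hecke relation `T_ℓ` on the generic point**: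
`∑_{j<ℓ} g(ζ^j t) + ℓ² g(t^(ℓ²)) = a ℓ g(t^ℓ)` for `g = δ P` implies
`P(t^(ℓ²)) + ∑_{j<ℓ} P(ζ^j t) = a • P(t^ℓ)`. -/
theorem hecke_relation_T (hΔ : W.Δ ≠ 0) (ℓ : ℕ) [NeZero ℓ] (ζ : Kˣ) (a : ℤ)
    {P : (W.baseChange (LaurentSeries K)).toAffine.Point} (hP : P ∈ E1 W hΔ)
    (hrel : ∑ j ∈ Finset.range ℓ, sub (ζ ^ j) 1 (genDelta W P) +
        (ℓ : LaurentSeries K) ^ 2 * sub 1 (ℓ ^ 2) (genDelta W P) =
      (a : LaurentSeries K) * (ℓ : LaurentSeries K) * sub 1 ℓ (genDelta W P)) :
    Affine.Point.map (W' := W) (sub 1 (ℓ ^ 2)) P +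
        ∑ j ∈ Finset.range ℓ, Affine.Point.map (W' := W) (sub (ζ ^ j) 1) P =
      a • Affine.Point.map (W' := W) (sub 1 ℓ) P := by
  rw [← sub_eq_zero]
  apply eq_zero_of_mem_E1_of_delta_eq_zero hΔ
  · exact (E1 W hΔ).sub_mem ((E1 W hΔ).add_mem (map_sub_mem_E1 hΔ _ _ hP)
      (AddSubgroup.sum_mem _ fun j _ => map_sub_mem_E1 hΔ _ _ hP))
      (AddSubgroup.zsmul_mem _ (map_sub_mem_E1 hΔ _ _ hP) _)
  · have key : ∀ (c : Kˣ) (m : ℕ) [NeZero m],
        deltaHom (isConst_theta W) (Affine.Point.map (W' := W) (sub c m) P) =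
          (m : LaurentSeries K) * sub c m (genDelta W P) := fun c m _ => genDelta_map_sub W c m P
    rw [genDelta, ← deltaHom_apply (isConst_theta W), map_sub, map_add, map_sum, map_zsmul]
    simp only [key, zsmul_eq_mul]
    push_cast
    simp only [one_mul]
    linear_combination hrel

/-- **Hecke relation `U_ℓ` on the generic point**:
`∑_{j<ℓ} g(ζ^j t) = a ℓ g(t^ℓ)` for `g = δ P` implies `∑_{j<ℓ} P(ζ^j t) = a • P(t^ℓ)`. -/
theorem hecke_relation_U (hΔ : W.Δ ≠ 0) (ℓ : ℕ) [NeZero ℓ] (ζ : Kˣ) (a : ℤ)
    {P : (W.baseChange (LaurentSeries K)).toAffine.Point} (hP : P ∈ E1 W hΔ)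
    (hrel : ∑ j ∈ Finset.range ℓ, sub (ζ ^ j) 1 (genDelta W P) =
      (a : LaurentSeries K) * (ℓ : LaurentSeries K) * sub 1 ℓ (genDelta W P)) :
    ∑ j ∈ Finset.range ℓ, Affine.Point.map (W' := W) (sub (ζ ^ j) 1) P =
      a • Affine.Point.map (W' := W) (sub 1 ℓ) P := by
  rw [← sub_eq_zero]
  apply eq_zero_of_mem_E1_of_delta_eq_zero hΔ
  · exact (E1 W hΔ).sub_mem (AddSubgroup.sum_mem _ fun j _ => map_sub_mem_E1 hΔ _ _ hP)
      (AddSubgroup.zsmul_mem _ (map_sub_mem_E1 hΔ _ _ hP) _)
  · have key : ∀ (c : Kˣ) (m : ℕ) [NeZero m],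
        deltaHom (isConst_theta W) (Affine.Point.map (W' := W) (sub c m) P) =
          (m : LaurentSeries K) * sub c m (genDelta W P) := fun c m _ => genDelta_map_sub W c m P
    rw [genDelta, ← deltaHom_apply (isConst_theta W), map_sub, map_sum, map_zsmul]
    simp only [key, zsmul_eq_mul]
    push_cast
    simp only [one_mul]
    linear_combination hrel

end Delta

end

end Fermat.Agent.S58.helper651
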