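import Fermat.Agent.S58.helper6639_DeltaHom

/-!
# Naturality of the invariant-differential homomorphism `delta`

`delta W D : W.Point → L` is the landed invariant-differential homomorphism of
`Fermat.Agent.S58.helper6639_DeltaHom`.  Here: behaviour under an algebra homomorphism
`f : F →ₐ[R] K` of fields which intertwines two derivations up to a scalar `c : K`,
`DK (f a) = c * f (DF a)`:

`delta (W'⁄K) DK (Point.map f P) = c * f (delta (W'⁄F) DF P)`.

Typical use (Hecke relation on the generic point): `F = K = k((t))`, `D = t d/dt`,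
`f = (t ↦ t ^ l)` with `c = l`, or `f = (t ↦ ζ t)` with `c = 1`.
-/

namespace Fermat.Agent.S58.helper6639

open WeierstrassCurve

open scoped WeierstrassCurve.Affine

section map

variable {R : Type*} [CommRing R] {F K : Type*} [Field F] [Field K] [Algebra R F] [Algebra R K]

/-- If `D` kills the image of the base ring, the base-changed curve has `D`-constant
coefficients. -/
theorem isConst_baseChange (W' : Affine R) (D : Derivation ℤ F F)
    (hD : ∀ r : R, D (algebraMap R F r) = 0) : IsConst (W'⁄F) D where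
  a₁ := by simpa [WeierstrassCurve.baseChange] using hD W'.a₁
  a₂ := by simpa [WeierstrassCurve.baseChange] using hD W'.a₂
  a₃ := by simpa [WeierstrassCurve.baseChange] using hD W'.a₃
  a₄ := by simpa [WeierstrassCurve.baseChange] using hD W'.a₄
  a₆ := by simpa [WeierstrassCurve.baseChange] using hD W'.a₆

/-- Variant for a curve obtained by `WeierstrassCurve.map`. -/
theorem isConst_map {R₀ : Type*} [CommRing R₀] (W₀ : WeierstrassCurve R₀) (φ : R₀ →+* F)
    (D : Derivation ℤ F F) (hD : ∀ r : R₀, D (φ r) = 0) :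
    IsConst (W₀.map φ).toAffine D where
  a₁ := by simpa using hD W₀.a₁
  a₂ := by simpa using hD W₀.a₂
  a₃ := by simpa using hD W₀.a₃
  a₄ := by simpa using hD W₀.a₄
  a₆ := by simpa using hD W₀.a₆

variable (W' : Affine R)

/-- Naturality of the relation `IsDeltaAt` under an algebra homomorphism intertwining the
derivations up to the scalar `c`. -/
theorem IsDeltaAt.map (f : F →ₐ[R] K) {DF : Derivation ℤ F F} {DK : Derivation ℤ K K} {c : K}
    (hf : ∀ a : F, DK (f a) = c * f (DF a)) {x y w : F} (d : IsDeltaAt (W'⁄F) DF x y w) :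
    IsDeltaAt (W'⁄K) DK (f x) (f y) (c * f w) where
  dx := by
    rw [hf, d.dx]
    simp only [WeierstrassCurve.baseChange, WeierstrassCurve.map_a₁, WeierstrassCurve.map_a₃,
      map_mul, map_add, map_ofNat, AlgHom.commutes]
    ring
  dy := by
    rw [hf, d.dy]
    simp only [WeierstrassCurve.baseChange, WeierstrassCurve.map_a₁, WeierstrassCurve.map_a₂,
      WeierstrassCurve.map_a₄, map_mul, map_add, map_sub, map_pow, map_ofNat, AlgHom.commutes]
    ring

variable [DecidableEq F] [DecidableEq K]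

/-- **Naturality of `delta`.**  If `f : F →ₐ[R] K` satisfies `DK ∘ f = c • f ∘ DF`, then
`delta (f P) = c * f (delta P)`. -/
theorem delta_map (f : F →ₐ[R] K) {DF : Derivation ℤ F F} {DK : Derivation ℤ K K} {c : K}
    (hcF : IsConst (W'⁄F) DF) (hf : ∀ a : F, DK (f a) = c * f (DF a)) (P : (W'⁄F).Point) :
    delta (W'⁄K) DK (Affine.Point.map f P) = c * f (delta (W'⁄F) DF P) := by
  rcases P with _ | ⟨x, y, h⟩
  · change delta (W'⁄K) DK 0 = c * f (delta (W'⁄F) DF 0)
    simp
  · rw [Affine.Point.map_some]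
    exact delta_eq_of_isDeltaAt _ (IsDeltaAt.map W' f hf (delta_spec hcF h))

/-- Special case `c = 1`: `f` commutes with the derivations. -/
theorem delta_map_of_comm (f : F →ₐ[R] K) {DF : Derivation ℤ F F} {DK : Derivation ℤ K K}
    (hcF : IsConst (W'⁄F) DF) (hf : ∀ a : F, DK (f a) = f (DF a)) (P : (W'⁄F).Point) :
    delta (W'⁄K) DK (Affine.Point.map f P) = f (delta (W'⁄F) DF P) := by
  have := delta_map W' f (c := 1) hcF (fun a => by rw [hf, one_mul]) P
  rwa [one_mul] at this

/-- `delta` of a finite integer combination of transforms of one point: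
`delta (Σ i, n i • f i P) = Σ i, n i * c i * f i (delta P)`. -/
theorem delta_sum_zsmul_map {ι : Type*} (s : Finset ι) (n : ι → ℤ) (f : ι → F →ₐ[R] K)
    (c : ι → K) {DF : Derivation ℤ F F} {DK : Derivation ℤ K K}
    (hcF : IsConst (W'⁄F) DF) (hcK : IsConst (W'⁄K) DK)
    (hf : ∀ i ∈ s, ∀ a : F, DK (f i a) = c i * f i (DF a)) (P : (W'⁄F).Point) :
    delta (W'⁄K) DK (∑ i ∈ s, n i • Affine.Point.map (f i) P) =
      ∑ i ∈ s, (n i : K) * (c i * f i (delta (W'⁄F) DF P)) := by
  classical
  have h1 : delta (W'⁄K) DK (∑ i ∈ s, n i • Affine.Point.map (f i) P) =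
      ∑ i ∈ s, delta (W'⁄K) DK (n i • Affine.Point.map (f i) P) :=
    map_sum (deltaHom hcK) _ s
  rw [h1]
  refine Finset.sum_congr rfl fun i hi => ?_
  rw [delta_zsmul hcK, delta_map W' (f i) hcF (hf i hi)]

/-- If the `delta`-values of a finite integer combination of transforms cancel, `delta` of the
combination vanishes. -/
theorem delta_sum_zsmul_map_eq_zero {ι : Type*} (s : Finset ι) (n : ι → ℤ)
    (f : ι → F →ₐ[R] K) (c : ι → K) {DF : Derivation ℤ F F} {DK : Derivation ℤ K K}
    (hcF : IsConst (W'⁄F) DF) (hcK : IsConst (W'⁄K) DK)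
    (hf : ∀ i ∈ s, ∀ a : F, DK (f i a) = c i * f i (DF a)) (P : (W'⁄F).Point)
    (hsum : ∑ i ∈ s, (n i : K) * (c i * f i (delta (W'⁄F) DF P)) = 0) :
    delta (W'⁄K) DK (∑ i ∈ s, n i • Affine.Point.map (f i) P) = 0 := by
  rw [delta_sum_zsmul_map W' s n f c hcF hcK hf P, hsum]

/-- **Kernel criterion** (the form consumed by the Hecke relation): if the `delta`-values of a
finite integer combination of transforms of `P` cancel, then the combination is `0` or a point
with `DK`-constant coordinates. -/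
theorem sum_zsmul_map_eq_zero_or_const {ι : Type*} (s : Finset ι) (n : ι → ℤ)
    (f : ι → F →ₐ[R] K) (c : ι → K) {DF : Derivation ℤ F F} {DK : Derivation ℤ K K}
    (hcF : IsConst (W'⁄F) DF) (hcK : IsConst (W'⁄K) DK)
    (hf : ∀ i ∈ s, ∀ a : F, DK (f i a) = c i * f i (DF a)) (P : (W'⁄F).Point)
    (hsum : ∑ i ∈ s, (n i : K) * (c i * f i (delta (W'⁄F) DF P)) = 0) :
    (∑ i ∈ s, n i • Affine.Point.map (f i) P) = 0 ∨
      ∃ (x y : K) (h : (W'⁄K).Nonsingular x y),
        (∑ i ∈ s, n i • Affine.Point.map (f i) P) = .some x y h ∧ DK x = 0 ∧ DK y = 0 :=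
  (delta_eq_zero_iff hcK _).mp (delta_sum_zsmul_map_eq_zero W' s n f c hcF hcK hf P hsum)

/-- Two-point form: `delta (map f P - map g Q) = c * f (delta P) - e * g (delta Q)`. -/
theorem delta_map_sub_map (f g : F →ₐ[R] K) {DF : Derivation ℤ F F} {DK : Derivation ℤ K K}
    {c e : K} (hcF : IsConst (W'⁄F) DF) (hcK : IsConst (W'⁄K) DK)
    (hf : ∀ a : F, DK (f a) = c * f (DF a)) (hg : ∀ a : F, DK (g a) = e * g (DF a))
    (P Q : (W'⁄F).Point) :
    delta (W'⁄K) DK (Affine.Point.map f P - Affine.Point.map g Q) =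
      c * f (delta (W'⁄F) DF P) - e * g (delta (W'⁄F) DF Q) := by
  rw [delta_sub hcK, delta_map W' f hcF hf, delta_map W' g hcF hg]

end map

end Fermat.Agent.S58.helper6639
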