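/-
S58, route #1886, steps 3b + 3c: the HECKE RELATION ON THE GENERIC POINT (purely formal).
Author: helper6723.  No sorry.

Setting: `K` a field of characteristic zero, `L = K((t))`, `W` a Weierstrass curve over `K`,
`P = (X, Y)` a point of `W` over `L` with a pole at `t = 0`, and `g = δ(P)` the value of the invariant
differential on `θ = t d/dt`, i.e. `θ X = g (2Y + a₁X + a₃)`.  If `g` satisfies the formal Hecke
eigen-relation `U_l g + l V_l g = a g` (resp. `U_l g = a g`), then

  `P(t^(l²)) + ∑_{j<l} P(ζ^j t) = [a] P(t^l)`   (resp. `∑_{j<l} P(ζ^j t) = [a] P(t^l)`)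

in `W(L)`, where `ζ` is a primitive `l`-th root of unity.

Proof: the difference `R` of the two sides has `δ(R) = 0` (additivity of `δ`,
`Lib/helper9242_InvDiffHom`, and naturality of `δ` under `t ↦ ζ t`, `t ↦ t^N`), so its coordinates are
`θ`-constants, hence have no pole; but `R` lies in the kernel of reduction
`E₁ = {O} ∪ {x has a pole}`, which is a subgroup (`E1`, proved here for every valuation and every
integral Weierstrass model by a Vieta argument on the cubic cut out by a line).  Hence `R = O`.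
-/
import Mathlib
import Fermat.Prelude.Def_ModularCurve_X0ModL
import Fermat.Agent.S28.helper328_Ush
import Fermat.Agent.Lib.helper9242_InvDiffHom

set_option autoImplicit false

namespace Fermat.Agent.S58.helper6723

open WeierstrassCurve WeierstrassCurve.Affine
open ModularCurve
open Fermat.Agent.S28.helper328

noncomputable section

section Vieta

variable {F : Type*} [Field F] {Γ₀ : Type*} [LinearOrderedCommGroupWithZero Γ₀]

theorem val_two_le_one (v : Valuation F Γ₀) : v (2 : F) ≤ 1 := by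
  have h : (2 : F) = 1 + 1 := by norm_num
  rw [h]
  exact v.map_add_le (le_of_eq v.map_one) (le_of_eq v.map_one)

/-- If two roots of the cubic cut out on an integral Weierstrass equation by a line have a pole,
so does the third. -/
theorem one_lt_val_third_root (v : Valuation F Γ₀) {a₁ a₂ a₃ a₄ a₆ x₁ x₂ x₃ ℓ ν : F}
    (h₁ : v a₁ ≤ 1) (h₂ : v a₂ ≤ 1) (h₃ : v a₃ ≤ 1) (h₄ : v a₄ ≤ 1) (h₆ : v a₆ ≤ 1)
    (hx₁ : 1 < v x₁) (hx₂ : 1 < v x₂)
    (e₁ : x₁ + x₂ + x₃ = ℓ ^ 2 + a₁ * ℓ - a₂)
    (e₂ : x₁ * x₂ + x₁ * x₃ + x₂ * x₃ = a₄ - 2 * ℓ * ν - a₁ * ν - a₃ * ℓ)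
    (e₃ : x₁ * x₂ * x₃ = ν ^ 2 + a₃ * ν - a₆) : 1 < v x₃ := by
  wlog h : v x₂ ≤ v x₁ generalizing x₁ x₂
  · exact this hx₂ hx₁ (by linear_combination e₁) (by linear_combination e₂)
      (by linear_combination e₃) (le_of_not_ge h)
  by_contra hx₃
  replace hx₃ : v x₃ ≤ 1 := not_lt.mp hx₃
  have p1 : 0 < v x₁ := lt_trans zero_lt_one hx₁
  have p2 : 0 < v x₂ := lt_trans zero_lt_one hx₂
  -- step 2 : the slope is small
  obtain ⟨m, hm1, hmℓ, hmm⟩ : ∃ m : Γ₀, 1 ≤ m ∧ v ℓ ≤ m ∧ m * m ≤ v x₁ := by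
    by_cases hl : v ℓ ≤ 1
    · exact ⟨1, le_rfl, hl, by rw [mul_one]; exact hx₁.le⟩
    · replace hl : 1 < v ℓ := not_le.mp hl
      refine ⟨v ℓ, hl.le, le_rfl, ?_⟩
      by_contra hcon
      replace hcon : v x₁ < v ℓ * v ℓ := not_le.mp hcon
      have pl : 0 < v ℓ := lt_trans zero_lt_one hl
      have hlt : v ℓ < v ℓ * v ℓ := by
        calc v ℓ = v ℓ * 1 := (mul_one _).symm
          _ < v ℓ * v ℓ := mul_lt_mul_of_pos_left hl pl
      have hE : ℓ ^ 2 = (x₁ + x₂ + x₃) - a₁ * ℓ + a₂ := by linear_combination -e₁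
      have hv : v (ℓ ^ 2) = v ℓ * v ℓ := by rw [pow_two, v.map_mul]
      have hlt2 : v ((x₁ + x₂ + x₃) - a₁ * ℓ + a₂) < v ℓ * v ℓ := by
        refine v.map_add_lt (v.map_sub_lt ?_ ?_) ?_
        · exact lt_of_le_of_lt (v.map_add_le (v.map_add_le le_rfl h) (hx₃.trans hx₁.le)) hcon
        · rw [v.map_mul]
          exact lt_of_le_of_lt (mul_le_of_le_one_left' h₁) hlt
        · exact lt_of_le_of_lt h₂ (lt_trans hl hlt)
      rw [← hE, hv] at hlt2
      exact lt_irrefl _ hlt2
  -- step 3
  have hmx : m < v x₁ * v x₂ := by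
    have : m ≤ m * m := by
      calc m = m * 1 := (mul_one _).symm
        _ ≤ m * m := mul_le_mul' le_rfl hm1
    calc m ≤ m * m := this
      _ ≤ v x₁ := hmm
      _ = v x₁ * 1 := (mul_one _).symm
      _ < v x₁ * v x₂ := mul_lt_mul_of_pos_left hx₂ p1
  have he2 : v (x₁ * x₂ + x₃ * (x₁ + x₂)) = v x₁ * v x₂ := by
    rw [v.map_add_eq_of_lt_left, v.map_mul]
    rw [v.map_mul, v.map_mul]
    calc v x₃ * v (x₁ + x₂) ≤ 1 * v x₁ :=
          mul_le_mul' hx₃ (v.map_add_le le_rfl h)
      _ = v x₁ * 1 := by rw [one_mul, mul_one]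
      _ < v x₁ * v x₂ := mul_lt_mul_of_pos_left hx₂ p1
  have h4 : (2 * ℓ + a₁) * ν = (a₄ - a₃ * ℓ) - (x₁ * x₂ + x₃ * (x₁ + x₂)) := by
    linear_combination e₂
  have h4v : v (2 * ℓ + a₁) * v ν = v x₁ * v x₂ := by
    rw [← v.map_mul, h4, v.map_sub_eq_of_lt_right, he2]
    rw [he2]
    refine lt_of_le_of_lt (v.map_sub_le (h₄.trans hm1) ?_) hmx
    rw [v.map_mul]
    exact (mul_le_of_le_one_left' h₃).trans hmℓ
  have h5 : v (2 * ℓ + a₁) ≤ m := by
    refine v.map_add_le ?_ (h₁.trans hm1)
    rw [v.map_mul]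
    exact (mul_le_of_le_one_left' (val_two_le_one v)).trans hmℓ
  have h6 : v x₁ * v x₂ ≤ m * v ν := by
    rw [← h4v]
    exact mul_le_mul' h5 le_rfl
  have h7 : v x₁ * v x₂ * v x₂ ≤ v ν * v ν := by
    have : v x₁ * (v x₁ * v x₂ * v x₂) ≤ v x₁ * (v ν * v ν) := by
      calc v x₁ * (v x₁ * v x₂ * v x₂) = (v x₁ * v x₂) * (v x₁ * v x₂) := by ac_rfl
        _ ≤ (m * v ν) * (m * v ν) := mul_le_mul' h6 h6
        _ = (m * m) * (v ν * v ν) := mul_mul_mul_comm _ _ _ _
        _ ≤ v x₁ * (v ν * v ν) := mul_le_mul' hmm le_rfl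
    exact le_of_mul_le_mul_left this p1
  have h8a : v x₁ * v x₂ < v x₁ * v x₂ * v x₂ := by
    calc v x₁ * v x₂ = v x₁ * v x₂ * 1 := (mul_one _).symm
      _ < v x₁ * v x₂ * v x₂ := mul_lt_mul_of_pos_left hx₂ (mul_pos p1 p2)
  have h8b : 1 < v x₁ * v x₂ := by
    calc 1 < v x₁ := hx₁
      _ = v x₁ * 1 := (mul_one _).symm
      _ < v x₁ * v x₂ := mul_lt_mul_of_pos_left hx₂ p1
  have h8 : 1 < v ν := by
    by_contra hcon
    replace hcon : v ν ≤ 1 := not_lt.mp hcon
    have : v ν * v ν ≤ 1 := by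
      calc v ν * v ν ≤ 1 * 1 := mul_le_mul' hcon hcon
        _ = 1 := mul_one 1
    exact lt_irrefl _ (lt_of_lt_of_le (h8b.trans h8a) (h7.trans this))
  have pν : 0 < v ν := lt_trans zero_lt_one h8
  have hνlt : v ν < v ν * v ν := by
    calc v ν = v ν * 1 := (mul_one _).symm
      _ < v ν * v ν := mul_lt_mul_of_pos_left h8 pν
  have h9 : v (ν ^ 2 + a₃ * ν - a₆) = v ν * v ν := by
    have hA : v (ν ^ 2 + a₃ * ν) = v ν * v ν := by
      rw [v.map_add_eq_of_lt_left, pow_two, v.map_mul]
      rw [pow_two, v.map_mul, v.map_mul]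
      exact lt_of_le_of_lt (mul_le_of_le_one_left' h₃) hνlt
    rw [v.map_sub_eq_of_lt_left, hA]
    rw [hA]
    exact lt_of_le_of_lt h₆ (h8.trans hνlt)
  have h10 : v (x₁ * x₂ * x₃) ≤ v x₁ * v x₂ := by
    rw [v.map_mul, v.map_mul]
    exact mul_le_of_le_one_right' hx₃
  rw [e₃, h9] at h10
  exact lt_irrefl _ (lt_of_lt_of_le h8a (h7.trans h10))

end Vieta

section E1

variable {F : Type*} [Field F] {Γ₀ : Type*} [LinearOrderedCommGroupWithZero Γ₀]

/-- The Weierstrass coefficients are integral for the valuation `v`. -/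
def IsIntegralModel (v : Valuation F Γ₀) (W : Affine F) : Prop :=
  v W.a₁ ≤ 1 ∧ v W.a₂ ≤ 1 ∧ v W.a₃ ≤ 1 ∧ v W.a₄ ≤ 1 ∧ v W.a₆ ≤ 1

/-- A point is in the kernel of reduction: it is `O` or its `x`-coordinate has a pole. -/
def InE1 (v : Valuation F Γ₀) {W : Affine F} : W.Point → Prop
  | .zero => True
  | .some x _ _ => 1 < v x

theorem inE1_zero (v : Valuation F Γ₀) {W : Affine F} : InE1 v (0 : W.Point) := trivial

theorem inE1_some (v : Valuation F Γ₀) {W : Affine F} {x y : F} (h : W.Nonsingular x y) :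
    InE1 v (Point.some x y h) ↔ 1 < v x := Iff.rfl

theorem inE1_neg (v : Valuation F Γ₀) {W : Affine F} {P : W.Point} (hP : InE1 v P) :
    InE1 v (-P) := by
  rcases P with _ | ⟨x, y, h⟩
  · exact trivial
  · exact hP

variable [DecidableEq F]

theorem inE1_add (v : Valuation F Γ₀) {W : Affine F} (hW : IsIntegralModel v W) {P Q : W.Point}
    (hP : InE1 v P) (hQ : InE1 v Q) : InE1 v (P + Q) := by
  rcases P with _ | ⟨x₁, y₁, h₁⟩
  · exact hQ
  rcases Q with _ | ⟨x₂, y₂, h₂⟩
  · exact hP
  by_cases hxy : x₁ = x₂ ∧ y₁ = W.negY x₂ y₂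
  · rw [Point.add_of_Y_eq hxy.1 hxy.2]
    exact trivial
  · rw [Point.add_some hxy]
    obtain ⟨i₁, i₂, i₃, i₄, i₆⟩ := hW
    have key := W.addPolynomial_slope h₁.1 h₂.1 hxy
    rw [addPolynomial_eq, neg_inj, Cubic.prod_X_sub_C_eq, Cubic.toPoly_injective] at key
    simp only [Cubic.mk.injEq] at key
    obtain ⟨-, hb, hc, hd⟩ := key
    refine one_lt_val_third_root v (ℓ := W.slope x₁ x₂ y₁ y₂)
      (ν := y₁ - W.slope x₁ x₂ y₁ y₂ * x₁) i₁ i₂ i₃ i₄ i₆ hP hQ ?_ ?_ ?_
    · linear_combination hb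
    · linear_combination -hc
    · linear_combination hd

/-- The kernel of reduction `E₁` of an integral Weierstrass model, as a subgroup. -/
def E1 (v : Valuation F Γ₀) (W : Affine F) (hW : IsIntegralModel v W) : AddSubgroup W.Point where
  carrier := {P | InE1 v P}
  add_mem' := fun hP hQ => inE1_add v hW hP hQ
  zero_mem' := trivial
  neg_mem' := fun hP => inE1_neg v hP

theorem mem_E1 (v : Valuation F Γ₀) (W : Affine F) (hW : IsIntegralModel v W) (P : W.Point) :
    P ∈ E1 v W hW ↔ InE1 v P := Iff.rfl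

end E1

section Delta

variable {F : Type*} [Field F]

/-- `δ` is an invariant-differential homomorphism for the operator `D`:
`D x = δ(P) (2y + a₁x + a₃)` and `D y = δ(P) (3x² + 2a₂x + a₄ - a₁y)` for `P = (x, y)`. -/
def IsInvDiff [DecidableEq F] (W : Affine F) (D : F → F) (δ : W.Point →+ F) : Prop :=
  ∀ (x y : F) (h : W.Nonsingular x y),
    D x = δ (Point.some x y h) * (2 * y + W.a₁ * x + W.a₃) ∧
    D y = δ (Point.some x y h) * (3 * x ^ 2 + 2 * W.a₂ * x + W.a₄ - W.a₁ * y)

/-- The value of an invariant-differential hom is determined by the two component equations. -/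
theorem IsInvDiff.eq_of_eq [DecidableEq F] {W : Affine F} {D : F → F} {δ : W.Point →+ F}
    (hδ : IsInvDiff W D δ) {x y : F} (h : W.Nonsingular x y) {w : F}
    (hx : D x = w * (2 * y + W.a₁ * x + W.a₃))
    (hy : D y = w * (3 * x ^ 2 + 2 * W.a₂ * x + W.a₄ - W.a₁ * y)) :
    δ (Point.some x y h) = w := by
  obtain ⟨e1, e2⟩ := hδ x y h
  have hns := ((W.nonsingular_iff' x y).mp h).2
  rcases hns with hns | hns
  · have h3 : (δ (Point.some x y h) - w) * (W.a₁ * y - (3 * x ^ 2 + 2 * W.a₂ * x + W.a₄)) = 0 := by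
      linear_combination e2 - hy
    exact sub_eq_zero.mp ((mul_eq_zero.mp h3).resolve_right hns)
  · have h3 : (δ (Point.some x y h) - w) * (2 * y + W.a₁ * x + W.a₃) = 0 := by
      linear_combination hx - e1
    exact sub_eq_zero.mp ((mul_eq_zero.mp h3).resolve_right hns)

/-- A point in `E₁` killed by `δ` is `O`, if `D`-constants are integral. -/
theorem eq_zero_of_mem_E1_of_invDiff_eq_zero [DecidableEq F] {Γ₀ : Type*}
    [LinearOrderedCommGroupWithZero Γ₀]
    (v : Valuation F Γ₀) {W : Affine F} (hW : IsIntegralModel v W) {D : F → F}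
    {δ : W.Point →+ F} (hδ : IsInvDiff W D δ) (hD : ∀ x, D x = 0 → v x ≤ 1) {P : W.Point}
    (hP : P ∈ E1 v W hW) (h0 : δ P = 0) : P = 0 := by
  rcases P with _ | ⟨x, y, h⟩
  · rfl
  · exfalso
    have h1 : D x = 0 := by rw [(hδ x y h).1, h0, zero_mul]
    exact absurd (hD x h1) (not_le.mpr hP)

end Delta

section Naturality

variable {R : Type*} [CommRing R] {L : Type*} [Field L] [Algebra R L] [DecidableEq L]

/-- Naturality of an invariant-differential hom under an algebra endomorphism `φ` with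
`D ∘ φ = c • φ ∘ D`. -/
theorem IsInvDiff.map_eq (W : Affine R) {D : L → L} {δ : (W⁄L).Point →+ L}
    (hδ : IsInvDiff (W⁄L) D δ) (φ : L →ₐ[R] L) (c : L) (hφ : ∀ f, D (φ f) = c * φ (D f))
    (P : (W⁄L).Point) : δ (Point.map φ P) = c * φ (δ P) := by
  rcases P with _ | ⟨x, y, h⟩
  · have h0 : (Point.zero : (W⁄L).Point) = 0 := rfl
    rw [h0, map_zero, map_zero, map_zero, mul_zero]
  · rw [Point.map_some]
    obtain ⟨e1, e2⟩ := hδ x y h
    have ha₁ : φ ((W⁄L).a₁) = (W⁄L).a₁ := by
      simp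
    have ha₂ : φ ((W⁄L).a₂) = (W⁄L).a₂ := by
      simp
    have ha₃ : φ ((W⁄L).a₃) = (W⁄L).a₃ := by
      simp
    have ha₄ : φ ((W⁄L).a₄) = (W⁄L).a₄ := by
      simp
    refine hδ.eq_of_eq _ ?_ ?_
    · rw [hφ, e1]
      simp only [map_mul, map_add, map_ofNat, ha₁, ha₃]
      ring
    · rw [hφ, e2]
      simp only [map_mul, map_add, map_sub, map_pow, map_ofNat, ha₁, ha₂, ha₄]
      ring

end Naturality

section DerivationOfLeibniz

/-- A derivation of a field extension from additivity, vanishing on constants and the Leibniz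
rule (all module structures are the ones induced by the algebra structure). -/
def derivationOfLeibniz {k L : Type*} [Field k] [Field L] [Algebra k L] (f : L → L)
    (hadd : ∀ x y, f (x + y) = f x + f y) (hconst : ∀ c, f (algebraMap k L c) = 0)
    (hmul : ∀ x y, f (x * y) = x * f y + y * f x) : Derivation k L L where
  toFun := f
  map_add' := hadd
  map_smul' c x := by
    rw [RingHom.id_apply, Algebra.smul_def, hmul, hconst, mul_zero, add_zero, Algebra.smul_def]
  map_one_eq_zero' := by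
    show f 1 = 0
    rw [← map_one (algebraMap k L)]
    exact hconst 1
  leibniz' x y := by
    show f (x * y) = x • f y + y • f x
    rw [smul_eq_mul, smul_eq_mul]
    exact hmul x y

@[simp] theorem derivationOfLeibniz_apply {k L : Type*} [Field k] [Field L] [Algebra k L]
    (f : L → L) (hadd : ∀ x y, f (x + y) = f x + f y) (hconst : ∀ c, f (algebraMap k L c) = 0)
    (hmul : ∀ x y, f (x * y) = x * f y + y * f x) (x : L) :
    derivationOfLeibniz f hadd hconst hmul x = f x := rfl

end DerivationOfLeibniz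

section Laurent

variable {K : Type*} [Field K]

/-- The Euler operator `θ = t d/dt` on Laurent series. -/
def theta (f : LaurentSeries K) : LaurentSeries K where
  coeff n := (n : K) * f.coeff n
  isPWO_support' := f.isPWO_support.mono (fun n hn => by
    simp only [Function.mem_support, ne_eq] at hn ⊢
    exact fun h => hn (by rw [h, mul_zero]))

@[simp] theorem theta_coeff (f : LaurentSeries K) (n : ℤ) :
    (theta f).coeff n = (n : K) * f.coeff n := rfl

theorem theta_support_subset (f : LaurentSeries K) : (theta f).support ⊆ f.support := by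
  intro n hn
  simp only [HahnSeries.mem_support, theta_coeff, ne_eq] at hn ⊢
  exact fun h => hn (by rw [h, mul_zero])

theorem theta_add (f g : LaurentSeries K) : theta (f + g) = theta f + theta g := by
  ext n
  simp only [theta_coeff, HahnSeries.coeff_add]
  ring

theorem theta_smul (c : K) (f : LaurentSeries K) : theta (c • f) = c • theta f := by
  ext n
  simp only [theta_coeff, HahnSeries.coeff_smul, smul_eq_mul]
  ring

/-- Leibniz rule for `θ`. -/
theorem theta_mul (f g : LaurentSeries K) : theta (f * g) = f * theta g + g * theta f := by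
  ext n
  rw [theta_coeff, HahnSeries.coeff_add, HahnSeries.coeff_mul, mul_comm g (theta f),
    HahnSeries.coeff_mul_right' (x := f) (y := theta g) g.isPWO_support (theta_support_subset g),
    HahnSeries.coeff_mul_left' (x := theta f) (y := g) f.isPWO_support (theta_support_subset f),
    Finset.mul_sum, ← Finset.sum_add_distrib]
  refine Finset.sum_congr rfl ?_
  intro ij hij
  have hsum : ij.1 + ij.2 = n := (Finset.mem_antidiagonal.mp hij).2.2
  rw [theta_coeff, theta_coeff, ← hsum]
  push_cast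
  ring

theorem theta_algebraMap (c : K) : theta (algebraMap K (LaurentSeries K) c) = 0 := by
  rw [LaurentSeries.algebraMap_apply]
  ext n
  rw [theta_coeff, HahnSeries.coeff_zero]
  by_cases hn : n = 0
  · subst hn; simp
  · rw [HahnSeries.C_apply, HahnSeries.coeff_single_of_ne hn, mul_zero]

/-- `θ = t d/dt` as a `K`-derivation of `K((t))` (module structures coming from the algebra
structure, as required by `Lib/helper9242_InvDiffHom`). -/
def thetaDer (K : Type*) [Field K] :=
  derivationOfLeibniz (k := K) (L := LaurentSeries K) theta theta_add theta_algebraMap theta_mul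

@[simp] theorem thetaDer_apply (f : LaurentSeries K) : thetaDer K f = theta f := rfl

theorem theta_twist (ζ : Kˣ) (f : LaurentSeries K) : theta (twist ζ f) = twist ζ (theta f) := by
  ext n
  simp only [theta_coeff, twist_coeff]
  ring

theorem theta_qExpand (N : ℕ) [NeZero N] (f : LaurentSeries K) :
    theta (qExpand K N f) = HahnSeries.C (N : K) * qExpand K N (theta f) := by
  ext n
  rw [HahnSeries.C_mul_eq_smul, HahnSeries.coeff_smul, theta_coeff]
  by_cases hn : (N : ℤ) ∣ n
  · obtain ⟨m, rfl⟩ := hn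
    rw [qExpand_coeff_mul, qExpand_coeff_mul, theta_coeff, smul_eq_mul]
    push_cast
    ring
  · rw [qExpand_coeff_of_not_dvd N _ hn, qExpand_coeff_of_not_dvd N _ hn, mul_zero, smul_zero]

/-- `t ↦ ζ t` as a `K`-algebra endomorphism of `K((t))`. -/
def twistAlg (ζ : Kˣ) : LaurentSeries K →ₐ[K] LaurentSeries K where
  __ := twist ζ
  commutes' c := by
    show twist ζ (algebraMap K (LaurentSeries K) c) = algebraMap K (LaurentSeries K) c
    rw [LaurentSeries.algebraMap_apply]
    ext n
    rw [twist_coeff]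
    by_cases hn : n = 0
    · subst hn; simp
    · rw [HahnSeries.C_apply, HahnSeries.coeff_single_of_ne hn, mul_zero]

@[simp] theorem twistAlg_apply (ζ : Kˣ) (f : LaurentSeries K) : twistAlg ζ f = twist ζ f := rfl

/-- `f` has a pole at `t = 0`. -/
theorem one_lt_val_iff (f : LaurentSeries K) :
    1 < (Valued.v f : WithZero (Multiplicative ℤ)) ↔ ∃ n : ℤ, n < 0 ∧ f.coeff n ≠ 0 := by
  have h := LaurentSeries.valuation_le_iff_coeff_lt_eq_zero K (D := 0) (f := f)
  rw [neg_zero, WithZero.exp_zero] at h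
  rw [← not_le, h]
  push Not
  rfl

theorem val_le_one_iff (f : LaurentSeries K) :
    (Valued.v f : WithZero (Multiplicative ℤ)) ≤ 1 ↔ ∀ n : ℤ, n < 0 → f.coeff n = 0 := by
  have h := LaurentSeries.valuation_le_iff_coeff_lt_eq_zero K (D := 0) (f := f)
  rwa [neg_zero, WithZero.exp_zero] at h

theorem val_C_le_one (c : K) : (Valued.v (HahnSeries.C c : LaurentSeries K) : WithZero (Multiplicative ℤ)) ≤ 1 := by
  rw [val_le_one_iff]
  intro n hn
  rw [HahnSeries.C_apply, HahnSeries.coeff_single_of_ne hn.ne]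

theorem val_le_one_of_theta_eq_zero [CharZero K] {f : LaurentSeries K} (hf : theta f = 0) :
    (Valued.v f : WithZero (Multiplicative ℤ)) ≤ 1 := by
  rw [val_le_one_iff]
  intro n hn
  have h := congrArg (fun x : LaurentSeries K => x.coeff n) hf
  simp only [theta_coeff, HahnSeries.coeff_zero] at h
  rcases mul_eq_zero.mp h with h | h
  · exact absurd (Int.cast_eq_zero.mp h) hn.ne
  · exact h

theorem one_lt_val_twist (ζ : Kˣ) {f : LaurentSeries K}
    (hf : 1 < (Valued.v f : WithZero (Multiplicative ℤ))) :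
    1 < (Valued.v (twist ζ f) : WithZero (Multiplicative ℤ)) := by
  rw [one_lt_val_iff] at hf ⊢
  obtain ⟨n, hn, hc⟩ := hf
  refine ⟨n, hn, ?_⟩
  rw [twist_coeff]
  exact mul_ne_zero (Units.ne_zero _) hc

theorem one_lt_val_qExpand (N : ℕ) [NeZero N] {f : LaurentSeries K}
    (hf : 1 < (Valued.v f : WithZero (Multiplicative ℤ))) :
    1 < (Valued.v (qExpand K N f) : WithZero (Multiplicative ℤ)) := by
  rw [one_lt_val_iff] at hf ⊢
  obtain ⟨n, hn, hc⟩ := hf
  refine ⟨(N : ℤ) * n, ?_, ?_⟩
  · have hN : (0 : ℤ) < N := by exact_mod_cast Nat.pos_of_ne_zero (NeZero.ne N)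
    exact mul_neg_of_pos_of_neg hN hn
  · rw [qExpand_coeff_mul]
    exact hc

end Laurent

section Main

/-- The tower `K → K → K((t))` for the algebra structure on Laurent series (needed to form
`Point.map` along `K`-algebra endomorphisms of `K((t))`; Prop-valued, so harmless). -/
scoped instance isScalarTower_laurent (K : Type*) [Field K] :
    @IsScalarTower K K (LaurentSeries K) Algebra.toSMul Algebra.toSMul Algebra.toSMul :=
  IsScalarTower.of_algebraMap_eq (fun _ => rfl)

variable {K : Type*} [Field K] [DecidableEq (LaurentSeries K)]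

omit [DecidableEq (LaurentSeries K)] in
/-- A Weierstrass curve over `K`, base-changed to `K((t))`, is an integral model for the `t`-adic
valuation. -/
theorem isIntegralModel_baseChange (W : Affine K) :
    IsIntegralModel (Valued.v : Valuation (LaurentSeries K) (WithZero (Multiplicative ℤ)))
      (W⁄(LaurentSeries K)) := by
  refine ⟨?_, ?_, ?_, ?_, ?_⟩
  · show Valued.v (algebraMap K (LaurentSeries K) W.a₁) ≤ 1
    rw [LaurentSeries.algebraMap_apply]; exact val_C_le_one _
  · show Valued.v (algebraMap K (LaurentSeries K) W.a₂) ≤ 1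
    rw [LaurentSeries.algebraMap_apply]; exact val_C_le_one _
  · show Valued.v (algebraMap K (LaurentSeries K) W.a₃) ≤ 1
    rw [LaurentSeries.algebraMap_apply]; exact val_C_le_one _
  · show Valued.v (algebraMap K (LaurentSeries K) W.a₄) ≤ 1
    rw [LaurentSeries.algebraMap_apply]; exact val_C_le_one _
  · show Valued.v (algebraMap K (LaurentSeries K) W.a₆) ≤ 1
    rw [LaurentSeries.algebraMap_apply]; exact val_C_le_one _

/-- The invariant-differential homomorphism `δ : W(K((t))) → K((t))` for `θ = t d/dt`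
(additivity is `Lib/helper9242_InvDiffHom`). -/
def delta (W : Affine K) : (W⁄(LaurentSeries K)).Point →+ LaurentSeries K :=
  Fermat.Agent.Lib.helper9242.invDiff (thetaDer K) (W⁄(LaurentSeries K))
    (Fermat.Agent.Lib.helper9242.constCoeffs_baseChange (thetaDer K) W)

theorem isInvDiff_delta (W : Affine K) : IsInvDiff (W⁄(LaurentSeries K)) theta (delta W) :=
  fun _ _ h =>
    ⟨Fermat.Agent.Lib.helper9242.D_x_eq (D := thetaDer K)
        (Fermat.Agent.Lib.helper9242.constCoeffs_baseChange (thetaDer K) W) h,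
      Fermat.Agent.Lib.helper9242.D_y_eq (D := thetaDer K)
        (Fermat.Agent.Lib.helper9242.constCoeffs_baseChange (thetaDer K) W) h⟩

/-- `δ(P(ζ t)) = δ(P)(ζ t)`. -/
theorem delta_map_twist (W : Affine K) (ζ : Kˣ) (P : (W⁄(LaurentSeries K)).Point) :
    delta W (Point.map (twistAlg ζ) P) = twist ζ (delta W P) := by
  have h := (isInvDiff_delta W).map_eq W (twistAlg ζ) 1
    (fun f => by rw [one_mul]; exact theta_twist ζ f) P
  rwa [one_mul] at h

/-- `δ(P(t^N)) = N δ(P)(t^N)`. -/
theorem delta_map_qExpand (W : Affine K) (N : ℕ) [NeZero N] (P : (W⁄(LaurentSeries K)).Point) :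
    delta W (Point.map (qExpandAlgHomC K N) P) = HahnSeries.C (N : K) * qExpand K N (delta W P) :=
  (isInvDiff_delta W).map_eq W (qExpandAlgHomC K N) (HahnSeries.C (N : K))
    (fun f => theta_qExpand N f) P

theorem inE1_map_twist (W : Affine K) (ζ : Kˣ) {P : (W⁄(LaurentSeries K)).Point}
    (hP : InE1 (Valued.v : Valuation (LaurentSeries K) (WithZero (Multiplicative ℤ))) P) :
    InE1 (Valued.v : Valuation (LaurentSeries K) (WithZero (Multiplicative ℤ)))
      (Point.map (twistAlg ζ) P) := by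
  rcases P with _ | ⟨x, y, h⟩
  · exact trivial
  · exact one_lt_val_twist ζ hP

theorem inE1_map_qExpand (W : Affine K) (N : ℕ) [NeZero N] {P : (W⁄(LaurentSeries K)).Point}
    (hP : InE1 (Valued.v : Valuation (LaurentSeries K) (WithZero (Multiplicative ℤ))) P) :
    InE1 (Valued.v : Valuation (LaurentSeries K) (WithZero (Multiplicative ℤ)))
      (Point.map (qExpandAlgHomC K N) P) := by
  rcases P with _ | ⟨x, y, h⟩
  · exact trivial
  · exact one_lt_val_qExpand N hP

/-- **Rigidity**: a point of `E₁(K((t)))` killed by `δ` is `O` (characteristic zero). -/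
theorem eq_zero_of_inE1_of_delta_eq_zero [CharZero K] (W : Affine K)
    {P : (W⁄(LaurentSeries K)).Point}
    (hP : InE1 (Valued.v : Valuation (LaurentSeries K) (WithZero (Multiplicative ℤ))) P)
    (h0 : delta W P = 0) : P = 0 :=
  eq_zero_of_mem_E1_of_invDiff_eq_zero Valued.v (isIntegralModel_baseChange W) (isInvDiff_delta W)
    (fun _ hx => val_le_one_of_theta_eq_zero hx) hP h0

/-- `δ(X, Y) = g` as soon as `θ X = g (2Y + a₁X + a₃)` and `X` has a pole. -/
theorem delta_some_eq [CharZero K] (W : Affine K) {X Y : LaurentSeries K}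
    (h : (W⁄(LaurentSeries K)).Nonsingular X Y) (hX : ∃ n : ℤ, n < 0 ∧ X.coeff n ≠ 0)
    {g : LaurentSeries K}
    (hg : theta X = g * (2 * Y + HahnSeries.C W.a₁ * X + HahnSeries.C W.a₃)) :
    delta W (Point.some X Y h) = g := by
  have e1 := (isInvDiff_delta W X Y h).1
  have ha₁ : (W⁄(LaurentSeries K)).a₁ = HahnSeries.C W.a₁ := LaurentSeries.algebraMap_apply K W.a₁
  have ha₃ : (W⁄(LaurentSeries K)).a₃ = HahnSeries.C W.a₃ := LaurentSeries.algebraMap_apply K W.a₃
  rw [ha₁, ha₃] at e1
  have hT : 2 * Y + HahnSeries.C W.a₁ * X + HahnSeries.C W.a₃ ≠ 0 := by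
    intro hT
    rw [hT, mul_zero] at hg
    exact absurd (val_le_one_of_theta_eq_zero hg) (not_le.mpr ((one_lt_val_iff X).mpr hX))
  exact mul_right_cancel₀ hT (e1.symm.trans hg)

/-- **Hecke relation on the generic point, `T_l` form** (general point of `E₁`).
If `g = δ(P)` satisfies `U_l g + l V_l g = a g`, then
`P(t^(l²)) + ∑_{j<l} P(ζ^j t) = [a] P(t^l)`. -/
theorem hecke_relation_T_point [CharZero K] (W : Affine K) (l : ℕ) [NeZero l] (ζ : Kˣ)
    (hζ : IsPrimitiveRoot ζ l) (P : (W⁄(LaurentSeries K)).Point)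
    (hP : InE1 (Valued.v : Valuation (LaurentSeries K) (WithZero (Multiplicative ℤ))) P) (a : ℤ)
    (hrel : Ush l 0 (delta W P) + (l : K) • qExpand K l (delta W P) = (a : K) • delta W P) :
    Point.map (qExpandAlgHomC K (l ^ 2)) P + ∑ j ∈ Finset.range l, Point.map (twistAlg (ζ ^ j)) P
      = a • Point.map (qExpandAlgHomC K l) P := by
  rw [← sub_eq_zero]
  refine eq_zero_of_inE1_of_delta_eq_zero W ?_ ?_
  · have hE := isIntegralModel_baseChange W
    refine (E1 Valued.v _ hE).sub_mem ((E1 Valued.v _ hE).add_mem ?_ ?_) ?_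
    · exact inE1_map_qExpand W (l ^ 2) hP
    · exact (E1 Valued.v _ hE).sum_mem (fun j _ => inE1_map_twist W (ζ ^ j) hP)
    · exact (E1 Valued.v _ hE).zsmul_mem (inE1_map_qExpand W l hP) a
  · rw [map_sub, map_add, map_sum, map_zsmul, delta_map_qExpand, delta_map_qExpand]
    simp only [delta_map_twist]
    have hs : ∑ j ∈ Finset.range l, twist (ζ ^ j) (delta W P)
        = (l : K) • qExpand K l (Ush l 0 (delta W P)) := by
      rw [← sum_twist_eq l ζ hζ (delta W P),
        Fin.sum_univ_eq_sum_range (fun j => twist (ζ ^ j) (delta W P)) l]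
    have hU : Ush l 0 (delta W P) = (a : K) • delta W P - (l : K) • qExpand K l (delta W P) :=
      eq_sub_of_add_eq hrel
    have hVV : qExpand K (l ^ 2) (delta W P) = qExpand K l (qExpand K l (delta W P)) := by
      rw [qExpand_qExpand]
      exact qExpand_congr (pow_two l) _
    have hC : (HahnSeries.C ((l ^ 2 : ℕ) : K) : LaurentSeries K)
        = HahnSeries.C (l : K) * HahnSeries.C (l : K) := by
      rw [← map_mul]; push_cast; rw [pow_two]
    have ha : ∀ x : LaurentSeries K, a • x = HahnSeries.C (a : K) * x := by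
      intro x
      rw [zsmul_eq_mul, map_intCast]
    rw [hs, hU, hVV, hC, ha, ← HahnSeries.C_mul_eq_smul, ← HahnSeries.C_mul_eq_smul,
      ← HahnSeries.C_mul_eq_smul, map_sub, map_mul, map_mul, qExpand_C, qExpand_C]
    ring

/-- **Hecke relation on the generic point, `U_l` form** (general point of `E₁`).
If `g = δ(P)` satisfies `U_l g = a g`, then `∑_{j<l} P(ζ^j t) = [a] P(t^l)`. -/
theorem hecke_relation_U_point [CharZero K] (W : Affine K) (l : ℕ) [NeZero l] (ζ : Kˣ)
    (hζ : IsPrimitiveRoot ζ l) (P : (W⁄(LaurentSeries K)).Point)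
    (hP : InE1 (Valued.v : Valuation (LaurentSeries K) (WithZero (Multiplicative ℤ))) P) (a : ℤ)
    (hrel : Ush l 0 (delta W P) = (a : K) • delta W P) :
    ∑ j ∈ Finset.range l, Point.map (twistAlg (ζ ^ j)) P
      = a • Point.map (qExpandAlgHomC K l) P := by
  rw [← sub_eq_zero]
  refine eq_zero_of_inE1_of_delta_eq_zero W ?_ ?_
  · have hE := isIntegralModel_baseChange W
    refine (E1 Valued.v _ hE).sub_mem ?_ ?_
    · exact (E1 Valued.v _ hE).sum_mem (fun j _ => inE1_map_twist W (ζ ^ j) hP)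
    · exact (E1 Valued.v _ hE).zsmul_mem (inE1_map_qExpand W l hP) a
  · rw [map_sub, map_sum, map_zsmul, delta_map_qExpand]
    simp only [delta_map_twist]
    have hs : ∑ j ∈ Finset.range l, twist (ζ ^ j) (delta W P)
        = (l : K) • qExpand K l (Ush l 0 (delta W P)) := by
      rw [← sum_twist_eq l ζ hζ (delta W P),
        Fin.sum_univ_eq_sum_range (fun j => twist (ζ ^ j) (delta W P)) l]
    have ha : ∀ x : LaurentSeries K, a • x = HahnSeries.C (a : K) * x := by
      intro x
      rw [zsmul_eq_mul, map_intCast]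
    rw [hs, hrel, ha, ← HahnSeries.C_mul_eq_smul, ← HahnSeries.C_mul_eq_smul, map_mul, qExpand_C]
    ring

omit [DecidableEq (LaurentSeries K)] in
/-- Coefficients of `f(t^N)`. -/
theorem qExpand_coeff_eq_ite (N : ℕ) [NeZero N] (f : LaurentSeries K) (m : ℤ) :
    (qExpand K N f).coeff m = if (N : ℤ) ∣ m then f.coeff (m / N) else 0 := by
  split_ifs with hm
  · obtain ⟨k, rfl⟩ := hm
    have hN : (N : ℤ) ≠ 0 := by exact_mod_cast NeZero.ne N
    rw [qExpand_coeff_mul, Int.mul_ediv_cancel_left _ hN]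
  · exact qExpand_coeff_of_not_dvd N f hm

omit [DecidableEq (LaurentSeries K)] in
/-- The formal eigen-relation `U_l g + l V_l g = a g` from the coefficient recursion
`g_{lm} + l g_{m/l} = a g_m`. -/
theorem ush_add_qExpand_eq_of_coeff (l : ℕ) [NeZero l] (g : LaurentSeries K) (a : K)
    (hrel : ∀ m : ℤ, g.coeff ((l : ℤ) * m)
      + (l : K) * (if (l : ℤ) ∣ m then g.coeff (m / l) else 0) = a * g.coeff m) :
    Ush l 0 g + (l : K) • qExpand K l g = a • g := by
  ext m
  rw [HahnSeries.coeff_add, HahnSeries.coeff_smul, HahnSeries.coeff_smul, Ush_coeff, add_zero,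
    qExpand_coeff_eq_ite, smul_eq_mul, smul_eq_mul]
  exact hrel m

omit [DecidableEq (LaurentSeries K)] in
/-- The formal eigen-relation `U_l g = a g` from the coefficient recursion `g_{lm} = a g_m`. -/
theorem ush_eq_of_coeff (l : ℕ) [NeZero l] (g : LaurentSeries K) (a : K)
    (hrel : ∀ m : ℤ, g.coeff ((l : ℤ) * m) = a * g.coeff m) :
    Ush l 0 g = a • g := by
  ext m
  rw [HahnSeries.coeff_smul, Ush_coeff, add_zero, smul_eq_mul]
  exact hrel m

/-- **Hecke relation on the generic point, `T_l` form.**  Let `W` be a Weierstrass curve over a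
field `K` of characteristic zero containing a primitive `l`-th root of unity `ζ`, and
`(X, Y) ∈ W(K((t)))` with `X` having a pole, `θ X = g (2Y + a₁X + a₃)`.  If
`g_{lm} + l g_{m/l} = a g_m` for all `m`, then
`P(t^(l²)) + ∑_{j<l} P(ζ^j t) = [a] P(t^l)`. -/
theorem hecke_relation_T [CharZero K] (W : Affine K) (l : ℕ) [NeZero l] (ζ : Kˣ)
    (hζ : IsPrimitiveRoot ζ l) {X Y : LaurentSeries K}
    (h : (W⁄(LaurentSeries K)).Nonsingular X Y) (hX : ∃ n : ℤ, n < 0 ∧ X.coeff n ≠ 0)
    {g : LaurentSeries K}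
    (hg : theta X = g * (2 * Y + HahnSeries.C W.a₁ * X + HahnSeries.C W.a₃)) (a : ℤ)
    (hrel : ∀ m : ℤ, g.coeff ((l : ℤ) * m)
      + (l : K) * (if (l : ℤ) ∣ m then g.coeff (m / l) else 0) = (a : K) * g.coeff m) :
    Point.map (qExpandAlgHomC K (l ^ 2)) (Point.some X Y h)
        + ∑ j ∈ Finset.range l, Point.map (twistAlg (ζ ^ j)) (Point.some X Y h)
      = a • Point.map (qExpandAlgHomC K l) (Point.some X Y h) := by
  refine hecke_relation_T_point W l ζ hζ (Point.some X Y h) ((one_lt_val_iff X).mpr hX) a ?_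
  rw [delta_some_eq W h hX hg]
  exact ush_add_qExpand_eq_of_coeff l g a hrel

/-- **Hecke relation on the generic point, `U_l` form.**  Same setting; if `g_{lm} = a g_m` for
all `m`, then `∑_{j<l} P(ζ^j t) = [a] P(t^l)`. -/
theorem hecke_relation_U [CharZero K] (W : Affine K) (l : ℕ) [NeZero l] (ζ : Kˣ)
    (hζ : IsPrimitiveRoot ζ l) {X Y : LaurentSeries K}
    (h : (W⁄(LaurentSeries K)).Nonsingular X Y) (hX : ∃ n : ℤ, n < 0 ∧ X.coeff n ≠ 0)
    {g : LaurentSeries K}
    (hg : theta X = g * (2 * Y + HahnSeries.C W.a₁ * X + HahnSeries.C W.a₃)) (a : ℤ)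
    (hrel : ∀ m : ℤ, g.coeff ((l : ℤ) * m) = (a : K) * g.coeff m) :
    ∑ j ∈ Finset.range l, Point.map (twistAlg (ζ ^ j)) (Point.some X Y h)
      = a • Point.map (qExpandAlgHomC K l) (Point.some X Y h) := by
  refine hecke_relation_U_point W l ζ hζ (Point.some X Y h) ((one_lt_val_iff X).mpr hX) a ?_
  rw [delta_some_eq W h hX hg]
  exact ush_eq_of_coeff l g a hrel

end Main

end

end Fermat.Agent.S58.helper6723
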