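/-
S58, route #1886, step 4 (board #955): EICHLER–SHIMURA AT A GOOD PRIME FROM THE FORMAL HECKE
RELATION — the abstract reduction core (helper7212).

Setting (no Laurent series in this file; the Gauss valuation subring of `Frac R((t))` is the
intended instance): `F` a field, `A : ValuationSubring F`, `φ : A →+* κ` a local homomorphism to
a field `κ` of characteristic `l`, `W : WeierstrassCurve A` with `IsUnit W.Δ`, and the reduction
homomorphism `red φ W hΔ` of `Lib/helper8525_RedHom`.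

* `false_of_delta_of_one_lt`, `mem_of_delta` : a point `(X, Y)` whose "differential" with respect
  to a valuation-non-increasing map `D` is a unit cannot lie in the kernel of reduction.
* `red_some_of_delta` : such a point reduces to an affine point `(x, y)` of the special fibre
  with `IsDeltaAt (W.map φ) Dbar x y (φ g)`.
* `red_comm` : reduction commutes with endomorphisms given on coordinates by a map `σ`
  preserving `A` and inducing `σbar` on `κ`.
* `trace_eq_of_heckeRel` : the Hecke relation `S₂ P + ∑_{j<l} T_j P = a • S₁ P` on the generic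
  fibre and Cayley–Hamilton `Fr² - t Fr + l = 0` on the special fibre give `a = t`.
* `false_of_uRel` : the `U_l`-relation `∑_{j<l} T_j P = a • S₁ P` is impossible when
  `t = l + 1 - n`, `1 ≤ n ≤ 2 l + 1`.
-/
import Mathlib
import Fermat.Agent.Lib.helper8525_RedHom
import Fermat.Agent.S58.helper6639_DeltaHom
import Fermat.Agent.S58.helper5120_NormTrick

set_option autoImplicit false

namespace Fermat.Agent.S58.helper7212

open WeierstrassCurve

/-! ## Valuation estimates in the kernel of reduction -/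

section Val

variable {F Γ₀ : Type*} [Field F] [LinearOrderedCommGroupWithZero Γ₀] (v : Valuation F Γ₀)

theorem val_mul_le_of_le_one {a x : F} {c : Γ₀} (ha : v a ≤ 1) (hx : v x ≤ c) : v (a * x) ≤ c := by
  rw [map_mul]
  calc v a * v x ≤ 1 * c := mul_le_mul' ha hx
    _ = c := one_mul c

/-- In the kernel of reduction of an integral Weierstrass equation: `v(X) < v(Y)` and
`v(Y)² = v(X)³`. -/
theorem val_sq_eq_cube {a₁ a₂ a₃ a₄ a₆ X Y : F} (h₁ : v a₁ ≤ 1) (h₂ : v a₂ ≤ 1) (h₃ : v a₃ ≤ 1)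
    (h₄ : v a₄ ≤ 1) (h₆ : v a₆ ≤ 1) (hX : 1 < v X)
    (hE : Y ^ 2 + a₁ * X * Y + a₃ * Y = X ^ 3 + a₂ * X ^ 2 + a₄ * X + a₆) :
    v X < v Y ∧ v Y ^ 2 = v X ^ 3 := by
  have hX0 : (0 : Γ₀) < v X := lt_trans zero_lt_one hX
  have h12 : v X < v X ^ 2 := by
    calc v X = v X ^ 1 := (pow_one _).symm
      _ < v X ^ 2 := pow_lt_pow_right₀ hX (by norm_num)
  have h23 : v X ^ 2 < v X ^ 3 := pow_lt_pow_right₀ hX (by norm_num)
  have h13 : v X < v X ^ 3 := h12.trans h23
  have h03 : (1 : Γ₀) < v X ^ 3 := hX.trans h13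
  -- the right-hand side has valuation `v X ^ 3`
  have hR : v (X ^ 3 + a₂ * X ^ 2 + a₄ * X + a₆) = v X ^ 3 := by
    have e1 : v (a₂ * X ^ 2) < v X ^ 3 :=
      lt_of_le_of_lt (val_mul_le_of_le_one v h₂ (by rw [map_pow])) h23
    have e2 : v (a₄ * X) < v X ^ 3 :=
      lt_of_le_of_lt (val_mul_le_of_le_one v h₄ le_rfl) h13
    have e3 : v a₆ < v X ^ 3 := lt_of_le_of_lt h₆ h03
    have e4 : v (a₂ * X ^ 2 + a₄ * X + a₆) < v (X ^ 3) := by
      rw [map_pow]
      exact v.map_add_lt (v.map_add_lt e1 e2) e3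
    have := v.map_add_eq_of_lt_left e4
    rw [map_pow] at this
    rw [← this]
    congr 1
    ring
  have hXY : v X < v Y := by
    by_contra hcon
    rw [not_lt] at hcon
    have e1 : v (Y ^ 2) ≤ v X ^ 2 := by
      rw [map_pow]; exact pow_le_pow_left₀ zero_le hcon 2
    have e2 : v (a₁ * X * Y) ≤ v X ^ 2 := by
      rw [mul_assoc]
      refine val_mul_le_of_le_one v h₁ ?_
      rw [map_mul, pow_two]
      exact mul_le_mul' le_rfl hcon
    have e3 : v (a₃ * Y) ≤ v X ^ 2 :=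
      val_mul_le_of_le_one v h₃ (hcon.trans h12.le)
    have e4 : v (Y ^ 2 + a₁ * X * Y + a₃ * Y) ≤ v X ^ 2 :=
      v.map_add_le (v.map_add_le e1 e2) e3
    rw [hE, hR] at e4
    exact absurd e4 (not_le.mpr h23)
  refine ⟨hXY, ?_⟩
  have hY1 : 1 < v Y := hX.trans hXY
  have hY0 : (0 : Γ₀) < v Y := lt_trans zero_lt_one hY1
  have hYY : v Y < v Y ^ 2 := by
    calc v Y = v Y ^ 1 := (pow_one _).symm
      _ < v Y ^ 2 := pow_lt_pow_right₀ hY1 (by norm_num)
  have hL : v (Y ^ 2 + a₁ * X * Y + a₃ * Y) = v Y ^ 2 := by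
    have e2 : v (a₁ * X * Y) < v Y ^ 2 := by
      rw [mul_assoc]
      refine lt_of_le_of_lt (val_mul_le_of_le_one v h₁ le_rfl) ?_
      rw [map_mul, pow_two]
      exact mul_lt_mul_of_pos_right hXY hY0
    have e3 : v (a₃ * Y) < v Y ^ 2 :=
      lt_of_le_of_lt (val_mul_le_of_le_one v h₃ le_rfl) hYY
    have e4 : v (a₁ * X * Y + a₃ * Y) < v (Y ^ 2) := by
      rw [map_pow]
      exact v.map_add_lt e2 e3
    have := v.map_add_eq_of_lt_left e4
    rw [map_pow] at this
    rw [← this]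
    congr 1
    ring
  rw [← hL, hE, hR]

/-- A point in the kernel of reduction cannot carry a differential of valuation `1` with respect
to a map `D` which does not increase valuations (`DX`, `DY` play the roles of `D X`, `D Y`):
`2` or `3` is a unit, and then `v(2Y + a₁X + a₃) = v(Y) > v(X)` resp.
`v(3X² + 2a₂X + a₄ - a₁Y) = v(X)² > v(Y)`. -/
theorem false_of_delta_of_one_lt {a₁ a₂ a₃ a₄ a₆ X Y g DX DY : F} (h₁ : v a₁ ≤ 1)
    (h₂ : v a₂ ≤ 1) (h₃ : v a₃ ≤ 1) (h₄ : v a₄ ≤ 1) (h₆ : v a₆ ≤ 1) (hX : 1 < v X)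
    (hE : Y ^ 2 + a₁ * X * Y + a₃ * Y = X ^ 3 + a₂ * X ^ 2 + a₄ * X + a₆) (hg : v g = 1)
    (hDX : DX = g * (2 * Y + a₁ * X + a₃))
    (hDY : DY = g * (3 * X ^ 2 + 2 * a₂ * X + a₄ - a₁ * Y))
    (hvX : v DX ≤ v X) (hvY : v DY ≤ v Y) : False := by
  obtain ⟨hXY, hsq⟩ := val_sq_eq_cube v h₁ h₂ h₃ h₄ h₆ hX hE
  have v2 : v 2 ≤ 1 := by
    rw [← one_add_one_eq_two]
    exact v.map_add_le v.map_one.le v.map_one.le
  have h12 : v X < v X ^ 2 := by
    calc v X = v X ^ 1 := (pow_one _).symm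
      _ < v X ^ 2 := pow_lt_pow_right₀ hX (by norm_num)
  by_cases h2 : v 2 = 1
  · have e1 : v (a₁ * X + a₃) < v (2 * Y) := by
      rw [map_mul, h2, one_mul]
      exact v.map_add_lt (lt_of_le_of_lt (val_mul_le_of_le_one v h₁ le_rfl) hXY)
        (lt_of_le_of_lt h₃ (hX.trans hXY))
    have e2 : v (2 * Y + a₁ * X + a₃) = v Y := by
      rw [add_assoc, v.map_add_eq_of_lt_left e1, map_mul, h2, one_mul]
    rw [hDX, map_mul, hg, one_mul, e2] at hvX
    exact absurd hvX (not_le.mpr hXY)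
  · have h2' : v 2 < 1 := lt_of_le_of_ne v2 h2
    have h3 : v 3 = 1 := by
      have h : (3 : F) = 1 + 2 := by norm_num
      rw [h, v.map_add_eq_of_lt_left (by rw [map_one]; exact h2'), map_one]
    have hYX2 : v Y < v X ^ 2 := by
      apply lt_of_pow_lt_pow_left₀ 2 zero_le
      rw [hsq, ← pow_mul]
      exact pow_lt_pow_right₀ hX (by norm_num)
    have e1 : v (2 * a₂ * X + a₄ - a₁ * Y) < v (3 * X ^ 2) := by
      rw [map_mul, h3, one_mul, map_pow]
      refine v.map_sub_lt (v.map_add_lt ?_ ?_) ?_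
      · rw [mul_assoc]
        exact lt_of_le_of_lt (val_mul_le_of_le_one v v2 (val_mul_le_of_le_one v h₂ le_rfl)) h12
      · exact lt_of_le_of_lt h₄ (hX.trans h12)
      · exact lt_of_le_of_lt (val_mul_le_of_le_one v h₁ le_rfl) hYX2
    have e2 : v (3 * X ^ 2 + 2 * a₂ * X + a₄ - a₁ * Y) = v X ^ 2 := by
      have h : 3 * X ^ 2 + 2 * a₂ * X + a₄ - a₁ * Y = 3 * X ^ 2 + (2 * a₂ * X + a₄ - a₁ * Y) := by
        ring
      rw [h, v.map_add_eq_of_lt_left e1, map_mul, h3, one_mul, map_pow]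
    rw [hDY, map_mul, hg, one_mul, e2] at hvY
    exact absurd hvY (not_le.mpr hYX2)

end Val

/-! ## Reduction of the generic point -/

section Red

open WeierstrassCurve.Affine Fermat.Agent.Lib.helper8525 Fermat.Agent.S58.helper6639

variable {F κ : Type*} [Field F] [Field κ] {A : ValuationSubring F}
  (φ : A →+* κ) (W : WeierstrassCurve A)

/-- A point with unit differential (with respect to a valuation-non-increasing `D`) has integral
`x`-coordinate. -/
theorem mem_of_delta (D : F → F) {X Y : F} {g : A}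
    (hE : (W.map A.subtype).toAffine.Equation X Y) (hg : IsUnit g)
    (hDX : D X = g * (2 * Y + (W.a₁ : F) * X + W.a₃))
    (hDY : D Y = g * (3 * X ^ 2 + 2 * (W.a₂ : F) * X + W.a₄ - W.a₁ * Y))
    (hvX : A.valuation (D X) ≤ A.valuation X) (hvY : A.valuation (D Y) ≤ A.valuation Y) :
    X ∈ A := by
  by_contra hX
  have hX' : 1 < A.valuation X := by
    rw [← not_le, A.valuation_le_one_iff]
    exact hX
  rw [equation_iff] at hE
  simp only [WeierstrassCurve.map_a₁, WeierstrassCurve.map_a₂, WeierstrassCurve.map_a₃,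
    WeierstrassCurve.map_a₄, WeierstrassCurve.map_a₆] at hE
  exact false_of_delta_of_one_lt A.valuation (A.valuation_le_one W.a₁) (A.valuation_le_one W.a₂)
    (A.valuation_le_one W.a₃) (A.valuation_le_one W.a₄) (A.valuation_le_one W.a₆) hX' hE
    ((A.valuation_eq_one_iff g).mp hg) hDX hDY hvX hvY

variable [IsLocalHom φ] [DecidableEq F] [DecidableEq κ]

/-- **Reduction of a point with unit differential.**  If `D X = g (2Y + a₁X + a₃)` and
`D Y = g (3X² + 2a₂X + a₄ - a₁Y)` with `φ g ≠ 0`, `D` does not increase valuations and induces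
`Dbar` on the residue side, then `(X, Y)` reduces to an affine point `(x, y)` of the special
fibre whose invariant differential evaluated on `Dbar` is `φ g`. -/
theorem red_some_of_delta (hΔ : IsUnit W.Δ) (D : F → F) (Dbar : Derivation ℤ κ κ)
    (hDv : ∀ x, A.valuation (D x) ≤ A.valuation x)
    (hDφ : ∀ (x : A) (h : D (x : F) ∈ A), φ ⟨D x, h⟩ = Dbar (φ x))
    {X Y : F} (hP : (W.map A.subtype).toAffine.Nonsingular X Y) {g : A} (hg : φ g ≠ 0)
    (hDX : D X = g * (2 * Y + (W.a₁ : F) * X + W.a₃))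
    (hDY : D Y = g * (3 * X ^ 2 + 2 * (W.a₂ : F) * X + W.a₄ - W.a₁ * Y)) :
    ∃ (x y : κ) (h : (W.map φ).toAffine.Nonsingular x y),
      red φ W hΔ (.some X Y hP) = .some x y h ∧ IsDeltaAt (W.map φ).toAffine Dbar x y (φ g) := by
  have hgu : IsUnit g := by
    by_contra h
    exact hg (map_eq_zero_of_not_isUnit φ h)
  have hX : X ∈ A := mem_of_delta W D hP.1 hgu hDX hDY (hDv X) (hDv Y)
  have hY : Y ∈ A := y_mem W hP.1 hX
  have hDXm : D X ∈ A := (A.valuation_le_one_iff _).mp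
    ((hDv X).trans ((A.valuation_le_one_iff _).mpr hX))
  have hDYm : D Y ∈ A := (A.valuation_le_one_iff _).mp
    ((hDv Y).trans ((A.valuation_le_one_iff _).mpr hY))
  have n1 := nonsingular_map W φ hΔ
    (equation_of_map_subtype W (x := ⟨X, hX⟩) (y := ⟨Y, hY⟩) hP.1)
  have e2 : ((2 : A) : F) = 2 := rfl
  have e3 : ((3 : A) : F) = 3 := rfl
  refine ⟨φ ⟨X, hX⟩, φ ⟨Y, hY⟩, n1, red_some_of_mem φ W hΔ hP hX hY n1, ⟨?_, ?_⟩⟩
  · have h1 := hDφ ⟨X, hX⟩ hDXm
    have h2 : (⟨D X, hDXm⟩ : A) = g * (2 * ⟨Y, hY⟩ + W.a₁ * ⟨X, hX⟩ + W.a₃) :=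
      Subtype.ext (hDX.trans (by push_cast [e2]; ring))
    rw [← h1, h2]
    simp only [map_mul, map_add, map_ofNat, WeierstrassCurve.map_a₁, WeierstrassCurve.map_a₃]
  · have h1 := hDφ ⟨Y, hY⟩ hDYm
    have h2 : (⟨D Y, hDYm⟩ : A) =
        g * (3 * ⟨X, hX⟩ ^ 2 + 2 * W.a₂ * ⟨X, hX⟩ + W.a₄ - W.a₁ * ⟨Y, hY⟩) :=
      Subtype.ext (hDY.trans (by push_cast [e2, e3]; ring))
    rw [← h1, h2]
    simp only [map_mul, map_add, map_sub, map_pow, map_ofNat, WeierstrassCurve.map_a₁,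
      WeierstrassCurve.map_a₂, WeierstrassCurve.map_a₄]

/-- **Naturality of reduction.**  An endomorphism `Φ` of the generic fibre given on coordinates
by `σ`, where `σ` preserves `A` (in both directions) and induces `σbar` on the residue side,
commutes with reduction. -/
theorem red_comm (hΔ : IsUnit W.Δ) (σ : F → F) (σbar : κ → κ)
    (hσA : ∀ x, σ x ∈ A ↔ x ∈ A)
    (hσφ : ∀ (x : A) (h : σ (x : F) ∈ A), φ ⟨σ x, h⟩ = σbar (φ x))
    (Φ : (W.map A.subtype).toAffine.Point →+ (W.map A.subtype).toAffine.Point)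
    (hΦ : ∀ x y (h : (W.map A.subtype).toAffine.Nonsingular x y),
      ∃ h', Φ (.some x y h) = .some (σ x) (σ y) h')
    (Φbar : (W.map φ).toAffine.Point →+ (W.map φ).toAffine.Point)
    (hΦbar : ∀ x y (h : (W.map φ).toAffine.Nonsingular x y),
      ∃ h', Φbar (.some x y h) = .some (σbar x) (σbar y) h')
    (P : (W.map A.subtype).toAffine.Point) :
    red φ W hΔ (Φ P) = Φbar (red φ W hΔ P) := by
  rcases P with _ | ⟨x, y, h⟩
  · rw [← Point.zero_def, map_zero, map_zero, map_zero]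
  · obtain ⟨h', hΦ'⟩ := hΦ x y h
    rw [hΦ']
    by_cases hx : x ∈ A
    · have hy := y_mem W h.1 hx
      have hσx : σ x ∈ A := (hσA x).mpr hx
      have hσy : σ y ∈ A := y_mem W h'.1 hσx
      have n1 := nonsingular_map W φ hΔ
        (equation_of_map_subtype W (x := ⟨x, hx⟩) (y := ⟨y, hy⟩) h.1)
      have n2 := nonsingular_map W φ hΔ
        (equation_of_map_subtype W (x := ⟨σ x, hσx⟩) (y := ⟨σ y, hσy⟩) h'.1)
      rw [red_some_of_mem φ W hΔ h' hσx hσy n2, red_some_of_mem φ W hΔ h hx hy n1]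
      obtain ⟨h'', hb⟩ := hΦbar _ _ n1
      rw [hb, Point.some.injEq]
      exact ⟨hσφ ⟨x, hx⟩ hσx, hσφ ⟨y, hy⟩ hσy⟩
    · have hσx : σ x ∉ A := fun h0 => hx ((hσA x).mp h0)
      rw [red_some_of_notMem φ W hΔ h' hσx, red_some_of_notMem φ W hΔ h hx, map_zero]

/-- The data on the special fibre used by the endings: the reduced point `Q` has nonzero
differential, Frobenius kills differentials. -/
theorem delta_frob_eq_zero {l : ℕ} [CharP κ l] {Wb : Affine κ} (Dbar : Derivation ℤ κ κ)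
    (Fr : Wb.Point →+ Wb.Point)
    (hFr : ∀ x y (h : Wb.Nonsingular x y), ∃ h', Fr (.some x y h) = .some (x ^ l) (y ^ l) h')
    (Q : Wb.Point) : delta Wb Dbar (Fr Q) = 0 := by
  rcases Q with _ | ⟨x, y, h⟩
  · rw [← Point.zero_def, map_zero]; rfl
  · obtain ⟨h', e⟩ := hFr x y h
    rw [e]
    refine delta_eq_of_isDeltaAt h' ⟨?_, ?_⟩
    · rw [Derivation.leibniz_pow, zero_mul, nsmul_eq_mul, CharP.cast_eq_zero κ l, zero_mul]
    · rw [Derivation.leibniz_pow, zero_mul, nsmul_eq_mul, CharP.cast_eq_zero κ l, zero_mul]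

/-- **Step 4 (abstract form): `a_l = trace of Frobenius`.**  Generic point `P = (X, Y)` with unit
differential `g`; endomorphisms `S₁, S₂, T_j` of the generic fibre reducing to `Fr`, `Fr²`, `id`;
the Hecke relation `S₂ P + ∑_{j<l} T_j P = a • S₁ P` and Cayley–Hamilton for `Fr` at the reduced
point give `a = t`. -/
theorem trace_eq_of_heckeRel (hΔ : IsUnit W.Δ) {l : ℕ} (hl : l.Prime) [CharP κ l]
    (D : F → F) (Dbar : Derivation ℤ κ κ)
    (hDv : ∀ x, A.valuation (D x) ≤ A.valuation x)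
    (hDφ : ∀ (x : A) (h : D (x : F) ∈ A), φ ⟨D x, h⟩ = Dbar (φ x))
    (hc : IsConst (W.map φ).toAffine Dbar)
    {X Y : F} (hP : (W.map A.subtype).toAffine.Nonsingular X Y) {g : A} (hg : φ g ≠ 0)
    (hDX : D X = g * (2 * Y + (W.a₁ : F) * X + W.a₃))
    (hDY : D Y = g * (3 * X ^ 2 + 2 * (W.a₂ : F) * X + W.a₄ - W.a₁ * Y))
    (Fr : (W.map φ).toAffine.Point →+ (W.map φ).toAffine.Point) (hFri : Function.Injective Fr)
    (hFr : ∀ x y (h : (W.map φ).toAffine.Nonsingular x y),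
      ∃ h', Fr (.some x y h) = .some (x ^ l) (y ^ l) h')
    (S₁ S₂ : (W.map A.subtype).toAffine.Point →+ (W.map A.subtype).toAffine.Point)
    (T : ℕ → (W.map A.subtype).toAffine.Point →+ (W.map A.subtype).toAffine.Point)
    (hS₁ : ∀ P, red φ W hΔ (S₁ P) = Fr (red φ W hΔ P))
    (hS₂ : ∀ P, red φ W hΔ (S₂ P) = Fr (Fr (red φ W hΔ P)))
    (hT : ∀ j, j < l → ∀ P, red φ W hΔ (T j P) = red φ W hΔ P)
    (a t : ℤ)
    (HR : S₂ (.some X Y hP) + ∑ j ∈ Finset.range l, T j (.some X Y hP) = a • S₁ (.some X Y hP))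
    (CH : ∀ Q : (W.map φ).toAffine.Point, Fr (Fr Q) - t • Fr Q + (l : ℤ) • Q = 0) : a = t := by
  obtain ⟨x, y, h, hred, hδ⟩ := red_some_of_delta φ W hΔ D Dbar hDv hDφ hP hg hDX hDY
  set Q : (W.map φ).toAffine.Point := .some x y h with hQ
  have hrel := congrArg (red φ W hΔ) HR
  rw [map_add, map_sum, map_zsmul, hS₁, hS₂, hred,
    Finset.sum_congr rfl (fun j hj => (hT j (Finset.mem_range.mp hj) _).trans hred),
    Finset.sum_const, Finset.card_range] at hrel
  have hES : Fr (Fr Q) - a • Fr Q + (l : ℤ) • Q = 0 := by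
    rw [natCast_zsmul, ← hrel]
    abel
  have hδQ : deltaHom hc Q = φ g := delta_eq_of_isDeltaAt h hδ
  exact helper5120.trace_eq_of_quadratic Fr hFri (deltaHom hc) hl.one_lt t Q
    (delta_frob_eq_zero Dbar Fr hFr Q)
    (fun n hn => helper5120.dvd_of_zsmul_eq_zero l (by rw [hδQ]; exact hg) n hn)
    (CH Q) a hES

/-- **Step 5a (abstract form).**  The `U_l`-relation `∑_{j<l} T_j P = a • S₁ P` on the generic
fibre is impossible at a prime of good reduction (`t = l + 1 - n` with the trivial bounds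
`1 ≤ n ≤ 2 l + 1` on the number `n` of points of the special fibre). -/
theorem false_of_uRel (hΔ : IsUnit W.Δ) {l : ℕ} (hl : l.Prime) [CharP κ l]
    (D : F → F) (Dbar : Derivation ℤ κ κ)
    (hDv : ∀ x, A.valuation (D x) ≤ A.valuation x)
    (hDφ : ∀ (x : A) (h : D (x : F) ∈ A), φ ⟨D x, h⟩ = Dbar (φ x))
    (hc : IsConst (W.map φ).toAffine Dbar)
    {X Y : F} (hP : (W.map A.subtype).toAffine.Nonsingular X Y) {g : A} (hg : φ g ≠ 0)
    (hDX : D X = g * (2 * Y + (W.a₁ : F) * X + W.a₃))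
    (hDY : D Y = g * (3 * X ^ 2 + 2 * (W.a₂ : F) * X + W.a₄ - W.a₁ * Y))
    (Fr : (W.map φ).toAffine.Point →+ (W.map φ).toAffine.Point) (hFri : Function.Injective Fr)
    (hFr : ∀ x y (h : (W.map φ).toAffine.Nonsingular x y),
      ∃ h', Fr (.some x y h) = .some (x ^ l) (y ^ l) h')
    (S₁ : (W.map A.subtype).toAffine.Point →+ (W.map A.subtype).toAffine.Point)
    (T : ℕ → (W.map A.subtype).toAffine.Point →+ (W.map A.subtype).toAffine.Point)
    (hS₁ : ∀ P, red φ W hΔ (S₁ P) = Fr (red φ W hΔ P))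
    (hT : ∀ j, j < l → ∀ P, red φ W hΔ (T j P) = red φ W hΔ P)
    (a : ℤ) (n : ℕ) (hn1 : 1 ≤ n) (hn2 : n ≤ 2 * l + 1)
    (HU : ∑ j ∈ Finset.range l, T j (.some X Y hP) = a • S₁ (.some X Y hP))
    (CH : ∀ Q : (W.map φ).toAffine.Point,
      Fr (Fr Q) - ((l : ℤ) + 1 - n) • Fr Q + (l : ℤ) • Q = 0) : False := by
  obtain ⟨x, y, h, hred, hδ⟩ := red_some_of_delta φ W hΔ D Dbar hDv hDφ hP hg hDX hDY
  set Q : (W.map φ).toAffine.Point := .some x y h with hQ
  have hrel := congrArg (red φ W hΔ) HU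
  rw [map_sum, map_zsmul, hS₁, hred,
    Finset.sum_congr rfl (fun j hj => (hT j (Finset.mem_range.mp hj) _).trans hred),
    Finset.sum_const, Finset.card_range] at hrel
  have hU : (l : ℤ) • Q = a • Fr Q := by rw [natCast_zsmul, hrel]
  have hδQ : deltaHom hc Q = φ g := delta_eq_of_isDeltaAt h hδ
  exact helper5120.false_of_u_relation Fr hFri (deltaHom hc) hl n hn1 hn2 Q
    (delta_frob_eq_zero Dbar Fr hFr Q)
    (fun n hn => helper5120.dvd_of_zsmul_eq_zero l (by rw [hδQ]; exact hg) n hn)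
    (CH Q) a hU

end Red

end Fermat.Agent.S58.helper7212
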