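import Mathlib

/-
S58-FORMAL-WP (board #905, route #1886 step 2), helper7260.  Mathlib-only, statement-agnostic.

Universal Laurent coefficients of the Weierstrass `℘`-function of Mathlib (`PeriodPair`):

* `wpA a b n`            : the coefficient of `zⁿ` in `℘(z) - z⁻²` as a universal expression in
                           `g₂ = a`, `g₃ = b`, over any commutative `ℚ`-algebra
                           (`wpA_two`, `wpA_four`, `wpA_add_five` = the recursion).
* `G_eq_wpA`             : `(n + 1) * L.G (n + 2) = wpA L.g₂ L.g₃ n` for `1 ≤ n`.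
* `wpA_map`              : `f (wpA a b n) = wpA (f a) (f b) n` for every ring hom `f`.
* `wpA_odd`              : odd coefficients vanish.
* `wpPoly`, `wpA_eq_aeval` : `wpA a b n = aeval ![a, b] (wpPoly n)`, `wpPoly n ∈ ℚ[X₀, X₁]`.
* `hasSum_weierstrassP`, `hasSum_weierstrassP_even` : the Laurent expansion of `℘` at `0`.
* `lattice_eq_of_g₂_g₃`  : the lattice is determined by `(g₂, g₃)`.
* `formal_ode_one`, `formal_ode_two'` : the differential equations of `℘` as identities of
                           formal power series for the regular part `regSeries L`.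
-/

set_option autoImplicit false

open scoped Topology Nat
open Filter

namespace Fermat.Agent.S58.helper7260

noncomputable section

/-- Taylor series at `0` of a function `ℂ → ℂ`, as a formal power series. -/
def taylorPS (f : ℂ → ℂ) : PowerSeries ℂ :=
  PowerSeries.mk fun n => iteratedDeriv n f 0 / (n ! : ℂ)

lemma coeff_taylorPS (f : ℂ → ℂ) (n : ℕ) :
    PowerSeries.coeff n (taylorPS f) = iteratedDeriv n f 0 / (n ! : ℂ) := by
  simp [taylorPS]

lemma taylorPS_congr {f g : ℂ → ℂ} (h : f =ᶠ[𝓝 0] g) : taylorPS f = taylorPS g := by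
  ext n
  simp [coeff_taylorPS, h.iteratedDeriv_eq n]

lemma taylorPS_add {f g : ℂ → ℂ} (hf : AnalyticAt ℂ f 0) (hg : AnalyticAt ℂ g 0) :
    taylorPS (fun z => f z + g z) = taylorPS f + taylorPS g := by
  ext n
  simp only [coeff_taylorPS, map_add]
  rw [iteratedDeriv_fun_add hf.contDiffAt hg.contDiffAt]
  ring

lemma taylorPS_sub {f g : ℂ → ℂ} (hf : AnalyticAt ℂ f 0) (hg : AnalyticAt ℂ g 0) :
    taylorPS (fun z => f z - g z) = taylorPS f - taylorPS g := by
  ext n
  simp only [coeff_taylorPS, map_sub]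
  rw [iteratedDeriv_fun_sub hf.contDiffAt hg.contDiffAt]
  ring

lemma taylorPS_mul {f g : ℂ → ℂ} (hf : AnalyticAt ℂ f 0) (hg : AnalyticAt ℂ g 0) :
    taylorPS (fun z => f z * g z) = taylorPS f * taylorPS g := by
  ext n
  rw [PowerSeries.coeff_mul, coeff_taylorPS, iteratedDeriv_fun_mul hf.contDiffAt hg.contDiffAt,
    Finset.Nat.sum_antidiagonal_eq_sum_range_succ
      (fun i j => PowerSeries.coeff i (taylorPS f) * PowerSeries.coeff j (taylorPS g)),
    Finset.sum_div]
  refine Finset.sum_congr rfl fun i hi => ?_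
  have hi' : i ≤ n := by simpa [Nat.lt_succ_iff] using hi
  simp only [coeff_taylorPS]
  rw [Nat.cast_choose ℂ hi']
  have h1 : (n ! : ℂ) ≠ 0 := by exact_mod_cast Nat.factorial_ne_zero n
  have h2 : (i ! : ℂ) ≠ 0 := by exact_mod_cast Nat.factorial_ne_zero i
  have h3 : ((n - i) ! : ℂ) ≠ 0 := by exact_mod_cast Nat.factorial_ne_zero (n - i)
  field_simp

lemma taylorPS_const (c : ℂ) : taylorPS (fun _ => c) = PowerSeries.C c := by
  ext n
  rw [coeff_taylorPS, PowerSeries.coeff_C]
  rcases n with _ | n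
  · simp
  · simp [iteratedDeriv_const]

lemma taylorPS_id : taylorPS (fun z => z) = PowerSeries.X := by
  ext n
  rw [coeff_taylorPS, PowerSeries.coeff_X]
  rcases n with _ | n
  · simp
  · rw [iteratedDeriv_succ']
    have : deriv (fun z : ℂ => z) = fun _ => (1 : ℂ) := by
      funext z; simp
    rw [this]
    rcases n with _ | n
    · simp
    · simp [iteratedDeriv_const]

lemma taylorPS_deriv (f : ℂ → ℂ) :
    taylorPS (deriv f) = PowerSeries.derivative ℂ (taylorPS f) := by
  ext n
  rw [coeff_taylorPS, PowerSeries.coeff_derivative, coeff_taylorPS, ← iteratedDeriv_succ']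
  have h1 : (n ! : ℂ) ≠ 0 := by exact_mod_cast Nat.factorial_ne_zero n
  have h2 : ((n + 1) ! : ℂ) ≠ 0 := by exact_mod_cast Nat.factorial_ne_zero (n + 1)
  rw [Nat.factorial_succ] at h2 ⊢
  push_cast at h2 ⊢
  field_simp

lemma taylorPS_pow {f : ℂ → ℂ} (hf : AnalyticAt ℂ f 0) (m : ℕ) :
    taylorPS (fun z => f z ^ m) = taylorPS f ^ m := by
  induction m with
  | zero => simpa using taylorPS_const 1
  | succ m ih =>
    have : (fun z => f z ^ (m + 1)) = fun z => f z ^ m * f z := by
      funext z; ring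
    rw [this, taylorPS_mul (f := fun z => f z ^ m) (by fun_prop) hf, ih, pow_succ]

/-! ## The universal Laurent coefficients -/

/-- The universal Laurent coefficients of `℘`: `wpA a b n` is the coefficient of `zⁿ` in
`℘(z) - z⁻²` for a lattice with invariants `g₂ = a`, `g₃ = b`. -/
def wpA {R : Type*} [CommRing R] [Algebra ℚ R] (a b : R) : ℕ → R
  | 0 => 0
  | 1 => 0
  | 2 => algebraMap ℚ R (1 / 20) * a
  | 3 => 0
  | 4 => algebraMap ℚ R (1 / 28) * b
  | (n + 5) => algebraMap ℚ R (6 / ((n + 1) * (n + 8))) *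
      ∑ i : Fin (n + 4), wpA a b i * wpA a b (n + 3 - i)
termination_by n => n
decreasing_by
  · have := i.isLt; omega
  · have := i.isLt; omega

section
variable {R : Type*} [CommRing R] [Algebra ℚ R] (a b : R)

@[simp] lemma wpA_zero : wpA a b 0 = 0 := by rw [wpA]
@[simp] lemma wpA_one : wpA a b 1 = 0 := by rw [wpA]
lemma wpA_two : wpA a b 2 = algebraMap ℚ R (1 / 20) * a := by rw [wpA]
@[simp] lemma wpA_three : wpA a b 3 = 0 := by rw [wpA]
lemma wpA_four : wpA a b 4 = algebraMap ℚ R (1 / 28) * b := by rw [wpA]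

lemma wpA_add_five (n : ℕ) :
    wpA a b (n + 5) = algebraMap ℚ R (6 / ((n + 1) * (n + 8))) *
      ∑ p ∈ Finset.HasAntidiagonal.antidiagonal (n + 3), wpA a b p.1 * wpA a b p.2 := by
  rw [wpA, Finset.Nat.sum_antidiagonal_eq_sum_range_succ (fun i j => wpA a b i * wpA a b j),
    Finset.sum_range]

end


/-! ## The regular part of `℘` at `0` and the formal differential equation -/

variable (L : PeriodPair)

/-- The Taylor series at `0` of the regular part `℘(z) - z⁻²`. -/
def regSeries : PowerSeries ℂ := taylorPS (L.weierstrassPExcept 0)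

lemma weierstrassPExcept_zero_zero : L.weierstrassPExcept 0 0 = 0 := by
  simp [PeriodPair.weierstrassPExcept]

lemma coeff_regSeries (n : ℕ) :
    PowerSeries.coeff n (regSeries L) = if n = 0 then 0 else (n + 1) * L.G (n + 2) := by
  rw [regSeries, coeff_taylorPS, L.iteratedDeriv_weierstrassPExcept_self 0]
  split_ifs with h
  · simp
  · rw [PeriodPair.sumInvPow_zero, Nat.factorial_succ]
    have h1 : (n ! : ℂ) ≠ 0 := by exact_mod_cast Nat.factorial_ne_zero n
    push_cast
    field_simp

lemma eventually_ode :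
    (fun z : ℂ => (z ^ 3 * deriv (L.weierstrassPExcept 0) z - 2) ^ 2) =ᶠ[𝓝 0]
      fun z : ℂ => 4 * (z ^ 2 * L.weierstrassPExcept 0 z + 1) ^ 3
        - L.g₂ * (z ^ 4 + z ^ 6 * L.weierstrassPExcept 0 z) - L.g₃ * z ^ 6 := by
  filter_upwards [L.compl_lattice_sdiff_singleton_mem_nhds 0] with z hz
  by_cases hz0 : z = 0
  · subst hz0
    simp
    norm_num
  · have hzL : z ∉ L.lattice := fun h => hz ⟨h, by simpa using hz0⟩
    have h1 : L.weierstrassPExcept 0 z = L.weierstrassP z - 1 / z ^ 2 := by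
      have := L.weierstrassPExcept_def (0 : L.lattice) z
      simpa [sub_eq_add_neg] using this
    have h2 : deriv (L.weierstrassPExcept 0) z = L.derivWeierstrassP z + 2 / z ^ 3 := by
      rw [L.eqOn_deriv_weierstrassPExcept_derivWeierstrassPExcept 0 hz]
      have := L.derivWeierstrassPExcept_def (0 : L.lattice) z
      simpa using this
    have h3 := L.derivWeierstrassP_sq z hzL
    simp only [h1, h2]
    field_simp
    linear_combination z ^ 6 * h3

open PowerSeries in
/-- The first-order differential equation of `℘`, as an identity of formal power series. -/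
lemma formal_ode_one :
    (X ^ 3 * derivative ℂ (regSeries L) - C (2 : ℂ)) ^ 2 =
      C (4 : ℂ) * (X ^ 2 * regSeries L + 1) ^ 3
        - C L.g₂ * (X ^ 4 + X ^ 6 * regSeries L) - C L.g₃ * X ^ 6 := by
  have hf : AnalyticAt ℂ (L.weierstrassPExcept 0) 0 := L.analyticAt_weierstrassPExcept 0
  have hf' : AnalyticAt ℂ (deriv (L.weierstrassPExcept 0)) 0 := hf.deriv
  have hid : AnalyticAt ℂ (fun z : ℂ => z) 0 := analyticAt_id
  have key := taylorPS_congr (eventually_ode L)
  have hX : ∀ m : ℕ, taylorPS (fun z : ℂ => z ^ m) = X ^ m := fun m => by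
    rw [taylorPS_pow hid, taylorPS_id]
  have lhs : taylorPS (fun z : ℂ => (z ^ 3 * deriv (L.weierstrassPExcept 0) z - 2) ^ 2) =
      (X ^ 3 * derivative ℂ (regSeries L) - C (2 : ℂ)) ^ 2 := by
    rw [taylorPS_pow (f := fun z : ℂ => z ^ 3 * deriv (L.weierstrassPExcept 0) z - 2) (by fun_prop),
      taylorPS_sub (f := fun z : ℂ => z ^ 3 * deriv (L.weierstrassPExcept 0) z)
        (g := fun _ => (2 : ℂ)) (by fun_prop) (by fun_prop),
      taylorPS_mul (f := fun z : ℂ => z ^ 3) (g := deriv (L.weierstrassPExcept 0))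
        (by fun_prop) hf', hX, taylorPS_deriv, taylorPS_const, regSeries]
  have rhs : taylorPS (fun z : ℂ => 4 * (z ^ 2 * L.weierstrassPExcept 0 z + 1) ^ 3
        - L.g₂ * (z ^ 4 + z ^ 6 * L.weierstrassPExcept 0 z) - L.g₃ * z ^ 6) =
      C (4 : ℂ) * (X ^ 2 * regSeries L + 1) ^ 3
        - C L.g₂ * (X ^ 4 + X ^ 6 * regSeries L) - C L.g₃ * X ^ 6 := by
    rw [taylorPS_sub (f := fun z : ℂ => 4 * (z ^ 2 * L.weierstrassPExcept 0 z + 1) ^ 3
        - L.g₂ * (z ^ 4 + z ^ 6 * L.weierstrassPExcept 0 z)) (g := fun z : ℂ => L.g₃ * z ^ 6)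
        (by fun_prop) (by fun_prop),
      taylorPS_sub (f := fun z : ℂ => 4 * (z ^ 2 * L.weierstrassPExcept 0 z + 1) ^ 3)
        (g := fun z : ℂ => L.g₂ * (z ^ 4 + z ^ 6 * L.weierstrassPExcept 0 z))
        (by fun_prop) (by fun_prop),
      taylorPS_mul (f := fun _ : ℂ => (4 : ℂ))
        (g := fun z : ℂ => (z ^ 2 * L.weierstrassPExcept 0 z + 1) ^ 3) (by fun_prop) (by fun_prop),
      taylorPS_pow (f := fun z : ℂ => z ^ 2 * L.weierstrassPExcept 0 z + 1) (by fun_prop),
      taylorPS_add (f := fun z : ℂ => z ^ 2 * L.weierstrassPExcept 0 z) (g := fun _ => (1 : ℂ))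
        (by fun_prop) (by fun_prop),
      taylorPS_mul (f := fun z : ℂ => z ^ 2) (g := L.weierstrassPExcept 0) (by fun_prop) hf,
      taylorPS_mul (f := fun _ : ℂ => L.g₂)
        (g := fun z : ℂ => z ^ 4 + z ^ 6 * L.weierstrassPExcept 0 z) (by fun_prop) (by fun_prop),
      taylorPS_add (f := fun z : ℂ => z ^ 4) (g := fun z : ℂ => z ^ 6 * L.weierstrassPExcept 0 z)
        (by fun_prop) (by fun_prop),
      taylorPS_mul (f := fun z : ℂ => z ^ 6) (g := L.weierstrassPExcept 0) (by fun_prop) hf,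
      taylorPS_mul (f := fun _ : ℂ => L.g₃) (g := fun z : ℂ => z ^ 6) (by fun_prop) (by fun_prop),
      hX, hX, hX, taylorPS_const, taylorPS_const, taylorPS_const, taylorPS_const, regSeries]
    simp
  rw [← lhs, ← rhs, key]

open PowerSeries in
/-- The second-order differential equation `℘'' = 6℘² - g₂/2`, as an identity of formal power
series for the regular part. -/
lemma formal_ode_two :
    2 * X ^ 2 * derivative ℂ (derivative ℂ (regSeries L)) =
      24 * regSeries L + 12 * X ^ 2 * regSeries L ^ 2 - C L.g₂ * X ^ 2 := by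
  have h1 := formal_ode_one L
  have h1' := congrArg (derivative ℂ) h1
  simp only [map_sub, map_add, Derivation.leibniz, Derivation.leibniz_pow, derivative_X,
    derivative_C, smul_eq_mul, nsmul_eq_mul, Derivation.map_one_eq_zero, mul_zero, add_zero,
    mul_one, sub_zero] at h1'
  simp only [map_ofNat] at h1 h1'
  set F := regSeries L with hF
  set F1 := derivative ℂ F with hF1
  set F2 := derivative ℂ F1 with hF2
  have hU : (X : PowerSeries ℂ) ^ 3 * F1 - 2 ≠ 0 := by
    intro h
    have h2 : PowerSeries.constantCoeff (2 : PowerSeries ℂ) = 2 := map_ofNat _ 2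
    have := congrArg (PowerSeries.constantCoeff) h
    simp [h2] at this
  have key : ((X : PowerSeries ℂ) ^ 3 * F1 - 2) *
      (2 * X ^ 4 * F2 - 24 * X ^ 2 * F - 12 * X ^ 4 * F ^ 2 + C L.g₂ * X ^ 4) = 0 := by
    push_cast at h1'
    linear_combination X * h1' - 6 * h1
  have key2 := (mul_eq_zero.mp key).resolve_left hU
  have hX : (X : PowerSeries ℂ) ^ 2 ≠ 0 := pow_ne_zero _ PowerSeries.X_ne_zero
  have key3 : (X : PowerSeries ℂ) ^ 2 *
      (2 * X ^ 2 * F2 - 24 * F - 12 * X ^ 2 * F ^ 2 + C L.g₂ * X ^ 2) = 0 := by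
    linear_combination key2
  have key4 := (mul_eq_zero.mp key3).resolve_left hX
  linear_combination key4

open PowerSeries in
lemma formal_ode_two' :
    X ^ 2 * derivative ℂ (derivative ℂ (regSeries L)) =
      C (12 : ℂ) * regSeries L + C (6 : ℂ) * (X ^ 2 * regSeries L ^ 2) - C (L.g₂ / 2) * X ^ 2 := by
  have h := formal_ode_two L
  have hC : (C L.g₂ : PowerSeries ℂ) = 2 * C (L.g₂ / 2) := by
    rw [← map_ofNat (C (R := ℂ)) 2, ← map_mul]
    congr 1
    ring
  have h12 : (C (12 : ℂ) : PowerSeries ℂ) = 12 := map_ofNat _ 12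
  have h6 : (C (6 : ℂ) : PowerSeries ℂ) = 6 := map_ofNat _ 6
  rw [h12, h6]
  have h2 : (2 : PowerSeries ℂ) ≠ 0 := by
    intro h0
    have h2' : PowerSeries.constantCoeff (2 : PowerSeries ℂ) = 2 := map_ofNat _ 2
    have := congrArg (PowerSeries.constantCoeff) h0
    simp [h2'] at this
  apply mul_left_cancel₀ h2
  rw [hC] at h
  linear_combination h

/-- The recursion satisfied by the Taylor coefficients of the regular part of `℘`. -/
lemma regCoeff_rec (m : ℕ) :
    (((m : ℂ) + 2) * ((m : ℂ) + 1) - 12) * PowerSeries.coeff (m + 2) (regSeries L) =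
      6 * ∑ p ∈ Finset.HasAntidiagonal.antidiagonal m,
        PowerSeries.coeff p.1 (regSeries L) * PowerSeries.coeff p.2 (regSeries L)
      - (if m = 0 then L.g₂ / 2 else 0) := by
  have h := congrArg (PowerSeries.coeff (m + 2)) (formal_ode_two' L)
  rw [PowerSeries.coeff_X_pow_mul, PowerSeries.coeff_derivative, PowerSeries.coeff_derivative,
    map_sub, map_add, PowerSeries.coeff_C_mul, PowerSeries.coeff_C_mul, PowerSeries.coeff_C_mul,
    PowerSeries.coeff_X_pow_mul, PowerSeries.coeff_X_pow, sq (regSeries L),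
    PowerSeries.coeff_mul] at h
  have e : (m + 2 = 2) ↔ m = 0 := by omega
  simp only [e] at h
  push_cast at h
  split_ifs at h ⊢ with hm
  · linear_combination h
  · linear_combination h

/-- **(F1/F2)** The Taylor coefficients of `℘(z) - z⁻²` are the universal polynomials `wpA` in
`g₂, g₃`. -/
theorem coeff_regSeries_eq_wpA (n : ℕ) :
    PowerSeries.coeff n (regSeries L) = wpA L.g₂ L.g₃ n := by
  induction n using Nat.strong_induction_on with
  | _ n ih =>
    match n, ih with
    | 0, _ => simp [coeff_regSeries]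
    | 1, _ => simp [coeff_regSeries, L.G_eq_zero_of_odd 3 (by decide)]
    | 2, _ =>
      rw [coeff_regSeries, wpA_two]
      simp [PeriodPair.g₂]
      ring
    | 3, _ => simp [coeff_regSeries, L.G_eq_zero_of_odd 5 (by decide)]
    | 4, _ =>
      rw [coeff_regSeries, wpA_four]
      simp [PeriodPair.g₃]
      ring
    | (k + 5), ih =>
      have h := regCoeff_rec L (k + 3)
      have hs : ∑ p ∈ Finset.HasAntidiagonal.antidiagonal (k + 3),
          PowerSeries.coeff p.1 (regSeries L) * PowerSeries.coeff p.2 (regSeries L) =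
          ∑ p ∈ Finset.HasAntidiagonal.antidiagonal (k + 3),
            wpA L.g₂ L.g₃ p.1 * wpA L.g₂ L.g₃ p.2 := by
        refine Finset.sum_congr rfl fun p hp => ?_
        have := Finset.HasAntidiagonal.mem_antidiagonal.mp hp
        rw [ih p.1 (by omega), ih p.2 (by omega)]
      rw [hs] at h
      rw [wpA_add_five]
      simp only [if_neg (Nat.succ_ne_zero _), sub_zero] at h
      have e : k + 3 + 2 = k + 5 := by omega
      rw [e] at h
      have hk1 : ((k : ℂ) + 1) ≠ 0 := by exact_mod_cast Nat.succ_ne_zero k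
      have hk8 : ((k : ℂ) + 8) ≠ 0 := by exact_mod_cast Nat.succ_ne_zero (k + 7)
      simp only [eq_ratCast]
      push_cast at h ⊢
      field_simp
      linear_combination h

/-- The coefficient `(n+1) G_{n+2}` of `zⁿ` in `℘(z) - z⁻²` is `wpA g₂ g₃ n`. -/
theorem G_eq_wpA (n : ℕ) (hn : 1 ≤ n) :
    ((n : ℂ) + 1) * L.G (n + 2) = wpA L.g₂ L.g₃ n := by
  rw [← coeff_regSeries_eq_wpA, coeff_regSeries, if_neg (by omega)]

/-! ## Naturality, parity, universal polynomials -/

section Universal

variable {R S : Type*} [CommRing R] [Algebra ℚ R] [CommRing S] [Algebra ℚ S]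

/-- **(F3)** `wpA` commutes with every ring homomorphism (e.g. with `σ ∈ Aut(ℂ)`). -/
theorem wpA_map (f : R →+* S) (a b : R) (n : ℕ) : f (wpA a b n) = wpA (f a) (f b) n := by
  induction n using Nat.strong_induction_on with
  | _ n ih =>
    match n, ih with
    | 0, _ => simp
    | 1, _ => simp
    | 2, _ => simp [wpA_two]
    | 3, _ => simp
    | 4, _ => simp [wpA_four]
    | (k + 5), ih =>
      rw [wpA_add_five, wpA_add_five, map_mul, RingHom.map_rat_algebraMap, map_sum]
      congr 1
      refine Finset.sum_congr rfl fun p hp => ?_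
      have := Finset.HasAntidiagonal.mem_antidiagonal.mp hp
      rw [map_mul, ih p.1 (by omega), ih p.2 (by omega)]

/-- Only even powers occur in the Laurent expansion of `℘`. -/
theorem wpA_odd (a b : R) (n : ℕ) (hn : Odd n) : wpA a b n = 0 := by
  induction n using Nat.strong_induction_on with
  | _ n ih =>
    match n, ih, hn with
    | 0, _, hn => simp
    | 1, _, _ => simp
    | 2, _, hn => exact absurd hn (by decide)
    | 3, _, _ => simp
    | 4, _, hn => exact absurd hn (by decide)
    | (k + 5), ih, hn =>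
      rw [wpA_add_five]
      have hzero : ∑ p ∈ Finset.HasAntidiagonal.antidiagonal (k + 3), wpA a b p.1 * wpA a b p.2 = 0 := by
        refine Finset.sum_eq_zero fun p hp => ?_
        have hp' := Finset.HasAntidiagonal.mem_antidiagonal.mp hp
        obtain ⟨m, hm⟩ := hn
        rcases Nat.even_or_odd p.1 with ⟨c, hc⟩ | h
        · have h2 : Odd p.2 := ⟨m - 1 - c, by omega⟩
          rw [ih p.2 (by omega) h2, mul_zero]
        · rw [ih p.1 (by omega) h, zero_mul]
      rw [hzero, mul_zero]

/-- The universal polynomial in `g₂ = X 0`, `g₃ = X 1` giving the `n`-th Laurent coefficient. -/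
def wpPoly (n : ℕ) : MvPolynomial (Fin 2) ℚ := wpA (MvPolynomial.X 0) (MvPolynomial.X 1) n

/-- **(F2)** `wpA a b n` is the value at `(a, b)` of a universal polynomial with rational
coefficients. -/
theorem wpA_eq_aeval (a b : R) (n : ℕ) :
    wpA a b n = MvPolynomial.aeval ![a, b] (wpPoly n) := by
  have h := wpA_map (MvPolynomial.aeval ![a, b] : MvPolynomial (Fin 2) ℚ →ₐ[ℚ] R).toRingHom
    (MvPolynomial.X 0) (MvPolynomial.X 1) n
  simp only [AlgHom.toRingHom_eq_coe, RingHom.coe_coe, MvPolynomial.aeval_X] at h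
  rw [wpPoly, h]
  simp

end Universal

/-! ## The analytic link -/

lemma weierstrassP_sub_eq (z : ℂ) :
    L.weierstrassP z - 1 / z ^ 2 = L.weierstrassPExcept 0 z := by
  have := L.weierstrassPExcept_def (0 : L.lattice) z
  simp only [ZeroMemClass.coe_zero, sub_zero] at this
  rw [this]
  simp
  ring

lemma coeff_weierstrassPExceptSeries_zero (n : ℕ) :
    (L.weierstrassPExceptSeries 0 0).coeff n = wpA L.g₂ L.g₃ n := by
  rw [← coeff_regSeries_eq_wpA, coeff_regSeries, PeriodPair.weierstrassPExceptSeries,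
    FormalMultilinearSeries.coeff_ofScalars]
  split_ifs with h
  · exact weierstrassPExcept_zero_zero L
  · simp
  · exact absurd (zero_mem _) ‹_›

/-- **(F4)** The Laurent expansion of `℘` at `0` with the universal coefficients: for `z` closer
to `0` than every nonzero period, `℘(z) - z⁻² = ∑ wpA g₂ g₃ n * zⁿ`. -/
theorem hasSum_weierstrassP (z : ℂ) (hz : ∀ l : L.lattice, (l : ℂ) ≠ 0 → ‖z‖ < ‖(l : ℂ)‖) :
    HasSum (fun n : ℕ => wpA L.g₂ L.g₃ n * z ^ n) (L.weierstrassP z - 1 / z ^ 2) := by
  have h := L.weierstrassPExceptSeries_hasSum 0 z 0 (by simpa using hz)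
  simp only [sub_zero, coeff_weierstrassPExceptSeries_zero] at h
  rw [weierstrassP_sub_eq]
  exact h

/-- The even-index form of **(F4)**: `℘(z) - z⁻² = ∑_{k ≥ 1} wpA g₂ g₃ (2k) * z^(2k)`. -/
theorem hasSum_weierstrassP_even (z : ℂ)
    (hz : ∀ l : L.lattice, (l : ℂ) ≠ 0 → ‖z‖ < ‖(l : ℂ)‖) :
    HasSum (fun k : ℕ => wpA L.g₂ L.g₃ (2 * (k + 1)) * z ^ (2 * (k + 1)))
      (L.weierstrassP z - 1 / z ^ 2) := by
  have h := hasSum_weierstrassP L z hz
  have hinj : Function.Injective (fun k : ℕ => 2 * (k + 1)) := fun a b hab => by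
    simp only at hab; omega
  refine (hinj.hasSum_iff (f := fun n : ℕ => wpA L.g₂ L.g₃ n * z ^ n) ?_).mpr h
  intro n hn
  rcases Nat.even_or_odd n with ⟨c, hc⟩ | hodd
  · rcases c with _ | c
    · simp [hc]
    · exact absurd ⟨c, by simp only; omega⟩ hn
  · rw [wpA_odd _ _ n hodd, zero_mul]

/-! ## The lattice is determined by `g₂`, `g₃` -/

lemma ofScalars_coeff_eq (n : ℕ) :
    (if n = 0 then L.weierstrassPExcept 0 0 else ((n : ℂ) + 1) * L.sumInvPow 0 (n + 2)) =
      wpA L.g₂ L.g₃ n := by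
  rw [← coeff_regSeries_eq_wpA, coeff_regSeries]
  split_ifs with h
  · exact weierstrassPExcept_zero_zero L
  · simp

lemma countable_lattice : (L.lattice : Set ℂ).Countable := by
  have : Countable L.lattice := L.latticeEquivProd.toEquiv.countable_iff.mpr inferInstance
  exact Set.countable_coe_iff.mp this

lemma lattice_le_of_eqOn (L L' : PeriodPair)
    (h : Set.EqOn L.weierstrassP L'.weierstrassP ((L.lattice : Set ℂ) ∪ L'.lattice)ᶜ) :
    L.lattice ≤ L'.lattice := by
  intro l hl
  by_contra hl'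
  have h1 := L.order_weierstrassP l hl
  have h2 : 0 ≤ meromorphicOrderAt L'.weierstrassP l :=
    (L'.analyticOnNhd_weierstrassP l hl').meromorphicOrderAt_nonneg
  have h3 : L.weierstrassP =ᶠ[𝓝[≠] l] L'.weierstrassP := by
    have e1 : ∀ᶠ z in 𝓝[≠] l, z ∈ ((L.lattice : Set ℂ) \ {l})ᶜ :=
      mem_nhdsWithin_of_mem_nhds (L.compl_lattice_sdiff_singleton_mem_nhds l)
    have e2 : ∀ᶠ z in 𝓝[≠] l, z ∈ (L'.lattice : Set ℂ)ᶜ :=
      mem_nhdsWithin_of_mem_nhds (L'.isClosed_lattice.isOpen_compl.mem_nhds hl')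
    filter_upwards [e1, e2, self_mem_nhdsWithin] with z hz1 hz2 hz3
    apply h
    simp only [Set.mem_compl_iff, Set.mem_union, not_or]
    exact ⟨fun hzL => hz1 ⟨hzL, hz3⟩, hz2⟩
  rw [meromorphicOrderAt_congr h3] at h1
  rw [h1] at h2
  exact absurd h2 (by decide)

/-- **(U4)** The period lattice is determined by the invariants `g₂`, `g₃`. -/
theorem lattice_eq_of_g₂_g₃ (L L' : PeriodPair) (h2 : L.g₂ = L'.g₂) (h3 : L.g₃ = L'.g₃) :
    L.lattice = L'.lattice := by
  -- the regular parts agree near `0`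
  have hreg : L.weierstrassPExcept 0 =ᶠ[𝓝 0] L'.weierstrassPExcept 0 := by
    have hs := (L.hasFPowerSeriesAt_weierstrassPExcept 0).eventually_hasSum
    have hs' := (L'.hasFPowerSeriesAt_weierstrassPExcept 0).eventually_hasSum
    filter_upwards [hs, hs'] with y hy hy'
    simp only [zero_add, FormalMultilinearSeries.ofScalars_apply_eq, ofScalars_coeff_eq] at hy hy'
    rw [h2, h3] at hy
    exact hy.unique hy'
  have hP : ∀ᶠ z in 𝓝 (0 : ℂ), L.weierstrassP z = L'.weierstrassP z := by
    filter_upwards [hreg] with z hz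
    have e1 := weierstrassP_sub_eq L z
    have e2 := weierstrassP_sub_eq L' z
    linear_combination e1 - e2 + hz
  -- the identity theorem on the complement of the two lattices
  set U : Set ℂ := ((L.lattice : Set ℂ) ∪ L'.lattice)ᶜ with hU
  have hconn : IsPreconnected U :=
    (Set.Countable.isPathConnected_compl_of_one_lt_rank
      (by rw [Complex.rank_real_complex]; norm_num)
      ((countable_lattice L).union (countable_lattice L'))).isConnected.isPreconnected
  obtain ⟨z₀, hz₀, hz₀U⟩ : ∃ z₀, (∀ᶠ w in 𝓝 z₀, L.weierstrassP w = L'.weierstrassP w) ∧ z₀ ∈ U := by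
    have e0 : ∀ᶠ z in 𝓝[≠] (0 : ℂ), ∀ᶠ w in 𝓝 z, L.weierstrassP w = L'.weierstrassP w :=
      hP.eventually_nhds.filter_mono nhdsWithin_le_nhds
    have e1 : ∀ᶠ z in 𝓝[≠] (0 : ℂ), z ∈ ((L.lattice : Set ℂ) \ {0})ᶜ :=
      mem_nhdsWithin_of_mem_nhds (L.compl_lattice_sdiff_singleton_mem_nhds 0)
    have e2 : ∀ᶠ z in 𝓝[≠] (0 : ℂ), z ∈ ((L'.lattice : Set ℂ) \ {0})ᶜ :=
      mem_nhdsWithin_of_mem_nhds (L'.compl_lattice_sdiff_singleton_mem_nhds 0)
    have e3 : ∀ᶠ z in 𝓝[≠] (0 : ℂ), z ≠ 0 := self_mem_nhdsWithin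
    obtain ⟨z, hz, hz1, hz2, hz3⟩ := (e0.and (e1.and (e2.and e3))).exists
    refine ⟨z, hz, ?_⟩
    simp only [hU, Set.mem_compl_iff, Set.mem_union, not_or]
    exact ⟨fun h => hz1 ⟨h, hz3⟩, fun h => hz2 ⟨h, hz3⟩⟩
  have hEq : Set.EqOn L.weierstrassP L'.weierstrassP U := by
    refine AnalyticOnNhd.eqOn_of_preconnected_of_eventuallyEq
      (L.analyticOnNhd_weierstrassP.mono ?_) (L'.analyticOnNhd_weierstrassP.mono ?_)
      hconn hz₀U hz₀
    · exact Set.compl_subset_compl.mpr Set.subset_union_left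
    · exact Set.compl_subset_compl.mpr Set.subset_union_right
  refine le_antisymm (lattice_le_of_eqOn L L' hEq) (lattice_le_of_eqOn L' L ?_)
  rw [Set.union_comm]
  exact hEq.symm

end

end Fermat.Agent.S58.helper7260
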