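/-
helper7440: S58, analytic core of step 2 of route #1886 (general part).

A `Γ₀(N)`-invariant function on the upper half-plane which is meromorphic on `ℍ` and of finite
order at every cusp is a ratio `A / B` of modular forms of level `N` of the same weight, where the
denominator `B` is the explicit level-one form `Δ ^ a * ∏ (E₄ ^ 3 Δ(s) - E₄(s) ^ 3 Δ) ^ M`.
-/
import Mathlib

set_option autoImplicit false

namespace Fermat.Agent.S58.helper7440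

open UpperHalfPlane ModularForm Filter Complex CongruenceSubgroup Topology EisensteinSeries
open scoped MatrixGroups ModularForm Manifold Real

noncomputable section

local notation "Δ" => ModularForm.discriminant

/-! ### Generalities on the upper half-plane -/

theorem continuous_SL_smul (g : SL(2, ℤ)) : Continuous (fun z : ℍ => g • z) :=
  continuous_const_smul (Matrix.SpecialLinearGroup.mapGL ℝ g)

theorem continuous_denom (g : SL(2, ℤ)) : Continuous (fun z : ℍ => denom g z) := by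
  unfold denom
  exact (continuous_const.mul continuous_coe).add continuous_const

/-- Transfer of a punctured-neighbourhood statement on `ℍ` to an open subset of `ℂ`. -/
theorem exists_open_of_eventually_nhdsNE {Q : ℍ → Prop} {z₀ : ℍ}
    (h : ∀ᶠ w : ℍ in 𝓝[≠] z₀, Q w) :
    ∃ u : Set ℂ, IsOpen u ∧ (z₀ : ℂ) ∈ u ∧ (∀ w ∈ u, 0 < w.im) ∧
      ∀ w ∈ u, w ≠ (z₀ : ℂ) → Q (ofComplex w) := by
  rw [eventually_nhdsWithin_iff, eventually_iff, mem_nhds_iff] at h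
  obtain ⟨t, ht, hto, hzt⟩ := h
  refine ⟨UpperHalfPlane.coe '' t, isOpenEmbedding_coe.isOpenMap t hto, ⟨z₀, hzt, rfl⟩, ?_, ?_⟩
  · rintro _ ⟨w, -, rfl⟩
    exact w.im_pos
  · rintro _ ⟨w, hw, rfl⟩ hne
    rw [ofComplex_apply]
    exact ht hw (fun h => hne (by rw [Set.mem_singleton_iff.mp h]))

/-- `ℍ` has no isolated points. -/
theorem nhdsNE_neBot (z₀ : ℍ) : (𝓝[≠] z₀).NeBot := by
  rw [neBot_iff]
  intro h
  have h1 : IsOpen ({z₀} : Set ℍ) := (isOpen_singleton_iff_punctured_nhds z₀).mpr h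
  have h2 : IsOpen (UpperHalfPlane.coe '' ({z₀} : Set ℍ)) := isOpenEmbedding_coe.isOpenMap _ h1
  rw [Set.image_singleton] at h2
  have h3 : 𝓝[≠] (z₀ : ℂ) = ⊥ := (isOpen_singleton_iff_punctured_nhds (z₀ : ℂ)).mp h2
  exact (NeBot.ne inferInstance) h3

/-! ### Level one building blocks -/

theorem lvl1_smul {k : ℤ} (f : ModularForm 𝒮ℒ k) (γ : SL(2, ℤ)) (z : ℍ) :
    f (γ • z) = denom γ z ^ k * f z :=
  SlashInvariantForm.slash_action_eqn'' f (γ := (γ : GL (Fin 2) ℝ)) (MonoidHom.mem_range.mpr ⟨γ, rfl⟩) z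

theorem disc_smul (γ : SL(2, ℤ)) (z : ℍ) : Δ (γ • z) = denom γ z ^ (12 : ℤ) * Δ z :=
  SlashInvariantForm.slash_action_eqn'' CuspForm.discriminant (γ := (γ : GL (Fin 2) ℝ))
    (MonoidHom.mem_range.mpr ⟨γ, rfl⟩) z

theorem tendsto_E₄ : Tendsto (⇑E₄) atImInfty (𝓝 1) := by
  have han : AnalyticAt ℂ (cuspFunction 1 ⇑E₄) 0 :=
    ModularFormClass.analyticAt_cuspFunction_zero E₄ one_pos one_mem_strictPeriods_SL
  have hper := SlashInvariantFormClass.periodic_comp_ofComplex E₄ one_mem_strictPeriods_SL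
  have h0 : cuspFunction 1 (⇑E₄) 0 = 1 := by
    rw [cuspFunction_apply_zero one_pos han hper, ← qExpansion_coeff_zero one_pos han hper]
    exact E_qExpansion_coeff_zero (k := 4) (by norm_num) ⟨2, rfl⟩
  have h1 : Tendsto (fun τ : ℍ => cuspFunction 1 (⇑E₄) (Function.Periodic.qParam 1 τ))
      atImInfty (𝓝 (cuspFunction 1 (⇑E₄) 0)) :=
    han.continuousAt.tendsto.comp (qParam_tendsto_atImInfty one_pos)
  rw [h0] at h1
  refine h1.congr fun τ => ?_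
  exact eq_cuspFunction τ one_ne_zero hper

theorem mdiff_E₄ : MDiff (⇑E₄ : ℍ → ℂ) := E₄.holo'

theorem mdiff_disc : MDiff (Δ : ℍ → ℂ) := CuspForm.discriminant.holo'

/-- The level-one form of weight `12` vanishing at `s`. -/
def psiFun (s z : ℍ) : ℂ := E₄ z ^ 3 * Δ s - E₄ s ^ 3 * Δ z

theorem psiFun_self (s : ℍ) : psiFun s s = 0 := by
  unfold psiFun
  ring

theorem psiFun_smul (s : ℍ) (γ : SL(2, ℤ)) (z : ℍ) :
    psiFun s (γ • z) = denom γ z ^ 12 * psiFun s z := by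
  unfold psiFun
  rw [lvl1_smul E₄ γ z, disc_smul γ z]
  have h4 : denom γ z ^ (4 : ℤ) = denom γ z ^ 4 := zpow_ofNat _ _
  have h12 : denom γ z ^ (12 : ℤ) = denom γ z ^ 12 := zpow_ofNat _ _
  rw [h4, h12]
  ring

theorem mdiff_psiFun (s : ℍ) : MDiff (psiFun s) := by
  have h1 : MDiff (fun z : ℍ => E₄ z ^ 3 * Δ s) := (mdiff_E₄.pow 3).mul mdifferentiable_const
  have h2 : MDiff (fun z : ℍ => E₄ s ^ 3 * Δ z) := mdifferentiable_const.mul mdiff_disc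
  exact h1.sub h2

theorem tendsto_psiFun (s : ℍ) : Tendsto (psiFun s) atImInfty (𝓝 (Δ s)) := by
  have h1 : Tendsto (fun z : ℍ => E₄ z ^ 3 * Δ s - E₄ s ^ 3 * Δ z) atImInfty
      (𝓝 (1 ^ 3 * Δ s - E₄ s ^ 3 * 0)) :=
    ((tendsto_E₄.pow 3).mul_const _).sub (discriminant_isZeroAtImInfty.const_mul _)
  have h2 : (1 : ℂ) ^ 3 * Δ s - E₄ s ^ 3 * 0 = Δ s := by ring
  rw [h2] at h1
  exact h1

/-- The denominator. -/
def Bfun (a : ℕ) (S : Finset ℍ) (M : ℕ) (z : ℍ) : ℂ := Δ z ^ a * ∏ s ∈ S, psiFun s z ^ M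

theorem Bfun_smul (a : ℕ) (S : Finset ℍ) (M : ℕ) (γ : SL(2, ℤ)) (z : ℍ) :
    Bfun a S M (γ • z) = denom γ z ^ (12 * (a + S.card * M)) * Bfun a S M z := by
  unfold Bfun
  have h12 : denom γ z ^ (12 : ℤ) = denom γ z ^ 12 := zpow_ofNat _ _
  rw [disc_smul γ z, h12]
  have h1 : ∏ s ∈ S, psiFun s (γ • z) ^ M = ∏ s ∈ S, (denom γ z ^ (12 * M) * psiFun s z ^ M) :=
    Finset.prod_congr rfl fun s _ => by rw [psiFun_smul, mul_pow, ← pow_mul]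
  rw [h1, Finset.prod_mul_distrib, Finset.prod_const, mul_pow, ← pow_mul, ← pow_mul]
  have h2 : denom γ z ^ (12 * (a + S.card * M)) =
      denom γ z ^ (12 * a) * denom γ z ^ (12 * M * S.card) := by
    rw [← pow_add]
    congr 1
    ring
  rw [h2]
  ring

theorem mdiff_Bfun (a : ℕ) (S : Finset ℍ) (M : ℕ) : MDiff (Bfun a S M) := by
  have h1 : MDiff (fun z : ℍ => Δ z ^ a) := mdiff_disc.pow a
  have h2 : MDiff (fun z : ℍ => ∏ s ∈ S, psiFun s z ^ M) := by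
    classical
    induction S using Finset.induction_on with
    | empty => simpa using (mdifferentiable_const : MDiff (fun _ : ℍ => (1 : ℂ)))
    | insert s S hs ih =>
      have h3 : (fun z : ℍ => ∏ t ∈ insert s S, psiFun t z ^ M) =
          fun z : ℍ => psiFun s z ^ M * ∏ t ∈ S, psiFun t z ^ M := by
        funext z
        rw [Finset.prod_insert hs]
      rw [h3]
      exact ((mdiff_psiFun s).pow M).mul ih
  exact h1.mul h2

theorem continuous_Bfun (a : ℕ) (S : Finset ℍ) (M : ℕ) : Continuous (Bfun a S M) :=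
  (mdiff_Bfun a S M).continuous

/-- Near a point `s` of `S` the denominator is `O((u - s) ^ m)` for every `m ≤ M`. -/
theorem Bfun_bound_near (a : ℕ) (S : Finset ℍ) (M : ℕ) {s : ℍ} (hs : s ∈ S) {m : ℕ}
    (hm : m ≤ M) : ∃ K : ℝ, ∀ᶠ u : ℍ in 𝓝 s, ‖Bfun a S M u‖ ≤ K * ‖(u : ℂ) - s‖ ^ m := by
  classical
  -- the factor `psiFun s` is `O(u - s)`
  have hd : DifferentiableAt ℂ (psiFun s ∘ ofComplex) (s : ℂ) := by
    have := UpperHalfPlane.mdifferentiable_iff.mp (mdiff_psiFun s)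
    exact (this (s : ℂ) s.im_pos).differentiableAt
      ((isOpen_lt continuous_const Complex.continuous_im).mem_nhds s.im_pos)
  obtain ⟨c, hc⟩ := hd.isBigO_sub.bound
  have hc' : ∀ᶠ u : ℍ in 𝓝 s, ‖psiFun s u‖ ≤ c * ‖(u : ℂ) - s‖ := by
    have := (continuous_coe.continuousAt (x := s)).eventually hc
    filter_upwards [this] with u hu
    simpa [Function.comp, ofComplex_apply, psiFun_self] using hu
  -- the remaining factor is bounded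
  set R : ℍ → ℂ := fun u => Δ u ^ a * ∏ t ∈ S.erase s, psiFun t u ^ M with hR
  have hRc : Continuous R := by
    have h2 : Continuous (fun u : ℍ => ∏ t ∈ S.erase s, psiFun t u ^ M) :=
      continuous_finsetProd _ fun t _ => (mdiff_psiFun t).continuous.pow M
    exact (mdiff_disc.continuous.pow a).mul h2
  have hRb : ∀ᶠ u : ℍ in 𝓝 s, ‖R u‖ ≤ ‖R s‖ + 1 := by
    have := (hRc.norm.continuousAt (x := s)).eventually (eventually_lt_nhds (lt_add_one ‖R s‖))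
    filter_upwards [this] with u hu using hu.le
  have hsmall : ∀ᶠ u : ℍ in 𝓝 s, ‖(u : ℂ) - s‖ ≤ 1 := by
    have hcont : Continuous (fun u : ℍ => ‖(u : ℂ) - s‖) :=
      (continuous_coe.sub continuous_const).norm
    have := (hcont.continuousAt (x := s)).eventually
      (eventually_lt_nhds (show ‖((s : ℍ) : ℂ) - s‖ < 1 by simp))
    filter_upwards [this] with u hu using hu.le
  refine ⟨|c| ^ M * (‖R s‖ + 1), ?_⟩
  filter_upwards [hc', hRb, hsmall] with u h1 h2 h3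
  have hB : Bfun a S M u = psiFun s u ^ M * R u := by
    simp only [Bfun, hR]
    rw [← Finset.mul_prod_erase S _ hs]
    ring
  rw [hB, norm_mul, norm_pow]
  have h4 : ‖psiFun s u‖ ^ M ≤ (|c| * ‖(u : ℂ) - s‖) ^ M :=
    pow_le_pow_left₀ (norm_nonneg _)
      (h1.trans (mul_le_mul_of_nonneg_right (le_abs_self c) (norm_nonneg _))) M
  have h5 : ‖(u : ℂ) - s‖ ^ M ≤ ‖(u : ℂ) - s‖ ^ m :=
    pow_le_pow_of_le_one (norm_nonneg _) h3 hm
  calc ‖psiFun s u‖ ^ M * ‖R u‖ ≤ (|c| * ‖(u : ℂ) - s‖) ^ M * (‖R s‖ + 1) :=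
        mul_le_mul h4 h2 (norm_nonneg _) (by positivity)
    _ = |c| ^ M * ‖(u : ℂ) - s‖ ^ M * (‖R s‖ + 1) := by rw [mul_pow]
    _ ≤ |c| ^ M * ‖(u : ℂ) - s‖ ^ m * (‖R s‖ + 1) := by
        gcongr
    _ = |c| ^ M * (‖R s‖ + 1) * ‖(u : ℂ) - s‖ ^ m := by ring

/-- Decay of the denominator at `i∞`. -/
theorem Bfun_decay (a : ℕ) (S : Finset ℍ) (M : ℕ) :
    ∃ K : ℝ, ∀ᶠ w : ℍ in atImInfty, ‖Bfun a S M w‖ ≤ K * Real.exp (-(a : ℝ) * w.im) := by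
  have hΔ := CuspFormClass.exp_decay_atImInfty (h := 1) CuspForm.discriminant one_pos
    one_mem_strictPeriods_SL
  obtain ⟨c, hc⟩ := hΔ.bound
  have hprod : Tendsto (fun w : ℍ => ∏ s ∈ S, psiFun s w ^ M) atImInfty
      (𝓝 (∏ s ∈ S, Δ s ^ M)) :=
    tendsto_finsetProd _ fun s _ => (tendsto_psiFun s).pow M
  have hpb : ∀ᶠ w : ℍ in atImInfty,
      ‖∏ s ∈ S, psiFun s w ^ M‖ ≤ ‖∏ s ∈ S, Δ s ^ M‖ + 1 := by
    have := hprod.norm.eventually (eventually_lt_nhds (lt_add_one ‖∏ s ∈ S, Δ s ^ M‖))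
    filter_upwards [this] with w hw using hw.le
  refine ⟨|c| ^ a * (‖∏ s ∈ S, Δ s ^ M‖ + 1), ?_⟩
  filter_upwards [hc, hpb] with w h1 h2
  have h3 : ‖Δ w‖ ≤ |c| * Real.exp (-w.im) := by
    have h4 : ‖(CuspForm.discriminant : ℍ → ℂ) w‖ ≤ c * ‖Real.exp (-2 * π * w.im / 1)‖ := h1
    rw [Real.norm_of_nonneg (Real.exp_pos _).le] at h4
    have h5 : Real.exp (-2 * π * w.im / 1) ≤ Real.exp (-w.im) := by
      apply Real.exp_le_exp.mpr
      have := w.im_pos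
      have hπ : (1 : ℝ) ≤ 2 * π := by linarith [Real.pi_gt_three]
      rw [div_one]
      nlinarith
    calc ‖Δ w‖ ≤ c * Real.exp (-2 * π * w.im / 1) := h4
      _ ≤ |c| * Real.exp (-2 * π * w.im / 1) :=
        mul_le_mul_of_nonneg_right (le_abs_self c) (Real.exp_pos _).le
      _ ≤ |c| * Real.exp (-w.im) := mul_le_mul_of_nonneg_left h5 (abs_nonneg c)
  have h6 : ‖Δ w‖ ^ a ≤ |c| ^ a * Real.exp (-(a : ℝ) * w.im) := by
    calc ‖Δ w‖ ^ a ≤ (|c| * Real.exp (-w.im)) ^ a := pow_le_pow_left₀ (norm_nonneg _) h3 a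
      _ = |c| ^ a * Real.exp (-(a : ℝ) * w.im) := by
        rw [mul_pow, ← Real.exp_nat_mul]
        congr 2
        ring
  unfold Bfun
  rw [norm_mul, norm_pow]
  calc ‖Δ w‖ ^ a * ‖∏ s ∈ S, psiFun s w ^ M‖
      ≤ |c| ^ a * Real.exp (-(a : ℝ) * w.im) * (‖∏ s ∈ S, Δ s ^ M‖ + 1) :=
        mul_le_mul h6 h2 (norm_nonneg _) (by positivity)
    _ = |c| ^ a * (‖∏ s ∈ S, Δ s ^ M‖ + 1) * Real.exp (-(a : ℝ) * w.im) := by ring

theorem Bfun_eventually_ne_zero (a : ℕ) (S : Finset ℍ) (M : ℕ) :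
    ∀ᶠ w : ℍ in atImInfty, Bfun a S M w ≠ 0 := by
  have h1 : ∀ s ∈ S, ∀ᶠ w : ℍ in atImInfty, psiFun s w ≠ 0 := fun s _ =>
    (tendsto_psiFun s).eventually_ne (discriminant_ne_zero s)
  have h2 : ∀ᶠ w : ℍ in atImInfty, ∀ s ∈ S, psiFun s w ≠ 0 :=
    (Filter.eventually_all_finset S).mpr h1
  filter_upwards [h2] with w hw
  unfold Bfun
  exact mul_ne_zero (pow_ne_zero _ (discriminant_ne_zero w))
    (Finset.prod_ne_zero_iff.mpr fun s hs => pow_ne_zero _ (hw s hs))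

/-! ### Function-level modular data of level `N` -/

/-- Function-level data of a cusp form of level `Γ₀(N)` and weight `k`. -/
structure IsCuspData (N : ℕ) (k : ℤ) (f : ℍ → ℂ) : Prop where
  hol : MDiff f
  inv : ∀ γ ∈ Gamma0 N, ∀ z : ℍ, f (γ • z) = denom γ z ^ k * f z
  zero : ∀ γ : SL(2, ℤ), IsZeroAtImInfty (f ∣[k] γ)

theorem IsCuspData.slash_eq {N : ℕ} {k : ℤ} {f : ℍ → ℂ} (h : IsCuspData N k f)
    {A : SL(2, ℤ)} (hA : A ∈ Gamma0 N) : f ∣[k] A = f := by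
  funext z
  rw [SL_slash_apply, h.inv A hA z, mul_comm, ← mul_assoc, ← zpow_add₀ (denom_ne_zero _ z)]
  simp

theorem IsCuspData.mul {N : ℕ} {k₁ k₂ : ℤ} {f g : ℍ → ℂ} (hf : IsCuspData N k₁ f)
    (hg : IsCuspData N k₂ g) : IsCuspData N (k₁ + k₂) (f * g) where
  hol := hf.hol.mul hg.hol
  inv γ hγ z := by
    rw [Pi.mul_apply, Pi.mul_apply, hf.inv γ hγ z, hg.inv γ hγ z, zpow_add₀ (denom_ne_zero _ z)]
    ring
  zero γ := by
    rw [mul_slash_SL2]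
    have h := (hf.zero γ).mul (hg.zero γ)
    rw [mul_zero] at h
    exact h

/-- The cusp form of level `N` attached to function-level data. -/
def IsCuspData.toCuspForm {N : ℕ} [NeZero N] {k : ℤ} {f : ℍ → ℂ} (h : IsCuspData N k f) :
    CuspForm (Gamma0 N) k where
  toFun := f
  slash_action_eq' A hA := by
    obtain ⟨A, (hA : A ∈ Gamma0 N), rfl⟩ := hA
    exact h.slash_eq hA
  holo' := h.hol
  zero_at_cusps' {c} hc := by
    rw [Subgroup.IsArithmetic.isCusp_iff_isCusp_SL2Z] at hc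
    rw [OnePoint.isZeroAt_iff_forall_SL2Z hc]
    exact fun γ _ => h.zero γ

theorem IsCuspData.toCuspForm_apply {N : ℕ} [NeZero N] {k : ℤ} {f : ℍ → ℂ}
    (h : IsCuspData N k f) (z : ℍ) : h.toCuspForm z = f z := rfl

/-- The modular form of level `N` attached to function-level data. -/
def IsCuspData.toModularForm {N : ℕ} [NeZero N] {k : ℤ} {f : ℍ → ℂ} (h : IsCuspData N k f) :
    ModularForm (Gamma0 N) k where
  toFun := f
  slash_action_eq' A hA := by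
    obtain ⟨A, (hA : A ∈ Gamma0 N), rfl⟩ := hA
    exact h.slash_eq hA
  holo' := h.hol
  bdd_at_cusps' {c} hc := by
    rw [Subgroup.IsArithmetic.isCusp_iff_isCusp_SL2Z] at hc
    rw [OnePoint.isBoundedAt_iff_forall_SL2Z hc]
    exact fun γ _ => (h.zero γ).boundedAtFilter

theorem IsCuspData.toModularForm_apply {N : ℕ} [NeZero N] {k : ℤ} {f : ℍ → ℂ}
    (h : IsCuspData N k f) (z : ℍ) : h.toModularForm z = f z := rfl

/-! ### Coset representatives and uniform data -/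

theorem exists_reps (N : ℕ) [NeZero N] :
    ∃ R : Finset SL(2, ℤ), ∀ δ : SL(2, ℤ), ∃ ρ ∈ R, ∃ h ∈ Gamma0 N, δ = h * ρ := by
  classical
  have : Finite (SL(2, ℤ) ⧸ Gamma0 N) := Subgroup.finite_quotient_of_finiteIndex
  have := Fintype.ofFinite (SL(2, ℤ) ⧸ Gamma0 N)
  refine ⟨Finset.univ.image (fun q : SL(2, ℤ) ⧸ Gamma0 N => (q.out)⁻¹), fun δ => ?_⟩
  obtain ⟨h, hh⟩ := QuotientGroup.mk_out_eq_mul (Gamma0 N) δ⁻¹
  refine ⟨_, Finset.mem_image.mpr ⟨(QuotientGroup.mk δ⁻¹ : SL(2, ℤ) ⧸ Gamma0 N),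
    Finset.mem_univ _, rfl⟩, (h : SL(2, ℤ)), h.2, ?_⟩
  rw [hh]
  group

theorem reduce_rep {N : ℕ} {X : ℍ → ℂ} {P : Set ℍ}
    (hPinv : ∀ γ ∈ Gamma0 N, ∀ z ∈ P, γ • z ∈ P)
    (hXinv : ∀ γ ∈ Gamma0 N, ∀ z, X (γ • z) = X z)
    {δ ρ h : SL(2, ℤ)} (hh : h ∈ Gamma0 N) (hδ : δ = h * ρ) (w : ℍ) :
    (δ • w ∈ P ↔ ρ • w ∈ P) ∧ X (δ • w) = X (ρ • w) := by
  have h1 : δ • w = h • (ρ • w) := by rw [hδ, mul_smul]
  rw [h1]
  refine ⟨⟨fun hp => ?_, fun hp => hPinv h hh _ hp⟩, hXinv h hh _⟩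
  have := hPinv h⁻¹ (inv_mem hh) _ hp
  rwa [inv_smul_smul] at this

theorem uniform_cusp {N : ℕ} [NeZero N] {X : ℍ → ℂ} {P : Set ℍ}
    (hPinv : ∀ γ ∈ Gamma0 N, ∀ z ∈ P, γ • z ∈ P)
    (hXinv : ∀ γ ∈ Gamma0 N, ∀ z, X (γ • z) = X z)
    (hcusp : ∀ δ : SL(2, ℤ), ∃ C m K : ℝ, ∀ w : ℍ, C < w.im →
      δ • w ∉ P ∧ ‖X (δ • w)‖ ≤ K * Real.exp (m * w.im)) :
    ∃ (C : ℝ) (a : ℕ) (K : ℝ), ∀ (δ : SL(2, ℤ)) (w : ℍ), C < w.im →
      δ • w ∉ P ∧ ‖X (δ • w)‖ ≤ K * Real.exp (a * w.im) := by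
  obtain ⟨R, hR⟩ := exists_reps N
  choose C m K hCmK using hcusp
  refine ⟨∑ ρ ∈ R, |C ρ|, ⌈∑ ρ ∈ R, |m ρ|⌉₊, ∑ ρ ∈ R, |K ρ|, fun δ w hw => ?_⟩
  obtain ⟨ρ, hρ, h, hh, hδ⟩ := hR δ
  obtain ⟨hiff, hX⟩ := reduce_rep hPinv hXinv hh hδ w
  have hC : C ρ < w.im :=
    lt_of_le_of_lt ((le_abs_self _).trans
      (Finset.single_le_sum (f := fun ρ => |C ρ|) (fun i _ => abs_nonneg _) hρ)) hw
  obtain ⟨h1, h2⟩ := hCmK ρ w hC
  refine ⟨fun hp => h1 (hiff.mp hp), ?_⟩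
  rw [hX]
  have hm : m ρ ≤ (⌈∑ ρ ∈ R, |m ρ|⌉₊ : ℝ) :=
    ((le_abs_self _).trans
      (Finset.single_le_sum (f := fun ρ => |m ρ|) (fun i _ => abs_nonneg _) hρ)).trans
      (Nat.le_ceil _)
  have hK : K ρ ≤ ∑ ρ ∈ R, |K ρ| := (le_abs_self _).trans
      (Finset.single_le_sum (f := fun ρ => |K ρ|) (fun i _ => abs_nonneg _) hρ)
  have hK0 : 0 ≤ ∑ ρ ∈ R, |K ρ| := Finset.sum_nonneg fun i _ => abs_nonneg _
  calc ‖X (ρ • w)‖ ≤ K ρ * Real.exp (m ρ * w.im) := h2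
    _ ≤ (∑ ρ ∈ R, |K ρ|) * Real.exp (m ρ * w.im) :=
        mul_le_mul_of_nonneg_right hK (Real.exp_pos _).le
    _ ≤ (∑ ρ ∈ R, |K ρ|) * Real.exp ((⌈∑ ρ ∈ R, |m ρ|⌉₊ : ℝ) * w.im) := by
        apply mul_le_mul_of_nonneg_left _ hK0
        exact Real.exp_le_exp.mpr (mul_le_mul_of_nonneg_right hm w.im_pos.le)

theorem continuousAt_of_hol {X : ℍ → ℂ} {z : ℍ}
    (h : DifferentiableAt ℂ (X ∘ ofComplex) (z : ℂ)) : ContinuousAt X z := by
  have h1 : ContinuousAt ((X ∘ ofComplex) ∘ UpperHalfPlane.coe) z :=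
    ContinuousAt.comp h.continuousAt continuous_coe.continuousAt
  have h2 : (X ∘ ofComplex) ∘ UpperHalfPlane.coe = X := by
    funext w
    simp [Function.comp, ofComplex_apply]
  rwa [h2] at h1

theorem eventually_norm_sub_le_one (z₀ : ℍ) : ∀ᶠ w : ℍ in 𝓝 z₀, ‖(w : ℂ) - z₀‖ ≤ 1 := by
  have hcont : Continuous (fun u : ℍ => ‖(u : ℂ) - z₀‖) :=
    (continuous_coe.sub continuous_const).norm
  have := (hcont.continuousAt (x := z₀)).eventually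
    (eventually_lt_nhds (show ‖((z₀ : ℍ) : ℂ) - z₀‖ < 1 by simp))
  filter_upwards [this] with u hu using hu.le

theorem uniform_mero {N : ℕ} [NeZero N] {X : ℍ → ℂ} {P : Set ℍ}
    (hPc : IsClosed P)
    (hPinv : ∀ γ ∈ Gamma0 N, ∀ z ∈ P, γ • z ∈ P)
    (hXinv : ∀ γ ∈ Gamma0 N, ∀ z, X (γ • z) = X z)
    (hXhol : ∀ z : ℍ, z ∉ P → DifferentiableAt ℂ (X ∘ ofComplex) (z : ℂ))
    (hmero : ∀ (δ : SL(2, ℤ)) (z₀ : ℍ), δ • z₀ ∈ P → ∃ (m : ℕ) (K : ℝ),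
      ∀ᶠ w : ℍ in 𝓝[≠] z₀, δ • w ∉ P ∧ ‖((w : ℂ) - z₀) ^ m * X (δ • w)‖ ≤ K) (z₀ : ℍ) :
    (∀ᶠ w : ℍ in 𝓝[≠] z₀, ∀ δ : SL(2, ℤ), δ • w ∉ P) ∧
    ∃ m : ℕ, ((∀ δ : SL(2, ℤ), δ • z₀ ∉ P) → m = 0) ∧
      ∀ δ : SL(2, ℤ), ∃ K : ℝ, ∀ᶠ w : ℍ in 𝓝[≠] z₀, ‖((w : ℂ) - z₀) ^ m * X (δ • w)‖ ≤ K := by
  classical
  obtain ⟨R, hR⟩ := exists_reps N
  have h1 : ∀ ρ : SL(2, ℤ), ∃ (m : ℕ) (K : ℝ), (ρ • z₀ ∉ P → m = 0) ∧
      ∀ᶠ w : ℍ in 𝓝[≠] z₀, ρ • w ∉ P ∧ ‖((w : ℂ) - z₀) ^ m * X (ρ • w)‖ ≤ K := by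
    intro ρ
    by_cases hρ : ρ • z₀ ∈ P
    · obtain ⟨m, K, h⟩ := hmero ρ z₀ hρ
      exact ⟨m, K, fun h' => absurd hρ h', h⟩
    · refine ⟨0, ‖X (ρ • z₀)‖ + 1, fun _ => rfl, ?_⟩
      have hc : ContinuousAt (fun w : ℍ => X (ρ • w)) z₀ :=
        ContinuousAt.comp (f := fun w : ℍ => ρ • w) (continuousAt_of_hol (hXhol _ hρ))
          (continuous_SL_smul ρ).continuousAt
      have e1 : ∀ᶠ w : ℍ in 𝓝 z₀, ρ • w ∉ P :=
        (continuous_SL_smul ρ).continuousAt.eventually (hPc.isOpen_compl.mem_nhds hρ)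
      have e2 : ∀ᶠ w : ℍ in 𝓝 z₀, ‖X (ρ • w)‖ < ‖X (ρ • z₀)‖ + 1 :=
        hc.norm.eventually (eventually_lt_nhds (lt_add_one _))
      filter_upwards [nhdsWithin_le_nhds e1, nhdsWithin_le_nhds e2] with w hw1 hw2
      exact ⟨hw1, by simpa using hw2.le⟩
  choose m K hm0 hmK using h1
  refine ⟨?_, ∑ ρ ∈ R, m ρ, ?_, ?_⟩
  · have : ∀ᶠ w : ℍ in 𝓝[≠] z₀, ∀ ρ ∈ R, ρ • w ∉ P :=
      (Filter.eventually_all_finset R).mpr fun ρ _ => (hmK ρ).mono fun w hw => hw.1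
    filter_upwards [this] with w hw δ
    obtain ⟨ρ, hρ, h, hh, hδ⟩ := hR δ
    exact fun hp => hw ρ hρ ((reduce_rep hPinv hXinv hh hδ w).1.mp hp)
  · intro hz
    exact Finset.sum_eq_zero fun ρ _ => hm0 ρ (hz ρ)
  · intro δ
    obtain ⟨ρ, hρ, h, hh, hδ⟩ := hR δ
    refine ⟨K ρ, ?_⟩
    filter_upwards [hmK ρ, nhdsWithin_le_nhds (eventually_norm_sub_le_one z₀)] with w hw hw1
    rw [(reduce_rep hPinv hXinv hh hδ w).2]
    have hle : m ρ ≤ ∑ ρ ∈ R, m ρ :=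
      Finset.single_le_sum (f := m) (fun i _ => Nat.zero_le _) hρ
    obtain ⟨d, hd⟩ := Nat.exists_eq_add_of_le hle
    rw [hd, pow_add, mul_comm (_ ^ m ρ), mul_assoc, norm_mul, norm_pow]
    calc ‖(w : ℂ) - z₀‖ ^ d * ‖((w : ℂ) - z₀) ^ m ρ * X (ρ • w)‖
        ≤ 1 * ‖((w : ℂ) - z₀) ^ m ρ * X (ρ • w)‖ :=
          mul_le_mul_of_nonneg_right (pow_le_one₀ (norm_nonneg _) hw1) (norm_nonneg _)
      _ ≤ K ρ := by rw [one_mul]; exact hw.2

open scoped Modular in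
theorem exists_finset_poles {P : Set ℍ}
    (hloc : ∀ z₀ : ℍ, ∀ᶠ w : ℍ in 𝓝[≠] z₀, ∀ δ : SL(2, ℤ), δ • w ∉ P) (C : ℝ)
    (hC : ∀ (δ : SL(2, ℤ)) (w : ℍ), C < w.im → δ • w ∉ P) :
    ∃ t : Finset ℍ, ∀ s ∈ 𝒟, (∃ δ : SL(2, ℤ), δ • s ∈ P) → s ∈ t := by
  have hK := ModularGroup.isCompact_truncatedFundamentalDomain C
  obtain ⟨t, -, ht⟩ := hK.elim_nhds_subcover
    (fun x => {w | w ∈ ({x}ᶜ : Set ℍ) → ∀ δ : SL(2, ℤ), δ • w ∉ P})
    (fun x _ => eventually_nhdsWithin_iff.mp (hloc x))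
  refine ⟨t, fun s hs ⟨δ, hδ⟩ => ?_⟩
  have hsK : s ∈ ModularGroup.truncatedFundamentalDomain C :=
    ⟨hs, not_lt.mp fun h => hC δ s h hδ⟩
  obtain ⟨x, hx, hsx⟩ := Set.mem_iUnion₂.mp (ht hsK)
  by_contra hst
  exact hsx (fun h => hst (by rw [Set.mem_singleton_iff.mp h]; exact hx)) δ hδ

theorem tendsto_smul_nhdsNE (σ : SL(2, ℤ)) (w₀ : ℍ) :
    Tendsto (fun w : ℍ => σ • w) (𝓝[≠] w₀) (𝓝[≠] (σ • w₀)) := by
  refine tendsto_nhdsWithin_of_tendsto_nhds_of_eventually_within _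
    ((continuous_SL_smul σ).continuousAt.tendsto.mono_left nhdsWithin_le_nhds) ?_
  filter_upwards [self_mem_nhdsWithin] with w hw
  intro h
  exact hw (MulAction.injective σ h)

/-! ### The local bound for `B * X` -/

open scoped Modular in
theorem bdd_BX {X : ℍ → ℂ} {P : Set ℍ} (mo : ℍ → ℕ)
    (hmo0 : ∀ z₀ : ℍ, (∀ δ : SL(2, ℤ), δ • z₀ ∉ P) → mo z₀ = 0)
    (hmoK : ∀ (z₀ : ℍ) (δ : SL(2, ℤ)), ∃ K : ℝ,
      ∀ᶠ w : ℍ in 𝓝[≠] z₀, ‖((w : ℂ) - z₀) ^ mo z₀ * X (δ • w)‖ ≤ K)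
    (a : ℕ) (t : Finset ℍ) (ht : ∀ s ∈ 𝒟, (∃ δ : SL(2, ℤ), δ • s ∈ P) → s ∈ t)
    (M : ℕ) (hM : ∀ s ∈ t, mo s ≤ M) (w₀ : ℍ) :
    ∃ K : ℝ, ∀ᶠ w : ℍ in 𝓝[≠] w₀, ‖Bfun a t M w * X w‖ ≤ K := by
  obtain ⟨σ, hσ⟩ := ModularGroup.exists_smul_mem_fd w₀
  set s := σ • w₀ with hs
  have h1 : ∃ K₁ : ℝ, ∀ᶠ u : ℍ in 𝓝 s, ‖Bfun a t M u‖ ≤ K₁ * ‖(u : ℂ) - s‖ ^ mo s := by
    by_cases hst : s ∈ t
    · exact Bfun_bound_near a t M hst (hM s hst)
    · have h0 : mo s = 0 := hmo0 s fun δ hδ => hst (ht s hσ ⟨δ, hδ⟩)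
      refine ⟨‖Bfun a t M s‖ + 1, ?_⟩
      have := ((continuous_Bfun a t M).norm.continuousAt (x := s)).eventually
        (eventually_lt_nhds (lt_add_one ‖Bfun a t M s‖))
      filter_upwards [this] with u hu
      rw [h0, pow_zero, mul_one]
      exact hu.le
  obtain ⟨K₁, hK₁⟩ := h1
  obtain ⟨K₂, hK₂⟩ := hmoK s σ⁻¹
  have h3 : ∀ᶠ u : ℍ in 𝓝[≠] s, ‖Bfun a t M u * X (σ⁻¹ • u)‖ ≤ |K₁| * K₂ := by
    filter_upwards [nhdsWithin_le_nhds hK₁, hK₂] with u hu1 hu2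
    rw [norm_mul]
    calc ‖Bfun a t M u‖ * ‖X (σ⁻¹ • u)‖
        ≤ (|K₁| * ‖(u : ℂ) - s‖ ^ mo s) * ‖X (σ⁻¹ • u)‖ :=
          mul_le_mul_of_nonneg_right (hu1.trans (mul_le_mul_of_nonneg_right (le_abs_self _)
            (by positivity))) (norm_nonneg _)
      _ = |K₁| * ‖((u : ℂ) - s) ^ mo s * X (σ⁻¹ • u)‖ := by rw [norm_mul, norm_pow]; ring
      _ ≤ |K₁| * K₂ := mul_le_mul_of_nonneg_left hu2 (abs_nonneg _)
  have h4 : ∀ᶠ w : ℍ in 𝓝[≠] w₀, ‖Bfun a t M (σ • w) * X (σ⁻¹ • σ • w)‖ ≤ |K₁| * K₂ :=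
    (tendsto_smul_nhdsNE σ w₀).eventually h3
  set k := 12 * (a + t.card * M) with hk
  have hden : Continuous (fun w : ℍ => ‖denom σ w ^ k‖⁻¹) :=
    (((continuous_denom σ).pow k).norm).inv₀ fun w =>
      norm_ne_zero_iff.mpr (pow_ne_zero _ (denom_ne_zero _ w))
  have h5 : ∀ᶠ w : ℍ in 𝓝[≠] w₀, ‖denom σ w ^ k‖⁻¹ ≤ ‖denom σ w₀ ^ k‖⁻¹ + 1 := by
    have := (hden.continuousAt (x := w₀)).eventually (eventually_lt_nhds (lt_add_one _))
    filter_upwards [nhdsWithin_le_nhds this] with w hw using hw.le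
  refine ⟨(‖denom σ w₀ ^ k‖⁻¹ + 1) * (|K₁| * K₂), ?_⟩
  filter_upwards [h4, h5] with w hw4 hw5
  rw [inv_smul_smul, Bfun_smul] at hw4
  have hne : denom σ w ^ k ≠ 0 := pow_ne_zero _ (denom_ne_zero _ w)
  have h6 : Bfun a t M w * X w = (denom σ w ^ k)⁻¹ * (denom σ w ^ k * Bfun a t M w * X w) := by
    field_simp
  rw [h6, norm_mul, norm_inv]
  exact mul_le_mul hw5 hw4 (norm_nonneg _) (by positivity)

/-! ### The numerator -/

/-- The numerator: the removable-singularity extension of `B * X`. -/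
def Afun (B X : ℍ → ℂ) (z : ℍ) : ℂ :=
  limUnder (𝓝[≠] (z : ℂ)) (fun w : ℂ => B (ofComplex w) * X (ofComplex w))

theorem differentiableAt_comp_ofComplex {B : ℍ → ℂ} (hB : MDiff B) (z : ℍ) :
    DifferentiableAt ℂ (B ∘ ofComplex) (z : ℂ) :=
  ((UpperHalfPlane.mdifferentiable_iff.mp hB) (z : ℂ) z.im_pos).differentiableAt
    ((isOpen_lt continuous_const Complex.continuous_im).mem_nhds z.im_pos)

theorem Afun_eq {B X : ℍ → ℂ} (hB : MDiff B) {z : ℍ}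
    (hX : DifferentiableAt ℂ (X ∘ ofComplex) (z : ℂ)) : Afun B X z = B z * X z := by
  have hd : DifferentiableAt ℂ (fun w : ℂ => B (ofComplex w) * X (ofComplex w)) (z : ℂ) :=
    (differentiableAt_comp_ofComplex hB z).mul hX
  have ht : Tendsto (fun w : ℂ => B (ofComplex w) * X (ofComplex w)) (𝓝[≠] (z : ℂ))
      (𝓝 (B (ofComplex (z : ℂ)) * X (ofComplex (z : ℂ)))) :=
    hd.continuousAt.tendsto.mono_left nhdsWithin_le_nhds
  rw [Afun, ht.limUnder_eq, ofComplex_apply]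

theorem mdiff_Afun {B X : ℍ → ℂ} (hB : MDiff B)
    (hP : ∀ z₀ : ℍ, ∃ K : ℝ, ∀ᶠ w : ℍ in 𝓝[≠] z₀,
      DifferentiableAt ℂ (X ∘ ofComplex) (w : ℂ) ∧ ‖B w * X w‖ ≤ K) :
    MDiff (Afun B X) := by
  rw [UpperHalfPlane.mdifferentiable_iff]
  intro z hz
  obtain ⟨K, hK⟩ := hP ⟨z, hz⟩
  obtain ⟨u, huo, hzu, hupos, hu⟩ := exists_open_of_eventually_nhdsNE hK
  have hzu' : z ∈ u := hzu
  set g : ℂ → ℂ := fun w : ℂ => B (ofComplex w) * X (ofComplex w) with hg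
  have hcoe : ∀ w ∈ u, ((ofComplex w : ℍ) : ℂ) = w := fun w hw => by
    rw [ofComplex_apply_of_im_pos (hupos w hw)]
  have hd : DifferentiableOn ℂ g (u \ {z}) := by
    rintro w ⟨hw, hne⟩
    have h1 := (hu w hw hne).1
    rw [hcoe w hw] at h1
    have h2 := differentiableAt_comp_ofComplex hB (ofComplex w)
    rw [hcoe w hw] at h2
    exact (h2.mul h1).differentiableWithinAt
  have hb : BddAbove (norm ∘ g '' (u \ {z})) := by
    refine ⟨K, ?_⟩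
    rintro _ ⟨w, ⟨hw, hne⟩, rfl⟩
    exact (hu w hw hne).2
  have hmain := Complex.differentiableOn_update_limUnder_of_bddAbove (huo.mem_nhds hzu') hd hb
  have hat : DifferentiableAt ℂ (Function.update g z (limUnder (𝓝[≠] z) g)) z :=
    (hmain z hzu').differentiableAt (huo.mem_nhds hzu')
  have heq : (Afun B X ∘ ofComplex) =ᶠ[𝓝 z] Function.update g z (limUnder (𝓝[≠] z) g) := by
    filter_upwards [huo.mem_nhds hzu'] with w hw
    by_cases hne : w = z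
    · rw [hne, Function.update_self, Function.comp_apply, ofComplex_apply_of_im_pos hz]
      rfl
    · rw [Function.update_of_ne hne, Function.comp_apply]
      exact Afun_eq hB (hu w hw hne).1
  exact (hat.congr_of_eventuallyEq heq).differentiableWithinAt

/-! ### The main theorems -/

/-- Core statement at the level of functions. -/
theorem exists_ratio_core (N : ℕ) [NeZero N] (X : ℍ → ℂ) (P : Set ℍ)
    (hPc : IsClosed P)
    (hPinv : ∀ γ ∈ Gamma0 N, ∀ z ∈ P, γ • z ∈ P)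
    (hXinv : ∀ γ ∈ Gamma0 N, ∀ z, X (γ • z) = X z)
    (hXhol : ∀ z : ℍ, z ∉ P → DifferentiableAt ℂ (X ∘ ofComplex) (z : ℂ))
    (hmero : ∀ (δ : SL(2, ℤ)) (z₀ : ℍ), δ • z₀ ∈ P → ∃ (m : ℕ) (K : ℝ),
      ∀ᶠ w : ℍ in 𝓝[≠] z₀, δ • w ∉ P ∧ ‖((w : ℂ) - z₀) ^ m * X (δ • w)‖ ≤ K)
    (hcusp : ∀ δ : SL(2, ℤ), ∃ C m K : ℝ, ∀ w : ℍ, C < w.im →
      δ • w ∉ P ∧ ‖X (δ • w)‖ ≤ K * Real.exp (m * w.im)) :
    ∃ (k : ℕ) (A B : ℍ → ℂ), IsCuspData N k A ∧ IsCuspData N k B ∧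
      (∀ᶠ w : ℍ in atImInfty, B w ≠ 0) ∧ ∀ z : ℍ, z ∉ P → A z = B z * X z := by
  classical
  obtain ⟨C, a, K₀, hC⟩ := uniform_cusp hPinv hXinv hcusp
  have hum := uniform_mero hPc hPinv hXinv hXhol hmero
  have hloc : ∀ z₀ : ℍ, ∀ᶠ w : ℍ in 𝓝[≠] z₀, ∀ δ : SL(2, ℤ), δ • w ∉ P := fun z₀ => (hum z₀).1
  choose mo hmo0 hmoK using fun z₀ => (hum z₀).2
  obtain ⟨t, ht⟩ := exists_finset_poles hloc C (fun δ w hw => (hC δ w hw).1)
  set M := ∑ s ∈ t, mo s with hM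
  have hMle : ∀ s ∈ t, mo s ≤ M := fun s hs =>
    Finset.single_le_sum (f := mo) (fun i _ => Nat.zero_le _) hs
  have hBX := bdd_BX mo hmo0 hmoK (a + 1) t ht M hMle
  set B := Bfun (a + 1) t M with hB
  set k : ℕ := 12 * ((a + 1) + t.card * M) with hk
  have hPloc : ∀ z₀ : ℍ, ∀ᶠ w : ℍ in 𝓝[≠] z₀, w ∉ P := fun z₀ =>
    (hloc z₀).mono fun w hw => by simpa using hw 1
  have hBmd : MDiff B := mdiff_Bfun _ _ _
  have hBsmul : ∀ (γ : SL(2, ℤ)) (z : ℍ), B (γ • z) = denom γ z ^ (k : ℤ) * B z := fun γ z => by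
    rw [zpow_natCast]
    exact Bfun_smul _ _ _ γ z
  set A := Afun B X with hA
  have hAeq : ∀ z : ℍ, z ∉ P → A z = B z * X z := fun z hz => Afun_eq hBmd (hXhol z hz)
  have hAmd : MDiff A := by
    refine mdiff_Afun hBmd fun z₀ => ?_
    obtain ⟨K, hK⟩ := hBX z₀
    refine ⟨K, ?_⟩
    filter_upwards [hPloc z₀, hK] with w hw1 hw2
    exact ⟨hXhol w hw1, hw2⟩
  have hdense : Dense (Pᶜ : Set ℍ) := by
    intro z₀
    rw [mem_closure_iff_frequently]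
    have := nhdsNE_neBot z₀
    exact ((hPloc z₀).frequently).filter_mono nhdsWithin_le_nhds
  have hAinv : ∀ γ ∈ Gamma0 N, ∀ z : ℍ, A (γ • z) = denom γ z ^ (k : ℤ) * A z := by
    intro γ hγ
    have hc1 : Continuous (fun z : ℍ => A (γ • z)) :=
      hAmd.continuous.comp (continuous_SL_smul γ)
    have hc2 : Continuous (fun z : ℍ => denom γ z ^ (k : ℤ) * A z) := by
      have : Continuous (fun z : ℍ => denom γ z ^ k * A z) :=
        ((continuous_denom γ).pow k).mul hAmd.continuous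
      simpa [zpow_natCast] using this
    have hext := Continuous.ext_on hdense hc1 hc2 (fun z hz => by
      have hz' : γ • z ∉ P := fun hp => hz (by
        have := hPinv γ⁻¹ (inv_mem hγ) _ hp
        rwa [inv_smul_smul] at this)
      show A (γ • z) = denom γ z ^ (k : ℤ) * A z
      rw [hAeq _ hz', hAeq z hz, hBsmul, hXinv γ hγ, mul_assoc])
    exact fun z => congrFun hext z
  obtain ⟨Kb, hKb⟩ := Bfun_decay (a + 1) t M
  have hexp : Tendsto (fun w : ℍ => Real.exp (-w.im)) atImInfty (𝓝 0) :=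
    Real.tendsto_exp_atBot.comp (tendsto_neg_atTop_atBot.comp tendsto_comap)
  have hBzero : ∀ γ : SL(2, ℤ), IsZeroAtImInfty (B ∣[(k : ℤ)] γ) := by
    intro γ
    have hsl : B ∣[(k : ℤ)] γ = B := by
      funext w
      rw [SL_slash_apply, hBsmul, mul_comm, ← mul_assoc, ← zpow_add₀ (denom_ne_zero _ w)]
      simp
    rw [hsl]
    refine squeeze_zero_norm' (a := fun w : ℍ => |Kb| * Real.exp (-w.im)) ?_
      (by simpa using hexp.const_mul |Kb|)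
    filter_upwards [hKb] with w hw
    refine hw.trans ?_
    have h1 : Real.exp (-((a + 1 : ℕ) : ℝ) * w.im) ≤ Real.exp (-w.im) := by
      apply Real.exp_le_exp.mpr
      have := w.im_pos
      push_cast
      nlinarith
    calc Kb * Real.exp (-((a + 1 : ℕ) : ℝ) * w.im)
        ≤ |Kb| * Real.exp (-((a + 1 : ℕ) : ℝ) * w.im) :=
          mul_le_mul_of_nonneg_right (le_abs_self _) (Real.exp_pos _).le
      _ ≤ |Kb| * Real.exp (-w.im) := mul_le_mul_of_nonneg_left h1 (abs_nonneg _)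
  have hAzero : ∀ γ : SL(2, ℤ), IsZeroAtImInfty (A ∣[(k : ℤ)] γ) := by
    intro γ
    have hev : ∀ᶠ w : ℍ in atImInfty, C < w.im :=
      (atImInfty_mem _).mpr ⟨C + 1, fun z hz => by
        show C < z.im
        linarith⟩
    refine squeeze_zero_norm' (a := fun w : ℍ => |Kb * K₀| * Real.exp (-w.im)) ?_
      (by simpa using hexp.const_mul |Kb * K₀|)
    filter_upwards [hKb, hev] with w hw1 hw2
    obtain ⟨hp, hx⟩ := hC γ w hw2
    have h1 : (A ∣[(k : ℤ)] γ) w = B w * X (γ • w) := by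
      rw [SL_slash_apply, hAeq _ hp, hBsmul, zpow_neg]
      have hne : denom γ w ^ (k : ℤ) ≠ 0 := zpow_ne_zero _ (denom_ne_zero _ w)
      field_simp
    rw [h1, norm_mul]
    calc ‖B w‖ * ‖X (γ • w)‖
        ≤ (Kb * Real.exp (-((a + 1 : ℕ) : ℝ) * w.im)) * (K₀ * Real.exp (a * w.im)) :=
          mul_le_mul hw1 hx (norm_nonneg _) (le_trans (norm_nonneg _) hw1)
      _ = Kb * K₀ * Real.exp (-w.im) := by
          rw [mul_mul_mul_comm, ← Real.exp_add]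
          congr 2
          push_cast
          ring
      _ ≤ |Kb * K₀| * Real.exp (-w.im) :=
          mul_le_mul_of_nonneg_right (le_abs_self _) (Real.exp_pos _).le
  exact ⟨k, A, B, ⟨hAmd, hAinv, hAzero⟩, ⟨hBmd, fun γ _ z => hBsmul γ z, hBzero⟩,
    Bfun_eventually_ne_zero _ _ _, hAeq⟩

/-- **Ratio theorem** (cusp form version). A `Γ₀(N)`-invariant function on `ℍ`, holomorphic off
a closed invariant set `P`, with at most poles at the `SL(2, ℤ)`-translates of `P` and of finite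
order at all cusps, is a ratio of two cusp forms of level `N` of the same weight. -/
theorem exists_cuspForm_ratio (N : ℕ) [NeZero N] (X : ℍ → ℂ) (P : Set ℍ)
    (hPc : IsClosed P)
    (hPinv : ∀ γ ∈ Gamma0 N, ∀ z ∈ P, γ • z ∈ P)
    (hXinv : ∀ γ ∈ Gamma0 N, ∀ z, X (γ • z) = X z)
    (hXhol : ∀ z : ℍ, z ∉ P → DifferentiableAt ℂ (X ∘ ofComplex) (z : ℂ))
    (hmero : ∀ (δ : SL(2, ℤ)) (z₀ : ℍ), δ • z₀ ∈ P → ∃ (m : ℕ) (K : ℝ),
      ∀ᶠ w : ℍ in 𝓝[≠] z₀, δ • w ∉ P ∧ ‖((w : ℂ) - z₀) ^ m * X (δ • w)‖ ≤ K)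
    (hcusp : ∀ δ : SL(2, ℤ), ∃ C m K : ℝ, ∀ w : ℍ, C < w.im →
      δ • w ∉ P ∧ ‖X (δ • w)‖ ≤ K * Real.exp (m * w.im)) :
    ∃ (k : ℤ) (A B : CuspForm (Gamma0 N) k), B ≠ 0 ∧ ∀ z : ℍ, z ∉ P → A z = B z * X z := by
  obtain ⟨k, A, B, hA, hB, hne, h⟩ := exists_ratio_core N X P hPc hPinv hXinv hXhol hmero hcusp
  obtain ⟨w, hw⟩ := hne.exists
  refine ⟨k, hA.toCuspForm, hB.toCuspForm, fun h0 => hw ?_, h⟩
  have := DFunLike.congr_fun h0 w
  simpa [IsCuspData.toCuspForm_apply] using this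

/-- **Ratio theorem** (modular form version). -/
theorem exists_modularForm_ratio (N : ℕ) [NeZero N] (X : ℍ → ℂ) (P : Set ℍ)
    (hPc : IsClosed P)
    (hPinv : ∀ γ ∈ Gamma0 N, ∀ z ∈ P, γ • z ∈ P)
    (hXinv : ∀ γ ∈ Gamma0 N, ∀ z, X (γ • z) = X z)
    (hXhol : ∀ z : ℍ, z ∉ P → DifferentiableAt ℂ (X ∘ ofComplex) (z : ℂ))
    (hmero : ∀ (δ : SL(2, ℤ)) (z₀ : ℍ), δ • z₀ ∈ P → ∃ (m : ℕ) (K : ℝ),
      ∀ᶠ w : ℍ in 𝓝[≠] z₀, δ • w ∉ P ∧ ‖((w : ℂ) - z₀) ^ m * X (δ • w)‖ ≤ K)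
    (hcusp : ∀ δ : SL(2, ℤ), ∃ C m K : ℝ, ∀ w : ℍ, C < w.im →
      δ • w ∉ P ∧ ‖X (δ • w)‖ ≤ K * Real.exp (m * w.im)) :
    ∃ (k : ℤ) (A B : ModularForm (Gamma0 N) k), B ≠ 0 ∧ ∀ z : ℍ, z ∉ P → A z = B z * X z := by
  obtain ⟨k, A, B, hA, hB, hne, h⟩ := exists_ratio_core N X P hPc hPinv hXinv hXhol hmero hcusp
  obtain ⟨w, hw⟩ := hne.exists
  refine ⟨k, hA.toModularForm, hB.toModularForm, fun h0 => hw ?_, h⟩
  have := DFunLike.congr_fun h0 w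
  simpa [IsCuspData.toModularForm_apply] using this

end

end Fermat.Agent.S58.helper7440
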