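/-
helper7440: S58, analytic core of step 2 of route #1886 (application to the Weierstrass functions).

Let `F` be an equivariant primitive of a weight two cusp form `f` of level `Γ₀(N)` (in the sense
of the frozen definition `ModularCurve.HasEquivariantPrimitive`), `c` a constant and `L` a period
lattice containing all the numbers `c * (period of γ)`.  Then `z ↦ ℘[L] (c * F z)` and
`z ↦ ℘'[L] (c * F z)` are ratios `A / B`, `A' / B` of cusp forms of level `Γ₀(N)` of one and the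
same weight.
-/
import Mathlib
import Fermat.Prelude.Def_ModularCurve_PeriodMapBundled
import Fermat.Agent.S58.helper7440_MeroRatio

set_option autoImplicit false

namespace Fermat.Agent.S58.helper7440

open UpperHalfPlane ModularForm Filter Complex CongruenceSubgroup Topology
open ModularCurve ModularCurve.Period PeriodPair
open scoped MatrixGroups ModularForm Manifold Real

noncomputable section

/-! ### Identity theorem on the upper half-plane -/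

theorem eq_zero_of_eventually_zero {φ : ℍ → ℂ} (hφ : MDiff φ) (z₀ : ℍ)
    (h : ∀ᶠ w in 𝓝 (z₀ : ℂ), φ (ofComplex w) = 0) : ∀ z : ℍ, φ z = 0 := by
  have hU : IsOpen {z : ℂ | 0 < z.im} := isOpen_lt continuous_const Complex.continuous_im
  have hpre : IsPreconnected {z : ℂ | 0 < z.im} := (convex_halfSpace_im_gt 0).isPreconnected
  have han : AnalyticOnNhd ℂ (φ ∘ ofComplex) {z : ℂ | 0 < z.im} :=
    (UpperHalfPlane.mdifferentiable_iff.mp hφ).analyticOnNhd hU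
  have hz := han.eqOn_of_preconnected_of_eventuallyEq
    (analyticOnNhd_const (v := (0 : ℂ))) hpre z₀.im_pos h
  intro z
  have := hz z.im_pos
  simpa [ofComplex_apply] using this

/-! ### Lower bound at a cusp -/

theorem periodic_comp_ofComplex_of_vadd {φ : ℍ → ℂ} {h : ℝ}
    (hφ : ∀ w : ℍ, φ (h +ᵥ w) = φ w) : Function.Periodic (φ ∘ ofComplex) h := by
  intro w
  by_cases hw : 0 < w.im
  · have hw' : 0 < (w + h).im := by simpa using hw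
    simp only [Function.comp_apply, ofComplex_apply_of_im_pos hw', ofComplex_apply_of_im_pos hw]
    rw [← hφ ⟨w, hw⟩]
    congr 1
    ext
    simp [add_comm]
  · have hw1 : w.im ≤ 0 := not_lt.mp hw
    have hw2 : (w + h).im ≤ 0 := by simpa using hw1
    simp [ofComplex_apply_of_im_nonpos hw2, ofComplex_apply_of_im_nonpos hw1]

/-- A nonzero holomorphic periodic function tending to `0` at `i∞` is bounded below by an
exponential there. -/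
theorem cusp_lower_bound {φ : ℍ → ℂ} {h : ℝ} (hh : 0 < h)
    (hper : Function.Periodic (φ ∘ ofComplex) h) (hmd : MDiff φ)
    (h0 : Tendsto φ atImInfty (𝓝 0)) (hne : ∃ z, φ z ≠ 0) :
    ∃ C ε m : ℝ, 0 < ε ∧ ∀ w : ℍ, C < w.im → ε * Real.exp (-m * w.im) ≤ ‖φ w‖ := by
  have hzero : IsZeroAtImInfty φ := h0
  have hbd : IsBoundedAtImInfty φ := hzero.boundedAtFilter
  have han : AnalyticAt ℂ (cuspFunction h φ) 0 := analyticAt_cuspFunction_zero hh hper hmd hbd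
  have hq : Tendsto (fun τ : ℍ => Function.Periodic.qParam h τ) atImInfty (𝓝 0) :=
    qParam_tendsto_atImInfty hh
  have hnot : ¬ ∀ᶠ q in 𝓝 (0 : ℂ), cuspFunction h φ q = 0 := by
    intro hev
    have h1 : ∀ᶠ τ : ℍ in atImInfty, φ τ = 0 := by
      filter_upwards [hq.eventually hev] with τ hτ
      rwa [eq_cuspFunction τ hh.ne' hper] at hτ
    obtain ⟨A, hA⟩ := (atImInfty_mem _).mp h1
    have hpos : (0 : ℝ) < max A 0 + 1 := by positivity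
    set z₁ : ℍ := ⟨⟨0, max A 0 + 1⟩, hpos⟩ with hz₁
    have hev' : ∀ᶠ w in 𝓝 (z₁ : ℂ), φ (ofComplex w) = 0 := by
      have hopen : IsOpen {w : ℂ | max A 0 < w.im} :=
        isOpen_lt continuous_const Complex.continuous_im
      have hmem : (z₁ : ℂ) ∈ {w : ℂ | max A 0 < w.im} := by
        show max A 0 < max A 0 + 1
        linarith
      filter_upwards [hopen.mem_nhds hmem] with w hw
      have hwpos : 0 < w.im := lt_of_le_of_lt (le_max_right _ _) hw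
      rw [ofComplex_apply_of_im_pos hwpos]
      exact hA _ (le_of_lt (lt_of_le_of_lt (le_max_left _ _) hw))
    obtain ⟨z, hz⟩ := hne
    exact hz (eq_zero_of_eventually_zero hmd z₁ hev' z)
  obtain ⟨n, g, hg, hg0, hev⟩ := han.exists_eventuallyEq_pow_smul_nonzero_iff.mpr hnot
  have hε : 0 < ‖g 0‖ / 2 := half_pos (norm_pos_iff.mpr hg0)
  have hgb : ∀ᶠ q in 𝓝 (0 : ℂ), ‖g 0‖ / 2 < ‖g q‖ :=
    hg.continuousAt.norm.eventually (lt_mem_nhds (half_lt_self (norm_pos_iff.mpr hg0)))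
  have h2 := hq.eventually (hev.and hgb)
  obtain ⟨A, hA⟩ := (atImInfty_mem _).mp h2
  refine ⟨A, ‖g 0‖ / 2, 2 * π * n / h, hε, fun w hw => ?_⟩
  obtain ⟨e1, e2⟩ := hA w hw.le
  rw [eq_cuspFunction w hh.ne' hper, sub_zero, smul_eq_mul] at e1
  have h3 : ‖Function.Periodic.qParam h (w : ℂ)‖ ^ n = Real.exp (-(2 * π * n / h) * w.im) := by
    rw [Function.Periodic.norm_qParam, ← Real.exp_nat_mul]
    congr 1
    have : (w : ℂ).im = w.im := rfl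
    rw [this]
    field_simp
  rw [e1, norm_mul, norm_pow, h3, mul_comm]
  exact mul_le_mul_of_nonneg_left e2.le (Real.exp_pos _).le

/-! ### Transfer of pole bounds along a holomorphic map -/

/-- Local version: if `Φ` has at most a pole of order `r` at `ℓ₀` and `H` is a nonconstant
holomorphic function with `H z₀ = ℓ₀`, then `Φ ∘ H` has at most a pole at `z₀`. -/
theorem mero_of_pole {Q : ℂ → Prop} {Φ : ℂ → ℂ} {ℓ₀ : ℂ} {r : ℕ} {K : ℝ}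
    (hΦ : ∀ᶠ u in 𝓝 ℓ₀, u ≠ ℓ₀ → Q u ∧ ‖(u - ℓ₀) ^ r * Φ u‖ ≤ K)
    {H : ℍ → ℂ} {z₀ : ℍ} (hH : MDiff H) (hz₀ : H z₀ = ℓ₀)
    (hnc : ¬ ∀ᶠ w in 𝓝 (z₀ : ℂ), H (ofComplex w) - ℓ₀ = 0) :
    ∃ (m : ℕ) (K' : ℝ), ∀ᶠ w : ℍ in 𝓝[≠] z₀,
      Q (H w) ∧ ‖((w : ℂ) - z₀) ^ m * Φ (H w)‖ ≤ K' := by
  have hU : IsOpen {z : ℂ | 0 < z.im} := isOpen_lt continuous_const Complex.continuous_im
  have han : AnalyticAt ℂ (fun w : ℂ => H (ofComplex w) - ℓ₀) (z₀ : ℂ) := by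
    have hd : DifferentiableOn ℂ (fun w : ℂ => H (ofComplex w) - ℓ₀) {z : ℂ | 0 < z.im} :=
      (UpperHalfPlane.mdifferentiable_iff.mp hH).sub (differentiableOn_const _)
    exact hd.analyticAt (hU.mem_nhds z₀.im_pos)
  obtain ⟨n, g, hg, hg0, hev⟩ := han.exists_eventuallyEq_pow_smul_nonzero_iff.mpr hnc
  have hε : 0 < ‖g (z₀ : ℂ)‖ / 2 := half_pos (norm_pos_iff.mpr hg0)
  have hgb : ∀ᶠ w in 𝓝 (z₀ : ℂ), ‖g (z₀ : ℂ)‖ / 2 < ‖g w‖ :=
    hg.continuousAt.norm.eventually (lt_mem_nhds (half_lt_self (norm_pos_iff.mpr hg0)))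
  have h1 : ∀ᶠ w : ℍ in 𝓝 z₀,
      H w - ℓ₀ = ((w : ℂ) - z₀) ^ n * g w ∧ ‖g (z₀ : ℂ)‖ / 2 < ‖g w‖ := by
    have := (continuous_coe.continuousAt (x := z₀)).eventually (hev.and hgb)
    filter_upwards [this] with w hw
    simpa [ofComplex_apply, smul_eq_mul] using hw
  have hHc : Tendsto H (𝓝 z₀) (𝓝 ℓ₀) := by
    have := hH.continuous.continuousAt (x := z₀)
    rw [ContinuousAt, hz₀] at this
    exact this
  have h2 : ∀ᶠ w : ℍ in 𝓝 z₀, H w ≠ ℓ₀ → Q (H w) ∧ ‖(H w - ℓ₀) ^ r * Φ (H w)‖ ≤ K :=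
    hHc.eventually hΦ
  refine ⟨n * r, K / (‖g (z₀ : ℂ)‖ / 2) ^ r, ?_⟩
  filter_upwards [nhdsWithin_le_nhds h1, nhdsWithin_le_nhds h2, self_mem_nhdsWithin]
    with w hw1 hw2 hw3
  obtain ⟨e1, e2⟩ := hw1
  have hwne : (w : ℂ) - z₀ ≠ 0 := sub_ne_zero.mpr fun h => hw3 (UpperHalfPlane.ext h)
  have hgne : g w ≠ 0 := norm_pos_iff.mp (hε.trans e2)
  have hHne : H w ≠ ℓ₀ := by
    intro h
    rw [h, sub_self] at e1
    exact mul_ne_zero (pow_ne_zero _ hwne) hgne e1.symm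
  obtain ⟨hQ, hb⟩ := hw2 hHne
  refine ⟨hQ, ?_⟩
  have e3 : (H w - ℓ₀) ^ r * Φ (H w) = g w ^ r * (((w : ℂ) - z₀) ^ (n * r) * Φ (H w)) := by
    rw [e1, mul_pow, ← pow_mul]
    ring
  rw [e3, norm_mul, norm_pow] at hb
  have hpos : 0 < (‖g (z₀ : ℂ)‖ / 2) ^ r := pow_pos hε r
  rw [le_div_iff₀ hpos]
  calc ‖((w : ℂ) - z₀) ^ (n * r) * Φ (H w)‖ * (‖g (z₀ : ℂ)‖ / 2) ^ r
      ≤ ‖((w : ℂ) - z₀) ^ (n * r) * Φ (H w)‖ * ‖g w‖ ^ r :=
        mul_le_mul_of_nonneg_left (pow_le_pow_left₀ hε.le e2.le r) (norm_nonneg _)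
    _ = ‖g w‖ ^ r * ‖((w : ℂ) - z₀) ^ (n * r) * Φ (H w)‖ := mul_comm _ _
    _ ≤ K := hb

/-- Cusp version, value in the pole set. -/
theorem cusp_of_pole {Q : ℂ → Prop} {Φ : ℂ → ℂ} {ℓ₀ : ℂ} {r : ℕ} {K : ℝ}
    (hΦ : ∀ᶠ u in 𝓝 ℓ₀, u ≠ ℓ₀ → Q u ∧ ‖(u - ℓ₀) ^ r * Φ u‖ ≤ K)
    {H : ℍ → ℂ} (hH : Tendsto H atImInfty (𝓝 ℓ₀))
    {C₁ ε m₁ : ℝ} (hε : 0 < ε)
    (hlow : ∀ w : ℍ, C₁ < w.im → ε * Real.exp (-m₁ * w.im) ≤ ‖H w - ℓ₀‖) :
    ∃ C m K' : ℝ, ∀ w : ℍ, C < w.im → Q (H w) ∧ ‖Φ (H w)‖ ≤ K' * Real.exp (m * w.im) := by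
  obtain ⟨A, hA⟩ := (atImInfty_mem _).mp (hH.eventually hΦ)
  refine ⟨max A C₁, r * m₁, K / ε ^ r, fun w hw => ?_⟩
  have hwA : A ≤ w.im := (le_max_left _ _).trans hw.le
  have hwC : C₁ < w.im := lt_of_le_of_lt (le_max_right _ _) hw
  have hl := hlow w hwC
  have hpos : 0 < ε * Real.exp (-m₁ * w.im) := mul_pos hε (Real.exp_pos _)
  have hne : H w ≠ ℓ₀ := fun h => by
    rw [h, sub_self, norm_zero] at hl
    exact absurd hl (not_le.mpr hpos)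
  obtain ⟨hQ, hb⟩ := hA w hwA hne
  refine ⟨hQ, ?_⟩
  rw [norm_mul, norm_pow] at hb
  have h1 : (ε * Real.exp (-m₁ * w.im)) ^ r ≤ ‖H w - ℓ₀‖ ^ r := pow_le_pow_left₀ hpos.le hl r
  have h2 : ‖Φ (H w)‖ * (ε * Real.exp (-m₁ * w.im)) ^ r ≤ K :=
    (mul_le_mul_of_nonneg_left h1 (norm_nonneg _)).trans (by rwa [mul_comm] at hb)
  have h3 : K / ε ^ r * Real.exp (r * m₁ * w.im) = K / (ε * Real.exp (-m₁ * w.im)) ^ r := by
    rw [mul_pow, ← Real.exp_nat_mul]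
    have h4 : Real.exp (r * m₁ * w.im) = (Real.exp (↑r * (-m₁ * w.im)))⁻¹ := by
      rw [← Real.exp_neg]
      congr 1
      ring
    rw [h4]
    have hε' : ε ^ r ≠ 0 := (pow_pos hε r).ne'
    have he : Real.exp (↑r * (-m₁ * w.im)) ≠ 0 := (Real.exp_pos _).ne'
    field_simp
  rw [h3, le_div_iff₀ (pow_pos hpos r)]
  exact h2

/-- Cusp version, regular value. -/
theorem cusp_of_regular {Q : ℂ → Prop} {Φ : ℂ → ℂ} {u₀ : ℂ} {K : ℝ}
    (hΦ : ∀ᶠ u in 𝓝 u₀, Q u ∧ ‖Φ u‖ ≤ K)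
    {H : ℍ → ℂ} (hH : Tendsto H atImInfty (𝓝 u₀)) :
    ∃ C m K' : ℝ, ∀ w : ℍ, C < w.im → Q (H w) ∧ ‖Φ (H w)‖ ≤ K' * Real.exp (m * w.im) := by
  obtain ⟨A, hA⟩ := (atImInfty_mem _).mp (hH.eventually hΦ)
  refine ⟨A, 0, K, fun w hw => ?_⟩
  obtain ⟨hQ, hb⟩ := hA w hw.le
  exact ⟨hQ, by simpa using hb⟩

/-! ### The primitive and its translates -/

theorem mdiff_of_hasDerivAt {F : ℍ → ℂ} {f : ℍ → ℂ}
    (h : ∀ τ : ℍ, HasDerivAt (F ∘ ofComplex) (f τ) ↑τ) : MDiff F := by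
  rw [UpperHalfPlane.mdifferentiable_iff]
  intro z hz
  exact (h ⟨z, hz⟩).differentiableAt.differentiableWithinAt

theorem mdiff_comp_smul {F : ℍ → ℂ} (hF : MDiff F) (δ : SL(2, ℤ)) :
    MDiff (fun w : ℍ => F (δ • w)) := by
  have hdet : 0 < ((δ : GL (Fin 2) ℝ)).det.val := by simp
  exact hF.comp (mdifferentiable_smul hdet)

/-- The translates of the primitive are `N`-periodic. -/
theorem primitive_smul_vadd {N : ℕ} {f : CuspForm (Gamma0 N) 2} {F : ℍ → ℂ}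
    (hF : ModularCurve.HasEquivariantPrimitive N f F) (δ : SL(2, ℤ)) (w : ℍ) :
    F (δ • ((N : ℝ) +ᵥ w)) = F (δ • w) := by
  have hT : ModularGroup.T ^ (N : ℤ) ∈ CongruenceSubgroup.Gamma N := by
    have := ModularGroup_T_pow_mem_Gamma (N : ℤ) (N : ℤ) dvd_rfl
    simpa using this
  have hγ' : δ * ModularGroup.T ^ (N : ℤ) * δ⁻¹ ∈ CongruenceSubgroup.Gamma N := (Gamma_normal N).conj_mem _ hT δ
  have hγ : δ * ModularGroup.T ^ (N : ℤ) * δ⁻¹ ∈ Gamma0 N := by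
    rw [Gamma_mem] at hγ'
    exact Gamma0_mem.mpr hγ'.2.2.1
  have hper := hF.2.2.1.sub_eq_period ⟨_, hγ⟩
  have hrel : ∀ w : ℍ, F (δ • ((N : ℝ) +ᵥ w)) - F (δ • w) = hF.2.2.1.period ⟨_, hγ⟩ := by
    intro w
    have h1 := hper (δ • w)
    have h2 : (δ * ModularGroup.T ^ (N : ℤ) * δ⁻¹) • (δ • w) = δ • ((N : ℝ) +ᵥ w) := by
      rw [mul_smul, inv_smul_smul, mul_smul, modular_T_zpow_smul]
      simp
    rw [← h2]
    exact h1
  obtain ⟨Lδ, hLδ⟩ := hF.2.2.2 δ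
  have hshift : Tendsto (fun w : ℍ => (N : ℝ) +ᵥ w) atImInfty atImInfty := by
    rw [atImInfty, tendsto_comap_iff]
    have : (UpperHalfPlane.im ∘ fun w : ℍ => (N : ℝ) +ᵥ w) = UpperHalfPlane.im := by
      funext w
      simp [vadd_im]
    rw [this]
    exact tendsto_comap
  have hlim : Tendsto (fun w : ℍ => F (δ • ((N : ℝ) +ᵥ w)) - F (δ • w)) atImInfty
      (𝓝 (Lδ - Lδ)) := (hLδ.comp hshift).sub hLδ
  have hconst : Tendsto (fun w : ℍ => F (δ • ((N : ℝ) +ᵥ w)) - F (δ • w)) atImInfty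
      (𝓝 (hF.2.2.1.period ⟨_, hγ⟩)) := tendsto_const_nhds.congr fun w => (hrel w).symm
  have hp : hF.2.2.1.period ⟨_, hγ⟩ = Lδ - Lδ := tendsto_nhds_unique hconst hlim
  have := hrel w
  rw [hp, sub_self, sub_eq_zero] at this
  exact this

/-- A nonzero multiple of the primitive is not constant on any translate. -/
theorem const_contra {F : ℍ → ℂ} (hF0 : Tendsto F atImInfty (𝓝 0)) {c : ℂ}
    (hG : ∃ z : ℍ, c * F z ≠ 0) (δ : SL(2, ℤ)) (ℓ : ℂ) : ¬ ∀ w : ℍ, c * F (δ • w) = ℓ := by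
  intro h
  have hall : ∀ z : ℍ, c * F z = ℓ := fun z => by
    have := h (δ⁻¹ • z)
    rwa [smul_inv_smul] at this
  have hlim : Tendsto (fun z : ℍ => c * F z) atImInfty (𝓝 (c * 0)) := hF0.const_mul c
  have hconst : Tendsto (fun z : ℍ => c * F z) atImInfty (𝓝 ℓ) :=
    tendsto_const_nhds.congr fun z => (hall z).symm
  have hℓ : ℓ = c * 0 := tendsto_nhds_unique hconst hlim
  obtain ⟨z, hz⟩ := hG
  exact hz (by rw [hall z, hℓ, mul_zero])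

/-! ### Composition with a periodic meromorphic function -/

/-- Function-level core: `Φ (c * F z)` is a ratio of cusp forms of level `N`, for any
`L`-periodic function `Φ`, holomorphic off `L` with at most poles at the points of `L`. -/
theorem exists_ratio_comp (N : ℕ) [NeZero N] (f : CuspForm (Gamma0 N) 2) (F : ℍ → ℂ)
    (hF : ModularCurve.HasEquivariantPrimitive N f F) (c : ℂ) (hG : ∃ z : ℍ, c * F z ≠ 0)
    (L : PeriodPair) (hL : ∀ γ : Gamma0 N, c * hF.2.2.1.period γ ∈ L.lattice)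
    (Φ : ℂ → ℂ) (hper : ∀ u : ℂ, ∀ l ∈ L.lattice, Φ (u + l) = Φ u)
    (hreg : ∀ u : ℂ, u ∉ L.lattice → DifferentiableAt ℂ Φ u)
    (hpole : ∀ l₀ ∈ L.lattice, ∃ (r : ℕ) (K : ℝ),
      ∀ᶠ u in 𝓝 l₀, u ≠ l₀ → u ∉ L.lattice ∧ ‖(u - l₀) ^ r * Φ u‖ ≤ K) :
    ∃ (k : ℕ) (A B : ℍ → ℂ), IsCuspData N k A ∧ IsCuspData N k B ∧
      (∀ᶠ w : ℍ in atImInfty, B w ≠ 0) ∧
      ∀ z : ℍ, c * F z ∉ L.lattice → A z = B z * Φ (c * F z) := by
  have hFmd : MDiff F := mdiff_of_hasDerivAt hF.1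
  have hGmd : MDiff (fun z : ℍ => c * F z) := mdifferentiable_const.mul hFmd
  have hconst := const_contra hF.2.1 hG
  refine exists_ratio_core N (fun z => Φ (c * F z)) {z : ℍ | c * F z ∈ L.lattice}
    ?_ ?_ ?_ ?_ ?_ ?_
  · exact L.isClosed_lattice.preimage hGmd.continuous
  · intro γ hγ z hz
    have h1 := hF.2.2.1.sub_eq_period ⟨γ, hγ⟩ z
    have h2 : c * F (γ • z) = c * F z + c * hF.2.2.1.period ⟨γ, hγ⟩ := by
      rw [← h1]
      ring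
    show c * F (γ • z) ∈ L.lattice
    rw [h2]
    exact add_mem hz (hL ⟨γ, hγ⟩)
  · intro γ hγ z
    have h1 := hF.2.2.1.sub_eq_period ⟨γ, hγ⟩ z
    have h2 : c * F (γ • z) = c * F z + c * hF.2.2.1.period ⟨γ, hγ⟩ := by
      rw [← h1]
      ring
    show Φ (c * F (γ • z)) = Φ (c * F z)
    rw [h2, hper _ _ (hL ⟨γ, hγ⟩)]
  · intro z hz
    have h1 : DifferentiableAt ℂ ((fun z : ℍ => c * F z) ∘ ofComplex) (z : ℂ) :=
      differentiableAt_comp_ofComplex hGmd z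
    have h2 : DifferentiableAt ℂ Φ (((fun z : ℍ => c * F z) ∘ ofComplex) (z : ℂ)) := by
      rw [Function.comp_apply, ofComplex_apply]
      exact hreg _ hz
    exact h2.comp (z : ℂ) h1
  · intro δ z₀ hz₀
    obtain ⟨r, K, hrK⟩ := hpole _ hz₀
    have hHmd : MDiff (fun w : ℍ => c * F (δ • w)) := mdiff_comp_smul hGmd δ
    have hnc : ¬ ∀ᶠ w in 𝓝 (z₀ : ℂ),
        (fun w : ℍ => c * F (δ • w)) (ofComplex w) - c * F (δ • z₀) = 0 := by
      intro hev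
      have := eq_zero_of_eventually_zero (φ := fun w : ℍ => c * F (δ • w) - c * F (δ • z₀))
        (hHmd.sub mdifferentiable_const) z₀ hev
      exact hconst δ (c * F (δ • z₀)) fun w => sub_eq_zero.mp (this w)
    exact mero_of_pole hrK hHmd rfl hnc
  · intro δ
    obtain ⟨Lδ, hLδ⟩ := hF.2.2.2 δ
    have hH : Tendsto (fun w : ℍ => c * F (δ • w)) atImInfty (𝓝 (c * Lδ)) := hLδ.const_mul c
    by_cases hmem : c * Lδ ∈ L.lattice
    · obtain ⟨r, K, hrK⟩ := hpole _ hmem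
      have hφmd : MDiff (fun w : ℍ => c * F (δ • w) - c * Lδ) :=
        (mdiff_comp_smul hGmd δ).sub mdifferentiable_const
      have hφper : Function.Periodic ((fun w : ℍ => c * F (δ • w) - c * Lδ) ∘ ofComplex)
          (N : ℝ) :=
        periodic_comp_ofComplex_of_vadd fun w => by
          show c * F (δ • ((N : ℝ) +ᵥ w)) - c * Lδ = c * F (δ • w) - c * Lδ
          rw [primitive_smul_vadd hF δ w]
      have hφ0 : Tendsto (fun w : ℍ => c * F (δ • w) - c * Lδ) atImInfty (𝓝 0) := by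
        simpa using hH.sub_const (c * Lδ)
      have hφne : ∃ z : ℍ, c * F (δ • z) - c * Lδ ≠ 0 := by
        by_contra hall
        refine hconst δ (c * Lδ) fun w => ?_
        by_contra hw
        exact hall ⟨w, fun h => hw (sub_eq_zero.mp h)⟩
      obtain ⟨C₁, ε, m₁, hε, hlow⟩ :=
        cusp_lower_bound (Nat.cast_pos.mpr (NeZero.pos N)) hφper hφmd hφ0 hφne
      exact cusp_of_pole hrK hH hε hlow
    · have hreg' : ∀ᶠ u in 𝓝 (c * Lδ), u ∉ L.lattice ∧ ‖Φ u‖ ≤ ‖Φ (c * Lδ)‖ + 1 := by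
        have e1 : ∀ᶠ u in 𝓝 (c * Lδ), u ∉ L.lattice :=
          L.isClosed_lattice.isOpen_compl.mem_nhds hmem
        have e2 : ∀ᶠ u in 𝓝 (c * Lδ), ‖Φ u‖ < ‖Φ (c * Lδ)‖ + 1 :=
          (hreg _ hmem).continuousAt.norm.eventually (eventually_lt_nhds (lt_add_one _))
        filter_upwards [e1, e2] with u h1 h2 using ⟨h1, h2.le⟩
      exact cusp_of_regular hreg' hH

/-! ### The Weierstrass functions -/

theorem wp_pole_bound (L : PeriodPair) {l₀ : ℂ} (hl₀ : l₀ ∈ L.lattice) :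
    ∃ K : ℝ, ∀ᶠ u in 𝓝 l₀, u ≠ l₀ → u ∉ L.lattice ∧ ‖(u - l₀) ^ 2 * ℘[L] u‖ ≤ K := by
  have h1 : ∀ᶠ u in 𝓝 l₀, u ∈ ((L.lattice : Set ℂ) \ {l₀})ᶜ :=
    L.compl_lattice_sdiff_singleton_mem_nhds l₀
  have h2 : ∀ᶠ u in 𝓝 l₀, ‖℘[L - l₀] u‖ < ‖℘[L - l₀] l₀‖ + 1 :=
    (L.analyticAt_weierstrassPExcept l₀).continuousAt.norm.eventually
      (eventually_lt_nhds (lt_add_one _))
  have h3 : ∀ᶠ u in 𝓝 l₀, ‖u - l₀‖ < 1 := by
    filter_upwards [Metric.ball_mem_nhds l₀ one_pos] with u hu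
    rwa [Metric.mem_ball, dist_eq_norm] at hu
  refine ⟨(‖℘[L - l₀] l₀‖ + 1) + 1 + ‖1 / l₀ ^ 2‖, ?_⟩
  filter_upwards [h1, h2, h3] with u hu1 hu2 hu3 hne
  refine ⟨fun hmem => hu1 ⟨hmem, hne⟩, ?_⟩
  have hne' : (u - l₀) ^ 2 ≠ 0 := pow_ne_zero _ (sub_ne_zero.mpr hne)
  have e1 : ℘[L] u = ℘[L - l₀] u + (1 / (u - l₀) ^ 2 - 1 / l₀ ^ 2) :=
    (L.weierstrassPExcept_add ⟨l₀, hl₀⟩ u).symm
  have e0 : (u - l₀) ^ 2 * (1 / (u - l₀) ^ 2) = 1 := mul_one_div_cancel hne'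
  have e2 : (u - l₀) ^ 2 * ℘[L] u =
      (u - l₀) ^ 2 * ℘[L - l₀] u + 1 - (u - l₀) ^ 2 * (1 / l₀ ^ 2) := by
    rw [e1, mul_add, mul_sub, e0]
    ring
  have hsq : ‖u - l₀‖ ^ 2 ≤ 1 := pow_le_one₀ (norm_nonneg _) hu3.le
  have hW := hu2.le
  rw [e2]
  calc ‖(u - l₀) ^ 2 * ℘[L - l₀] u + 1 - (u - l₀) ^ 2 * (1 / l₀ ^ 2)‖
      ≤ ‖(u - l₀) ^ 2 * ℘[L - l₀] u + 1‖ + ‖(u - l₀) ^ 2 * (1 / l₀ ^ 2)‖ := norm_sub_le _ _
    _ ≤ ‖(u - l₀) ^ 2 * ℘[L - l₀] u‖ + ‖(1 : ℂ)‖ + ‖(u - l₀) ^ 2 * (1 / l₀ ^ 2)‖ :=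
        add_le_add_left (norm_add_le _ _) _
    _ = ‖u - l₀‖ ^ 2 * ‖℘[L - l₀] u‖ + 1 + ‖u - l₀‖ ^ 2 * ‖1 / l₀ ^ 2‖ := by
        simp only [norm_mul, norm_pow, norm_one]
    _ ≤ 1 * (‖℘[L - l₀] l₀‖ + 1) + 1 + 1 * ‖1 / l₀ ^ 2‖ := by
        gcongr
    _ = (‖℘[L - l₀] l₀‖ + 1) + 1 + ‖1 / l₀ ^ 2‖ := by ring

theorem derivWp_pole_bound (L : PeriodPair) {l₀ : ℂ} (hl₀ : l₀ ∈ L.lattice) :
    ∃ K : ℝ, ∀ᶠ u in 𝓝 l₀, u ≠ l₀ → u ∉ L.lattice ∧ ‖(u - l₀) ^ 3 * ℘'[L] u‖ ≤ K := by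
  have h1 : ∀ᶠ u in 𝓝 l₀, u ∈ ((L.lattice : Set ℂ) \ {l₀})ᶜ :=
    L.compl_lattice_sdiff_singleton_mem_nhds l₀
  have h2 : ∀ᶠ u in 𝓝 l₀, ‖℘'[L - l₀] u‖ < ‖℘'[L - l₀] l₀‖ + 1 :=
    (L.analyticAt_derivWeierstrassPExcept l₀).continuousAt.norm.eventually
      (eventually_lt_nhds (lt_add_one _))
  have h3 : ∀ᶠ u in 𝓝 l₀, ‖u - l₀‖ < 1 := by
    filter_upwards [Metric.ball_mem_nhds l₀ one_pos] with u hu
    rwa [Metric.mem_ball, dist_eq_norm] at hu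
  refine ⟨(‖℘'[L - l₀] l₀‖ + 1) + 2, ?_⟩
  filter_upwards [h1, h2, h3] with u hu1 hu2 hu3 hne
  refine ⟨fun hmem => hu1 ⟨hmem, hne⟩, ?_⟩
  have hne' : (u - l₀) ^ 3 ≠ 0 := pow_ne_zero _ (sub_ne_zero.mpr hne)
  have e1 : ℘'[L] u = ℘'[L - l₀] u - 2 / (u - l₀) ^ 3 :=
    (L.derivWeierstrassPExcept_sub ⟨l₀, hl₀⟩ u).symm
  have e2 : (u - l₀) ^ 3 * ℘'[L] u = (u - l₀) ^ 3 * ℘'[L - l₀] u - 2 := by
    rw [e1, mul_sub, mul_div_assoc', mul_comm ((u - l₀) ^ 3) 2, mul_div_assoc, div_self hne',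
      mul_one]
  have hcu : ‖u - l₀‖ ^ 3 ≤ 1 := pow_le_one₀ (norm_nonneg _) hu3.le
  have hW := hu2.le
  rw [e2]
  calc ‖(u - l₀) ^ 3 * ℘'[L - l₀] u - 2‖
      ≤ ‖(u - l₀) ^ 3 * ℘'[L - l₀] u‖ + ‖(2 : ℂ)‖ := norm_sub_le _ _
    _ = ‖u - l₀‖ ^ 3 * ‖℘'[L - l₀] u‖ + 2 := by
        simp only [norm_mul, norm_pow, Complex.norm_ofNat]
    _ ≤ 1 * (‖℘'[L - l₀] l₀‖ + 1) + 2 := by
        gcongr
    _ = (‖℘'[L - l₀] l₀‖ + 1) + 2 := by ring

/-- Off the (discrete) set where `c * F` takes values in the lattice. -/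
theorem eventually_notMem_lattice {F : ℍ → ℂ} (hFmd : MDiff F)
    (hF0 : Tendsto F atImInfty (𝓝 0)) {c : ℂ} (hG : ∃ z : ℍ, c * F z ≠ 0) (L : PeriodPair)
    (z₀ : ℍ) : ∀ᶠ w : ℍ in 𝓝[≠] z₀, c * F w ∉ L.lattice := by
  have hGmd : MDiff (fun z : ℍ => c * F z) := mdifferentiable_const.mul hFmd
  by_cases h : c * F z₀ ∈ L.lattice
  · have hΦ : ∀ᶠ u in 𝓝 (c * F z₀), u ≠ c * F z₀ →
        u ∉ L.lattice ∧ ‖(u - c * F z₀) ^ 0 * (fun _ : ℂ => (0 : ℂ)) u‖ ≤ 0 := by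
      filter_upwards [L.compl_lattice_sdiff_singleton_mem_nhds (c * F z₀)] with u hu hne
      exact ⟨fun hmem => hu ⟨hmem, hne⟩, by simp⟩
    have hnc : ¬ ∀ᶠ w in 𝓝 (z₀ : ℂ), (fun w : ℍ => c * F w) (ofComplex w) - c * F z₀ = 0 := by
      intro hev
      have := eq_zero_of_eventually_zero (φ := fun w : ℍ => c * F w - c * F z₀)
        (hGmd.sub mdifferentiable_const) z₀ hev
      refine const_contra hF0 hG 1 (c * F z₀) fun w => ?_
      rw [one_smul]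
      exact sub_eq_zero.mp (this w)
    obtain ⟨m, K', hm⟩ := mero_of_pole hΦ hGmd rfl hnc
    exact hm.mono fun w hw => hw.1
  · have : ∀ᶠ w : ℍ in 𝓝 z₀, c * F w ∉ L.lattice :=
      hGmd.continuous.continuousAt.eventually (L.isClosed_lattice.isOpen_compl.mem_nhds h)
    exact nhdsWithin_le_nhds this

theorem dense_notMem_lattice {F : ℍ → ℂ} (hFmd : MDiff F)
    (hF0 : Tendsto F atImInfty (𝓝 0)) {c : ℂ} (hG : ∃ z : ℍ, c * F z ≠ 0) (L : PeriodPair) :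
    Dense {z : ℍ | c * F z ∉ L.lattice} := by
  intro z₀
  rw [mem_closure_iff_frequently]
  have := nhdsNE_neBot z₀
  exact ((eventually_notMem_lattice hFmd hF0 hG L z₀).frequently).filter_mono
    nhdsWithin_le_nhds

/-- Near `i∞` the function `c * F` avoids the lattice. -/
theorem exists_im_notMem_lattice {N : ℕ} [NeZero N] {f : CuspForm (Gamma0 N) 2} {F : ℍ → ℂ}
    (hF : ModularCurve.HasEquivariantPrimitive N f F) {c : ℂ} (hG : ∃ z : ℍ, c * F z ≠ 0)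
    (L : PeriodPair) : ∃ C : ℝ, ∀ w : ℍ, C < w.im → c * F w ∉ L.lattice := by
  have hFmd : MDiff F := mdiff_of_hasDerivAt hF.1
  have hGmd : MDiff (fun z : ℍ => c * F z) := mdifferentiable_const.mul hFmd
  have hH : Tendsto (fun w : ℍ => c * F w) atImInfty (𝓝 0) := by
    simpa using hF.2.1.const_mul c
  have hper : Function.Periodic ((fun w : ℍ => c * F w) ∘ ofComplex) (N : ℝ) :=
    periodic_comp_ofComplex_of_vadd fun w => by
      have := primitive_smul_vadd hF 1 w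
      rw [one_smul, one_smul] at this
      show c * F ((N : ℝ) +ᵥ w) = c * F w
      rw [this]
  obtain ⟨C₁, ε, m₁, hε, hlow⟩ :=
    cusp_lower_bound (Nat.cast_pos.mpr (NeZero.pos N)) hper hGmd hH hG
  have hΦ : ∀ᶠ u in 𝓝 (0 : ℂ), u ≠ 0 →
      u ∉ L.lattice ∧ ‖(u - 0) ^ 0 * (fun _ : ℂ => (0 : ℂ)) u‖ ≤ 0 := by
    filter_upwards [L.compl_lattice_sdiff_singleton_mem_nhds 0] with u hu hne
    exact ⟨fun hmem => hu ⟨hmem, hne⟩, by simp⟩
  have hlow' : ∀ w : ℍ, C₁ < w.im → ε * Real.exp (-m₁ * w.im) ≤ ‖c * F w - 0‖ := by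
    intro w hw
    rw [sub_zero]
    exact hlow w hw
  obtain ⟨C, m, K', hC⟩ := cusp_of_pole hΦ hH hε hlow'
  exact ⟨C, fun w hw => (hC w hw).1⟩

/-- Function-level statement: `℘[L] (c * F z)` and `℘'[L] (c * F z)` are ratios of cusp-form
data of level `N` with a common denominator, and the numerators and the denominator satisfy the
(homogenised) Weierstrass equation. -/
theorem exists_param_core (N : ℕ) [NeZero N] (f : CuspForm (Gamma0 N) 2) (F : ℍ → ℂ)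
    (hF : ModularCurve.HasEquivariantPrimitive N f F) (c : ℂ) (hG : ∃ z : ℍ, c * F z ≠ 0)
    (L : PeriodPair) (hL : ∀ γ : Gamma0 N, c * hF.2.2.1.period γ ∈ L.lattice) :
    ∃ (k : ℕ) (A A' B : ℍ → ℂ), IsCuspData N k A ∧ IsCuspData N k A' ∧ IsCuspData N k B ∧
      (∀ᶠ w : ℍ in atImInfty, B w ≠ 0) ∧
      (∀ z : ℍ, c * F z ∉ L.lattice →
        A z = B z * ℘[L] (c * F z) ∧ A' z = B z * ℘'[L] (c * F z)) ∧
      (∀ z : ℍ, A' z ^ 2 * B z = 4 * A z ^ 3 - L.g₂ * A z * B z ^ 2 - L.g₃ * B z ^ 3) := by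
  obtain ⟨k₁, A₁, B₁, hA₁, hB₁, hne₁, h₁⟩ := exists_ratio_comp N f F hF c hG L hL ℘[L]
    (fun u l hl => L.weierstrassP_add_coe u ⟨l, hl⟩)
    (fun u hu => (L.analyticOnNhd_weierstrassP u hu).differentiableAt)
    (fun l₀ hl₀ => ⟨2, wp_pole_bound L hl₀⟩)
  obtain ⟨k₂, A₂, B₂, hA₂, hB₂, hne₂, h₂⟩ := exists_ratio_comp N f F hF c hG L hL ℘'[L]
    (fun u l hl => L.derivWeierstrassP_add_coe u ⟨l, hl⟩)
    (fun u hu => (L.analyticOnNhd_derivWeierstrassP u hu).differentiableAt)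
    (fun l₀ hl₀ => ⟨3, derivWp_pole_bound L hl₀⟩)
  have hcast : ((k₁ + k₂ : ℕ) : ℤ) = (k₁ : ℤ) + (k₂ : ℤ) := Nat.cast_add k₁ k₂
  have hA : IsCuspData N ((k₁ + k₂ : ℕ) : ℤ) (A₁ * B₂) := hcast ▸ hA₁.mul hB₂
  have hA' : IsCuspData N ((k₁ + k₂ : ℕ) : ℤ) (B₁ * A₂) := hcast ▸ hB₁.mul hA₂
  have hB : IsCuspData N ((k₁ + k₂ : ℕ) : ℤ) (B₁ * B₂) := hcast ▸ hB₁.mul hB₂
  have hpt : ∀ z : ℍ, c * F z ∉ L.lattice →
      (A₁ * B₂) z = (B₁ * B₂) z * ℘[L] (c * F z) ∧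
      (B₁ * A₂) z = (B₁ * B₂) z * ℘'[L] (c * F z) := by
    intro z hz
    simp only [Pi.mul_apply]
    rw [h₁ z hz, h₂ z hz]
    constructor <;> ring
  refine ⟨k₁ + k₂, A₁ * B₂, B₁ * A₂, B₁ * B₂, hA, hA', hB, ?_, hpt, ?_⟩
  · filter_upwards [hne₁, hne₂] with w h1 h2 using mul_ne_zero h1 h2
  · have hFmd : MDiff F := mdiff_of_hasDerivAt hF.1
    have hdense := dense_notMem_lattice hFmd hF.2.1 hG L
    have hc1 : Continuous (fun z : ℍ => (B₁ * A₂) z ^ 2 * (B₁ * B₂) z) :=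
      (hA'.hol.continuous.pow 2).mul hB.hol.continuous
    have hc2 : Continuous (fun z : ℍ => 4 * (A₁ * B₂) z ^ 3 -
        L.g₂ * (A₁ * B₂) z * (B₁ * B₂) z ^ 2 - L.g₃ * (B₁ * B₂) z ^ 3) :=
      ((continuous_const.mul (hA.hol.continuous.pow 3)).sub
        ((continuous_const.mul hA.hol.continuous).mul (hB.hol.continuous.pow 2))).sub
        (continuous_const.mul (hB.hol.continuous.pow 3))
    have hext := Continuous.ext_on hdense hc1 hc2 (fun z hz => by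
      obtain ⟨e1, e2⟩ := hpt z hz
      have hsq := L.derivWeierstrassP_sq (c * F z) hz
      show (B₁ * A₂) z ^ 2 * (B₁ * B₂) z = 4 * (A₁ * B₂) z ^ 3 -
        L.g₂ * (A₁ * B₂) z * (B₁ * B₂) z ^ 2 - L.g₃ * (B₁ * B₂) z ^ 3
      rw [e1, e2]
      linear_combination ((B₁ * B₂) z) ^ 3 * hsq)
    exact fun z => congrFun hext z

/-- **Parametrisation theorem** (cusp form version, with the Weierstrass relation).  If `c * F`
is not identically zero, then `℘[L] (c * F z)` and `℘'[L] (c * F z)` are ratios `A / B`,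
`A' / B` of cusp forms of level `Γ₀(N)` of the same weight, `(A : A' : B)` satisfies the
homogeneous Weierstrass equation identically, the exceptional set is nowhere dense, and it does
not meet a neighbourhood of `i∞`. -/
theorem exists_param_cuspForms_rel (N : ℕ) [NeZero N] (f : CuspForm (Gamma0 N) 2) (F : ℍ → ℂ)
    (hF : ModularCurve.HasEquivariantPrimitive N f F) (c : ℂ) (hG : ∃ z : ℍ, c * F z ≠ 0)
    (L : PeriodPair) (hL : ∀ γ : Gamma0 N, c * hF.2.2.1.period γ ∈ L.lattice) :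
    ∃ (k : ℤ) (A A' B : CuspForm (Gamma0 N) k), B ≠ 0 ∧
      (∀ z : ℍ, c * F z ∉ L.lattice →
        A z = B z * ℘[L] (c * F z) ∧ A' z = B z * ℘'[L] (c * F z)) ∧
      (∀ z : ℍ, A' z ^ 2 * B z = 4 * A z ^ 3 - L.g₂ * A z * B z ^ 2 - L.g₃ * B z ^ 3) ∧
      Dense {z : ℍ | c * F z ∉ L.lattice} ∧
      ∃ C : ℝ, ∀ z : ℍ, C < z.im → c * F z ∉ L.lattice := by
  obtain ⟨k, A, A', B, hA, hA', hB, hne, hpt, hrel⟩ := exists_param_core N f F hF c hG L hL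
  obtain ⟨w, hw⟩ := hne.exists
  refine ⟨k, hA.toCuspForm, hA'.toCuspForm, hB.toCuspForm, fun h0 => hw ?_, hpt, hrel,
    dense_notMem_lattice (mdiff_of_hasDerivAt hF.1) hF.2.1 hG L, exists_im_notMem_lattice hF hG L⟩
  have := DFunLike.congr_fun h0 w
  simpa [IsCuspData.toCuspForm_apply] using this

/-- **Parametrisation theorem** (cusp form version). -/
theorem exists_param_cuspForms (N : ℕ) [NeZero N] (f : CuspForm (Gamma0 N) 2) (F : ℍ → ℂ)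
    (hF : ModularCurve.HasEquivariantPrimitive N f F) (c : ℂ)
    (L : PeriodPair) (hL : ∀ γ : Gamma0 N, c * hF.2.2.1.period γ ∈ L.lattice) :
    ∃ (k : ℤ) (A A' B : CuspForm (Gamma0 N) k), B ≠ 0 ∧ ∀ z : ℍ, c * F z ∉ L.lattice →
      A z = B z * ℘[L] (c * F z) ∧ A' z = B z * ℘'[L] (c * F z) := by
  by_cases hG : ∃ z : ℍ, c * F z ≠ 0
  · obtain ⟨k, A, A', B, hB, hpt, -⟩ := exists_param_cuspForms_rel N f F hF c hG L hL
    exact ⟨k, A, A', B, hB, hpt⟩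
  · have hzero : ∀ z : ℍ, c * F z = 0 := fun z => by
      by_contra h
      exact hG ⟨z, h⟩
    obtain ⟨k, A, B, hB, -⟩ := exists_cuspForm_ratio N (fun _ => 0) ∅ isClosed_empty
      (fun _ _ _ h => h.elim) (fun _ _ _ => rfl) (fun _ _ => differentiableAt_const _)
      (fun _ _ h => h.elim) (fun _ => ⟨0, 0, 0, fun _ _ => ⟨fun h => h, by simp⟩⟩)
    refine ⟨k, A, A, B, hB, fun z hz => ?_⟩
    rw [hzero z] at hz
    exact absurd (zero_mem _) hz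

/-- **Parametrisation theorem** (modular form version). -/
theorem exists_param_forms (N : ℕ) [NeZero N] (f : CuspForm (Gamma0 N) 2) (F : ℍ → ℂ)
    (hF : ModularCurve.HasEquivariantPrimitive N f F) (c : ℂ)
    (L : PeriodPair) (hL : ∀ γ : Gamma0 N, c * hF.2.2.1.period γ ∈ L.lattice) :
    ∃ (k : ℤ) (A A' B : ModularForm (Gamma0 N) k), B ≠ 0 ∧ ∀ z : ℍ, c * F z ∉ L.lattice →
      A z = B z * ℘[L] (c * F z) ∧ A' z = B z * ℘'[L] (c * F z) := by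
  by_cases hG : ∃ z : ℍ, c * F z ≠ 0
  · obtain ⟨k, A, A', B, hA, hA', hB, hne, hpt, -⟩ := exists_param_core N f F hF c hG L hL
    obtain ⟨w, hw⟩ := hne.exists
    refine ⟨k, hA.toModularForm, hA'.toModularForm, hB.toModularForm, fun h0 => hw ?_, hpt⟩
    have := DFunLike.congr_fun h0 w
    simpa [IsCuspData.toModularForm_apply] using this
  · have hzero : ∀ z : ℍ, c * F z = 0 := fun z => by
      by_contra h
      exact hG ⟨z, h⟩
    obtain ⟨k, A, B, hB, -⟩ := exists_modularForm_ratio N (fun _ => 0) ∅ isClosed_empty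
      (fun _ _ _ h => h.elim) (fun _ _ _ => rfl) (fun _ _ => differentiableAt_const _)
      (fun _ _ h => h.elim) (fun _ => ⟨0, 0, 0, fun _ _ => ⟨fun h => h, by simp⟩⟩)
    refine ⟨k, A, A, B, hB, fun z hz => ?_⟩
    rw [hzero z] at hz
    exact absurd (zero_mem _) hz

end

end Fermat.Agent.S58.helper7440
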