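import Mathlib
import Fermat.Prelude.Def_CuspForm_HeckeGaloisRepDatum
import Fermat.Prelude.Def_CuspForm_Newforms
import Fermat.Prelude.Def_GaloisRep_LocalConditions
import Fermat.Prelude.Def_GaloisRep_Residual
import Fermat.Prelude.Def_WeierstrassCurve_ConductorLevel
import Fermat.Prelude.Def_FLTPrelim_ModularRep
import Fermat.Agent.S58.helper1646_Raise
import Fermat.Agent.S58.helper1790_TrivBound
import Fermat.Agent.Lib.helper54_Frobenius

/-!
# S58, ROUTE X: interface file (captain helper7522)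

`frozen S58  ⟸  frozen S35 + frozen S36 + wiring`.

The reduction of the frozen statement to the arithmetic core `helper1646.Stmt_Core` is on main
(`helper1646_Raise`).  This file states the leaves of ROUTE X as `Prop`s and PROVES the assembly
`core_of_leaves` / `frozen_of_leaves`, so that the interfaces are checked against the frozen
statement.

Leaves (all elementary; none mentions modular curves):

* `Stmt_Chi`     : the eigencharacter of a normalised eigenform on the Hecke algebra.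
* `Stmt_Iota`    : a complete DVR over `ℤ_lam` receiving the (finite) ring of Hecke eigenvalues.
* `Stmt_FrobVal` : a representation with the Frobenius characteristic polynomials of `W` outside a
                   finite set has trace `a_ℓ₀(W)` at EVERY good prime `ℓ₀ ≠ lam`.
* `Stmt_Unip`    : such a representation (at `lam = p` odd, `W` semistable) is unipotent on inertia
                   at every prime `q ≠ p`.
* `Stmt_Hres`    : such a representation (at `lam = p` odd, `W[p]` irreducible) is residually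
                   absolutely irreducible and odd.

The three last leaves are consequences of one lemma (`PQ`, a two-module version of the S30 QUAD
lemma) applied to the torsion modules `W[lam ^ k](ℚ̄)`; see `helper7522_PQ.lean`.
-/

set_option autoImplicit false

open Polynomial

namespace Fermat.Agent.S58.helper7522

open Fermat.Agent.S58.helper1646

/-- `ℚ̄`. -/
abbrev Qb : Type := AlgebraicClosure ℚ

/-- The absolute Galois group of `ℚ`. -/
abbrev GQ : Type := AlgebraicClosure ℚ ≃ₐ[ℚ] AlgebraicClosure ℚ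

/-! ### The two frozen statements used as hypotheses -/

/-- The frozen statement S35 (verbatim). -/
def Stmt_S35 : Prop :=
  ∀ {M : ℕ} [NeZero M] {g : CuspForm (CongruenceSubgroup.Gamma0 M) 2} (_hg : g.IsNewform)
    (lam : ℕ) [Fact lam.Prime]
    (S : Finset ℕ)
    (O' : Type) [CommRing O'] [IsDomain O'] [IsDiscreteValuationRing O']
    [IsAdicComplete (IsLocalRing.maximalIdeal O') O'] [Finite (IsLocalRing.ResidueField O')]
    [CharZero O'] (_hlamO' : (lam : O') ∈ IsLocalRing.maximalIdeal O')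
    (chig : CuspForm.heckeAlgebra M 2 (↑S : Set ℕ) →+* ℂ)
    (_hchig : ∀ (ℓ : ℕ) (hℓ : ℓ.Prime) (hℓM : ¬ ℓ ∣ M) (hℓS : ℓ ∉ (↑S : Set ℕ)),
      chig (CuspForm.heckeAlgebra.T hℓ hℓM hℓS) = ModularFormClass.qCoeff g ℓ)
    (iota : chig.range →+* O')
    (_hlamS : lam ∈ S) (_hMS : ∀ q : ℕ, q.Prime → q ∣ M → q ∈ S),
    ∃ (O'' : Type) (_ : CommRing O'') (_ : IsDomain O'') (_ : IsDiscreteValuationRing O'')
      (_ : IsAdicComplete (IsLocalRing.maximalIdeal O'') O'') (_ : Finite (IsLocalRing.ResidueField O''))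
      (_ : CharZero O'') (_ : Algebra O' O'') (_ : Module.Finite O' O'') (_ : IsLocalHom (algebraMap O' O'')),
      Function.Injective (algebraMap O' O'') ∧
      ∃ ρ : GaloisRepAdic O'',
        (∀ (ℓ : ℕ) (hℓ : ℓ.Prime) (hℓM : ¬ ℓ ∣ M) (hℓS : ℓ ∉ (↑S : Set ℕ)),
          ∀ A : ValuationSubring (AlgebraicClosure ℚ), A.LiesOverPrime ℓ →
            ∀ σ : AlgebraicClosure ℚ ≃ₐ[ℚ] AlgebraicClosure ℚ, A.IsFrobeniusAt σ ℓ →
              LinearMap.charpoly (ρ.ρ σ) =
                X ^ 2 - C (algebraMap O' O'' ((iota.comp chig.rangeRestrict) (CuspForm.heckeAlgebra.T hℓ hℓM hℓS))) * X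
                  + C ((ℓ : O''))) ∧
        (∀ q : ℕ, q.Prime → q ≠ lam → q ∣ M → ¬ q ^ 2 ∣ M →
          ∀ A : ValuationSubring (AlgebraicClosure ℚ), A.LiesOverPrime q →
            ∀ σ : AlgebraicClosure ℚ ≃ₐ[ℚ] AlgebraicClosure ℚ, A.IsFrobeniusAt σ q →
              LinearMap.charpoly (ρ.ρ σ) = X ^ 2 - C ((q : O'') + 1) * X + C ((q : O'')) ∨
              LinearMap.charpoly (ρ.ρ σ) = X ^ 2 + C ((q : O'') + 1) * X + C ((q : O'')))

/-- The frozen statement S36 (verbatim). -/
def Stmt_S36 : Prop :=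
  ∀ {M : ℕ} [NeZero M] {g : CuspForm (CongruenceSubgroup.Gamma0 M) 2} (_hg : g.IsNewform)
    (lam : ℕ) [Fact lam.Prime]
    (S : Finset ℕ)
    (O' : Type) [CommRing O'] [IsDomain O'] [IsDiscreteValuationRing O']
    [IsAdicComplete (IsLocalRing.maximalIdeal O') O'] [Finite (IsLocalRing.ResidueField O')]
    [CharZero O'] (_hlamO' : (lam : O') ∈ IsLocalRing.maximalIdeal O')
    (_hlam2 : lam ≠ 2)
    (chig : CuspForm.heckeAlgebra M 2 (↑S : Set ℕ) →+* ℂ)
    (_hchig : ∀ (ℓ : ℕ) (hℓ : ℓ.Prime) (hℓM : ¬ ℓ ∣ M) (hℓS : ℓ ∉ (↑S : Set ℕ)),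
      chig (CuspForm.heckeAlgebra.T hℓ hℓM hℓS) = ModularFormClass.qCoeff g ℓ)
    (iota : chig.range →+* O')
    (_hlamS : lam ∈ S) (_hMS : ∀ q : ℕ, q.Prime → q ∣ M → q ∈ S)
    (_hres : ∀ (O'' : Type) [CommRing O''] [IsDomain O''] [IsDiscreteValuationRing O'']
      [IsAdicComplete (IsLocalRing.maximalIdeal O'') O''] [Finite (IsLocalRing.ResidueField O'')] [CharZero O'']
      [Algebra O' O''] [Module.Finite O' O''] [IsLocalHom (algebraMap O' O'')],
      Function.Injective (algebraMap O' O'') → ∀ (ρ : GaloisRepAdic O''),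
      (∀ (ℓ : ℕ) (hℓ : ℓ.Prime) (_hℓlam : ℓ ≠ lam) (hℓM : ¬ ℓ ∣ M) (hℓS : ℓ ∉ (↑S : Set ℕ)),
        ∀ A : ValuationSubring (AlgebraicClosure ℚ), A.LiesOverPrime ℓ →
          ∀ σ : AlgebraicClosure ℚ ≃ₐ[ℚ] AlgebraicClosure ℚ, A.IsFrobeniusAt σ ℓ →
            LinearMap.charpoly (ρ.ρ σ) =
              X ^ 2 - C (algebraMap O' O'' ((iota.comp chig.rangeRestrict) (CuspForm.heckeAlgebra.T hℓ hℓM hℓS))) * X
                + C ((ℓ : O'')))
      → ρ.residual.IsAbsolutelyIrreducible ∧ ρ.residual.IsOdd),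
    ∃ (O'' : Type) (_ : CommRing O'') (_ : IsDomain O'') (_ : IsDiscreteValuationRing O'')
      (_ : IsAdicComplete (IsLocalRing.maximalIdeal O'') O'') (_ : Finite (IsLocalRing.ResidueField O''))
      (_ : CharZero O'') (_ : Algebra O' O'') (_ : Module.Finite O' O'') (_ : IsLocalHom (algebraMap O' O'')),
      Function.Injective (algebraMap O' O'') ∧
      ∃ ρ : GaloisRepAdic O'',
        (∀ (ℓ : ℕ) (hℓ : ℓ.Prime) (hℓM : ¬ ℓ ∣ M) (hℓS : ℓ ∉ (↑S : Set ℕ)),
          ∀ A : ValuationSubring (AlgebraicClosure ℚ), A.LiesOverPrime ℓ →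
            ∀ σ : AlgebraicClosure ℚ ≃ₐ[ℚ] AlgebraicClosure ℚ, A.IsFrobeniusAt σ ℓ →
              LinearMap.charpoly (ρ.ρ σ) =
                X ^ 2 - C (algebraMap O' O'' ((iota.comp chig.rangeRestrict) (CuspForm.heckeAlgebra.T hℓ hℓM hℓS))) * X
                  + C ((ℓ : O''))) ∧
        (∀ q : ℕ, q.Prime → q ≠ lam → M.factorization q = 2 → ¬ ρ.IsUnipotentOnInertiaAt q)

/-! ### The leaves -/

/-- `ρ` has the Frobenius characteristic polynomials of the integral model `W` at all primes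
outside the finite set `T`. -/
def HasFrobOf (W : WeierstrassCurve ℤ) {O : Type} [CommRing O] [IsLocalRing O]
    (ρ : GaloisRepAdic O) (T : Finset ℕ) : Prop :=
  ∀ ℓ : ℕ, ℓ.Prime → ℓ ∉ T → ∀ A : ValuationSubring Qb, A.LiesOverPrime ℓ →
    ∀ σ : GQ, A.IsFrobeniusAt σ ℓ →
      LinearMap.charpoly (ρ.ρ σ) = X ^ 2 - C ((W.apOfModel ℓ : ℤ) : O) * X + C ((ℓ : ℕ) : O)

/-- **Leaf CHI**: the eigencharacter of a normalised eigenform on the Hecke algebra away from
any finite set `S`. -/
def Stmt_Chi : Prop :=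
  ∀ (M : ℕ) [NeZero M] (g : CuspForm (CongruenceSubgroup.Gamma0 M) 2), g.IsNormalizedEigenform →
    ∀ S : Finset ℕ, ∃ chig : CuspForm.heckeAlgebra M 2 (↑S : Set ℕ) →+* ℂ,
      ∀ (ℓ : ℕ) (hℓ : ℓ.Prime) (hℓM : ¬ ℓ ∣ M) (hℓS : ℓ ∉ (↑S : Set ℕ)),
        chig (CuspForm.heckeAlgebra.T hℓ hℓM hℓS) = ModularFormClass.qCoeff g ℓ

/-- **Leaf IOTA**: for every character `chig` of the Hecke algebra with complex values and every
prime `lam` there is a complete DVR of characteristic zero with finite residue field of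
characteristic `lam` and an INJECTIVE ring homomorphism from the ring of values of `chig`. -/
def Stmt_Iota : Prop :=
  ∀ (M : ℕ) [NeZero M] (S : Finset ℕ) (chig : CuspForm.heckeAlgebra M 2 (↑S : Set ℕ) →+* ℂ)
    (lam : ℕ) [Fact lam.Prime],
    ∃ (O' : Type) (_ : CommRing O') (_ : IsDomain O') (_ : IsDiscreteValuationRing O')
      (_ : IsAdicComplete (IsLocalRing.maximalIdeal O') O')
      (_ : Finite (IsLocalRing.ResidueField O')) (_ : CharZero O'),
      (lam : O') ∈ IsLocalRing.maximalIdeal O' ∧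
      ∃ iota : chig.range →+* O', Function.Injective iota

/-- **Leaf FROBVAL**: a representation with the Frobenius characteristic polynomials of `W`
outside a finite set `T` (containing `lam` and the bad primes) has trace `a_ℓ₀(W)` at the
Frobenius elements of EVERY prime `ℓ₀ ≠ lam` of good reduction. -/
def Stmt_FrobVal : Prop :=
  ∀ (W : WeierstrassCurve ℤ), W.Δ ≠ 0 →
  ∀ (lam : ℕ) [Fact lam.Prime]
    (O : Type) [CommRing O] [IsDomain O] [IsDiscreteValuationRing O] [CharZero O]
    (_hlam : (lam : O) ∈ IsLocalRing.maximalIdeal O) (ρ : GaloisRepAdic O) (T : Finset ℕ),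
    lam ∈ T → (∀ ℓ : ℕ, ℓ.Prime → (ℓ : ℤ) ∣ W.Δ → ℓ ∈ T) → HasFrobOf W ρ T →
    ∀ ℓ₀ : ℕ, ℓ₀.Prime → ℓ₀ ≠ lam → W.IsGoodPrimeFor ℓ₀ →
    ∀ A : ValuationSubring Qb, A.LiesOverPrime ℓ₀ → ∀ σ : GQ, A.IsFrobeniusAt σ ℓ₀ →
      LinearMap.trace O ρ.V (ρ.ρ σ) = ((W.apOfModel ℓ₀ : ℤ) : O)

/-- **Leaf UNIP**: for a semistable `W` and an odd prime `p`, a `p`-adic representation with the
Frobenius characteristic polynomials of `W` outside a finite set is unipotent on inertia at
every prime `q ≠ p`. -/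
def Stmt_Unip : Prop :=
  ∀ (W : WeierstrassCurve ℤ), W.IsSemistableModel → W.Δ ≠ 0 →
  ∀ (p : ℕ) [Fact p.Prime], p ≠ 2 →
  ∀ (O : Type) [CommRing O] [IsDomain O] [IsDiscreteValuationRing O] [CharZero O]
    (_hp : (p : O) ∈ IsLocalRing.maximalIdeal O) (ρ : GaloisRepAdic O) (T : Finset ℕ),
    p ∈ T → (∀ ℓ : ℕ, ℓ.Prime → (ℓ : ℤ) ∣ W.Δ → ℓ ∈ T) → HasFrobOf W ρ T →
    ∀ q : ℕ, q.Prime → q ≠ p → ρ.IsUnipotentOnInertiaAt q

/-- **Leaf HRES**: for an odd prime `p` with `W[p]` irreducible, a `p`-adic representation with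
the Frobenius characteristic polynomials of `W` outside a finite set is residually absolutely
irreducible and odd. -/
def Stmt_Hres : Prop :=
  ∀ (W : WeierstrassCurve ℤ), W.Δ ≠ 0 →
  ∀ (p : ℕ) [Fact p.Prime], p ≠ 2 → W.ModRepIsIrreducible p →
  ∀ (O : Type) [CommRing O] [IsDomain O] [IsDiscreteValuationRing O] [CharZero O]
    (_hp : (p : O) ∈ IsLocalRing.maximalIdeal O) (ρ : GaloisRepAdic O) (T : Finset ℕ),
    p ∈ T → (∀ ℓ : ℕ, ℓ.Prime → (ℓ : ℤ) ∣ W.Δ → ℓ ∈ T) → HasFrobOf W ρ T →
    ρ.residual.IsAbsolutelyIrreducible ∧ ρ.residual.IsOdd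

/-! ### Small tools for the assembly -/

/-- The coefficient of `X` in `X² - a X + b`. -/
theorem coeff_one_quad {R : Type*} [CommRing R] (a b : R) :
    (X ^ 2 - C a * X + C b : R[X]).coeff 1 = -a := by
  simp [coeff_X_pow, coeff_C]

/-- The characteristic polynomial of an endomorphism of a free module of rank two. -/
theorem charpoly_eq_of_finrank_two {R : Type*} [CommRing R] [Nontrivial R] {V : Type*}
    [AddCommGroup V] [Module R V] [Module.Free R V] [Module.Finite R V]
    (hV : Module.finrank R V = 2) (f : Module.End R V) :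
    LinearMap.charpoly f = X ^ 2 - C (LinearMap.trace R V f) * X + C (LinearMap.det f) := by
  classical
  let b : Module.Basis (Fin 2) R V := Module.finBasisOfFinrankEq R V hV
  rw [← LinearMap.charpoly_toMatrix f b, Matrix.charpoly_fin_two,
    LinearMap.trace_eq_matrix_trace R b, ← LinearMap.det_toMatrix b]

/-- The trace of an endomorphism of a free module of rank two with characteristic polynomial
`X² - a X + b` is `a`. -/
theorem trace_eq_of_charpoly {R : Type*} [CommRing R] [Nontrivial R] {V : Type*} [AddCommGroup V]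
    [Module R V] [Module.Free R V] [Module.Finite R V] (hV : Module.finrank R V = 2)
    (f : Module.End R V) (a b : R) (h : LinearMap.charpoly f = X ^ 2 - C a * X + C b) :
    LinearMap.trace R V f = a := by
  have h1 := charpoly_eq_of_finrank_two hV f
  rw [h] at h1
  have h2 := congrArg (fun P : R[X] => P.coeff 1) h1
  simp only [coeff_one_quad] at h2
  exact (neg_injective h2).symm

/-- The determinant of an endomorphism of a free module of rank two with characteristic
polynomial `X² - a X + b` is `b`. -/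
theorem det_eq_of_charpoly {R : Type*} [CommRing R] [Nontrivial R] {V : Type*} [AddCommGroup V]
    [Module R V] [Module.Free R V] [Module.Finite R V] (hV : Module.finrank R V = 2)
    (f : Module.End R V) (a b : R) (h : LinearMap.charpoly f = X ^ 2 - C a * X + C b) :
    LinearMap.det f = b := by
  have h1 := charpoly_eq_of_finrank_two hV f
  rw [h] at h1
  have h2 := congrArg (fun P : R[X] => P.coeff 0) h1
  simp [coeff_X_pow] at h2
  exact h2.symm

/-- A local homomorphism maps a residue characteristic to a residue characteristic. -/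
theorem natCast_mem_maximalIdeal_of_isLocalHom' {A B : Type*} [CommRing A] [IsLocalRing A]
    [CommRing B] [IsLocalRing B] (f : A →+* B) [IsLocalHom f] (p : ℕ)
    (hp : (p : A) ∈ IsLocalRing.maximalIdeal A) : (p : B) ∈ IsLocalRing.maximalIdeal B := by
  have h := map_nonunit f (p : A) hp
  rwa [map_natCast] at h

/-- The value of `chig.rangeRestrict` at `T_ℓ` when the eigenvalue is an integer. -/
theorem rangeRestrict_T_eq_intCast {M : ℕ} [NeZero M] {S : Finset ℕ}
    (chig : CuspForm.heckeAlgebra M 2 (↑S : Set ℕ) →+* ℂ) {ℓ : ℕ} (hℓ : ℓ.Prime) (hℓM : ¬ ℓ ∣ M)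
    (hℓS : ℓ ∉ (↑S : Set ℕ)) (z : ℤ)
    (h : chig (CuspForm.heckeAlgebra.T hℓ hℓM hℓS) = (z : ℂ)) :
    chig.rangeRestrict (CuspForm.heckeAlgebra.T hℓ hℓM hℓS) = ((z : ℤ) : chig.range) := by
  apply Subtype.ext
  rw [RingHom.coe_rangeRestrict, h]
  simp

/-- A squarefree number all of whose prime factors divide `R ≠ 0` divides `R`. -/
theorem dvd_of_squarefree_of_primes {M R : ℕ} (hM : Squarefree M) (hR : R ≠ 0)
    (h : ∀ q : ℕ, q.Prime → q ∣ M → q ∣ R) : M ∣ R := by
  have hM0 : M ≠ 0 := hM.ne_zero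
  rw [← Nat.factorization_le_iff_dvd hM0 hR]
  intro q
  by_cases hq : q.Prime
  · have h1 : M.factorization q ≤ 1 := hM.natFactorization_le_one q
    by_cases hqM : q ∣ M
    · have h2 : 1 ≤ R.factorization q :=
        (hq.dvd_iff_one_le_factorization hR).mp (h q hq hqM)
      exact h1.trans h2
    · rw [Nat.factorization_eq_zero_of_not_dvd hqM]
      exact Nat.zero_le _
  · rw [Nat.factorization_eq_zero_of_not_prime _ hq]
    exact Nat.zero_le _

/-- A prime different from a given number. -/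
theorem exists_prime_ne (ℓ : ℕ) : ∃ lam : ℕ, lam.Prime ∧ lam ≠ ℓ := by
  by_cases h : ℓ = 2
  · exact ⟨3, Nat.prime_three, by omega⟩
  · exact ⟨2, Nat.prime_two, fun h2 => h h2.symm⟩

end Fermat.Agent.S58.helper7522
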