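import Fermat.Agent.S58.helper7522_XSpec

/-!
# S58, ROUTE X: the assembly

`frozen_of_leaves : Stmt_S35 → Stmt_S36 → (five leaves) → frozen S58`.
-/

set_option autoImplicit false

open Polynomial

namespace Fermat.Agent.S58.helper7522

open Fermat.Agent.S58.helper1646

section Core

variable (h35 : Stmt_S35) (h36 : Stmt_S36) (hChi : Stmt_Chi) (hIota : Stmt_Iota)
  (hF : Stmt_FrobVal) (hU : Stmt_Unip) (hR : Stmt_Hres)

variable (W : WeierstrassCurve ℤ) (N : ℕ)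

/-- Transport of the Frobenius clause of S35 / S36 to `HasFrobOf W ρ T`. -/
theorem hasFrobOf_of_clause {M : ℕ} [NeZero M] {g : CuspForm (CongruenceSubgroup.Gamma0 M) 2}
    (hMN : M ∣ N)
    (hbad : ∀ ℓ : ℕ, ℓ.Prime → (ℓ : ℤ) ∣ W.Δ → ℓ ∣ N)
    (hgW : ∀ ℓ : ℕ, ℓ.Prime → W.IsGoodPrimeFor ℓ → ¬ ℓ ∣ N →
      ModularFormClass.qCoeff g ℓ = (W.apOfModel ℓ : ℂ))
    {S : Finset ℕ} (chig : CuspForm.heckeAlgebra M 2 (↑S : Set ℕ) →+* ℂ)
    (hchig : ∀ (ℓ : ℕ) (hℓ : ℓ.Prime) (hℓM : ¬ ℓ ∣ M) (hℓS : ℓ ∉ (↑S : Set ℕ)),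
      chig (CuspForm.heckeAlgebra.T hℓ hℓM hℓS) = ModularFormClass.qCoeff g ℓ)
    {O' : Type} [CommRing O'] (iota : chig.range →+* O')
    {O'' : Type} [CommRing O''] [IsLocalRing O''] [Algebra O' O''] (ρ : GaloisRepAdic O'')
    (T : Finset ℕ) (hST : S ⊆ T) (hNT : ∀ ℓ : ℕ, ℓ.Prime → ℓ ∉ T → ¬ ℓ ∣ N)
    (hρ : ∀ (ℓ : ℕ) (hℓ : ℓ.Prime) (_hℓT : ℓ ∉ T) (hℓM : ¬ ℓ ∣ M) (hℓS : ℓ ∉ (↑S : Set ℕ)),
      ∀ A : ValuationSubring (AlgebraicClosure ℚ), A.LiesOverPrime ℓ →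
        ∀ σ : AlgebraicClosure ℚ ≃ₐ[ℚ] AlgebraicClosure ℚ, A.IsFrobeniusAt σ ℓ →
          LinearMap.charpoly (ρ.ρ σ) =
            X ^ 2 - C (algebraMap O' O'' ((iota.comp chig.rangeRestrict)
              (CuspForm.heckeAlgebra.T hℓ hℓM hℓS))) * X + C ((ℓ : O''))) :
    HasFrobOf W ρ T := by
  intro ℓ hℓ hℓT A hA σ hσ
  have hℓN : ¬ ℓ ∣ N := hNT ℓ hℓ hℓT
  have hℓM : ¬ ℓ ∣ M := fun h => hℓN (h.trans hMN)
  have hℓS : ℓ ∉ (↑S : Set ℕ) := fun h => hℓT (hST h)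
  have hgood : W.IsGoodPrimeFor ℓ := fun h => hℓN (hbad ℓ hℓ h)
  rw [hρ ℓ hℓ hℓT hℓM hℓS A hA σ hσ, RingHom.comp_apply,
    rangeRestrict_T_eq_intCast chig hℓ hℓM hℓS (W.apOfModel ℓ)
      ((hchig ℓ hℓ hℓM hℓS).trans (hgW ℓ hℓ hgood hℓN)),
    map_intCast, map_intCast]

include h35 h36 hChi hIota hF hU hR in
/-- **The arithmetic core of S58 from S35, S36 and the leaves.** -/
theorem core_of_leaves (hss : W.IsSemistableModel) (p : ℕ) (hp : p.Prime) (hp2 : p ≠ 2)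
    (hirr : W.ModRepIsIrreducible p) (hp2N : ¬ p ^ 2 ∣ N)
    (hbad : ∀ ℓ : ℕ, ℓ.Prime → (ℓ : ℤ) ∣ W.Δ → ℓ ∣ N) (hN3 : ∀ q : ℕ, q.Prime → ¬ q ^ 3 ∣ N)
    (hΔ : W.Δ ≠ 0) (hN0 : N ≠ 0) : Stmt_Core W N := by
  intro M g hMN hg hgW
  have hM0 : M ≠ 0 := ne_zero_of_dvd_ne_zero hN0 hMN
  have : NeZero M := ⟨hM0⟩
  have : Fact p.Prime := ⟨hp⟩
  have hbadN : ∀ ℓ : ℕ, ℓ.Prime → (ℓ : ℤ) ∣ W.Δ → ℓ ∈ N.primeFactors := fun ℓ hℓ h =>
    Nat.mem_primeFactors.mpr ⟨hℓ, hbad ℓ hℓ h, hN0⟩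
  have hMprime : ∀ q : ℕ, q.Prime → q ∣ M → q ∈ N.primeFactors := fun q hq h =>
    Nat.mem_primeFactors.mpr ⟨hq, h.trans hMN, hN0⟩
  have hnotN : ∀ (T : Finset ℕ), N.primeFactors ⊆ T → ∀ ℓ : ℕ, ℓ.Prime → ℓ ∉ T → ¬ ℓ ∣ N :=
    fun T hT ℓ hℓ hℓT h => hℓT (hT (Nat.mem_primeFactors.mpr ⟨hℓ, h, hN0⟩))
  -- (C): no square of a prime divides `M`
  have hC : ∀ q : ℕ, q.Prime → ¬ q ^ 2 ∣ M := by
    intro q hq hq2
    have hqp : q ≠ p := by
      rintro rfl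
      exact hp2N (hq2.trans hMN)
    have hfact : M.factorization q = 2 := by
      have h2 : 2 ≤ M.factorization q := (hq.pow_dvd_iff_le_factorization hM0).mp hq2
      have h3 : ¬ 3 ≤ M.factorization q := fun h =>
        hN3 q hq (((hq.pow_dvd_iff_le_factorization hM0).mpr h).trans hMN)
      omega
    set S : Finset ℕ := insert p N.primeFactors with hS
    have hpS : p ∈ S := Finset.mem_insert_self _ _
    have hNS : N.primeFactors ⊆ S := Finset.subset_insert _ _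
    have hMS : ∀ q : ℕ, q.Prime → q ∣ M → q ∈ S := fun q hq h => hNS (hMprime q hq h)
    have hbadS : ∀ ℓ : ℕ, ℓ.Prime → (ℓ : ℤ) ∣ W.Δ → ℓ ∈ S := fun ℓ hℓ h => hNS (hbadN ℓ hℓ h)
    obtain ⟨chig, hchig⟩ := hChi M g hg.1 S
    obtain ⟨O', i1, i2, i3, i4, i5, i6, hpO', iota, -⟩ := hIota M S chig p
    obtain ⟨O'', j1, j2, j3, j4, j5, j6, j7, j8, j9, -, ρ, hρ, hnot⟩ :=
      h36 hg p S O' hpO' hp2 chig hchig iota hpS hMS (by
        intro O'' _ _ _ _ _ _ _ _ _ _ ρ hρ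
        have hpO'' : (p : O'') ∈ IsLocalRing.maximalIdeal O'' :=
          natCast_mem_maximalIdeal_of_isLocalHom' (algebraMap O' O'') p hpO'
        refine hR W hΔ p hp2 hirr O'' hpO'' ρ S hpS hbadS ?_
        refine hasFrobOf_of_clause W N hMN hbad hgW chig hchig iota ρ S (Finset.Subset.refl _)
          (hnotN S hNS) ?_
        intro ℓ hℓ hℓT hℓM hℓS A hA σ hσ
        exact hρ ℓ hℓ (fun h => hℓT (h ▸ hpS)) hℓM hℓS A hA σ hσ)
    have hpO'' : (p : O'') ∈ IsLocalRing.maximalIdeal O'' :=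
      natCast_mem_maximalIdeal_of_isLocalHom' (algebraMap O' O'') p hpO'
    have hfrob : HasFrobOf W ρ S :=
      hasFrobOf_of_clause W N hMN hbad hgW chig hchig iota ρ S (Finset.Subset.refl _)
        (hnotN S hNS) (fun ℓ hℓ _ hℓM hℓS A hA σ hσ => hρ ℓ hℓ hℓM hℓS A hA σ hσ)
    exact hnot q hq hqp hfact (hU W hss hΔ p hp2 O'' hpO'' ρ S hpS hbadS hfrob q hq hqp)
  -- (B): every prime dividing `M` is a bad prime of `W`
  have hB : ∀ q : ℕ, q.Prime → q ∣ M → (q : ℤ) ∣ W.Δ := by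
    intro q hq hqM
    by_contra hgood
    obtain ⟨lam, hlam, hlamq⟩ := exists_prime_ne q
    have : Fact lam.Prime := ⟨hlam⟩
    have : Fact q.Prime := ⟨hq⟩
    set S : Finset ℕ := insert lam N.primeFactors with hS
    have hlamS : lam ∈ S := Finset.mem_insert_self _ _
    have hNS : N.primeFactors ⊆ S := Finset.subset_insert _ _
    have hMS : ∀ q : ℕ, q.Prime → q ∣ M → q ∈ S := fun q hq h => hNS (hMprime q hq h)
    have hbadS : ∀ ℓ : ℕ, ℓ.Prime → (ℓ : ℤ) ∣ W.Δ → ℓ ∈ S := fun ℓ hℓ h => hNS (hbadN ℓ hℓ h)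
    obtain ⟨chig, hchig⟩ := hChi M g hg.1 S
    obtain ⟨O', i1, i2, i3, i4, i5, i6, hlamO', iota, -⟩ := hIota M S chig lam
    obtain ⟨O'', j1, j2, j3, j4, j5, j6, j7, j8, j9, -, ρ, hρ1, hρ2⟩ :=
      h35 hg lam S O' hlamO' chig hchig iota hlamS hMS
    have hlamO'' : (lam : O'') ∈ IsLocalRing.maximalIdeal O'' :=
      natCast_mem_maximalIdeal_of_isLocalHom' (algebraMap O' O'') lam hlamO'
    have hfrob : HasFrobOf W ρ S :=
      hasFrobOf_of_clause W N hMN hbad hgW chig hchig iota ρ S (Finset.Subset.refl _)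
        (hnotN S hNS) (fun ℓ hℓ _ hℓM hℓS A hA σ hσ => hρ1 ℓ hℓ hℓM hℓS A hA σ hσ)
    obtain ⟨A, σ, hA, hσ⟩ := Fermat.Agent.Lib.helper54.exists_liesOverPrime_isFrobeniusAt hq
    have htr := hF W hΔ lam O'' hlamO'' ρ S hlamS hbadS hfrob q hq hlamq.symm hgood A hA σ hσ
    rcases hρ2 q hq hlamq.symm hqM (hC q hq) A hA σ hσ with h | h
    · have h1 := trace_eq_of_charpoly ρ.finrank_eq (ρ.ρ σ) _ _ h
      rw [htr] at h1
      have h2 : ((W.apOfModel q : ℤ) : O'') = (((q : ℤ) + 1 : ℤ) : O'') := by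
        rw [h1]; push_cast; ring
      exact Fermat.Agent.S58.helper1790.apOfModel_ne_add_one W q (Int.cast_injective h2)
    · have h' : LinearMap.charpoly (ρ.ρ σ) =
          X ^ 2 - C (-((q : O'') + 1)) * X + C ((q : O'')) := by
        rw [h, C_neg]; ring
      have h1 := trace_eq_of_charpoly ρ.finrank_eq (ρ.ρ σ) _ _ h'
      rw [htr] at h1
      have h2 : ((W.apOfModel q : ℤ) : O'') = ((-((q : ℤ) + 1) : ℤ) : O'') := by
        rw [h1]; push_cast; ring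
      exact Fermat.Agent.S58.helper1790.apOfModel_ne_neg_add_one W q (Int.cast_injective h2)
  refine ⟨?_, ?_⟩
  · -- `M ∣ rad Δ`
    have hsq : Squarefree M := by
      rw [Nat.squarefree_iff_prime_squarefree]
      intro q hq hqq
      exact hC q hq (by rwa [sq])
    refine dvd_of_squarefree_of_primes hsq W.conductorLevel_pos.ne' fun q hq hqM => ?_
    exact (W.prime_dvd_conductorLevel_iff hΔ hq).mpr (hB q hq hqM)
  · -- (A): the coefficients at ALL good primes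
    intro ℓ hℓ hgood
    by_cases hℓN : ℓ ∣ N
    swap
    · exact hgW ℓ hℓ hgood hℓN
    have hℓM : ¬ ℓ ∣ M := fun h => hgood (hB ℓ hℓ h)
    obtain ⟨lam, hlam, hlamℓ⟩ := exists_prime_ne ℓ
    have : Fact lam.Prime := ⟨hlam⟩
    set S : Finset ℕ := insert lam (N.primeFactors.erase ℓ) with hS
    set T : Finset ℕ := insert ℓ S with hT
    have hlamS : lam ∈ S := Finset.mem_insert_self _ _
    have hℓS : ℓ ∉ (↑S : Set ℕ) := by
      intro h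
      rcases Finset.mem_insert.mp (Finset.mem_coe.mp h) with h | h
      · exact hlamℓ h.symm
      · exact (Finset.mem_erase.mp h).1 rfl
    have hMS : ∀ q : ℕ, q.Prime → q ∣ M → q ∈ S := fun q hq h =>
      Finset.mem_insert_of_mem (Finset.mem_erase.mpr
        ⟨fun hqℓ => hℓM (hqℓ ▸ h), hMprime q hq h⟩)
    have hNT : N.primeFactors ⊆ T := by
      intro q hq
      by_cases hqℓ : q = ℓ
      · exact hqℓ ▸ Finset.mem_insert_self _ _
      · exact Finset.mem_insert_of_mem (Finset.mem_insert_of_mem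
          (Finset.mem_erase.mpr ⟨hqℓ, hq⟩))
    have hbadT : ∀ ℓ : ℕ, ℓ.Prime → (ℓ : ℤ) ∣ W.Δ → ℓ ∈ T := fun ℓ hℓ h => hNT (hbadN ℓ hℓ h)
    obtain ⟨chig, hchig⟩ := hChi M g hg.1 S
    obtain ⟨O', i1, i2, i3, i4, i5, i6, hlamO', iota, hiota⟩ := hIota M S chig lam
    obtain ⟨O'', j1, j2, j3, j4, j5, j6, j7, j8, j9, hinj, ρ, hρ1, -⟩ :=
      h35 hg lam S O' hlamO' chig hchig iota hlamS hMS
    have hlamO'' : (lam : O'') ∈ IsLocalRing.maximalIdeal O'' :=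
      natCast_mem_maximalIdeal_of_isLocalHom' (algebraMap O' O'') lam hlamO'
    have hfrob : HasFrobOf W ρ T :=
      hasFrobOf_of_clause W N hMN hbad hgW chig hchig iota ρ T (Finset.subset_insert _ _)
        (hnotN T hNT) (fun ℓ hℓ _ hℓM hℓS A hA σ hσ => hρ1 ℓ hℓ hℓM hℓS A hA σ hσ)
    obtain ⟨A, σ, hA, hσ⟩ := Fermat.Agent.Lib.helper54.exists_liesOverPrime_isFrobeniusAt hℓ
    have htr := hF W hΔ lam O'' hlamO'' ρ T (Finset.mem_insert_of_mem hlamS) hbadT hfrob ℓ hℓ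
      hlamℓ.symm hgood A hA σ hσ
    have h1 := trace_eq_of_charpoly ρ.finrank_eq (ρ.ρ σ) _ _ (hρ1 ℓ hℓ hℓM hℓS A hA σ hσ)
    rw [htr, RingHom.comp_apply] at h1
    have h2 : algebraMap O' O'' (iota ((W.apOfModel ℓ : ℤ) : chig.range)) =
        algebraMap O' O'' (iota (chig.rangeRestrict (CuspForm.heckeAlgebra.T hℓ hℓM hℓS))) := by
      rw [map_intCast, map_intCast]
      exact h1
    have h3 := hiota (hinj h2)
    have h4 := congrArg (fun x : chig.range => (x : ℂ)) h3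
    simp only [RingHom.coe_rangeRestrict] at h4
    rw [← hchig ℓ hℓ hℓM hℓS, ← h4]
    simp

end Core

/-- **The frozen statement S58** from the frozen statements S35, S36 and the five leaves. -/
theorem frozen_of_leaves (h35 : Stmt_S35) (h36 : Stmt_S36) (hChi : Stmt_Chi) (hIota : Stmt_Iota)
    (hF : Stmt_FrobVal) (hU : Stmt_Unip) (hR : Stmt_Hres)
    (W : WeierstrassCurve ℤ) (hss : W.IsSemistableModel) (N : ℕ)
    (p : ℕ) [Fact p.Prime] (hp2 : p ≠ 2) (hirr : W.ModRepIsIrreducible p)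
    (hp2N : ¬ p ^ 2 ∣ N)
    (hN : W.IsModularModelOfLevel N) (hbad : ∀ ℓ : ℕ, ℓ.Prime → (ℓ : ℤ) ∣ W.Δ → ℓ ∣ N)
    (hN3 : ∀ q : ℕ, q.Prime → ¬ q ^ 3 ∣ N) :
    W.IsModularModelOfLevel W.conductorLevel :=
  frozen_of_core
    (fun W hss N p hp hp2 hirr hp2N _ hbad hN3 hΔ hN0 =>
      core_of_leaves h35 h36 hChi hIota hF hU hR W N hss p hp hp2 hirr hp2N hbad hN3 hΔ hN0)
    W hss N p hp2 hirr hp2N hN hbad hN3

end Fermat.Agent.S58.helper7522
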