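import Fermat.Agent.S58.helper7532_GDefs
import Fermat.Agent.S58.helper708_IntCoeffNewform
import Fermat.Agent.S29.helper7617_Integrality

/-!
# S58, Route G: integrality and the integer eigen-character (helper7532)

`stmt_Eigen : Stmt_Eigen`.  A Prelude newform `g` of level `M ∣ N` with `a_ℓ(g) = a_ℓ(W)` at the
good primes `ℓ ∤ N` has integer `q`-coefficients (landed `helper708` + `helper6078`), and its
eigen-character (landed `S29/helper7617`) on every Hecke algebra `heckeAlgebra M 2 S` takes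
integer values, because the generators `T_ℓ`, `U_q` are sent to `a_ℓ(g)`, `a_q(g)`.
-/

set_option autoImplicit false

open CuspForm CongruenceSubgroup ModularFormClass

namespace Fermat.Agent.S58.helper7532

/-- A ring homomorphism to `ℂ` with integer values factors through `ℤ`. -/
theorem exists_intHom {R : Type*} [Ring R] (f : R →+* ℂ) (h : ∀ x, ∃ n : ℤ, (n : ℂ) = f x) :
    ∃ φ : R →+* ℤ, ∀ x, ((φ x : ℤ) : ℂ) = f x := by
  choose φ hφ using h
  refine ⟨⟨⟨⟨φ, ?_⟩, ?_⟩, ?_, ?_⟩, hφ⟩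
  · apply Int.cast_injective (α := ℂ)
    rw [hφ, map_one, Int.cast_one]
  · intro x y
    apply Int.cast_injective (α := ℂ)
    show ((φ (x * y) : ℤ) : ℂ) = ((φ x * φ y : ℤ) : ℂ)
    rw [hφ, map_mul, Int.cast_mul, hφ, hφ]
  · apply Int.cast_injective (α := ℂ)
    show ((φ 0 : ℤ) : ℂ) = ((0 : ℤ) : ℂ)
    rw [hφ, map_zero, Int.cast_zero]
  · intro x y
    apply Int.cast_injective (α := ℂ)
    show ((φ (x + y) : ℤ) : ℂ) = ((φ x + φ y : ℤ) : ℂ)
    rw [hφ, map_add, Int.cast_add, hφ, hφ]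

/-- **(EIGEN)** -/
theorem stmt_Eigen : Stmt_Eigen := by
  intro W N hN0 hbad M _ g hMN hg hcoef
  obtain ⟨a, ha⟩ := helper708.exists_intFun_qCoeff_of_isNewform_finset hg N.primeFactors
    (fun ℓ => W.apOfModel ℓ) (fun ℓ hℓ _ hℓS => by
      have hℓN : ¬ ℓ ∣ N := fun h => hℓS (Nat.mem_primeFactors.mpr ⟨hℓ, h, hN0⟩)
      exact hcoef ℓ hℓ (fun hd => hℓN (hbad ℓ hℓ hd)) hℓN)
  refine ⟨a, ha, fun S _ => ?_⟩
  have hne := hg.isNormalizedEigenform
  have hχ : ∀ t : heckeAlgebra M 2 (↑S : Set ℕ), ∃ n : ℤ, (n : ℂ) =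
      ((algebraMap (integralClosure ℤ ℂ) ℂ).comp
        (Fermat.Agent.S29.helper7617.eigenCharacter hne ↑S)) t := by
    rintro ⟨t, ht⟩
    induction ht using Algebra.adjoin_induction with
    | mem x hx =>
      rcases hx with ⟨ℓ, hℓ, hℓM, hℓS, rfl⟩ | ⟨q, hqM, hq, hqS, rfl⟩
      · exact ⟨a ℓ, by
          rw [← ha ℓ]
          exact (Fermat.Agent.S29.helper7617.eigenCharacter_T hne hℓ hℓM hℓS).symm⟩
      · exact ⟨a q, by
          rw [← ha q]
          exact (Fermat.Agent.S29.helper7617.eigenCharacter_U hne hq hqM hqS).symm⟩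
    | algebraMap r =>
      refine ⟨r, ?_⟩
      have h1 : (⟨algebraMap ℤ (Module.End ℂ (CuspForm (Gamma0 M) 2)) r,
          Subalgebra.algebraMap_mem _ r⟩ : heckeAlgebra M 2 (↑S : Set ℕ)) =
          ((r : ℤ) : heckeAlgebra M 2 (↑S : Set ℕ)) := by
        apply Subtype.ext
        simp
      rw [h1, map_intCast]
    | add x y hx hy ihx ihy =>
      obtain ⟨n1, h1⟩ := ihx
      obtain ⟨n2, h2⟩ := ihy
      refine ⟨n1 + n2, ?_⟩
      rw [Int.cast_add, h1, h2, ← map_add]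
      rfl
    | mul x y hx hy ihx ihy =>
      obtain ⟨n1, h1⟩ := ihx
      obtain ⟨n2, h2⟩ := ihy
      refine ⟨n1 * n2, ?_⟩
      rw [Int.cast_mul, h1, h2, ← map_mul]
      rfl
  obtain ⟨φ, hφ⟩ := exists_intHom _ hχ
  refine ⟨φ, fun ℓ hℓ hℓM hℓS => ?_⟩
  apply Int.cast_injective (α := ℂ)
  rw [hφ, ← ha ℓ]
  exact Fermat.Agent.S29.helper7617.eigenCharacter_T hne hℓ hℓM hℓS

end Fermat.Agent.S58.helper7532
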