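import Fermat.Agent.S58.helper7532_SpecG
import Fermat.Agent.S58.helper7532_Eigen
import Fermat.Agent.S58.helper8215_Res
import Fermat.Agent.S58.helper1646_ConsumersG

/-!
# S58, Route G: the frozen statement from the frozen S30, S35, S36 alone (helper7532)

All four leaves of `helper7532_SpecG.frozen_of_leaves` are theorems on main:

* `Stmt_Eigen`  : `helper7532.stmt_Eigen`  (`helper7532_Eigen`);
* `Stmt_Res`    : `helper8215.stmt_Res`    (`helper8215_Res`);
* `Stmt_Unip`   : `helper1646.stmt_Unip`   (`helper1646_ConsumersG`);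
* `Stmt_TrGood` : `helper1646.stmt_TrGood` (`helper1646_ConsumersG`).

So the frozen statement S58 follows from the three frozen statements S30, S35, S36
(`Stmt_S30`, `Stmt_S35`, `Stmt_S36` are their types verbatim):

`Fermat/Agent/S58.lean` is
`frozen_of_S30_S35_S36 @Fermat.Agent.S30.result @Fermat.Agent.S35.result @Fermat.Agent.S36.result`.
-/

set_option autoImplicit false

namespace Fermat.Agent.S58.helper7532

/-- **The frozen statement S58 from the frozen statements S30, S35 and S36.** -/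
theorem frozen_of_S30_S35_S36 (h30 : Stmt_S30) (h35 : Stmt_S35) (h36 : Stmt_S36)
    (W : WeierstrassCurve ℤ) (hss : W.IsSemistableModel) (N : ℕ)
    (p : ℕ) [Fact p.Prime] (hp2 : p ≠ 2) (hirr : W.ModRepIsIrreducible p)
    (hp2N : ¬ p ^ 2 ∣ N)
    (hN : W.IsModularModelOfLevel N) (hbad : ∀ ℓ : ℕ, ℓ.Prime → (ℓ : ℤ) ∣ W.Δ → ℓ ∣ N)
    (hN3 : ∀ q : ℕ, q.Prime → ¬ q ^ 3 ∣ N) :
    W.IsModularModelOfLevel W.conductorLevel :=
  frozen_of_leaves h30 h35 h36 stmt_Eigen Fermat.Agent.S58.helper8215.stmt_Res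
    Fermat.Agent.S58.helper1646.stmt_Unip Fermat.Agent.S58.helper1646.stmt_TrGood
    W hss N p hp2 hirr hp2N hN hbad hN3

end Fermat.Agent.S58.helper7532
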