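import Mathlib
import Fermat.Agent.S58.helper8967_Transfer

/-!
# S58, Route G: linear algebra of rank two (helper7532)

`V` a free module of rank two over a commutative ring `R`, `f` an endomorphism.

* `charpoly_eq_of_finrank_two` : `charpoly f = X² - tr(f) X + det(f)`;
* `trace_eq_of_charpoly`, `det_eq_of_charpoly` : reading off trace and determinant;
* `trace_pow_of_charpoly` : `tr(f ^ j)` is the Lucas trace sequence (`helper8967.lucasTr`);
* `trace_sub_mem`, `det_sub_mem` : endomorphisms congruent modulo an ideal `I` have traces and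
  determinants congruent modulo `I`.
-/

set_option autoImplicit false

open Polynomial

namespace Fermat.Agent.S58.helper7532

section RankTwo

variable {R V : Type*} [CommRing R] [AddCommGroup V] [Module R V]
  [Module.Free R V] [Module.Finite R V]

/-- The characteristic polynomial of an endomorphism of a free module of rank two. -/
theorem charpoly_eq_of_finrank_two [Nontrivial R] (h : Module.finrank R V = 2)
    (f : Module.End R V) :
    f.charpoly = X ^ 2 - C (LinearMap.trace R V f) * X + C (LinearMap.det f) := by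
  let b : Module.Basis (Fin 2) R V := Module.finBasisOfFinrankEq R V h
  rw [← LinearMap.charpoly_toMatrix f b, Matrix.charpoly_fin_two,
    LinearMap.trace_eq_matrix_trace R b f, LinearMap.det_toMatrix b f]

/-- Reading off the trace from the characteristic polynomial. -/
theorem trace_eq_of_charpoly [Nontrivial R] (h : Module.finrank R V = 2) (f : Module.End R V)
    (a d : R) (hf : f.charpoly = X ^ 2 - C a * X + C d) : LinearMap.trace R V f = a := by
  have h1 := charpoly_eq_of_finrank_two h f
  rw [hf] at h1
  have h2 := congrArg (fun p : R[X] => p.coeff 1) h1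
  simp only [coeff_add, coeff_sub, coeff_X_pow, coeff_C_mul, coeff_X_one, coeff_C] at h2
  simp at h2
  exact h2.symm

/-- Reading off the determinant from the characteristic polynomial. -/
theorem det_eq_of_charpoly [Nontrivial R] (h : Module.finrank R V = 2) (f : Module.End R V)
    (a d : R) (hf : f.charpoly = X ^ 2 - C a * X + C d) : LinearMap.det f = d := by
  have h1 := charpoly_eq_of_finrank_two h f
  rw [hf] at h1
  have h2 := congrArg (fun p : R[X] => p.coeff 0) h1
  simp only [coeff_add, coeff_sub, coeff_X_pow, coeff_C_mul, coeff_X_zero, coeff_C] at h2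
  simp at h2
  exact h2.symm

/-- The trace of the identity of a free module of rank two. -/
theorem trace_one_of_finrank_two (h : Module.finrank R V = 2) :
    LinearMap.trace R V (1 : Module.End R V) = 2 := by
  rw [LinearMap.trace_one, h]
  norm_num

/-- **Lucas**: the traces of the powers of an endomorphism with characteristic polynomial
`X² - a X + r`, `a r : ℤ`. -/
theorem trace_pow_of_charpoly [Nontrivial R] (h : Module.finrank R V = 2) (f : Module.End R V)
    (a r : ℤ) (hf : f.charpoly = X ^ 2 - C (a : R) * X + C (r : R)) (j : ℕ) :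
    LinearMap.trace R V (f ^ j) = (helper8967.lucasTr a r j : R) := by
  have hCH : f ^ 2 - (a : R) • f + (r : R) • (1 : Module.End R V) = 0 := by
    have h1 := LinearMap.aeval_self_charpoly f
    rw [hf] at h1
    simpa [Algebra.smul_def, map_sub, map_add, map_mul, map_pow, aeval_X, aeval_C] using h1
  have hrec : ∀ i : ℕ, f ^ (i + 2) = (a : R) • f ^ (i + 1) - (r : R) • f ^ i := by
    intro i
    have h2 : f ^ 2 = (a : R) • f - (r : R) • (1 : Module.End R V) := by
      rw [← sub_eq_zero]
      rw [← hCH]
      abel
    rw [pow_add, h2, mul_sub, mul_smul_comm, mul_smul_comm, mul_one, pow_succ]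
  induction j using Nat.twoStepInduction with
  | zero =>
    rw [pow_zero, trace_one_of_finrank_two h]
    simp [helper8967.lucasTr]
  | one =>
    rw [pow_one, trace_eq_of_charpoly h f _ _ hf]
    simp [helper8967.lucasTr]
  | more i h0 h1 =>
    rw [hrec i, map_sub, map_smul, map_smul, h0, h1, helper8967.lucasTr_add_two]
    push_cast
    simp [smul_eq_mul]

/-- The determinant of a power. -/
theorem det_pow_of_charpoly [Nontrivial R] (h : Module.finrank R V = 2) (f : Module.End R V)
    (a r : R) (hf : f.charpoly = X ^ 2 - C a * X + C r) (j : ℕ) :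
    LinearMap.det (f ^ j) = r ^ j := by
  rw [map_pow, det_eq_of_charpoly h f a r hf]

omit [Module.Free R V] [Module.Finite R V] in
/-- Coordinates of an element of `I • ⊤` lie in `I`. -/
theorem repr_mem_of_mem_smul_top {ι : Type*} (b : Module.Basis ι R V) (I : Ideal R) {x : V}
    (hx : x ∈ I • (⊤ : Submodule R V)) (i : ι) : b.repr x i ∈ I := by
  refine Submodule.smul_induction_on (p := fun x => b.repr x i ∈ I) hx ?_ ?_
  · intro a ha v _
    rw [map_smul, Finsupp.smul_apply, smul_eq_mul]
    exact I.mul_mem_right _ ha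
  · intro x y hx hy
    rw [map_add, Finsupp.add_apply]
    exact I.add_mem hx hy

/-- Endomorphisms congruent modulo `I` have congruent traces. -/
theorem trace_sub_mem [Nontrivial R] (h : Module.finrank R V = 2) (I : Ideal R) (f₁ f₂ : Module.End R V)
    (hf : ∀ v : V, f₁ v - f₂ v ∈ I • (⊤ : Submodule R V)) :
    LinearMap.trace R V f₁ - LinearMap.trace R V f₂ ∈ I := by
  let b : Module.Basis (Fin 2) R V := Module.finBasisOfFinrankEq R V h
  have hent : ∀ i j : Fin 2,
      LinearMap.toMatrix b b f₁ i j - LinearMap.toMatrix b b f₂ i j ∈ I := by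
    intro i j
    rw [LinearMap.toMatrix_apply, LinearMap.toMatrix_apply, ← Finsupp.sub_apply, ← map_sub]
    exact repr_mem_of_mem_smul_top b I (hf (b j)) i
  rw [LinearMap.trace_eq_matrix_trace R b f₁, LinearMap.trace_eq_matrix_trace R b f₂,
    Matrix.trace_fin_two, Matrix.trace_fin_two]
  have e : LinearMap.toMatrix b b f₁ 0 0 + LinearMap.toMatrix b b f₁ 1 1
      - (LinearMap.toMatrix b b f₂ 0 0 + LinearMap.toMatrix b b f₂ 1 1)
      = (LinearMap.toMatrix b b f₁ 0 0 - LinearMap.toMatrix b b f₂ 0 0)
        + (LinearMap.toMatrix b b f₁ 1 1 - LinearMap.toMatrix b b f₂ 1 1) := by ring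
  rw [e]
  exact I.add_mem (hent 0 0) (hent 1 1)

/-- Endomorphisms congruent modulo `I` have congruent determinants. -/
theorem det_sub_mem [Nontrivial R] (h : Module.finrank R V = 2) (I : Ideal R) (f₁ f₂ : Module.End R V)
    (hf : ∀ v : V, f₁ v - f₂ v ∈ I • (⊤ : Submodule R V)) :
    LinearMap.det f₁ - LinearMap.det f₂ ∈ I := by
  let b : Module.Basis (Fin 2) R V := Module.finBasisOfFinrankEq R V h
  have hent : ∀ i j : Fin 2,
      LinearMap.toMatrix b b f₁ i j - LinearMap.toMatrix b b f₂ i j ∈ I := by
    intro i j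
    rw [LinearMap.toMatrix_apply, LinearMap.toMatrix_apply, ← Finsupp.sub_apply, ← map_sub]
    exact repr_mem_of_mem_smul_top b I (hf (b j)) i
  rw [← LinearMap.det_toMatrix b f₁, ← LinearMap.det_toMatrix b f₂, Matrix.det_fin_two,
    Matrix.det_fin_two]
  have e : LinearMap.toMatrix b b f₁ 0 0 * LinearMap.toMatrix b b f₁ 1 1
        - LinearMap.toMatrix b b f₁ 0 1 * LinearMap.toMatrix b b f₁ 1 0
      - (LinearMap.toMatrix b b f₂ 0 0 * LinearMap.toMatrix b b f₂ 1 1
        - LinearMap.toMatrix b b f₂ 0 1 * LinearMap.toMatrix b b f₂ 1 0)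
      = (LinearMap.toMatrix b b f₁ 0 0 - LinearMap.toMatrix b b f₂ 0 0)
          * LinearMap.toMatrix b b f₁ 1 1
        + LinearMap.toMatrix b b f₂ 0 0
          * (LinearMap.toMatrix b b f₁ 1 1 - LinearMap.toMatrix b b f₂ 1 1)
        - ((LinearMap.toMatrix b b f₁ 0 1 - LinearMap.toMatrix b b f₂ 0 1)
          * LinearMap.toMatrix b b f₁ 1 0
        + LinearMap.toMatrix b b f₂ 0 1
          * (LinearMap.toMatrix b b f₁ 1 0 - LinearMap.toMatrix b b f₂ 1 0)) := by ring
  rw [e]
  exact I.sub_mem
    (I.add_mem (I.mul_mem_right _ (hent 0 0)) (I.mul_mem_left _ (hent 1 1)))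
    (I.add_mem (I.mul_mem_right _ (hent 0 1)) (I.mul_mem_left _ (hent 1 0)))

end RankTwo

end Fermat.Agent.S58.helper7532
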