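import Fermat.Agent.S58.helper7532_GDefs
import Fermat.Agent.S58.helper7532_LinAlg
import Fermat.Agent.S58.helper5765_FrobTors
import Fermat.Agent.Lib.helper1844_FrobGenAll
import Fermat.Agent.Lib.helper822_TorsionGalois
import Fermat.Agent.Lib.helper74_GenChebQbar

/-!
# S58, Route G: the transfer of annihilating quadratics (helper7532)

`stmt_Transfer : Stmt_Transfer`.  Let `ρ` be an adic Galois representation over a local ring `O`
with `charpoly ρ(Frob_ℓ) = X² - a_ℓ(W) X + ℓ` for the primes `ℓ` outside a finite set.  For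
`σ ∈ Gal(ℚ̄/ℚ)` and `m`, `n`, let `L` be the compositum of the level-`m` field of `ρ`, the field
of the `lam ^ n`-torsion of `W` and the field of the `lam ^ n`-th roots of unity.  By
generator-Chebotarev (`Lib/helper74`) `σ` agrees on `L` with a power `τ ^ j` of a Frobenius
element `τ` at a prime `r` outside the exceptional set, of good reduction, `r ≠ lam`.  Then

* `tr ρ(τ ^ j) = V_j(a_r, r)` (Lucas), `det ρ(τ ^ j) = r ^ j`, and `ρ(σ) ≡ ρ(τ ^ j)` mod `𝔪 ^ m`;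
* `τ² - a_r τ + r = 0` on `W[lam ^ n]` (Frobenius Cayley–Hamilton on torsion, landed), hence
  `(τ ^ j)² - V_j τ ^ j + r ^ j = 0` there (Lucas), and `τ ^ j = σ` on `W[lam ^ n]`;
* `τ ζ = ζ ^ r`, hence `σ ζ = ζ ^ (r ^ j)`, on the `lam ^ n`-th roots of unity.
-/

set_option autoImplicit false

open Polynomial WeierstrassCurve

namespace Fermat.Agent.S58.helper7532

local notation "Qb" => AlgebraicClosure ℚ
local notation "GQ" => (AlgebraicClosure ℚ ≃ₐ[ℚ] AlgebraicClosure ℚ)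

/-- The roots of unity of a given order lie in a finite extension of `ℚ`. -/
theorem exists_level_rootsOfUnity (k : ℕ) (hk : k ≠ 0) :
    ∃ L : IntermediateField ℚ Qb, FiniteDimensional ℚ L ∧ ∀ ζ : Qb, ζ ^ k = 1 → ζ ∈ L := by
  have hfin : {ζ : Qb | ζ ^ k = 1}.Finite := by
    refine Set.Finite.subset (Polynomial.nthRootsFinset k (1 : Qb)).finite_toSet ?_
    intro ζ hζ
    simp only [Finset.mem_coe]
    rw [Polynomial.mem_nthRootsFinset (Nat.pos_of_ne_zero hk)]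
    exact hζ
  have : Finite {ζ : Qb | ζ ^ k = 1} := hfin.to_subtype
  have halg : Algebra.IsAlgebraic ℚ Qb := AlgebraicClosure.isAlgebraic ℚ
  exact ⟨IntermediateField.adjoin ℚ {ζ : Qb | ζ ^ k = 1},
    IntermediateField.finiteDimensional_adjoin (fun x _ => (halg.isAlgebraic x).isIntegral),
    fun ζ hζ => IntermediateField.subset_adjoin ℚ _ hζ⟩

/-- A linear map preserves `I • ⊤`. -/
theorem map_mem_smul_top {R V : Type*} [CommRing R] [AddCommGroup V] [Module R V] (I : Ideal R)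
    (f : Module.End R V) {x : V} (hx : x ∈ I • (⊤ : Submodule R V)) :
    f x ∈ I • (⊤ : Submodule R V) := by
  refine Submodule.smul_induction_on (p := fun x => f x ∈ I • (⊤ : Submodule R V)) hx ?_ ?_
  · intro a ha v _
    rw [map_smul]
    exact Submodule.smul_mem_smul ha Submodule.mem_top
  · intro x y hx hy
    rw [map_add]
    exact Submodule.add_mem _ hx hy

/-- A power of an automorphism acting as `ζ ↦ ζ ^ r` on the `k`-th roots of unity. -/
theorem pow_apply_of_pow_eq_one (τ : GQ) (r k : ℕ)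
    (hτ : ∀ ζ : Qb, ζ ^ k = 1 → τ ζ = ζ ^ r) (j : ℕ) :
    ∀ ζ : Qb, ζ ^ k = 1 → (τ ^ j) ζ = ζ ^ (r ^ j) := by
  induction j with
  | zero => intro ζ _; simp
  | succ j ih =>
    intro ζ hζ
    have h1 : (ζ ^ r) ^ k = 1 := by rw [← pow_mul, mul_comm, pow_mul, hζ, one_pow]
    rw [pow_succ, AlgEquiv.mul_apply, hτ ζ hζ, ih _ h1, ← pow_mul, pow_succ, mul_comm]

/-- **(T) Transfer of annihilating quadratics.** -/
theorem stmt_Transfer : Stmt_Transfer := by
  intro W hΔ lam hlam O _ _ ρ T hFC m n σ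
  have hk : lam ^ n ≠ 0 := pow_ne_zero n hlam.ne_zero
  -- the three finite levels
  obtain ⟨L₁, hL₁, h₁⟩ := ρ.isAdicContinuous m
  obtain ⟨L₂, hL₂, h₂⟩ := Fermat.Agent.Lib.helper822.galoisFactorsThroughFiniteLevel_torsion
    (W.map (Int.castRingHom ℚ)) (lam ^ n) hk
  obtain ⟨L₃, hL₃, h₃⟩ := exists_level_rootsOfUnity (lam ^ n) hk
  have hfd : FiniteDimensional ℚ ↥(L₁ ⊔ L₂ ⊔ L₃) := by
    have : FiniteDimensional ℚ ↥(L₁ ⊔ L₂) := IntermediateField.finiteDimensional_sup L₁ L₂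
    exact IntermediateField.finiteDimensional_sup (L₁ ⊔ L₂) L₃
  -- generator-Chebotarev
  obtain ⟨r, A, τ, j, hr, hrT, hA, hτ, hpow⟩ :=
    Fermat.Agent.Lib.helper74.exists_frobenius_pow_eq (L₁ ⊔ L₂ ⊔ L₃) σ
      (T ∪ insert lam W.Δ.natAbs.primeFactors)
  have hrT' : r ∉ T := fun h => hrT (Finset.mem_union_left _ h)
  have hrlam : r ≠ lam := fun h =>
    hrT (Finset.mem_union_right _ (h ▸ Finset.mem_insert_self _ _))
  have hgood : W.IsGoodPrimeFor r := by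
    intro hdvd
    refine hrT (Finset.mem_union_right _ (Finset.mem_insert_of_mem ?_))
    exact Nat.mem_primeFactors.mpr ⟨hr, Int.natCast_dvd.mp hdvd, Int.natAbs_ne_zero.mpr hΔ⟩
  have hcop : Nat.Coprime (lam ^ n) r :=
    Nat.Coprime.pow_left n ((Nat.coprime_primes hlam hr).mpr (Ne.symm hrlam))
  have : Fact r.Prime := ⟨hr⟩
  -- `g = σ⁻¹ τ ^ j` fixes the three levels
  have hg : ∀ x ∈ L₁ ⊔ L₂ ⊔ L₃, (σ⁻¹ * τ ^ j) x = x := by
    intro x hx
    rw [AlgEquiv.mul_apply, hpow x hx, ← AlgEquiv.mul_apply, inv_mul_cancel, AlgEquiv.one_apply]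
  have hg₁ : ∀ x ∈ L₁, (σ⁻¹ * τ ^ j) x = x := fun x hx =>
    hg x ((le_sup_left : L₁ ≤ L₁ ⊔ L₂).trans le_sup_left hx)
  have hg₂ : ∀ x ∈ L₂, (σ⁻¹ * τ ^ j) x = x := fun x hx =>
    hg x ((le_sup_right : L₂ ≤ L₁ ⊔ L₂).trans le_sup_left hx)
  have hτσ : τ ^ j = σ * (σ⁻¹ * τ ^ j) := by rw [mul_inv_cancel_left]
  -- the representation side
  have hcp := hFC r hr hrT' A hA τ hτ
  have hcp' : LinearMap.charpoly (ρ.ρ τ) =
      X ^ 2 - C (((W.apOfModel r : ℤ) : O)) * X + C ((((r : ℕ) : ℤ) : O)) := by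
    rw [hcp, Int.cast_natCast]
  have htr : LinearMap.trace O ρ.V (ρ.ρ (τ ^ j)) =
      ((helper8967.lucasTr (W.apOfModel r) (r : ℤ) j : ℤ) : O) := by
    rw [map_pow]
    exact trace_pow_of_charpoly ρ.finrank_eq (ρ.ρ τ) _ _ hcp' j
  have hdet : LinearMap.det (ρ.ρ (τ ^ j)) = ((r ^ j : ℕ) : O) := by
    rw [map_pow, det_pow_of_charpoly ρ.finrank_eq (ρ.ρ τ) _ _ hcp j, Nat.cast_pow]
  have hcong : ∀ v : ρ.V, ρ.ρ σ v - ρ.ρ (τ ^ j) v ∈
      (IsLocalRing.maximalIdeal O ^ m) • (⊤ : Submodule O ρ.V) := by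
    intro v
    have h1 := h₁ (σ⁻¹ * τ ^ j) hg₁ v
    have h2 := map_mem_smul_top (IsLocalRing.maximalIdeal O ^ m) (ρ.ρ σ) h1
    have h3 : ρ.ρ σ v - ρ.ρ (τ ^ j) v = -(ρ.ρ σ (ρ.ρ (σ⁻¹ * τ ^ j) v - v)) := by
      conv_lhs => rw [hτσ, map_mul]
      rw [Module.End.mul_apply, map_sub]
      abel
    rw [h3]
    exact Submodule.neg_mem _ h2
  -- the torsion side
  have hgP : ∀ P : Tors W (lam ^ n), (τ ^ j) • P = σ • P := by
    intro P
    have h1 := h₂ (σ⁻¹ * τ ^ j) hg₂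
    have h2 : (σ⁻¹ * τ ^ j) • P = P := LinearMap.congr_fun h1 P
    rw [hτσ, mul_smul, h2]
  have hrelτ : helper8967.Rel τ (W.apOfModel r) (r : ℤ) (Tors W (lam ^ n)) := by
    intro P
    exact helper5765.frob_relation_of_frobCH W r hgood
      (fun K _ _ _ _ => Fermat.Agent.Lib.helper1844.frobCH_all r W hgood K) A hA τ hτ
      (lam ^ n) hcop P
  have hrelpow := helper8967.smul_pow_relation τ (W.apOfModel r) (r : ℤ) hrelτ j
  -- the roots of unity
  have hζτ : ∀ ζ : Qb, ζ ^ (lam ^ n) = 1 → τ ζ = ζ ^ r := fun ζ hζ =>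
    helper5765.isFrobeniusAt_apply_of_pow_eq_one A hA τ r hτ (lam ^ n) hk hcop ζ hζ
  refine ⟨helper8967.lucasTr (W.apOfModel r) (r : ℤ) j, r ^ j, ?_, ?_, ?_, ?_⟩
  · rw [← htr]
    exact trace_sub_mem ρ.finrank_eq _ _ _ hcong
  · rw [← hdet]
    exact det_sub_mem ρ.finrank_eq _ _ _ hcong
  · intro P
    have h1 := hrelpow P
    rw [hgP P, hgP (σ • P)] at h1
    have e : ((r ^ j : ℕ) : ℤ) = (r : ℤ) ^ j := Nat.cast_pow r j
    rw [e]
    exact h1
  · intro ζ hζ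
    have h1 := pow_apply_of_pow_eq_one τ r (lam ^ n) hζτ j ζ hζ
    rw [← h1, ← hpow ζ (le_sup_right (a := L₁ ⊔ L₂) (h₃ ζ hζ))]

end Fermat.Agent.S58.helper7532
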