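/-
S58 / FROB-F2 (helper7631): Frobenius Cayley–Hamilton over the prime field `ZMod 2`, by exhaustion.

For every Weierstrass curve `W` over `ZMod 2` with `W.Δ ≠ 0`, every field `K` over `ZMod 2` and every
point `P ∈ W(K)`:   `Fr (Fr P) - a • Fr P + 2 • P = 0`,   `a = W.traceOfFrobenius = 3 - #W(𝔽₂)`.

No heights, no function field of the curve, no Manin count.  There are 16 nonsingular Weierstrass
equations over `𝔽₂`; variable changes with `u = 1` bring each of them to one of five normal forms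

  `N0 : y² + y = x³`            (a = 0)      `N3 : y² + xy = x³ + x² + 1`   (a = 1)
  `N1 : y² + y = x³ + x + 1`    (a = 2)      `N4 : y² + xy = x³ + 1`        (a = -1)
  `N2 : y² + y = x³ + x`        (a = -2)

For each normal form the relation is checked at every point whose `x`-coordinate is not `0`, `1`
(explicit chord/tangent computations, closed by `linear_combination` with `(2 : L) = 0` and the
curve equation); the landed generic-point kit `S52/helper586_Generic` then gives all points over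
every field, and `S52/helper3731_FrobAdapter` transports the relation along the variable changes.
-/
import Mathlib
import Fermat.Prelude.Def_FLTPrelim_Modularity
import Fermat.Agent.S52.helper586_Generic
import Fermat.Agent.S52.helper3731_FrobAdapter

set_option autoImplicit false

open WeierstrassCurve WeierstrassCurve.Affine

namespace Fermat.Agent.S58.helper7631

/-! ### Coordinate identities in characteristic 2 -/

section Core

set_option linter.unusedSimpArgs false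

variable {L : Type*} [Field L]

/-- `N0 : y² + y = x³`: the tangent at `P = (x, y)` meets the curve again at `φ²P`,
i.e. `2P = -φ²P`. -/
lemma core0 (E : Affine L) (ha1 : E.a₁ = 0) (ha2 : E.a₂ = 0) (ha3 : E.a₃ = 1) (ha4 : E.a₄ = 0)
    (ha6 : E.a₆ = 0) (h2 : (2 : L) = 0) {x y n : L} (hE : E.Equation x y)
    (hn0 : n * (y - E.negY x y) = 3 * x ^ 2 + 2 * E.a₂ * x + E.a₄ - E.a₁ * y) :
    E.addX x x n = x ^ 4 ∧ E.addY x x y n = E.negY (x ^ 4) (y ^ 4) := by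
  rw [Affine.equation_iff] at hE
  simp only [Affine.addX, Affine.addY, Affine.negAddY, Affine.negY, ha1, ha2, ha3, ha4, ha6]
    at hE hn0 ⊢
  have hn : n = x ^ 2 := by linear_combination hn0 + (x ^ 2 - y * n) * h2
  constructor
  · linear_combination (x^2 + n) * hn + (-x) * h2
  · linear_combination (x^4 + x^2*n + x + n^2) * hn + (x^3 + y^2 + y + 1) * hE
      + (x^6 + x^3 + x*n - y^3 - y^2 - y - n^3) * h2

/-- `N2 : y² + y = x³ + x`: `R = φP + P = (x + 1, x + y)` and `2R = -φ²P`. -/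
lemma core2 (E : Affine L) (ha1 : E.a₁ = 0) (ha2 : E.a₂ = 0) (ha3 : E.a₃ = 1) (ha4 : E.a₄ = 1)
    (ha6 : E.a₆ = 0) (h2 : (2 : L) = 0) {x y l n : L} (hE : E.Equation x y) (hx1 : x ^ 2 ≠ x)
    (hl0 : l * (x ^ 2 - x) = y ^ 2 - y)
    (hn0 : n * (E.addY (x ^ 2) x (y ^ 2) l
        - E.negY (E.addX (x ^ 2) x l) (E.addY (x ^ 2) x (y ^ 2) l))
      = 3 * E.addX (x ^ 2) x l ^ 2 + 2 * E.a₂ * E.addX (x ^ 2) x l + E.a₄
        - E.a₁ * E.addY (x ^ 2) x (y ^ 2) l) :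
    E.addX (E.addX (x ^ 2) x l) (E.addX (x ^ 2) x l) n = x ^ 4 ∧
      E.addY (E.addX (x ^ 2) x l) (E.addX (x ^ 2) x l) (E.addY (x ^ 2) x (y ^ 2) l) n
        = E.negY (x ^ 4) (y ^ 4) := by
  rw [Affine.equation_iff] at hE
  simp only [Affine.negY, ha1, ha2, ha3, ha4, ha6] at hE hl0
  have hd : x ^ 2 - x ≠ 0 := sub_ne_zero.mpr hx1
  have hl : l = x + 1 := by
    have key : (l - (x + 1)) * (x ^ 2 - x) = 0 := by
      linear_combination hl0 + (1) * hE + (x - y) * h2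
    exact sub_eq_zero.mp ((mul_eq_zero.mp key).resolve_right hd)
  subst hl
  simp only [Affine.addX, Affine.addY, Affine.negAddY, Affine.negY, ha1, ha2, ha3, ha4, ha6]
    at hn0 ⊢
  have hn : n = x ^ 2 := by
    linear_combination hn0 + (-x^3*n + x^2 + 2*x*n + 3*x + y^2*n + 2*n + 2) * h2
  constructor
  · linear_combination (x^2 + n) * hn + (-x - 1) * h2
  · linear_combination (x^4 + x^2*n + x + n^2 + 1) * hn + (x^3 + x + y^2 + y) * hE + (x^6 + x^4 +
      x^2 + x*n + x - y^3 - n^3 + n + 1) * h2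

/-- `N1 : y² + y = x³ + x + 1`: `R = φP - P = (x + 1, x + y + 1)` and `2R = φ²P`. -/
lemma core1 (E : Affine L) (ha1 : E.a₁ = 0) (ha2 : E.a₂ = 0) (ha3 : E.a₃ = 1) (ha4 : E.a₄ = 1)
    (ha6 : E.a₆ = 1) (h2 : (2 : L) = 0) {x y l n : L} (hE : E.Equation x y) (hx1 : x ^ 2 ≠ x)
    (hl0 : l * (x ^ 2 - x) = y ^ 2 - E.negY x y)
    (hn0 : n * (E.addY (x ^ 2) x (y ^ 2) l
        - E.negY (E.addX (x ^ 2) x l) (E.addY (x ^ 2) x (y ^ 2) l))
      = 3 * E.addX (x ^ 2) x l ^ 2 + 2 * E.a₂ * E.addX (x ^ 2) x l + E.a₄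
        - E.a₁ * E.addY (x ^ 2) x (y ^ 2) l) :
    E.addX (E.addX (x ^ 2) x l) (E.addX (x ^ 2) x l) n = x ^ 4 ∧
      E.addY (E.addX (x ^ 2) x l) (E.addX (x ^ 2) x l) (E.addY (x ^ 2) x (y ^ 2) l) n
        = y ^ 4 := by
  rw [Affine.equation_iff] at hE
  simp only [Affine.negY, ha1, ha2, ha3, ha4, ha6] at hE hl0
  have hd : x ^ 2 - x ≠ 0 := sub_ne_zero.mpr hx1
  have hl : l = x + 1 := by
    have key : (l - (x + 1)) * (x ^ 2 - x) = 0 := by
      linear_combination hl0 + (1) * hE + (x + 1) * h2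
    exact sub_eq_zero.mp ((mul_eq_zero.mp key).resolve_right hd)
  subst hl
  simp only [Affine.addX, Affine.addY, Affine.negAddY, Affine.negY, ha1, ha2, ha3, ha4, ha6]
    at hn0 ⊢
  have hn : n = x ^ 2 := by
    linear_combination hn0 + (-x^3*n + x^2 + 2*x*n + 3*x + y^2*n + 2*n + 2) * h2
  constructor
  · linear_combination (x^2 + n) * hn + (-x - 1) * h2
  · linear_combination (x^4 + x^2*n + x + n^2 + 1) * hn + (x^3 + x + y^2 + y + 1) * hE + (x^6 + x^4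
      + x^3 + x^2 + x*n + 2*x - y^4 - y^3 - n^3 + n + 1) * h2

/-- `N3 : y² + xy = x³ + x² + 1`: with `Q = φP - P`, `φQ = -2P`. -/
lemma core3 (E : Affine L) (ha1 : E.a₁ = 1) (ha2 : E.a₂ = 1) (ha3 : E.a₃ = 0) (ha4 : E.a₄ = 0)
    (ha6 : E.a₆ = 1) (h2 : (2 : L) = 0) {x y l m : L} (hE : E.Equation x y) (hx0 : x ≠ 0)
    (hx1 : x ≠ 1)
    (hl0 : l * (x ^ 2 - x) = y ^ 2 - E.negY x y)
    (hm0 : m * (y - E.negY x y) = 3 * x ^ 2 + 2 * E.a₂ * x + E.a₄ - E.a₁ * y) :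
    E.addX (x ^ 2) x l ^ 2 = E.addX x x m ∧
      E.addY (x ^ 2) x (y ^ 2) l ^ 2 = E.negY (E.addX x x m) (E.addY x x y m) := by
  rw [Affine.equation_iff] at hE
  simp only [Affine.negY, ha1, ha2, ha3, ha4, ha6] at hE hl0 hm0
  have hl : l * x = x^2 + y + 1 := by
    have key : (l * x - (x^2 + y + 1)) * (x - 1) = 0 := by
      linear_combination hl0 + (1) * hE + (x^2 - x*y + y + 1) * h2
    exact sub_eq_zero.mp ((mul_eq_zero.mp key).resolve_right (sub_ne_zero.mpr hx1))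
  have hm : m * x = x^2 + y := by
    linear_combination hm0 + (x^2 + x - y*m - y) * h2
  constructor
  · have key : (E.addX (x ^ 2) x l ^ 2 - E.addX x x m) * x ^ 6 = 0 := by
      simp only [Affine.addX, Affine.addY, Affine.negAddY, Affine.negY, ha1, ha2, ha3, ha4, ha6]
      linear_combination (x^8 + x^7*l + x^6*y + x^6*l^2 + x^5*l^3 + x^5*l + x^4*y^2 + x^4*y*l^2 +
        x^4*y + x^4*l^2 + x^3*y^2*l + x^3*l + x^2*y^3 + x^2*y^2 + x^2*y + x^2) * hl + (x^6 +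
        x^5*m + x^5 + x^4*y) * hm + (x^5 + x^3*y + x^2*y^2 + x^2) * hE + (x^10 + x^9 + x^8*y -
        x^8*l^2 - x^8*l + 3*x^8 - x^7*l^2 + 3*x^7 + x^6*y^2 + x^6*y*l^2 + 2*x^6*y + x^6*l^3 -
        x^6*l - x^6*m^2 - x^6*m + x^6 + x^5*y + x^5*l + x^5 + x^4*y^3 + 2*x^4*y^2 + x^4*y*l^2 +
        x^4*y + x^4 - x^3*y^3 + x^2*y^3 + x^2*y^2 + x^2*y + x^2) * h2
    exact sub_eq_zero.mp ((mul_eq_zero.mp key).resolve_right (pow_ne_zero _ hx0))
  · have key : (E.addY (x ^ 2) x (y ^ 2) l ^ 2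
        - E.negY (E.addX x x m) (E.addY x x y m)) * x ^ 9 = 0 := by
      simp only [Affine.addX, Affine.addY, Affine.negAddY, Affine.negY, ha1, ha2, ha3, ha4, ha6]
      linear_combination (x^13 + x^12*l + x^11*y + x^11*l^2 + x^10*l^3 + x^10*l + x^9*y*l^2 + x^9*y +
        x^9*l^4 + x^9*l^2 + x^9 + x^8*l^5 + x^7*y^2*l^2 + x^7*y*l^4 + x^7*l^4 + x^7*l^2 +
        x^6*y^2*l^3 + x^6*l^3 + x^5*y^4 + x^5*y^3*l^2 + x^5*y^2*l^2 + x^5*y*l^2 + x^5*l^2 + x^5
        + x^4*y^4*l + x^4*l + x^3*y^5 + x^3*y^4 + x^3*y + x^3) * hl + (x^10 + x^9*m + x^8*m^2 +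
        x^8*m + x^8 + x^7*y*m + x^7*y + x^6*y^2) * hm + (x^12 + x^11 + x^10*y + x^10 + x^9*y^2 +
        x^9 + x^8*y + x^7*y^2 + x^6*y^2 + x^6 + x^5 + x^4*y^3 + x^4*y + x^3*y^4 + x^3) * hE +
        (x^15 + x^14 + x^13*y + 2*x^13*l^2 + 2*x^13*l + 2*x^13 + 2*x^12*l^2 + 4*x^12*l + 3*x^12
        - 2*x^11*y^2*l - x^11*y^2 + x^11*y*l^2 + x^11*y - 2*x^11*l^4 - 5*x^11*l^3 - x^11*l^2 +
        3*x^11*l + 3*x^11 - x^10*y^3 - x^10*y^2*l - x^10*y^2 + x^10*y - x^10*l^4 - 3*x^10*l^3 -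
        2*x^10*l^2 + x^10*l + 2*x^10*m + 2*x^10 + x^9*y^2*l^3 + 3*x^9*y^2*l^2 + x^9*y*l^4 +
        x^9*y*l^2 + x^9*y*m + x^9*y + 2*x^9*l^5 + 3*x^9*l^4 - x^9*l^3 - x^9*l^2 - x^9*m^3 -
        x^9*m^2 + 2*x^9 - x^8*y^3 + x^8*y^2 + x^8*y + x^8 + x^7*y^3*l^2 + x^7*y^2*l^2 + x^7*y^2
        + x^7*y*l^4 + x^7*y*l^2 + x^7*l^2 + x^7 + x^6*y^3 + x^6 + x^5*y^5 + x^5*y^4 +
        x^5*y^3*l^2 + x^5*y^2*l^2 - x^5*y^2 + x^5*y*l^2 + x^5*y + 2*x^5 - x^4*y^5 + x^3*y^5 +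
        x^3*y^4 + x^3*y + x^3) * h2
    exact sub_eq_zero.mp ((mul_eq_zero.mp key).resolve_right (pow_ne_zero _ hx0))

/-- `N4 : y² + xy = x³ + 1`: with `Q = φP + P`, `φQ = -2P`. -/
lemma core4 (E : Affine L) (ha1 : E.a₁ = 1) (ha2 : E.a₂ = 0) (ha3 : E.a₃ = 0) (ha4 : E.a₄ = 0)
    (ha6 : E.a₆ = 1) (h2 : (2 : L) = 0) {x y l m : L} (hE : E.Equation x y) (hx0 : x ≠ 0)
    (hx1 : x ≠ 1)
    (hl0 : l * (x ^ 2 - x) = y ^ 2 - y)
    (hm0 : m * (y - E.negY x y) = 3 * x ^ 2 + 2 * E.a₂ * x + E.a₄ - E.a₁ * y) :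
    E.addX (x ^ 2) x l ^ 2 = E.addX x x m ∧
      E.addY (x ^ 2) x (y ^ 2) l ^ 2 = E.negY (E.addX x x m) (E.addY x x y m) := by
  rw [Affine.equation_iff] at hE
  simp only [Affine.negY, ha1, ha2, ha3, ha4, ha6] at hE hl0 hm0
  have hl : l * x = x^2 + x + y + 1 := by
    have key : (l * x - (x^2 + x + y + 1)) * (x - 1) = 0 := by
      linear_combination hl0 + (1) * hE + (-x*y + 1) * h2
    exact sub_eq_zero.mp ((mul_eq_zero.mp key).resolve_right (sub_ne_zero.mpr hx1))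
  have hm : m * x = x^2 + y := by
    linear_combination hm0 + (x^2 - y*m - y) * h2
  constructor
  · have key : (E.addX (x ^ 2) x l ^ 2 - E.addX x x m) * x ^ 6 = 0 := by
      simp only [Affine.addX, Affine.addY, Affine.negAddY, Affine.negY, ha1, ha2, ha3, ha4, ha6]
      linear_combination (x^8 + x^7*l + x^7 + x^6*y + x^6*l^2 + x^6 + x^5*l^3 + x^5*l^2 + x^4*y^2 +
        x^4*y*l^2 + x^4*l^2 + x^4 + x^3*y^2*l + x^3*y^2 + x^3*l + x^3 + x^2*y^3 + x^2*y^2 +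
        x^2*y + x^2) * hl + (x^6 + x^5*m + x^5 + x^4*y) * hm + (x^5 + x^4 + x^3*y + x^2*y^2 +
        x^2) * hE + (x^10 + 2*x^9 + x^8*y - x^8*l^2 - x^8*l + 3*x^8 + x^7*y - x^7*l + 3*x^7 +
        x^6*y^2 + x^6*y*l^2 + 2*x^6*y + x^6*l^3 + 2*x^6*l^2 - x^6*m^2 - x^6*m + x^6 + x^5*y^2 +
        x^5*y*l^2 + x^5*l^2 + 2*x^5 + x^4*y^3 + x^4*y^2 + x^4*y*l^2 + x^4*y + 2*x^4 + x^3*y^2 +
        x^3*y + x^3 + x^2*y^3 + x^2*y^2 + x^2*y + x^2) * h2
    exact sub_eq_zero.mp ((mul_eq_zero.mp key).resolve_right (pow_ne_zero _ hx0))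
  · have key : (E.addY (x ^ 2) x (y ^ 2) l ^ 2
        - E.negY (E.addX x x m) (E.addY x x y m)) * x ^ 9 = 0 := by
      simp only [Affine.addX, Affine.addY, Affine.negAddY, Affine.negY, ha1, ha2, ha3, ha4, ha6]
      linear_combination (x^13 + x^12*l + x^12 + x^11*y + x^11*l^2 + x^10*l^3 + x^10*l^2 + x^10*l +
        x^10 + x^9*y*l^2 + x^9*y + x^9*l^4 + x^9 + x^8*l^5 + x^8*l^4 + x^8*l^3 + x^8*l^2 +
        x^7*y^2*l^2 + x^7*y*l^4 + x^7*y*l^2 + x^7*l^4 + x^6*y^2*l^3 + x^6*y^2*l^2 + x^6*l^3 +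
        x^6*l^2 + x^5*y^4 + x^5*y^3*l^2 + x^5*y^2*l^2 + x^5*y*l^2 + x^5*l^2 + x^5 + x^4*y^4*l +
        x^4*y^4 + x^4*l + x^4 + x^3*y^5 + x^3*y^4 + x^3*y + x^3) * hl + (x^10 + x^9*m + x^8*m^2
        + x^8*m + x^7*y*m + x^7*y + x^6*y^2) * hm + (x^12 + x^10*y + x^10 + x^9*y^2 + x^8*y +
        x^8 + x^7*y^2 + x^7 + x^6*y^2 + x^6*y + x^6 + x^5 + x^4*y^3 + x^4*y + x^3*y^4 + x^3) *
        hE + (x^15 + x^14 + x^13*y + 2*x^13*l^2 + 2*x^13*l + 2*x^13 + x^12*y + 3*x^12*l^2 +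
        4*x^12*l + 3*x^12 - 2*x^11*y^2*l - x^11*y^2 + x^11*y*l^2 + x^11*y - 2*x^11*l^4 -
        5*x^11*l^3 - 3*x^11*l^2 + 2*x^11 - x^10*y^3 - x^10*y^2*l - x^10*y^2 + x^10*y*l^2 +
        2*x^10*y - 2*x^10*l^3 - 2*x^10*l^2 - x^10*l + 2*x^10*m + 2*x^10 + x^9*y^2*l^3 +
        3*x^9*y^2*l^2 + x^9*y^2*l + x^9*y^2 + x^9*y*l^4 + x^9*y*l^2 + x^9*y*m + x^9*y +
        2*x^9*l^5 + 4*x^9*l^4 + 2*x^9*l^3 + x^9*l^2 - x^9*m^3 - x^9*m^2 + x^9 - x^8*y^3 +
        x^8*y^2*l^2 + x^8*y*l^4 + x^8*y*l^2 + x^8*l^4 + x^8*l^3 + x^8*l^2 + x^8 + x^7*y^3*l^2 +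
        2*x^7*y^2*l^2 + x^7*y*l^4 + x^7*y*l^2 + x^7*l^2 + x^7 + x^6*y^4 + x^6*y^3*l^2 +
        x^6*y^2*l^2 + x^6*y*l^2 + x^6*l^2 + 2*x^6 + x^5*y^5 + x^5*y^4 + x^5*y^3*l^2 +
        x^5*y^2*l^2 - x^5*y^2 + x^5*y*l^2 + x^5*y + 2*x^5 + x^4*y^4 + x^4*y + x^4 + x^3*y^5 +
        x^3*y^4 + x^3*y + x^3) * h2
    exact sub_eq_zero.mp ((mul_eq_zero.mp key).resolve_right (pow_ne_zero _ hx0))

end Core

/-! ### The five normal forms and the relation at points with `x ≠ 0, 1` -/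

/-- `y² + y = x³` (`3` points, trace `0`). -/
def N0 : WeierstrassCurve (ZMod 2) := ⟨0, 0, 1, 0, 0⟩
/-- `y² + y = x³ + x + 1` (`1` point, trace `2`). -/
def N1 : WeierstrassCurve (ZMod 2) := ⟨0, 0, 1, 1, 1⟩
/-- `y² + y = x³ + x` (`5` points, trace `-2`). -/
def N2 : WeierstrassCurve (ZMod 2) := ⟨0, 0, 1, 1, 0⟩
/-- `y² + xy = x³ + x² + 1` (`2` points, trace `1`). -/
def N3 : WeierstrassCurve (ZMod 2) := ⟨1, 1, 0, 0, 1⟩
/-- `y² + xy = x³ + 1` (`4` points, trace `-1`). -/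
def N4 : WeierstrassCurve (ZMod 2) := ⟨1, 0, 0, 0, 1⟩

section Points

variable {L : Type*} [Field L] [DecidableEq L] [Algebra (ZMod 2) L]

omit [DecidableEq L] in
lemma two_eq_zero_of_algebra : (2 : L) = 0 := by
  have h : (2 : ZMod 2) = 0 := by decide
  calc (2 : L) = algebraMap (ZMod 2) L 2 := (map_ofNat _ 2).symm
    _ = 0 := by rw [h, map_zero]

/-- The Frobenius image of an affine point. -/
lemma frob_some {W : WeierstrassCurve (ZMod 2)} (frob : L →ₐ[ZMod 2] L)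
    (hfrob : ∀ z, frob z = z ^ 2) (x y : L) (h : (W⁄L).Nonsingular x y) :
    ∃ h' : (W⁄L).Nonsingular (x ^ 2) (y ^ 2),
      Point.map (W' := W) frob (Point.some x y h) = Point.some (x ^ 2) (y ^ 2) h' := by
  have key : ∀ a b : L, ∀ hab : (W⁄L).Nonsingular a b, a = x ^ 2 → b = y ^ 2 →
      ∃ h' : (W⁄L).Nonsingular (x ^ 2) (y ^ 2),
        Point.some a b hab = Point.some (x ^ 2) (y ^ 2) h' := by
    rintro a b hab rfl rfl
    exact ⟨hab, rfl⟩
  rw [Point.map_some]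
  exact key _ _ _ (hfrob x) (hfrob y)

omit [DecidableEq L] [Algebra (ZMod 2) L] in
/-- On a supersingular model (`a₁ = 0`, `a₃ = 1`) no point is its own negative. -/
lemma ss_Y_ne (E : Affine L) (ha1 : E.a₁ = 0) (ha3 : E.a₃ = 1) (h2 : (2 : L) = 0) (X Y : L) :
    Y ≠ E.negY X Y := by
  intro hc
  rw [Affine.negY, ha1, ha3] at hc
  have : (1 : L) = 0 := by linear_combination hc - Y * h2
  exact one_ne_zero this

omit [DecidableEq L] [Algebra (ZMod 2) L] in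
/-- On an ordinary model (`a₁ = 1`, `a₃ = 0`) a point with `x ≠ 0` is not its own negative. -/
lemma ord_Y_ne (E : Affine L) (ha1 : E.a₁ = 1) (ha3 : E.a₃ = 0) (h2 : (2 : L) = 0) {X : L}
    (hX : X ≠ 0) (Y : L) : Y ≠ E.negY X Y := by
  intro hc
  rw [Affine.negY, ha1, ha3] at hc
  apply hX
  linear_combination hc - Y * h2

omit [DecidableEq L] [Algebra (ZMod 2) L] in
lemma sq_ne_self {x : L} (hx0 : x ≠ 0) (hx1 : x ≠ 1) : x ^ 2 ≠ x := by
  intro h
  have : x * (x - 1) = 0 := by linear_combination h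
  rcases mul_eq_zero.mp this with h | h
  · exact hx0 h
  · exact hx1 (sub_eq_zero.mp h)

/-- `N0`: the relation holds at every point. -/
theorem rel0 (frob : L →ₐ[ZMod 2] L) (hfrob : ∀ z, frob z = z ^ 2) (x y : L)
    (h : (N0⁄L).Nonsingular x y) :
    Point.map (W' := N0) frob (Point.map (W' := N0) frob (Point.some x y h))
      - (0 : ℤ) • Point.map (W' := N0) frob (Point.some x y h) + (2 : ℤ) • Point.some x y h = 0 := by
  have h2 : (2 : L) = 0 := two_eq_zero_of_algebra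
  have ha1 : (N0⁄L).a₁ = 0 := by simp [N0]
  have ha2 : (N0⁄L).a₂ = 0 := by simp [N0]
  have ha3 : (N0⁄L).a₃ = 1 := by simp [N0]
  have ha4 : (N0⁄L).a₄ = 0 := by simp [N0]
  have ha6 : (N0⁄L).a₆ = 0 := by simp [N0]
  have hy : y ≠ (N0⁄L).negY x y := ss_Y_ne _ ha1 ha3 h2 x y
  obtain ⟨hX, hY⟩ := core0 (N0⁄L) ha1 ha2 ha3 ha4 ha6 h2 h.1 (n := (N0⁄L).slope x x y y)
    (by rw [slope_of_Y_ne rfl hy, div_mul_cancel₀ _ (sub_ne_zero.mpr hy)])
  obtain ⟨hP1, e1⟩ := frob_some (W := N0) frob hfrob x y h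
  obtain ⟨hP2, e2⟩ := frob_some (W := N0) frob hfrob (x ^ 2) (y ^ 2) hP1
  rw [e1, e2, zero_smul, sub_zero, two_smul, Point.add_self_of_Y_ne hy, add_eq_zero_iff_eq_neg,
    Point.neg_some]
  simp only [Point.some.injEq]
  refine ⟨?_, ?_⟩
  · rw [hX]; ring
  · rw [hX, hY, Affine.negY_negY]; ring

/-- `N2 : y² + y = x³ + x` (trace `-2`): the relation at points with `x² ≠ x`. -/
theorem rel2 (frob : L →ₐ[ZMod 2] L) (hfrob : ∀ z, frob z = z ^ 2) (x y : L)
    (h : (N2⁄L).Nonsingular x y) (hx1 : x ^ 2 ≠ x) :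
    Point.map (W' := N2) frob (Point.map (W' := N2) frob (Point.some x y h))
      - (-2 : ℤ) • Point.map (W' := N2) frob (Point.some x y h) + (2 : ℤ) • Point.some x y h = 0 := by
  have h2 : (2 : L) = 0 := two_eq_zero_of_algebra
  have ha1 : (N2⁄L).a₁ = 0 := by simp [N2]
  have ha2 : (N2⁄L).a₂ = 0 := by simp [N2]
  have ha3 : (N2⁄L).a₃ = 1 := by simp [N2]
  have ha4 : (N2⁄L).a₄ = 1 := by simp [N2]
  have ha6 : (N2⁄L).a₆ = 0 := by simp [N2]
  obtain ⟨hP1, e1⟩ := frob_some (W := N2) frob hfrob x y h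
  obtain ⟨hP2, e2⟩ := frob_some (W := N2) frob hfrob (x ^ 2) (y ^ 2) hP1
  rw [e1, e2]
  set l := (N2⁄L).slope (x ^ 2) x (y ^ 2) y with hl
  have hR : Point.some (x ^ 2) (y ^ 2) hP1 + Point.some x y h
      = Point.some ((N2⁄L).addX (x ^ 2) x l) ((N2⁄L).addY (x ^ 2) x (y ^ 2) l)
        (nonsingular_add hP1 h fun hxy => hx1 hxy.1) := Point.add_of_X_ne hx1
  have hyR := ss_Y_ne (N2⁄L) ha1 ha3 h2 ((N2⁄L).addX (x ^ 2) x l) ((N2⁄L).addY (x ^ 2) x (y ^ 2) l)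
  obtain ⟨hX, hY⟩ := core2 (N2⁄L) ha1 ha2 ha3 ha4 ha6 h2 h.1 hx1 (l := l)
    (n := (N2⁄L).slope ((N2⁄L).addX (x ^ 2) x l) ((N2⁄L).addX (x ^ 2) x l)
      ((N2⁄L).addY (x ^ 2) x (y ^ 2) l) ((N2⁄L).addY (x ^ 2) x (y ^ 2) l))
    (by rw [hl, slope_of_X_ne hx1, div_mul_cancel₀ _ (sub_ne_zero.mpr hx1)])
    (by rw [slope_of_Y_ne rfl hyR, div_mul_cancel₀ _ (sub_ne_zero.mpr hyR)])
  have hgoal : Point.some ((x ^ 2) ^ 2) ((y ^ 2) ^ 2) hP2
      - (-2 : ℤ) • Point.some (x ^ 2) (y ^ 2) hP1 + (2 : ℤ) • Point.some x y h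
      = Point.some ((x ^ 2) ^ 2) ((y ^ 2) ^ 2) hP2
        + ((Point.some (x ^ 2) (y ^ 2) hP1 + Point.some x y h)
          + (Point.some (x ^ 2) (y ^ 2) hP1 + Point.some x y h)) := by
    abel
  rw [hgoal, hR, Point.add_self_of_Y_ne hyR, add_eq_zero_iff_eq_neg, Point.neg_some]
  simp only [Point.some.injEq]
  refine ⟨?_, ?_⟩
  · rw [hX]; ring
  · rw [hX, hY, Affine.negY_negY]; ring

/-- `N1 : y² + y = x³ + x + 1` (trace `2`): the relation at points with `x² ≠ x`. -/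
theorem rel1 (frob : L →ₐ[ZMod 2] L) (hfrob : ∀ z, frob z = z ^ 2) (x y : L)
    (h : (N1⁄L).Nonsingular x y) (hx1 : x ^ 2 ≠ x) :
    Point.map (W' := N1) frob (Point.map (W' := N1) frob (Point.some x y h))
      - (2 : ℤ) • Point.map (W' := N1) frob (Point.some x y h) + (2 : ℤ) • Point.some x y h = 0 := by
  have h2 : (2 : L) = 0 := two_eq_zero_of_algebra
  have ha1 : (N1⁄L).a₁ = 0 := by simp [N1]
  have ha2 : (N1⁄L).a₂ = 0 := by simp [N1]
  have ha3 : (N1⁄L).a₃ = 1 := by simp [N1]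
  have ha4 : (N1⁄L).a₄ = 1 := by simp [N1]
  have ha6 : (N1⁄L).a₆ = 1 := by simp [N1]
  obtain ⟨hP1, e1⟩ := frob_some (W := N1) frob hfrob x y h
  obtain ⟨hP2, e2⟩ := frob_some (W := N1) frob hfrob (x ^ 2) (y ^ 2) hP1
  rw [e1, e2]
  set l := (N1⁄L).slope (x ^ 2) x (y ^ 2) ((N1⁄L).negY x y) with hl
  have hR : Point.some (x ^ 2) (y ^ 2) hP1 - Point.some x y h
      = Point.some ((N1⁄L).addX (x ^ 2) x l) ((N1⁄L).addY (x ^ 2) x (y ^ 2) l)
        (nonsingular_add hP1 ((nonsingular_neg x y).mpr h) fun hxy => hx1 hxy.1) := by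
    rw [sub_eq_add_neg, Point.neg_some, Point.add_of_X_ne hx1]
  have hyR := ss_Y_ne (N1⁄L) ha1 ha3 h2 ((N1⁄L).addX (x ^ 2) x l) ((N1⁄L).addY (x ^ 2) x (y ^ 2) l)
  obtain ⟨hX, hY⟩ := core1 (N1⁄L) ha1 ha2 ha3 ha4 ha6 h2 h.1 hx1 (l := l)
    (n := (N1⁄L).slope ((N1⁄L).addX (x ^ 2) x l) ((N1⁄L).addX (x ^ 2) x l)
      ((N1⁄L).addY (x ^ 2) x (y ^ 2) l) ((N1⁄L).addY (x ^ 2) x (y ^ 2) l))
    (by rw [hl, slope_of_X_ne hx1, div_mul_cancel₀ _ (sub_ne_zero.mpr hx1)])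
    (by rw [slope_of_Y_ne rfl hyR, div_mul_cancel₀ _ (sub_ne_zero.mpr hyR)])
  have hgoal : Point.some ((x ^ 2) ^ 2) ((y ^ 2) ^ 2) hP2
      - (2 : ℤ) • Point.some (x ^ 2) (y ^ 2) hP1 + (2 : ℤ) • Point.some x y h
      = Point.some ((x ^ 2) ^ 2) ((y ^ 2) ^ 2) hP2
        - ((Point.some (x ^ 2) (y ^ 2) hP1 - Point.some x y h)
          + (Point.some (x ^ 2) (y ^ 2) hP1 - Point.some x y h)) := by
    abel
  rw [hgoal, hR, Point.add_self_of_Y_ne hyR, sub_eq_zero]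
  simp only [Point.some.injEq]
  refine ⟨?_, ?_⟩
  · rw [hX]; ring
  · rw [hY]; ring

/-- `N3 : y² + xy = x³ + x² + 1` (trace `1`): the relation at points with `x ≠ 0, 1`. -/
theorem rel3 (frob : L →ₐ[ZMod 2] L) (hfrob : ∀ z, frob z = z ^ 2) (x y : L)
    (h : (N3⁄L).Nonsingular x y) (hx0 : x ≠ 0) (hx1 : x ≠ 1) :
    Point.map (W' := N3) frob (Point.map (W' := N3) frob (Point.some x y h))
      - (1 : ℤ) • Point.map (W' := N3) frob (Point.some x y h) + (2 : ℤ) • Point.some x y h = 0 := by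
  have h2 : (2 : L) = 0 := two_eq_zero_of_algebra
  have ha1 : (N3⁄L).a₁ = 1 := by simp [N3]
  have ha2 : (N3⁄L).a₂ = 1 := by simp [N3]
  have ha3 : (N3⁄L).a₃ = 0 := by simp [N3]
  have ha4 : (N3⁄L).a₄ = 0 := by simp [N3]
  have ha6 : (N3⁄L).a₆ = 1 := by simp [N3]
  have hxx : x ^ 2 ≠ x := sq_ne_self hx0 hx1
  have hy : y ≠ (N3⁄L).negY x y := ord_Y_ne _ ha1 ha3 h2 hx0 y
  obtain ⟨hP1, e1⟩ := frob_some (W := N3) frob hfrob x y h
  set l := (N3⁄L).slope (x ^ 2) x (y ^ 2) ((N3⁄L).negY x y) with hl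
  have hQ : Point.map (W' := N3) frob (Point.some x y h) - Point.some x y h
      = Point.some ((N3⁄L).addX (x ^ 2) x l) ((N3⁄L).addY (x ^ 2) x (y ^ 2) l)
        (nonsingular_add hP1 ((nonsingular_neg x y).mpr h) fun hxy => hxx hxy.1) := by
    rw [e1, sub_eq_add_neg, Point.neg_some, Point.add_of_X_ne hxx]
  obtain ⟨hX, hY⟩ := core3 (N3⁄L) ha1 ha2 ha3 ha4 ha6 h2 h.1 hx0 hx1 (l := l)
    (m := (N3⁄L).slope x x y y)
    (by rw [hl, slope_of_X_ne hxx, div_mul_cancel₀ _ (sub_ne_zero.mpr hxx)])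
    (by rw [slope_of_Y_ne rfl hy, div_mul_cancel₀ _ (sub_ne_zero.mpr hy)])
  have key : Point.map (W' := N3) frob
      (Point.map (W' := N3) frob (Point.some x y h) - Point.some x y h)
      = -(Point.some x y h + Point.some x y h) := by
    rw [hQ]
    obtain ⟨hP3, e3⟩ := frob_some (W := N3) frob hfrob _ _
      (nonsingular_add hP1 ((nonsingular_neg x y).mpr h) fun hxy => hxx hxy.1)
    rw [e3, Point.add_self_of_Y_ne hy, Point.neg_some]
    simp only [Point.some.injEq]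
    exact ⟨hX, hY⟩
  rw [map_sub] at key
  have hgoal : Point.map (W' := N3) frob (Point.map (W' := N3) frob (Point.some x y h))
      - (1 : ℤ) • Point.map (W' := N3) frob (Point.some x y h) + (2 : ℤ) • Point.some x y h
      = (Point.map (W' := N3) frob (Point.map (W' := N3) frob (Point.some x y h))
          - Point.map (W' := N3) frob (Point.some x y h))
        + (Point.some x y h + Point.some x y h) := by
    abel
  rw [hgoal, key, neg_add_cancel]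

/-- `N4 : y² + xy = x³ + 1` (trace `-1`): the relation at points with `x ≠ 0, 1`. -/
theorem rel4 (frob : L →ₐ[ZMod 2] L) (hfrob : ∀ z, frob z = z ^ 2) (x y : L)
    (h : (N4⁄L).Nonsingular x y) (hx0 : x ≠ 0) (hx1 : x ≠ 1) :
    Point.map (W' := N4) frob (Point.map (W' := N4) frob (Point.some x y h))
      - (-1 : ℤ) • Point.map (W' := N4) frob (Point.some x y h) + (2 : ℤ) • Point.some x y h = 0 := by
  have h2 : (2 : L) = 0 := two_eq_zero_of_algebra
  have ha1 : (N4⁄L).a₁ = 1 := by simp [N4]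
  have ha2 : (N4⁄L).a₂ = 0 := by simp [N4]
  have ha3 : (N4⁄L).a₃ = 0 := by simp [N4]
  have ha4 : (N4⁄L).a₄ = 0 := by simp [N4]
  have ha6 : (N4⁄L).a₆ = 1 := by simp [N4]
  have hxx : x ^ 2 ≠ x := sq_ne_self hx0 hx1
  have hy : y ≠ (N4⁄L).negY x y := ord_Y_ne _ ha1 ha3 h2 hx0 y
  obtain ⟨hP1, e1⟩ := frob_some (W := N4) frob hfrob x y h
  set l := (N4⁄L).slope (x ^ 2) x (y ^ 2) y with hl
  have hQ : Point.map (W' := N4) frob (Point.some x y h) + Point.some x y h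
      = Point.some ((N4⁄L).addX (x ^ 2) x l) ((N4⁄L).addY (x ^ 2) x (y ^ 2) l)
        (nonsingular_add hP1 h fun hxy => hxx hxy.1) := by
    rw [e1, Point.add_of_X_ne hxx]
  obtain ⟨hX, hY⟩ := core4 (N4⁄L) ha1 ha2 ha3 ha4 ha6 h2 h.1 hx0 hx1 (l := l)
    (m := (N4⁄L).slope x x y y)
    (by rw [hl, slope_of_X_ne hxx, div_mul_cancel₀ _ (sub_ne_zero.mpr hxx)])
    (by rw [slope_of_Y_ne rfl hy, div_mul_cancel₀ _ (sub_ne_zero.mpr hy)])
  have key : Point.map (W' := N4) frob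
      (Point.map (W' := N4) frob (Point.some x y h) + Point.some x y h)
      = -(Point.some x y h + Point.some x y h) := by
    rw [hQ]
    obtain ⟨hP3, e3⟩ := frob_some (W := N4) frob hfrob _ _
      (nonsingular_add hP1 h fun hxy => hxx hxy.1)
    rw [e3, Point.add_self_of_Y_ne hy, Point.neg_some]
    simp only [Point.some.injEq]
    exact ⟨hX, hY⟩
  rw [map_add] at key
  have hgoal : Point.map (W' := N4) frob (Point.map (W' := N4) frob (Point.some x y h))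
      - (-1 : ℤ) • Point.map (W' := N4) frob (Point.some x y h) + (2 : ℤ) • Point.some x y h
      = (Point.map (W' := N4) frob (Point.map (W' := N4) frob (Point.some x y h))
          + Point.map (W' := N4) frob (Point.some x y h))
        + (Point.some x y h + Point.some x y h) := by
    abel
  rw [hgoal, key, neg_add_cancel]

end Points

/-! ### From points with `x ≠ 0, 1` to all points (generic-point principle) -/

section AllPoints

open Fermat.Agent.S52.helper586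

universe v

/-- If the relation `φ² - a φ + 2 = 0` holds on a curve `N` over `ZMod 2` at every point with
`x ≠ 0, 1` (over every field), then it holds at every point. -/
theorem all_of_generic (N : WeierstrassCurve (ZMod 2)) (hΔ : N.Δ ≠ 0) (a : ℤ)
    (hgen : ∀ (L : Type v) [Field L] [DecidableEq L] [Algebra (ZMod 2) L]
      (frob : L →ₐ[ZMod 2] L) (_ : ∀ z, frob z = z ^ 2) (x y : L) (h : (N⁄L).Nonsingular x y),
      x ≠ 0 → x ≠ 1 →
      Point.map (W' := N) frob (Point.map (W' := N) frob (Point.some x y h))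
        - a • Point.map (W' := N) frob (Point.some x y h) + (2 : ℤ) • Point.some x y h = 0)
    {K : Type v} [Field K] [DecidableEq K] [Algebra (ZMod 2) K]
    (frob : K →ₐ[ZMod 2] K) (hfrob : ∀ z, frob z = z ^ 2) (P : (N⁄K).Point) :
    Point.map (W' := N) frob (Point.map (W' := N) frob P)
      - a • Point.map (W' := N) frob P + (2 : ℤ) • P = 0 := by
  classical
  have hfr : frob = FiniteField.frobeniusAlgHom (ZMod 2) K := by
    ext z
    rw [hfrob, FiniteField.frobeniusAlgHom_apply, ZMod.card]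
  subst hfr
  refine frob_quadratic_eq_zero' 2 N hΔ a 2 K 0 ?_ P
  rintro G ⟨x, y, h, rfl, hx⟩
  refine hgen (GenField K) (FiniteField.frobeniusAlgHom (ZMod 2) (GenField K))
    (fun z => by rw [FiniteField.frobeniusAlgHom_apply, ZMod.card]) x y h ?_ ?_
  · rintro rfl
    exact hx isAlgebraic_zero
  · rintro rfl
    exact hx isAlgebraic_one

end AllPoints

/-! ### Point counts over `ZMod 2` -/

section Count

/-- Decidable description of the nonsingular affine points of a curve over `ZMod 2`. -/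
def goodPt (W : WeierstrassCurve (ZMod 2)) (p : ZMod 2 × ZMod 2) : Prop :=
  (p.2 ^ 2 + W.a₁ * p.1 * p.2 + W.a₃ * p.2 = p.1 ^ 3 + W.a₂ * p.1 ^ 2 + W.a₄ * p.1 + W.a₆) ∧
    (W.a₁ * p.2 ≠ 3 * p.1 ^ 2 + 2 * W.a₂ * p.1 + W.a₄ ∨ p.2 ≠ -p.2 - W.a₁ * p.1 - W.a₃)

instance (W : WeierstrassCurve (ZMod 2)) : DecidablePred (goodPt W) := fun p => by
  unfold goodPt; infer_instance

lemma goodPt_iff (W : WeierstrassCurve (ZMod 2)) (x y : ZMod 2) :
    goodPt W (x, y) ↔ W.toAffine.Nonsingular x y := by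
  rw [Affine.nonsingular_iff, Affine.equation_iff]
  rfl

/-- The points of `W` over `ZMod 2`: the point at infinity and the good pairs. -/
def pointEquiv (W : WeierstrassCurve (ZMod 2)) :
    W.toAffine.Point ≃ Option {p : ZMod 2 × ZMod 2 // goodPt W p} where
  toFun P := match P with
    | .zero => none
    | .some x y h => some ⟨(x, y), (goodPt_iff W x y).mpr h⟩
  invFun o := match o with
    | none => .zero
    | some ⟨(x, y), hp⟩ => .some x y ((goodPt_iff W x y).mp hp)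
  left_inv P := by cases P <;> rfl
  right_inv o := by rcases o with _ | ⟨⟨x, y⟩, hp⟩ <;> rfl

lemma card_point (W : WeierstrassCurve (ZMod 2)) :
    Nat.card W.toAffine.Point = (Finset.univ.filter (goodPt W)).card + 1 := by
  rw [Nat.card_congr (pointEquiv W), Nat.card_eq_fintype_card, Fintype.card_option,
    Fintype.card_subtype]

lemma trace_eq (W : WeierstrassCurve (ZMod 2)) (k : ℕ)
    (hk : (Finset.univ.filter (goodPt W)).card = k) : W.traceOfFrobenius = 2 - k := by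
  unfold WeierstrassCurve.traceOfFrobenius WeierstrassCurve.card
  rw [card_point, hk, Nat.card_zmod]
  push_cast
  ring

lemma trace_N0 : N0.traceOfFrobenius = 0 := by rw [trace_eq N0 2 (by decide)]; norm_num
lemma trace_N1 : N1.traceOfFrobenius = 2 := by rw [trace_eq N1 0 (by decide)]; norm_num
lemma trace_N2 : N2.traceOfFrobenius = -2 := by rw [trace_eq N2 4 (by decide)]; norm_num
lemma trace_N3 : N3.traceOfFrobenius = 1 := by rw [trace_eq N3 1 (by decide)]; norm_num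
lemma trace_N4 : N4.traceOfFrobenius = -1 := by rw [trace_eq N4 3 (by decide)]; norm_num

end Count

/-! ### Reduction of the 16 nonsingular models to the normal forms, and the main theorem -/

section Main

open Fermat.Agent.S52.helper3731

/-- The variable change (`u = 1`) bringing a nonsingular Weierstrass curve over `ZMod 2` to its
normal form. -/
def nfChange (W : WeierstrassCurve (ZMod 2)) : VariableChange (ZMod 2) :=
  ⟨1, W.a₁ * W.a₃ + (1 + W.a₁) * W.a₆ * (1 + W.a₂ + W.a₄),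
    (1 + W.a₁) * (W.a₂ + W.a₆ * (1 + W.a₂ + W.a₄)), W.a₁ * (W.a₃ + W.a₄)⟩

/-- Equality of Weierstrass curves over `ZMod 2` is decidable (coefficientwise). -/
@[reducible] def decEqCurve : DecidableEq (WeierstrassCurve (ZMod 2)) := fun _ _ =>
  decidable_of_iff _ WeierstrassCurve.ext_iff.symm

attribute [local instance] decEqCurve

lemma nfChange_spec_aux : ∀ a1 a2 a3 a4 a6 : ZMod 2,
    (⟨a1, a2, a3, a4, a6⟩ : WeierstrassCurve (ZMod 2)).Δ ≠ 0 →
      nfChange ⟨a1, a2, a3, a4, a6⟩ • (⟨a1, a2, a3, a4, a6⟩ : WeierstrassCurve (ZMod 2)) = N0 ∨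
      nfChange ⟨a1, a2, a3, a4, a6⟩ • (⟨a1, a2, a3, a4, a6⟩ : WeierstrassCurve (ZMod 2)) = N1 ∨
      nfChange ⟨a1, a2, a3, a4, a6⟩ • (⟨a1, a2, a3, a4, a6⟩ : WeierstrassCurve (ZMod 2)) = N2 ∨
      nfChange ⟨a1, a2, a3, a4, a6⟩ • (⟨a1, a2, a3, a4, a6⟩ : WeierstrassCurve (ZMod 2)) = N3 ∨
      nfChange ⟨a1, a2, a3, a4, a6⟩ • (⟨a1, a2, a3, a4, a6⟩ : WeierstrassCurve (ZMod 2)) = N4 := by
  decide

lemma nfChange_spec (W : WeierstrassCurve (ZMod 2)) (hΔ : W.Δ ≠ 0) :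
    nfChange W • W = N0 ∨ nfChange W • W = N1 ∨ nfChange W • W = N2 ∨ nfChange W • W = N3 ∨
      nfChange W • W = N4 := by
  obtain ⟨a1, a2, a3, a4, a6⟩ := W
  exact nfChange_spec_aux a1 a2 a3 a4 a6 hΔ

lemma Δ_N0 : N0.Δ ≠ 0 := by decide
lemma Δ_N1 : N1.Δ ≠ 0 := by decide
lemma Δ_N2 : N2.Δ ≠ 0 := by decide
lemma Δ_N3 : N3.Δ ≠ 0 := by decide
lemma Δ_N4 : N4.Δ ≠ 0 := by decide

universe v

variable {K : Type v} [Field K] [DecidableEq K] [Algebra (ZMod 2) K]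

/-- Cayley–Hamilton on the five normal forms, all points. -/
theorem rel_N0 (frob : K →ₐ[ZMod 2] K) (hfrob : ∀ z, frob z = z ^ 2) (P : (N0⁄K).Point) :
    Point.map (W' := N0) frob (Point.map (W' := N0) frob P)
      - N0.traceOfFrobenius • Point.map (W' := N0) frob P + (2 : ℤ) • P = 0 := by
  rw [trace_N0]
  exact all_of_generic N0 Δ_N0 0 (fun L _ _ _ fr hfr x y h _ _ => rel0 fr hfr x y h) frob hfrob P

theorem rel_N1 (frob : K →ₐ[ZMod 2] K) (hfrob : ∀ z, frob z = z ^ 2) (P : (N1⁄K).Point) :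
    Point.map (W' := N1) frob (Point.map (W' := N1) frob P)
      - N1.traceOfFrobenius • Point.map (W' := N1) frob P + (2 : ℤ) • P = 0 := by
  rw [trace_N1]
  exact all_of_generic N1 Δ_N1 2
    (fun L _ _ _ fr hfr x y h hx0 hx1 => rel1 fr hfr x y h (sq_ne_self hx0 hx1)) frob hfrob P

theorem rel_N2 (frob : K →ₐ[ZMod 2] K) (hfrob : ∀ z, frob z = z ^ 2) (P : (N2⁄K).Point) :
    Point.map (W' := N2) frob (Point.map (W' := N2) frob P)
      - N2.traceOfFrobenius • Point.map (W' := N2) frob P + (2 : ℤ) • P = 0 := by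
  rw [trace_N2]
  exact all_of_generic N2 Δ_N2 (-2)
    (fun L _ _ _ fr hfr x y h hx0 hx1 => rel2 fr hfr x y h (sq_ne_self hx0 hx1)) frob hfrob P

theorem rel_N3 (frob : K →ₐ[ZMod 2] K) (hfrob : ∀ z, frob z = z ^ 2) (P : (N3⁄K).Point) :
    Point.map (W' := N3) frob (Point.map (W' := N3) frob P)
      - N3.traceOfFrobenius • Point.map (W' := N3) frob P + (2 : ℤ) • P = 0 := by
  rw [trace_N3]
  exact all_of_generic N3 Δ_N3 1
    (fun L _ _ _ fr hfr x y h hx0 hx1 => rel3 fr hfr x y h hx0 hx1) frob hfrob P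

theorem rel_N4 (frob : K →ₐ[ZMod 2] K) (hfrob : ∀ z, frob z = z ^ 2) (P : (N4⁄K).Point) :
    Point.map (W' := N4) frob (Point.map (W' := N4) frob P)
      - N4.traceOfFrobenius • Point.map (W' := N4) frob P + (2 : ℤ) • P = 0 := by
  rw [trace_N4]
  exact all_of_generic N4 Δ_N4 (-1)
    (fun L _ _ _ fr hfr x y h hx0 hx1 => rel4 fr hfr x y h hx0 hx1) frob hfrob P

/-- **Frobenius Cayley–Hamilton over `ZMod 2`.**  For every Weierstrass curve `W` over `ZMod 2`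
with `W.Δ ≠ 0`, every field `K` over `ZMod 2` with its Frobenius `frob : z ↦ z ^ 2`, and every point
`P ∈ W(K)`:  `frob (frob P) - a • frob P + 2 • P = 0` with `a = W.traceOfFrobenius = 3 - #W(𝔽₂)`. -/
theorem frob_CH_two (W : WeierstrassCurve (ZMod 2)) (hΔ : W.Δ ≠ 0)
    (frob : K →ₐ[ZMod 2] K) (hfrob : ∀ z, frob z = z ^ 2) (P : (W⁄K).Point) :
    Point.map (W' := W) frob (Point.map (W' := W) frob P)
      - W.traceOfFrobenius • Point.map (W' := W) frob P + (2 : ℤ) • P = 0 := by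
  have key : ∀ N : WeierstrassCurve (ZMod 2),
      (∀ Q : (N⁄K).Point, Point.map (W' := N) frob (Point.map (W' := N) frob Q)
        - N.traceOfFrobenius • Point.map (W' := N) frob Q + (2 : ℤ) • Q = 0) →
      nfChange W • W = N →
      Point.map (W' := W) frob (Point.map (W' := W) frob P)
        - W.traceOfFrobenius • Point.map (W' := W) frob P + (2 : ℤ) • P = 0 := by
    intro N hN hC
    refine cayleyHamilton_of_variableChange frob W.traceOfFrobenius 2 (nfChange W) W ?_ P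
    rw [← traceOfFrobenius_variableChange (nfChange W) W]
    have h' : ∀ W' : WeierstrassCurve (ZMod 2), W' = N → ∀ Q : (W'⁄K).Point,
        Point.map (W' := W') frob (Point.map (W' := W') frob Q)
          - W'.traceOfFrobenius • Point.map (W' := W') frob Q + (2 : ℤ) • Q = 0 := by
      rintro W' rfl Q
      exact hN Q
    exact h' _ hC
  rcases nfChange_spec W hΔ with h | h | h | h | h
  · exact key N0 (rel_N0 frob hfrob) h
  · exact key N1 (rel_N1 frob hfrob) h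
  · exact key N2 (rel_N2 frob hfrob) h
  · exact key N3 (rel_N3 frob hfrob) h
  · exact key N4 (rel_N4 frob hfrob) h

/-- `frob_CH_two` in the consumer shape of `S52/helper3731`: `CHGeneral 2 frob`. -/
theorem chGeneral_two (frob : K →ₐ[ZMod 2] K) (hfrob : ∀ z, frob z = z ^ 2) :
    CHGeneral 2 frob :=
  fun W hΔ P => frob_CH_two W hΔ frob hfrob P

/-- `frob_CH_two` for the standard Frobenius `FiniteField.frobeniusAlgHom (ZMod 2) K`. -/
theorem frob_CH_two' (W : WeierstrassCurve (ZMod 2)) (hΔ : W.Δ ≠ 0) (P : (W⁄K).Point) :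
    Point.map (W' := W) (FiniteField.frobeniusAlgHom (ZMod 2) K)
        (Point.map (W' := W) (FiniteField.frobeniusAlgHom (ZMod 2) K) P)
      - W.traceOfFrobenius • Point.map (W' := W) (FiniteField.frobeniusAlgHom (ZMod 2) K) P
      + (2 : ℤ) • P = 0 :=
  frob_CH_two W hΔ _ (fun z => by rw [FiniteField.frobeniusAlgHom_apply, ZMod.card]) P

end Main

end Fermat.Agent.S58.helper7631
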