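/-
S58 helper (helper7701): a `Γ₀(M)`-invariant meromorphic function on the upper half plane which is
meromorphic at every cusp is a quotient `A / B` of a cusp form `A` on `Γ₀(M)` by a nonzero
level-one cusp form `B` of the same weight.  (Route #1886, step 2: the complex-analytic half of
"the coordinates of the modular parametrisation are quotients of cusp forms".)  Mathlib only.
-/
import Mathlib

set_option autoImplicit false

open UpperHalfPlane ModularForm CongruenceSubgroup Filter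
open scoped MatrixGroups Manifold Topology

noncomputable section

namespace Fermat.Agent.S58.helper7701

/-! ### Möbius transformations in the coordinate of `ℂ` -/

lemma det_pos_mapGL (γ : SL(2, ℤ)) :
    (0 : ℝ) < (Matrix.SpecialLinearGroup.mapGL ℝ γ).val.det := by
  rw [← Matrix.GeneralLinearGroup.val_det_apply, Matrix.SpecialLinearGroup.det_mapGL]
  simp

/-- The conjugate `X ∘ γ`, read in the coordinate of `ℂ`. -/
def conjFun (X : ℍ → ℂ) (γ : SL(2, ℤ)) : ℂ → ℂ := fun w => X (γ • ofComplex w)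

lemma conjFun_one (X : ℍ → ℂ) : conjFun X 1 = X ∘ ofComplex := by
  funext w
  simp [conjFun]

lemma conjFun_apply_coe (X : ℍ → ℂ) (γ : SL(2, ℤ)) (z : ℍ) : conjFun X γ z = X (γ • z) := by
  simp [conjFun]

/-- The Möbius map of `γ` in the coordinate of `ℂ`. -/
def mob (γ : SL(2, ℤ)) : ℂ → ℂ := fun w => ((γ • ofComplex w : ℍ) : ℂ)

lemma mob_apply_coe (γ : SL(2, ℤ)) (z : ℍ) : mob γ z = ((γ • z : ℍ) : ℂ) := by
  simp [mob]

lemma analyticAt_mob (γ : SL(2, ℤ)) (z : ℍ) : AnalyticAt ℂ (mob γ) z :=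
  UpperHalfPlane.analyticAt_smul (g := Matrix.SpecialLinearGroup.mapGL ℝ γ) (det_pos_mapGL γ) z

lemma deriv_mob_ne_zero (γ : SL(2, ℤ)) (z : ℍ) : deriv (mob γ) z ≠ 0 :=
  UpperHalfPlane.deriv_smul_ne_zero (g := Matrix.SpecialLinearGroup.mapGL ℝ γ) (det_pos_mapGL γ) z

lemma conjFun_eq_comp (X : ℍ → ℂ) (γ : SL(2, ℤ)) : conjFun X γ = (X ∘ ofComplex) ∘ mob γ := by
  funext w
  simp [conjFun, mob]

/-- Orders of the conjugates. -/
lemma meromorphicOrderAt_conjFun (X : ℍ → ℂ) (γ : SL(2, ℤ)) (z : ℍ) :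
    meromorphicOrderAt (conjFun X γ) z = meromorphicOrderAt (X ∘ ofComplex) ((γ • z : ℍ) : ℂ) :=
  UpperHalfPlane.meromorphicOrderAt_comp_smul (f := X)
    (g := Matrix.SpecialLinearGroup.mapGL ℝ γ) (det_pos_mapGL γ)

lemma meromorphicAt_conjFun_iff (X : ℍ → ℂ) (γ : SL(2, ℤ)) (z : ℍ) :
    MeromorphicAt (conjFun X γ) z ↔ MeromorphicAt (X ∘ ofComplex) ((γ • z : ℍ) : ℂ) := by
  rw [conjFun_eq_comp, meromorphicAt_comp_iff_of_deriv_ne_zero (analyticAt_mob γ z)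
    (deriv_mob_ne_zero γ z), mob_apply_coe]

lemma analyticAt_conjFun_of (X : ℍ → ℂ) (γ : SL(2, ℤ)) (z : ℍ)
    (h : AnalyticAt ℂ (X ∘ ofComplex) ((γ • z : ℍ) : ℂ)) : AnalyticAt ℂ (conjFun X γ) z := by
  rw [conjFun_eq_comp]
  refine AnalyticAt.comp ?_ (analyticAt_mob γ z)
  rwa [mob_apply_coe]

lemma analyticAt_of_conjFun (X : ℍ → ℂ) (γ : SL(2, ℤ)) (z : ℍ)
    (h : AnalyticAt ℂ (conjFun X γ) z) : AnalyticAt ℂ (X ∘ ofComplex) ((γ • z : ℍ) : ℂ) := by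
  -- `X ∘ ofComplex = conjFun X γ ∘ mob γ⁻¹` near `γ • z`
  have h1 : AnalyticAt ℂ (conjFun X γ ∘ mob γ⁻¹) ((γ • z : ℍ) : ℂ) := by
    refine AnalyticAt.comp ?_ (analyticAt_mob γ⁻¹ (γ • z))
    rw [mob_apply_coe]
    simpa using h
  refine h1.congr ?_
  have hopen : {w : ℂ | 0 < w.im} ∈ 𝓝 ((γ • z : ℍ) : ℂ) :=
    isOpen_upperHalfPlaneSet.mem_nhds (γ • z).im_pos
  filter_upwards [hopen] with w hw
  simp only [Function.comp_apply, conjFun, mob]
  rw [ofComplex_apply, smul_smul]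
  simp

/-! ### Explicit transformation laws -/

/-- The automorphy factor `c z + d` of `γ`. -/
def aut (γ : SL(2, ℤ)) (z : ℍ) : ℂ := denom (Matrix.SpecialLinearGroup.mapGL ℝ γ) z

lemma aut_ne_zero (γ : SL(2, ℤ)) (z : ℍ) : aut γ z ≠ 0 := denom_ne_zero _ z

lemma slash_apply_aut (f : ℍ → ℂ) (k : ℤ) (γ : SL(2, ℤ)) (z : ℍ) :
    (f ∣[k] γ) z = f (γ • z) * aut γ z ^ (-k) := SL_slash_apply f γ z

/-- `f` transforms with weight `k` under the elements of `H`. -/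
def TransOn (H : Subgroup SL(2, ℤ)) (k : ℤ) (f : ℍ → ℂ) : Prop :=
  ∀ γ ∈ H, ∀ z : ℍ, f (γ • z) = aut γ z ^ k * f z

lemma slash_eq_iff (f : ℍ → ℂ) (k : ℤ) (γ : SL(2, ℤ)) :
    f ∣[k] γ = f ↔ ∀ z : ℍ, f (γ • z) = aut γ z ^ k * f z := by
  constructor
  · intro h z
    have h1 := congrFun h z
    rw [slash_apply_aut, zpow_neg] at h1
    rw [← h1, mul_comm, mul_assoc, inv_mul_cancel₀ (zpow_ne_zero _ (aut_ne_zero γ z)), mul_one]
  · intro h
    funext z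
    rw [slash_apply_aut, h z, zpow_neg, mul_comm, ← mul_assoc,
      inv_mul_cancel₀ (zpow_ne_zero _ (aut_ne_zero γ z)), one_mul]

lemma transOn_iff (H : Subgroup SL(2, ℤ)) (k : ℤ) (f : ℍ → ℂ) :
    TransOn H k f ↔ ∀ γ ∈ H, f ∣[k] γ = f := by
  simp only [TransOn, slash_eq_iff]

lemma TransOn.mono {H H' : Subgroup SL(2, ℤ)} (h : H ≤ H') {k : ℤ} {f : ℍ → ℂ}
    (hf : TransOn H' k f) : TransOn H k f := fun γ hγ z => hf γ (h hγ) z

lemma TransOn.mul {H : Subgroup SL(2, ℤ)} {k l : ℤ} {f g : ℍ → ℂ} (hf : TransOn H k f)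
    (hg : TransOn H l g) : TransOn H (k + l) (f * g) := by
  intro γ hγ z
  simp only [Pi.mul_apply]
  rw [hf γ hγ z, hg γ hγ z, zpow_add₀ (aut_ne_zero γ z)]
  ring

lemma TransOn.pow {H : Subgroup SL(2, ℤ)} {k : ℤ} {f : ℍ → ℂ} (hf : TransOn H k f) (n : ℕ) :
    TransOn H (n * k) (f ^ n) := by
  intro γ hγ z
  simp only [Pi.pow_apply]
  rw [hf γ hγ z, mul_pow, mul_comm (n : ℤ) k, zpow_mul, zpow_natCast]

lemma TransOn.sub {H : Subgroup SL(2, ℤ)} {k : ℤ} {f g : ℍ → ℂ} (hf : TransOn H k f)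
    (hg : TransOn H k g) : TransOn H k (f - g) := by
  intro γ hγ z
  simp only [Pi.sub_apply]
  rw [hf γ hγ z, hg γ hγ z]
  ring

lemma TransOn.const_smul {H : Subgroup SL(2, ℤ)} {k : ℤ} {f : ℍ → ℂ} (hf : TransOn H k f)
    (c : ℂ) : TransOn H k (c • f) := by
  intro γ hγ z
  simp only [Pi.smul_apply, smul_eq_mul]
  rw [hf γ hγ z]
  ring

lemma TransOn.prod {H : Subgroup SL(2, ℤ)} {k : ℤ} {ι : Type*} (s : Finset ι) (f : ι → ℍ → ℂ)
    (hf : ∀ i ∈ s, TransOn H k (f i)) : TransOn H (s.card * k) (∏ i ∈ s, f i) := by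
  classical
  induction s using Finset.induction_on with
  | empty =>
    intro γ _ z
    simp
  | insert a s ha ih =>
    rw [Finset.prod_insert ha, Finset.card_insert_of_notMem ha]
    have h1 := (hf a (Finset.mem_insert_self a s)).mul
      (ih fun i hi => hf i (Finset.mem_insert_of_mem hi))
    have : ((s.card + 1 : ℕ) : ℤ) * k = k + s.card * k := by push_cast; ring
    rw [this]
    exact h1

lemma transOn_of_slashInvariant {k : ℤ} {F : Type*} [FunLike F ℍ ℂ]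
    [SlashInvariantFormClass F 𝒮ℒ k] (f : F) : TransOn ⊤ k (f : ℍ → ℂ) := by
  rw [transOn_iff]
  intro γ _
  exact SlashInvariantForm.slash_action_eqn f _ ⟨γ, rfl⟩

/-! ### Holomorphy in the coordinate of `ℂ` -/

lemma analyticAt_of_mdiff {f : ℍ → ℂ} (hf : MDiff f) (z : ℍ) : AnalyticAt ℂ (f ∘ ofComplex) z :=
  (UpperHalfPlane.mdifferentiable_iff.mp hf).analyticAt
    (isOpen_upperHalfPlaneSet.mem_nhds z.im_pos)

lemma mdiff_prod {ι : Type*} (s : Finset ι) (F : ι → ℍ → ℂ) (h : ∀ i ∈ s, MDiff (F i)) :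
    MDiff (∏ i ∈ s, F i) := by
  classical
  induction s using Finset.induction_on with
  | empty =>
    rw [Finset.prod_empty]
    exact (mdifferentiable_const : MDiff (fun _ : ℍ => (1 : ℂ)))
  | insert a s ha ih =>
    rw [Finset.prod_insert ha]
    exact (h a (Finset.mem_insert_self a s)).mul
      (ih fun i hi => h i (Finset.mem_insert_of_mem hi))

/-! ### The level-one forms vanishing at a prescribed point -/

/-- `Δ(s) E₄³ - E₄(s)³ Δ`: a level-one modular form of weight `12` vanishing at `s`. -/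
def vanishAt (s : ℍ) : ℍ → ℂ :=
  discriminant s • ((E₄ : ℍ → ℂ) ^ 3) - (E₄ s ^ 3) • (discriminant : ℍ → ℂ)

lemma vanishAt_self (s : ℍ) : vanishAt s s = 0 := by
  simp [vanishAt, mul_comm]

lemma mdiff_E₄ : MDiff (E₄ : ℍ → ℂ) := ModularFormClass.holo E₄

lemma mdiff_discriminant : MDiff (discriminant : ℍ → ℂ) := CuspForm.discriminant.holo'

lemma mdiff_vanishAt (s : ℍ) : MDiff (vanishAt s) :=
  ((mdiff_E₄.pow 3).const_smul _).sub (mdiff_discriminant.const_smul _)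

lemma transOn_discriminant : TransOn ⊤ 12 (discriminant : ℍ → ℂ) :=
  transOn_of_slashInvariant CuspForm.discriminant

lemma transOn_E₄ : TransOn ⊤ 4 (E₄ : ℍ → ℂ) := transOn_of_slashInvariant E₄

lemma transOn_vanishAt (s : ℍ) : TransOn ⊤ 12 (vanishAt s) := by
  have h : TransOn ⊤ 12 ((E₄ : ℍ → ℂ) ^ 3) := by simpa using transOn_E₄.pow 3
  exact (h.const_smul _).sub (transOn_discriminant.const_smul _)

lemma vanishAt_smul (s : ℍ) (γ : SL(2, ℤ)) : vanishAt s (γ • s) = 0 := by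
  rw [transOn_vanishAt s γ (Subgroup.mem_top γ) s, vanishAt_self, mul_zero]

lemma isBoundedAtImInfty_vanishAt (s : ℍ) : IsBoundedAtImInfty (vanishAt s) := by
  have h4 : IsBoundedAtImInfty (E₄ : ℍ → ℂ) := ModularFormClass.bdd_at_infty E₄
  have hΔ : IsBoundedAtImInfty (discriminant : ℍ → ℂ) :=
    discriminant_isZeroAtImInfty.boundedAtFilter
  have h43 : IsBoundedAtImInfty ((E₄ : ℍ → ℂ) ^ 3) := by
    have h := (h4.mul h4).mul h4
    have e : ((E₄ : ℍ → ℂ) ^ 3) = (E₄ : ℍ → ℂ) * (E₄ : ℍ → ℂ) * (E₄ : ℍ → ℂ) := by ring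
    rw [e]
    exact h
  have h1 : IsBoundedAtImInfty (discriminant s • ((E₄ : ℍ → ℂ) ^ 3)) :=
    Filter.BoundedAtFilter.smul _ h43
  have h2 : IsBoundedAtImInfty ((E₄ s ^ 3) • (discriminant : ℍ → ℂ)) :=
    Filter.BoundedAtFilter.smul _ hΔ
  have h3 := Filter.BoundedAtFilter.add h1 (Filter.BoundedAtFilter.neg h2)
  rw [← sub_eq_add_neg] at h3
  exact h3


/-! ### Coset representatives and uniform control at the cusps -/

lemma exists_reps (M : ℕ) [NeZero M] :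
    ∃ R : Finset SL(2, ℤ), ∀ γ : SL(2, ℤ), ∃ ρ ∈ R, ∃ h ∈ Gamma0 M, γ = h * ρ := by
  classical
  let _ : Fintype (SL(2, ℤ) ⧸ Gamma0 M) := Fintype.ofFinite _
  refine ⟨Finset.univ.image (fun q : SL(2, ℤ) ⧸ Gamma0 M => (Quotient.out q)⁻¹), fun γ => ?_⟩
  obtain ⟨h, hh⟩ := QuotientGroup.mk_out_eq_mul (Gamma0 M) γ⁻¹
  refine ⟨(Quotient.out ((γ⁻¹ : SL(2, ℤ)) : SL(2, ℤ) ⧸ Gamma0 M))⁻¹,
    Finset.mem_image_of_mem _ (Finset.mem_univ _), h, h.2, ?_⟩
  rw [hh]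
  group

lemma conjFun_mul_of_inv {M : ℕ} {X : ℍ → ℂ}
    (hinv : ∀ γ ∈ Gamma0 M, ∀ z : ℍ, X (γ • z) = X z)
    {h : SL(2, ℤ)} (hh : h ∈ Gamma0 M) (ρ : SL(2, ℤ)) : conjFun X (h * ρ) = conjFun X ρ := by
  funext w
  simp only [conjFun, mul_smul]
  exact hinv h hh _

/-- The cusp hypotheses hold uniformly in `γ`. -/
lemma exists_uniform_cusp {M : ℕ} [NeZero M] {X : ℍ → ℂ}
    (hinv : ∀ γ ∈ Gamma0 M, ∀ z : ℍ, X (γ • z) = X z)
    (hcusp : ∀ γ : SL(2, ℤ), ∃ T m C : ℝ, ∀ z : ℍ, T ≤ z.im →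
      AnalyticAt ℂ (fun w : ℂ => X (γ • ofComplex w)) z ∧
        ‖X (γ • z)‖ ≤ C * Real.exp (m * z.im)) :
    ∃ T m C : ℝ, 0 ≤ m ∧ 0 ≤ C ∧ ∀ (γ : SL(2, ℤ)) (z : ℍ), T ≤ z.im →
      AnalyticAt ℂ (conjFun X γ) z ∧ ‖X (γ • z)‖ ≤ C * Real.exp (m * z.im) := by
  classical
  obtain ⟨R, hR⟩ := exists_reps M
  choose T m C h using hcusp
  refine ⟨∑ ρ ∈ R, |T ρ|, ∑ ρ ∈ R, |m ρ|, ∑ ρ ∈ R, |C ρ|,
    Finset.sum_nonneg fun _ _ => abs_nonneg _, Finset.sum_nonneg fun _ _ => abs_nonneg _,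
    fun γ z hz => ?_⟩
  obtain ⟨ρ, hρ, g, hg, rfl⟩ := hR γ
  have hT : T ρ ≤ z.im := le_trans (le_trans (le_abs_self _)
    (Finset.single_le_sum (f := fun ρ => |T ρ|) (fun _ _ => abs_nonneg _) hρ)) hz
  have hm : m ρ ≤ ∑ ρ ∈ R, |m ρ| := le_trans (le_abs_self _)
    (Finset.single_le_sum (f := fun ρ => |m ρ|) (fun _ _ => abs_nonneg _) hρ)
  have hC : |C ρ| ≤ ∑ ρ ∈ R, |C ρ| :=
    Finset.single_le_sum (f := fun ρ => |C ρ|) (fun _ _ => abs_nonneg _) hρ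
  obtain ⟨h1, h2⟩ := h ρ z hT
  refine ⟨?_, ?_⟩
  · rw [conjFun_mul_of_inv hinv hg]
    exact h1
  · rw [mul_smul, hinv g hg]
    refine h2.trans ?_
    have he : Real.exp (m ρ * z.im) ≤ Real.exp ((∑ ρ ∈ R, |m ρ|) * z.im) :=
      Real.exp_le_exp.mpr (mul_le_mul_of_nonneg_right hm z.im_pos.le)
    calc C ρ * Real.exp (m ρ * z.im) ≤ |C ρ| * Real.exp (m ρ * z.im) :=
          mul_le_mul_of_nonneg_right (le_abs_self _) (Real.exp_pos _).le
      _ ≤ (∑ ρ ∈ R, |C ρ|) * Real.exp ((∑ ρ ∈ R, |m ρ|) * z.im) :=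
          mul_le_mul hC he (Real.exp_pos _).le (Finset.sum_nonneg fun _ _ => abs_nonneg _)

/-! ### Control of the poles -/

/-- There are a bound `N` on the pole orders and a finite set `S` such that every pole is
`SL(2, ℤ)`-equivalent to a point of `S`. -/
lemma exists_pole_control {M : ℕ} [NeZero M] {X : ℍ → ℂ}
    (hmer : ∀ z : ℍ, MeromorphicAt (X ∘ ofComplex) z)
    (hinv : ∀ γ ∈ Gamma0 M, ∀ z : ℍ, X (γ • z) = X z)
    (hcusp : ∀ γ : SL(2, ℤ), ∃ T m C : ℝ, ∀ z : ℍ, T ≤ z.im →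
      AnalyticAt ℂ (fun w : ℂ => X (γ • ofComplex w)) z ∧
        ‖X (γ • z)‖ ≤ C * Real.exp (m * z.im)) :
    ∃ (N : ℕ) (S : Finset ℍ), ∀ z : ℍ, 0 ≤ meromorphicOrderAt (X ∘ ofComplex) z ∨
      (((-(N : ℤ) : ℤ) : WithTop ℤ) ≤ meromorphicOrderAt (X ∘ ofComplex) z ∧
        ∃ s ∈ S, ∃ g : SL(2, ℤ), z = g • s) := by
  classical
  obtain ⟨R, hR⟩ := exists_reps M
  obtain ⟨T, m, C, -, -, hunif⟩ := exists_uniform_cusp hinv hcusp
  set Kset : Set ℂ := Set.Icc (-(1 / 2 : ℝ)) (1 / 2) ×ℂ Set.Icc (1 / 2 : ℝ) T with hKset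
  have hK : IsCompact Kset := IsCompact.reProdIm isCompact_Icc isCompact_Icc
  have hKpos : ∀ w ∈ Kset, 0 < w.im := by
    intro w hw
    rw [hKset, Complex.mem_reProdIm] at hw
    have := hw.2.1
    linarith
  have hmerK : ∀ ρ : SL(2, ℤ), MeromorphicOn (conjFun X ρ) Kset := by
    intro ρ w hw
    exact (meromorphicAt_conjFun_iff X ρ ⟨w, hKpos w hw⟩).mpr (hmer _)
  have hfin : ∀ ρ : SL(2, ℤ), (MeromorphicOn.divisor (conjFun X ρ) Kset).support.Finite :=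
    fun ρ => (MeromorphicOn.divisor (conjFun X ρ) Kset).finiteSupport hK
  refine ⟨∑ ρ ∈ R, ∑ w ∈ (hfin ρ).toFinset, (MeromorphicOn.divisor (conjFun X ρ) Kset w).natAbs,
    R.biUnion (fun ρ => (hfin ρ).toFinset.image ofComplex), fun z => ?_⟩
  by_cases hz : 0 ≤ meromorphicOrderAt (X ∘ ofComplex) z
  · exact Or.inl hz
  right
  rw [not_le] at hz
  obtain ⟨g, hg⟩ := ModularGroup.exists_smul_mem_fd z
  obtain ⟨ρ, hρ, h, hh, hgρ⟩ := hR g⁻¹
  have hzz' : z = g⁻¹ • (g • z) := by simp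
  have hord : meromorphicOrderAt (conjFun X ρ) (g • z : ℍ) =
      meromorphicOrderAt (X ∘ ofComplex) z := by
    have h1 := meromorphicOrderAt_conjFun X g⁻¹ (g • z)
    rw [← hzz', hgρ, conjFun_mul_of_inv hinv hh] at h1
    exact h1
  have him : (g • z).im < T := by
    by_contra hcon
    rw [not_lt] at hcon
    have h1 := (hunif ρ (g • z) hcon).1.meromorphicOrderAt_nonneg
    rw [hord] at h1
    exact absurd h1 (not_le.mpr hz)
  have hmemK : ((g • z : ℍ) : ℂ) ∈ Kset := by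
    rw [hKset, Complex.mem_reProdIm]
    obtain ⟨h1, h2⟩ := hg
    rw [Complex.normSq_apply] at h1
    have h3 := abs_le.mp h2
    have h4 : (0 : ℝ) < (g • z).im := (g • z).im_pos
    change 1 ≤ (g • z).re * (g • z).re + (g • z).im * (g • z).im at h1
    refine ⟨⟨?_, ?_⟩, ⟨?_, ?_⟩⟩
    · change -(1 / 2 : ℝ) ≤ (g • z).re
      exact h3.1
    · change (g • z).re ≤ 1 / 2
      exact h3.2
    · change (1 / 2 : ℝ) ≤ (g • z).im
      nlinarith [h3.1, h3.2]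
    · change (g • z).im ≤ T
      exact him.le
  have hDapp := MeromorphicOn.divisor_apply (hmerK ρ) hmemK
  rw [hord] at hDapp
  obtain ⟨n, hn⟩ : ∃ n : ℤ, meromorphicOrderAt (X ∘ ofComplex) z = (n : WithTop ℤ) :=
    (WithTop.ne_top_iff_exists.mp (ne_top_of_lt hz)).imp fun _ h => h.symm
  rw [hn] at hDapp hz ⊢
  rw [WithTop.untop₀_coe] at hDapp
  have hn0 : n < 0 := by exact_mod_cast hz
  have hsupp : ((g • z : ℍ) : ℂ) ∈ (hfin ρ).toFinset := by
    rw [Set.Finite.mem_toFinset, Function.mem_support, hDapp]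
    exact hn0.ne
  constructor
  · have h1 : (MeromorphicOn.divisor (conjFun X ρ) Kset ((g • z : ℍ) : ℂ)).natAbs ≤
        ∑ ρ ∈ R, ∑ w ∈ (hfin ρ).toFinset,
          (MeromorphicOn.divisor (conjFun X ρ) Kset w).natAbs :=
      (Finset.single_le_sum
        (f := fun w => (MeromorphicOn.divisor (conjFun X ρ) Kset w).natAbs)
        (fun _ _ => Nat.zero_le _) hsupp).trans
      (Finset.single_le_sum
        (f := fun ρ => ∑ w ∈ (hfin ρ).toFinset,
          (MeromorphicOn.divisor (conjFun X ρ) Kset w).natAbs)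
        (fun _ _ => Nat.zero_le _) hρ)
    rw [hDapp] at h1
    have h2 : -((∑ ρ ∈ R, ∑ w ∈ (hfin ρ).toFinset,
        (MeromorphicOn.divisor (conjFun X ρ) Kset w).natAbs : ℕ) : ℤ) ≤ n := by omega
    exact_mod_cast h2
  · refine ⟨g • z, ?_, g⁻¹, hzz'⟩
    rw [Finset.mem_biUnion]
    exact ⟨ρ, hρ, Finset.mem_image.mpr ⟨_, hsupp, ofComplex_apply (g • z)⟩⟩


/-! ### Order arithmetic -/

lemma order_arith {a b c : WithTop ℤ} {N : ℕ} (ha : ((-(N : ℤ) : ℤ) : WithTop ℤ) ≤ a)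
    (hb : 1 ≤ b) (hc : 0 ≤ c) : 0 ≤ a + (N : WithTop ℤ) * b + c := by
  induction a using WithTop.recTopCoe with
  | top => simp
  | coe a =>
    induction c using WithTop.recTopCoe with
    | top => simp
    | coe c =>
      induction b using WithTop.recTopCoe with
      | top =>
        rcases Nat.eq_zero_or_pos N with rfl | hN
        · simp only [Nat.cast_zero, zero_mul, add_zero]
          have ha' : (0 : ℤ) ≤ a := by simpa using ha
          have hc' : (0 : ℤ) ≤ c := by exact_mod_cast hc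
          exact_mod_cast add_nonneg ha' hc'
        · rw [WithTop.mul_top (by exact_mod_cast hN.ne')]
          simp
      | coe b =>
        have ha' : -(N : ℤ) ≤ a := by exact_mod_cast ha
        have hb' : (1 : ℤ) ≤ b := by exact_mod_cast hb
        have hc' : (0 : ℤ) ≤ c := by exact_mod_cast hc
        have h : (0 : ℤ) ≤ a + N * b + c := by nlinarith
        exact_mod_cast h

/-! ### The denominators -/

/-- The denominators: `Δ^c ∏_{s ∈ S} (vanishAt s)^N`. -/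
def dnm (c N : ℕ) (S : Finset ℍ) : ℍ → ℂ :=
  (discriminant : ℍ → ℂ) ^ c * ∏ s ∈ S, vanishAt s ^ N

/-- The weight of `dnm c N S`. -/
def wt (c N : ℕ) (S : Finset ℍ) : ℤ := c * 12 + S.card * (N * 12)

lemma mdiff_dnm (c N : ℕ) (S : Finset ℍ) : MDiff (dnm c N S) :=
  (mdiff_discriminant.pow c).mul (mdiff_prod S _ fun s _ => (mdiff_vanishAt s).pow N)

lemma transOn_dnm (c N : ℕ) (S : Finset ℍ) : TransOn ⊤ (wt c N S) (dnm c N S) :=
  (transOn_discriminant.pow c).mul (TransOn.prod S _ fun s _ => (transOn_vanishAt s).pow N)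

lemma dnm_slash (c N : ℕ) (S : Finset ℍ) (γ : SL(2, ℤ)) :
    dnm c N S ∣[wt c N S] γ = dnm c N S :=
  (transOn_iff ⊤ _ _).mp (transOn_dnm c N S) γ (Subgroup.mem_top γ)

lemma one_le_order_vanishAt (s : ℍ) (g : SL(2, ℤ)) :
    1 ≤ meromorphicOrderAt (vanishAt s ∘ ofComplex) ((g • s : ℍ) : ℂ) := by
  have han := analyticAt_of_mdiff (mdiff_vanishAt s) (g • s)
  rw [han.meromorphicOrderAt_eq]
  have h0 : analyticOrderAt (vanishAt s ∘ ofComplex) ((g • s : ℍ) : ℂ) ≠ 0 := by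
    rw [han.analyticOrderAt_ne_zero, Function.comp_apply, ofComplex_apply]
    exact vanishAt_smul s g
  cases h : analyticOrderAt (vanishAt s ∘ ofComplex) ((g • s : ℍ) : ℂ) with
  | top => simp
  | coe n =>
    rw [h] at h0
    have hn : n ≠ 0 := by exact_mod_cast h0
    rw [ENat.map_natCast]
    have : (1 : ℤ) ≤ (n : ℤ) := by omega
    exact_mod_cast this

lemma order_mul_dnm_nonneg {f : ℂ → ℂ} {z : ℍ} (hf : MeromorphicAt f z) (c N : ℕ)
    {S : Finset ℍ} {s : ℍ} (hs : s ∈ S) (g : SL(2, ℤ)) (hz : z = g • s)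
    (hord : ((-(N : ℤ) : ℤ) : WithTop ℤ) ≤ meromorphicOrderAt f z) :
    0 ≤ meromorphicOrderAt (f * (dnm c N S ∘ ofComplex)) z := by
  classical
  subst hz
  set rest : ℍ → ℂ := (discriminant : ℍ → ℂ) ^ c * ∏ s' ∈ S.erase s, vanishAt s' ^ N with hrest
  have hrest_md : MDiff rest :=
    (mdiff_discriminant.pow c).mul (mdiff_prod _ _ fun s _ => (mdiff_vanishAt s).pow N)
  have hfac : dnm c N S ∘ ofComplex = (vanishAt s ∘ ofComplex) ^ N * (rest ∘ ofComplex) := by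
    funext w
    simp only [dnm, hrest, Function.comp_apply, Pi.mul_apply, Pi.pow_apply]
    rw [← Finset.mul_prod_erase S _ hs]
    simp only [Pi.mul_apply, Pi.pow_apply]
    ring
  have hV := analyticAt_of_mdiff (mdiff_vanishAt s) (g • s)
  have hR := analyticAt_of_mdiff hrest_md (g • s)
  rw [hfac, meromorphicOrderAt_mul hf ((hV.meromorphicAt.pow N).mul hR.meromorphicAt),
    meromorphicOrderAt_mul (hV.meromorphicAt.pow N) hR.meromorphicAt,
    meromorphicOrderAt_pow hV.meromorphicAt, ← add_assoc]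
  exact order_arith hord (one_le_order_vanishAt s g) hR.meromorphicOrderAt_nonneg

lemma order_nonneg_of_control {X : ℍ → ℂ} (hmer : ∀ z : ℍ, MeromorphicAt (X ∘ ofComplex) z)
    {N₀ : ℕ} {S₀ : Finset ℍ}
    (hctl : ∀ z : ℍ, 0 ≤ meromorphicOrderAt (X ∘ ofComplex) z ∨
      (((-(N₀ : ℤ) : ℤ) : WithTop ℤ) ≤ meromorphicOrderAt (X ∘ ofComplex) z ∧
        ∃ s ∈ S₀, ∃ g : SL(2, ℤ), z = g • s))
    (c : ℕ) {N : ℕ} {S : Finset ℍ} (hN : N₀ ≤ N) (hS : S₀ ⊆ S) (z : ℍ) :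
    0 ≤ meromorphicOrderAt ((X ∘ ofComplex) * (dnm c N S ∘ ofComplex)) z := by
  rcases hctl z with h | ⟨h, s, hs, g, hz⟩
  · rw [meromorphicOrderAt_mul (hmer z) (analyticAt_of_mdiff (mdiff_dnm c N S) z).meromorphicAt]
    exact add_nonneg h (analyticAt_of_mdiff (mdiff_dnm c N S) z).meromorphicOrderAt_nonneg
  · refine order_mul_dnm_nonneg (hmer z) c N (hS hs) g hz (le_trans ?_ h)
    have : -(N : ℤ) ≤ -(N₀ : ℤ) := by omega
    exact_mod_cast this

/-! ### The numerator -/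

/-- The holomorphic extension of `X * D`. -/
def numFun (X D : ℍ → ℂ) : ℍ → ℂ := fun z =>
  toMeromorphicNFOn ((X ∘ ofComplex) * (D ∘ ofComplex)) {w : ℂ | 0 < w.im} z

lemma meromorphicOn_prod {X D : ℍ → ℂ} (hmer : ∀ z : ℍ, MeromorphicAt (X ∘ ofComplex) z)
    (hD : MDiff D) : MeromorphicOn ((X ∘ ofComplex) * (D ∘ ofComplex)) {w : ℂ | 0 < w.im} := by
  intro w hw
  exact (hmer ⟨w, hw⟩).mul (analyticAt_of_mdiff hD ⟨w, hw⟩).meromorphicAt

lemma analyticAt_nf {X D : ℍ → ℂ} (hmer : ∀ z : ℍ, MeromorphicAt (X ∘ ofComplex) z)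
    (hD : MDiff D)
    (hord : ∀ z : ℍ, 0 ≤ meromorphicOrderAt ((X ∘ ofComplex) * (D ∘ ofComplex)) z) (z : ℍ) :
    AnalyticAt ℂ (toMeromorphicNFOn ((X ∘ ofComplex) * (D ∘ ofComplex)) {w : ℂ | 0 < w.im}) z := by
  have h1 := meromorphicNFOn_toMeromorphicNFOn ((X ∘ ofComplex) * (D ∘ ofComplex))
    {w : ℂ | 0 < w.im}
  have h2 : MeromorphicNFAt (toMeromorphicNFOn ((X ∘ ofComplex) * (D ∘ ofComplex))
    {w : ℂ | 0 < w.im}) (z : ℂ) := h1 z.im_pos
  rw [← h2.meromorphicOrderAt_nonneg_iff_analyticAt,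
    meromorphicOrderAt_toMeromorphicNFOn (meromorphicOn_prod hmer hD) z.im_pos]
  exact hord z

lemma mdiff_numFun {X D : ℍ → ℂ} (hmer : ∀ z : ℍ, MeromorphicAt (X ∘ ofComplex) z)
    (hD : MDiff D)
    (hord : ∀ z : ℍ, 0 ≤ meromorphicOrderAt ((X ∘ ofComplex) * (D ∘ ofComplex)) z) :
    MDiff (numFun X D) := by
  rw [UpperHalfPlane.mdifferentiable_iff]
  have h : DifferentiableOn ℂ (toMeromorphicNFOn ((X ∘ ofComplex) * (D ∘ ofComplex))
      {w : ℂ | 0 < w.im}) {w : ℂ | 0 < w.im} := fun w hw =>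
    (analyticAt_nf hmer hD hord ⟨w, hw⟩).differentiableAt.differentiableWithinAt
  refine h.congr fun w hw => ?_
  simp only [Function.comp_apply, numFun]
  rw [ofComplex_apply_of_im_pos hw]

lemma numFun_eq {X D : ℍ → ℂ} (hmer : ∀ z : ℍ, MeromorphicAt (X ∘ ofComplex) z)
    (hD : MDiff D) (z : ℍ) (hz : AnalyticAt ℂ (X ∘ ofComplex) z) :
    numFun X D z = X z * D z := by
  have hP : AnalyticAt ℂ ((X ∘ ofComplex) * (D ∘ ofComplex)) z :=
    hz.mul (analyticAt_of_mdiff hD z)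
  unfold numFun
  rw [toMeromorphicNFOn_eq_toMeromorphicNFAt (meromorphicOn_prod hmer hD) z.im_pos,
    toMeromorphicNFAt_eq_self.mpr hP.meromorphicNFAt]
  simp

lemma dense_analytic {X : ℍ → ℂ} (hmer : ∀ z : ℍ, MeromorphicAt (X ∘ ofComplex) z) :
    Dense {z : ℍ | AnalyticAt ℂ (X ∘ ofComplex) z} := by
  intro z
  rw [mem_closure_iff_frequently]
  have h1 : ∀ᶠ w in 𝓝[≠] (z : ℂ), AnalyticAt ℂ (X ∘ ofComplex) w :=
    (hmer z).eventually_analyticAt
  have h3 : ∃ᶠ w in 𝓝 (z : ℂ), AnalyticAt ℂ (X ∘ ofComplex) w :=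
    h1.frequently.filter_mono nhdsWithin_le_nhds
  rw [← isOpenEmbedding_coe.map_nhds_eq z, Filter.frequently_map] at h3
  exact h3

lemma numFun_slash {M : ℕ} {X D : ℍ → ℂ} {K : ℤ}
    (hmer : ∀ z : ℍ, MeromorphicAt (X ∘ ofComplex) z) (hD : MDiff D)
    (hord : ∀ z : ℍ, 0 ≤ meromorphicOrderAt ((X ∘ ofComplex) * (D ∘ ofComplex)) z)
    (hinv : ∀ γ ∈ Gamma0 M, ∀ z : ℍ, X (γ • z) = X z) (hDinv : TransOn (Gamma0 M) K D) :
    ∀ γ ∈ Gamma0 M, numFun X D ∣[K] γ = numFun X D := by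
  intro γ hγ
  have hF := mdiff_numFun hmer hD hord
  have hc1 : Continuous (numFun X D ∣[K] γ) := by
    rw [ModularForm.SL_slash]
    exact (hF.slash K _).continuous
  refine Continuous.ext_on (dense_analytic hmer) hc1 hF.continuous ?_
  intro z hz
  have hz' : AnalyticAt ℂ (X ∘ ofComplex) ((γ • z : ℍ) : ℂ) := by
    apply analyticAt_of_conjFun
    refine AnalyticAt.congr hz ?_
    filter_upwards with w
    simp only [Function.comp_apply, conjFun]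
    exact (hinv γ hγ _).symm
  rw [slash_apply_aut, numFun_eq hmer hD _ hz', numFun_eq hmer hD _ hz, hinv γ hγ z,
    hDinv γ hγ z, zpow_neg]
  have := zpow_ne_zero K (aut_ne_zero γ z)
  field_simp

/-! ### Behaviour at the cusps -/

lemma tendsto_exp_neg_mul_im {κ : ℝ} (hκ : 0 < κ) :
    Tendsto (fun τ : ℍ => Real.exp (-(κ * τ.im))) atImInfty (𝓝 0) := by
  have h1 : Tendsto (fun τ : ℍ => τ.im) atImInfty atTop := tendsto_comap
  exact Real.tendsto_exp_neg_atTop_nhds_zero.comp (h1.const_mul_atTop hκ)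

lemma isBigO_discriminant :
    (discriminant : ℍ → ℂ) =O[atImInfty] fun τ : ℍ => Real.exp (-(2 * Real.pi * τ.im)) := by
  have h := CuspFormClass.exp_decay_atImInfty (h := 1) CuspForm.discriminant one_pos
    one_mem_strictPeriods_SL
  refine h.congr_right fun τ => ?_
  congr 1
  ring

lemma bdd_pow {f : ℍ → ℂ} (hf : IsBoundedAtImInfty f) (n : ℕ) : IsBoundedAtImInfty (f ^ n) := by
  induction n with
  | zero =>
    rw [pow_zero]
    exact Filter.const_boundedAtFilter _ (1 : ℂ)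
  | succ n ih =>
    rw [pow_succ]
    exact ih.mul hf

lemma bdd_prod {ι : Type*} (s : Finset ι) (F : ι → ℍ → ℂ)
    (h : ∀ i ∈ s, IsBoundedAtImInfty (F i)) : IsBoundedAtImInfty (∏ i ∈ s, F i) := by
  classical
  induction s using Finset.induction_on with
  | empty =>
    rw [Finset.prod_empty]
    exact Filter.const_boundedAtFilter _ (1 : ℂ)
  | insert a s ha ih =>
    rw [Finset.prod_insert ha]
    exact (h a (Finset.mem_insert_self a s)).mul
      (ih fun i hi => h i (Finset.mem_insert_of_mem hi))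

lemma numFun_isZeroAtImInfty {X : ℍ → ℂ} (hmer : ∀ z : ℍ, MeromorphicAt (X ∘ ofComplex) z)
    {c N : ℕ} {S : Finset ℍ} {T m C : ℝ}
    (hunif : ∀ (γ : SL(2, ℤ)) (z : ℍ), T ≤ z.im →
      AnalyticAt ℂ (conjFun X γ) z ∧ ‖X (γ • z)‖ ≤ C * Real.exp (m * z.im))
    (hc : m < 2 * Real.pi * c) (δ : SL(2, ℤ)) :
    IsZeroAtImInfty (numFun X (dnm c N S) ∣[wt c N S] δ) := by
  have hD := mdiff_dnm c N S
  have hev : (fun z : ℍ => X (δ • z) * (discriminant z ^ c * (∏ s ∈ S, vanishAt s ^ N) z))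
      =ᶠ[atImInfty] (numFun X (dnm c N S) ∣[wt c N S] δ) := by
    rw [Filter.EventuallyEq, Filter.Eventually, atImInfty_mem]
    refine ⟨T, fun z hz => ?_⟩
    have h1 := analyticAt_of_conjFun X δ z (hunif δ z hz).1
    change X (δ • z) * (discriminant z ^ c * (∏ s ∈ S, vanishAt s ^ N) z) =
      (numFun X (dnm c N S) ∣[wt c N S] δ) z
    rw [slash_apply_aut, numFun_eq hmer hD _ h1, transOn_dnm c N S δ (Subgroup.mem_top δ) z,
      zpow_neg]
    have := zpow_ne_zero (wt c N S) (aut_ne_zero δ z)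
    simp only [dnm, Pi.mul_apply, Pi.pow_apply]
    field_simp
  have hO1 : (fun z : ℍ => X (δ • z)) =O[atImInfty] fun z : ℍ => Real.exp (m * z.im) := by
    refine Asymptotics.IsBigO.of_bound C ?_
    rw [Filter.Eventually, atImInfty_mem]
    refine ⟨T, fun z hz => ?_⟩
    change ‖X (δ • z)‖ ≤ C * ‖Real.exp (m * z.im)‖
    rw [Real.norm_eq_abs, abs_of_pos (Real.exp_pos _)]
    exact (hunif δ z hz).2
  have hO2 : (fun z : ℍ => discriminant z ^ c) =O[atImInfty]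
      fun z : ℍ => Real.exp (-(2 * Real.pi * z.im)) ^ c := isBigO_discriminant.pow c
  have hO3 : (∏ s ∈ S, vanishAt s ^ N) =O[atImInfty] (1 : ℍ → ℝ) :=
    bdd_prod S _ fun s _ => bdd_pow (isBoundedAtImInfty_vanishAt s) N
  have hO := hO1.mul (hO2.mul hO3)
  have hlim : Tendsto (fun z : ℍ => Real.exp (m * z.im) *
      (Real.exp (-(2 * Real.pi * z.im)) ^ c * (1 : ℍ → ℝ) z)) atImInfty (𝓝 0) := by
    have hκ : 0 < 2 * Real.pi * c - m := by linarith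
    refine (tendsto_exp_neg_mul_im hκ).congr fun z => ?_
    rw [Pi.one_apply, mul_one, ← Real.exp_nat_mul, ← Real.exp_add]
    congr 1
    ring
  exact (hO.trans_tendsto hlim).congr' hev


/-! ### Packaging -/

/-- A cusp form of level `Γ₀(M)` from a function. -/
def mkCusp (M : ℕ) [NeZero M] (k : ℤ) (g : ℍ → ℂ) (hol : MDiff g)
    (inv : ∀ γ ∈ Gamma0 M, g ∣[k] γ = g) (zero : ∀ δ : SL(2, ℤ), IsZeroAtImInfty (g ∣[k] δ)) :
    CuspForm (Gamma0 M) k where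
  toFun := g
  slash_action_eq' A hA := by
    obtain ⟨A, hA, rfl⟩ := hA
    exact inv A hA
  holo' := hol
  zero_at_cusps' hc := by
    rw [Subgroup.IsArithmetic.isCusp_iff_isCusp_SL2Z] at hc
    rw [OnePoint.isZeroAt_iff_forall_SL2Z hc]
    intro γ _
    exact zero γ

@[simp] lemma coe_mkCusp (M : ℕ) [NeZero M] (k : ℤ) (g : ℍ → ℂ) (hol : MDiff g)
    (inv : ∀ γ ∈ Gamma0 M, g ∣[k] γ = g) (zero : ∀ δ : SL(2, ℤ), IsZeroAtImInfty (g ∣[k] δ)) :
    ⇑(mkCusp M k g hol inv zero) = g := rfl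

lemma tendsto_E₄ : Tendsto (E₄ : ℍ → ℂ) atImInfty (𝓝 1) := by
  have hper := SlashInvariantFormClass.periodic_comp_ofComplex E₄ one_mem_strictPeriods_SL
  have h0 : valueAtInfty (E₄ : ℍ → ℂ) = 1 := by
    rw [← qExpansion_coeff_zero one_pos
      (ModularFormClass.analyticAt_cuspFunction_zero E₄ one_pos one_mem_strictPeriods_SL) hper]
    exact EisensteinSeries.E_qExpansion_coeff_zero _ ⟨2, rfl⟩
  have h1 := exp_decay_sub_atImInfty one_pos hper (ModularFormClass.holo E₄)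
    (ModularFormClass.bdd_at_infty E₄)
  have h2 : Tendsto (fun τ : ℍ => Real.exp (-2 * Real.pi * τ.im / 1)) atImInfty (𝓝 0) := by
    refine (tendsto_exp_neg_mul_im Real.two_pi_pos).congr fun τ => ?_
    congr 1
    ring
  have h3 := h1.trans_tendsto h2
  rw [h0] at h3
  exact tendsto_sub_nhds_zero_iff.mp h3

lemma vanishAt_ne_zero (s : ℍ) : vanishAt s ≠ 0 := by
  intro h
  have hΔ : Tendsto (discriminant : ℍ → ℂ) atImInfty (𝓝 0) := discriminant_isZeroAtImInfty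
  have h1 : Tendsto (fun z : ℍ => discriminant s * E₄ z ^ 3 - E₄ s ^ 3 * discriminant z)
      atImInfty (𝓝 (discriminant s * 1 ^ 3 - E₄ s ^ 3 * 0)) :=
    ((tendsto_E₄.pow 3).const_mul _).sub (hΔ.const_mul _)
  have h2 : (fun z : ℍ => discriminant s * E₄ z ^ 3 - E₄ s ^ 3 * discriminant z) =
      fun _ => 0 := by
    funext z
    have := congrFun h z
    simpa [vanishAt] using this
  rw [h2] at h1
  have h3 := tendsto_nhds_unique h1 tendsto_const_nhds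
  simp only [one_pow, mul_one, mul_zero, sub_zero] at h3
  exact discriminant_ne_zero s h3

lemma dnm_ne_zero (c N : ℕ) (S : Finset ℍ) : dnm c N S ≠ 0 := by
  intro h
  rw [dnm, UpperHalfPlane.mul_eq_zero_iff (mdiff_discriminant.pow c)
    (mdiff_prod S _ fun s _ => (mdiff_vanishAt s).pow N)] at h
  rcases h with h | h
  · have h1 : discriminant UpperHalfPlane.I ^ c = 0 := congrFun h UpperHalfPlane.I
    exact discriminant_ne_zero _ (eq_zero_of_pow_eq_zero h1)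
  · rw [UpperHalfPlane.prod_eq_zero_iff (fun s _ => (mdiff_vanishAt s).pow N)] at h
    obtain ⟨s, -, hs⟩ := h
    refine vanishAt_ne_zero s ?_
    funext z
    have h1 : vanishAt s z ^ N = 0 := congrFun hs z
    exact eq_zero_of_pow_eq_zero h1

lemma dnm_isZeroAtImInfty (c N : ℕ) (S : Finset ℍ) (hc : 1 ≤ c) :
    IsZeroAtImInfty (dnm c N S) := by
  obtain ⟨c, rfl⟩ : ∃ c', c = c' + 1 := ⟨c - 1, by omega⟩
  have hΔ : Tendsto (discriminant : ℍ → ℂ) atImInfty (𝓝 0) := discriminant_isZeroAtImInfty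
  have hb : IsBoundedAtImInfty ((discriminant : ℍ → ℂ) ^ c * ∏ s ∈ S, vanishAt s ^ N) :=
    (bdd_pow discriminant_isZeroAtImInfty.boundedAtFilter c).mul
      (bdd_prod S _ fun s _ => bdd_pow (isBoundedAtImInfty_vanishAt s) N)
  have hO : (fun z : ℍ => discriminant z *
      ((discriminant : ℍ → ℂ) ^ c * ∏ s ∈ S, vanishAt s ^ N) z) =O[atImInfty]
      fun z : ℍ => ‖discriminant z‖ * (1 : ℍ → ℝ) z :=
    (Asymptotics.isBigO_refl _ _).norm_right.mul hb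
  have hlim : Tendsto (fun z : ℍ => ‖discriminant z‖ * (1 : ℍ → ℝ) z) atImInfty (𝓝 0) := by
    simpa using tendsto_zero_iff_norm_tendsto_zero.mp hΔ
  have hfun : dnm (c + 1) N S = fun z : ℍ => discriminant z *
      ((discriminant : ℍ → ℂ) ^ c * ∏ s ∈ S, vanishAt s ^ N) z := by
    funext z
    simp only [dnm, Pi.mul_apply, Pi.pow_apply]
    ring
  rw [hfun]
  exact hO.trans_tendsto hlim

/-- The denominator as a cusp form on `Γ₀(M)`. -/
def dnmForm (M : ℕ) [NeZero M] (c N : ℕ) (S : Finset ℍ) (hc : 1 ≤ c) :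
    CuspForm (Gamma0 M) (wt c N S) :=
  mkCusp M (wt c N S) (dnm c N S) (mdiff_dnm c N S) (fun γ _ => dnm_slash c N S γ)
    (fun δ => by rw [dnm_slash]; exact dnm_isZeroAtImInfty c N S hc)

@[simp] lemma coe_dnmForm (M : ℕ) [NeZero M] (c N : ℕ) (S : Finset ℍ) (hc : 1 ≤ c) :
    ⇑(dnmForm M c N S hc) = dnm c N S := rfl

lemma dnmForm_ne_zero (M : ℕ) [NeZero M] (c N : ℕ) (S : Finset ℍ) (hc : 1 ≤ c) :
    dnmForm M c N S hc ≠ 0 := by
  intro h
  refine dnm_ne_zero c N S ?_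
  rw [← coe_dnmForm M c N S hc, h]
  rfl

/-! ### The main theorems -/

/-- The denominators `dnm c N S` clear the poles of `X` as soon as `c`, `N`, `S` are large
enough, and the product is then a cusp form on `Γ₀(M)`. -/
theorem exists_denominator_data (M : ℕ) [NeZero M] (X : ℍ → ℂ)
    (hmer : ∀ z : ℍ, MeromorphicAt (X ∘ ofComplex) z)
    (hinv : ∀ γ ∈ Gamma0 M, ∀ z : ℍ, X (γ • z) = X z)
    (hcusp : ∀ γ : SL(2, ℤ), ∃ T m C : ℝ, ∀ z : ℍ, T ≤ z.im →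
      AnalyticAt ℂ (fun w : ℂ => X (γ • ofComplex w)) z ∧
        ‖X (γ • z)‖ ≤ C * Real.exp (m * z.im)) :
    ∃ (c₀ N₀ : ℕ) (S₀ : Finset ℍ), ∀ (c N : ℕ) (S : Finset ℍ), c₀ ≤ c → N₀ ≤ N → S₀ ⊆ S →
      ∃ A : CuspForm (Gamma0 M) (wt c N S),
        ∀ z : ℍ, AnalyticAt ℂ (X ∘ ofComplex) z → X z * dnm c N S z = A z := by
  obtain ⟨T, m, C, -, -, hunif⟩ := exists_uniform_cusp hinv hcusp
  obtain ⟨N₀, S₀, hctl⟩ := exists_pole_control hmer hinv hcusp
  refine ⟨⌈m⌉₊ + 1, N₀, S₀, fun c N S hc hN hS => ?_⟩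
  have hord := order_nonneg_of_control hmer hctl c hN hS
  have hD := mdiff_dnm c N S
  have hcm : m < 2 * Real.pi * c := by
    have h1 : m ≤ ⌈m⌉₊ := Nat.le_ceil m
    have h2 : ((⌈m⌉₊ + 1 : ℕ) : ℝ) ≤ c := by exact_mod_cast hc
    have h3 : (1 : ℝ) < 2 * Real.pi := by
      have := Real.pi_gt_three
      linarith
    push_cast at h2
    have h4 : (0 : ℝ) ≤ ⌈m⌉₊ := Nat.cast_nonneg _
    nlinarith
  refine ⟨mkCusp M (wt c N S) (numFun X (dnm c N S)) (mdiff_numFun hmer hD hord)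
    (numFun_slash hmer hD hord hinv ((transOn_dnm c N S).mono le_top))
    (numFun_isZeroAtImInfty hmer hunif hcm), fun z hz => ?_⟩
  exact (numFun_eq hmer hD z hz).symm

/-- **Quotient theorem.** A `Γ₀(M)`-invariant function on the upper half plane which is
meromorphic on `ℍ` and meromorphic at every cusp is `A / B` for cusp forms `A`, `B` on `Γ₀(M)`
of the same weight, with `B ≠ 0` invariant under all of `SL(2, ℤ)`. -/
theorem exists_cuspForm_quotient (M : ℕ) [NeZero M] (X : ℍ → ℂ)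
    (hmer : ∀ z : ℍ, MeromorphicAt (X ∘ ofComplex) z)
    (hinv : ∀ γ ∈ Gamma0 M, ∀ z : ℍ, X (γ • z) = X z)
    (hcusp : ∀ γ : SL(2, ℤ), ∃ T m C : ℝ, ∀ z : ℍ, T ≤ z.im →
      AnalyticAt ℂ (fun w : ℂ => X (γ • ofComplex w)) z ∧
        ‖X (γ • z)‖ ≤ C * Real.exp (m * z.im)) :
    ∃ (K : ℤ) (B A : CuspForm (Gamma0 M) K), B ≠ 0 ∧ (∀ γ : SL(2, ℤ), ⇑B ∣[K] γ = ⇑B) ∧
      ∀ z : ℍ, AnalyticAt ℂ (X ∘ ofComplex) z → X z * B z = A z := by
  obtain ⟨c₀, N₀, S₀, h⟩ := exists_denominator_data M X hmer hinv hcusp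
  obtain ⟨A, hA⟩ := h (c₀ + 1) N₀ S₀ (Nat.le_succ _) le_rfl (Finset.Subset.refl _)
  exact ⟨wt (c₀ + 1) N₀ S₀, dnmForm M (c₀ + 1) N₀ S₀ (Nat.succ_le_succ (Nat.zero_le _)), A,
    dnmForm_ne_zero _ _ _ _ _, fun γ => dnm_slash _ _ _ γ, hA⟩

/-- **Quotient theorem, two functions with a common denominator** (the coordinates of a
modular parametrisation). -/
theorem exists_cuspForm_quotient₂ (M : ℕ) [NeZero M] (X Y : ℍ → ℂ)
    (hmerX : ∀ z : ℍ, MeromorphicAt (X ∘ ofComplex) z)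
    (hinvX : ∀ γ ∈ Gamma0 M, ∀ z : ℍ, X (γ • z) = X z)
    (hcuspX : ∀ γ : SL(2, ℤ), ∃ T m C : ℝ, ∀ z : ℍ, T ≤ z.im →
      AnalyticAt ℂ (fun w : ℂ => X (γ • ofComplex w)) z ∧
        ‖X (γ • z)‖ ≤ C * Real.exp (m * z.im))
    (hmerY : ∀ z : ℍ, MeromorphicAt (Y ∘ ofComplex) z)
    (hinvY : ∀ γ ∈ Gamma0 M, ∀ z : ℍ, Y (γ • z) = Y z)
    (hcuspY : ∀ γ : SL(2, ℤ), ∃ T m C : ℝ, ∀ z : ℍ, T ≤ z.im →
      AnalyticAt ℂ (fun w : ℂ => Y (γ • ofComplex w)) z ∧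
        ‖Y (γ • z)‖ ≤ C * Real.exp (m * z.im)) :
    ∃ (K : ℤ) (B A₁ A₂ : CuspForm (Gamma0 M) K), B ≠ 0 ∧ (∀ γ : SL(2, ℤ), ⇑B ∣[K] γ = ⇑B) ∧
      (∀ z : ℍ, AnalyticAt ℂ (X ∘ ofComplex) z → X z * B z = A₁ z) ∧
      (∀ z : ℍ, AnalyticAt ℂ (Y ∘ ofComplex) z → Y z * B z = A₂ z) := by
  classical
  obtain ⟨c₁, N₁, S₁, h₁⟩ := exists_denominator_data M X hmerX hinvX hcuspX
  obtain ⟨c₂, N₂, S₂, h₂⟩ := exists_denominator_data M Y hmerY hinvY hcuspY
  obtain ⟨A₁, hA₁⟩ := h₁ (c₁ + c₂ + 1) (N₁ + N₂) (S₁ ∪ S₂) (by omega) (by omega)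
    Finset.subset_union_left
  obtain ⟨A₂, hA₂⟩ := h₂ (c₁ + c₂ + 1) (N₁ + N₂) (S₁ ∪ S₂) (by omega) (by omega)
    Finset.subset_union_right
  exact ⟨wt (c₁ + c₂ + 1) (N₁ + N₂) (S₁ ∪ S₂),
    dnmForm M (c₁ + c₂ + 1) (N₁ + N₂) (S₁ ∪ S₂) (by omega), A₁, A₂,
    dnmForm_ne_zero _ _ _ _ _, fun γ => dnm_slash _ _ _ γ, hA₁, hA₂⟩

end Fermat.Agent.S58.helper7701
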