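import Mathlib

/-!
# Involutions of an algebraically closed field invert roots of unity of odd order (helper8215)

A small Artin–Schreier lemma, Mathlib only.  Let `K` be an algebraically closed field with
`(2 : K) ≠ 0` and `c : K ≃+* K` with `c (c x) = x` for all `x` and `c x ≠ x` for some `x`.  Then

* `ringInvolution_apply_I`   : a square root of `-1` is not fixed by `c`;
* `ringInvolution_exists_sq_eq_sum_sq` : a sum of two squares of `c`-fixed elements is the square
  of a `c`-fixed element; `ringInvolution_exists_sq_eq_sum_range_sq`: the same for finite sums;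
* `ringInvolution_root_ne`   : a root of unity `≠ 1` of odd order is not fixed by `c`;
* `ringInvolution_mul_apply_eq_one` : `ζ * c ζ = 1` for every `ζ` with `ζ ^ m = 1`, `m` odd;
* `ringInvolution_apply_eq_inv`     : `c ζ = ζ⁻¹` for such `ζ`.

Corollaries for `ℚ̄ = AlgebraicClosure ℚ` and `c : ℚ̄ ≃ₐ[ℚ] ℚ̄` with `c * c = 1`, `c ≠ 1`:
`involution_apply_root_of_odd`, `involution_apply_root` (`c ζ = ζ⁻¹` for `ζ ^ p = 1`, `p` an odd
prime).

Consumer: the `IsOdd` clause of the Prelude residual representations is stated for EVERY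
involution `c ≠ 1`, not only for the chosen complex conjugation.
-/

set_option autoImplicit false

namespace Fermat.Agent.S58.helper8215

section General

variable {K : Type*} [Field K] [IsAlgClosed K]

/-- A square root of `-1` is not fixed by a nontrivial involution of an algebraically closed
field of characteristic `≠ 2`. -/
theorem ringInvolution_apply_I (h2 : (2 : K) ≠ 0) (c : K ≃+* K) (hc : ∀ x, c (c x) = x)
    (hc1 : ∃ x, c x ≠ x) (i : K) (hi : i ^ 2 = -1) : c i ≠ i := by
  intro hci
  obtain ⟨x, hx⟩ := hc1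
  have hδ : x - c x ≠ 0 := fun h => hx (sub_eq_zero.mp h).symm
  have hcδ : c (x - c x) = -(x - c x) := by
    rw [map_sub, hc]; ring
  obtain ⟨y, hy⟩ := IsAlgClosed.exists_pow_nat_eq (x - c x) (n := 2) (by norm_num)
  have hy0 : y ≠ 0 := by
    rintro rfl
    apply hδ
    rw [← hy]; ring
  have hsq : (c y) ^ 2 = (i * y) ^ 2 := by
    rw [← map_pow, hy, hcδ, mul_pow, hi, hy]; ring
  have hcase : c y = i * y ∨ c y = -(i * y) := by
    have h0 : (c y - i * y) * (c y + i * y) = 0 := by linear_combination hsq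
    rcases mul_eq_zero.mp h0 with h | h
    · exact Or.inl (sub_eq_zero.mp h)
    · exact Or.inr (eq_neg_of_add_eq_zero_left h)
  have hneg : c (c y) = -y := by
    rcases hcase with h | h
    · rw [h, map_mul, hci, h]
      linear_combination y * hi
    · rw [h, map_neg, map_mul, hci, h]
      linear_combination y * hi
  rw [hc] at hneg
  have h2y : (2 : K) * y = 0 := by linear_combination hneg
  rcases mul_eq_zero.mp h2y with h | h
  · exact h2 h
  · exact hy0 h

/-- A sum of two squares of fixed elements is the square of a fixed element. -/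
theorem ringInvolution_exists_sq_eq_sum_sq (h2 : (2 : K) ≠ 0) (c : K ≃+* K)
    (hc : ∀ x, c (c x) = x) (hc1 : ∃ x, c x ≠ x) (a b : K) (ha : c a = a) (hb : c b = b) :
    ∃ s : K, c s = s ∧ s ^ 2 = a ^ 2 + b ^ 2 := by
  obtain ⟨i, hi⟩ := IsAlgClosed.exists_pow_nat_eq (-1 : K) (n := 2) (by norm_num)
  have hci : c i = -i := by
    have hne := ringInvolution_apply_I h2 c hc hc1 i hi
    have hsq : (c i) ^ 2 = i ^ 2 := by rw [← map_pow, hi, map_neg, map_one]
    have h0 : (c i - i) * (c i + i) = 0 := by linear_combination hsq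
    rcases mul_eq_zero.mp h0 with h | h
    · exact absurd (sub_eq_zero.mp h) hne
    · exact eq_neg_of_add_eq_zero_left h
  obtain ⟨z, hz⟩ := IsAlgClosed.exists_pow_nat_eq (a + b * i) (n := 2) (by norm_num)
  refine ⟨z * c z, ?_, ?_⟩
  · rw [map_mul, hc, mul_comm]
  · have h1 : (c z) ^ 2 = a - b * i := by
      rw [← map_pow, hz, map_add, map_mul, ha, hb, hci]; ring
    rw [mul_pow, hz, h1]
    linear_combination (-(b ^ 2)) * hi

/-- A finite sum of squares of fixed elements is the square of a fixed element. -/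
theorem ringInvolution_exists_sq_eq_sum_range_sq (h2 : (2 : K) ≠ 0) (c : K ≃+* K)
    (hc : ∀ x, c (c x) = x) (hc1 : ∃ x, c x ≠ x) (f : ℕ → K) (hf : ∀ j, c (f j) = f j)
    (n : ℕ) : ∃ s : K, c s = s ∧ s ^ 2 = ∑ j ∈ Finset.range n, f j ^ 2 := by
  induction n with
  | zero => exact ⟨0, map_zero c, by simp⟩
  | succ n ih =>
    obtain ⟨s, hs, hs2⟩ := ih
    obtain ⟨s', hs', hs2'⟩ := ringInvolution_exists_sq_eq_sum_sq h2 c hc hc1 s (f n) hs (hf n)
    exact ⟨s', hs', by rw [Finset.sum_range_succ, ← hs2, hs2']⟩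

/-- A root of unity `≠ 1` of odd order is not fixed by a nontrivial involution. -/
theorem ringInvolution_root_ne (h2 : (2 : K) ≠ 0) (c : K ≃+* K) (hc : ∀ x, c (c x) = x)
    (hc1 : ∃ x, c x ≠ x) {n : ℕ} (hn : Odd n) (w : K) (hw : w ^ n = 1) (hw1 : w ≠ 1) :
    c w ≠ w := by
  intro hcw
  obtain ⟨m, rfl⟩ := hn
  -- `∑_{j < 2m+1} w^j = 0`
  have hsum : ∑ j ∈ Finset.range (2 * m + 1), w ^ j = 0 := by
    have h := mul_geom_sum w (2 * m + 1)
    rw [hw, sub_self] at h
    rcases mul_eq_zero.mp h with h | h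
    · exact absurd (sub_eq_zero.mp h) hw1
    · exact h
  have hsq : ∀ j : ℕ, (w ^ ((j + 1) * (m + 1))) ^ 2 = w ^ (j + 1) := by
    intro j
    have e : (j + 1) * (m + 1) * 2 = (2 * m + 1) * (j + 1) + (j + 1) := by ring
    rw [← pow_mul, e, pow_add, pow_mul, hw, one_pow, one_mul]
  obtain ⟨s, hs, hs2⟩ := ringInvolution_exists_sq_eq_sum_range_sq h2 c hc hc1
    (fun j => w ^ ((j + 1) * (m + 1))) (fun j => by rw [map_pow, hcw]) (2 * m)
  have hneg : s ^ 2 = -1 := by
    rw [hs2]
    simp only [hsq]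
    rw [Finset.sum_range_succ'] at hsum
    rw [pow_zero] at hsum
    linear_combination hsum
  exact ringInvolution_apply_I h2 c hc hc1 s hneg hs

/-- **A nontrivial involution of an algebraically closed field of characteristic `≠ 2` sends a
root of unity of odd order to its inverse** (product form). -/
theorem ringInvolution_mul_apply_eq_one (h2 : (2 : K) ≠ 0) (c : K ≃+* K)
    (hc : ∀ x, c (c x) = x) (hc1 : ∃ x, c x ≠ x) {m : ℕ} (hm : Odd m) {ζ : K}
    (hζ : ζ ^ m = 1) : ζ * c ζ = 1 := by
  have hw : (ζ * c ζ) ^ m = 1 := by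
    rw [mul_pow, ← map_pow, hζ, map_one, mul_one]
  have hcw : c (ζ * c ζ) = ζ * c ζ := by
    rw [map_mul, hc, mul_comm]
  by_contra hne
  exact ringInvolution_root_ne h2 c hc hc1 hm _ hw hne hcw

/-- **A nontrivial involution of an algebraically closed field of characteristic `≠ 2` inverts
the roots of unity of odd order.** -/
theorem ringInvolution_apply_eq_inv (h2 : (2 : K) ≠ 0) (c : K ≃+* K)
    (hc : ∀ x, c (c x) = x) (hc1 : ∃ x, c x ≠ x) {m : ℕ} (hm : Odd m) {ζ : K}
    (hζ : ζ ^ m = 1) : c ζ = ζ⁻¹ :=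
  eq_inv_of_mul_eq_one_right (ringInvolution_mul_apply_eq_one h2 c hc hc1 hm hζ)

/-- The characteristic-zero form. -/
theorem ringInvolution_apply_eq_inv_of_charZero [CharZero K] (c : K ≃+* K)
    (hc : ∀ x, c (c x) = x) (hc1 : ∃ x, c x ≠ x) {n : ℕ} (hn : Odd n) {z : K}
    (hz : z ^ n = 1) : c z = z⁻¹ :=
  ringInvolution_apply_eq_inv two_ne_zero c hc hc1 hn hz

end General

local notation "Qb" => AlgebraicClosure ℚ
local notation "GQ" => (AlgebraicClosure ℚ ≃ₐ[ℚ] AlgebraicClosure ℚ)

section Involution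

variable (c : GQ)

/-- An involution applied twice is the identity. -/
theorem involution_apply_apply (hc : c * c = 1) (x : Qb) : c (c x) = x := by
  have h := congrArg (fun f : GQ => f x) hc
  simpa [AlgEquiv.mul_apply] using h

/-- A nontrivial automorphism moves some element. -/
theorem exists_apply_ne (hc1 : c ≠ 1) : ∃ x : Qb, c x ≠ x := by
  by_contra h
  exact hc1 (AlgEquiv.ext fun x => by
    have hx : c x = x := not_not.mp fun hne => h ⟨x, hne⟩
    simpa using hx)

/-- **Every involution `≠ 1` of `ℚ̄` inverts the roots of unity of odd order.** -/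
theorem involution_apply_root_of_odd (hc : c * c = 1) (hc1 : c ≠ 1) {n : ℕ} (hn : Odd n)
    (ζ : Qb) (hζ : ζ ^ n = 1) : c ζ = ζ⁻¹ :=
  ringInvolution_apply_eq_inv (K := Qb) two_ne_zero c.toRingEquiv
    (fun x => involution_apply_apply c hc x) (exists_apply_ne c hc1) hn hζ

/-- **Every involution `≠ 1` of `ℚ̄` inverts the `p`-th roots of unity**, `p` an odd prime. -/
theorem involution_apply_root (hc : c * c = 1) (hc1 : c ≠ 1) {p : ℕ} (hp : p.Prime)
    (hp2 : p ≠ 2) (ζ : Qb) (hζ : ζ ^ p = 1) : c ζ = ζ⁻¹ :=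
  involution_apply_root_of_odd c hc hc1 (hp.odd_of_ne_two hp2) ζ hζ

end Involution

end Fermat.Agent.S58.helper8215
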