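import Fermat.Agent.S58.helper8215_Hres
import Fermat.Agent.S58.helper7532_GDefs

/-!
# S58 Route G: the leaf `Stmt_Res` from the leaf `Stmt_Transfer` (helper8215)

`stmt_Res_of_transfer : helper7532.Stmt_Transfer → helper7532.Stmt_Res`.

The transfer at `m = n = 1` gives, for every `σ`, integers `t`, `d` with
`tr ρ(σ) ≡ t`, `det ρ(σ) ≡ d` modulo the maximal ideal, `σ² - t σ + d = 0` on `W[p]` and
`σ ζ = ζ ^ d` on `μ_p`; this is the level-one transfer `TransferAt` of `helper8215_Hres`, and
`hres_adic` concludes.  Also `stmt_Conj : helper7532.Stmt_Conj`.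
-/

set_option autoImplicit false

namespace Fermat.Agent.S58.helper8215

open Polynomial
open scoped WeierstrassCurve.Affine

local notation "Qb" => AlgebraicClosure ℚ
local notation "GQ" => (AlgebraicClosure ℚ ≃ₐ[ℚ] AlgebraicClosure ℚ)

/-- The characteristic polynomial of an endomorphism of a free module of rank two. -/
theorem charpoly_eq_of_finrank_two {R : Type*} [CommRing R] [Nontrivial R] {M : Type*}
    [AddCommGroup M] [Module R M] [Module.Free R M] [Module.Finite R M]
    (hM : Module.finrank R M = 2) (f : Module.End R M) :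
    LinearMap.charpoly f = X ^ 2 - C (LinearMap.trace R M f) * X + C (LinearMap.det f) := by
  classical
  let b : Module.Basis (Fin 2) R M := Module.finBasisOfFinrankEq R M hM
  rw [← LinearMap.charpoly_toMatrix f b, Matrix.charpoly_fin_two,
    LinearMap.trace_eq_matrix_trace R b f, LinearMap.det_toMatrix b f]

/-- `helper7532.Stmt_Conj` is the landed involution lemma. -/
theorem stmt_Conj : Fermat.Agent.S58.helper7532.Stmt_Conj :=
  fun c hc hc1 _ hp hp2 ζ hζ => involution_apply_root c hc hc1 hp hp2 ζ hζ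

/-- **`Stmt_Res` from `Stmt_Transfer`.** -/
theorem stmt_Res_of_transfer (hT : Fermat.Agent.S58.helper7532.Stmt_Transfer) :
    Fermat.Agent.S58.helper7532.Stmt_Res := by
  intro W hΔ p hpF hp2 hirr O _ _ hpO ρ T hF
  have hp : p.Prime := hpF.out
  have : NeZero ((p : ℕ) : Qb) := ⟨by exact_mod_cast hp.ne_zero⟩
  obtain ⟨ζ, hζ⟩ := HasEnoughRootsOfUnity.exists_primitiveRoot Qb p
  refine hres_adic hΔ hp2 hirr hpO ρ ζ hζ (fun σ => ?_)
  obtain ⟨t, d, htr, hdet, hrel, hz⟩ := hT W hΔ p hp O ρ T hF 1 1 σ
  refine transferAt_of_points ρ.residual ζ σ t d ?_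
    (hz ζ (by rw [pow_one]; exact hζ.pow_eq_one)) ?_
  · intro P hP
    have hmem : P ∈ Submodule.torsionBy ℤ
        (((W.map (Int.castRingHom ℚ)).toAffine)⁄Qb).Point ((p ^ 1 : ℕ) : ℤ) := by
      rw [Submodule.mem_torsionBy_iff, pow_one, natCast_zsmul]
      exact hP
    have h1 := congrArg Subtype.val (hrel ⟨P, hmem⟩)
    exact h1
  · rw [pow_one] at htr hdet
    have h1 : algebraMap O (IsLocalRing.ResidueField O) (LinearMap.trace O ρ.V (ρ.ρ σ)) =
        ((t : ℤ) : IsLocalRing.ResidueField O) := by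
      have h2 : IsLocalRing.residue O (LinearMap.trace O ρ.V (ρ.ρ σ) - (t : O)) = 0 :=
        (IsLocalRing.residue_eq_zero_iff _).mpr htr
      rw [map_sub, map_intCast, sub_eq_zero] at h2
      exact h2
    have h3 : algebraMap O (IsLocalRing.ResidueField O) (LinearMap.det (ρ.ρ σ)) =
        ((d : ℕ) : IsLocalRing.ResidueField O) := by
      have h2 : IsLocalRing.residue O (LinearMap.det (ρ.ρ σ) - (d : O)) = 0 :=
        (IsLocalRing.residue_eq_zero_iff _).mpr hdet
      rw [map_sub, map_natCast, sub_eq_zero] at h2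
      exact h2
    rw [residual_charpoly, charpoly_eq_of_finrank_two ρ.finrank_eq]
    simp only [Polynomial.map_add, Polynomial.map_sub, Polynomial.map_mul, Polynomial.map_pow,
      Polynomial.map_X, Polynomial.map_C]
    rw [h1, h3]

end Fermat.Agent.S58.helper8215
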