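import Mathlib
import Fermat.Prelude.Def_FLTPrelim_Modularity

/-!
# S58 step 6b (DESC): unramified descent of semistable models, via invariants

`K` a field of characteristic zero, `A` a valuation subring whose maximal ideal is generated by
the rational prime `l`.  If a Weierstrass curve `E` over `ℚ` has, after a variable change over `K`,
an `A`-integral model with `Δ` or `c₄` a unit, then `E` has a model over `ℤ` whose `Δ` and `c₄`
have the same `A`-valuations.  The proof writes down explicit models from the invariants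
`(c₄, c₆)`; there is no minimal-model argument.
-/

set_option autoImplicit false

namespace Fermat.Agent.S58.helper898

open WeierstrassCurve

section Val

variable {K : Type*} [Field K] (A : ValuationSubring K) (l : ℕ)

/-- `l` is a prime number which generates the maximal ideal of `A`. -/
structure Unram : Prop where
  prime : l.Prime
  lt : A.valuation (l : K) < 1
  unr : ∀ x : K, A.valuation x < 1 → A.valuation (x / (l : K)) ≤ 1

variable {A l}

lemma Unram.val_intCast_le (_h : Unram A l) (n : ℤ) : A.valuation (n : K) ≤ 1 :=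
  (A.valuation_le_one_iff _).2 (intCast_mem A n)

lemma Unram.val_natCast_le (_h : Unram A l) (n : ℕ) : A.valuation (n : K) ≤ 1 :=
  (A.valuation_le_one_iff _).2 (natCast_mem A n)

lemma Unram.val_intCast_eq_one (h : Unram A l) {n : ℤ} (hn : ¬ (l : ℤ) ∣ n) :
    A.valuation (n : K) = 1 := by
  refine le_antisymm (h.val_intCast_le n) (not_lt.1 fun hlt => ?_)
  have hcop : IsCoprime (l : ℤ) n :=
    (Nat.prime_iff_prime_int.1 h.prime).coprime_iff_not_dvd.2 hn
  obtain ⟨a, b, hab⟩ := hcop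
  have h1 : (1 : K) = (a : K) * (l : K) + (b : K) * (n : K) := by
    have := congrArg (Int.cast : ℤ → K) hab
    push_cast at this
    exact this.symm
  have h2 : A.valuation ((a : K) * (l : K)) < 1 := by
    rw [map_mul]
    exact lt_of_le_of_lt (mul_le_of_le_one_left' (h.val_intCast_le a)) h.lt
  have h3 : A.valuation ((b : K) * (n : K)) < 1 := by
    rw [map_mul]
    exact lt_of_le_of_lt (mul_le_of_le_one_left' (h.val_intCast_le b)) hlt
  have h4 : A.valuation (1 : K) < 1 := by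
    rw [h1]
    exact lt_of_le_of_lt (A.valuation.map_add _ _) (max_lt h2 h3)
  simp at h4

lemma Unram.val_natCast_eq_one (h : Unram A l) {n : ℕ} (hn : ¬ l ∣ n) :
    A.valuation (n : K) = 1 := by
  have := h.val_intCast_eq_one (n := (n : ℤ)) (by exact_mod_cast hn)
  simpa using this

lemma Unram.val_intCast_lt (h : Unram A l) {n : ℤ} (hn : (l : ℤ) ∣ n) :
    A.valuation (n : K) < 1 := by
  obtain ⟨m, rfl⟩ := hn
  push_cast
  rw [map_mul]
  exact lt_of_le_of_lt (mul_le_of_le_one_right' (h.val_intCast_le m)) h.lt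

lemma Unram.not_dvd_of_val_eq_one (h : Unram A l) {n : ℤ} (hn : A.valuation (n : K) = 1) :
    ¬ (l : ℤ) ∣ n := fun hd => (ne_of_lt (h.val_intCast_lt hd)) hn

lemma Unram.inv_natCast_mem (h : Unram A l) {n : ℕ} (hn : ¬ l ∣ n) : ((n : K))⁻¹ ∈ A := by
  rw [← A.valuation_le_one_iff, map_inv₀, h.val_natCast_eq_one hn, inv_one]

/-- A rational number lying in `A` has denominator prime to `l`. -/
lemma Unram.not_dvd_den (h : Unram A l) [CharZero K] {q : ℚ} (hq : A.valuation (q : K) ≤ 1) :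
    ¬ l ∣ q.den := by
  intro hd
  have hnum : ¬ (l : ℤ) ∣ q.num := by
    intro hn
    have h1 : l ∣ q.num.natAbs := Int.natCast_dvd.1 hn
    have h2 : l ∣ Nat.gcd q.num.natAbs q.den := Nat.dvd_gcd h1 hd
    rw [q.reduced] at h2
    exact h.prime.one_lt.ne' (Nat.dvd_one.1 h2)
  have e : (q : K) * (q.den : K) = (q.num : K) := by
    have := congrArg (Rat.cast : ℚ → K) (Rat.mul_den_eq_num q)
    push_cast at this
    exact this
  have h3 : A.valuation ((q : K) * (q.den : K)) < 1 := by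
    rw [map_mul]
    have : A.valuation ((q.den : ℕ) : K) < 1 := by
      have := h.val_intCast_lt (n := (q.den : ℤ)) (by exact_mod_cast hd)
      simpa using this
    exact lt_of_le_of_lt (mul_le_of_le_one_left' hq) this
  rw [e, h.val_intCast_eq_one hnum] at h3
  exact lt_irrefl _ h3

/-- Every nonzero rational number is a power of `l` times an `A`-unit. -/
lemma Unram.exists_zpow_val_eq_one (h : Unram A l) [CharZero K] {q : ℚ} (hq : q ≠ 0) :
    ∃ n : ℤ, A.valuation ((q : K) * (l : K) ^ n) = 1 := by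
  have hl1 : l ≠ 1 := h.prime.one_lt.ne'
  have hl0 : (l : K) ≠ 0 := by exact_mod_cast h.prime.ne_zero
  have hnum : q.num.natAbs ≠ 0 := Int.natAbs_ne_zero.2 (Rat.num_ne_zero.2 hq)
  obtain ⟨a, n', hn', hna⟩ := Nat.exists_eq_pow_mul_and_not_dvd hnum l hl1
  obtain ⟨b, d', hd', hdb⟩ := Nat.exists_eq_pow_mul_and_not_dvd q.den_nz l hl1
  refine ⟨(b : ℤ) - (a : ℤ), ?_⟩
  have e1 : A.valuation ((q.num : K)) = A.valuation (l : K) ^ a := by
    have : A.valuation ((q.num.natAbs : ℕ) : K) = A.valuation (l : K) ^ a := by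
      rw [hna]; push_cast
      rw [map_mul, map_pow, h.val_natCast_eq_one hn', mul_one]
    rcases Int.natAbs_eq q.num with e | e
    · rw [e]; simpa using this
    · rw [e]; push_cast; rw [Valuation.map_neg]; simpa using this
  have e2 : A.valuation ((q.den : K)) = A.valuation (l : K) ^ b := by
    rw [hdb]; push_cast
    rw [map_mul, map_pow, h.val_natCast_eq_one hd', mul_one]
  have hv0 : A.valuation (l : K) ≠ 0 := (Valuation.ne_zero_iff _).2 hl0
  rw [Rat.cast_def, map_mul, map_div₀, e1, e2, map_zpow₀, zpow_sub₀ hv0, zpow_natCast,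
    zpow_natCast]
  field_simp

/-- Convexity: if `y ^ k` is a power of `l` up to a unit, so is `y`. -/
lemma Unram.exists_zpow_of_pow (h : Unram A l) [CharZero K] {y : K} {k : ℕ} (hk : 0 < k)
    {n : ℤ} (hy : A.valuation (y ^ k * (l : K) ^ n) = 1) :
    ∃ j : ℤ, A.valuation (y * (l : K) ^ j) = 1 := by
  have hl0 : (l : K) ≠ 0 := by exact_mod_cast h.prime.ne_zero
  have hv0 : A.valuation (l : K) ≠ 0 := (Valuation.ne_zero_iff _).2 hl0
  have hk' : (k : ℤ) ≠ 0 := by exact_mod_cast hk.ne'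
  -- `-n = k * j + r` with `0 ≤ r < k`
  set j : ℤ := (-n) / k with hj
  set r : ℕ := ((-n) % k).toNat with hr
  have hr0 : 0 ≤ (-n) % (k : ℤ) := Int.emod_nonneg _ hk'
  have hrk : r < k := by
    have : (-n) % (k : ℤ) < k := Int.emod_lt_of_pos _ (by exact_mod_cast hk)
    omega
  have hdecomp : (k : ℤ) * j + (r : ℤ) = -n := by
    rw [hr, Int.toNat_of_nonneg hr0, hj]
    exact Int.mul_ediv_add_emod _ _
  refine ⟨-j, ?_⟩
  set z : K := y * (l : K) ^ (-j) with hz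
  have hzk : z ^ k = (y ^ k * (l : K) ^ n) * (l : K) ^ r := by
    have : n = -((k : ℤ) * j) - r := by omega
    rw [hz, mul_pow, ← zpow_natCast ((l : K) ^ (-j)) k, ← zpow_mul, mul_assoc, this,
      ← zpow_natCast (l : K) r, ← zpow_add₀ hl0]
    congr 2
    ring
  have hvz : A.valuation z ^ k = A.valuation (l : K) ^ r := by
    rw [← map_pow, hzk, map_mul, hy, one_mul, map_pow]
  rcases lt_trichotomy (A.valuation z) 1 with hlt | heq | hgt
  · exfalso
    have h1 : A.valuation z ≤ A.valuation (l : K) := by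
      have := h.unr z hlt
      rw [map_div₀, div_le_iff₀ (zero_lt_iff.2 hv0), one_mul] at this
      exact this
    have h2 : A.valuation z ^ k ≤ A.valuation (l : K) ^ k := pow_le_pow_left' h1 k
    have h3 : A.valuation (l : K) ^ k < A.valuation (l : K) ^ r := by
      have : k = r + (k - r) := by omega
      rw [this, pow_add]
      have h4 : A.valuation (l : K) ^ (k - r) < 1 :=
        pow_lt_one' h.lt (by omega)
      calc A.valuation (l : K) ^ r * A.valuation (l : K) ^ (k - r)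
          < A.valuation (l : K) ^ r * 1 :=
            mul_lt_mul_of_pos_left h4 (zero_lt_iff.2 (pow_ne_zero _ hv0))
        _ = _ := mul_one _
    rw [hvz] at h2
    exact lt_irrefl _ (lt_of_le_of_lt h2 h3)
  · exact heq
  · exfalso
    have h1 : 1 < A.valuation z ^ k := one_lt_pow' hgt hk.ne'
    rw [hvz] at h1
    exact not_le.2 h1 (pow_le_one' h.lt.le r)

end Val

section Ring

variable {K : Type*} [Field K] [CharZero K] {A : ValuationSubring K} {l : ℕ}

omit [CharZero K] in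
@[simp, norm_cast]
lemma coe_ofNat_val (n : ℕ) [n.AtLeastTwo] :
    (((ofNat(n) : A)) : K) = ofNat(n) := rfl

lemma Unram.ne_zero (h : Unram A l) : (l : K) ≠ 0 := by
  exact_mod_cast h.prime.ne_zero

lemma Unram.dvd_of_not_isUnit (h : Unram A l) {x : A} (hx : ¬ IsUnit x) : (l : A) ∣ x := by
  have hl0 : (l : K) ≠ 0 := h.ne_zero
  have hv : A.valuation (x : K) < 1 := by
    rcases A.valuation_lt_one_or_eq_one x with h1 | h1
    · exact h1
    · exact absurd ((A.valuation_eq_one_iff x).2 h1) hx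
  have hm := h.unr _ hv
  rw [A.valuation_le_one_iff] at hm
  refine ⟨⟨_, hm⟩, Subtype.ext ?_⟩
  push_cast
  field_simp

omit [CharZero K] in
lemma Unram.not_isUnit_l (h : Unram A l) : ¬ IsUnit (l : A) := by
  rw [A.valuation_eq_one_iff]
  push_cast
  exact ne_of_lt h.lt

omit [CharZero K] in
lemma Unram.not_isUnit_of_dvd (h : Unram A l) {x : A} (hx : (l : A) ∣ x) : ¬ IsUnit x := by
  obtain ⟨y, rfl⟩ := hx
  intro hu
  exact h.not_isUnit_l (isUnit_of_mul_isUnit_left hu)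

lemma Unram.dvd_of_dvd_pow (h : Unram A l) {x : A} {n : ℕ} (hx : (l : A) ∣ x ^ n) :
    (l : A) ∣ x :=
  h.dvd_of_not_isUnit fun hu => h.not_isUnit_of_dvd hx (hu.pow n)

lemma Unram.two_dvd_of_not_isUnit (h : Unram A 2) {x : A} (hx : ¬ IsUnit x) : (2 : A) ∣ x := by
  simpa using h.dvd_of_not_isUnit hx

omit [CharZero K] in
lemma Unram.not_isUnit_of_two_dvd (h : Unram A 2) {x : A} (hx : (2 : A) ∣ x) : ¬ IsUnit x :=
  h.not_isUnit_of_dvd (by simpa using hx)

lemma Unram.two_dvd_of_dvd_pow (h : Unram A 2) {x : A} {n : ℕ} (hx : (2 : A) ∣ x ^ n) :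
    (2 : A) ∣ x := by
  simpa using h.dvd_of_dvd_pow (x := x) (n := n) (by simpa using hx)

lemma Unram.three_dvd_of_not_isUnit (h : Unram A 3) {x : A} (hx : ¬ IsUnit x) : (3 : A) ∣ x := by
  simpa using h.dvd_of_not_isUnit hx

lemma Unram.three_dvd_of_dvd_pow (h : Unram A 3) {x : A} {n : ℕ} (hx : (3 : A) ∣ x ^ n) :
    (3 : A) ∣ x := by
  simpa using h.dvd_of_dvd_pow (x := x) (n := n) (by simpa using hx)

/-- A rational number which is a unit of `A` is congruent to `1` modulo `2` when `l = 2`. -/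
lemma Unram.two_dvd_sub_one (h : Unram A 2) {q : ℚ} {x : A} (hx : (x : K) = (q : K))
    (hu : IsUnit x) : (2 : A) ∣ x - 1 := by
  have hv : A.valuation (q : K) = 1 := by
    rw [← hx]; exact (A.valuation_eq_one_iff x).1 hu
  have hden : ¬ 2 ∣ q.den := h.not_dvd_den hv.le
  have e : (q : K) * (q.den : K) = (q.num : K) := by
    have := congrArg (Rat.cast : ℚ → K) (Rat.mul_den_eq_num q)
    push_cast at this
    exact this
  have hnum : ¬ (2 : ℤ) ∣ q.num := by
    intro hn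
    have h1 : A.valuation ((q.num : ℤ) : K) < 1 := h.val_intCast_lt (by exact_mod_cast hn)
    rw [← e, map_mul, hv, one_mul, h.val_natCast_eq_one hden] at h1
    exact lt_irrefl _ h1
  have hk : (2 : ℤ) ∣ q.num - q.den := by omega
  obtain ⟨k, hk⟩ := hk
  have hd0 : (q.den : K) ≠ 0 := by exact_mod_cast q.den_nz
  refine ⟨⟨(k : K) * ((q.den : K))⁻¹, A.mul_mem _ _ (intCast_mem A k) (h.inv_natCast_mem hden)⟩,
    Subtype.ext ?_⟩
  have hk' : (q.num : K) - (q.den : K) = 2 * (k : K) := by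
    have := congrArg (Int.cast : ℤ → K) hk
    push_cast at this
    exact this
  show (x : K) - 1 = 2 * ((k : K) * ((q.den : K))⁻¹)
  rw [hx]
  field_simp
  linear_combination e + hk'

/-- `l = 2`, `c₄` a unit: the rational invariants satisfy `c₄ + c₆ ≡ 0 mod 4`. -/
lemma four_dvd_c₄_add_c₆ (h : Unram A 2) (F : WeierstrassCurve A) {c4 : ℚ}
    (h4 : ((F.c₄ : A) : K) = (c4 : K)) (hu : IsUnit F.c₄) : (4 : A) ∣ F.c₄ + F.c₆ := by
  obtain ⟨w, hw⟩ := h.two_dvd_sub_one h4 hu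
  have h1 : (2 : A) ∣ (F.a₁ - 1) ^ 4 :=
    ⟨w - 4 * F.a₁ ^ 2 * F.a₂ - 8 * F.a₂ ^ 2 + 24 * F.a₄ + 12 * F.a₁ * F.a₃ - 2 * F.a₁ ^ 3
        + 3 * F.a₁ ^ 2 - 2 * F.a₁ + 1, by
      simp only [c₄, b₂, b₄] at hw
      linear_combination hw⟩
  obtain ⟨e, he⟩ := h.two_dvd_of_dvd_pow h1
  have ha : F.a₁ = 1 + 2 * e := by linear_combination he
  refine ⟨-(e + e ^ 2 + F.a₂) * (1 + 4 * (e + e ^ 2 + F.a₂)) ^ 2
      + 3 * (2 * F.a₄ + (1 + 2 * e) * F.a₃) * (3 * (1 + 4 * (e + e ^ 2 + F.a₂)) - 2)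
      - 54 * (F.a₃ ^ 2 + 4 * F.a₆), ?_⟩
  simp only [c₄, c₆, b₂, b₄, b₆, ha]
  ring

/-- `l = 3`, `c₄` a non-unit: `c₆ ≡ 0 mod 27`. -/
lemma twentyseven_dvd_c₆ (h : Unram A 3) (F : WeierstrassCurve A) (hn : ¬ IsUnit F.c₄) :
    (27 : A) ∣ F.c₆ := by
  obtain ⟨x, hx⟩ := h.three_dvd_of_not_isUnit hn
  have h1 : (3 : A) ∣ F.b₂ ^ 2 := ⟨x + 8 * F.b₄, by
    simp only [c₄] at hx
    linear_combination hx⟩
  obtain ⟨β, hβ⟩ := h.three_dvd_of_dvd_pow h1
  refine ⟨-β ^ 3 + 4 * β * F.b₄ - 8 * F.b₆, ?_⟩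
  simp only [c₆, hβ]
  ring

/-- `l = 2`, `c₄` a non-unit, `Δ` a unit: `c₄ ≡ 0 mod 16` and `c₆ ≡ -216 mod 32`. -/
lemma sixteen_dvd_c₄_and (h : Unram A 2) (F : WeierstrassCurve A) {c6 : ℚ}
    (h6 : ((F.c₆ : A) : K) = (c6 : K)) (hn : ¬ IsUnit F.c₄) (hΔ : IsUnit F.Δ) :
    (16 : A) ∣ F.c₄ ∧ (32 : A) ∣ F.c₆ + 216 := by
  obtain ⟨x, hx⟩ := h.two_dvd_of_not_isUnit hn
  have h1 : (2 : A) ∣ F.b₂ ^ 2 := ⟨x + 12 * F.b₄, by
    simp only [c₄] at hx
    linear_combination hx⟩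
  obtain ⟨β, hβ⟩ := h.two_dvd_of_dvd_pow h1
  have h2 : (2 : A) ∣ F.a₁ ^ 2 := ⟨β - 2 * F.a₂, by
    simp only [b₂] at hβ
    linear_combination hβ⟩
  obtain ⟨e, he⟩ := h.two_dvd_of_dvd_pow h2
  -- `a₃` is a unit
  have hu3 : IsUnit F.a₃ := by
    by_contra hc
    obtain ⟨t, ht⟩ := h.two_dvd_of_not_isUnit hc
    refine h.not_isUnit_of_two_dvd ⟨?_, ?_⟩ hΔ
    · exact -8 * (e ^ 2 + F.a₂) ^ 2 * F.b₈ - 4 * F.b₄ ^ 3 - 216 * (t ^ 2 + F.a₆) ^ 2
        + 18 * (e ^ 2 + F.a₂) * F.b₄ * F.b₆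
    · simp only [Δ, b₂, b₄, b₆, b₈, he, ht]
      ring
  have hc6 : F.c₆ = 8 * (-8 * (e ^ 2 + F.a₂) ^ 3 + 36 * (e ^ 2 + F.a₂) * (F.a₄ + e * F.a₃)
      - 27 * F.a₃ ^ 2 - 108 * F.a₆) := by
    simp only [c₆, b₂, b₄, b₆, he]
    ring
  have hyu : IsUnit (-8 * (e ^ 2 + F.a₂) ^ 3 + 36 * (e ^ 2 + F.a₂) * (F.a₄ + e * F.a₃)
      - 27 * F.a₃ ^ 2 - 108 * F.a₆) := by
    by_contra hc
    obtain ⟨z, hz⟩ := h.two_dvd_of_not_isUnit hc
    have h3 : (2 : A) ∣ F.a₃ ^ 2 :=
      ⟨14 * F.a₃ ^ 2 + z + 4 * (e ^ 2 + F.a₂) ^ 3 - 18 * (e ^ 2 + F.a₂) * (F.a₄ + e * F.a₃)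
        + 54 * F.a₆, by linear_combination hz⟩
    exact h.not_isUnit_of_two_dvd (h.two_dvd_of_dvd_pow h3) hu3
  have hyq : (((-8 * (e ^ 2 + F.a₂) ^ 3 + 36 * (e ^ 2 + F.a₂) * (F.a₄ + e * F.a₃)
      - 27 * F.a₃ ^ 2 - 108 * F.a₆ : A)) : K) = ((c6 / 8 : ℚ) : K) := by
    have := congrArg (fun a : A => (a : K)) hc6
    simp only [h6] at this
    push_cast at this ⊢
    linear_combination (-1 / 8 : K) * this
  obtain ⟨w, hw⟩ := h.two_dvd_sub_one hyq hyu
  have h4 : (2 : A) ∣ (F.a₃ - 1) ^ 2 :=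
    ⟨w + 14 * F.a₃ ^ 2 + 4 * (e ^ 2 + F.a₂) ^ 3 - 18 * (e ^ 2 + F.a₂) * (F.a₄ + e * F.a₃)
      + 54 * F.a₆ - F.a₃ + 1, by linear_combination hw⟩
  obtain ⟨t, ht⟩ := h.two_dvd_of_dvd_pow h4
  have ha3 : F.a₃ = 1 + 2 * t := by linear_combination ht
  constructor
  · refine ⟨(e ^ 2 + F.a₂) ^ 2 - 3 * (F.a₄ + e * F.a₃), ?_⟩
    simp only [c₄, b₂, b₄, he]
    ring
  · refine ⟨-2 * (e ^ 2 + F.a₂) ^ 3 + 9 * (e ^ 2 + F.a₂) * (F.a₄ + e * (1 + 2 * t))
      - 27 * (t + t ^ 2) - 27 * F.a₆, ?_⟩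
    simp only [c₆, b₂, b₄, b₆, he, ha3]
    ring

end Ring

section Core

variable {K : Type*} [Field K] [CharZero K] {A : ValuationSubring K} {l : ℕ}

/-- `A`-integrality of a Weierstrass curve over `K`. -/
def IntegralAt (A : ValuationSubring K) (E : WeierstrassCurve K) : Prop :=
  E.a₁ ∈ A ∧ E.a₂ ∈ A ∧ E.a₃ ∈ A ∧ E.a₄ ∈ A ∧ E.a₆ ∈ A

omit [CharZero K] in
lemma Unram.not_dvd_two_three (h : Unram A l) (h2 : l ≠ 2) (h3 : l ≠ 3) (a b : ℕ) :
    ¬ l ∣ 2 ^ a * 3 ^ b := by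
  intro hd
  rcases (Nat.Prime.dvd_mul h.prime).1 hd with h' | h'
  · exact h2 ((Nat.prime_dvd_prime_iff_eq h.prime Nat.prime_two).1 (h.prime.dvd_of_dvd_pow h'))
  · exact h3 ((Nat.prime_dvd_prime_iff_eq h.prime Nat.prime_three).1 (h.prime.dvd_of_dvd_pow h'))

/-- The core: an `A`-integral model with rational invariants `(c₄, c₆)` and with `c₄` or `Δ` a
unit gives a model over `ℚ` with the same invariants and `A`-integral coefficients. -/
theorem core (h : Unram A l) (F : WeierstrassCurve A) (c4 c6 : ℚ)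
    (h4 : ((F.c₄ : A) : K) = (c4 : K)) (h6 : ((F.c₆ : A) : K) = (c6 : K))
    (hss : IsUnit F.c₄ ∨ IsUnit F.Δ) :
    ∃ W0 : WeierstrassCurve ℚ, W0.c₄ = c4 ∧ W0.c₆ = c6 ∧
      IntegralAt A (W0.map (algebraMap ℚ K)) := by
  have hc4A : (c4 : K) ∈ A := h4 ▸ F.c₄.2
  have hc6A : (c6 : K) ∈ A := h6 ▸ F.c₆.2
  by_cases hu : IsUnit F.c₄
  · -- `c₄` is a unit: the model `y² + xy = x³ + a₂x² + a₄x + a₆` with `b₂ = -c₆/c₄`
    have hv : A.valuation (c4 : K) = 1 := by
      rw [← h4]; exact (A.valuation_eq_one_iff _).1 hu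
    have hc0K : (c4 : K) ≠ 0 := by
      intro h0; rw [h0, map_zero] at hv; exact zero_ne_one hv
    have hc0 : c4 ≠ 0 := by
      intro h0; exact hc0K (by rw [h0]; simp)
    have hinv : ((c4 : K))⁻¹ ∈ A := by
      rw [← A.valuation_le_one_iff, map_inv₀, hv, inv_one]
    have hΔ : ((F.Δ : A) : K) = (((c4 ^ 3 - c6 ^ 2) / 1728 : ℚ) : K) := by
      have := congrArg (fun a : A => (a : K)) F.c_relation
      push_cast at this ⊢
      rw [h4, h6] at this
      linear_combination (1 / 1728 : K) * this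
    have ha2 : (((-c6 / c4 - 1) / 4 : ℚ) : K) ∈ A := by
      by_cases h2 : l = 2
      · subst h2
        obtain ⟨w, hw⟩ := four_dvd_c₄_add_c₆ h F h4 hu
        have hw' := congrArg (fun a : A => (a : K)) hw
        push_cast at hw'
        rw [h4, h6] at hw'
        have e : (((-c6 / c4 - 1) / 4 : ℚ) : K) = -(w : K) * ((c4 : K))⁻¹ := by
          push_cast
          field_simp
          linear_combination -hw'
        rw [e]
        exact mul_mem (neg_mem w.2) hinv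
      · have h4' : ((4 : ℕ) : K)⁻¹ ∈ A := h.inv_natCast_mem (fun hd =>
          h2 ((Nat.prime_dvd_prime_iff_eq h.prime Nat.prime_two).1
            (h.prime.dvd_of_dvd_pow (n := 2) (by simpa using hd))))
        have e : (((-c6 / c4 - 1) / 4 : ℚ) : K)
            = -((c4 : K) + (c6 : K)) * ((c4 : K))⁻¹ * ((4 : ℕ) : K)⁻¹ := by
          push_cast
          field_simp
          ring
        rw [e]
        exact mul_mem (mul_mem (neg_mem (add_mem hc4A hc6A)) hinv) h4'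
    refine ⟨⟨1, (-c6 / c4 - 1) / 4, 0, -36 * ((c4 ^ 3 - c6 ^ 2) / 1728) / c4 ^ 2,
      ((c4 ^ 3 - c6 ^ 2) / 1728) * c6 / c4 ^ 3⟩, ?_, ?_, ?_, ?_, ?_, ?_, ?_⟩
    · simp only [c₄, b₂, b₄]
      field_simp
      ring
    · simp only [c₆, b₂, b₄, b₆]
      field_simp
      ring
    · show algebraMap ℚ K 1 ∈ A
      rw [map_one]; exact one_mem A
    · show algebraMap ℚ K _ ∈ A
      rw [eq_ratCast]; exact ha2
    · show algebraMap ℚ K 0 ∈ A
      rw [map_zero]; exact zero_mem A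
    · show algebraMap ℚ K _ ∈ A
      rw [eq_ratCast]
      have e : ((-36 * ((c4 ^ 3 - c6 ^ 2) / 1728) / c4 ^ 2 : ℚ) : K)
          = -36 * ((F.Δ : A) : K) * ((c4 : K))⁻¹ ^ 2 := by
        rw [hΔ]; push_cast; field_simp
      rw [e]
      exact mul_mem (mul_mem (neg_mem (ofNat_mem A 36)) F.Δ.2) (pow_mem hinv 2)
    · show algebraMap ℚ K _ ∈ A
      rw [eq_ratCast]
      have e : ((((c4 ^ 3 - c6 ^ 2) / 1728) * c6 / c4 ^ 3 : ℚ) : K)
          = ((F.Δ : A) : K) * (c6 : K) * ((c4 : K))⁻¹ ^ 3 := by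
        rw [hΔ]; push_cast; field_simp
      rw [e]
      exact mul_mem (mul_mem F.Δ.2 hc6A) (pow_mem hinv 3)
  · -- `c₄` is not a unit
    have hΔu : IsUnit F.Δ := hss.resolve_left hu
    by_cases h2 : l = 2
    · subst h2
      obtain ⟨⟨x, hx⟩, ⟨y, hy⟩⟩ := sixteen_dvd_c₄_and h F h6 hu hΔu
      have hx' := congrArg (fun a : A => (a : K)) hx
      have hy' := congrArg (fun a : A => (a : K)) hy
      push_cast at hx' hy'
      rw [h4] at hx'
      rw [h6] at hy'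
      have h3' : ((3 : ℕ) : K)⁻¹ ∈ A := h.inv_natCast_mem (by decide)
      have h27 : ((27 : ℕ) : K)⁻¹ ∈ A := h.inv_natCast_mem (by decide)
      refine ⟨⟨0, 0, 1, -c4 / 48, -(c6 + 216) / 864⟩, ?_, ?_, ?_, ?_, ?_, ?_, ?_⟩
      · simp only [c₄, b₂, b₄]
        ring
      · simp only [c₆, b₂, b₄, b₆]
        ring
      · show algebraMap ℚ K 0 ∈ A
        rw [map_zero]; exact zero_mem A
      · show algebraMap ℚ K 0 ∈ A
        rw [map_zero]; exact zero_mem A
      · show algebraMap ℚ K 1 ∈ A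
        rw [map_one]; exact one_mem A
      · show algebraMap ℚ K _ ∈ A
        rw [eq_ratCast]
        have e : ((-c4 / 48 : ℚ) : K) = -(x : K) * ((3 : ℕ) : K)⁻¹ := by
          push_cast; rw [hx']; field_simp; ring
        rw [e]
        exact mul_mem (neg_mem x.2) h3'
      · show algebraMap ℚ K _ ∈ A
        rw [eq_ratCast]
        have e : ((-(c6 + 216) / 864 : ℚ) : K) = -(y : K) * ((27 : ℕ) : K)⁻¹ := by
          push_cast; rw [hy']; field_simp; ring
        rw [e]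
        exact mul_mem (neg_mem y.2) h27
    · -- the short model `y² = x³ - (c₄/48) x - c₆/864`
      have key : ((-c4 / 48 : ℚ) : K) ∈ A ∧ ((-c6 / 864 : ℚ) : K) ∈ A := by
        by_cases h3 : l = 3
        · subst h3
          obtain ⟨x, hx⟩ := h.three_dvd_of_not_isUnit hu
          obtain ⟨y, hy⟩ := twentyseven_dvd_c₆ h F hu
          have hx' := congrArg (fun a : A => (a : K)) hx
          have hy' := congrArg (fun a : A => (a : K)) hy
          push_cast at hx' hy'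
          rw [h4] at hx'
          rw [h6] at hy'
          have h16 : ((16 : ℕ) : K)⁻¹ ∈ A := h.inv_natCast_mem (by decide)
          have h32 : ((32 : ℕ) : K)⁻¹ ∈ A := h.inv_natCast_mem (by decide)
          constructor
          · have e : ((-c4 / 48 : ℚ) : K) = -(x : K) * ((16 : ℕ) : K)⁻¹ := by
              push_cast; rw [hx']; field_simp; ring
            rw [e]
            exact mul_mem (neg_mem x.2) h16
          · have e : ((-c6 / 864 : ℚ) : K) = -(y : K) * ((32 : ℕ) : K)⁻¹ := by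
              push_cast; rw [hy']; field_simp; ring
            rw [e]
            exact mul_mem (neg_mem y.2) h32
        · have h48 : ((48 : ℕ) : K)⁻¹ ∈ A :=
            h.inv_natCast_mem (by simpa using h.not_dvd_two_three h2 h3 4 1)
          have h864 : ((864 : ℕ) : K)⁻¹ ∈ A :=
            h.inv_natCast_mem (by simpa using h.not_dvd_two_three h2 h3 5 3)
          constructor
          · have e : ((-c4 / 48 : ℚ) : K) = -(c4 : K) * ((48 : ℕ) : K)⁻¹ := by
              push_cast; field_simp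
            rw [e]
            exact mul_mem (neg_mem hc4A) h48
          · have e : ((-c6 / 864 : ℚ) : K) = -(c6 : K) * ((864 : ℕ) : K)⁻¹ := by
              push_cast; field_simp
            rw [e]
            exact mul_mem (neg_mem hc6A) h864
      refine ⟨⟨0, 0, 0, -c4 / 48, -c6 / 864⟩, ?_, ?_, ?_, ?_, ?_, ?_, ?_⟩
      · simp only [c₄, b₂, b₄]
        ring
      · simp only [c₆, b₂, b₄, b₆]
        ring
      · show algebraMap ℚ K 0 ∈ A
        rw [map_zero]; exact zero_mem A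
      · show algebraMap ℚ K 0 ∈ A
        rw [map_zero]; exact zero_mem A
      · show algebraMap ℚ K 0 ∈ A
        rw [map_zero]; exact zero_mem A
      · show algebraMap ℚ K _ ∈ A
        rw [eq_ratCast]; exact key.1
      · show algebraMap ℚ K _ ∈ A
        rw [eq_ratCast]; exact key.2

end Core

section Rational

/-- The variable change from a Weierstrass curve over `ℚ` to its short model. -/
noncomputable def toShort (E : WeierstrassCurve ℚ) : VariableChange ℚ :=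
  ⟨Units.mk0 (1 / 6) (by norm_num), -E.b₂ / 12, -E.a₁ / 2, E.a₁ * E.b₂ / 24 - E.a₃ / 2⟩

lemma toShort_smul (E : WeierstrassCurve ℚ) :
    toShort E • E = ⟨0, 0, 0, -27 * E.c₄, -54 * E.c₆⟩ := by
  have hu : (((toShort E).u⁻¹ : ℚˣ) : ℚ) = 6 := by
    simp [toShort]
  ext
  · simp only [variableChange_def, hu]
    simp only [toShort]
    ring
  · simp only [variableChange_def, hu]
    simp only [toShort, b₂]
    ring
  · simp only [variableChange_def, hu]
    simp only [toShort, b₂]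
    ring
  · simp only [variableChange_def, hu]
    simp only [toShort, b₂, b₄, c₄]
    ring
  · simp only [variableChange_def, hu]
    simp only [toShort, b₂, b₄, b₆, c₆]
    ring

/-- Two Weierstrass curves over `ℚ` with the same `c₄` and `c₆` differ by a variable change. -/
theorem exists_variableChange_of_c_eq (E₁ E₂ : WeierstrassCurve ℚ) (h4 : E₁.c₄ = E₂.c₄)
    (h6 : E₁.c₆ = E₂.c₆) : ∃ C : VariableChange ℚ, C • E₁ = E₂ := by
  refine ⟨(toShort E₂)⁻¹ * toShort E₁, ?_⟩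
  rw [mul_smul, toShort_smul, h4, h6, ← toShort_smul E₂, inv_smul_smul]

lemma exists_int_eq_pow_mul (q : ℚ) (d : ℕ) (hd : q.den ∣ d) (i : ℕ) :
    ∃ n : ℤ, (n : ℚ) = (d : ℚ) ^ (i + 1) * q := by
  obtain ⟨e, rfl⟩ := hd
  refine ⟨((q.den * e : ℕ) : ℤ) ^ i * e * q.num, ?_⟩
  have := Rat.mul_den_eq_num q
  push_cast
  rw [← this]
  ring

end Rational

section Final

variable {K : Type*} [Field K] [CharZero K] {A : ValuationSubring K} {l : ℕ}

lemma IntegralAt.val_le {W0 : WeierstrassCurve ℚ}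
    (hW0 : IntegralAt A (W0.map (algebraMap ℚ K))) :
    A.valuation ((W0.a₁ : ℚ) : K) ≤ 1 ∧ A.valuation ((W0.a₂ : ℚ) : K) ≤ 1 ∧
      A.valuation ((W0.a₃ : ℚ) : K) ≤ 1 ∧ A.valuation ((W0.a₄ : ℚ) : K) ≤ 1 ∧
      A.valuation ((W0.a₆ : ℚ) : K) ≤ 1 := by
  obtain ⟨h1, h2, h3, h4, h6⟩ := hW0
  refine ⟨?_, ?_, ?_, ?_, ?_⟩ <;> rw [A.valuation_le_one_iff, ← eq_ratCast (algebraMap ℚ K)]
  · exact h1
  · exact h2
  · exact h3
  · exact h4
  · exact h6

/-- Clearing the prime-to-`l` denominators of a model over `ℚ` with `A`-integral coefficients. -/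
theorem exists_int_model (h : Unram A l) (W0 : WeierstrassCurve ℚ)
    (hW0 : IntegralAt A (W0.map (algebraMap ℚ K))) :
    ∃ (W : WeierstrassCurve ℤ) (d : ℕ), ¬ l ∣ d ∧
      (∃ D : VariableChange ℚ, D • W0 = W.map (Int.castRingHom ℚ)) ∧
      ((W.Δ : ℤ) : ℚ) = (d : ℚ) ^ 12 * W0.Δ ∧ ((W.c₄ : ℤ) : ℚ) = (d : ℚ) ^ 4 * W0.c₄ := by
  obtain ⟨v1, v2, v3, v4, v6⟩ := hW0.val_le
  obtain ⟨d, hd⟩ : ∃ d : ℕ, d = W0.a₁.den * W0.a₂.den * W0.a₃.den * W0.a₄.den * W0.a₆.den :=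
    ⟨_, rfl⟩
  have hdpos : d ≠ 0 := by
    rw [hd]
    exact mul_ne_zero (mul_ne_zero (mul_ne_zero (mul_ne_zero W0.a₁.den_nz W0.a₂.den_nz)
      W0.a₃.den_nz) W0.a₄.den_nz) W0.a₆.den_nz
  have hd0 : (d : ℚ) ≠ 0 := by exact_mod_cast hdpos
  have hld : ¬ l ∣ d := by
    rw [hd]
    intro hdv
    rcases (Nat.Prime.dvd_mul h.prime).1 hdv with hdv | hdv
    · rcases (Nat.Prime.dvd_mul h.prime).1 hdv with hdv | hdv
      · rcases (Nat.Prime.dvd_mul h.prime).1 hdv with hdv | hdv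
        · rcases (Nat.Prime.dvd_mul h.prime).1 hdv with hdv | hdv
          · exact h.not_dvd_den v1 hdv
          · exact h.not_dvd_den v2 hdv
        · exact h.not_dvd_den v3 hdv
      · exact h.not_dvd_den v4 hdv
    · exact h.not_dvd_den v6 hdv
  obtain ⟨n1, hn1⟩ := exists_int_eq_pow_mul W0.a₁ d
    ⟨W0.a₂.den * W0.a₃.den * W0.a₄.den * W0.a₆.den, by rw [hd]; ring⟩ 0
  obtain ⟨n2, hn2⟩ := exists_int_eq_pow_mul W0.a₂ d
    ⟨W0.a₁.den * W0.a₃.den * W0.a₄.den * W0.a₆.den, by rw [hd]; ring⟩ 1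
  obtain ⟨n3, hn3⟩ := exists_int_eq_pow_mul W0.a₃ d
    ⟨W0.a₁.den * W0.a₂.den * W0.a₄.den * W0.a₆.den, by rw [hd]; ring⟩ 2
  obtain ⟨n4, hn4⟩ := exists_int_eq_pow_mul W0.a₄ d
    ⟨W0.a₁.den * W0.a₂.den * W0.a₃.den * W0.a₆.den, by rw [hd]; ring⟩ 3
  obtain ⟨n6, hn6⟩ := exists_int_eq_pow_mul W0.a₆ d
    ⟨W0.a₁.den * W0.a₂.den * W0.a₃.den * W0.a₄.den, by rw [hd]; ring⟩ 5
  obtain ⟨D, hDu, hDr, hDs, hDt⟩ : ∃ D : VariableChange ℚ,
      ((D.u⁻¹ : ℚˣ) : ℚ) = d ∧ D.r = 0 ∧ D.s = 0 ∧ D.t = 0 :=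
    ⟨⟨Units.mk0 ((d : ℚ)⁻¹) (inv_ne_zero hd0), 0, 0, 0⟩, by simp, rfl, rfl, rfl⟩
  have hD : D • W0 = (⟨n1, n2, n3, n4, n6⟩ : WeierstrassCurve ℤ).map (Int.castRingHom ℚ) := by
    ext
    · show _ = ((n1 : ℤ) : ℚ)
      rw [hn1, variableChange_a₁, hDu, hDs]; ring
    · show _ = ((n2 : ℤ) : ℚ)
      rw [hn2, variableChange_a₂, hDu, hDs, hDr]; ring
    · show _ = ((n3 : ℤ) : ℚ)
      rw [hn3, variableChange_a₃, hDu, hDt, hDr]; ring
    · show _ = ((n4 : ℤ) : ℚ)
      rw [hn4, variableChange_a₄, hDu, hDs, hDr, hDt]; ring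
    · show _ = ((n6 : ℤ) : ℚ)
      rw [hn6, variableChange_a₆, hDu, hDr, hDt]; ring
  refine ⟨⟨n1, n2, n3, n4, n6⟩, d, hld, ⟨D, hD⟩, ?_, ?_⟩
  · have := congrArg WeierstrassCurve.Δ hD
    rw [variableChange_Δ, map_Δ, hDu] at this
    exact this.symm
  · have := congrArg WeierstrassCurve.c₄ hD
    rw [variableChange_c₄, map_c₄, hDu] at this
    exact this.symm

/-- **Unramified descent of semistable models.**  If `E / ℚ` has, after a variable change over
`K`, an `A`-integral model whose `c₄` or `Δ` is a unit, then `E` has a model over `ℤ` whose `Δ`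
and `c₄` have the same valuations. -/
theorem exists_int_model_of_semistable (h : Unram A l) (E : WeierstrassCurve ℚ)
    (C : VariableChange K) (hint : IntegralAt A (C • E.map (algebraMap ℚ K)))
    (hss : A.valuation (C • E.map (algebraMap ℚ K)).c₄ = 1 ∨
      A.valuation (C • E.map (algebraMap ℚ K)).Δ = 1) :
    ∃ W : WeierstrassCurve ℤ, W.IsIntegralModelOf E ∧
      A.valuation ((W.Δ : ℤ) : K) = A.valuation (C • E.map (algebraMap ℚ K)).Δ ∧
      A.valuation ((W.c₄ : ℤ) : K) = A.valuation (C • E.map (algebraMap ℚ K)).c₄ := by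
  obtain ⟨E', hE'⟩ : ∃ E', E' = C • E.map (algebraMap ℚ K) := ⟨_, rfl⟩
  rw [← hE'] at hint hss ⊢
  have hl0 : (l : K) ≠ 0 := h.ne_zero
  have hu0 : (C.u : K) ≠ 0 := C.u.ne_zero
  have huinv : ((C.u⁻¹ : Kˣ) : K) = (C.u : K)⁻¹ := Units.val_inv_eq_inv_val _
  have hc4 : E'.c₄ = ((C.u : K))⁻¹ ^ 4 * ((E.c₄ : ℚ) : K) := by
    rw [hE', variableChange_c₄, map_c₄, eq_ratCast, huinv]
  have hc6 : E'.c₆ = ((C.u : K))⁻¹ ^ 6 * ((E.c₆ : ℚ) : K) := by
    rw [hE', variableChange_c₆, map_c₆, eq_ratCast, huinv]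
  have hΔ : E'.Δ = ((C.u : K))⁻¹ ^ 12 * ((E.Δ : ℚ) : K) := by
    rw [hE', variableChange_Δ, map_Δ, eq_ratCast, huinv]
  -- step 1: `u` is a power of `l` up to a unit
  obtain ⟨j, hj⟩ : ∃ j : ℤ, A.valuation ((C.u : K) * (l : K) ^ j) = 1 := by
    rcases hss with hs | hs
    · have hne : E.c₄ ≠ 0 := by
        intro h0
        rw [hc4, h0] at hs
        simp at hs
      obtain ⟨n, hn⟩ := h.exists_zpow_val_eq_one (K := K) (A := A) hne
      refine h.exists_zpow_of_pow (k := 4) (by norm_num) (n := n) ?_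
      have e : (C.u : K) ^ 4 * (l : K) ^ n * E'.c₄ = ((E.c₄ : ℚ) : K) * (l : K) ^ n := by
        rw [hc4]; field_simp
      have := congrArg A.valuation e
      rw [map_mul, hs, mul_one, hn] at this
      exact this
    · have hne : E.Δ ≠ 0 := by
        intro h0
        rw [hΔ, h0] at hs
        simp at hs
      obtain ⟨n, hn⟩ := h.exists_zpow_val_eq_one (K := K) (A := A) hne
      refine h.exists_zpow_of_pow (k := 12) (by norm_num) (n := n) ?_
      have e : (C.u : K) ^ 12 * (l : K) ^ n * E'.Δ = ((E.Δ : ℚ) : K) * (l : K) ^ n := by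
        rw [hΔ]; field_simp
      have := congrArg A.valuation e
      rw [map_mul, hs, mul_one, hn] at this
      exact this
  -- step 2: the rescaled `A`-integral model with rational invariants
  obtain ⟨z, hz⟩ : ∃ z : K, z = (C.u : K) * (l : K) ^ j := ⟨_, rfl⟩
  rw [← hz] at hj
  have hzA : z ∈ A := (A.valuation_le_one_iff z).1 hj.le
  obtain ⟨e1, e2, e3, e4, e6⟩ := hint
  obtain ⟨F, hF1, hF2, hF3, hF4', hF6'⟩ : ∃ F : WeierstrassCurve A,
      ((F.a₁ : A) : K) = z * E'.a₁ ∧ ((F.a₂ : A) : K) = z ^ 2 * E'.a₂ ∧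
      ((F.a₃ : A) : K) = z ^ 3 * E'.a₃ ∧ ((F.a₄ : A) : K) = z ^ 4 * E'.a₄ ∧
      ((F.a₆ : A) : K) = z ^ 6 * E'.a₆ :=
    ⟨⟨⟨z * E'.a₁, mul_mem hzA e1⟩, ⟨z ^ 2 * E'.a₂, mul_mem (pow_mem hzA 2) e2⟩,
      ⟨z ^ 3 * E'.a₃, mul_mem (pow_mem hzA 3) e3⟩, ⟨z ^ 4 * E'.a₄, mul_mem (pow_mem hzA 4) e4⟩,
      ⟨z ^ 6 * E'.a₆, mul_mem (pow_mem hzA 6) e6⟩⟩, rfl, rfl, rfl, rfl, rfl⟩
  have hF4 : ((F.c₄ : A) : K) = z ^ 4 * E'.c₄ := by
    simp only [c₄, b₂, b₄]
    push_cast
    rw [hF1, hF2, hF3, hF4']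
    ring
  have hF6 : ((F.c₆ : A) : K) = z ^ 6 * E'.c₆ := by
    simp only [c₆, b₂, b₄, b₆]
    push_cast
    rw [hF1, hF2, hF3, hF4', hF6']
    ring
  have hFΔ : ((F.Δ : A) : K) = z ^ 12 * E'.Δ := by
    simp only [Δ, b₂, b₄, b₆, b₈]
    push_cast
    rw [hF1, hF2, hF3, hF4', hF6']
    ring
  obtain ⟨lam, hlam⟩ : ∃ lam : ℚ, lam = (l : ℚ) ^ j := ⟨_, rfl⟩
  have hlam0 : lam ≠ 0 := by
    rw [hlam]; exact zpow_ne_zero _ (by exact_mod_cast h.prime.ne_zero)
  have hlamK : ((lam : ℚ) : K) = (l : K) ^ j := by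
    rw [hlam]; push_cast; rfl
  have h4 : ((F.c₄ : A) : K) = ((lam ^ 4 * E.c₄ : ℚ) : K) := by
    rw [hF4, hc4, hz]; push_cast; rw [hlamK]; field_simp
  have h6 : ((F.c₆ : A) : K) = ((lam ^ 6 * E.c₆ : ℚ) : K) := by
    rw [hF6, hc6, hz]; push_cast; rw [hlamK]; field_simp
  have hFss : IsUnit F.c₄ ∨ IsUnit F.Δ := by
    rcases hss with hs | hs
    · left; rw [A.valuation_eq_one_iff, hF4, map_mul, map_pow, hj, one_pow, one_mul, hs]
    · right; rw [A.valuation_eq_one_iff, hFΔ, map_mul, map_pow, hj, one_pow, one_mul, hs]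
  obtain ⟨W0, hW4, hW6, hW0int⟩ := core h F _ _ h4 h6 hFss
  -- step 3: `W0` is a model of `E`
  obtain ⟨C0, hC0⟩ : ∃ C0 : VariableChange ℚ, ((C0.u⁻¹ : ℚˣ) : ℚ) = lam :=
    ⟨⟨Units.mk0 lam⁻¹ (inv_ne_zero hlam0), 0, 0, 0⟩, by simp⟩
  obtain ⟨C2, hC2⟩ := exists_variableChange_of_c_eq (C0 • E) W0
    (by rw [variableChange_c₄, hC0, hW4]) (by rw [variableChange_c₆, hC0, hW6])
  -- step 4: clear denominators
  obtain ⟨W, d, hld, ⟨D, hD⟩, hWΔ, hWc⟩ := exists_int_model h W0 hW0int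
  have hdv : A.valuation ((d : ℕ) : K) = 1 := h.val_natCast_eq_one hld
  refine ⟨W, ⟨D * C2 * C0, by rw [mul_smul, mul_smul, hC2, hD]⟩, ?_, ?_⟩
  · have hW0Δ : ((W0.Δ : ℚ) : K) = ((F.Δ : A) : K) := by
      have r1 := congrArg (fun q : ℚ => (q : K)) W0.c_relation
      have r2 := congrArg (fun a : A => (a : K)) F.c_relation
      push_cast at r1 r2
      rw [h4, h6, ← hW4, ← hW6] at r2
      linear_combination (1 / 1728 : K) * r1 - (1 / 1728 : K) * r2
    have e : (((W.Δ : ℤ)) : K) = (d : K) ^ 12 * ((W0.Δ : ℚ) : K) := by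
      have := congrArg (fun q : ℚ => (q : K)) hWΔ
      push_cast at this
      exact this
    rw [e, map_mul, map_pow, hdv, one_pow, one_mul, hW0Δ, hFΔ, map_mul, map_pow, hj, one_pow,
      one_mul]
  · have e : (((W.c₄ : ℤ)) : K) = (d : K) ^ 4 * ((W0.c₄ : ℚ) : K) := by
      have := congrArg (fun q : ℚ => (q : K)) hWc
      push_cast at this
      exact this
    rw [e, map_mul, map_pow, hdv, one_pow, one_mul, hW4, ← h4, hF4, map_mul, map_pow, hj, one_pow,
      one_mul]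

/-- Consumer form (good reduction): a good `A`-integral model over `K` descends to a model over
`ℤ` with `l ∤ Δ`. -/
theorem exists_good_int_model (l : ℕ) [hp : Fact l.Prime] (A : ValuationSubring K)
    (hl : A.valuation (l : K) < 1)
    (hunr : ∀ x : K, A.valuation x < 1 → A.valuation (x / (l : K)) ≤ 1)
    (E : WeierstrassCurve ℚ) (C : VariableChange K)
    (hint : IntegralAt A (C • E.map (algebraMap ℚ K)))
    (hΔ : A.valuation (C • E.map (algebraMap ℚ K)).Δ = 1) :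
    ∃ W : WeierstrassCurve ℤ, W.IsIntegralModelOf E ∧ ¬ (l : ℤ) ∣ W.Δ := by
  have h : Unram A l := ⟨hp.out, hl, hunr⟩
  obtain ⟨W, hW, hWΔ, -⟩ := exists_int_model_of_semistable h E C hint (Or.inr hΔ)
  exact ⟨W, hW, h.not_dvd_of_val_eq_one (hWΔ.trans hΔ)⟩

/-- Consumer form (multiplicative or good ordinary reduction): an `A`-integral model over `K`
with `c₄` a unit descends to a model over `ℤ` with `l ∤ c₄`, and `l ∣ Δ` exactly when the
`K`-model has bad reduction. -/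
theorem exists_mult_int_model (l : ℕ) [hp : Fact l.Prime] (A : ValuationSubring K)
    (hl : A.valuation (l : K) < 1)
    (hunr : ∀ x : K, A.valuation x < 1 → A.valuation (x / (l : K)) ≤ 1)
    (E : WeierstrassCurve ℚ) (C : VariableChange K)
    (hint : IntegralAt A (C • E.map (algebraMap ℚ K)))
    (hc : A.valuation (C • E.map (algebraMap ℚ K)).c₄ = 1) :
    ∃ W : WeierstrassCurve ℤ, W.IsIntegralModelOf E ∧ ¬ (l : ℤ) ∣ W.c₄ ∧
      ((l : ℤ) ∣ W.Δ ↔ A.valuation (C • E.map (algebraMap ℚ K)).Δ < 1) := by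
  have h : Unram A l := ⟨hp.out, hl, hunr⟩
  obtain ⟨W, hW, hWΔ, hWc⟩ := exists_int_model_of_semistable h E C hint (Or.inl hc)
  refine ⟨W, hW, h.not_dvd_of_val_eq_one (hWc.trans hc), ?_, ?_⟩
  · intro hd
    rw [← hWΔ]
    exact h.val_intCast_lt hd
  · intro hlt
    by_contra hnd
    rw [← hWΔ, h.val_intCast_eq_one hnd] at hlt
    exact lt_irrefl _ hlt

end Final

end Fermat.Agent.S58.helper898
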