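/-
S58, route #1886, steps 4b / 5a: the RESIDUE-FIELD CORE of Eichler–Shimura, as pure group algebra.

Setting (abstract): `G` an abelian group (the points `Ē(K)` of the reduced curve over a field
`K ⊇ F_q` of characteristic `p`), `Fr : G →+ G` injective (Frobenius on points), `δ : G →+ L`
(the invariant differential w.r.t. a derivation of `K`; `L` of characteristic `p`) with
`δ ∘ Fr = 0`, and the Cayley–Hamilton relation `Fr² − τ Fr + q = 0` on `G`, `p ∣ q`.

* `FrobCore.delta_eq_zero_of_zsmul_eq_zero` : torsion points have `δ = 0`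
  (so a point with `δ R ≠ 0` is NOT torsion: no division polynomials, no algebraicity of torsion
  coordinates, no finiteness of torsion needed);
* `FrobCore.trace_eq` : `Fr² R − a Fr R + q R = 0` and `δ R ≠ 0` force `a = τ`  (step 4);
* `FrobCore.trace_eq_of_U` : `p R = a Fr R` and `δ R ≠ 0` force `τ = ±(p + 1)`  (step 5a);
* `card_point_le`, `one_le_card_point`, `abs_traceOfFrobenius_le` : the trivial point count bound
  `1 ≤ #W(k) ≤ 2 #k + 1`, hence `|τ| ≤ #k`, which excludes `τ = ±(p + 1)`.
-/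
import Mathlib
import Fermat.Prelude.Def_FLTPrelim_Modularity

set_option autoImplicit false

namespace Fermat.Agent.S58.helper979

/-- The hypotheses of the residue-field core: an injective endomorphism `Fr` of an abelian group
`G`, an additive map `δ` to a group of "characteristic `p`" killing the image of `Fr`, and the
Cayley–Hamilton relation `Fr² − τ Fr + q = 0` with `p ∣ q`. -/
structure FrobCore {G : Type*} [AddCommGroup G] {L : Type*} [AddCommGroup L]
    (p q : ℕ) (Fr : G →+ G) (δ : G →+ L) (τ : ℤ) : Prop where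
  prime : p.Prime
  dvd : p ∣ q
  inj : Function.Injective Fr
  delta_frob : ∀ P, δ (Fr P) = 0
  char : ∀ (n : ℤ) (x : L), n • x = 0 → (p : ℤ) ∣ n ∨ x = 0
  ch : ∀ P, Fr (Fr P) - τ • Fr P + (q : ℤ) • P = 0

namespace FrobCore

variable {G : Type*} [AddCommGroup G] {L : Type*} [AddCommGroup L]
  {p q : ℕ} {Fr : G →+ G} {δ : G →+ L} {τ : ℤ}

/-- `Fr (τ S − Fr S) = q S` (the Verschiebung `V = τ − Fr` satisfies `Fr V = q`). -/
theorem frob_verschiebung (h : FrobCore p q Fr δ τ) (S : G) :
    Fr (τ • S - Fr S) = (q : ℤ) • S := by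
  have := h.ch S
  rw [map_sub, map_zsmul]
  linear_combination (norm := abel) -this

/-- Ordinary case: `p`-power torsion points have `δ = 0`. -/
theorem delta_eq_zero_of_pow_smul_of_not_dvd (h : FrobCore p q Fr δ τ) (hτ : ¬ (p : ℤ) ∣ τ) :
    ∀ (e : ℕ) (S : G), ((p : ℤ) ^ e) • S = 0 → δ S = 0 := by
  obtain ⟨q', rfl⟩ := h.dvd
  intro e
  induction e with
  | zero => intro S hS; rw [pow_zero, one_zsmul] at hS; rw [hS, map_zero]
  | succ e ih =>
    intro S hS
    have h1 : Fr (((p : ℤ) ^ e) • (τ • S - Fr S)) = 0 := by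
      rw [map_zsmul, h.frob_verschiebung S]
      have : ((p : ℤ) ^ e) • ((p * q' : ℕ) : ℤ) • S = (q' : ℤ) • ((p : ℤ) ^ (e + 1)) • S := by
        rw [smul_smul, smul_smul]; congr 1; push_cast; ring
      rw [this, hS, smul_zero]
    have h2 : ((p : ℤ) ^ e) • (τ • S - Fr S) = 0 := h.inj (by rw [h1, map_zero])
    have h3 := ih _ h2
    rw [map_sub, map_zsmul, h.delta_frob, sub_zero] at h3
    rcases h.char _ _ h3 with h4 | h4
    · exact absurd h4 hτ
    · exact h4

/-- Supersingular case: there is no `p`-power torsion at all. -/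
theorem eq_zero_of_pow_smul_of_dvd (h : FrobCore p q Fr δ τ) (hτ : (p : ℤ) ∣ τ) :
    ∀ (e : ℕ) (S : G), ((p : ℤ) ^ e) • S = 0 → S = 0 := by
  obtain ⟨q', rfl⟩ := h.dvd
  obtain ⟨τ', rfl⟩ := hτ
  intro e
  induction e with
  | zero => intro S hS; rwa [pow_zero, one_zsmul] at hS
  | succ e ih =>
    intro S hS
    refine ih S (h.inj (h.inj ?_))
    rw [map_zero, map_zero, map_zsmul, map_zsmul]
    have h1 := h.ch S
    have h2 : Fr (Fr S) = (p : ℤ) • (τ' • Fr S - (q' : ℤ) • S) := by
      rw [smul_sub, smul_smul, smul_smul]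
      have : ((p * q' : ℕ) : ℤ) = (p : ℤ) * q' := by push_cast; ring
      rw [this] at h1
      linear_combination (norm := abel) h1
    rw [h2, smul_smul]
    have h3 : ((p : ℤ) ^ e * p) • (τ' • Fr S - (q' : ℤ) • S)
        = τ' • Fr (((p : ℤ) ^ (e + 1)) • S) - (q' : ℤ) • (((p : ℤ) ^ (e + 1)) • S) := by
      rw [map_zsmul, smul_sub, smul_smul, smul_smul, smul_smul, smul_smul]
      congr 2 <;> ring
    rw [h3, hS, map_zero, smul_zero, smul_zero, sub_zero]

/-- `p`-power torsion points have `δ = 0`. -/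
theorem delta_eq_zero_of_pow_smul (h : FrobCore p q Fr δ τ) (e : ℕ) (S : G)
    (hS : ((p : ℤ) ^ e) • S = 0) : δ S = 0 := by
  by_cases hτ : (p : ℤ) ∣ τ
  · rw [h.eq_zero_of_pow_smul_of_dvd hτ e S hS, map_zero]
  · exact h.delta_eq_zero_of_pow_smul_of_not_dvd hτ e S hS

/-- **Torsion points are killed by `δ`.** -/
theorem delta_eq_zero_of_zsmul_eq_zero (h : FrobCore p q Fr δ τ) {R : G} {c : ℤ} (hc : c ≠ 0)
    (hR : c • R = 0) : δ R = 0 := by
  have hfin : FiniteMultiplicity (p : ℤ) c :=
    Int.finiteMultiplicity_iff.mpr ⟨by simpa using h.prime.ne_one, hc⟩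
  obtain ⟨n, hcn, hn⟩ := hfin.exists_eq_pow_mul_and_not_dvd
  rw [hcn] at hR
  have h1 : δ (n • R) = 0 :=
    h.delta_eq_zero_of_pow_smul _ (n • R) (by rw [smul_smul]; exact hR)
  rw [map_zsmul] at h1
  rcases h.char _ _ h1 with h2 | h2
  · exact absurd h2 hn
  · exact h2

/-- **A point with `δ R ≠ 0` is not torsion.** -/
theorem zsmul_ne_zero (h : FrobCore p q Fr δ τ) {R : G} (hR : δ R ≠ 0) {c : ℤ} (hc : c ≠ 0) :
    c • R ≠ 0 :=
  fun h0 => hR (h.delta_eq_zero_of_zsmul_eq_zero hc h0)

/-- If `δ R ≠ 0` then `c • R = 0` forces `c = 0`. -/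
theorem eq_zero_of_zsmul_eq_zero (h : FrobCore p q Fr δ τ) {R : G} (hR : δ R ≠ 0) {c : ℤ}
    (h0 : c • R = 0) : c = 0 := by
  by_contra hc
  exact h.zsmul_ne_zero hR hc h0

/-- **Step 4 core (Eichler–Shimura at a good prime).** If a point `R` with `δ R ≠ 0` satisfies
`Fr² R − a Fr R + q R = 0`, then `a` is the trace `τ` of the Cayley–Hamilton relation. -/
theorem trace_eq (h : FrobCore p q Fr δ τ) {R : G} (hR : δ R ≠ 0) {a : ℤ}
    (hrel : Fr (Fr R) - a • Fr R + (q : ℤ) • R = 0) : a = τ := by
  have h1 := h.ch R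
  have h2 : Fr ((τ - a) • R) = 0 := by
    rw [map_zsmul, sub_smul]
    linear_combination (norm := abel) hrel - h1
  have h3 : (τ - a) • R = 0 := h.inj (by rw [h2, map_zero])
  have := h.eq_zero_of_zsmul_eq_zero hR h3
  omega

/-- **Step 5a core (`U_ℓ`-relation).** If a point `R` with `δ R ≠ 0` satisfies `p R = a Fr R`
(and `q = p`), then `τ = ±(p + 1)`. -/
theorem trace_eq_of_U (h : FrobCore p p Fr δ τ) {R : G} (hR : δ R ≠ 0) {a : ℤ}
    (hrel : (p : ℤ) • R = a • Fr R) : τ = p + 1 ∨ τ = -(p + 1) := by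
  have h1 := h.frob_verschiebung R
  have h2 : Fr R = (τ - a) • R := by
    have : Fr (τ • R - Fr R) = Fr (a • R) := by rw [h1, hrel, map_zsmul]
    have h3 := h.inj this
    rw [sub_smul]
    linear_combination (norm := abel) -h3
  obtain ⟨m, hm⟩ : ∃ m : ℤ, m = τ - a := ⟨_, rfl⟩
  rw [← hm] at h2
  -- `p ∣ m`
  have h4 : m • δ R = 0 := by rw [← map_zsmul, ← h2, h.delta_frob]
  have h5 : (p : ℤ) ∣ m := (h.char _ _ h4).resolve_right hR
  -- `m² − τ m + p = 0`
  have h6 : (m * m - τ * m + p) • R = 0 := by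
    have h7 := h.ch R
    rw [h2, map_zsmul, h2] at h7
    rw [add_smul, sub_smul, mul_smul, mul_smul]
    exact h7
  have h8 := h.eq_zero_of_zsmul_eq_zero hR h6
  obtain ⟨m', rfl⟩ := h5
  have hp0 : (p : ℤ) ≠ 0 := by exact_mod_cast h.prime.ne_zero
  have h9 : m' * (τ - p * m') = 1 := by
    have : (p : ℤ) * (m' * (τ - p * m')) = p * 1 := by linear_combination -h8
    exact mul_left_cancel₀ hp0 this
  rcases Int.eq_one_or_neg_one_of_mul_eq_one h9 with h10 | h10
  · left; rw [h10] at h9; linear_combination h9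
  · right; rw [h10] at h9; linear_combination -h9

end FrobCore

/-! ## The trivial point count bound `1 ≤ #W(k) ≤ 2 #k + 1` -/

section PointCount

open WeierstrassCurve WeierstrassCurve.Affine

variable {k : Type*} [Field k]

open Classical in
/-- Code of a point: its `x`-coordinate and whether `y` is the chosen root of the fibre. -/
private noncomputable def ptCode (W : Affine k) : W.Point → Option (k × Bool)
  | .zero => none
  | .some x y _ => some (x, decide (y = if h : ∃ y', W.Equation x y' then h.choose else 0))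

private theorem ptCode_injective (W : Affine k) : Function.Injective (ptCode W) := by
  classical
  rintro (_ | ⟨x₁, y₁, h₁⟩) (_ | ⟨x₂, y₂, h₂⟩) h
  · rfl
  · simp [ptCode] at h
  · simp [ptCode] at h
  · simp only [ptCode, Option.some.injEq, Prod.mk.injEq] at h
    obtain ⟨rfl, hy⟩ := h
    have hex : ∃ y', W.Equation x₁ y' := ⟨y₁, h₁.1⟩
    rw [dif_pos hex] at hy
    have hc := hex.choose_spec
    set c := hex.choose with hcdef
    have e₁ := (equation_iff _ _).mp h₁.1
    have e₂ := (equation_iff _ _).mp h₂.1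
    have ec := (equation_iff _ _).mp hc
    by_cases hy₁ : y₁ = c
    · have hy₂ : y₂ = c := by
        by_contra hne
        simp [hy₁, hne] at hy
      subst hy₁; subst hy₂; rfl
    · have hy₂ : y₂ ≠ c := by
        intro heq
        simp [hy₁, heq] at hy
      have k₁ : y₁ + c + W.a₁ * x₁ + W.a₃ = 0 := by
        have : (y₁ - c) * (y₁ + c + W.a₁ * x₁ + W.a₃) = 0 := by linear_combination e₁ - ec
        exact (mul_eq_zero.mp this).resolve_left (sub_ne_zero.mpr hy₁)
      have k₂ : y₂ + c + W.a₁ * x₁ + W.a₃ = 0 := by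
        have : (y₂ - c) * (y₂ + c + W.a₁ * x₁ + W.a₃) = 0 := by linear_combination e₂ - ec
        exact (mul_eq_zero.mp this).resolve_left (sub_ne_zero.mpr hy₂)
      have : y₁ = y₂ := by linear_combination k₁ - k₂
      subst this; rfl

/-- A Weierstrass curve over a finite field has at most `2 #k + 1` points. -/
theorem card_point_le [Finite k] (W : Affine k) : Nat.card W.Point ≤ 2 * Nat.card k + 1 := by
  have := Nat.card_le_card_of_injective _ (ptCode_injective W)
  have e : Nat.card (Option (k × Bool)) = 2 * Nat.card k + 1 := by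
    have := Fintype.ofFinite k
    rw [Nat.card_eq_fintype_card, Fintype.card_option, Fintype.card_prod, Fintype.card_bool,
      Nat.card_eq_fintype_card, mul_comm]
  rwa [e] at this

/-- A Weierstrass curve over a finite field has at least one point. -/
theorem one_le_card_point [Finite k] (W : Affine k) : 1 ≤ Nat.card W.Point := by
  have : Finite W.Point := Finite.of_injective _ (ptCode_injective W)
  exact Nat.one_le_iff_ne_zero.mpr (Nat.card_ne_zero.mpr ⟨⟨0⟩, inferInstance⟩)

/-- The Prelude trace of Frobenius satisfies `|τ| ≤ #k`. -/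
theorem abs_traceOfFrobenius_le [Finite k] (W : WeierstrassCurve k) :
    |W.traceOfFrobenius| ≤ (Nat.card k : ℤ) := by
  have h1 := card_point_le W.toAffine
  have h2 := one_le_card_point W.toAffine
  unfold WeierstrassCurve.traceOfFrobenius WeierstrassCurve.card
  rw [abs_le]
  constructor <;> omega

/-- In particular the trace of Frobenius is never `±(#k + 1)`. -/
theorem traceOfFrobenius_ne [Finite k] (W : WeierstrassCurve k) :
    ¬ (W.traceOfFrobenius = (Nat.card k : ℤ) + 1 ∨ W.traceOfFrobenius = -((Nat.card k : ℤ) + 1)) := by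
  have h := abs_traceOfFrobenius_le W
  rw [abs_le] at h
  rintro (h1 | h1) <;> omega

end PointCount

end Fermat.Agent.S58.helper979
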